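/-
S24 helper library: level-one analytic facts about the `j`-function (no valence formula needed).
-/
import Mathlib

set_option autoImplicit false

namespace Fermat.Agent.S24x

open UpperHalfPlane ModularForm EisensteinSeries Complex CongruenceSubgroup Filter
open scoped MatrixGroups ModularForm Manifold Topology

local notation "Δ" => ModularForm.discriminant

/-- the analytic `j`-function `E₄³ / Δ` on the upper half plane. -/
noncomputable def jAn (τ : ℍ) : ℂ := E₄ τ ^ 3 / Δ τ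

theorem jAn_def (τ : ℍ) : jAn τ = E₄ τ ^ 3 / Δ τ := rfl

theorem jAn_sub_1728 (τ : ℍ) : jAn τ - 1728 = E₆ τ ^ 2 / Δ τ := by
  have h := discriminant_eq_E₄_cube_sub_E₆_sq τ
  have hΔ := discriminant_ne_zero τ
  rw [jAn_def]
  field_simp
  rw [h]
  ring

theorem jAn_mdiff : MDiff jAn := by
  have h4 : MDiff (fun τ : ℍ => E₄ τ ^ 3) := (ModularFormClass.holo E₄).pow 3
  exact h4.div CuspForm.discriminant.holo' discriminant_ne_zero

/-- `j` is invariant under `SL(2, ℤ)`. -/
theorem jAn_slash (γ : SL(2, ℤ)) : jAn ∣[(0 : ℤ)] γ = jAn := by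
  have hγ : (γ : GL (Fin 2) ℝ) ∈ 𝒮ℒ := ⟨γ, rfl⟩
  have h4 : (⇑(E₄.pow 3)) ∣[(12 : ℤ)] γ = ⇑(E₄.pow 3) := by
    rw [SL_slash]
    exact SlashInvariantFormClass.slash_action_eq (E₄.pow 3) _ hγ
  have hD : (⇑CuspForm.discriminant) ∣[(12 : ℤ)] γ = ⇑CuspForm.discriminant := by
    rw [SL_slash]
    exact SlashInvariantFormClass.slash_action_eq CuspForm.discriminant _ hγ
  have hj : jAn = ⇑(E₄.pow 3) / ⇑CuspForm.discriminant := by
    funext τ
    have : (E₄.pow 3) τ = E₄ τ ^ 3 := by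
      have := congrFun (ModularForm.coe_pow E₄ 3) τ
      simpa using this
    simp only [Pi.div_apply, jAn_def, this]
    rfl
  rw [hj, show (0 : ℤ) = 12 - 12 by norm_num, div_slash_SL2, h4, hD]

theorem jAn_smul (γ : SL(2, ℤ)) (τ : ℍ) : jAn (γ • τ) = jAn τ := by
  have h := congrFun (jAn_slash γ) τ
  rw [SL_slash_apply] at h
  simpa using h

/-! ### limits at `i∞` -/

theorem tendsto_im_atImInfty : Tendsto (fun τ : ℍ => τ.im) atImInfty atTop :=
  tendsto_iff_comap.mpr fun ⦃_⦄ a => a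

/-- a level one modular form tends to its constant `q`-coefficient at `i∞`. -/
theorem tendsto_atImInfty_levelOne {k : ℤ} (f : ModularForm 𝒮ℒ k) :
    Tendsto f atImInfty (𝓝 ((qExpansion 1 f).coeff 0)) := by
  have hper := SlashInvariantFormClass.periodic_comp_ofComplex f one_mem_strictPeriods_SL
  have hana := ModularFormClass.analyticAt_cuspFunction_zero f one_pos
    one_mem_strictPeriods_SL
  rw [UpperHalfPlane.qExpansion_coeff_zero one_pos hana hper]
  obtain ⟨c, hc, hO⟩ := ModularFormClass.exp_decay_sub_atImInfty' f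
  have hexp : Tendsto (fun τ : ℍ => Real.exp (-c * τ.im)) atImInfty (𝓝 0) := by
    have h1 : Tendsto (fun τ : ℍ => -c * τ.im) atImInfty atBot := by
      have := tendsto_im_atImInfty.const_mul_atTop_of_neg (neg_neg_of_pos hc)
      simpa using this
    exact Real.tendsto_exp_atBot.comp h1
  have h0 := hO.trans_tendsto hexp
  simpa using h0.add_const (valueAtInfty (⇑f))

theorem tendsto_E₄_atImInfty : Tendsto E₄ atImInfty (𝓝 1) := by
  have := tendsto_atImInfty_levelOne E₄
  rwa [E_qExpansion_coeff_zero _ ⟨2, rfl⟩] at this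

theorem tendsto_E₆_atImInfty : Tendsto E₆ atImInfty (𝓝 1) := by
  have := tendsto_atImInfty_levelOne E₆
  rwa [E_qExpansion_coeff_zero _ ⟨3, rfl⟩] at this

theorem tendsto_discriminant_atImInfty : Tendsto Δ atImInfty (𝓝 0) :=
  discriminant_isZeroAtImInfty

/-! ### zeros of level one forms of positive weight -/

/-- A level one modular form of positive weight whose inverse is bounded at `i∞` has a zero
in the upper half plane. -/
theorem exists_zero_of_pos_weight {k : ℤ} (hk : 0 < k) (f : ModularForm 𝒮ℒ k)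
    (hb : IsBoundedAtImInfty (fun τ => (f τ)⁻¹)) : ∃ τ : ℍ, f τ = 0 := by
  by_contra hne
  push Not at hne
  have hslash : ∀ γ : SL(2, ℤ), (fun τ => (f τ)⁻¹) ∣[-k] γ = fun τ => (f τ)⁻¹ := by
    intro γ
    have hγ : (γ : GL (Fin 2) ℝ) ∈ 𝒮ℒ := ⟨γ, rfl⟩
    have h1 : (fun τ => (f τ)⁻¹) = (1 : ℍ → ℂ) / ⇑f := by
      funext τ; simp
    have hf : (⇑f) ∣[k] γ = ⇑f := by
      rw [SL_slash]
      exact SlashInvariantFormClass.slash_action_eq f _ hγ
    rw [h1, show -k = 0 - k by ring, div_slash_SL2, hf, is_invariant_one]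
  let g : ModularForm 𝒮ℒ (-k) :=
    { toFun := fun τ => (f τ)⁻¹
      slash_action_eq' := fun _ ⟨γ, hγ⟩ => hγ ▸ hslash γ
      holo' := by
        have : MDiff (fun τ => (1 : ℂ) / f τ) :=
          mdifferentiable_const.div (ModularFormClass.holo f) hne
        simpa using this
      bdd_at_cusps' := fun {c} hc => by
        rw [Subgroup.IsArithmetic.isCusp_iff_isCusp_SL2Z] at hc
        rw [OnePoint.isBoundedAt_iff_forall_SL2Z hc]
        intro γ _
        rw [hslash γ]
        exact hb }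
  have hg := ModularFormClass.levelOne_neg_weight_eq_zero (neg_neg_of_pos hk) g
  obtain ⟨τ⟩ : Nonempty ℍ := inferInstance
  have : (f τ)⁻¹ = 0 := congrFun hg τ
  exact hne τ (inv_eq_zero.mp this)

/-- the weight 12 form `E₄³ - c Δ`. -/
noncomputable def e4CubeSub (c : ℂ) : ModularForm 𝒮ℒ 12 :=
  ModularForm.mcast (by norm_num) (E₄.pow 3) -
    c • (ModularFormClass.modularForm CuspForm.discriminant : ModularForm 𝒮ℒ 12)

theorem e4CubeSub_apply (c : ℂ) (τ : ℍ) : e4CubeSub c τ = E₄ τ ^ 3 - c * Δ τ := by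
  have h3 : (E₄.pow 3) τ = E₄ τ ^ 3 := by
    have := congrFun (ModularForm.coe_pow E₄ 3) τ
    simpa using this
  simp only [e4CubeSub]
  change (E₄.pow 3) τ - c * Δ τ = _
  rw [h3]

/-- **surjectivity of `j`.** -/
theorem jAn_surjective : Function.Surjective jAn := by
  intro c
  have hlim : Tendsto (e4CubeSub c) atImInfty (𝓝 1) := by
    have h := (tendsto_E₄_atImInfty.pow 3).sub (tendsto_discriminant_atImInfty.const_mul c)
    have hfun : (⇑(e4CubeSub c)) = fun τ => E₄ τ ^ 3 - c * Δ τ := funext (e4CubeSub_apply c)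
    rw [hfun]
    simpa using h
  have hb : IsBoundedAtImInfty (fun τ => (e4CubeSub c τ)⁻¹) := by
    have := (hlim.inv₀ one_ne_zero)
    exact this.isBigO_one ℝ
  obtain ⟨τ, hτ⟩ := exists_zero_of_pos_weight (by norm_num) (e4CubeSub c) hb
  refine ⟨τ, ?_⟩
  rw [e4CubeSub_apply] at hτ
  rw [jAn_def, div_eq_iff (discriminant_ne_zero τ)]
  linear_combination hτ

/-! ### the normalised derivative `D = (2πi)⁻¹ d/dτ` at `i∞` -/

open Derivative

local notation "𝕢" => Function.Periodic.qParam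

theorem hasDerivAt_qParam_one (z : ℂ) :
    HasDerivAt (𝕢 1) (2 * (Real.pi : ℂ) * Complex.I * 𝕢 1 z) z := by
  have h1 : HasDerivAt (fun w : ℂ => 2 * (Real.pi : ℂ) * Complex.I * w / ((1 : ℝ) : ℂ))
      (2 * (Real.pi : ℂ) * Complex.I) z := by
    have := (hasDerivAt_id z).const_mul (2 * (Real.pi : ℂ) * Complex.I)
    simpa using this
  have h2 := h1.cexp
  have hfun : (𝕢 1) = fun w : ℂ => cexp (2 * (Real.pi : ℂ) * Complex.I * w / ((1 : ℝ) : ℂ)) := by
    funext w
    rfl
  have hval : 2 * (Real.pi : ℂ) * Complex.I * 𝕢 1 z =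
      cexp (2 * ↑Real.pi * Complex.I * z / ((1 : ℝ) : ℂ)) * (2 * ↑Real.pi * Complex.I) := by
    rw [hfun]; ring
  rw [hval, hfun]
  exact h2

/-- `D F (τ) = q G'(q)` where `G` is the cusp function of `F`. -/
theorem D_eq_qParam_mul_deriv_cuspFunction {F : ℍ → ℂ}
    (hper : Function.Periodic (F ∘ ofComplex) (1 : ℝ)) (hmd : MDiff F)
    (hbdd : IsBoundedAtImInfty F) (τ : ℍ) :
    D F τ = 𝕢 1 τ * deriv (cuspFunction 1 F) (𝕢 1 τ) := by
  have hq : ‖𝕢 1 (τ : ℂ)‖ < 1 := Function.Periodic.norm_qParam_lt_one one_pos τ.im_pos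
  have hG : HasDerivAt (cuspFunction 1 F) (deriv (cuspFunction 1 F) (𝕢 1 τ)) (𝕢 1 τ) :=
    (differentiableAt_cuspFunction one_pos hper hmd hbdd hq).hasDerivAt
  have hcomp : HasDerivAt (cuspFunction 1 F ∘ 𝕢 1)
      (deriv (cuspFunction 1 F) (𝕢 1 τ) * (2 * (Real.pi : ℂ) * Complex.I * 𝕢 1 τ)) (τ : ℂ) :=
    hG.comp (τ : ℂ) (hasDerivAt_qParam_one τ)
  have heq : (F ∘ ofComplex) =ᶠ[𝓝 (τ : ℂ)] (cuspFunction 1 F ∘ 𝕢 1) := by
    filter_upwards [isOpen_upperHalfPlaneSet.mem_nhds τ.im_pos] with w hw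
    have := eq_cuspFunction (f := F) ⟨w, hw⟩ one_ne_zero hper
    simp only [Function.comp_apply, ofComplex_apply_of_im_pos hw]
    exact this.symm
  have hd : deriv (F ∘ ofComplex) τ = deriv (cuspFunction 1 F) (𝕢 1 τ) * (2 * (Real.pi : ℂ) * Complex.I * 𝕢 1 τ) :=
    (hcomp.congr_of_eventuallyEq heq).deriv
  rw [normalizedDerivOfComplex, hd]
  have h2 : (2 * (Real.pi : ℂ) * Complex.I : ℂ) ≠ 0 := by
    simp [Real.pi_ne_zero, Complex.I_ne_zero]
  field_simp

/-- the normalised derivative of a bounded periodic holomorphic function vanishes at `i∞`. -/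
theorem isZeroAtImInfty_D {F : ℍ → ℂ}
    (hper : Function.Periodic (F ∘ ofComplex) (1 : ℝ)) (hmd : MDiff F)
    (hbdd : IsBoundedAtImInfty F) : IsZeroAtImInfty (D F) := by
  have hana : AnalyticAt ℂ (cuspFunction 1 F) 0 :=
    analyticAt_cuspFunction_zero one_pos hper hmd hbdd
  have hcont : ContinuousAt (fun q : ℂ => q * deriv (cuspFunction 1 F) q) 0 :=
    continuousAt_id.mul hana.deriv.continuousAt
  have h0 : Tendsto (fun q : ℂ => q * deriv (cuspFunction 1 F) q) (𝓝 0) (𝓝 0) := by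
    have := hcont.tendsto
    simpa using this
  have := h0.comp (qParam_tendsto_atImInfty one_pos)
  rw [IsZeroAtImInfty, ZeroAtFilter]
  refine this.congr fun τ => ?_
  simp only [Function.comp_apply]
  exact (D_eq_qParam_mul_deriv_cuspFunction hper hmd hbdd τ).symm

end Fermat.Agent.S24x
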