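import Mathlib
import Fermat.Agent.S24x.LevelOneJ

/-!
# S24 project, module B1: the analytic `j`-function on the upper half plane

`jFun z = E₄(z)³ / Δ(z)` (so that the `q`-expansion is `1/q + 744 + …`); holomorphy,
`SL(2,ℤ)`-invariance, surjectivity.
-/

set_option autoImplicit false

namespace Fermat.Agent.S24x

open UpperHalfPlane ModularForm ModularFormClass MatrixGroups EisensteinSeries
open scoped Manifold

/-- A holomorphic function on `ℍ` which is invariant under the weight-`k` slash action of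
`SL(2,ℤ)` and bounded at `i∞`, as a level-one modular form. -/
noncomputable def jf_mkLevelOne (k : ℤ) (H : ℍ → ℂ) (hol : MDiff H)
    (hinv : ∀ γ : SL(2, ℤ), H ∣[k] γ = H) (hbd : IsBoundedAtImInfty H) : ModularForm 𝒮ℒ k where
  toFun := H
  slash_action_eq' A hA := by
    obtain ⟨A, rfl⟩ := hA
    exact hinv A
  holo' := hol
  bdd_at_cusps' hc := by
    rw [OnePoint.isBoundedAt_iff_forall_SL2Z hc]
    intro γ _
    rw [hinv γ]
    exact hbd

@[simp] lemma jf_coe_mkLevelOne (k : ℤ) (H : ℍ → ℂ) (hol : MDiff H)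
    (hinv : ∀ γ : SL(2, ℤ), H ∣[k] γ = H) (hbd : IsBoundedAtImInfty H) :
    ⇑(jf_mkLevelOne k H hol hinv hbd) = H := rfl

/-- The `j`-function `E₄³ / Δ`. -/
noncomputable def jFun (z : ℍ) : ℂ := E₄ z ^ 3 / ModularForm.discriminant z

lemma jFun_mul_discriminant (z : ℍ) : jFun z * ModularForm.discriminant z = E₄ z ^ 3 := by
  rw [jFun, div_mul_cancel₀ _ (discriminant_ne_zero z)]

/-! ### holomorphy -/

lemma jf_mdiff_div {f g : ℍ → ℂ} (hf : MDiff f) (hg : MDiff g) (h0 : ∀ z, g z ≠ 0) :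
    MDiff (fun z => f z / g z) := by
  rw [UpperHalfPlane.mdifferentiable_iff] at *
  refine (hf.div hg ?_).congr ?_
  · intro z _
    exact h0 _
  · intro z _
    rfl

lemma jf_mdiff_mul {f g : ℍ → ℂ} (hf : MDiff f) (hg : MDiff g) : MDiff (fun z => f z * g z) := by
  rw [UpperHalfPlane.mdifferentiable_iff] at *
  exact (hf.mul hg).congr fun z _ => rfl

lemma jf_mdiff_sub {f g : ℍ → ℂ} (hf : MDiff f) (hg : MDiff g) : MDiff (fun z => f z - g z) := by
  rw [UpperHalfPlane.mdifferentiable_iff] at *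
  exact (hf.sub hg).congr fun z _ => rfl

lemma jf_mdiff_pow {f : ℍ → ℂ} (hf : MDiff f) (n : ℕ) : MDiff (fun z => f z ^ n) := by
  rw [UpperHalfPlane.mdifferentiable_iff] at *
  exact (hf.pow n).congr fun z _ => rfl

lemma jf_mdiff_const (c : ℂ) : MDiff (fun _ : ℍ => c) := by
  rw [UpperHalfPlane.mdifferentiable_iff]
  exact (differentiableOn_const c).congr fun z _ => rfl

lemma jf_mdiff_E₄ : MDiff (⇑E₄ : ℍ → ℂ) := E₄.holo'

lemma jf_mdiff_discriminant : MDiff (ModularForm.discriminant : ℍ → ℂ) :=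
  CuspForm.discriminant.holo'

lemma jFun_mdiff : MDiff jFun :=
  jf_mdiff_div (jf_mdiff_pow jf_mdiff_E₄ 3) jf_mdiff_discriminant discriminant_ne_zero

/-! ### invariance -/

lemma jf_slash_apply_SL (k : ℤ) (f : ℍ → ℂ) (γ : SL(2, ℤ)) (z : ℍ) :
    (f ∣[k] γ) z = f (γ • z) * denom γ z ^ (-k) := by
  rw [SL_slash_def]

lemma jf_denom_SL_ne_zero (γ : SL(2, ℤ)) (z : ℍ) : denom γ z ≠ 0 := denom_ne_zero _ z

/-- transformation rule of a level-one form -/
lemma jf_levelOne_smul {k : ℤ} (f : ModularForm 𝒮ℒ k) (γ : SL(2, ℤ)) (z : ℍ) :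
    f (γ • z) = denom γ z ^ k * f z := by
  have h : (⇑f ∣[k] γ) = ⇑f :=
    SlashInvariantForm.slash_action_eqn f _ ⟨γ, rfl⟩
  have h2 := congrFun h z
  rw [jf_slash_apply_SL] at h2
  rw [← h2, mul_comm, mul_assoc, ← zpow_add₀ (jf_denom_SL_ne_zero γ z), neg_add_cancel, zpow_zero,
    mul_one]

lemma jf_discriminant_smul (γ : SL(2, ℤ)) (z : ℍ) :
    ModularForm.discriminant (γ • z) = denom γ z ^ (12 : ℤ) * ModularForm.discriminant z := by
  have h : (ModularForm.discriminant ∣[(12 : ℤ)] γ) = ModularForm.discriminant :=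
    SlashInvariantForm.slash_action_eqn CuspForm.discriminant _ ⟨γ, rfl⟩
  have h2 := congrFun h z
  rw [jf_slash_apply_SL] at h2
  rw [← h2, mul_comm, mul_assoc, ← zpow_add₀ (jf_denom_SL_ne_zero γ z), neg_add_cancel, zpow_zero,
    mul_one]

theorem jFun_smul (γ : SL(2, ℤ)) (z : ℍ) : jFun (γ • z) = jFun z := by
  have hd := jf_denom_SL_ne_zero γ z
  rw [jFun, jFun, jf_levelOne_smul E₄ γ z, jf_discriminant_smul γ z, mul_pow, ← zpow_natCast,
    ← zpow_mul]
  have : ((4 : ℤ) * ((3 : ℕ) : ℤ)) = 12 := by norm_num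
  rw [this]
  rw [mul_div_mul_left _ _ (zpow_ne_zero _ hd)]

/-- weight `0` slash action is composition -/
lemma jf_slash_zero_SL (f : ℍ → ℂ) (γ : SL(2, ℤ)) : (f ∣[(0 : ℤ)] γ) = fun z => f (γ • z) := by
  funext z
  rw [jf_slash_apply_SL, neg_zero, zpow_zero, mul_one]

/-! ### behaviour at `i∞` -/

open Filter Topology in
/-- a level-one modular form tends to the constant term of its `q`-expansion at `i∞` -/
lemma jf_tendsto_coeffZero {k : ℤ} (f : ModularForm 𝒮ℒ k) :
    Tendsto (⇑f) atImInfty (𝓝 ((qExpansion 1 f).coeff 0)) := by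
  have hanal := ModularFormClass.analyticAt_cuspFunction_zero f one_pos one_mem_strictPeriods_SL
  have hper := SlashInvariantFormClass.periodic_comp_ofComplex f one_mem_strictPeriods_SL
  rw [qExpansion_coeff_zero one_pos hanal hper, ← cuspFunction_apply_zero one_pos hanal hper]
  exact (hanal.continuousAt.tendsto.comp (qParam_tendsto_atImInfty one_pos)).congr
    (fun τ ↦ SlashInvariantFormClass.eq_cuspFunction f τ one_mem_strictPeriods_SL one_ne_zero)

lemma jf_E₄_coeffZero : (qExpansion 1 E₄).coeff 0 = 1 :=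
  E_qExpansion_coeff_zero _ ⟨2, rfl⟩

open Filter Topology in
lemma jf_tendsto_E₄ : Tendsto (⇑E₄) atImInfty (𝓝 1) := by
  have := jf_tendsto_coeffZero E₄
  rwa [jf_E₄_coeffZero] at this

open Filter Topology in
lemma jf_tendsto_discriminant : Tendsto ModularForm.discriminant atImInfty (𝓝 0) :=
  discriminant_isZeroAtImInfty

open Filter Topology in
lemma jf_isBoundedAtImInfty_of_tendsto {f : ℍ → ℂ} {c : ℂ} (h : Tendsto f atImInfty (𝓝 c)) :
    IsBoundedAtImInfty f :=
  h.isBigO_one ℝ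

/-! ### surjectivity -/

open Filter Topology in
theorem jFun_surjective : Function.Surjective jFun := by
  intro c
  by_contra hne
  rw [not_exists] at hne
  have hF : ∀ z, E₄ z ^ 3 - c * ModularForm.discriminant z ≠ 0 := by
    intro z h0
    apply hne z
    rw [jFun, div_eq_iff (discriminant_ne_zero z)]
    linear_combination h0
  let K : ℍ → ℂ := fun z => 1 / (E₄ z ^ 3 - c * ModularForm.discriminant z)
  have hK_hol : MDiff K :=
    jf_mdiff_div (jf_mdiff_const 1)
      (jf_mdiff_sub (jf_mdiff_pow jf_mdiff_E₄ 3) (jf_mdiff_mul (jf_mdiff_const c) jf_mdiff_discriminant)) hF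
  have hK_inv : ∀ γ : SL(2, ℤ), K ∣[(-12 : ℤ)] γ = K := by
    intro γ
    funext z
    have hd := jf_denom_SL_ne_zero γ z
    rw [jf_slash_apply_SL]
    simp only [K]
    rw [jf_levelOne_smul E₄ γ z, jf_discriminant_smul γ z, neg_neg, mul_pow, ← zpow_natCast (denom γ z ^ (4 : ℤ)),
      ← zpow_mul]
    have e : ((4 : ℤ) * ((3 : ℕ) : ℤ)) = 12 := by norm_num
    rw [e]
    have e2 : denom γ z ^ (12 : ℤ) * E₄ z ^ 3 - c * (denom γ z ^ (12 : ℤ) * ModularForm.discriminant z)
        = denom γ z ^ (12 : ℤ) * (E₄ z ^ 3 - c * ModularForm.discriminant z) := by ring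
    rw [e2, one_div, mul_inv, mul_comm, ← mul_assoc, mul_inv_cancel₀ (zpow_ne_zero _ hd), one_mul,
      one_div]
  have hK_bdd : IsBoundedAtImInfty K := by
    have h1 : Tendsto (fun z => E₄ z ^ 3 - c * ModularForm.discriminant z) atImInfty
        (𝓝 (1 ^ 3 - c * 0)) :=
      (jf_tendsto_E₄.pow 3).sub (jf_tendsto_discriminant.const_mul c)
    have h2 : Tendsto K atImInfty (𝓝 (1 / (1 ^ 3 - c * 0))) :=
      tendsto_const_nhds.div h1 (by norm_num)
    exact jf_isBoundedAtImInfty_of_tendsto h2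
  have hz := levelOne_neg_weight_eq_zero (by norm_num : (-12 : ℤ) < 0)
    (jf_mkLevelOne (-12) K hK_hol hK_inv hK_bdd)
  have h0 := congrFun hz UpperHalfPlane.I
  rw [jf_coe_mkLevelOne] at h0
  simp only [K, Pi.zero_apply, one_div, inv_eq_zero] at h0
  exact hF _ h0

/-- `jFun` is the same function as `jAn` of `LevelOneJ.lean`. -/
theorem jFun_eq_jAn : jFun = jAn := rfl

end Fermat.Agent.S24x
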