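import Mathlib

/-!
# Level-one facts for S24: Ramanujan identities via the Serre derivative, simple zeros of E₄, E₆,
and the exact vanishing order of `j - c`.
-/

set_option autoImplicit false

open UpperHalfPlane hiding I
open Real Complex ModularForm ModularFormClass EisensteinSeries Derivative Filter Function
open scoped Manifold MatrixGroups ModularForm Topology

namespace Fermat.Agent.S24x

noncomputable section

local notation "𝕢" => Function.Periodic.qParam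

/-- `D f z = q * (cuspFunction)'(q)` for a `1`-periodic holomorphic function bounded at `i∞`. -/
theorem ram_D_eq_cusp {f : ℍ → ℂ} (hper : Periodic (f ∘ ofComplex) 1) (hhol : MDiff f)
    (hbdd : IsBoundedAtImInfty f) (z : ℍ) :
    D f z = 𝕢 1 z * deriv (cuspFunction 1 f) (𝕢 1 z) := by
  have hq : ‖𝕢 1 (z : ℂ)‖ < 1 := Function.Periodic.norm_qParam_lt_one one_pos z.im_pos
  have hdiff : DifferentiableAt ℂ (cuspFunction 1 f) (𝕢 1 (z : ℂ)) :=
    differentiableAt_cuspFunction one_pos hper hhol hbdd hq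
  have hqd : HasDerivAt (𝕢 1) (2 * π * I * 𝕢 1 (z : ℂ)) (z : ℂ) := by
    have h1 : HasDerivAt (fun w : ℂ => 2 * π * I * w / (1 : ℝ)) (2 * π * I) (z : ℂ) := by
      simpa using ((hasDerivAt_id (z : ℂ)).const_mul (2 * π * I)).div_const ((1 : ℝ) : ℂ)
    have h2 : HasDerivAt (𝕢 1) (𝕢 1 (z : ℂ) * (2 * π * I)) (z : ℂ) := h1.cexp
    rw [mul_comm]
    exact h2
  have hcomp : HasDerivAt (cuspFunction 1 f ∘ 𝕢 1)
      (deriv (cuspFunction 1 f) (𝕢 1 (z : ℂ)) * (2 * π * I * 𝕢 1 (z : ℂ))) (z : ℂ) :=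
    hdiff.hasDerivAt.comp (z : ℂ) hqd
  have heq : (f ∘ ofComplex) =ᶠ[𝓝 (z : ℂ)] (cuspFunction 1 f ∘ 𝕢 1) := by
    have hopen : upperHalfPlaneSet ∈ 𝓝 (z : ℂ) := isOpen_upperHalfPlaneSet.mem_nhds z.im_pos
    filter_upwards [hopen] with w hw
    have := eq_cuspFunction (h := 1) (f := f) ⟨w, hw⟩ one_ne_zero hper
    simp only [comp_apply, ofComplex_apply_of_im_pos hw]
    exact this.symm
  have hder : deriv (f ∘ ofComplex) (z : ℂ) =
      deriv (cuspFunction 1 f) (𝕢 1 (z : ℂ)) * (2 * π * I * 𝕢 1 (z : ℂ)) := by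
    rw [heq.deriv_eq]; exact hcomp.deriv
  have hpi : (2 * π * I : ℂ) ≠ 0 := by
    simp [Real.pi_ne_zero, I_ne_zero]
  simp only [normalizedDerivOfComplex, hder]
  field_simp

/-- `D f` tends to `0` at `i∞`. -/
theorem ram_D_isZeroAtImInfty {f : ℍ → ℂ} (hper : Periodic (f ∘ ofComplex) 1) (hhol : MDiff f)
    (hbdd : IsBoundedAtImInfty f) : IsZeroAtImInfty (D f) := by
  have hfun : D f = fun z : ℍ => 𝕢 1 z * deriv (cuspFunction 1 f) (𝕢 1 z) := by
    funext z; exact ram_D_eq_cusp hper hhol hbdd z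
  have han : AnalyticAt ℂ (cuspFunction 1 f) 0 :=
    analyticAt_cuspFunction_zero one_pos hper hhol hbdd
  have hcont : ContinuousAt (deriv (cuspFunction 1 f)) 0 := han.deriv.continuousAt
  have hq : Tendsto (fun τ : ℍ => 𝕢 1 τ) atImInfty (𝓝 0) := qParam_tendsto_atImInfty one_pos
  have h1 : Tendsto (fun τ : ℍ => deriv (cuspFunction 1 f) (𝕢 1 τ)) atImInfty
      (𝓝 (deriv (cuspFunction 1 f) 0)) := hcont.tendsto.comp hq
  have h2 := hq.mul h1
  rw [zero_mul] at h2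
  rw [hfun]
  exact h2

/-- Build a level one modular form from an `SL(2,ℤ)`-invariant holomorphic function bounded at
`i∞`. -/
def ramMk (k : ℤ) (f : ℍ → ℂ) (hinv : ∀ γ : SL(2, ℤ), f ∣[k] γ = f) (hhol : MDiff f)
    (hbdd : IsBoundedAtImInfty f) : ModularForm 𝒮ℒ k where
  toFun := f
  slash_action_eq' := by
    rintro _ ⟨γ, rfl⟩
    exact hinv γ
  holo' := hhol
  bdd_at_cusps' := fun {c} hc =>
    (OnePoint.isBoundedAt_iff_forall_SL2Z hc).mpr (fun γ _ => by rw [hinv γ]; exact hbdd)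

@[simp] theorem ramMk_apply (k : ℤ) (f : ℍ → ℂ) (hinv : ∀ γ : SL(2, ℤ), f ∣[k] γ = f)
    (hhol : MDiff f) (hbdd : IsBoundedAtImInfty f) (z : ℍ) : ramMk k f hinv hhol hbdd z = f z := rfl

theorem ram_slash_SL {k : ℤ} (F : ModularForm 𝒮ℒ k) (γ : SL(2, ℤ)) : (F : ℍ → ℂ) ∣[k] γ = F :=
  SlashInvariantForm.slash_action_eqn F (Matrix.SpecialLinearGroup.mapGL ℝ γ) ⟨γ, rfl⟩

theorem ram_periodic {k : ℤ} (F : ModularForm 𝒮ℒ k) : Periodic ((F : ℍ → ℂ) ∘ ofComplex) 1 := by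
  have := SlashInvariantFormClass.periodic_comp_ofComplex (h := 1) F one_mem_strictPeriods_SL
  simpa using this

theorem ram_bdd {k : ℤ} (F : ModularForm 𝒮ℒ k) : IsBoundedAtImInfty (F : ℍ → ℂ) :=
  ModularFormClass.bdd_at_infty F

theorem ram_serre_bdd {k : ℤ} (F : ModularForm 𝒮ℒ k) :
    IsBoundedAtImInfty (serreDerivative k F) := by
  have h1 : IsBoundedAtImInfty (D F) :=
    (ram_D_isZeroAtImInfty (ram_periodic F) F.holo' (ram_bdd F)).boundedAtFilter
  have h2 : IsBoundedAtImInfty (fun z : ℍ => (k : ℂ) * 12⁻¹ * E2 z * F z) := by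
    have hE : IsBoundedAtImInfty E2 := isBoundedAtImInfty_E2
    have hc : IsBoundedAtImInfty (fun _ : ℍ => (k : ℂ) * 12⁻¹) := const_boundedAtFilter _ _
    exact (hc.mul hE).mul (ram_bdd F)
  have : serreDerivative k F = D F - fun z : ℍ => (k : ℂ) * 12⁻¹ * E2 z * F z := by
    funext z; simp
  rw [this]
  exact h1.sub h2

/-- The Serre derivative of a level one modular form, as a modular form of weight `k + 2`. -/
def ramSerre {k : ℤ} (F : ModularForm 𝒮ℒ k) : ModularForm 𝒮ℒ (k + 2) :=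
  ramMk (k + 2) (serreDerivative k F)
    (fun γ => serreDerivative_slash_invariant F.holo' (ram_slash_SL F γ))
    (serreDerivative_mdifferentiable k F.holo') (ram_serre_bdd F)

theorem ramSerre_apply {k : ℤ} (F : ModularForm 𝒮ℒ k) (z : ℍ) :
    ramSerre F z = D F z - (k : ℂ) * 12⁻¹ * E2 z * F z := rfl

/-- A level one modular form tends to its constant `q`-coefficient at `i∞`. -/
theorem ram_tendsto {k : ℤ} (F : ModularForm 𝒮ℒ k) :
    Tendsto (F : ℍ → ℂ) atImInfty (𝓝 ((qExpansion 1 F).coeff 0)) := by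
  have han : AnalyticAt ℂ (cuspFunction 1 F) 0 :=
    ModularFormClass.analyticAt_cuspFunction_zero F one_pos one_mem_strictPeriods_SL
  have hq : Tendsto (fun τ : ℍ => 𝕢 1 τ) atImInfty (𝓝 0) := qParam_tendsto_atImInfty one_pos
  have hfun : (F : ℍ → ℂ) = cuspFunction 1 F ∘ (fun τ : ℍ => 𝕢 1 τ) := by
    funext τ
    exact (SlashInvariantFormClass.eq_cuspFunction F τ one_mem_strictPeriods_SL one_ne_zero).symm
  have h0 : (qExpansion 1 F).coeff 0 = cuspFunction 1 F 0 := by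
    rw [qExpansion_coeff]; simp
  rw [h0]
  have := han.continuousAt.tendsto.comp hq
  have hfun' : (cuspFunction 1 F ∘ fun τ : ℍ => 𝕢 1 τ) = (F : ℍ → ℂ) := hfun.symm
  rw [hfun'] at this
  exact this

theorem ram_E2_periodic : Periodic (E2 ∘ ofComplex) 1 := by
  intro w
  by_cases hw : 0 < im w
  · have hw1 : 0 < im (w + 1) := by simpa using hw
    simp only [comp_apply, ofComplex_apply_of_im_pos hw1, ofComplex_apply_of_im_pos hw]
    have h1 := hasSum_qExpansion_E2 (z := (⟨w + 1, hw1⟩ : ℍ))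
    have h2 := hasSum_qExpansion_E2 (z := (⟨w, hw⟩ : ℍ))
    have hq : cexp (2 * π * I * (w + 1)) = cexp (2 * π * I * w) := by
      rw [mul_add, Complex.exp_add, mul_one, Complex.exp_two_pi_mul_I, mul_one]
    have e1 : ((⟨w + 1, hw1⟩ : ℍ) : ℂ) = w + 1 := rfl
    have e2 : ((⟨w, hw⟩ : ℍ) : ℂ) = w := rfl
    rw [e1, hq] at h1
    rw [e2] at h2
    exact h1.unique h2
  · have hw' : im w ≤ 0 := not_lt.mp hw
    have hw1 : im (w + 1) ≤ 0 := by simpa using hw'
    simp [ofComplex_apply_of_im_nonpos hw1, ofComplex_apply_of_im_nonpos hw']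

theorem ram_E2_tendsto : Tendsto E2 atImInfty (𝓝 1) := by
  have hbdd : IsBoundedAtImInfty E2 := isBoundedAtImInfty_E2
  have han : AnalyticAt ℂ (cuspFunction 1 E2) 0 :=
    analyticAt_cuspFunction_zero one_pos ram_E2_periodic E2_mdifferentiable hbdd
  have hsum : ∀ τ : ℍ, HasSum (fun m : ℕ ↦
      (if m = 0 then 1 else -24 * (ArithmeticFunction.sigma 1 m : ℂ) : ℂ) • 𝕢 1 τ ^ m) (E2 τ) := by
    intro τ
    simpa only [Function.Periodic.qParam, ofReal_one, div_one] using hasSum_qExpansion_E2 (z := τ)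
  have hps := hasFPowerSeriesOnBall_cuspFunction one_pos han hsum
  have h0 : cuspFunction 1 E2 0 = 1 := by
    have := hps.coeff_zero (fun _ => (0 : ℂ))
    simpa using this.symm
  have hq : Tendsto (fun τ : ℍ => 𝕢 1 τ) atImInfty (𝓝 0) := qParam_tendsto_atImInfty one_pos
  have hfun : (cuspFunction 1 E2 ∘ fun τ : ℍ => 𝕢 1 τ) = E2 := by
    funext τ
    exact eq_cuspFunction τ one_ne_zero ram_E2_periodic
  have := han.continuousAt.tendsto.comp hq
  rw [hfun, h0] at this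
  exact this

theorem ramSerre_coeff_zero {k : ℤ} (F : ModularForm 𝒮ℒ k) {k' : ℤ} (G : ModularForm 𝒮ℒ k')
    (hG : ∀ z, G z = ramSerre F z) :
    (qExpansion 1 G).coeff 0 = -((k : ℂ) * 12⁻¹ * (qExpansion 1 F).coeff 0) := by
  have h1 : Tendsto (G : ℍ → ℂ) atImInfty (𝓝 ((qExpansion 1 G).coeff 0)) := ram_tendsto G
  have hD : Tendsto (D F) atImInfty (𝓝 0) :=
    ram_D_isZeroAtImInfty (ram_periodic F) F.holo' (ram_bdd F)
  have hF : Tendsto (F : ℍ → ℂ) atImInfty (𝓝 ((qExpansion 1 F).coeff 0)) := ram_tendsto F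
  have hc : Tendsto (fun _ : ℍ => (k : ℂ) * 12⁻¹) atImInfty (𝓝 ((k : ℂ) * 12⁻¹)) :=
    tendsto_const_nhds
  have h2 : Tendsto (fun z : ℍ => D F z - (k : ℂ) * 12⁻¹ * E2 z * F z) atImInfty
      (𝓝 (0 - (k : ℂ) * 12⁻¹ * 1 * (qExpansion 1 F).coeff 0)) :=
    hD.sub (((hc.mul ram_E2_tendsto)).mul hF)
  have hfun : (G : ℍ → ℂ) = fun z : ℍ => D F z - (k : ℂ) * 12⁻¹ * E2 z * F z := by
    funext z; rw [hG z]; rfl
  have h1' := h1.congr (fun z => congrFun hfun z)
  have := tendsto_nhds_unique h1' h2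
  rw [this]; ring

theorem ram_eq_smul_of_rank_one {k : ℤ} (hr : Module.rank ℂ (ModularForm 𝒮ℒ k) = 1)
    (G H : ModularForm 𝒮ℒ k) (hH : (qExpansion 1 H).coeff 0 = 1) :
    G = (qExpansion 1 G).coeff 0 • H := by
  have hH0 : H ≠ 0 := by
    intro h
    rw [h] at hH
    simp [qExpansion_zero] at hH
  have hfr : Module.finrank ℂ (ModularForm 𝒮ℒ k) = 1 :=
    Module.rank_eq_one_iff_finrank_eq_one.mp hr
  obtain ⟨c, hc⟩ := (finrank_eq_one_iff_of_nonzero' H hH0).mp hfr G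
  have hq : (qExpansion 1 G).coeff 0 = c := by
    have hs := ModularForm.qExpansion_smul one_pos one_mem_strictPeriods_SL c H
    rw [← hc, show (⇑(c • H) : ℍ → ℂ) = c • ⇑H from rfl, hs]
    simp [hH]
  rw [hq, hc]

/-- **Ramanujan's identity** for `E₄`: `D E₄ = (E₂ E₄ - E₆) / 3`. -/
theorem ram_E4 (z : ℍ) : D E₄ z = (E2 z * E₄ z - E₆ z) / 3 := by
  let G : ModularForm 𝒮ℒ 6 := ModularForm.mcast (by norm_num) (ramSerre E₄)
  have hG : ∀ z, G z = ramSerre E₄ z := fun z => rfl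
  have h0 : (qExpansion 1 G).coeff 0 = -(((4 : ℤ) : ℂ) * 12⁻¹ * (qExpansion 1 E₄).coeff 0) :=
    ramSerre_coeff_zero E₄ G hG
  have hE4 : (qExpansion 1 E₄).coeff 0 = 1 := E_qExpansion_coeff_zero _ ⟨2, rfl⟩
  have hE6 : (qExpansion 1 E₆).coeff 0 = 1 := E_qExpansion_coeff_zero _ ⟨3, rfl⟩
  have key := ram_eq_smul_of_rank_one levelOne_weight_six_rank_one G E₆ hE6
  have key' : G z = (qExpansion 1 G).coeff 0 * E₆ z := by
    conv_lhs => rw [key]
    rfl
  rw [hG z, ramSerre_apply, h0, hE4] at key'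
  push_cast at key'
  linear_combination key'

theorem ram_rank_eight : Module.rank ℂ (ModularForm 𝒮ℒ 8) = 1 := by
  have := dimension_level_one 8 ⟨4, rfl⟩
  simpa [Nat.ModEq] using this

/-- `E₄ ^ 2` as a modular form of weight `8`. -/
def ramE4sq : ModularForm 𝒮ℒ 8 := ModularForm.mcast (by norm_num) (E₄.mul E₄)

theorem ramE4sq_apply (z : ℍ) : ramE4sq z = E₄ z * E₄ z := rfl

theorem ramE4sq_coeff_zero : (qExpansion 1 ramE4sq).coeff 0 = 1 := by
  have hE4 : (qExpansion 1 E₄).coeff 0 = 1 := E_qExpansion_coeff_zero _ ⟨2, rfl⟩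
  have h : (ramE4sq : ℍ → ℂ) = (E₄.mul E₄ : ModularForm 𝒮ℒ (4 + 4)) := rfl
  rw [h, ModularForm.qExpansion_mul one_pos one_mem_strictPeriods_SL]
  simp [PowerSeries.coeff_mul, hE4]

/-- **Ramanujan's identity** for `E₆`: `D E₆ = (E₂ E₆ - E₄²) / 2`. -/
theorem ram_E6 (z : ℍ) : D E₆ z = (E2 z * E₆ z - E₄ z ^ 2) / 2 := by
  let G : ModularForm 𝒮ℒ 8 := ModularForm.mcast (by norm_num) (ramSerre E₆)
  have hG : ∀ z, G z = ramSerre E₆ z := fun z => rfl
  have h0 : (qExpansion 1 G).coeff 0 = -(((6 : ℤ) : ℂ) * 12⁻¹ * (qExpansion 1 E₆).coeff 0) :=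
    ramSerre_coeff_zero E₆ G hG
  have hE6 : (qExpansion 1 E₆).coeff 0 = 1 := E_qExpansion_coeff_zero _ ⟨3, rfl⟩
  have key := ram_eq_smul_of_rank_one ram_rank_eight G ramE4sq ramE4sq_coeff_zero
  have key' : G z = (qExpansion 1 G).coeff 0 * ramE4sq z := by
    conv_lhs => rw [key]
    rfl
  rw [hG z, ramSerre_apply, h0, hE6, ramE4sq_apply] at key'
  push_cast at key'
  linear_combination key'

end

end Fermat.Agent.S24x
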