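import Fermat.Agent.S24x.CombBasic

/-!
# S24 project, combinatorics module (N), W2: fixed points of `S` and `S * T` on `SL(2,ℤ) ⧸ Γ₀(N)`

`#Fix(S) = nuTwo N = #{x : ZMod N | x² + 1 = 0}` and
`#Fix(S*T) = nuThree N = #{x : ZMod N | x² + x + 1 = 0}`.
-/

set_option autoImplicit false

open CongruenceSubgroup ModularGroup Matrix.SpecialLinearGroup
open scoped MatrixGroups

namespace Fermat.Agent.S24x

variable (N : ℕ)

/-- The matrix `!![x, -1; 1, 0]` of `SL(2,ℤ)`. -/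
def fixMat (x : ℤ) : SL(2, ℤ) :=
  ⟨!![x, -1; 1, 0], by rw [Matrix.det_fin_two_of]; ring⟩

@[simp] theorem fixMat_zero_zero (x : ℤ) : ((fixMat x : SL(2, ℤ)) 0 0 : ℤ) = x := rfl

@[simp] theorem fixMat_one_zero (x : ℤ) : ((fixMat x : SL(2, ℤ)) 1 0 : ℤ) = 1 := rfl

/-- The determinant relation of `g` read in `ZMod N`. -/
theorem fix_det_rel_zmod (g : SL(2, ℤ)) :
    ((g 0 0 : ℤ) : ZMod N) * ((g 1 1 : ℤ) : ZMod N)
      - ((g 0 1 : ℤ) : ZMod N) * ((g 1 0 : ℤ) : ZMod N) = 1 := by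
  have h := congrArg (fun z : ℤ => (z : ZMod N)) (det_rel g)
  simpa using h

/-- If `a² + c² ≡ 0` for the first column `(a, c)` of `g`, then `c` is a unit mod `N`:
there is `u` with `c * u = 1`. -/
theorem fix_exists_inv_of_S (g : SL(2, ℤ))
    (h : ((g 0 0 : ℤ) : ZMod N) ^ 2 + ((g 1 0 : ℤ) : ZMod N) ^ 2 = 0) :
    ∃ u : ZMod N, ((g 1 0 : ℤ) : ZMod N) * u = 1 := by
  have hdet := fix_det_rel_zmod N g
  set a := ((g 0 0 : ℤ) : ZMod N)
  set b := ((g 0 1 : ℤ) : ZMod N)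
  set c := ((g 1 0 : ℤ) : ZMod N)
  set d := ((g 1 1 : ℤ) : ZMod N)
  refine ⟨-(c * d + a * b) * d - b, ?_⟩
  linear_combination (a * d + 1) * hdet - d ^ 2 * h

/-- If `a² + a c + c² ≡ 0` for the first column `(a, c)` of `g`, then `c` is a unit mod `N`. -/
theorem fix_exists_inv_of_ST (g : SL(2, ℤ))
    (h : ((g 0 0 : ℤ) : ZMod N) ^ 2 + ((g 0 0 : ℤ) : ZMod N) * ((g 1 0 : ℤ) : ZMod N)
      + ((g 1 0 : ℤ) : ZMod N) ^ 2 = 0) :
    ∃ u : ZMod N, ((g 1 0 : ℤ) : ZMod N) * u = 1 := by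
  have hdet := fix_det_rel_zmod N g
  set a := ((g 0 0 : ℤ) : ZMod N)
  set b := ((g 0 1 : ℤ) : ZMod N)
  set c := ((g 1 0 : ℤ) : ZMod N)
  set d := ((g 1 1 : ℤ) : ZMod N)
  refine ⟨-((a + c) * d + a * b) * d - b, ?_⟩
  linear_combination (a * d + 1) * hdet - d ^ 2 * h


variable [NeZero N]

theorem fix_cast_val (x : ZMod N) : (((x.val : ℕ) : ℤ) : ZMod N) = x := by
  rw [Int.cast_natCast, ZMod.natCast_zmod_val]

/-- `#Fix(S) = nuTwo N`. -/
theorem card_fixedBy_S : Nat.card (MulAction.fixedBy (Q N) S) = ModularCurve.nuTwo N := by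
  unfold ModularCurve.nuTwo
  symm
  let f : {x : ZMod N // x ^ 2 + 1 = 0} → MulAction.fixedBy (Q N) S := fun x =>
    ⟨((fixMat ((x.1.val : ℕ) : ℤ) : SL(2, ℤ)) : Q N), by
      rw [MulAction.mem_fixedBy, S_smul_coset_eq_iff, fixMat_zero_zero, fixMat_one_zero]
      push_cast
      rw [ZMod.natCast_zmod_val]
      simpa using x.2⟩
  apply Nat.card_eq_of_bijective f
  constructor
  · -- injective
    intro x y hxy
    have h : ((fixMat ((x.1.val : ℕ) : ℤ) : SL(2, ℤ)) : Q N)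
        = ((fixMat ((y.1.val : ℕ) : ℤ) : SL(2, ℤ)) : Q N) := congrArg Subtype.val hxy
    rw [coset_eq_iff, fixMat_zero_zero, fixMat_one_zero, fixMat_zero_zero, fixMat_one_zero] at h
    push_cast at h
    rw [ZMod.natCast_zmod_val, ZMod.natCast_zmod_val] at h
    apply Subtype.ext
    linear_combination h
  · -- surjective
    rintro ⟨q, hq⟩
    obtain ⟨g, rfl⟩ := QuotientGroup.mk_surjective q
    rw [MulAction.mem_fixedBy, S_smul_coset_eq_iff] at hq
    push_cast at hq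
    obtain ⟨u, hu⟩ := fix_exists_inv_of_S N g hq
    have hx : (((g 0 0 : ℤ) : ZMod N) * u) ^ 2 + 1 = 0 := by
      linear_combination u ^ 2 * hq - (((g 1 0 : ℤ) : ZMod N) * u + 1) * hu
    refine ⟨⟨((g 0 0 : ℤ) : ZMod N) * u, hx⟩, ?_⟩
    apply Subtype.ext
    show ((fixMat (((((g 0 0 : ℤ) : ZMod N) * u).val : ℕ) : ℤ) : SL(2, ℤ)) : Q N) = (g : Q N)
    rw [coset_eq_iff, fixMat_zero_zero, fixMat_one_zero]
    push_cast
    rw [ZMod.natCast_zmod_val]
    linear_combination ((g 0 0 : ℤ) : ZMod N) * hu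

/-- `#Fix(S * T) = nuThree N`. -/
theorem card_fixedBy_ST :
    Nat.card (MulAction.fixedBy (Q N) (S * T)) = ModularCurve.nuThree N := by
  unfold ModularCurve.nuThree
  symm
  let f : {x : ZMod N // x ^ 2 + x + 1 = 0} → MulAction.fixedBy (Q N) (S * T) := fun x =>
    ⟨((fixMat ((x.1.val : ℕ) : ℤ) : SL(2, ℤ)) : Q N), by
      rw [MulAction.mem_fixedBy, ST_smul_coset_eq_iff, fixMat_zero_zero, fixMat_one_zero]
      push_cast
      rw [ZMod.natCast_zmod_val]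
      simpa using x.2⟩
  apply Nat.card_eq_of_bijective f
  constructor
  · -- injective
    intro x y hxy
    have h : ((fixMat ((x.1.val : ℕ) : ℤ) : SL(2, ℤ)) : Q N)
        = ((fixMat ((y.1.val : ℕ) : ℤ) : SL(2, ℤ)) : Q N) := congrArg Subtype.val hxy
    rw [coset_eq_iff, fixMat_zero_zero, fixMat_one_zero, fixMat_zero_zero, fixMat_one_zero] at h
    push_cast at h
    rw [ZMod.natCast_zmod_val, ZMod.natCast_zmod_val] at h
    apply Subtype.ext
    linear_combination h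
  · -- surjective
    rintro ⟨q, hq⟩
    obtain ⟨g, rfl⟩ := QuotientGroup.mk_surjective q
    rw [MulAction.mem_fixedBy, ST_smul_coset_eq_iff] at hq
    push_cast at hq
    obtain ⟨u, hu⟩ := fix_exists_inv_of_ST N g hq
    have hx : (((g 0 0 : ℤ) : ZMod N) * u) ^ 2 + ((g 0 0 : ℤ) : ZMod N) * u + 1 = 0 := by
      linear_combination u ^ 2 * hq
        - (((g 0 0 : ℤ) : ZMod N) * u + ((g 1 0 : ℤ) : ZMod N) * u + 1) * hu
    refine ⟨⟨((g 0 0 : ℤ) : ZMod N) * u, hx⟩, ?_⟩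
    apply Subtype.ext
    show ((fixMat (((((g 0 0 : ℤ) : ZMod N) * u).val : ℕ) : ℤ) : SL(2, ℤ)) : Q N) = (g : Q N)
    rw [coset_eq_iff, fixMat_zero_zero, fixMat_one_zero]
    push_cast
    rw [ZMod.natCast_zmod_val]
    linear_combination ((g 0 0 : ℤ) : ZMod N) * hu

end Fermat.Agent.S24x
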