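import Fermat.Agent.S24x.CombIndexAux

/-!
# S24 project, combinatorics module (N), W3: the index of `Γ₀(N)` is `dedekindPsi N`

Tower route: `ψ(Mp) = p ψ(M)` or `(p+1) ψ(M)` according to `p ∣ M` or not, and the same for the
relative index `[Γ₀(M) : Γ₀(Mp)]`, computed through a complete invariant of the cosets.
-/

set_option autoImplicit false

open CongruenceSubgroup ModularGroup Matrix.SpecialLinearGroup
open scoped MatrixGroups

namespace Fermat.Agent.S24x

theorem dedekindPsi_mul_prime_of_dvd (M p : ℕ) (hp : p.Prime) (hM : 0 < M) (h : p ∣ M) :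
    ModularCurve.dedekindPsi (M * p) = p * ModularCurve.dedekindPsi M := by
  unfold ModularCurve.dedekindPsi
  have hset : (M * p).divisors.filter Squarefree = M.divisors.filter Squarefree := by
    ext d
    simp only [Finset.mem_filter, Nat.mem_divisors]
    constructor
    · rintro ⟨⟨hd, _⟩, hsq⟩
      refine ⟨⟨?_, hM.ne'⟩, hsq⟩
      have h2 : d ∣ M ^ 2 := hd.trans (by rw [sq]; exact mul_dvd_mul_left M h)
      exact (hsq.dvd_pow_iff_dvd two_ne_zero).mp h2
    · rintro ⟨⟨hd, _⟩, hsq⟩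
      exact ⟨⟨hd.mul_right p, Nat.mul_ne_zero hM.ne' hp.ne_zero⟩, hsq⟩
  rw [hset, Finset.mul_sum]
  apply Finset.sum_congr rfl
  intro d hd
  simp only [Finset.mem_filter, Nat.mem_divisors] at hd
  rw [mul_comm M p, Nat.mul_div_assoc _ hd.1.1]

theorem dedekindPsi_mul_prime_of_not_dvd (M p : ℕ) (hp : p.Prime) (hM : 0 < M) (h : ¬ p ∣ M) :
    ModularCurve.dedekindPsi (M * p) = (p + 1) * ModularCurve.dedekindPsi M := by
  unfold ModularCurve.dedekindPsi
  have hcop : ∀ d, d ∣ M → Nat.Coprime d p := fun d hd =>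
    Nat.Coprime.symm ((Nat.Prime.coprime_iff_not_dvd hp).mpr (fun hpd => h (hpd.trans hd)))
  have hset : (M * p).divisors.filter Squarefree =
      M.divisors.filter Squarefree ∪ (M.divisors.filter Squarefree).image (· * p) := by
    ext d
    simp only [Finset.mem_filter, Nat.mem_divisors, Finset.mem_union, Finset.mem_image]
    constructor
    · rintro ⟨⟨hd, _⟩, hsq⟩
      by_cases hpd : p ∣ d
      · right
        obtain ⟨e, rfl⟩ := hpd
        have he : e ∣ M := by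
          have := hd
          rw [mul_comm M p] at this
          exact Nat.dvd_of_mul_dvd_mul_left hp.pos this
        exact ⟨e, ⟨⟨he, hM.ne'⟩, hsq.of_mul_right⟩, mul_comm e p⟩
      · left
        have : Nat.Coprime d p := Nat.Coprime.symm ((Nat.Prime.coprime_iff_not_dvd hp).mpr hpd)
        exact ⟨⟨this.dvd_of_dvd_mul_right hd, hM.ne'⟩, hsq⟩
    · rintro (⟨⟨hd, _⟩, hsq⟩ | ⟨e, ⟨⟨he, _⟩, hsq⟩, rfl⟩)
      · exact ⟨⟨hd.mul_right p, Nat.mul_ne_zero hM.ne' hp.ne_zero⟩, hsq⟩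
      · refine ⟨⟨Nat.mul_dvd_mul_right he p, Nat.mul_ne_zero hM.ne' hp.ne_zero⟩, ?_⟩
        rw [Nat.squarefree_mul_iff]
        exact ⟨hcop e he, hsq, hp.prime.squarefree⟩
  have hdisj : Disjoint (M.divisors.filter Squarefree)
      ((M.divisors.filter Squarefree).image (· * p)) := by
    rw [Finset.disjoint_left]
    intro d hd hd'
    simp only [Finset.mem_filter, Nat.mem_divisors, Finset.mem_image] at hd hd'
    obtain ⟨e, _, rfl⟩ := hd'
    exact h ((Dvd.intro_left e rfl).trans hd.1.1)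
  rw [hset, Finset.sum_union hdisj, Finset.sum_image, add_mul, one_mul, Finset.mul_sum]
  · congr 1
    · apply Finset.sum_congr rfl
      intro d hd
      simp only [Finset.mem_filter, Nat.mem_divisors] at hd
      rw [mul_comm M p, Nat.mul_div_assoc _ hd.1.1]
    · apply Finset.sum_congr rfl
      intro d hd
      exact Nat.mul_div_mul_right M d hp.pos
  · intro x _ y _ hxy
    exact Nat.eq_of_mul_eq_mul_right hp.pos hxy

theorem relindex_Gamma0_mul_prime_of_dvd (M p : ℕ) (hp : p.Prime) (hM : 0 < M) (h : p ∣ M) :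
    (Gamma0 (M * p)).relIndex (Gamma0 M) = p := by
  have : Fact p.Prime := ⟨hp⟩
  let f : Gamma0 M → ZMod p := fun k =>
    (((k : SL(2,ℤ)) 1 0 / (M : ℤ) : ℤ) : ZMod p) * (((k : SL(2,ℤ)) 0 0 : ℤ) : ZMod p)⁻¹
  have hunit : ∀ k : Gamma0 M, (((k : SL(2,ℤ)) 0 0 : ℤ) : ZMod p) ≠ 0 := by
    intro k h0
    have hdet := det_rel (k : SL(2,ℤ))
    have hpa : (p : ℤ) ∣ (k : SL(2,ℤ)) 0 0 := (ZMod.intCast_zmod_eq_zero_iff_dvd _ p).mp h0
    have hpc : (p : ℤ) ∣ (k : SL(2,ℤ)) 1 0 :=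
      (Int.natCast_dvd_natCast.mpr h).trans (ci_Gamma0_dvd_entry k.2)
    have h1 : (p : ℤ) ∣ 1 := by
      rw [← hdet]
      exact dvd_sub (hpa.mul_right _) (hpc.mul_left _)
    have h2 : p ∣ 1 := by exact_mod_cast h1
    exact hp.one_lt.ne' (Nat.dvd_one.mp h2)
  have hcard : Nat.card (ZMod p) = p := Nat.card_zmod p
  conv_rhs => rw [← hcard]
  apply ci_relIndex_eq_card_of_invariant _ _ f
  · intro k k'
    rw [ci_inv_mul_mem_Gamma0_iff]
    obtain ⟨c1, hc1⟩ := ci_Gamma0_dvd_entry k.2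
    obtain ⟨c1', hc1'⟩ := ci_Gamma0_dvd_entry k'.2
    have hM' : (M : ℤ) ≠ 0 := by exact_mod_cast hM.ne'
    simp only [f]
    rw [hc1, hc1', Int.mul_ediv_cancel_left _ hM', Int.mul_ediv_cancel_left _ hM']
    have hfac : (k:SL(2,ℤ)) 0 0 * (↑M * c1') - ↑M * c1 * (k':SL(2,ℤ)) 0 0 =
        (M : ℤ) * ((k:SL(2,ℤ)) 0 0 * c1' - c1 * (k':SL(2,ℤ)) 0 0) := by ring
    rw [hfac, Nat.cast_mul, mul_dvd_mul_iff_left hM', ← ZMod.intCast_zmod_eq_zero_iff_dvd]
    push_cast
    have ha := hunit k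
    have ha' := hunit k'
    constructor
    · intro h
      field_simp at h
      linear_combination -h
    · intro h
      field_simp
      linear_combination -h
  · intro t
    refine ⟨⟨ci_lowerUni (M * t.val), ci_lowerUni_mem_Gamma0 M _ (dvd_mul_right _ _)⟩, ?_⟩
    have hM' : (M : ℤ) ≠ 0 := by exact_mod_cast hM.ne'
    simp only [f, ci_lowerUni_zero_zero, ci_lowerUni_one_zero, Int.mul_ediv_cancel_left _ hM']
    simp

/-- The matrix `[[a, -u],[c, v]]` with `a v + u c = 1`. -/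
def ci_bezoutMat (a c u v : ℤ) (h : a * v + u * c = 1) : SL(2, ℤ) :=
  ⟨!![a, -u; c, v], by rw [Matrix.det_fin_two_of]; linarith⟩

@[simp] theorem ci_bezoutMat_zero_zero (a c u v : ℤ) (h : a * v + u * c = 1) :
    (ci_bezoutMat a c u v h) 0 0 = a := rfl
@[simp] theorem ci_bezoutMat_one_zero (a c u v : ℤ) (h : a * v + u * c = 1) :
    (ci_bezoutMat a c u v h) 1 0 = c := rfl

theorem relindex_Gamma0_mul_prime_of_not_dvd (M p : ℕ) (hp : p.Prime) (hM : 0 < M) (h : ¬ p ∣ M) :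
    (Gamma0 (M * p)).relIndex (Gamma0 M) = p + 1 := by
  have : Fact p.Prime := ⟨hp⟩
  classical
  let f : Gamma0 M → Option (ZMod p) := fun k =>
    if (((k : SL(2,ℤ)) 0 0 : ℤ) : ZMod p) = 0 then none
    else some ((((k : SL(2,ℤ)) 1 0 : ℤ) : ZMod p) * (((k : SL(2,ℤ)) 0 0 : ℤ) : ZMod p)⁻¹)
  have hcop : IsCoprime (M : ℤ) (p : ℤ) := by
    rw [Int.isCoprime_iff_gcd_eq_one]
    exact Nat.Coprime.symm ((Nat.Prime.coprime_iff_not_dvd hp).mpr h)
  -- if a ≡ 0 then c is a unit mod p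
  have hc_unit : ∀ g : SL(2,ℤ), ((g 0 0 : ℤ) : ZMod p) = 0 → ((g 1 0 : ℤ) : ZMod p) ≠ 0 := by
    intro g h0 h1
    have hdet := det_rel g
    have hpa : (p : ℤ) ∣ g 0 0 := (ZMod.intCast_zmod_eq_zero_iff_dvd _ p).mp h0
    have hpc : (p : ℤ) ∣ g 1 0 := (ZMod.intCast_zmod_eq_zero_iff_dvd _ p).mp h1
    have h1 : (p : ℤ) ∣ 1 := by
      rw [← hdet]
      exact dvd_sub (hpa.mul_right _) (hpc.mul_left _)
    have h2 : p ∣ 1 := by exact_mod_cast h1
    exact hp.one_lt.ne' (Nat.dvd_one.mp h2)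
  have hcard : Nat.card (Option (ZMod p)) = p + 1 := by
    rw [Nat.card_eq_fintype_card, Fintype.card_option, ZMod.card]
  conv_rhs => rw [← hcard]
  apply ci_relIndex_eq_card_of_invariant _ _ f
  · intro k k'
    rw [ci_inv_mul_mem_Gamma0_iff]
    have hMdvd : (M : ℤ) ∣ (k:SL(2,ℤ)) 0 0 * (k':SL(2,ℤ)) 1 0 - (k:SL(2,ℤ)) 1 0 * (k':SL(2,ℤ)) 0 0 :=
      dvd_sub ((ci_Gamma0_dvd_entry k'.2).mul_left _) ((ci_Gamma0_dvd_entry k.2).mul_right _)
    have hiff : ((M * p : ℕ) : ℤ) ∣ (k:SL(2,ℤ)) 0 0 * (k':SL(2,ℤ)) 1 0 - (k:SL(2,ℤ)) 1 0 * (k':SL(2,ℤ)) 0 0 ↔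
        ((((k:SL(2,ℤ)) 0 0 : ℤ) : ZMod p) * (((k':SL(2,ℤ)) 1 0 : ℤ) : ZMod p) -
          (((k:SL(2,ℤ)) 1 0 : ℤ) : ZMod p) * (((k':SL(2,ℤ)) 0 0 : ℤ) : ZMod p) = 0) := by
      rw [Nat.cast_mul]
      constructor
      · intro hd
        have hp' : (p : ℤ) ∣ _ := (dvd_mul_left (p : ℤ) (M : ℤ)).trans hd
        have := (ZMod.intCast_zmod_eq_zero_iff_dvd _ p).mpr hp'
        push_cast at this
        exact this
      · intro hz
        have hp' : (p : ℤ) ∣ (k:SL(2,ℤ)) 0 0 * (k':SL(2,ℤ)) 1 0 - (k:SL(2,ℤ)) 1 0 * (k':SL(2,ℤ)) 0 0 := by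
          rw [← ZMod.intCast_zmod_eq_zero_iff_dvd]
          push_cast
          exact hz
        exact hcop.mul_dvd hMdvd hp'
    rw [hiff]
    simp only [f]
    by_cases ha : (((k : SL(2,ℤ)) 0 0 : ℤ) : ZMod p) = 0
    · have hc := hc_unit _ ha
      by_cases ha' : (((k' : SL(2,ℤ)) 0 0 : ℤ) : ZMod p) = 0
      · simp [ha, ha']
      · simp [ha, ha', hc]
    · by_cases ha' : (((k' : SL(2,ℤ)) 0 0 : ℤ) : ZMod p) = 0
      · have hc' := hc_unit _ ha'
        simp [ha, ha', hc']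
      · simp only [ha, ha', if_false, Option.some.injEq]
        constructor
        · intro h
          field_simp at h
          linear_combination -h
        · intro h
          field_simp
          linear_combination -h
  · intro t
    cases t with
    | none =>
      obtain ⟨u, v, huv⟩ := hcop
      have huv' : (p : ℤ) * v + u * (M : ℤ) = 1 := by linarith
      refine ⟨⟨ci_bezoutMat (p : ℤ) (M : ℤ) u v huv', ?_⟩, ?_⟩
      · rw [Gamma0_mem, ci_bezoutMat_one_zero]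
        simp
      · show (if (((ci_bezoutMat (p : ℤ) (M : ℤ) u v huv') 0 0 : ℤ) : ZMod p) = 0 then none
          else some ((((ci_bezoutMat (p : ℤ) (M : ℤ) u v huv') 1 0 : ℤ) : ZMod p) *
            (((ci_bezoutMat (p : ℤ) (M : ℤ) u v huv') 0 0 : ℤ) : ZMod p)⁻¹)) = none
        rw [ci_bezoutMat_zero_zero]
        simp
    | some t =>
      have hMp : ((M : ℕ) : ZMod p) ≠ 0 := by
        rw [Ne, ZMod.natCast_eq_zero_iff]
        exact h
      refine ⟨⟨ci_lowerUni (M * (t * ((M : ℕ) : ZMod p)⁻¹).val),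
        ci_lowerUni_mem_Gamma0 M _ (dvd_mul_right _ _)⟩, ?_⟩
      show (if (((ci_lowerUni (M * (t * ((M : ℕ) : ZMod p)⁻¹).val)) 0 0 : ℤ) : ZMod p) = 0 then none
        else some ((((ci_lowerUni (M * (t * ((M : ℕ) : ZMod p)⁻¹).val)) 1 0 : ℤ) : ZMod p) *
          (((ci_lowerUni (M * (t * ((M : ℕ) : ZMod p)⁻¹).val)) 0 0 : ℤ) : ZMod p)⁻¹)) = some t
      rw [ci_lowerUni_zero_zero, ci_lowerUni_one_zero]
      have h1 : (((1 : ℤ)) : ZMod p) ≠ 0 := by simp
      rw [if_neg h1]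
      congr 1
      push_cast
      rw [ZMod.natCast_zmod_val]
      field_simp

theorem ci_Gamma0_one_eq_top : Gamma0 1 = ⊤ := by
  ext g
  simp only [Gamma0_mem, Subgroup.mem_top, iff_true]
  exact Subsingleton.elim _ _

theorem ci_index_Gamma0_of_pos : ∀ n : ℕ, 0 < n → (Gamma0 n).index = ModularCurve.dedekindPsi n := by
  intro n
  induction n using Nat.strong_induction_on with
  | _ n ih =>
    intro hn
    rcases Nat.eq_or_lt_of_le (Nat.one_le_iff_ne_zero.mpr hn.ne') with h1 | h1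
    · rw [← h1, ModularCurve.dedekindPsi_one, ci_Gamma0_one_eq_top, Subgroup.index_top]
    · have hp : (n.minFac).Prime := Nat.minFac_prime (by omega)
      obtain ⟨M, hM⟩ : n.minFac ∣ n := Nat.minFac_dvd n
      have hMpos : 0 < M := by
        rcases Nat.eq_zero_or_pos M with h | h
        · rw [h, mul_zero] at hM; omega
        · exact h
      have hMlt : M < n := by
        conv_rhs => rw [hM]
        exact lt_mul_of_one_lt_left hMpos hp.one_lt
      have hn' : n = M * n.minFac := by rw [mul_comm]; exact hM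
      have hle : Gamma0 (M * n.minFac) ≤ Gamma0 M := ci_Gamma0_le_of_dvd (dvd_mul_right M _)
      have hind := Subgroup.relIndex_mul_index hle
      rw [ih M hMlt hMpos] at hind
      conv_lhs => rw [hn']
      conv_rhs => rw [hn']
      rw [← hind]
      by_cases hpM : n.minFac ∣ M
      · rw [relindex_Gamma0_mul_prime_of_dvd M _ hp hMpos hpM,
          dedekindPsi_mul_prime_of_dvd M _ hp hMpos hpM]
      · rw [relindex_Gamma0_mul_prime_of_not_dvd M _ hp hMpos hpM,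
          dedekindPsi_mul_prime_of_not_dvd M _ hp hMpos hpM]

theorem index_Gamma0 (N : ℕ) [NeZero N] : (Gamma0 N).index = ModularCurve.dedekindPsi N :=
  ci_index_Gamma0_of_pos N (NeZero.pos N)

theorem card_Q (N : ℕ) [NeZero N] : Nat.card (Q N) = ModularCurve.dedekindPsi N :=
  index_Gamma0 N

end Fermat.Agent.S24x
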