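import Fermat.Agent.S24x.CombDefs

/-!
# S24 project, combinatorics module (N), piece W4c: the weighted count of unimodular vectors

`∑_{(a,c) ∈ (ℤ/N)², gcd(a,c,N)=1} gcd(N, c²) = N · φ(N) · cuspCount N`, and unit-invariance of the
weight.  Pure counting in `ℕ` / `ZMod N`; no matrices.  Auxiliary lemmas carry the prefix `cc_`.
-/

set_option autoImplicit false

open Finset

namespace Fermat.Agent.S24x

/-! ### number-theoretic lemmas -/

/-- `gcd(N, c²) = d · gcd(N/d, d)` with `d = gcd(N, c)`. -/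
theorem cc_gcd_sq (N c : ℕ) (hN : 0 < N) :
    Nat.gcd N (c ^ 2) = Nat.gcd N c * Nat.gcd (N / Nat.gcd N c) (Nat.gcd N c) := by
  obtain ⟨N', c', hcop, hN', hc'⟩ := Nat.exists_coprime N c
  set d := Nat.gcd N c with hd
  have hdpos : 0 < d := Nat.gcd_pos_of_pos_left c hN
  have hNd : N / d = N' := by
    conv_lhs => rw [hN']
    exact Nat.mul_div_cancel N' hdpos
  rw [hNd]
  have h1 : c ^ 2 = d * (d * c' ^ 2) := by
    conv_lhs => rw [hc']
    ring
  have h2 : N = d * N' := by
    conv_lhs => rw [hN']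
    ring
  conv_lhs => rw [h1, h2]
  rw [Nat.gcd_mul_left]
  congr 1
  -- gcd N' (d * c'^2) = gcd N' d
  have hcop2 : Nat.Coprime N' (c' ^ 2) := Nat.Coprime.pow_right 2 hcop
  exact Nat.Coprime.gcd_mul_right_cancel_right d hcop2.symm

/-- multiplying by a unit of `ZMod N` does not change `gcd(N, val)`. -/
theorem cc_gcd_val_unit_mul (N : ℕ) [NeZero N] (u : (ZMod N)ˣ) (x : ZMod N) :
    Nat.gcd N ((u : ZMod N) * x).val = Nat.gcd N x.val := by
  have key : ∀ (w : (ZMod N)ˣ) (y : ZMod N), Nat.gcd N y.val ∣ Nat.gcd N ((w : ZMod N) * y).val := by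
    intro w y
    refine Nat.dvd_gcd (Nat.gcd_dvd_left _ _) ?_
    rw [ZMod.val_mul]
    have h1 : Nat.gcd N y.val ∣ (w : ZMod N).val * y.val :=
      Dvd.dvd.mul_left (Nat.gcd_dvd_right _ _) _
    exact (Nat.dvd_mod_iff (Nat.gcd_dvd_left N y.val)).mpr h1
  refine Nat.dvd_antisymm ?_ (key u x)
  have h2 := key u⁻¹ ((u : ZMod N) * x)
  rwa [← mul_assoc, Units.inv_mul, one_mul] at h2

/-- W4c, first statement: the weight is invariant under unit multiples. -/
theorem wt_unit_smul (N : ℕ) [NeZero N] (u : (ZMod N)ˣ) (v : ZMod N × ZMod N) :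
    wt N ((u : ZMod N) * v.1, (u : ZMod N) * v.2) = wt N v := by
  have hN : 0 < N := Nat.pos_of_ne_zero (NeZero.ne N)
  unfold wt
  simp only
  rw [cc_gcd_sq N _ hN, cc_gcd_sq N v.2.val hN, cc_gcd_val_unit_mul]

/-! ### counting lemmas on `range N` -/

/-- sums over `ZMod N` of functions of `val` are sums over `range N`. -/
theorem cc_sum_zmod_val (N : ℕ) [NeZero N] (f : ℕ → ℕ) :
    ∑ x : ZMod N, f x.val = ∑ i ∈ range N, f i := by
  refine Finset.sum_bij (fun x _ => x.val) ?_ ?_ ?_ ?_
  · intro x _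
    exact Finset.mem_range.mpr (ZMod.val_lt x)
  · intro x _ y _ h
    exact ZMod.val_injective N h
  · intro i hi
    exact ⟨(i : ZMod N), Finset.mem_univ _, ZMod.val_cast_of_lt (Finset.mem_range.mp hi)⟩
  · intro x _
    rfl

/-- the number of `a < k * d` coprime to `d` is `k * φ(d)`. -/
theorem cc_card_coprime_range_mul (d k : ℕ) :
    ((range (k * d)).filter (fun a => Nat.Coprime d a)).card = k * Nat.totient d := by
  induction k with
  | zero => simp
  | succ k ih =>
    have h1 : range ((k + 1) * d) = range (k * d) ∪ Finset.Ico (k * d) (k * d + d) := by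
      ext x
      simp only [Finset.mem_range, Finset.mem_union, Finset.mem_Ico]
      have : (k + 1) * d = k * d + d := by ring
      omega
    have hdisj : Disjoint ((range (k * d)).filter (fun a => Nat.Coprime d a))
        ((Finset.Ico (k * d) (k * d + d)).filter (fun a => Nat.Coprime d a)) := by
      rw [Finset.disjoint_left]
      intro x hx hx'
      simp only [Finset.mem_filter, Finset.mem_range, Finset.mem_Ico] at hx hx'
      omega
    rw [h1, Finset.filter_union, Finset.card_union_of_disjoint hdisj, ih,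
      Nat.filter_coprime_Ico_eq_totient]
    ring

/-- the number of `a < N` with `gcd(gcd(a, c), N) = 1` is `(N / d) * φ(d)`, `d = gcd(N, c)`. -/
theorem cc_card_uni (N c : ℕ) :
    ((range N).filter (fun a => Nat.gcd (Nat.gcd a c) N = 1)).card =
      N / Nat.gcd N c * Nat.totient (Nat.gcd N c) := by
  have hd : Nat.gcd N c ∣ N := Nat.gcd_dvd_left N c
  have h1 : (range N).filter (fun a => Nat.gcd (Nat.gcd a c) N = 1) =
      (range (N / Nat.gcd N c * Nat.gcd N c)).filter (fun a => Nat.Coprime (Nat.gcd N c) a) := by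
    rw [Nat.div_mul_cancel hd]
    refine Finset.filter_congr fun a _ => ?_
    rw [Nat.Coprime, Nat.gcd_assoc, Nat.gcd_comm c N, Nat.gcd_comm a]
  rw [h1, cc_card_coprime_range_mul]

/-! ### the main count -/

/-- the weighted count, as a double sum over `range N`. -/
theorem cc_sum_range (N : ℕ) (hN : 0 < N) :
    ∑ c ∈ range N, ∑ a ∈ range N,
        (if Nat.gcd (Nat.gcd a c) N = 1 then Nat.gcd N (c ^ 2) else 0) =
      N * Nat.totient N * ModularCurve.cuspCount N := by
  -- inner sum
  have hinner : ∀ c ∈ range N, ∑ a ∈ range N,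
      (if Nat.gcd (Nat.gcd a c) N = 1 then Nat.gcd N (c ^ 2) else 0) =
      (fun d => d * Nat.gcd (N / d) d * (N / d * Nat.totient d)) (Nat.gcd N c) := by
    intro c _
    rw [← Finset.sum_filter, Finset.sum_const, smul_eq_mul, cc_card_uni N c, cc_gcd_sq N c hN]
    ring
  rw [Finset.sum_congr rfl hinner]
  -- group by `d = gcd N c`
  have hmaps : ∀ c ∈ range N, Nat.gcd N c ∈ N.divisors := by
    intro c _
    exact Nat.mem_divisors.mpr ⟨Nat.gcd_dvd_left N c, hN.ne'⟩
  rw [← Finset.sum_fiberwise_of_maps_to' hmaps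
    (fun d => d * Nat.gcd (N / d) d * (N / d * Nat.totient d))]
  unfold ModularCurve.cuspCount
  rw [Finset.mul_sum]
  refine Finset.sum_congr rfl fun d hd => ?_
  have hdN : d ∣ N := (Nat.mem_divisors.mp hd).1
  rw [Finset.sum_const, smul_eq_mul, ← Nat.totient_div_of_dvd hdN]
  -- termwise identity
  have hmul : d * (N / d) = N := Nat.mul_div_cancel' hdN
  have htot := Nat.totient_gcd_mul_totient_mul d (N / d)
  rw [hmul] at htot
  -- htot : φ (gcd d (N/d)) * φ N = φ d * φ (N/d) * gcd d (N/d)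
  have hcomm : Nat.gcd (N / d) d = Nat.gcd d (N / d) := Nat.gcd_comm _ _
  rw [hcomm]
  calc Nat.totient (N / d) * (d * Nat.gcd d (N / d) * (N / d * Nat.totient d))
      = (d * (N / d)) * (Nat.totient d * Nat.totient (N / d) * Nat.gcd d (N / d)) := by ring
    _ = N * (Nat.totient (Nat.gcd d (N / d)) * Nat.totient N) := by rw [hmul, htot]
    _ = N * Nat.totient N * Nat.totient (Nat.gcd d (N / d)) := by ring

/-- W4c, second statement. -/
theorem sum_wt_Vset (N : ℕ) [NeZero N] :
    ∑ v ∈ Vset N, wt N v = N * Nat.totient N * ModularCurve.cuspCount N := by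
  have hN : 0 < N := Nat.pos_of_ne_zero (NeZero.ne N)
  rw [← cc_sum_range N hN]
  unfold Vset
  rw [Finset.sum_filter, Fintype.sum_prod_type_right]
  have h1 : ∀ y : ZMod N, ∑ x : ZMod N, (if IsUni N (x, y) then wt N (x, y) else 0) =
      (fun c => ∑ a ∈ range N,
        (if Nat.gcd (Nat.gcd a c) N = 1 then Nat.gcd N (c ^ 2) else 0)) y.val := by
    intro y
    exact cc_sum_zmod_val N
      (fun a => if Nat.gcd (Nat.gcd a y.val) N = 1 then Nat.gcd N (y.val ^ 2) else 0)
  rw [Finset.sum_congr rfl (fun y _ => h1 y)]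
  exact cc_sum_zmod_val N (fun c => ∑ a ∈ range N,
    (if Nat.gcd (Nat.gcd a c) N = 1 then Nat.gcd N (c ^ 2) else 0))

end Fermat.Agent.S24x
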