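import Fermat.Agent.S24x.P1Basic
import Fermat.Prelude.Def_ModularCurve_GenusNumerics

/-!
# S24 project: `|P¹(ℤ/N)| = ψ(N)` (Dedekind psi function of the Prelude)

`card_rows_zmod : Nat.card (Rows (ZMod N)) = φ(N) * dedekindPsi N` and
`card_P1_zmod : Nat.card (P1 (ZMod N)) = dedekindPsi N`.
Proof: both sides are multiplicative (CRT) and agree on prime powers.
-/

set_option autoImplicit false

namespace Fermat.Agent.S24x

open ModularCurve

/-! ## functoriality of unimodular rows -/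

section functoriality

variable {R S : Type*} [CommRing R] [CommRing S]

theorem IsUnimodRow.map (f : R →+* S) {v : R × R} (hv : IsUnimodRow v) :
    IsUnimodRow (f v.1, f v.2) := by
  obtain ⟨a, b, h⟩ := hv
  exact ⟨f a, f b, by simp only [← map_mul, ← map_add, h, map_one]⟩

/-- a ring isomorphism induces a bijection on unimodular rows. -/
def Rows.congr (e : R ≃+* S) : Rows R ≃ Rows S where
  toFun v := ⟨(e v.1.1, e v.1.2), IsUnimodRow.map (e : R →+* S) v.2⟩
  invFun v := ⟨(e.symm v.1.1, e.symm v.1.2), IsUnimodRow.map (e.symm : S →+* R) v.2⟩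
  left_inv v := by apply Rows.ext <;> simp
  right_inv v := by apply Rows.ext <;> simp

/-- unimodular rows over a product ring. -/
def Rows.prodEquiv : Rows (R × S) ≃ Rows R × Rows S where
  toFun v := (⟨(v.1.1.1, v.1.2.1), IsUnimodRow.map (RingHom.fst R S) v.2⟩,
    ⟨(v.1.1.2, v.1.2.2), IsUnimodRow.map (RingHom.snd R S) v.2⟩)
  invFun w := ⟨((w.1.1.1, w.2.1.1), (w.1.1.2, w.2.1.2)), by
    obtain ⟨a, b, h⟩ := w.1.2
    obtain ⟨a', b', h'⟩ := w.2.2
    exact ⟨(a, a'), (b, b'), Prod.ext h h'⟩⟩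
  left_inv v := by apply Rows.ext <;> rfl
  right_inv w := by
    apply Prod.ext <;> apply Rows.ext <;> rfl

end functoriality

/-! ## the free action: `|Rows R| = |P¹(R)| · |Rˣ|` -/

theorem Rows.stabilizer_eq_bot {R : Type*} [CommRing R] (v : Rows R) :
    MulAction.stabilizer Rˣ v = ⊥ := by
  rw [Subgroup.eq_bot_iff_forall]
  intro u hu
  exact Rows.eq_one_of_smul_eq (MulAction.mem_stabilizer_iff.mp hu)

/-- `Rows R ≃ P¹(R) × Rˣ`. -/
noncomputable def Rows.equivP1ProdUnits (R : Type*) [CommRing R] : Rows R ≃ P1 R × Rˣ :=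
  MulAction.selfEquivOrbitsQuotientProd Rows.stabilizer_eq_bot

theorem card_rows_eq (R : Type*) [CommRing R] :
    Nat.card (Rows R) = Nat.card (P1 R) * Nat.card Rˣ := by
  rw [Nat.card_congr (Rows.equivP1ProdUnits R), Nat.card_prod]

/-! ## the Dedekind psi function -/

/-- indicator of squarefree numbers as an arithmetic function. -/
def sqfAF : ArithmeticFunction ℕ := ⟨fun n => if Squarefree n then 1 else 0, by simp⟩

theorem sqfAF_apply (n : ℕ) : sqfAF n = if Squarefree n then 1 else 0 := rfl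

theorem isMultiplicative_sqfAF : sqfAF.IsMultiplicative := by
  refine ⟨by simp [sqfAF_apply], ?_⟩
  intro m n hmn
  simp only [sqfAF_apply, Nat.squarefree_mul hmn]
  by_cases h1 : Squarefree m <;> by_cases h2 : Squarefree n <;> simp [h1, h2]

theorem dedekindPsi_eq_mul_apply (N : ℕ) :
    dedekindPsi N = (sqfAF * ArithmeticFunction.id) N := by
  rw [ArithmeticFunction.mul_apply, Nat.sum_divisorsAntidiagonal
    (f := fun d e => sqfAF d * ArithmeticFunction.id e), dedekindPsi, Finset.sum_filter]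
  refine Finset.sum_congr rfl fun d _ => ?_
  by_cases h : Squarefree d <;> simp [sqfAF_apply, h]

theorem dedekindPsi_mul_of_coprime {a b : ℕ} (h : a.Coprime b) :
    dedekindPsi (a * b) = dedekindPsi a * dedekindPsi b := by
  simp only [dedekindPsi_eq_mul_apply]
  exact (isMultiplicative_sqfAF.mul ArithmeticFunction.isMultiplicative_id).map_mul_of_coprime h

theorem dedekindPsi_prime_pow {p k : ℕ} (hp : p.Prime) (hk : 0 < k) :
    dedekindPsi (p ^ k) = p ^ k + p ^ (k - 1) := by
  obtain ⟨k, rfl⟩ : ∃ m, k = m + 1 := ⟨k - 1, by omega⟩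
  rw [dedekindPsi, Nat.divisors_prime_pow hp, Finset.sum_filter, Finset.sum_map]
  simp only [Function.Embedding.coeFn_mk]
  rw [Finset.sum_range_succ', Finset.sum_range_succ']
  have hz : ∑ i ∈ Finset.range k,
      (if Squarefree (p ^ (i + 1 + 1)) then p ^ (k + 1) / p ^ (i + 1 + 1) else 0) = 0 := by
    refine Finset.sum_eq_zero fun i _ => ?_
    rw [if_neg]
    intro hsq
    have := (Nat.squarefree_pow_iff hp.ne_one (by omega : i + 1 + 1 ≠ 0)).mp hsq
    omega
  rw [hz, zero_add]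
  have h1 : Squarefree (p ^ (0 + 1)) := by simpa using hp.squarefree
  have h0 : Squarefree (p ^ 0) := by simp
  rw [if_pos h1, if_pos h0]
  simp only [zero_add, pow_one, pow_zero, Nat.div_one, Nat.add_sub_cancel]
  rw [pow_succ, Nat.mul_div_cancel _ hp.pos, add_comm]

/-! ## prime powers -/

theorem isUnimodRow_zmod_prime_pow_iff {p k : ℕ} (hp : p.Prime) (hk : 0 < k)
    (v : ZMod (p ^ k) × ZMod (p ^ k)) : IsUnimodRow v ↔ IsUnit v.1 ∨ IsUnit v.2 := by
  have : Fact p.Prime := ⟨hp⟩
  constructor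
  · rintro ⟨a, b, h⟩
    by_contra hcon
    rw [not_or] at hcon
    -- both coordinates die in `ZMod p`
    have key : ∀ c : ZMod (p ^ k), ¬ IsUnit c →
        ZMod.castHom (dvd_pow_self p hk.ne') (ZMod p) c = 0 := by
      intro c hc
      have hcv : ¬ c.val.Coprime (p ^ k) := by
        intro hcop
        apply hc
        have := (ZMod.isUnit_iff_coprime c.val (p ^ k)).mpr hcop
        rwa [ZMod.natCast_zmod_val] at this
      have hdvd : p ∣ c.val := by
        by_contra hnd
        exact hcv (Nat.Coprime.pow_right k ((Nat.Prime.coprime_iff_not_dvd hp).mpr hnd).symm)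
      rw [ZMod.castHom_apply, ← ZMod.natCast_zmod_val c, ZMod.cast_natCast (dvd_pow_self p hk.ne')]
      exact (ZMod.natCast_eq_zero_iff _ _).mpr hdvd
    have h' := congrArg (ZMod.castHom (dvd_pow_self p hk.ne') (ZMod p)) h
    rw [map_add, map_mul, map_mul, key _ hcon.1, key _ hcon.2, map_one] at h'
    simp at h'
  · rintro (h | h)
    · obtain ⟨u, hu⟩ := h
      exact ⟨(↑u⁻¹ : ZMod (p ^ k)), 0, by rw [← hu]; simp⟩
    · obtain ⟨u, hu⟩ := h
      exact ⟨0, (↑u⁻¹ : ZMod (p ^ k)), by rw [← hu]; simp⟩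


theorem card_units_subtype (R : Type*) [CommRing R] :
    Nat.card {c : R // IsUnit c} = Nat.card Rˣ := by
  refine (Nat.card_congr (Equiv.ofBijective (fun u : Rˣ => (⟨(u : R), u.isUnit⟩ : {c : R // IsUnit c}))
    ⟨fun u u' h => Units.ext (congrArg Subtype.val h), fun c => ?_⟩)).symm
  obtain ⟨u, hu⟩ := c.2
  exact ⟨u, Subtype.ext hu⟩

theorem card_nonunits_zmod_prime_pow {p m : ℕ} (hp : p.Prime) :
    Nat.card {c : ZMod (p ^ (m + 1)) // ¬ IsUnit c} = p ^ m := by
  haveI : NeZero (p ^ (m + 1)) := ⟨(pow_pos hp.pos _).ne'⟩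
  classical
  have h1 : Nat.card {c : ZMod (p ^ (m + 1)) // IsUnit c} = p ^ m * (p - 1) := by
    rw [card_units_subtype, Nat.card_eq_fintype_card, ZMod.card_units_eq_totient,
      Nat.totient_prime_pow hp (Nat.succ_pos m), Nat.succ_sub_one]
  have h2 : Nat.card {c : ZMod (p ^ (m + 1)) // ¬ IsUnit c} +
      Nat.card {c : ZMod (p ^ (m + 1)) // IsUnit c} = p ^ (m + 1) := by
    rw [Nat.card_eq_fintype_card, Nat.card_eq_fintype_card, Fintype.card_subtype_compl,
      ZMod.card]
    have := Fintype.card_subtype_le (fun c : ZMod (p ^ (m + 1)) => IsUnit c)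
    rw [ZMod.card] at this
    omega
  rw [h1] at h2
  obtain ⟨q, rfl⟩ : ∃ q, p = q + 1 := ⟨p - 1, by have := hp.pos; omega⟩
  simp only [Nat.add_sub_cancel] at h2
  have h3 : (q + 1) ^ (m + 1) = (q + 1) ^ m + (q + 1) ^ m * q := by ring
  omega

theorem card_rows_zmod_prime_pow {p m : ℕ} (hp : p.Prime) :
    Nat.card (Rows (ZMod (p ^ (m + 1)))) + p ^ m * p ^ m = p ^ (m + 1) * p ^ (m + 1) := by
  haveI : NeZero (p ^ (m + 1)) := ⟨(pow_pos hp.pos _).ne'⟩
  classical
  set R := ZMod (p ^ (m + 1)) with hR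
  -- `Rows R` is the complement of `nonunits × nonunits` in `R × R`
  have e1 : Rows R ≃ {v : R × R // IsUnit v.1 ∨ IsUnit v.2} :=
    Equiv.subtypeEquivRight fun v => isUnimodRow_zmod_prime_pow_iff hp (Nat.succ_pos m) v
  have e2 : {v : R × R // ¬ (IsUnit v.1 ∨ IsUnit v.2)} ≃
      {c : R // ¬ IsUnit c} × {c : R // ¬ IsUnit c} :=
    { toFun := fun v => (⟨v.1.1, fun h => v.2 (Or.inl h)⟩, ⟨v.1.2, fun h => v.2 (Or.inr h)⟩)
      invFun := fun w => ⟨(w.1.1, w.2.1), fun h => h.elim w.1.2 w.2.2⟩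
      left_inv := fun v => rfl
      right_inv := fun w => rfl }
  have h1 : Nat.card {v : R × R // ¬ (IsUnit v.1 ∨ IsUnit v.2)} = p ^ m * p ^ m := by
    rw [Nat.card_congr e2, Nat.card_prod, card_nonunits_zmod_prime_pow hp]
  have h2 : Nat.card {v : R × R // IsUnit v.1 ∨ IsUnit v.2} +
      Nat.card {v : R × R // ¬ (IsUnit v.1 ∨ IsUnit v.2)} = p ^ (m + 1) * p ^ (m + 1) := by
    rw [Nat.card_eq_fintype_card, Nat.card_eq_fintype_card, Fintype.card_subtype_compl,
      Fintype.card_prod, ZMod.card]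
    have := Fintype.card_subtype_le (fun v : R × R => IsUnit v.1 ∨ IsUnit v.2)
    rw [Fintype.card_prod, ZMod.card] at this
    omega
  rw [Nat.card_congr e1, ← h1]
  exact h2

/-- **Number of unimodular rows mod `N`**: `φ(N) ψ(N)`. -/
theorem card_rows_zmod (N : ℕ) [NeZero N] :
    Nat.card (Rows (ZMod N)) = Nat.totient N * dedekindPsi N := by
  have key : ∀ n : ℕ, n ≠ 0 → Nat.card (Rows (ZMod n)) = Nat.totient n * dedekindPsi n := by
    intro n
    induction n using Nat.recOnPosPrimePosCoprime with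
    | prime_pow p k hp hk =>
      intro _
      obtain ⟨m, rfl⟩ : ∃ m, k = m + 1 := ⟨k - 1, by omega⟩
      have h1 := card_rows_zmod_prime_pow (m := m) hp
      rw [Nat.totient_prime_pow hp (Nat.succ_pos m), dedekindPsi_prime_pow hp (Nat.succ_pos m),
        Nat.succ_sub_one, Nat.succ_eq_add_one]
      obtain ⟨q, rfl⟩ : ∃ q, p = q + 1 := ⟨p - 1, by have := hp.pos; omega⟩
      simp only [Nat.add_sub_cancel]
      have h3 : (q + 1) ^ m * q * ((q + 1) ^ (m + 1) + (q + 1) ^ m) + (q + 1) ^ m * (q + 1) ^ m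
          = (q + 1) ^ (m + 1) * (q + 1) ^ (m + 1) := by ring
      omega
    | zero => intro h; exact absurd rfl h
    | one =>
      intro _
      have : Subsingleton (Rows (ZMod 1)) :=
        ⟨fun v w => Rows.ext (Subsingleton.elim _ _) (Subsingleton.elim _ _)⟩
      have : Nonempty (Rows (ZMod 1)) := ⟨⟨(0, 0), ⟨0, 0, Subsingleton.elim _ _⟩⟩⟩
      rw [Nat.card_unique, Nat.totient_one, dedekindPsi_one]
    | coprime a b ha hb hab iha ihb =>
      intro _
      have ha0 : a ≠ 0 := by omega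
      have hb0 : b ≠ 0 := by omega
      rw [Nat.card_congr ((Rows.congr (ZMod.chineseRemainder hab)).trans Rows.prodEquiv),
        Nat.card_prod, iha ha0, ihb hb0, Nat.totient_mul hab, dedekindPsi_mul_of_coprime hab]
      ring
  exact key N (NeZero.ne N)

/-- **`|P¹(ℤ/N)| = ψ(N)`**. -/
theorem card_P1_zmod (N : ℕ) [NeZero N] : Nat.card (P1 (ZMod N)) = dedekindPsi N := by
  have h1 := card_rows_eq (ZMod N)
  rw [card_rows_zmod, Nat.card_eq_fintype_card (α := (ZMod N)ˣ), ZMod.card_units_eq_totient,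
    mul_comm] at h1
  exact (Nat.eq_of_mul_eq_mul_right (Nat.totient_pos.mpr (Nat.pos_of_ne_zero (NeZero.ne N))) h1).symm

instance (N : ℕ) [NeZero N] : Finite (Rows (ZMod N)) :=
  Finite.of_injective (fun v : Rows (ZMod N) => v.1) Subtype.val_injective

instance (N : ℕ) [NeZero N] : Finite (P1 (ZMod N)) :=
  Finite.of_surjective _ (P1.mk_surjective (R := ZMod N))

end Fermat.Agent.S24x
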