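import Fermat.Agent.S24x.CombDefs
import Fermat.Agent.S24x.P1Card

/-!
# S24 project, combinatorics: `|Vset N| = φ(N) ψ(N)` (bridge from `P1Card.card_rows_zmod`)

`IsUni N v` (gcd of `val`s) is the same as `IsUnimodRow v` (Bezout in `ZMod N`), hence the finite set
`Vset N` of `CombDefs` has `φ(N) * dedekindPsi N` elements.  Together with W4b (iv)
(`|Vset N| = φ(N) * |Q N|`) this gives `card_Q : Nat.card (Q N) = dedekindPsi N`.
-/

set_option autoImplicit false

namespace Fermat.Agent.S24x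

open ModularCurve

theorem isUni_iff_isUnimodRow (N : ℕ) [NeZero N] (v : ZMod N × ZMod N) :
    IsUni N v ↔ IsUnimodRow v := by
  constructor
  · intro h
    -- Bezout in `ℤ`
    have hcop : IsCoprime ((Nat.gcd v.1.val v.2.val : ℕ) : ℤ) (N : ℤ) :=
      Nat.isCoprime_iff_coprime.mpr h
    obtain ⟨x, y, hxy⟩ := hcop
    have hg : ((Nat.gcd v.1.val v.2.val : ℕ) : ℤ) =
        (v.1.val : ℤ) * Nat.gcdA v.1.val v.2.val + (v.2.val : ℤ) * Nat.gcdB v.1.val v.2.val :=
      Nat.gcd_eq_gcd_ab _ _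
    refine ⟨((x * Nat.gcdA v.1.val v.2.val : ℤ) : ZMod N),
      ((x * Nat.gcdB v.1.val v.2.val : ℤ) : ZMod N), ?_⟩
    have h1 : ((v.1.val : ℤ) : ZMod N) = v.1 := by simp
    have h2 : ((v.2.val : ℤ) : ZMod N) = v.2 := by simp
    have hN : ((N : ℤ) : ZMod N) = 0 := by simp
    have := congrArg (fun z : ℤ => (z : ZMod N)) hxy
    simp only [Int.cast_add, Int.cast_mul, Int.cast_one, hN, mul_zero, add_zero] at this
    rw [hg] at this
    simp only [Int.cast_add, Int.cast_mul, h1, h2] at this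
    rw [← this]
    push_cast
    ring
  · rintro ⟨a, b, hab⟩
    unfold IsUni
    rw [Nat.eq_one_iff_not_exists_prime_dvd]
    intro p hp hdvd
    have hpN : p ∣ N := (Nat.dvd_gcd_iff.mp hdvd).2
    have hp1 : p ∣ v.1.val := (Nat.dvd_gcd_iff.mp (Nat.dvd_gcd_iff.mp hdvd).1).1
    have hp2 : p ∣ v.2.val := (Nat.dvd_gcd_iff.mp (Nat.dvd_gcd_iff.mp hdvd).1).2
    haveI : Fact p.Prime := ⟨hp⟩
    -- reduce mod `p`
    have key : ∀ c : ZMod N, p ∣ c.val → ZMod.castHom hpN (ZMod p) c = 0 := by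
      intro c hc
      rw [ZMod.castHom_apply, ← ZMod.natCast_zmod_val c, ZMod.cast_natCast hpN]
      exact (ZMod.natCast_eq_zero_iff _ _).mpr hc
    have h' := congrArg (ZMod.castHom hpN (ZMod p)) hab
    rw [map_add, map_mul, map_mul, key _ hp1, key _ hp2, map_one] at h'
    simp at h'

/-- **`|Vset N| = φ(N) ψ(N)`**. -/
theorem card_Vset (N : ℕ) [NeZero N] :
    (Vset N).card = Nat.totient N * dedekindPsi N := by
  rw [← card_rows_zmod N, Vset, ← Fintype.card_subtype, ← Nat.card_eq_fintype_card]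
  exact Nat.card_congr (Equiv.subtypeEquivRight fun v => isUni_iff_isUnimodRow N v)

/-- `card_Q` from W4b (iv) applied to the constant function `1`. -/
theorem card_Q_of_card_Vset (N : ℕ) [NeZero N]
    (h : (Vset N).card = Nat.totient N * Nat.card (Q N)) :
    Nat.card (Q N) = dedekindPsi N := by
  rw [card_Vset] at h
  exact (Nat.eq_of_mul_eq_mul_left (Nat.totient_pos.mpr (Nat.pos_of_ne_zero (NeZero.ne N))) h).symm

end Fermat.Agent.S24x
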