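import Fermat.Agent.S24x.CombBasic

/-!
# S24 project, combinatorics module (N), W1: lifting lemma

Every pair `(a, c)` of integers with `gcd(a, c, N) = 1` is congruent mod `N` to the first column
of an element of `SL(2,ℤ)`.
-/

set_option autoImplicit false

open CongruenceSubgroup ModularGroup Matrix.SpecialLinearGroup
open scoped MatrixGroups

namespace Fermat.Agent.S24x

/-- Auxiliary: if no prime divides `a`, `c` and `N` simultaneously and `c ≠ 0`, then some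
`a + t * N` is coprime to `c`. -/
theorem lift_exists_isCoprime_add_mul (a c : ℤ) (N : ℕ) (hc : c ≠ 0)
    (h : ∀ p : ℕ, p.Prime → (p : ℤ) ∣ a → (p : ℤ) ∣ c → ¬ (p ∣ N)) :
    ∃ t : ℤ, IsCoprime (a + t * N) c := by
  classical
  let ps : Finset ℕ := c.natAbs.primeFactors.filter (fun p => ¬ (p : ℤ) ∣ a)
  refine ⟨((ps.prod id : ℕ) : ℤ), ?_⟩
  rw [Int.isCoprime_iff_gcd_eq_one]
  rw [Int.gcd_eq_natAbs]
  apply Nat.coprime_of_dvd
  intro p pp hp1 hp2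
  have hpc : (p : ℤ) ∣ c := Int.natCast_dvd.mpr hp2
  have hpa : (p : ℤ) ∣ a + ((ps.prod id : ℕ) : ℤ) * N := Int.natCast_dvd.mpr hp1
  by_cases hpx : (p : ℤ) ∣ a
  · have h2 : (p : ℤ) ∣ ((ps.prod id : ℕ) : ℤ) * N := (Int.dvd_add_right hpx).mp hpa
    have h3 : p ∣ ps.prod id * N := by exact_mod_cast h2
    rcases pp.dvd_mul.mp h3 with h4 | h4
    · obtain ⟨q, hq, hq'⟩ := (pp.prime.dvd_finsetProd_iff id).mp h4
      have hq1 := Finset.mem_filter.mp hq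
      have hqp : q.Prime := (Nat.mem_primeFactors.mp hq1.1).1
      have hpq : p = q := (Nat.prime_dvd_prime_iff_eq pp hqp).mp hq'
      exact hq1.2 (hpq ▸ hpx)
    · exact h p pp hpx hpc h4
  · have hcne : c.natAbs ≠ 0 := Int.natAbs_ne_zero.mpr hc
    have pps : p ∈ ps := Finset.mem_filter.mpr ⟨Nat.mem_primeFactors.mpr ⟨pp, hp2, hcne⟩, hpx⟩
    have h5 : p ∣ ps.prod id := Finset.dvd_prod_of_mem id pps
    have h6 : (p : ℤ) ∣ ((ps.prod id : ℕ) : ℤ) * N :=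
      Dvd.dvd.mul_right (by exact_mod_cast h5) _
    exact hpx ((Int.dvd_add_left h6).mp hpa)

/-- Lifting: every pair `(a, c)` of integers with `gcd(a, c, N) = 1` is congruent mod `N` to the
first column of an element of `SL(2,ℤ)`. -/
theorem exists_SL2_col (N : ℕ) [NeZero N] (a c : ℤ) (h : Int.gcd (Int.gcd a c) N = 1) :
    ∃ g : SL(2, ℤ), ((g 0 0 : ℤ) : ZMod N) = a ∧ ((g 1 0 : ℤ) : ZMod N) = c := by
  -- no prime divides a, c, N
  have hprime : ∀ p : ℕ, p.Prime → (p : ℤ) ∣ a → (p : ℤ) ∣ c → ¬ (p ∣ N) := by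
    intro p pp hpa hpc hpN
    have h1 : (p : ℤ) ∣ ((Int.gcd a c : ℕ) : ℤ) := Int.dvd_coe_gcd hpa hpc
    have h2 : (p : ℤ) ∣ ((Int.gcd ((Int.gcd a c : ℕ) : ℤ) (N : ℤ) : ℕ) : ℤ) :=
      Int.dvd_coe_gcd h1 (by exact_mod_cast hpN)
    rw [h] at h2
    have h3 : p ∣ 1 := by exact_mod_cast h2
    exact pp.one_lt.ne' (Nat.dvd_one.mp h3)
  -- replace c by a nonzero representative
  obtain ⟨c', hc'ne, hc'cast, hc'prime⟩ : ∃ c' : ℤ, c' ≠ 0 ∧ ((c' : ℤ) : ZMod N) = (c : ZMod N) ∧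
      ∀ p : ℕ, p.Prime → (p : ℤ) ∣ a → (p : ℤ) ∣ c' → ¬ (p ∣ N) := by
    by_cases hc : c = 0
    · refine ⟨(N : ℤ), by exact_mod_cast NeZero.ne N, by simp [hc], ?_⟩
      intro p pp hpa _ hpN
      exact hprime p pp hpa (by rw [hc]; exact dvd_zero _) hpN
    · exact ⟨c, hc, rfl, hprime⟩
  obtain ⟨t, ht⟩ := lift_exists_isCoprime_add_mul a c' N hc'ne hc'prime
  obtain ⟨g, hg0, hg1⟩ := IsCoprime.exists_SL2_col ht 0
  refine ⟨g, ?_, ?_⟩
  · rw [hg0]; simp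
  · rw [hg1]; exact hc'cast

end Fermat.Agent.S24x
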