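import Fermat.Agent.S24x.CombFibre
import Fermat.Agent.S24x.CombLift
import Fermat.Agent.S24x.CombCardBridge

/-!
# S24 project, combinatorics module (N), W4b part 2: exact-Spec wrappers

`exists_col_eq`, `sum_Vset_eq` (exact `CombSpec` signatures) from `CombFibre` + `CombLift`,
and `card_Q`, `index_Gamma0` from `CombCardBridge.card_Vset`.
-/

set_option autoImplicit false

open CongruenceSubgroup ModularGroup Matrix.SpecialLinearGroup
open scoped MatrixGroups

namespace Fermat.Agent.S24x

variable (N : ℕ) [NeZero N]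

/-- W4b (ii) -/
theorem exists_col_eq (v : ZMod N × ZMod N) (hv : v ∈ Vset N) : ∃ g : SL(2, ℤ), col N g = v :=
  exists_col_eq_of_lift N (fun a c h => exists_SL2_col N a c h) v hv

/-- W4b (iv): summing a unit-invariant function over unimodular vectors. -/
theorem sum_Vset_eq (F : ZMod N × ZMod N → ℕ)
    (hF : ∀ (u : (ZMod N)ˣ) (v : ZMod N × ZMod N), F ((u : ZMod N) * v.1, (u : ZMod N) * v.2) = F v) :
    ∑ v ∈ Vset N, F v = Nat.totient N * ∑ q : Q N, F (col N q.out) :=
  sum_Vset_eq_of_exists_col N (exists_col_eq N) F hF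

/-- C1 via the fibration: `#(SL(2,ℤ) ⧸ Γ₀(N)) = ψ(N)` (same statement as `Spec.card_Q`,
obtained from `sum_Vset_eq` with `F = 1` and `card_Vset`). -/
theorem card_Q_of_fibre : Nat.card (Q N) = ModularCurve.dedekindPsi N := by
  apply card_Q_of_card_Vset N
  have h := sum_Vset_eq N (fun _ => 1) (fun _ _ => rfl)
  simpa [Nat.card_eq_fintype_card] using h

/-- same statement as `Spec.index_Gamma0`. -/
theorem index_Gamma0_of_fibre : (Gamma0 N).index = ModularCurve.dedekindPsi N := by
  rw [← card_Q_of_fibre N]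
  rfl

end Fermat.Agent.S24x
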