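import Fermat.Agent.S24x.CombOrbit
import Fermat.Agent.S24x.CombCount
import Fermat.Agent.S24x.CombFibre2

/-!
# S24 project, combinatorics module (N): final assembly of the cusp count (C4)

* `card_orbits_T` (C4, exact `CombSpec` signature): the number of `⟨T⟩`-orbits on
  `SL(2,ℤ) ⧸ Γ₀(N)` is `ModularCurve.cuspCount N = ∑_{d ∣ N} φ(gcd(d, N/d))`.

Ingredients: `card_orbits_mul` (`CombOrbit`, orbit counting: `#orbits * N = ∑_q gcd(N, c_q²)`),
`sum_Vset_eq` (`CombFibre2`, fibration `Vset N → Q N` with fibres of size `φ(N)`),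
`wt_unit_smul`, `sum_wt_Vset` (`CombCount`, `∑_{v ∈ Vset N} gcd(N, c²) = N φ(N) cuspCount N`).

The other three counts: `card_Q`, `index_Gamma0` (C1) are in `CombIndex.lean`
(also `card_Q_of_fibre`, `index_Gamma0_of_fibre` in `CombFibre2.lean`);
`card_fixedBy_S`, `card_fixedBy_ST` (C2, C3) are in `CombFixed.lean`.
-/

set_option autoImplicit false

open CongruenceSubgroup ModularGroup Matrix.SpecialLinearGroup
open scoped MatrixGroups

namespace Fermat.Agent.S24x

variable (N : ℕ) [NeZero N]

/-- (C4) the number of `⟨T⟩`-orbits on `SL(2,ℤ) ⧸ Γ₀(N)` is the number of cusps of `Γ₀(N)`. -/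
theorem card_orbits_T :
    Nat.card (MulAction.orbitRel.Quotient (Subgroup.zpowers T) (Q N)) = ModularCurve.cuspCount N := by
  have hN : 0 < N := Nat.pos_of_ne_zero (NeZero.ne N)
  have hφ : 0 < Nat.totient N := Nat.totient_pos.mpr hN
  have h1 := card_orbits_mul N
  have h2 := sum_Vset_eq N (wt N) (wt_unit_smul N)
  have h3 := sum_wt_Vset N
  have h4 : N * Nat.totient N * Nat.card (MulAction.orbitRel.Quotient (Subgroup.zpowers T) (Q N)) =
      N * Nat.totient N * ModularCurve.cuspCount N := by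
    rw [← h3, h2, ← h1]
    ring
  exact Nat.eq_of_mul_eq_mul_left (Nat.mul_pos hN hφ) h4

end Fermat.Agent.S24x
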