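import Mathlib
import Fermat.Prelude.Def_ModularCurve_X0

/-!
# S24 bridge, part 1: the `q`-expansion of the modular discriminant is the formal product

`qExpansion 1 Δ = X * (etaProd ^ 24)` (coefficients cast to `ℂ`), where
`ModularCurve.etaProd = ∏' n, (1 - X ^ (n+1))` is the Prelude's formal product.
-/

set_option autoImplicit false

noncomputable section

namespace Fermat.Agent.S24x

open scoped PowerSeries.WithPiTopology
open PowerSeries Filter Topology

/-- finite partial products of the formal eta product -/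
def etaFin (R : Type*) [CommRing R] (s : Finset ℕ) : PowerSeries R :=
  ∏ i ∈ s, (1 - PowerSeries.X ^ (i + 1))

lemma etaFin_map (s : Finset ℕ) :
    (etaFin ℤ s).map (Int.castRingHom ℂ) = etaFin ℂ s := by
  simp [etaFin, map_prod]

lemma X_pow_dvd_prod_sub_one {R : Type*} [CommRing R] {m : ℕ} (u : Finset ℕ)
    (hu : ∀ i ∈ u, m ≤ i) :
    (PowerSeries.X : PowerSeries R) ^ m ∣
      ((∏ i ∈ u, (1 - PowerSeries.X ^ (i + 1) : PowerSeries R)) - 1) := by
  classical
  induction u using Finset.induction_on with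
  | empty => simp
  | insert a u ha ih =>
    rw [Finset.prod_insert ha]
    have h1 : (PowerSeries.X : PowerSeries R) ^ m ∣ (1 - PowerSeries.X ^ (a + 1) : PowerSeries R) - 1 := by
      have : (1 - PowerSeries.X ^ (a + 1) : PowerSeries R) - 1 = - PowerSeries.X ^ (a + 1) := by ring
      rw [this]
      exact (pow_dvd_pow _ (by have := hu a (Finset.mem_insert_self a u); omega)).trans
        (dvd_neg.mpr dvd_rfl)
    have h2 := ih (fun i hi => hu i (Finset.mem_insert_of_mem hi))
    have : ((1 - PowerSeries.X ^ (a + 1) : PowerSeries R) *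
        ∏ i ∈ u, (1 - PowerSeries.X ^ (i + 1) : PowerSeries R)) - 1
        = (1 - PowerSeries.X ^ (a + 1) : PowerSeries R) *
          ((∏ i ∈ u, (1 - PowerSeries.X ^ (i + 1) : PowerSeries R)) - 1)
          + ((1 - PowerSeries.X ^ (a + 1) : PowerSeries R) - 1) := by ring
    rw [this]
    exact dvd_add (Dvd.dvd.mul_left h2 _) h1

/-- partial products over `s ⊇ range m` agree modulo `X ^ m` -/
lemma X_pow_dvd_etaFin_sub {R : Type*} [CommRing R] {m : ℕ} {s t : Finset ℕ}
    (hs : Finset.range m ⊆ s) (hst : s ⊆ t) :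
    (PowerSeries.X : PowerSeries R) ^ m ∣ (etaFin R t - etaFin R s) := by
  classical
  have h1 : etaFin R t
      = (∏ i ∈ t \ s, (1 - PowerSeries.X ^ (i + 1) : PowerSeries R)) * etaFin R s := by
    rw [etaFin, etaFin, Finset.prod_sdiff hst]
  have h2 := X_pow_dvd_prod_sub_one (R := R) (m := m) (t \ s) (fun i hi => by
    by_contra hlt
    exact (Finset.mem_sdiff.mp hi).2 (hs (Finset.mem_range.mpr (by omega))))
  have : etaFin R t - etaFin R s
      = ((∏ i ∈ t \ s, (1 - PowerSeries.X ^ (i + 1) : PowerSeries R)) - 1) * etaFin R s := by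
    rw [h1]; ring
  rw [this]
  exact Dvd.dvd.mul_right h2 _

/-- the coefficients of the formal eta product are those of a sufficiently large partial product -/
lemma coeff_etaProd_eq {m k : ℕ} (hk : k < m) {s : Finset ℕ} (hs : Finset.range m ⊆ s) :
    PowerSeries.coeff k ModularCurve.etaProd = PowerSeries.coeff k (etaFin ℤ s) := by
  have hmul : Multipliable fun n : ℕ => (1 - PowerSeries.X ^ (n + 1) : PowerSeries ℤ) :=
    PowerSeries.WithPiTopology.multipliable_one_sub_X_pow ℤ
  have hprod := hmul.hasProd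
  have hlim : Tendsto (fun t : Finset ℕ => PowerSeries.coeff k (etaFin ℤ t)) atTop
      (𝓝 (PowerSeries.coeff k ModularCurve.etaProd)) :=
    ((PowerSeries.WithPiTopology.continuous_coeff ℤ k).tendsto _).comp hprod
  have hconst : Tendsto (fun t : Finset ℕ => PowerSeries.coeff k (etaFin ℤ t)) atTop
      (𝓝 (PowerSeries.coeff k (etaFin ℤ s))) := by
    refine tendsto_const_nhds.congr' ?_
    filter_upwards [eventually_ge_atTop s] with t hst
    have h := (PowerSeries.X_pow_dvd_iff.mp (X_pow_dvd_etaFin_sub (R := ℤ) hs hst)) k hk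
    rw [map_sub, sub_eq_zero] at h
    exact h.symm
  exact tendsto_nhds_unique hlim hconst


/-! ### analytic part -/

/-- iterated derivatives pass to locally uniform limits of holomorphic functions -/
lemma tendstoLocallyUniformlyOn_iteratedDeriv {ι : Type*} {l : Filter ι} [l.NeBot]
    {F : ι → ℂ → ℂ} {f : ℂ → ℂ} {U : Set ℂ} (hU : IsOpen U)
    (hF : TendstoLocallyUniformlyOn F f l U) (hd : ∀ᶠ n in l, DifferentiableOn ℂ (F n) U)
    (m : ℕ) :
    TendstoLocallyUniformlyOn (fun n => iteratedDeriv m (F n)) (iteratedDeriv m f) l U ∧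
      ∀ᶠ n in l, DifferentiableOn ℂ (iteratedDeriv m (F n)) U := by
  induction m with
  | zero => simpa [iteratedDeriv_zero] using And.intro hF hd
  | succ m ih =>
    obtain ⟨h1, h2⟩ := ih
    refine ⟨?_, ?_⟩
    · have := h1.deriv h2 hU
      simpa [Function.comp_def, iteratedDeriv_succ] using this
    · filter_upwards [h2] with n hn
      rw [iteratedDeriv_succ]
      exact hn.deriv hU

lemma iteratedDeriv_polynomial_eval (P : Polynomial ℂ) (m : ℕ) :
    iteratedDeriv m (fun q : ℂ => P.eval q) = fun q => ((⇑Polynomial.derivative)^[m] P).eval q := by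
  induction m with
  | zero => simp [iteratedDeriv_zero]
  | succ m ih =>
    rw [iteratedDeriv_succ, ih]
    funext q
    rw [Polynomial.deriv, Function.iterate_succ_apply']

lemma iteratedDeriv_polynomial_eval_zero (P : Polynomial ℂ) (m : ℕ) :
    iteratedDeriv m (fun q : ℂ => P.eval q) 0 = (m.factorial : ℂ) * P.coeff m := by
  rw [iteratedDeriv_polynomial_eval]
  simp only
  rw [← Polynomial.coeff_zero_eq_eval_zero, Polynomial.coeff_iterate_derivative, zero_add,
    Nat.descFactorial_self, nsmul_eq_mul]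

/-- the polynomial `X * (∏_{i ∈ s} (1 - X^(i+1)))^24` -/
def discPoly (s : Finset ℕ) : Polynomial ℂ :=
  Polynomial.X * (∏ i ∈ s, (1 - Polynomial.X ^ (i + 1))) ^ 24

lemma discPoly_coe (s : Finset ℕ) :
    ((discPoly s : Polynomial ℂ) : PowerSeries ℂ) = PowerSeries.X * (etaFin ℂ s) ^ 24 := by
  have h : ∀ P : Polynomial ℂ, (P : PowerSeries ℂ) = Polynomial.coeToPowerSeries.ringHom P :=
    fun _ => rfl
  rw [h, discPoly, etaFin]
  simp only [map_mul, map_pow, map_prod, map_sub, map_one]
  simp only [Polynomial.coeToPowerSeries.ringHom_apply, Polynomial.coe_X]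

lemma discPoly_eval (s : Finset ℕ) (q : ℂ) :
    (discPoly s).eval q = q * (∏ i ∈ s, (1 - q ^ (i + 1))) ^ 24 := by
  simp [discPoly, Polynomial.eval_prod]


lemma tendstoLocallyUniformlyOn_self {ι : Type*} (l : Filter ι) (f : ℂ → ℂ) (U : Set ℂ) :
    TendstoLocallyUniformlyOn (fun _ : ι => f) f l U := by
  intro u hu x _
  exact ⟨Set.univ, Filter.univ_mem, Filter.Eventually.of_forall fun _ y _ => refl_mem_uniformity hu⟩

lemma tendstoLocallyUniformlyOn_pow {ι : Type*} {l : Filter ι} {F : ι → ℂ → ℂ} {f : ℂ → ℂ}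
    {U : Set ℂ} (hF : TendstoLocallyUniformlyOn F f l U) (hf : ContinuousOn f U) (k : ℕ) :
    TendstoLocallyUniformlyOn (fun n q => F n q ^ k) (fun q => f q ^ k) l U := by
  induction k with
  | zero => simpa using tendstoLocallyUniformlyOn_self l (fun _ => (1 : ℂ)) U
  | succ k ih =>
    have := ih.mul₀ hF (hf.pow k) hf
    refine this.congr_right ?_ |>.congr ?_
    · intro q _; simp [pow_succ]
    · intro n q _; simp [pow_succ]

/-- the limit function `q * ∏' (1 - q^(n+1))^24` -/
def discFun (q : ℂ) : ℂ := q * ∏' i : ℕ, (1 - q ^ (i + 1)) ^ 24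

lemma discFun_eq {q : ℂ} (hq : q ∈ Metric.ball (0 : ℂ) 1) :
    discFun q = q * (∏' i : ℕ, (1 - q ^ (i + 1))) ^ 24 := by
  rw [discFun, (ModularForm.multipliable_one_sub_pow (by simpa using hq)).tprod_pow 24]

lemma tendstoLocallyUniformlyOn_discPoly :
    TendstoLocallyUniformlyOn (fun (s : Finset ℕ) (q : ℂ) => (discPoly s).eval q) discFun atTop
      (Metric.ball (0 : ℂ) 1) := by
  have h0 : TendstoLocallyUniformlyOn (fun (s : Finset ℕ) (q : ℂ) => ∏ i ∈ s, (1 - q ^ (i + 1)))
      (fun q => ∏' i : ℕ, (1 - q ^ (i + 1))) atTop (Metric.ball (0 : ℂ) 1) :=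
    ModularForm.multipliableLocallyUniformlyOn_one_sub_pow.hasProdLocallyUniformlyOn
  have hc : ContinuousOn (fun q : ℂ => ∏' i : ℕ, (1 - q ^ (i + 1))) (Metric.ball (0 : ℂ) 1) :=
    ModularForm.differentiableOn_tprod_one_sub_pow.continuousOn
  have h1 := tendstoLocallyUniformlyOn_pow h0 hc 24
  have h2 := (tendstoLocallyUniformlyOn_self (atTop : Filter (Finset ℕ)) (fun q : ℂ => q)
    (Metric.ball (0 : ℂ) 1)).mul₀ h1 continuousOn_id (hc.pow 24)
  refine (h2.congr_right ?_).congr ?_
  · intro q hq
    simp [discFun_eq hq]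
  · intro s q _
    simp [discPoly_eval]


lemma coeff_stable {m : ℕ} {s : Finset ℕ} (hs : Finset.range (m + 1) ⊆ s) :
    PowerSeries.coeff m (PowerSeries.X * (etaFin ℂ s) ^ 24)
      = PowerSeries.coeff m
          (PowerSeries.X * (ModularCurve.etaProd ^ 24).map (Int.castRingHom ℂ)) := by
  have h1 : (PowerSeries.X : PowerSeries ℂ) ^ (m + 1) ∣
      (ModularCurve.etaProd.map (Int.castRingHom ℂ) - etaFin ℂ s) := by
    rw [PowerSeries.X_pow_dvd_iff]
    intro k hk
    rw [map_sub, ← etaFin_map, PowerSeries.coeff_map, PowerSeries.coeff_map,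
      coeff_etaProd_eq hk hs, sub_self]
  have h2 : (PowerSeries.X : PowerSeries ℂ) ^ (m + 1) ∣
      (PowerSeries.X * (ModularCurve.etaProd ^ 24).map (Int.castRingHom ℂ)
        - PowerSeries.X * (etaFin ℂ s) ^ 24) := by
    rw [map_pow, ← mul_sub]
    exact Dvd.dvd.mul_left (h1.trans (sub_dvd_pow_sub_pow _ _ 24)) _
  have h3 := (PowerSeries.X_pow_dvd_iff.mp h2) m (Nat.lt_succ_self m)
  rw [map_sub, sub_eq_zero] at h3
  exact h3.symm

open UpperHalfPlane in
/-- **The `q`-expansion of the modular discriminant is the formal product `q ∏ (1 - q^n)^24`.** -/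
theorem qExpansion_discriminant :
    qExpansion 1 ModularForm.discriminant
      = PowerSeries.X * (ModularCurve.etaProd ^ 24).map (Int.castRingHom ℂ) := by
  ext m
  rw [qExpansion_coeff]
  have hev : cuspFunction 1 ModularForm.discriminant =ᶠ[𝓝 (0 : ℂ)] discFun := by
    filter_upwards [Metric.ball_mem_nhds (0 : ℂ) one_pos] with q hq
    exact ModularForm.discriminant_cuspFunction_eqOn hq
  rw [hev.iteratedDeriv_eq m]
  have hlim := ((tendstoLocallyUniformlyOn_iteratedDeriv Metric.isOpen_ball
    tendstoLocallyUniformlyOn_discPoly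
    (Filter.Eventually.of_forall fun s => (discPoly s).differentiable.differentiableOn) m).1).tendsto_at
    (Metric.mem_ball_self one_pos : (0 : ℂ) ∈ Metric.ball (0 : ℂ) 1)
  have hconst : Tendsto (fun s : Finset ℕ => iteratedDeriv m (fun q : ℂ => (discPoly s).eval q) 0)
      atTop (𝓝 ((m.factorial : ℂ) * PowerSeries.coeff m
        (PowerSeries.X * (ModularCurve.etaProd ^ 24).map (Int.castRingHom ℂ)))) := by
    refine tendsto_const_nhds.congr' ?_
    filter_upwards [eventually_ge_atTop (Finset.range (m + 1))] with s hs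
    rw [iteratedDeriv_polynomial_eval_zero, ← Polynomial.coeff_coe, discPoly_coe, coeff_stable hs]
  have := tendsto_nhds_unique hlim hconst
  rw [this, ← mul_assoc, inv_mul_cancel₀ (by exact_mod_cast m.factorial_ne_zero), one_mul]

end Fermat.Agent.S24x
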