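import Mathlib
import Fermat.Prelude.Def_ModularCurve_X0

/-!
# S24 bridge, part 2: the `q`-expansion of `E₄` is the Prelude's formal `eisenstein4`
-/

set_option autoImplicit false

noncomputable section

namespace Fermat.Agent.S24x

open UpperHalfPlane ModularForm EisensteinSeries

lemma bernoulli_four : bernoulli 4 = -1 / 30 := by decide +kernel

/-- **The `q`-expansion of `E₄` is `1 + 240 ∑ σ₃(n) qⁿ`, i.e. the Prelude's `eisenstein4`.** -/
theorem qExpansion_E4 :
    qExpansion 1 (E₄ : ℍ → ℂ) = (ModularCurve.eisenstein4).map (Int.castRingHom ℂ) := by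
  ext m
  have h := E_qExpansion_coeff (k := 4) (by norm_num) ⟨2, rfl⟩ m
  rw [PowerSeries.coeff_map, ModularCurve.eisenstein4, PowerSeries.coeff_mk]
  change (PowerSeries.coeff m) (qExpansion 1 ⇑(E (k := 4) (by norm_num))) = _
  rw [h]
  by_cases hm : m = 0
  · simp [hm]
  · simp only [hm, if_false, bernoulli_four, ArithmeticFunction.sigma_apply]
    simp only [eq_intCast]
    push_cast
    ring

end Fermat.Agent.S24x
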