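/-
S24 helper library: shared ALGEBRAIC definitions (generic function field `F/K`, Prelude `Place`s).
-/
import Mathlib
import Fermat.Prelude.Def_AlgebraicCurve_CanonicalDivisor
import Fermat.Prelude.Def_ModularCurve_ArithmeticGalois

set_option autoImplicit false

namespace Fermat.Agent.S24x

open AlgebraicCurve KaehlerDifferential IntermediateField

section Generic

variable (K F : Type*) [Field K] [Field F] [Algebra K F]

/-- The places of `F/K` at which `t - c` vanishes ("places over `t = c`"). -/
def placesOver (t : F) (c : K) : Set (Place K F) :=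
  {v | 0 < v.ord (t - algebraMap K F c)}

/-- The places of `F/K` at which `t` has a pole ("places over `t = ∞`"). -/
def polePlaces (t : F) : Set (Place K F) :=
  {v | v.ord t < 0}

/-- `t` is a coordinate of the function field `F/K`: transcendental over `K` with `F` finite over
`K(t)`. -/
structure IsCoordinate (t : F) : Prop where
  transcendental : Transcendental K t
  finite : FiniteDimensional K⟮t⟯ F

/-- The degree `[F : K(t)]`. -/
noncomputable def cdeg (t : F) : ℕ := Module.finrank K⟮t⟯ F

variable {K F}

theorem mem_placesOver {t : F} {c : K} {v : Place K F} :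
    v ∈ placesOver K F t c ↔ 0 < v.ord (t - algebraMap K F c) := Iff.rfl

theorem mem_polePlaces {t : F} {v : Place K F} : v ∈ polePlaces K F t ↔ v.ord t < 0 := Iff.rfl

/-- The private uniformizer used by the Prelude in `Place.dCoord` can be exposed. -/
theorem dCoord_eq (v : Place K F) :
    ∃ π : v.toValuationSubring, Irreducible π ∧ v.ord (π : F) = 1 ∧
      v.dCoord = KaehlerDifferential.D K F (π : F) := by
  refine ⟨(IsDiscreteValuationRing.exists_irreducible v.toValuationSubring).choose,
    (IsDiscreteValuationRing.exists_irreducible v.toValuationSubring).choose_spec, ?_, rfl⟩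
  exact v.ord_coe_irreducible
    (IsDiscreteValuationRing.exists_irreducible v.toValuationSubring).choose_spec

end Generic

section Modular

open ModularCurve

/-- The modular function field `Q̄(j(q^d) : d ∣ N) ⊆ Q̄((q))` as a type. -/
abbrev FBar (N : ℕ) : Type := ↥(modularFunctionFieldBar N)

/-- `j(q^d)` as an element of the modular function field of level `N` (for `d ∣ N`). -/
noncomputable def jdBar (N d : ℕ) [NeZero d] (hd : d ∣ N) : FBar N :=
  ⟨coeffEmb (AlgebraicClosure ℚ) (qExpand ℚ d jq),
    coeffEmb_mem_laurentBaseChange (AlgebraicClosure ℚ) (jqd_mem_full N hd)⟩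

/-- `j` as an element of the modular function field of level `N`. -/
noncomputable def jBar (N : ℕ) : FBar N := jdBar N 1 (one_dvd N)

theorem coe_jdBar (N d : ℕ) [NeZero d] (hd : d ∣ N) :
    ((jdBar N d hd : FBar N) : LaurentSeries (AlgebraicClosure ℚ)) =
      coeffEmb (AlgebraicClosure ℚ) (qExpand ℚ d jq) := rfl

theorem coe_jBar (N : ℕ) :
    ((jBar N : FBar N) : LaurentSeries (AlgebraicClosure ℚ)) =
      coeffEmb (AlgebraicClosure ℚ) jq := by
  rw [jBar, coe_jdBar, qExpand_one_apply]

end Modular

end Fermat.Agent.S24x
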