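/-
S24 layer A, modules A2/A3 (helper12): places of `F/K` versus primes of the integral closure of
`K[t]`, and the fundamental identity `∑_{v | t = c} ord_v (t - c) = [F : K(t)]`.
All auxiliary names carry the prefix `fid_`.
-/
import Mathlib
import Fermat.Agent.S24x.AlgDefs

set_option autoImplicit false

namespace Fermat.Agent.S24x

open AlgebraicCurve IsDedekindDomain WithZero Polynomial

section Generic

variable {K F : Type*} [Field K] [Field F] [Algebra K F]

/-- units of a valuation subring `B` have valuation one for any valuation whose valuation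
subring is `B`. -/
theorem fid_val_unit {val : Valuation F ℤᵐ⁰} {B : ValuationSubring F}
    (h : val.valuationSubring = B) (u : Bˣ) : val ((u : B) : F) = 1 := by
  have h1 : val ((u : B) : F) ≤ 1 := by
    rw [← Valuation.mem_valuationSubring_iff, h]; exact (u : B).2
  have h2 : val (((u⁻¹ : Bˣ) : B) : F) ≤ 1 := by
    rw [← Valuation.mem_valuationSubring_iff, h]; exact ((u⁻¹ : Bˣ) : B).2
  have h3 : ((u : B) : F) * (((u⁻¹ : Bˣ) : B) : F) = 1 := by
    exact congrArg Subtype.val (u.mul_inv)
  have h4 : val ((u : B) : F) * val (((u⁻¹ : Bˣ) : B) : F) = 1 := by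
    rw [← map_mul, h3, map_one]
  refine le_antisymm h1 ?_
  calc (1 : ℤᵐ⁰) = val ((u : B) : F) * val (((u⁻¹ : Bˣ) : B) : F) := h4.symm
    _ ≤ val ((u : B) : F) * 1 := by gcongr
    _ = _ := mul_one _

/-- a `ℤᵐ⁰`-valued valuation with the valuation subring of the place `v` which takes the value
`exp (-1)` computes `v.ord`. -/
theorem fid_val_eq_exp_neg_ord (v : Place K F) (val : Valuation F ℤᵐ⁰)
    (h : val.valuationSubring = v.toValuationSubring) {π : F} (hπ : val π = exp (-1 : ℤ))
    {x : F} (hx : x ≠ 0) : val x = exp (-(v.ord x)) := by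
  obtain ⟨ϖ, hϖ⟩ := IsDiscreteValuationRing.exists_irreducible v.toValuationSubring
  have hmem : ∀ y : F, y ∈ val.valuationSubring ↔ y ∈ v.toValuationSubring := fun y => by rw [h]
  have hϖ0 : (ϖ : F) ≠ 0 := by
    simpa [ne_eq, ZeroMemClass.coe_eq_zero] using hϖ.ne_zero
  have hϖle : val (ϖ : F) ≤ 1 := by
    rw [← Valuation.mem_valuationSubring_iff, hmem]; exact ϖ.2
  have hϖlt : val (ϖ : F) < 1 := by
    refine lt_of_le_of_ne hϖle fun h1 => hϖ.not_isUnit ?_
    have hinv' : (ϖ : F)⁻¹ ∈ val.valuationSubring := by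
      rw [Valuation.mem_valuationSubring_iff, map_inv₀, h1, inv_one]
    have hinv : (ϖ : F)⁻¹ ∈ v.toValuationSubring := (hmem _).mp hinv'
    exact isUnit_iff_exists_inv.mpr ⟨⟨_, hinv⟩, Subtype.ext (by simp [hϖ0])⟩
  obtain ⟨k, hk⟩ : ∃ k : ℤ, val (ϖ : F) = exp k :=
    ⟨log (val ϖ), (exp_log ((Valuation.ne_zero_iff _).mpr hϖ0)).symm⟩
  have hk1 : k < 0 := by
    rw [hk, ← exp_zero, exp_lt_exp] at hϖlt; exact hϖlt
  have hπ0 : π ≠ 0 := by
    rintro rfl
    rw [map_zero] at hπ
    exact exp_ne_zero hπ.symm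
  have key : ∀ {y : F}, y ≠ 0 → val y = exp (v.ord y * k) := by
    intro y hy
    obtain ⟨u, hu⟩ := v.exists_unit_mul_zpow hy hϖ
    conv_lhs => rw [hu]
    rw [map_mul, fid_val_unit h u, one_mul, map_zpow₀, hk, ← exp_zsmul, smul_eq_mul]
  have hk' : k = -1 := by
    have h1 := key hπ0
    rw [hπ, exp_inj] at h1
    have h2 : k ∣ 1 := ⟨-(v.ord π), by linarith⟩
    rcases Int.isUnit_iff.mp (isUnit_of_dvd_one h2) with h | h <;> omega
  rw [key hx, hk', mul_neg, mul_one]

variable {S : Type*} [CommRing S] [IsDedekindDomain S] [Algebra S F] [IsFractionRing S F]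
  [Algebra K S] [IsScalarTower K S F]

theorem fid_valuation_eq (w : HeightOneSpectrum S) {x : F} (hx : x ≠ 0) :
    w.valuation F x = exp (-((Place.ofHeightOneSpectrum (K := K) w).ord x)) := by
  obtain ⟨π, hπ⟩ := w.valuation_exists_uniformizer F
  exact fid_val_eq_exp_neg_ord _ _ rfl hπ hx

theorem fid_ord_ofHeightOneSpectrum (w : HeightOneSpectrum S) (x : F) :
    (Place.ofHeightOneSpectrum (K := K) w).ord x = -log (w.valuation F x) := by
  rcases eq_or_ne x 0 with rfl | hx
  · simp
  · rw [fid_valuation_eq (K := K) w hx, log_exp, neg_neg]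

theorem fid_ord_algebraMap (w : HeightOneSpectrum S) {s : S} (hs : s ≠ 0) :
    (Place.ofHeightOneSpectrum (K := K) w).ord (algebraMap S F s)
      = (multiplicity w.asIdeal (Ideal.span {s}) : ℤ) := by
  rw [fid_ord_ofHeightOneSpectrum, HeightOneSpectrum.valuation_of_algebraMap,
    HeightOneSpectrum.intValuation_eq_exp_neg_multiplicity _ hs, log_exp, neg_neg]

theorem fid_ofHeightOneSpectrum_injective :
    Function.Injective (Place.ofHeightOneSpectrum (K := K) (F := F) (R := S)) := by
  intro w w' h
  apply HeightOneSpectrum.eq_of_valuation_isEquiv_valuation (K := F)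
  rw [Valuation.isEquiv_iff_valuationSubring]
  exact congrArg Place.toValuationSubring h

theorem fid_mem_asIdeal_iff (w : HeightOneSpectrum S) {s : S} (hs : s ≠ 0) :
    s ∈ w.asIdeal ↔ 0 < (Place.ofHeightOneSpectrum (K := K) w).ord (algebraMap S F s) := by
  have h0 : algebraMap S F s ≠ 0 := by
    simpa using (IsFractionRing.injective S F).ne hs
  rw [← HeightOneSpectrum.valuation_lt_one_iff_mem (K := F), fid_valuation_eq (K := K) w h0,
    ← exp_zero, exp_lt_exp]
  omega

theorem fid_inv_mem_of_isUnit {B : ValuationSubring F} {b : B} (hb : IsUnit b) :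
    ((b : F))⁻¹ ∈ B := by
  obtain ⟨u, rfl⟩ := hb
  have : ((u : B) : F) * (((u⁻¹ : Bˣ) : B) : F) = 1 := congrArg Subtype.val u.mul_inv
  rw [inv_eq_of_mul_eq_one_right this]
  exact ((u⁻¹ : Bˣ) : B).2

theorem fid_exists_heightOneSpectrum (v : Place K F)
    (hv : ∀ s : S, algebraMap S F s ∈ v.toValuationSubring) :
    ∃ w : HeightOneSpectrum S, Place.ofHeightOneSpectrum (K := K) w = v := by
  classical
  -- the ring hom `S → A_v`
  let φ : S →+* v.toValuationSubring := (algebraMap S F).codRestrict v.toValuationSubring.toSubring hv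
  have hφ : ∀ s, ((φ s : v.toValuationSubring) : F) = algebraMap S F s := fun s => rfl
  let P : Ideal S := (IsLocalRing.maximalIdeal v.toValuationSubring).comap φ
  have hPprime : P.IsPrime := Ideal.comap_isPrime φ _
  have hunit : ∀ b : S, b ∉ P → (algebraMap S F b)⁻¹ ∈ v.toValuationSubring := by
    intro b hbP
    have hbu : IsUnit (φ b) := by
      by_contra hnu
      exact hbP ((IsLocalRing.mem_maximalIdeal _).mpr hnu)
    exact fid_inv_mem_of_isUnit hbu
  have hPbot : P ≠ ⊥ := by
    intro hbot
    apply v.ne_top'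
    refine SetLike.ext fun x => ⟨fun _ => ValuationSubring.mem_top x, fun _ => ?_⟩
    obtain ⟨a, b, hb, rfl⟩ := IsFractionRing.div_surjective (A := S) x
    have hb0 : b ≠ 0 := nonZeroDivisors.ne_zero hb
    have hbP : b ∉ P := by rw [hbot]; simpa using hb0
    rw [div_eq_mul_inv]
    exact v.toValuationSubring.mul_mem _ _ (hv a) (hunit b hbP)
  let w : HeightOneSpectrum S := ⟨P, hPprime, hPbot⟩
  refine ⟨w, ?_⟩
  have hle : (w.valuation F).valuationSubring ≤ v.toValuationSubring := by
    intro x hx
    rw [Valuation.mem_valuationSubring_iff] at hx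
    obtain ⟨n, d, hnd⟩ := HeightOneSpectrum.exists_primeCompl_mul_eq_of_integer w x hx
    have hd : (d : S) ∉ P := d.2
    have hd0 : algebraMap S F d ≠ 0 := by
      intro h0
      apply hd
      have : (d : S) = 0 := (IsFractionRing.injective S F) (by rw [h0, map_zero])
      rw [this]; exact P.zero_mem
    have hx' : x = algebraMap S F n * (algebraMap S F d)⁻¹ := by
      rw [← hnd]; field_simp
    rw [hx']
    exact v.toValuationSubring.mul_mem _ _ (hv n) (hunit d hd)
  apply Place.ext
  rw [Place.ofHeightOneSpectrum_toValuationSubring]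
  rw [← HeightOneSpectrum.valuationSubringAtPrime_eq_valuationSubring (K := F) w] at hle ⊢
  exact ValuationSubring.eq_of_le_of_ne_top _ hle v.ne_top'

end Generic

section Abstract

variable {K F : Type*} [Field K] [Field F] [Algebra K F]
variable {A S : Type*} [CommRing A] [CommRing S] [IsDomain A] [IsDedekindDomain S]
  [Algebra A S] [Algebra A F] [Algebra S F] [IsScalarTower A S F] [IsFractionRing S F]
  [Module.Finite A S] [FaithfulSMul A S]
  [Algebra K A] [Algebra K S] [IsScalarTower K A S] [IsScalarTower K S F]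

/-- residue fields of `S` at primes over `p` are `K` when `A ⧸ p` is. -/
theorem fid_residue_surjective [IsAlgClosed K] (p : Ideal A)
    (hres : Function.Surjective (algebraMap K (A ⧸ p)))
    (P : Ideal S) [P.IsPrime] [P.LiesOver p] :
    Function.Surjective (algebraMap K (S ⧸ P)) := by
  have : Algebra.IsIntegral K (A ⧸ p) := Algebra.isIntegral_of_surjective hres
  have : Algebra.IsIntegral A S := Algebra.IsIntegral.of_finite A S
  have : Algebra.IsIntegral (A ⧸ p) (S ⧸ P) := inferInstance
  have : Algebra.IsIntegral K (S ⧸ P) := Algebra.IsIntegral.trans (A ⧸ p)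
  exact (IsAlgClosed.algebraMap_bijective_of_isIntegral (k := K)).2

theorem fid_inertiaDeg_eq_one [IsAlgClosed K] (p : Ideal A) [p.IsMaximal]
    (hres : Function.Surjective (algebraMap K (A ⧸ p)))
    (P : Ideal S) [P.IsMaximal] [P.LiesOver p] :
    P.inertiaDeg A = 1 := by
  rw [Ideal.inertiaDeg_eq_of_isMaximal p P]
  letI : Field (A ⧸ p) := Ideal.Quotient.field p
  letI : Field (S ⧸ P) := Ideal.Quotient.field P
  rw [finrank_eq_one_iff_of_nonzero' (1 : S ⧸ P) one_ne_zero]
  intro w
  obtain ⟨c, hc⟩ := fid_residue_surjective (K := K) p hres P w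
  refine ⟨algebraMap K (A ⧸ p) c, ?_⟩
  rw [Algebra.smul_def, mul_one, ← IsScalarTower.algebraMap_apply, hc]

theorem fid_ord_eq_ramificationIdx (a : A) (ha0 : a ≠ 0) (w : HeightOneSpectrum S)
    [w.asIdeal.LiesOver (Ideal.span {a})] :
    (Place.ofHeightOneSpectrum (K := K) w).ord (algebraMap A F a)
      = (w.asIdeal.ramificationIdx A : ℤ) := by
  have ha'0 : algebraMap A S a ≠ 0 := by
    rw [Ne, map_eq_zero_iff _ (FaithfulSMul.algebraMap_injective A S)]; exact ha0
  have hmap : (Ideal.span {a}).map (algebraMap A S) = Ideal.span {algebraMap A S a} := by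
    rw [Ideal.map_span, Set.image_singleton]
  haveI := w.isPrime
  rw [IsScalarTower.algebraMap_apply A S F, fid_ord_algebraMap (K := K) w ha'0,
    Ideal.IsDedekindDomain.ramificationIdx_eq_multiplicity (Ideal.span {a}) w.asIdeal
      (by rw [hmap, Ne, Ideal.span_singleton_eq_bot]; exact ha'0), hmap]

/-- the places containing `A` at which `a` vanishes. -/
def fidZeros (K : Type*) {F A : Type*} [Field K] [Field F] [Algebra K F] [CommRing A] [Algebra A F]
    (a : A) : Set (Place K F) :=
  {v | (∀ x : A, algebraMap A F x ∈ v.toValuationSubring) ∧ 0 < v.ord (algebraMap A F a)}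

/-- the place attached to a prime over `p`. -/
noncomputable def fidPlaceOf (K : Type*) {F A S : Type*} [Field K] [Field F] [Algebra K F]
    [CommRing A] [CommRing S] [IsDedekindDomain S]
    [Algebra A S] [Algebra S F] [IsFractionRing S F] [FaithfulSMul A S]
    [Algebra K S] [IsScalarTower K S F] {p : Ideal A} (hp0 : p ≠ ⊥)
    (P : p.primesOver S) : Place K F :=
  Place.ofHeightOneSpectrum (K := K) (R := S) ⟨P.1, P.2.1,
    haveI := P.2.2; Ideal.ne_bot_of_liesOver_of_ne_bot hp0 P.1⟩

theorem fid_placeOf_injective {p : Ideal A} (hp0 : p ≠ ⊥) :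
    Function.Injective (fidPlaceOf K (F := F) (S := S) hp0) := by
  intro P Q h
  have := fid_ofHeightOneSpectrum_injective (K := K) h
  exact Subtype.ext (congrArg HeightOneSpectrum.asIdeal this)

theorem fid_range_placeOf
    (hS : ∀ v : Place K F, (∀ x : A, algebraMap A F x ∈ v.toValuationSubring) →
      ∀ s : S, algebraMap S F s ∈ v.toValuationSubring)
    (a : A) (ha0 : a ≠ 0) (hmax : (Ideal.span {a}).IsMaximal)
    (hp0 : Ideal.span {a} ≠ ⊥) :
    Set.range (fidPlaceOf K (F := F) (S := S) hp0) = fidZeros K a := by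
  have ha'0 : algebraMap A S a ≠ 0 := by
    rw [Ne, map_eq_zero_iff _ (FaithfulSMul.algebraMap_injective A S)]; exact ha0
  ext v
  constructor
  · rintro ⟨P, rfl⟩
    refine ⟨fun x => ?_, ?_⟩
    · show algebraMap A F x ∈ (HeightOneSpectrum.valuation F _).valuationSubring
      rw [Valuation.mem_valuationSubring_iff, IsScalarTower.algebraMap_apply A S F]
      exact HeightOneSpectrum.valuation_le_one _ _
    · rw [IsScalarTower.algebraMap_apply A S F]
      unfold fidPlaceOf
      rw [← fid_mem_asIdeal_iff (K := K) _ ha'0]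
      haveI := P.2.2
      have h1 : a ∈ Ideal.span {a} := Ideal.subset_span rfl
      have h2 : Ideal.span {a} = P.1.under A := Ideal.LiesOver.over
      rw [h2] at h1
      exact h1
  · rintro ⟨hA, hord⟩
    obtain ⟨w, hw⟩ := fid_exists_heightOneSpectrum (K := K) (F := F) (S := S) v (hS v hA)
    have haw : algebraMap A S a ∈ w.asIdeal := by
      rw [fid_mem_asIdeal_iff (K := K) (F := F) w ha'0, hw, ← IsScalarTower.algebraMap_apply A S F]
      exact hord
    have hle : Ideal.span {a} ≤ w.asIdeal.under A := by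
      rw [Ideal.span_le, Set.singleton_subset_iff]; exact haw
    have hne : w.asIdeal.under A ≠ ⊤ := by
      haveI := w.isPrime
      exact (Ideal.comap_isPrime _ _).ne_top
    have hlo : w.asIdeal.LiesOver (Ideal.span {a}) := ⟨(hmax.eq_of_le hne hle)⟩
    exact ⟨⟨w.asIdeal, w.isPrime, hlo⟩, hw⟩

theorem fid_sum_abstract [IsAlgClosed K] [Module.Flat A S]
    (hS : ∀ v : Place K F, (∀ x : A, algebraMap A F x ∈ v.toValuationSubring) →
      ∀ s : S, algebraMap S F s ∈ v.toValuationSubring)
    (a : A) (ha0 : a ≠ 0) (hmax : (Ideal.span {a}).IsMaximal)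
    (hres : Function.Surjective (algebraMap K (A ⧸ Ideal.span {a}))) :
    ∃ hfin : (fidZeros K (F := F) a).Finite,
      ∑ v ∈ hfin.toFinset, v.ord (algebraMap A F a) = (Module.finrank A S : ℤ) := by
  classical
  have hp0 : Ideal.span {a} ≠ ⊥ := by
    rw [Ne, Ideal.span_singleton_eq_bot]; exact ha0
  haveI : Fintype ((Ideal.span {a}).primesOver S) :=
    (Algebra.QuasiFinite.finite_primesOver (Ideal.span {a})).fintype
  have hrange := fid_range_placeOf (K := K) (F := F) (S := S) hS a ha0 hmax hp0
  have hinj := fid_placeOf_injective (K := K) (F := F) (S := S) hp0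
  have hfin : (fidZeros K (F := F) a).Finite := by
    rw [← hrange]; exact Set.finite_range _
  refine ⟨hfin, ?_⟩
  have hfs : hfin.toFinset = Finset.univ.image (fidPlaceOf K (F := F) (S := S) hp0) := by
    ext v; simp [← hrange]
  have hsum := Ideal.sum_ramification_inertia_eq_finrank (Ideal.span {a}) S
  rw [hfs, Finset.sum_image (fun x _ y _ h => hinj h), ← hsum]
  push_cast
  refine Finset.sum_congr rfl fun P _ => ?_
  haveI := P.2.1
  haveI := P.2.2
  have hPbot : P.1 ≠ ⊥ := Ideal.ne_bot_of_liesOver_of_ne_bot hp0 P.1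
  haveI : P.1.IsMaximal := P.2.1.isMaximal hPbot
  rw [fid_inertiaDeg_eq_one (K := K) (Ideal.span {a}) hres P.1]
  unfold fidPlaceOf
  haveI : (HeightOneSpectrum.mk P.1 P.2.1 hPbot).asIdeal.LiesOver (Ideal.span {a}) := P.2.2
  rw [fid_ord_eq_ramificationIdx (K := K) (F := F) a ha0 ⟨P.1, P.2.1, hPbot⟩]
  simp

end Abstract

section Generic2

variable {K F : Type*} [Field K] [Field F] [Algebra K F]
variable (A : Subalgebra K F)

instance fid_isScalarTower_icl : IsScalarTower K (integralClosure A F) F :=
  IsScalarTower.of_algebraMap_eq (fun _ => rfl)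

instance fid_faithfulSMul_icl : FaithfulSMul A (integralClosure A F) := by
  rw [faithfulSMul_iff_algebraMap_injective]
  intro x y h
  exact Subtype.ext (congrArg (algebraMap (integralClosure A F) F) h)

theorem fid_icl_le (v : Place K F) (hA : ∀ x ∈ A, x ∈ v.toValuationSubring)
    (s : integralClosure A F) : (s : F) ∈ v.toValuationSubring := by
  obtain ⟨p, hp, hps⟩ := s.2
  let φ : A →+* v.toValuationSubring :=
    (algebraMap A F).codRestrict v.toValuationSubring.toSubring (fun x => hA x x.2)
  have hint : IsIntegral v.toValuationSubring (s : F) := by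
    refine ⟨p.map φ, hp.map φ, ?_⟩
    rw [Polynomial.eval₂_map]
    exact hps
  obtain ⟨y, hy⟩ := IsIntegrallyClosed.isIntegral_iff.mp hint
  rw [← hy]
  exact y.2

theorem fid_sum_zeros_generic [IsAlgClosed K] [IsDedekindDomain A]
    (L : Type*) [Field L] [Algebra A L] [IsFractionRing A L] [Algebra L F] [IsScalarTower A L F]
    [FiniteDimensional L F] [Algebra.IsSeparable L F]
    (a : A) (ha0 : a ≠ 0) (hmax : (Ideal.span {a}).IsMaximal)
    (hres : Function.Surjective (algebraMap K (A ⧸ Ideal.span {a}))) :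
    ∃ hfin : (fidZeros K (F := F) a).Finite,
      ∑ v ∈ hfin.toFinset, v.ord (a : F) = (Module.finrank L F : ℤ) := by
  haveI : IsDedekindDomain (integralClosure A F) := integralClosure.isDedekindDomain A L F
  haveI : IsFractionRing (integralClosure A F) F :=
    integralClosure.isFractionRing_of_finite_extension L F
  haveI : Module.Finite A (integralClosure A F) := IsIntegralClosure.finite A L F _
  haveI : Module.Flat A (integralClosure A F) := inferInstance
  obtain ⟨hfin, hsum⟩ := fid_sum_abstract (K := K) (F := F) (A := A) (S := integralClosure A F)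
    (fun v hv s => fid_icl_le A v (fun x hx => hv ⟨x, hx⟩) s) a ha0 hmax hres
  refine ⟨hfin, ?_⟩
  rw [IsFractionRing.finrank_eq A L (integralClosure A F) F]
  exact hsum

end Generic2

section Concrete

variable {K F : Type*} [Field K] [Field F] [Algebra K F]

theorem fid_coord_maximal {t : F} (ht : Transcendental K t) (c : K) :
    let a : Algebra.adjoin K {t} :=
      ⟨t, Algebra.self_mem_adjoin_singleton K t⟩ - algebraMap K _ c
    a ≠ 0 ∧ (Ideal.span {a}).IsMaximal ∧
      Function.Surjective (algebraMap K (Algebra.adjoin K {t} ⧸ Ideal.span {a})) := by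
  intro a
  let e := Polynomial.algEquivOfTranscendental K t ht
  have he : e (X - C c) = a := by
    simp only [map_sub, e, Polynomial.algEquivOfTranscendental_apply_X]
    congr 1
    simp
  let ψ : Algebra.adjoin K {t} →ₐ[K] K := (Polynomial.aeval c).comp e.symm.toAlgHom
  have hψa : ψ a = 0 := by
    rw [← he]
    simp [ψ]
  have hψsurj : Function.Surjective ψ := fun k => ⟨algebraMap K _ k, by simp⟩
  have hker : RingHom.ker ψ.toRingHom = Ideal.span {a} := by
    ext x
    rw [RingHom.mem_ker, Ideal.mem_span_singleton]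
    constructor
    · intro hx
      have h1 : (X - C c) ∣ e.symm x := Polynomial.dvd_iff_isRoot.mpr (by simpa [ψ] using hx)
      obtain ⟨g, hg⟩ := h1
      exact ⟨e g, by rw [← he, ← map_mul, ← hg, AlgEquiv.apply_symm_apply]⟩
    · rintro ⟨y, rfl⟩
      show ψ (a * y) = 0
      rw [map_mul, hψa, zero_mul]
  refine ⟨?_, ?_, ?_⟩
  · rw [← he]
    exact (map_ne_zero_iff _ e.injective).mpr (Polynomial.X_sub_C_ne_zero c)
  · rw [← hker]
    exact RingHom.ker_isMaximal_of_surjective ψ.toRingHom hψsurj
  · intro x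
    obtain ⟨y, rfl⟩ := Ideal.Quotient.mk_surjective x
    refine ⟨ψ y, ?_⟩
    rw [IsScalarTower.algebraMap_apply K (Algebra.adjoin K {t}) (_ ⧸ _),
      Ideal.Quotient.algebraMap_eq, Ideal.Quotient.eq, ← hker, RingHom.mem_ker]
    show ψ (algebraMap K _ (ψ y) - y) = 0
    simp


theorem fid_mem_of_ord_nonneg (v : Place K F) {x : F} (hx : 0 ≤ v.ord x) :
    x ∈ v.toValuationSubring := by
  rcases eq_or_ne x 0 with rfl | hx0
  · exact v.toValuationSubring.zero_mem
  obtain ⟨π, hπ⟩ := IsDiscreteValuationRing.exists_irreducible v.toValuationSubring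
  obtain ⟨u, hu⟩ := v.exists_unit_mul_zpow hx0 hπ
  obtain ⟨m, hm⟩ := Int.eq_ofNat_of_zero_le hx
  rw [hu, hm, zpow_natCast]
  exact v.toValuationSubring.mul_mem _ _ (u : v.toValuationSubring).2
    (v.toValuationSubring.pow_mem π.2 m)

theorem fid_ord_nonneg_of_mem (v : Place K F) {x : F} (hx : x ∈ v.toValuationSubring) :
    0 ≤ v.ord x := by
  rcases eq_or_ne x 0 with rfl | hx0
  · simp
  have h1 : v.adicValuation x ≤ 1 := by
    have := v.adicValuation_coe ⟨x, hx⟩
    simp only at this
    rw [this]
    exact HeightOneSpectrum.intValuation_le_one _ _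
  have h2 : log (v.adicValuation x) ≤ 0 := by
    rw [log_le_iff_le_exp (v.adicValuation_ne_zero hx0), exp_zero]; exact h1
  unfold Place.ord
  omega

open IntermediateField in
open scoped IntermediateField.algebraAdjoinAdjoin in
theorem fid_sum_zeros_aux [IsAlgClosed K] [CharZero K] {t : F} (ht : IsCoordinate K F t) (c : K) :
    ∃ hfin : (fidZeros K (F := F) (⟨t, Algebra.self_mem_adjoin_singleton K t⟩ - algebraMap K _ c :
        Algebra.adjoin K {t})).Finite,
      ∑ v ∈ hfin.toFinset, v.ord (t - algebraMap K F c) = (cdeg K F t : ℤ) := by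
  haveI := ht.finite
  haveI : IsPrincipalIdealRing (Algebra.adjoin K {t}) :=
    IsPrincipalIdealRing.of_surjective
      (Polynomial.algEquivOfTranscendental K t ht.transcendental).toRingEquiv.toRingHom
      (Polynomial.algEquivOfTranscendental K t ht.transcendental).surjective
  obtain ⟨ha0, hmax, hres⟩ := fid_coord_maximal ht.transcendental c
  exact fid_sum_zeros_generic (Algebra.adjoin K {t}) K⟮t⟯ _ ha0 hmax hres

theorem fid_adjoin_le (v : Place K F) {t : F} (ht : t ∈ v.toValuationSubring) :
    ∀ x ∈ Algebra.adjoin K {t}, x ∈ v.toValuationSubring := by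
  let B : Subalgebra K F :=
    { v.toValuationSubring.toSubring with algebraMap_mem' := v.algebraMap_mem' }
  have hle : Algebra.adjoin K {t} ≤ B := Algebra.adjoin_le (Set.singleton_subset_iff.mpr ht)
  exact fun x hx => hle hx

theorem fid_zeros_eq (t : F) (c : K) :
    fidZeros K (F := F) (⟨t, Algebra.self_mem_adjoin_singleton K t⟩ - algebraMap K _ c :
        Algebra.adjoin K {t}) = placesOver K F t c := by
  ext v
  constructor
  · rintro ⟨_, h⟩
    exact h
  · intro h
    refine ⟨?_, h⟩
    have h1 : t - algebraMap K F c ∈ v.toValuationSubring :=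
      fid_mem_of_ord_nonneg v (le_of_lt h)
    have h2 : t ∈ v.toValuationSubring := by
      have := v.toValuationSubring.add_mem _ _ h1 (v.algebraMap_mem' c)
      simpa using this
    exact fun x => fid_adjoin_le v h2 x x.2

/-- **Fundamental identity at a finite point** (A3). -/
theorem sum_ord_placesOver [IsAlgClosed K] [CharZero K] {t : F} (ht : IsCoordinate K F t)
    (c : K) :
    ∃ hfin : (placesOver K F t c).Finite,
      ∑ v ∈ hfin.toFinset, v.ord (t - algebraMap K F c) = (cdeg K F t : ℤ) := by
  obtain ⟨hfin, hsum⟩ := fid_sum_zeros_aux ht c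
  have hfin' : (placesOver K F t c).Finite := by rw [← fid_zeros_eq]; exact hfin
  refine ⟨hfin', ?_⟩
  rw [← hsum]
  refine Finset.sum_congr ?_ fun _ _ => rfl
  ext v
  simp [fid_zeros_eq]

end Concrete

section Poles

variable {K F : Type*} [Field K] [Field F] [Algebra K F]

open IntermediateField in
theorem fid_adjoin_inv (t : F) : K⟮t⁻¹⟯ = K⟮t⟯ := by
  apply le_antisymm
  · rw [adjoin_simple_le_iff]
    exact inv_mem (mem_adjoin_simple_self K t)
  · rw [adjoin_simple_le_iff]
    have := inv_mem (mem_adjoin_simple_self K t⁻¹)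
    rwa [inv_inv] at this

theorem fid_isCoordinate_inv {t : F} (ht : IsCoordinate K F t) : IsCoordinate K F t⁻¹ := by
  refine ⟨?_, ?_⟩
  · intro h
    exact ht.transcendental (by simpa using h.inv)
  · rw [fid_adjoin_inv]
    exact ht.finite

theorem fid_cdeg_inv (t : F) : cdeg K F t⁻¹ = cdeg K F t := by
  unfold cdeg
  rw [fid_adjoin_inv]

theorem fid_polePlaces_eq (t : F) : polePlaces K F t = placesOver K F t⁻¹ 0 := by
  ext v
  simp only [mem_polePlaces, mem_placesOver, map_zero, sub_zero, Place.ord_inv]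
  omega

/-- **Fundamental identity at the poles** (A3'). -/
theorem sum_ord_polePlaces [IsAlgClosed K] [CharZero K] {t : F} (ht : IsCoordinate K F t) :
    ∃ hfin : (polePlaces K F t).Finite,
      ∑ v ∈ hfin.toFinset, -v.ord t = (cdeg K F t : ℤ) := by
  obtain ⟨hfin, hsum⟩ := sum_ord_placesOver (fid_isCoordinate_inv ht) 0
  have hfin' : (polePlaces K F t).Finite := by rw [fid_polePlaces_eq]; exact hfin
  refine ⟨hfin', ?_⟩
  rw [← fid_cdeg_inv, ← hsum]
  refine Finset.sum_congr ?_ fun v _ => ?_
  · ext v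
    simp [fid_polePlaces_eq]
  · rw [map_zero, sub_zero, Place.ord_inv]

end Poles

end Fermat.Agent.S24x
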