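/-
S24x/KaehlerBasis (helper15): Kähler differentials of a function field of one variable in
characteristic zero.  If `t : F` is transcendental over `K` and `F` is algebraic over `K(t)`, then
`Ω[F⁄K]` is free of rank one on `D t`.  Pure Mathlib; no Prelude dependence.

Main results (namespace `Fermat.Agent.S24x`):
* `kd_exists_equiv`      : `∃ e : Ω[F⁄K] ≃ₗ[F] F, e (D K F t) = 1`
* `kd_span_D_eq_top`     : `Submodule.span F {D K F t} = ⊤`
* `kd_D_ne_zero`         : `D K F t ≠ 0`
* `kd_nontrivial`        : `Nontrivial Ω[F⁄K]`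
* `kd_exists_derivation` : `∃ δ : Derivation K F F, δ t = 1 ∧ ∀ f, D K F f = δ f • D K F t`
-/
import Mathlib

set_option autoImplicit false
set_option linter.style.haveILetI false

open Polynomial KaehlerDifferential IntermediateField TensorProduct

namespace Fermat.Agent.S24x

variable {K F : Type*} [Field K] [Field F] [Algebra K F]

theorem kd_aeval_mem (t : F) (p : K[X]) : aeval t p ∈ K⟮t⟯ := by
  have h1 : aeval t p ∈ Algebra.adjoin K {t} := aeval_mem_adjoin_singleton K t
  exact IntermediateField.algebra_adjoin_le_adjoin K _ h1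

/-- Algebraicity over `K(t)` (as an intermediate field) transfers to algebraicity over `RatFunc K`
for any compatible algebra structure. -/
theorem kd_isAlgebraic_ratFunc (t : F)
    (halg : Algebra.IsAlgebraic K⟮t⟯ F) [Algebra K[X] F] [Algebra (RatFunc K) F]
    [IsScalarTower K[X] (RatFunc K) F]
    (halgmap : ∀ p : K[X], algebraMap K[X] F p = aeval t p) :
    Algebra.IsAlgebraic (RatFunc K) F := by
  classical
  let φ : RatFunc K →+* F := algebraMap (RatFunc K) F
  have hφ : ∀ p : K[X], φ (algebraMap K[X] (RatFunc K) p) = aeval t p := fun p => by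
    rw [← halgmap]; exact (IsScalarTower.algebraMap_apply K[X] (RatFunc K) F p).symm
  have hφmem : ∀ r, φ r ∈ K⟮t⟯ := by
    intro r
    obtain ⟨p, q, hq, rfl⟩ := IsFractionRing.div_surjective (A := K[X]) r
    rw [map_div₀, hφ, hφ]
    exact div_mem (kd_aeval_mem t p) (kd_aeval_mem t q)
  let f : RatFunc K →+* K⟮t⟯ := φ.codRestrict K⟮t⟯ hφmem
  have hf : Function.Surjective f := by
    rintro ⟨y, hy⟩
    obtain ⟨r, s, rfl⟩ := (IntermediateField.mem_adjoin_simple_iff K y).mp hy
    refine ⟨algebraMap K[X] (RatFunc K) r / algebraMap K[X] (RatFunc K) s, ?_⟩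
    apply Subtype.ext
    show φ _ = _
    rw [map_div₀, hφ, hφ]
  refine ⟨fun x => ?_⟩
  have hx := halg.isAlgebraic x
  exact IsAlgebraic.of_ringHom_of_comp_eq f (RingHom.id F) hx hf Function.injective_id (by
    ext r; rfl)

variable [CharZero K]

/-- If `t` is transcendental over `K` and `F` is algebraic over `K(t)` (char. 0), then
`Ω[F⁄K]` is free of rank one with basis `D t`. -/
theorem kd_exists_equiv (t : F) (ht : Transcendental K t)
    (halg : Algebra.IsAlgebraic K⟮t⟯ F) :
    ∃ e : Ω[F⁄K] ≃ₗ[F] F, e (D K F t) = 1 := by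
  classical
  letI algPF : Algebra K[X] F := (aeval t : K[X] →ₐ[K] F).toRingHom.toAlgebra
  have halgmap : ∀ p : K[X], algebraMap K[X] F p = aeval t p := fun p => rfl
  haveI : IsScalarTower K K[X] F := IsScalarTower.of_algebraMap_eq (fun a => by
    rw [halgmap, Polynomial.algebraMap_apply, aeval_C]; simp)
  have hinj : Function.Injective (algebraMap K[X] F) := transcendental_iff_injective.mp ht
  letI algRF : Algebra (RatFunc K) F := (IsFractionRing.lift (K := RatFunc K) hinj).toAlgebra
  haveI : IsScalarTower K[X] (RatFunc K) F := IsScalarTower.of_algebraMap_eq (fun p => by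
    show algebraMap K[X] F p
      = (IsFractionRing.lift (K := RatFunc K) hinj) (algebraMap K[X] (RatFunc K) p)
    rw [IsFractionRing.lift_algebraMap])
  haveI : IsScalarTower K (RatFunc K) F := IsScalarTower.of_algebraMap_eq (fun a => by
    rw [IsScalarTower.algebraMap_apply K K[X] (RatFunc K),
      ← IsScalarTower.algebraMap_apply K[X] (RatFunc K) F,
      ← IsScalarTower.algebraMap_apply K K[X] F])
  haveI : Algebra.IsAlgebraic (RatFunc K) F := kd_isAlgebraic_ratFunc t halg halgmap
  haveI : Algebra.IsSeparable (RatFunc K) F := Algebra.IsAlgebraic.isSeparable_of_perfectField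
  haveI : Algebra.FormallyEtale (RatFunc K) F := Algebra.FormallyEtale.of_isSeparable _ _
  haveI : Algebra.FormallyEtale K[X] (RatFunc K) :=
    Algebra.FormallyEtale.of_isLocalization (nonZeroDivisors K[X])
  haveI : Algebra.FormallyEtale K[X] F := Algebra.FormallyEtale.comp K[X] (RatFunc K) F
  let e1 : F ⊗[K[X]] Ω[K[X]⁄K] ≃ₗ[F] Ω[F⁄K] := tensorKaehlerEquivOfFormallyEtale K K[X] F
  let e2 : F ⊗[K[X]] Ω[K[X]⁄K] ≃ₗ[F] F ⊗[K[X]] K[X] :=
    TensorProduct.AlgebraTensorModule.congr (LinearEquiv.refl F F) (polynomialEquiv K)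
  let e3 : F ⊗[K[X]] K[X] ≃ₗ[F] F := TensorProduct.AlgebraTensorModule.rid K[X] F F
  refine ⟨e1.symm.trans (e2.trans e3), ?_⟩
  have h1 : e1.symm (D K F t) = (1 : F) ⊗ₜ[K[X]] D K K[X] X := by
    have := tensorKaehlerEquivOfFormallyEtale_symm_D_algebraMap K K[X] F (X : K[X])
    rw [halgmap, aeval_X] at this
    exact this
  simp only [LinearEquiv.trans_apply, h1]
  simp [e2, e3, polynomialEquiv_D]

theorem kd_D_ne_zero (t : F) (ht : Transcendental K t) (halg : Algebra.IsAlgebraic K⟮t⟯ F) :
    D K F t ≠ 0 := by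
  obtain ⟨e, he⟩ := kd_exists_equiv t ht halg
  intro h
  rw [h, map_zero] at he
  exact zero_ne_one he

theorem kd_nontrivial (t : F) (ht : Transcendental K t) (halg : Algebra.IsAlgebraic K⟮t⟯ F) :
    Nontrivial Ω[F⁄K] :=
  ⟨⟨D K F t, 0, kd_D_ne_zero t ht halg⟩⟩

/-- Every differential is a multiple of `D t`; the coefficient of `D f` is a derivation `δ`
with `δ t = 1`. -/
theorem kd_exists_derivation (t : F) (ht : Transcendental K t)
    (halg : Algebra.IsAlgebraic K⟮t⟯ F) :
    ∃ δ : Derivation K F F, δ t = 1 ∧ (∀ ω : Ω[F⁄K], ∃ g : F, ω = g • D K F t) ∧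
      ∀ f : F, D K F f = δ f • D K F t := by
  obtain ⟨e, he⟩ := kd_exists_equiv t ht halg
  have key : ∀ ω : Ω[F⁄K], ω = e ω • D K F t := by
    intro ω
    apply e.injective
    rw [map_smul, he, smul_eq_mul, mul_one]
  refine ⟨(e : Ω[F⁄K] →ₗ[F] F).compDer (D K F), ?_, fun ω => ⟨e ω, key ω⟩, fun f => ?_⟩
  · simpa using he
  · simpa using key (D K F f)

theorem kd_span_D_eq_top (t : F) (ht : Transcendental K t)
    (halg : Algebra.IsAlgebraic K⟮t⟯ F) :
    Submodule.span F {D K F t} = ⊤ := by
  obtain ⟨δ, -, hspan, -⟩ := kd_exists_derivation t ht halg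
  rw [eq_top_iff]
  intro ω _
  obtain ⟨g, rfl⟩ := hspan ω
  exact Submodule.smul_mem _ _ (Submodule.mem_span_singleton_self _)

end Fermat.Agent.S24x
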