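import Fermat.Agent.S24x.FundIdentity

/-! S24 project, module A7: the divisor of a nonzero function has finite support and degree zero. -/

set_option autoImplicit false

namespace Fermat.Agent.S24x

open AlgebraicCurve IntermediateField Cardinal

variable {K F : Type*} [Field K] [Field F] [Algebra K F]

section Coordinate

open scoped IntermediateField.algebraAdjoinAdjoin in
theorem pd_isAlgebraic_adjoin {t : F} (ht : IsCoordinate K F t) :
    Algebra.IsAlgebraic (Algebra.adjoin K {t}) F := by
  have := ht.finite
  have : Algebra.IsAlgebraic K⟮t⟯ F := Algebra.IsAlgebraic.of_finite _ _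
  exact Algebra.IsAlgebraic.trans (Algebra.adjoin K {t}) K⟮t⟯ F

theorem pd_trdeg_le_one {t : F} (ht : IsCoordinate K F t) : Algebra.trdeg K F ≤ 1 := by
  have := pd_isAlgebraic_adjoin ht
  have := Algebra.IsAlgebraic.trdeg_le_cardinalMk K ({t} : Set F)
  simpa using this

/-- a transcendental element of a function field of one variable is a transcendence basis -/
theorem pd_isAlgebraic_of_transcendental {t : F} (ht : IsCoordinate K F t) {g : F}
    (hg : Transcendental K g) : Algebra.IsAlgebraic K⟮g⟯ F := by
  have hx : AlgebraicIndependent K (fun _ : Unit => g) :=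
    algebraicIndependent_unique_type_iff.mpr hg
  have hb : IsTranscendenceBasis K (fun _ : Unit => g) := by
    apply hx.isTranscendenceBasis_of_lift_trdeg_le_of_finite
    have h1 := pd_trdeg_le_one ht
    calc lift.{0} (Algebra.trdeg K F) ≤ lift.{0} 1 := lift_le.mpr h1
      _ = lift.{_} #Unit := by simp
  have := hb.isAlgebraic_field
  rwa [Set.range_const] at this

theorem pd_finite_of_transcendental {t : F} (ht : IsCoordinate K F t) {g : F}
    (hg : Transcendental K g) : FiniteDimensional K⟮g⟯ F := by
  have halg := pd_isAlgebraic_of_transcendental ht hg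
  have := ht.finite
  obtain ⟨s, hs⟩ := (Module.Finite.fg_top : (⊤ : Submodule K⟮t⟯ F).FG)
  set S : Set F := insert t (s : Set F) with hS
  have hSfin : Finite S := (Set.Finite.insert t s.finite_toSet).to_subtype
  have hfd : FiniteDimensional K⟮g⟯ (adjoin K⟮g⟯ S) :=
    IntermediateField.finiteDimensional_adjoin (fun x _ => (halg.isAlgebraic x).isIntegral)
  have htop : adjoin K⟮g⟯ S = ⊤ := by
    rw [eq_top_iff]
    intro f _
    have hle : K⟮t⟯ ≤ (adjoin K⟮g⟯ S).restrictScalars K := by
      rw [adjoin_le_iff]
      intro x hx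
      rw [Set.mem_singleton_iff] at hx
      subst hx
      have ht' : x ∈ adjoin K⟮g⟯ S := subset_adjoin K⟮g⟯ S (Set.mem_insert x _)
      exact ht'
    have hf : f ∈ Submodule.span K⟮t⟯ (s : Set F) := by rw [hs]; trivial
    refine Submodule.span_induction (p := fun x _ => x ∈ adjoin K⟮g⟯ S) ?_ ?_ ?_ ?_ hf
    · intro x hx; exact subset_adjoin K⟮g⟯ S (Set.mem_insert_of_mem _ hx)
    · exact zero_mem _
    · intro x y _ _ hx hy; exact add_mem hx hy
    · intro c x _ hx
      have hc : (c : F) ∈ adjoin K⟮g⟯ S := hle c.2
      have hcx : c • x = (c : F) * x := rfl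
      rw [hcx]
      exact mul_mem hc hx
  rw [htop] at hfd
  exact (IntermediateField.topEquiv (F := K⟮g⟯) (E := F)).toLinearEquiv.finiteDimensional

/-- a transcendental element of a function field of one variable is a coordinate -/
theorem isCoordinate_of_transcendental {t : F} (ht : IsCoordinate K F t) {g : F}
    (hg : Transcendental K g) : IsCoordinate K F g :=
  ⟨hg, pd_finite_of_transcendental ht hg⟩

end Coordinate

section Degree

theorem pd_ord_algebraMap (v : Place K F) (a : K) : v.ord (algebraMap K F a) = 0 := by
  rcases eq_or_ne a 0 with rfl | ha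
  · simp
  · obtain ⟨u, hu⟩ : IsUnit (algebraMap K v.toValuationSubring a) := ha.isUnit.map _
    have h := v.ord_coe_unit u
    rw [hu, Place.coe_algebraMap] at h
    exact h

theorem pd_mem_range_of_isAlgebraic [IsAlgClosed K] {g : F} (hg : IsAlgebraic K g) :
    g ∈ (algebraMap K F).range :=
  minpoly.mem_range_of_degree_eq_one K g
    (IsAlgClosed.degree_eq_one_of_irreducible K (minpoly.irreducible hg.isIntegral))

/-- A7 in abstract form: the two fundamental identities (A3) imply that principal divisors have
finite support and degree zero. -/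
theorem principal_degree_of_fund [IsAlgClosed K]
    (hA3z : ∀ {t : F}, IsCoordinate K F t → ∀ c : K, ∃ hfin : (placesOver K F t c).Finite,
        ∑ v ∈ hfin.toFinset, v.ord (t - algebraMap K F c) = (cdeg K F t : ℤ))
    (hA3p : ∀ {t : F}, IsCoordinate K F t → ∃ hfin : (polePlaces K F t).Finite,
        ∑ v ∈ hfin.toFinset, - v.ord t = (cdeg K F t : ℤ))
    {t : F} (ht : IsCoordinate K F t) {g : F} (hg : g ≠ 0) :
    ∃ hfin : {v : Place K F | v.ord g ≠ 0}.Finite, ∑ v ∈ hfin.toFinset, v.ord g = 0 := by
  classical
  by_cases halg : IsAlgebraic K g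
  · obtain ⟨a, rfl⟩ := pd_mem_range_of_isAlgebraic halg
    have hset : {v : Place K F | v.ord (algebraMap K F a) ≠ 0} = ∅ := by
      ext v; simp [pd_ord_algebraMap]
    refine ⟨hset ▸ Set.finite_empty, ?_⟩
    apply Finset.sum_eq_zero
    intro v _
    exact pd_ord_algebraMap v a
  · have hgc : IsCoordinate K F g := isCoordinate_of_transcendental ht halg
    obtain ⟨hf0, hs0⟩ := hA3z hgc 0
    obtain ⟨hfp, hsp⟩ := hA3p hgc
    simp only [map_zero, sub_zero] at hs0
    have hset : {v : Place K F | v.ord g ≠ 0} = placesOver K F g 0 ∪ polePlaces K F g := by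
      ext v
      simp only [Set.mem_ofPred_eq, Set.mem_union, placesOver, polePlaces, map_zero, sub_zero]
      omega
    have hfin : {v : Place K F | v.ord g ≠ 0}.Finite := hset ▸ hf0.union hfp
    refine ⟨hfin, ?_⟩
    have hfs : hfin.toFinset = hf0.toFinset ∪ hfp.toFinset := by
      ext v
      simp only [Set.Finite.mem_toFinset, Finset.mem_union, hset, Set.mem_union]
    have hdisj : Disjoint hf0.toFinset hfp.toFinset := by
      rw [Finset.disjoint_left]
      intro v h0 hp
      simp only [Set.Finite.mem_toFinset, placesOver, polePlaces, Set.mem_ofPred_eq, map_zero,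
        sub_zero] at h0 hp
      omega
    rw [hfs, Finset.sum_union hdisj, hs0]
    have : ∑ v ∈ hfp.toFinset, v.ord g = -(cdeg K F g : ℤ) := by
      rw [← hsp, Finset.sum_neg_distrib, neg_neg]
    rw [this]; ring

/-- **A7**: a nonzero function has finitely many zeros and poles, and the degree of its divisor
is zero (exact contract shape of `FinalStubs`/`LayerA`). -/
theorem principal_degree_zero [IsAlgClosed K] [CharZero K] {t : F} (ht : IsCoordinate K F t)
    (g : F) (hg : g ≠ 0) :
    ∃ hfin : {v : Place K F | v.ord g ≠ 0}.Finite, ∑ v ∈ hfin.toFinset, v.ord g = 0 :=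
  principal_degree_of_fund (fun ht' c => sum_ord_placesOver ht' c)
    (fun ht' => sum_ord_polePlaces ht') ht hg

end Degree

end Fermat.Agent.S24x
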