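import Mathlib
import Fermat.Prelude.Def_AlgebraicCurve_CanonicalDivisor

/-!
# S24 project, algebraic core (helper72): basic facts on `AlgebraicCurve.Place`

`ord` versus membership in the valuation ring, uniformizers, comparison of a place with any
`ℤᵐ⁰`-valued valuation having the same valuation ring.
-/

set_option autoImplicit false

open AlgebraicCurve IntermediateField

namespace Fermat.Agent.S24x

variable {K F : Type*} [Field K] [Field F] [Algebra K F]

/-- there is a uniformizer: an element of `O_v` with `ord = 1`. -/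
theorem pb_exists_uniformizer (v : Place K F) :
    ∃ π : v.toValuationSubring, Irreducible π ∧ v.ord (π : F) = 1 := by
  obtain ⟨π, hπ⟩ := IsDiscreteValuationRing.exists_irreducible v.toValuationSubring
  exact ⟨π, hπ, v.ord_coe_irreducible hπ⟩

theorem pb_irreducible_coe_ne_zero (v : Place K F) {π : v.toValuationSubring}
    (hπ : Irreducible π) : (π : F) ≠ 0 := by
  simpa [ne_eq, ZeroMemClass.coe_eq_zero] using hπ.ne_zero

/-- `f ∈ O_v ↔ 0 ≤ ord f` for `f ≠ 0`. -/
theorem pb_mem_iff (v : Place K F) {f : F} (hf : f ≠ 0) :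
    f ∈ v.toValuationSubring ↔ 0 ≤ v.ord f := by
  obtain ⟨π, hπ, -⟩ := pb_exists_uniformizer v
  obtain ⟨u, hu⟩ := v.exists_unit_mul_zpow hf hπ
  have hπ0 := pb_irreducible_coe_ne_zero v hπ
  constructor
  · intro hmem
    by_contra hneg
    rw [not_le] at hneg
    -- π^(ord f) = u⁻¹ * f ∈ O_v with negative exponent: π⁻¹ ∈ O_v
    have h1 : ((π : F) ^ (v.ord f)) ∈ v.toValuationSubring := by
      have : ((π : F) ^ (v.ord f)) = ((u⁻¹ : v.toValuationSubringˣ) : v.toValuationSubring) * f := by
        conv_rhs => rw [hu]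
        rw [← mul_assoc]
        have : (((u⁻¹ : v.toValuationSubringˣ) : v.toValuationSubring) : F)
            * ((u : v.toValuationSubring) : F) = 1 := by
          rw [← MulMemClass.coe_mul, Units.inv_mul, OneMemClass.coe_one]
        rw [this, one_mul]
      rw [this]
      exact v.toValuationSubring.mul_mem _ _ (SetLike.coe_mem _) hmem
    -- hence π is a unit
    obtain ⟨k, hk⟩ : ∃ k : ℕ, v.ord f = -((k : ℤ) + 1) := ⟨(-(v.ord f) - 1).toNat, by omega⟩
    rw [hk, zpow_neg] at h1
    have h2 : ((π : F))⁻¹ ∈ v.toValuationSubring := by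
      have : ((π : F))⁻¹ = ((π : F) ^ ((k : ℤ) + 1))⁻¹ * (π : F) ^ k := by
        rw [zpow_add_one₀ hπ0, zpow_natCast]
        field_simp
      rw [this]
      exact v.toValuationSubring.mul_mem _ _ h1 (v.toValuationSubring.pow_mem π.2 k)
    have hunit : IsUnit π := by
      refine isUnit_iff_exists_inv.mpr ⟨⟨_, h2⟩, ?_⟩
      ext
      simp [hπ0]
    exact hπ.not_isUnit hunit
  · intro hnn
    rw [hu]
    refine v.toValuationSubring.mul_mem _ _ (SetLike.coe_mem _) ?_
    obtain ⟨k, hk⟩ := Int.eq_ofNat_of_zero_le hnn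
    rw [hk, zpow_natCast]
    exact v.toValuationSubring.pow_mem π.2 k

/-- `f` is a unit of `O_v` iff `ord f = 0` (for `f ≠ 0`). -/
theorem pb_ord_eq_zero_iff (v : Place K F) {f : F} (hf : f ≠ 0) :
    v.ord f = 0 ↔ f ∈ v.toValuationSubring ∧ f⁻¹ ∈ v.toValuationSubring := by
  rw [pb_mem_iff v hf, pb_mem_iff v (inv_ne_zero hf), v.ord_inv]
  omega

/-- `f` lies in the maximal ideal iff `0 < ord f` (for `f ≠ 0`). -/
theorem pb_pos_iff (v : Place K F) {f : F} (hf : f ≠ 0) :
    0 < v.ord f ↔ f⁻¹ ∉ v.toValuationSubring := by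
  rw [pb_mem_iff v (inv_ne_zero hf), v.ord_inv]
  omega

theorem pb_ord_algebraMap (v : Place K F) (a : K) : v.ord (algebraMap K F a) = 0 := by
  rcases eq_or_ne a 0 with rfl | ha
  · simp
  have h0 : algebraMap K F a ≠ 0 := by simpa using ha
  rw [pb_ord_eq_zero_iff v h0]
  refine ⟨v.algebraMap_mem' a, ?_⟩
  rw [← map_inv₀]
  exact v.algebraMap_mem' _

/-- ultrametric inequality for `ord`. -/
theorem pb_ord_add (v : Place K F) {f g : F} (hfg : f + g ≠ 0) :
    min (v.ord f) (v.ord g) ≤ v.ord (f + g) := by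
  rcases eq_or_ne f 0 with rfl | hf
  · simp
  rcases eq_or_ne g 0 with rfl | hg
  · simp
  simp only [Place.ord]
  have h := Valuation.map_add v.adicValuation f g
  have hf' := v.adicValuation_ne_zero hf
  have hg' := v.adicValuation_ne_zero hg
  have hfg' := v.adicValuation_ne_zero hfg
  rcases le_total (v.adicValuation f) (v.adicValuation g) with hle | hle
  · rw [max_eq_right hle] at h
    have := (WithZero.log_le_log hfg' hg').mpr h
    omega
  · rw [max_eq_left hle] at h
    have := (WithZero.log_le_log hfg' hf').mpr h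
    omega

end Fermat.Agent.S24x
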