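import Mathlib
import Fermat.Prelude.Def_AlgebraicCurve_CanonicalDivisor
import Fermat.Agent.S24x.PlaceBasic
import Fermat.Agent.S24x.AlgDefs

/-!
# S24 project, algebraic core (helper72): residue fields and centres of places

`K` algebraically closed, `F/K` of transcendence degree one (witnessed by `x` with `F` algebraic
over `K(x)`).  Every place of `F/K` has residue field `K`; every element of the valuation ring
has a unique "value" `c ∈ K`.
-/

set_option autoImplicit false

open AlgebraicCurve IntermediateField

namespace Fermat.Agent.S24x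

variable {K F : Type*} [Field K] [Field F] [Algebra K F]

/-- exchange lemma: if `F` is algebraic over `K(x)` and `y` is transcendental over `K`, then `F` is
algebraic over `K(y)`. -/
theorem pc_isAlgebraic_of_transcendental (x : F) [Algebra.IsAlgebraic K⟮x⟯ F]
    {y : F} (hy : Transcendental K y) : Algebra.IsAlgebraic K⟮y⟯ F := by
  have h1 : Algebra.trdeg K F ≤ 1 := by
    open scoped IntermediateField.algebraAdjoinAdjoin in
    have : Algebra.IsAlgebraic (Algebra.adjoin K {x}) K⟮x⟯ := inferInstance
    have : Algebra.IsAlgebraic (Algebra.adjoin K {x}) F :=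
      Algebra.IsAlgebraic.trans (Algebra.adjoin K {x}) K⟮x⟯ F
    have := Algebra.IsAlgebraic.trdeg_le_cardinalMk K ({x} : Set F)
    simpa using this
  have hy' : AlgebraicIndependent K (fun _ : Unit => y) := by
    rw [algebraicIndependent_unique_type_iff]
    exact hy
  have hb : IsTranscendenceBasis K (fun _ : Unit => y) :=
    hy'.isTranscendenceBasis_of_lift_trdeg_le_of_finite (by simpa using h1)
  have := hb.isAlgebraic_field
  have hr : (Set.range fun _ : Unit => y) = {y} := by
    ext z; simp [eq_comm]
  rwa [hr] at this

/-- over an algebraically closed field, an algebraic element of an extension field is a constant -/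
theorem pc_mem_range_of_isAlgebraic [IsAlgClosed K] {y : F} (hy : IsAlgebraic K y) :
    ∃ c : K, algebraMap K F c = y := by
  have hint : IsIntegral K y := hy.isIntegral
  have hirr := minpoly.irreducible hint
  have hdeg := IsAlgClosed.degree_eq_one_of_irreducible K hirr
  exact minpoly.mem_range_of_degree_eq_one K y hdeg

/-- if all `y - c` are units of `O_v`, every nonzero polynomial in `y` has `ord = 0`. -/
theorem pc_ord_aeval_eq_zero [IsAlgClosed K] (v : Place K F) {y : F}
    (hy : ∀ c : K, y - algebraMap K F c ≠ 0 ∧ v.ord (y - algebraMap K F c) = 0)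
    (p : Polynomial K) (hp : p ≠ 0) :
    Polynomial.aeval y p ≠ 0 ∧ v.ord (Polynomial.aeval y p) = 0 := by
  have hsplit := IsAlgClosed.splits p
  have hprod := hsplit.eq_prod_roots
  rw [hprod]
  simp only [map_mul, Polynomial.aeval_C, map_multiset_prod, Multiset.map_map]
  have hlc : algebraMap K F p.leadingCoeff ≠ 0 := by
    simpa using Polynomial.leadingCoeff_ne_zero.mpr hp
  -- product over roots
  have hfun : ((Polynomial.aeval y) ∘ fun a : K => (Polynomial.X - Polynomial.C a : Polynomial K))
      = fun a => y - algebraMap K F a := by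
    funext a
    simp
  rw [hfun]
  have key : ∀ s : Multiset K,
      (Multiset.map (fun a => y - algebraMap K F a) s).prod ≠ 0 ∧
      v.ord (Multiset.map (fun a => y - algebraMap K F a) s).prod = 0 := by
    intro s
    induction s using Multiset.induction_on with
    | empty => simp
    | cons a s ih =>
      have ha := hy a
      simp only [Multiset.map_cons, Multiset.prod_cons]
      refine ⟨mul_ne_zero ha.1 ih.1, ?_⟩
      rw [v.ord_mul ha.1 ih.1, ha.2, ih.2, add_zero]
  obtain ⟨k1, k2⟩ := key p.roots
  refine ⟨mul_ne_zero hlc k1, ?_⟩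
  rw [v.ord_mul hlc k1, pb_ord_algebraMap, k2, add_zero]

/-- **Centre of an element.**  `K` algebraically closed, `F` algebraic over `K(x)`.  Every element
`y` of the valuation ring of a place is congruent to a constant modulo the maximal ideal. -/
theorem pc_exists_center [IsAlgClosed K] (x : F) [Algebra.IsAlgebraic K⟮x⟯ F]
    (v : Place K F) {y : F} (hyv : y ∈ v.toValuationSubring) :
    ∃ c : K, y = algebraMap K F c ∨ 0 < v.ord (y - algebraMap K F c) := by
  by_contra hcon
  push Not at hcon
  -- all y - c are nonzero with ord = 0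
  have hy : ∀ c : K, y - algebraMap K F c ≠ 0 ∧ v.ord (y - algebraMap K F c) = 0 := by
    intro c
    obtain ⟨h1, h2⟩ := hcon c
    have hne : y - algebraMap K F c ≠ 0 := sub_ne_zero.mpr h1
    refine ⟨hne, ?_⟩
    have hmem : y - algebraMap K F c ∈ v.toValuationSubring :=
      v.toValuationSubring.sub_mem hyv (v.algebraMap_mem' c)
    have := (pb_mem_iff v hne).mp hmem
    omega
  -- y is transcendental
  have htr : Transcendental K y := by
    intro halg
    obtain ⟨c, hc⟩ := pc_mem_range_of_isAlgebraic halg
    exact (hcon c).1 hc.symm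
  have := pc_isAlgebraic_of_transcendental (K := K) x htr
  -- K(y) ⊆ O_v
  have hsub : ∀ z : K⟮y⟯, (z : F) ∈ v.toValuationSubring := by
    intro z
    obtain ⟨r, s, hz⟩ := (IntermediateField.mem_adjoin_simple_iff K (z : F)).mp z.2
    by_cases hz0 : (z : F) = 0
    · rw [hz0]; exact v.toValuationSubring.zero_mem
    have hr0 : r ≠ 0 := by
      rintro rfl
      apply hz0
      rw [hz]
      simp
    have hs0 : s ≠ 0 := by
      rintro rfl
      apply hz0
      rw [hz]
      simp
    obtain ⟨r1, r2⟩ := pc_ord_aeval_eq_zero v hy r hr0
    obtain ⟨s1, s2⟩ := pc_ord_aeval_eq_zero v hy s hs0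
    rw [pb_mem_iff v hz0, hz, div_eq_mul_inv, v.ord_mul r1 (inv_ne_zero s1), v.ord_inv, r2, s2]
    simp
  -- every element of F is integral over O_v, hence in O_v
  apply v.ne_top'
  refine SetLike.ext fun f => ⟨fun _ => ValuationSubring.mem_top f, fun _ => ?_⟩
  let φ : K⟮y⟯ →+* v.toValuationSubring :=
    (algebraMap K⟮y⟯ F).codRestrict v.toValuationSubring.toSubring hsub
  let _ : Algebra K⟮y⟯ v.toValuationSubring := φ.toAlgebra
  have : IsScalarTower K⟮y⟯ v.toValuationSubring F :=
    IsScalarTower.of_algebraMap_eq (fun _ => rfl)
  have hint : IsIntegral K⟮y⟯ f := (Algebra.IsAlgebraic.isAlgebraic f).isIntegral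
  have hint' : IsIntegral v.toValuationSubring f := hint.tower_top
  obtain ⟨g, hg⟩ := (IsIntegrallyClosed.isIntegral_iff (R := v.toValuationSubring) (K := F)).mp hint'
  rw [← hg]
  exact g.2

/-- uniqueness of the centre -/
theorem pc_center_unique (v : Place K F) {y : F} {c c' : K}
    (h : 0 < v.ord (y - algebraMap K F c)) (h' : 0 < v.ord (y - algebraMap K F c')) : c = c' := by
  by_contra hne
  have hd : algebraMap K F (c' - c) ≠ 0 := by
    simpa [sub_eq_zero] using (Ne.symm hne)
  have e : (y - algebraMap K F c) + -(y - algebraMap K F c') = algebraMap K F (c' - c) := by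
    rw [map_sub]; ring
  have hsum : (y - algebraMap K F c) + -(y - algebraMap K F c') ≠ 0 := by rw [e]; exact hd
  have := pb_ord_add v hsum
  rw [e, pb_ord_algebraMap] at this
  have hneg : v.ord (-(y - algebraMap K F c')) = v.ord (y - algebraMap K F c') := by
    have hm1 : (-1 : F) ≠ 0 := by simp
    rcases eq_or_ne (y - algebraMap K F c') 0 with h0 | h0
    · rw [h0]; simp
    · have : -(y - algebraMap K F c') = algebraMap K F (-1) * (y - algebraMap K F c') := by
        simp
      rw [this, v.ord_mul (by simp) h0, pb_ord_algebraMap, zero_add]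
  rw [hneg] at this
  omega

/-- the residue field of every place is `K`. -/
theorem pc_algebraMap_residue_surjective [IsAlgClosed K] (x : F) [Algebra.IsAlgebraic K⟮x⟯ F]
    (v : Place K F) : Function.Surjective (algebraMap K v.ResidueField) := by
  intro ybar
  obtain ⟨y, rfl⟩ := IsLocalRing.residue_surjective ybar
  obtain ⟨c, hc⟩ := pc_exists_center x v y.2
  refine ⟨c, ?_⟩
  rw [IsScalarTower.algebraMap_apply K v.toValuationSubring v.ResidueField]
  show IsLocalRing.residue _ (algebraMap K v.toValuationSubring c) = IsLocalRing.residue _ y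
  rw [eq_comm, ← sub_eq_zero, ← map_sub, IsLocalRing.residue_eq_zero_iff]
  rcases hc with hc | hc
  · have : y - algebraMap K v.toValuationSubring c = 0 := by
      ext
      simp [hc]
    rw [this]
    exact Ideal.zero_mem _
  · rw [IsLocalRing.mem_maximalIdeal, mem_nonunits_iff]
    intro hu
    have hne : ((y : F) - algebraMap K F c) ≠ 0 := by
      intro h0
      rw [h0] at hc
      simp at hc
    have h2 : v.ord ((y : F) - algebraMap K F c) = 0 := by
      have := v.ord_coe_unit hu.unit
      simpa using this
    omega

theorem pc_finite_residue [IsAlgClosed K] (x : F) [Algebra.IsAlgebraic K⟮x⟯ F]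
    (v : Place K F) : Module.Finite K v.ResidueField :=
  Module.Finite.of_surjective (Algebra.linearMap K v.ResidueField)
    (pc_algebraMap_residue_surjective x v)

theorem pc_deg_eq_one [IsAlgClosed K] (x : F) [Algebra.IsAlgebraic K⟮x⟯ F]
    (v : Place K F) : v.deg = 1 := by
  have hbij : Function.Bijective (algebraMap K v.ResidueField) :=
    ⟨(algebraMap K v.ResidueField).injective, pc_algebraMap_residue_surjective x v⟩
  show Module.finrank K v.ResidueField = 1
  rw [← Module.finrank_self K]
  exact ((AlgEquiv.ofBijective (Algebra.ofId K v.ResidueField) hbij).toLinearEquiv.finrank_eq).symm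

/-! ## Contract shapes (layer A integration, `IsCoordinate` language) -/

theorem pc_isAlgebraic_of_isCoordinate {t : F} (ht : IsCoordinate K F t) :
    Algebra.IsAlgebraic K⟮t⟯ F :=
  haveI := ht.finite
  Algebra.IsAlgebraic.of_finite K⟮t⟯ F

/-- (A2b) the residue field of every place is `K`. -/
theorem pc_place_residue_surjective [IsAlgClosed K] {t : F} (ht : IsCoordinate K F t)
    (v : Place K F) : Function.Surjective (algebraMap K v.ResidueField) :=
  haveI := pc_isAlgebraic_of_isCoordinate ht
  pc_algebraMap_residue_surjective t v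

/-- (A2b) every place has degree one. -/
theorem pc_place_deg_eq_one [IsAlgClosed K] {t : F} (ht : IsCoordinate K F t)
    (v : Place K F) : v.deg = 1 :=
  haveI := pc_isAlgebraic_of_isCoordinate ht
  pc_deg_eq_one t v

theorem pc_place_finite_residue [IsAlgClosed K] {t : F} (ht : IsCoordinate K F t)
    (v : Place K F) : Module.Finite K v.ResidueField :=
  haveI := pc_isAlgebraic_of_isCoordinate ht
  pc_finite_residue t v

/-- (A2c) a place at which `t` is integral lies over exactly one `c`. -/
theorem pc_existsUnique_center [IsAlgClosed K] {t : F} (ht : IsCoordinate K F t)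
    (v : Place K F) (h : 0 ≤ v.ord t) : ∃! c : K, v ∈ placesOver K F t c := by
  have := pc_isAlgebraic_of_isCoordinate ht
  have ht0 : t ≠ 0 := by
    rintro rfl
    exact ht.transcendental isAlgebraic_zero
  have hmem : t ∈ v.toValuationSubring := (pb_mem_iff v ht0).mpr h
  obtain ⟨c, hc⟩ := pc_exists_center t v hmem
  have hc' : 0 < v.ord (t - algebraMap K F c) := by
    rcases hc with hc | hc
    · exact absurd (hc ▸ isAlgebraic_algebraMap c) ht.transcendental
    · exact hc
  exact ⟨c, hc', fun c' hc'' => (pc_center_unique v hc' hc'').symm⟩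

/-- every place is a pole of `t` or lies over exactly one `c`. -/
theorem pc_pole_or_center [IsAlgClosed K] {t : F} (ht : IsCoordinate K F t)
    (v : Place K F) : v ∈ polePlaces K F t ∨ ∃! c : K, v ∈ placesOver K F t c := by
  rcases lt_or_ge (v.ord t) 0 with h | h
  · exact Or.inl h
  · exact Or.inr (pc_existsUnique_center ht v h)

end Fermat.Agent.S24x
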