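/-
S24 helper library: the fixed embedding `iotaQ : Q̄ →+* ℂ` used to realise the modular function
field analytically.
-/
import Mathlib

set_option autoImplicit false

namespace Fermat.Agent.S24x

/-- `Q̄` -/
abbrev Qbar : Type := AlgebraicClosure ℚ

theorem nonempty_ringHom_Qbar_complex : Nonempty (AlgebraicClosure ℚ →+* ℂ) := by
  let _ : Algebra ℚ (AlgebraicClosure ℚ) := AlgebraicClosure.instAlgebra ℚ
  have : Algebra.IsAlgebraic ℚ (AlgebraicClosure ℚ) := AlgebraicClosure.isAlgebraic ℚ
  exact ⟨((IsAlgClosed.lift : AlgebraicClosure ℚ →ₐ[ℚ] ℂ) : AlgebraicClosure ℚ →+* ℂ)⟩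

/-- the fixed embedding `Q̄ → ℂ` -/
noncomputable def iotaQ : Qbar →+* ℂ := Classical.choice nonempty_ringHom_Qbar_complex

theorem iotaQ_injective : Function.Injective iotaQ := iotaQ.injective

end Fermat.Agent.S24x
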