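/-
S24 module C4 (helper88), part 1: the Laurent-series realization `dlPhi N : F_N → ℂ((q))`
(coefficientwise `iotaQ`), its compatibility with the analytic `q`-expansions of S23x
(`jL = E₄³/Δ`, `jNL d = j(q^d)`), and the lower bound `ψ(N) ≤ [F_N : Q̄(j)]` (assuming the
extension is finite) from S23x `natDegree_ge_of_aeval_jNL_eq_zero`.
-/
import Fermat.Agent.S24x.AlgDefs
import Fermat.Agent.S24x.Iota
import Fermat.Agent.S24x.E4QExp
import Fermat.Agent.S24x.DeltaQExp
import Fermat.Agent.S24x.CombIndex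
import Fermat.Agent.S23x.DegreeGe
import Fermat.Agent.S23x.LevelRaise
import Fermat.Prelude.Def_ModularCurve_X0ModL

set_option autoImplicit false

namespace Fermat.Agent.S24x

open ModularCurve UpperHalfPlane IntermediateField

/-! ### the formal `j` of the Prelude is the `q`-expansion of the analytic `j` -/

theorem dl_ring_aux {R : Type*} [CommRing R] {A B C S X' : R} (h2 : S * X' = 1) (h3 : B * C = 1) :
    S * (A ^ 3 * B) * (X' * C) = A ^ 3 := by
  calc S * (A ^ 3 * B) * (X' * C) = (S * X') * (B * C) * A ^ 3 := by ring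
    _ = A ^ 3 := by rw [h2, h3]; ring

/-- The Prelude's formal `j` over `ℂ` is the `q`-expansion `E₄³/Δ` of the analytic `j`. -/
theorem dl_jqModC_eq_jL : jqModC ℂ = S23x.jL := by
  have hD : S23x.DeltaL ≠ 0 := S23x.m09c_DeltaL_ne_zero
  rw [S23x.jL, eq_div_iff hD]
  unfold S23x.DeltaL S23x.E4L S23x.qL
  rw [qExpansion_discriminant, qExpansion_E4, jqModC, jNum]
  have h1 : (PowerSeries.map (Int.castRingHom ℂ)) dedekindEtaUnitInv *
      (PowerSeries.map (Int.castRingHom ℂ)) (etaProd ^ 24) = 1 := by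
    rw [← map_mul, mul_comm]
    have := dedekindEtaUnit_mul_inv
    rw [dedekindEtaUnit] at this
    rw [this, map_one]
  have h2 : (HahnSeries.single (-1 : ℤ) (1 : ℂ)) *
      ((PowerSeries.X : PowerSeries ℂ) : LaurentSeries ℂ) = 1 := by
    rw [HahnSeries.ofPowerSeries_X, HahnSeries.single_mul_single]
    simp
  have h3 := congrArg (HahnSeries.ofPowerSeries ℤ ℂ) h1
  rw [map_mul, map_one] at h3
  rw [map_mul (PowerSeries.map (Int.castRingHom ℂ)), map_mul (HahnSeries.ofPowerSeries ℤ ℂ),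
    map_mul (HahnSeries.ofPowerSeries ℤ ℂ), map_pow (PowerSeries.map (Int.castRingHom ℂ)),
    map_pow (HahnSeries.ofPowerSeries ℤ ℂ)]
  exact dl_ring_aux h2 h3

/-- `q`-expansion of `f(d z)` is the `q ↦ q^d` substitution of the `q`-expansion of `f`. -/
theorem dl_qL_comp_mulN (d : ℕ) [NeZero d] {k : ℤ} {f : ℍ → ℂ} (h : S23x.IsMF1 k f) :
    S23x.qL (fun z => f (S23x.mulN d z)) = qExpand ℂ d (S23x.qL f) := by
  ext n
  by_cases hn : (d : ℤ) ∣ n
  · obtain ⟨m, rfl⟩ := hn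
    rw [qExpand_coeff_mul]
    unfold S23x.qL
    rcases le_or_gt 0 m with hm | hm
    · lift m to ℕ using hm
      have : (d : ℤ) * (m : ℤ) = ((d * m : ℕ) : ℤ) := by push_cast; ring
      rw [this, HahnSeries.ofPowerSeries_apply_coeff, HahnSeries.ofPowerSeries_apply_coeff,
        S23x.qExpansion_comp_mulN_coeff d h]
      simp [Nat.mul_div_cancel_left _ (NeZero.pos d)]
    · have hd : (0 : ℤ) < d := by exact_mod_cast NeZero.pos d
      rw [ofPowerSeries_coeff_of_neg _ hm,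
        ofPowerSeries_coeff_of_neg _ (mul_neg_of_pos_of_neg hd hm)]
  · rw [qExpand_coeff_of_not_dvd _ _ hn]
    unfold S23x.qL
    rcases le_or_gt 0 n with hm | hm
    · lift n to ℕ using hm
      rw [HahnSeries.ofPowerSeries_apply_coeff, S23x.qExpansion_comp_mulN_coeff d h]
      have : ¬ d ∣ n := fun hh => hn (by exact_mod_cast hh)
      simp [this]
    · rw [ofPowerSeries_coeff_of_neg _ hm]

theorem dl_jNL_eq (d : ℕ) [NeZero d] : S23x.jNL d = qExpand ℂ d S23x.jL := by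
  unfold S23x.jNL S23x.jL S23x.E4L S23x.DeltaL
  rw [dl_qL_comp_mulN d S23x.m09c_isMF1_E4, dl_qL_comp_mulN d S23x.m09c_isMF1_discriminant,
    map_div₀, map_pow]

theorem dl_jqNModC_eq_jNL (d : ℕ) [NeZero d] : jqNModC ℂ d = S23x.jNL d := by
  rw [dl_jNL_eq, jqNModC, dl_jqModC_eq_jL]

/-! ### the realization `F_N → ℂ((q))` -/

/-- The realization `F_N → ℂ((q))`: coefficientwise `iotaQ`. -/
noncomputable def dlPhi (N : ℕ) : FBar N →+* S23x.LS :=
  (coeffMap iotaQ).comp (algebraMap (FBar N) (LaurentSeries Qbar))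

theorem dlPhi_apply (N : ℕ) (x : FBar N) :
    dlPhi N x = coeffMap iotaQ (x : LaurentSeries Qbar) := rfl

theorem dlPhi_algebraMap (N : ℕ) (c : Qbar) :
    dlPhi N (algebraMap Qbar (FBar N) c) = algebraMap ℂ S23x.LS (iotaQ c) := by
  rw [dlPhi_apply]
  show coeffMap iotaQ (algebraMap Qbar (LaurentSeries Qbar) c) = _
  rw [algebraMap_laurentSeries_eq_single, algebraMap_laurentSeries_eq_single, coeffMap_single]

theorem dl_iotaQ_comp : iotaQ.comp (algebraMap ℚ Qbar) = algebraMap ℚ ℂ :=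
  RingHom.ext_rat _ _

theorem dlPhi_jBar (N : ℕ) : dlPhi N (jBar N) = S23x.jL := by
  rw [dlPhi_apply, coe_jBar, coeffEmb, coeffMap_coeffMap, ← jqModC_rat, coeffMap_jqModC,
    dl_jqModC_eq_jL]

theorem dlPhi_jdBar (N d : ℕ) [NeZero d] (hd : d ∣ N) : dlPhi N (jdBar N d hd) = S23x.jNL d := by
  rw [dlPhi_apply, coe_jdBar, coeffEmb, coeffMap_coeffMap, ← jqModC_rat]
  show coeffMap _ (jqNModC ℚ d) = _
  rw [coeffMap_jqNModC, dl_jqNModC_eq_jNL]

/-- `dlPhi` maps `Q̄(j)` into `ℂ(j)`. -/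
theorem dlPhi_mem_Kj (N : ℕ) (x : FBar N) (hx : x ∈ Qbar⟮jBar N⟯) : dlPhi N x ∈ S23x.Kj := by
  let T : IntermediateField Qbar (FBar N) :=
    { (S23x.Kj.toSubfield.comap (dlPhi N)) with
      algebraMap_mem' := fun c => by
        show dlPhi N (algebraMap Qbar (FBar N) c) ∈ S23x.Kj
        rw [dlPhi_algebraMap]
        exact S23x.Kj.algebraMap_mem _ }
  have hle : Qbar⟮jBar N⟯ ≤ T := by
    rw [IntermediateField.adjoin_le_iff]
    intro y hy
    rw [Set.mem_singleton_iff] at hy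
    subst hy
    show dlPhi N (jBar N) ∈ S23x.Kj
    rw [dlPhi_jBar]
    exact IntermediateField.mem_adjoin_simple_self ℂ S23x.jL
  exact hle hx

/-- Restriction of `dlPhi` to `Q̄(j) → ℂ(j)`. -/
noncomputable def dlPsi (N : ℕ) : Qbar⟮jBar N⟯ →+* S23x.Kj :=
  ((dlPhi N).comp (algebraMap Qbar⟮jBar N⟯ (FBar N))).codRestrict S23x.Kj.toSubring
    (fun x => dlPhi_mem_Kj N x x.2)

theorem dlPsi_spec (N : ℕ) (x : Qbar⟮jBar N⟯) :
    algebraMap S23x.Kj S23x.LS (dlPsi N x) = dlPhi N (algebraMap Qbar⟮jBar N⟯ (FBar N) x) := rfl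

/-! ### the lower bound -/

/-- Any nonzero polynomial over `Q̄(j)` killing `j_N` has degree at least `idx N`. -/
theorem dl_natDegree_ge (N : ℕ) [NeZero N] (P : Polynomial Qbar⟮jBar N⟯) (hP : P ≠ 0)
    (h : Polynomial.aeval (jdBar N N dvd_rfl) P = 0) : S23x.idx N ≤ P.natDegree := by
  have hmap : P.map (dlPsi N) ≠ 0 := (Polynomial.map_ne_zero_iff (dlPsi N).injective).mpr hP
  have hev : Polynomial.aeval (S23x.jNL N) (P.map (dlPsi N)) = 0 := by
    rw [Polynomial.aeval_def, Polynomial.eval₂_map]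
    have hcomp : (algebraMap S23x.Kj S23x.LS).comp (dlPsi N)
        = (dlPhi N).comp (algebraMap Qbar⟮jBar N⟯ (FBar N)) := RingHom.ext fun x => dlPsi_spec N x
    rw [hcomp, ← dlPhi_jdBar N N dvd_rfl, ← Polynomial.hom_eval₂, ← Polynomial.aeval_def, h,
      map_zero]
  have := S23x.natDegree_ge_of_aeval_jNL_eq_zero N _ hmap hev
  rwa [Polynomial.natDegree_map] at this

theorem dl_idx_eq (N : ℕ) [NeZero N] : S23x.idx N = dedekindPsi N := by
  rw [S23x.m09b_idx_eq, index_Gamma0]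

/-- **C4b**, assuming finiteness of `F_N / Q̄(j)`: `ψ(N) ≤ [F_N : Q̄(j)]`. -/
theorem dedekindPsi_le_cdeg_of_finite (N : ℕ) [NeZero N]
    (hfin : FiniteDimensional Qbar⟮jBar N⟯ (FBar N)) :
    dedekindPsi N ≤ cdeg Qbar (FBar N) (jBar N) := by
  have hint : IsIntegral Qbar⟮jBar N⟯ (jdBar N N dvd_rfl) := IsIntegral.of_finite _ _
  have h1 := dl_natDegree_ge N (minpoly Qbar⟮jBar N⟯ (jdBar N N dvd_rfl)) (minpoly.ne_zero hint)
    (minpoly.aeval _ _)
  rw [dl_idx_eq] at h1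
  have : Module.Free Qbar⟮jBar N⟯ (FBar N) := Module.Free.of_divisionRing _ _
  exact h1.trans (minpoly.natDegree_le _)

end Fermat.Agent.S24x
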