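import Fermat.Agent.S24x.AlgDefs

/-!
# S24 project, C4 piece: `jBar N` is transcendental over `Q̄`

Purely formal: `j = q⁻¹ + ⋯` has a pole of exact order `1`, so the coefficient of `q^{-n}` in
`P(j)` is the leading coefficient of `P` (`n = deg P`).
-/

set_option autoImplicit false

namespace Fermat.Agent.S24x

open ModularCurve Polynomial

section Generic

variable (L : Type*) [Field L] [Algebra ℚ L]

theorem jbt_coeff_pow_self (k : ℕ) : ((coeffEmb L jq) ^ k).coeff (-(k : ℤ)) = 1 := by
  rw [← map_pow, coeffEmb_coeff, coeff_jq_pow_self, map_one]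

theorem jbt_coeff_pow_of_lt {k : ℕ} {m : ℤ} (hm : m < -(k : ℤ)) :
    ((coeffEmb L jq) ^ k).coeff m = 0 := by
  rw [← map_pow, coeffEmb_coeff, coeff_jq_pow_of_lt hm, map_zero]

/-- `j` (with coefficients extended to `L`) is transcendental over `L` in `L((q))`. -/
theorem jbt_transcendental_coeffEmb_jq : Transcendental L (coeffEmb L jq) := by
  intro halg
  obtain ⟨P, hP0, hP⟩ := halg
  have hlead : P.leadingCoeff ≠ 0 := leadingCoeff_ne_zero.mpr hP0
  apply hlead
  have h := congrArg (fun x : LaurentSeries L => x.coeff (-(P.natDegree : ℤ))) hP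
  simp only [HahnSeries.coeff_zero] at h
  rw [aeval_def, eval₂_eq_sum_range, ← HahnSeries.coeff.addMonoidHom_apply, map_sum] at h
  simp only [HahnSeries.coeff.addMonoidHom_apply, algebraMap_laurentSeries_eq_single,
    HahnSeries.coeff_single_mul, sub_zero] at h
  rw [Finset.sum_range_succ, jbt_coeff_pow_self, mul_one] at h
  rw [Finset.sum_eq_zero, zero_add] at h
  · exact h
  · intro k hk
    rw [Finset.mem_range] at hk
    rw [jbt_coeff_pow_of_lt L (by exact_mod_cast neg_lt_neg (Int.ofNat_lt.mpr hk)), mul_zero]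

end Generic

/-- C4 (first half of `isCoordinate_jBar`): `j` is transcendental over `Q̄` in `F_N`. -/
theorem transcendental_jBar (N : ℕ) [NeZero N] :
    Transcendental (AlgebraicClosure ℚ) (jBar N) := by
  intro halg
  apply jbt_transcendental_coeffEmb_jq (AlgebraicClosure ℚ)
  rw [← coe_jBar N]
  have := halg.algebraMap (A := LaurentSeries (AlgebraicClosure ℚ))
  exact this

end Fermat.Agent.S24x
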