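/-
S24 helper module LD (helper50): linear disjointness of `LaurentSeries K` and `L` over `K`.

For a field homomorphism `ι : K →+* L`, coefficientwise extension
`ModularCurve.coeffMap ι : LaurentSeries K →+* LaurentSeries L` sends `K`-linearly independent
families to `L`-linearly independent families; equivalently, a relation `∑ zᵢ • coeffMap ι sᵢ = 0`
with `zᵢ ∈ L` linearly independent over `K` forces all `sᵢ = 0`.
-/
import Mathlib
import Fermat.Prelude.Def_ModularCurve_LaurentCoeff

set_option autoImplicit false

namespace Fermat.Agent.S24x

open ModularCurve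

section LD

variable {K L : Type*} [Field K] [Field L] (ι : K →+* L)

/-- `K`-linear independence of a family `z` in `L` (through `ι`), in elementary form. -/
def LDIndep {m : Type*} [Fintype m] (z : m → L) : Prop :=
  ∀ c : m → K, ∑ i, ι (c i) * z i = 0 → ∀ i, c i = 0

/-- (LD1) If `z₁..z_m ∈ L` are `K`-linearly independent and `∑ zᵢ • coeffMap ι sᵢ = 0` in
`LaurentSeries L`, then all `sᵢ = 0`. -/
theorem ld_eq_zero_of_sum_smul_coeffMap_eq_zero {m : Type*} [Fintype m] {z : m → L}
    (hz : LDIndep ι z) (s : m → LaurentSeries K)
    (h : ∑ i, z i • coeffMap ι (s i) = 0) : ∀ i, s i = 0 := by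
  have hcoeff : ∀ k : ℤ, ∀ i, (s i).coeff k = 0 := by
    intro k
    apply hz
    have hk := congrArg (fun x : LaurentSeries L => x.coeff k) h
    simp only [HahnSeries.coeff_zero] at hk
    rw [← hk]
    have : (∑ i, z i • coeffMap ι (s i)).coeff k = ∑ i, (z i • coeffMap ι (s i)).coeff k := by
      simp
    rw [this]
    refine Finset.sum_congr rfl fun i _ => ?_
    rw [HahnSeries.coeff_smul, coeffMap_coeff, smul_eq_mul, mul_comm]
  intro i
  ext k
  simp [hcoeff k i]

end LD

section LD2

variable {K L : Type*} [Field K] [Field L] [Algebra K L]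

lemma ld_coeffMap_smul (c : K) (x : LaurentSeries K) :
    coeffMap (algebraMap K L) (c • x) = algebraMap K L c • coeffMap (algebraMap K L) x := by
  ext k
  simp [HahnSeries.coeff_smul, Algebra.smul_def]

/-- `K`-linearly independent elements of `L` (Mathlib form) are `LDIndep`. -/
lemma ldIndep_of_linearIndependent {m : Type*} [Fintype m] {z : m → L}
    (hz : LinearIndependent K z) : LDIndep (algebraMap K L) z := by
  intro c hc
  have h := Fintype.linearIndependent_iff.mp hz c
  apply h
  rw [← hc]
  refine Finset.sum_congr rfl fun i _ => ?_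
  rw [Algebra.smul_def]

/-- (LD2) `coeffMap` sends `K`-linearly independent families of `LaurentSeries K` to
`L`-linearly independent families of `LaurentSeries L`. -/
theorem ld_linearIndependent_coeffMap {A : Type*} {f : A → LaurentSeries K}
    (hf : LinearIndependent K f) :
    LinearIndependent L (fun a => coeffMap (algebraMap K L) (f a)) := by
  classical
  rw [linearIndependent_iff']
  intro s g hg a ha
  -- the finite-dimensional `K`-span of the coefficients
  set W : Submodule K L := Submodule.span K (g '' (s : Set A)) with hW
  have : FiniteDimensional K W :=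
    FiniteDimensional.span_of_finite K ((s : Set A).toFinite.image g)
  set b := Module.finBasis K W with hb
  have hgW : ∀ a ∈ s, g a ∈ W := fun a ha => Submodule.subset_span ⟨a, ha, rfl⟩
  -- coordinates
  let c : A → Fin (Module.finrank K W) → K := fun a i =>
    if h : a ∈ s then b.repr ⟨g a, hgW a h⟩ i else 0
  have hgc : ∀ a ∈ s, g a = ∑ i, algebraMap K L (c a i) * (b i : L) := by
    intro a ha
    have h1 := b.sum_repr ⟨g a, hgW a ha⟩
    have h2 := congrArg (Subtype.val) h1
    simp only [Submodule.coe_sum, Submodule.coe_smul] at h2
    rw [← h2]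
    refine Finset.sum_congr rfl fun i _ => ?_
    simp only [c, dif_pos ha, Algebra.smul_def]
  have hbind : LDIndep (algebraMap K L) (fun i => (b i : L)) := by
    apply ldIndep_of_linearIndependent
    exact b.linearIndependent.map' W.subtype (Submodule.ker_subtype W)
  -- rewrite the relation
  have key : ∑ i, (b i : L) • coeffMap (algebraMap K L) (∑ a ∈ s, c a i • f a) = 0 := by
    rw [← hg]
    simp only [map_sum, ld_coeffMap_smul, Finset.smul_sum]
    rw [Finset.sum_comm]
    refine Finset.sum_congr rfl fun a ha => ?_
    rw [hgc a ha, Finset.sum_smul]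
    refine Finset.sum_congr rfl fun i _ => ?_
    rw [smul_smul, mul_comm]
  have h0 := ld_eq_zero_of_sum_smul_coeffMap_eq_zero (algebraMap K L) hbind
    (fun i => ∑ a ∈ s, c a i • f a) key
  have hc0 : ∀ i, c a i = 0 := fun i =>
    (linearIndependent_iff'.mp hf) s (fun a => c a i) (h0 i) a ha
  rw [hgc a ha]
  simp [hc0]

/-- (LD2') polynomial form: if the products `j ^ k * f a` are `K`-linearly independent, the
products `(coeffMap j) ^ k * coeffMap (f a)` are `L`-linearly independent. -/
theorem ld_linearIndependent_pow_mul {A : Type*} (j : LaurentSeries K) {f : A → LaurentSeries K}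
    (hf : LinearIndependent K (fun p : A × ℕ => j ^ p.2 * f p.1)) :
    LinearIndependent L (fun p : A × ℕ =>
      (coeffMap (algebraMap K L) j) ^ p.2 * coeffMap (algebraMap K L) (f p.1)) := by
  have := ld_linearIndependent_coeffMap (L := L) hf
  simpa only [map_mul, map_pow] using this

theorem ld_coeffMap_injective : Function.Injective (coeffMap (algebraMap K L)) := by
  intro x y hxy
  ext k
  have := congrArg (fun z : LaurentSeries L => z.coeff k) hxy
  simpa using this

end LD2

end Fermat.Agent.S24x
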