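/-
S24 helper library, module C1 (part 1, helper92): convergent Laurent series.

`LConv f` : the formal Laurent series `f : LaurentSeries ℂ` converges absolutely at every point of
the punctured open unit disc; `lEval f q` is its value.  Evaluation is a ring homomorphism on the
subalgebra `convLaurent` of convergent series, compatible with `ModularCurve.qExpand`
(`q ↦ q ^ d`), and injective (identity theorem).
-/
import Mathlib
import Fermat.Prelude.Def_ModularCurve_X0

set_option autoImplicit false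

namespace Fermat.Agent.S24x

open HahnSeries

/-- the `n`-th term of the Laurent series `f` at the point `q` -/
noncomputable def lTerm (f : LaurentSeries ℂ) (q : ℂ) (n : ℤ) : ℂ := f.coeff n * q ^ n

/-- The formal Laurent series `f` converges absolutely on the punctured open unit disc. -/
def LConv (f : LaurentSeries ℂ) : Prop :=
  ∀ q : ℂ, q ≠ 0 → ‖q‖ < 1 → Summable (fun n : ℤ => ‖lTerm f q n‖)

/-- The value of the Laurent series `f` at `q` (junk value if the series diverges). -/
noncomputable def lEval (f : LaurentSeries ℂ) (q : ℂ) : ℂ := ∑' n : ℤ, lTerm f q n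

theorem LConv.summable {f : LaurentSeries ℂ} (hf : LConv f) {q : ℂ} (hq0 : q ≠ 0)
    (hq : ‖q‖ < 1) : Summable (lTerm f q) :=
  (hf q hq0 hq).of_norm

theorem LConv.hasSum {f : LaurentSeries ℂ} (hf : LConv f) {q : ℂ} (hq0 : q ≠ 0)
    (hq : ‖q‖ < 1) : HasSum (lTerm f q) (lEval f q) :=
  (hf.summable hq0 hq).hasSum

theorem lTerm_add (f g : LaurentSeries ℂ) (q : ℂ) (n : ℤ) :
    lTerm (f + g) q n = lTerm f q n + lTerm g q n := by
  simp [lTerm, add_mul]

theorem lTerm_zero (q : ℂ) (n : ℤ) : lTerm 0 q n = 0 := by simp [lTerm]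

theorem lTerm_neg (f : LaurentSeries ℂ) (q : ℂ) (n : ℤ) : lTerm (-f) q n = -lTerm f q n := by
  simp [lTerm]

theorem lTerm_single (k : ℤ) (c : ℂ) (q : ℂ) (n : ℤ) :
    lTerm (HahnSeries.single k c) q n = if n = k then c * q ^ k else 0 := by
  unfold lTerm
  split_ifs with h
  · subst h; simp
  · rw [HahnSeries.coeff_single_of_ne h, zero_mul]

theorem lconv_zero : LConv 0 := fun q _ _ => by
  simp [lTerm_zero, summable_zero]

theorem LConv.add {f g : LaurentSeries ℂ} (hf : LConv f) (hg : LConv g) : LConv (f + g) :=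
  fun q hq0 hq => ((hf q hq0 hq).add (hg q hq0 hq)).of_nonneg_of_le (fun _ => norm_nonneg _)
    (fun n => by rw [lTerm_add]; exact norm_add_le _ _)

theorem LConv.neg {f : LaurentSeries ℂ} (hf : LConv f) : LConv (-f) :=
  fun q hq0 hq => by simpa [lTerm_neg] using hf q hq0 hq

theorem lconv_single (k : ℤ) (c : ℂ) : LConv (HahnSeries.single k c) := fun q _ _ => by
  refine summable_of_ne_finset_zero (s := {k}) fun n hn => ?_
  rw [lTerm_single, if_neg (by simpa using hn), norm_zero]

theorem lEval_zero (q : ℂ) : lEval 0 q = 0 := by simp [lEval, lTerm_zero]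

theorem lEval_add {f g : LaurentSeries ℂ} (hf : LConv f) (hg : LConv g) {q : ℂ} (hq0 : q ≠ 0)
    (hq : ‖q‖ < 1) : lEval (f + g) q = lEval f q + lEval g q := by
  unfold lEval
  rw [← (hf.summable hq0 hq).tsum_add (hg.summable hq0 hq)]
  exact tsum_congr fun n => lTerm_add f g q n

theorem lEval_neg (f : LaurentSeries ℂ) (q : ℂ) : lEval (-f) q = -lEval f q := by
  unfold lEval
  rw [← tsum_neg]
  exact tsum_congr fun n => lTerm_neg f q n

theorem lEval_single (k : ℤ) (c : ℂ) (q : ℂ) : lEval (HahnSeries.single k c) q = c * q ^ k := by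
  unfold lEval
  rw [tsum_eq_single k]
  · rw [lTerm_single, if_pos rfl]
  · intro n hn
    rw [lTerm_single, if_neg hn]

/-! ### products -/

theorem lTerm_mul (f g : LaurentSeries ℂ) {q : ℂ} (hq0 : q ≠ 0) (n : ℤ) :
    lTerm (f * g) q n = ∑' i : ℤ, lTerm f q i * lTerm g q (n - i) := by
  classical
  have hterm : ∀ i : ℤ, lTerm f q i * lTerm g q (n - i)
      = f.coeff i * g.coeff (n - i) * q ^ n := by
    intro i
    unfold lTerm
    have : q ^ n = q ^ i * q ^ (n - i) := by
      rw [← zpow_add₀ hq0]; congr 1; ring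
    rw [this]; ring
  simp_rw [hterm]
  rw [tsum_mul_right]
  unfold lTerm
  congr 1
  rw [HahnSeries.coeff_mul]
  set A := Finset.antidiagonal f.isPWO_support g.isPWO_support n with hA
  have hzero : ∀ i ∉ A.image Prod.fst, f.coeff i * g.coeff (n - i) = 0 := by
    intro i hi
    by_contra hne
    apply hi
    rw [Finset.mem_image]
    refine ⟨(i, n - i), ?_, rfl⟩
    rw [hA, Finset.mem_antidiagonal]
    refine ⟨?_, ?_, by ring⟩
    · exact fun h => hne (by rw [h, zero_mul])
    · exact fun h => hne (by rw [h, mul_zero])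
  rw [tsum_eq_sum hzero, Finset.sum_image]
  · refine Finset.sum_congr rfl fun ij hij => ?_
    rw [hA, Finset.mem_antidiagonal] at hij
    have : n - ij.1 = ij.2 := by rw [← hij.2.2]; ring
    rw [this]
  · intro x hx y hy hxy
    rw [Finset.mem_coe, hA, Finset.mem_antidiagonal] at hx hy
    refine Prod.ext hxy ?_
    have h1 := hx.2.2
    have h2 := hy.2.2
    rw [hxy] at h1
    linarith

/-- summability of the double family -/
theorem LConv.summable_prod {f g : LaurentSeries ℂ} (hf : LConv f) (hg : LConv g) {q : ℂ}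
    (hq0 : q ≠ 0) (hq : ‖q‖ < 1) :
    Summable (fun p : ℤ × ℤ => ‖lTerm f q p.2 * lTerm g q (p.1 - p.2)‖) := by
  have h1 : Summable (fun p : ℤ × ℤ => ‖lTerm f q p.1 * lTerm g q p.2‖) :=
    Summable.mul_norm (hf q hq0 hq) (hg q hq0 hq)
  let e : ℤ × ℤ ≃ ℤ × ℤ :=
    { toFun := fun p => (p.2, p.1 - p.2)
      invFun := fun p => (p.1 + p.2, p.1)
      left_inv := fun p => by ext <;> simp
      right_inv := fun p => by ext <;> simp }
  exact (e.summable_iff (f := fun p : ℤ × ℤ => ‖lTerm f q p.1 * lTerm g q p.2‖)).mpr h1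

theorem LConv.mul {f g : LaurentSeries ℂ} (hf : LConv f) (hg : LConv g) : LConv (f * g) := by
  intro q hq0 hq
  have h2 := hf.summable_prod hg hq0 hq
  have h3 := h2.prod
  refine h3.of_nonneg_of_le (fun _ => norm_nonneg _) (fun n => ?_)
  rw [lTerm_mul f g hq0]
  have hs : Summable (fun i : ℤ => ‖lTerm f q i * lTerm g q (n - i)‖) :=
    h2.prod_factor n
  exact norm_tsum_le_tsum_norm hs

theorem lEval_mul {f g : LaurentSeries ℂ} (hf : LConv f) (hg : LConv g) {q : ℂ} (hq0 : q ≠ 0)
    (hq : ‖q‖ < 1) : lEval (f * g) q = lEval f q * lEval g q := by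
  have h1 : lEval f q * lEval g q = ∑' p : ℤ × ℤ, lTerm f q p.1 * lTerm g q p.2 :=
    tsum_mul_tsum_of_summable_norm (hf q hq0 hq) (hg q hq0 hq)
  let e : ℤ × ℤ ≃ ℤ × ℤ :=
    { toFun := fun p => (p.2, p.1 - p.2)
      invFun := fun p => (p.1 + p.2, p.1)
      left_inv := fun p => by ext <;> simp
      right_inv := fun p => by ext <;> simp }
  have h2 : ∑' p : ℤ × ℤ, lTerm f q p.1 * lTerm g q p.2
      = ∑' p : ℤ × ℤ, lTerm f q p.2 * lTerm g q (p.1 - p.2) :=
    (e.tsum_eq (fun p : ℤ × ℤ => lTerm f q p.1 * lTerm g q p.2)).symm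
  have h3 : Summable (fun p : ℤ × ℤ => lTerm f q p.2 * lTerm g q (p.1 - p.2)) :=
    (hf.summable_prod hg hq0 hq).of_norm
  rw [h1, h2, h3.tsum_prod]
  unfold lEval
  exact tsum_congr fun n => lTerm_mul f g hq0 n


/-! ### constants, the subalgebra of convergent series, evaluation as an algebra homomorphism -/

theorem lconv_C (c : ℂ) : LConv (HahnSeries.C c) := by
  rw [HahnSeries.C_apply]; exact lconv_single 0 c

theorem lEval_C (c : ℂ) (q : ℂ) : lEval (HahnSeries.C c) q = c := by
  rw [HahnSeries.C_apply, lEval_single, zpow_zero, mul_one]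

theorem lconv_one : LConv 1 := by
  rw [← HahnSeries.C_one]; exact lconv_C 1

theorem lEval_one (q : ℂ) : lEval 1 q = 1 := by
  rw [← HahnSeries.C_one]; exact lEval_C 1 q

/-- The subalgebra of Laurent series converging on the punctured open unit disc. -/
noncomputable def convLaurent : Subalgebra ℂ (LaurentSeries ℂ) where
  carrier := {f | LConv f}
  mul_mem' := fun hf hg => LConv.mul hf hg
  add_mem' := fun hf hg => LConv.add hf hg
  algebraMap_mem' c := by
    show LConv (algebraMap ℂ (LaurentSeries ℂ) c)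
    rw [LaurentSeries.algebraMap_apply]
    exact lconv_C c

theorem mem_convLaurent {f : LaurentSeries ℂ} : f ∈ convLaurent ↔ LConv f := Iff.rfl

/-- Evaluation of convergent Laurent series at a point of the punctured open unit disc. -/
noncomputable def lEvalHom (q : ℂ) (hq0 : q ≠ 0) (hq : ‖q‖ < 1) : convLaurent →ₐ[ℂ] ℂ where
  toFun f := lEval (f : LaurentSeries ℂ) q
  map_one' := lEval_one q
  map_mul' f g := lEval_mul f.2 g.2 hq0 hq
  map_zero' := lEval_zero q
  map_add' f g := lEval_add f.2 g.2 hq0 hq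
  commutes' c := by
    show lEval (algebraMap ℂ (LaurentSeries ℂ) c) q = c
    rw [LaurentSeries.algebraMap_apply]
    exact lEval_C c q

@[simp] theorem lEvalHom_apply (q : ℂ) (hq0 : q ≠ 0) (hq : ‖q‖ < 1) (f : convLaurent) :
    lEvalHom q hq0 hq f = lEval (f : LaurentSeries ℂ) q := rfl

theorem LConv.pow {f : LaurentSeries ℂ} (hf : LConv f) (n : ℕ) : LConv (f ^ n) :=
  convLaurent.pow_mem hf n

theorem lEval_pow {f : LaurentSeries ℂ} (hf : LConv f) (n : ℕ) {q : ℂ} (hq0 : q ≠ 0)
    (hq : ‖q‖ < 1) : lEval (f ^ n) q = lEval f q ^ n :=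
  map_pow (lEvalHom q hq0 hq) ⟨f, hf⟩ n

theorem LConv.sub {f g : LaurentSeries ℂ} (hf : LConv f) (hg : LConv g) : LConv (f - g) :=
  convLaurent.sub_mem hf hg

theorem lEval_sub {f g : LaurentSeries ℂ} (hf : LConv f) (hg : LConv g) {q : ℂ} (hq0 : q ≠ 0)
    (hq : ‖q‖ < 1) : lEval (f - g) q = lEval f q - lEval g q :=
  map_sub (lEvalHom q hq0 hq) ⟨f, hf⟩ ⟨g, hg⟩

theorem LConv.smul {f : LaurentSeries ℂ} (hf : LConv f) (c : ℂ) : LConv (c • f) := by
  rw [← HahnSeries.C_mul_eq_smul]; exact (lconv_C c).mul hf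

theorem lEval_smul {f : LaurentSeries ℂ} (hf : LConv f) (c : ℂ) {q : ℂ} (hq0 : q ≠ 0)
    (hq : ‖q‖ < 1) : lEval (c • f) q = c * lEval f q := by
  rw [← HahnSeries.C_mul_eq_smul, lEval_mul (lconv_C c) hf hq0 hq, lEval_C]

theorem lconv_sum {ι : Type*} (s : Finset ι) (f : ι → LaurentSeries ℂ) (hf : ∀ i ∈ s, LConv (f i)) :
    LConv (∑ i ∈ s, f i) :=
  convLaurent.sum_mem hf

theorem lEval_sum {ι : Type*} (s : Finset ι) (f : ι → LaurentSeries ℂ) (hf : ∀ i ∈ s, LConv (f i))
    {q : ℂ} (hq0 : q ≠ 0) (hq : ‖q‖ < 1) :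
    lEval (∑ i ∈ s, f i) q = ∑ i ∈ s, lEval (f i) q := by
  classical
  induction s using Finset.induction_on with
  | empty => simp [lEval_zero]
  | insert a s ha ih =>
    rw [Finset.sum_insert ha, Finset.sum_insert ha,
      lEval_add (hf a (Finset.mem_insert_self a s))
        (lconv_sum s f fun i hi => hf i (Finset.mem_insert_of_mem hi)) hq0 hq,
      ih fun i hi => hf i (Finset.mem_insert_of_mem hi)]


/-! ### substitution `q ↦ q ^ d` -/

section QExpand

open ModularCurve

variable (d : ℕ) [NeZero d]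

theorem lTerm_qExpand_mul (f : LaurentSeries ℂ) (q : ℂ) (k : ℤ) :
    lTerm (qExpand ℂ d f) q ((d : ℤ) * k) = lTerm f (q ^ d) k := by
  unfold lTerm
  rw [qExpand_coeff_mul, zpow_mul, zpow_natCast]

theorem lTerm_qExpand_of_notMem_range (f : LaurentSeries ℂ) (q : ℂ) {n : ℤ}
    (hn : n ∉ Set.range (fun k : ℤ => (d : ℤ) * k)) : lTerm (qExpand ℂ d f) q n = 0 := by
  unfold lTerm
  rw [qExpand_coeff_of_not_dvd, zero_mul]
  rintro ⟨k, rfl⟩
  exact hn ⟨k, rfl⟩

theorem mul_left_injective_natCast : Function.Injective (fun k : ℤ => (d : ℤ) * k) :=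
  mul_right_injective₀ (by exact_mod_cast NeZero.ne d)

theorem LConv.qExpand {f : LaurentSeries ℂ} (hf : LConv f) : LConv (qExpand ℂ d f) := by
  intro q hq0 hq
  have hq0' : q ^ d ≠ 0 := pow_ne_zero _ hq0
  have hq' : ‖q ^ d‖ < 1 := by
    rw [norm_pow]; exact pow_lt_one₀ (norm_nonneg _) hq (NeZero.ne d)
  have h := hf (q ^ d) hq0' hq'
  rw [← (mul_left_injective_natCast d).summable_iff]
  · refine h.congr fun k => ?_
    simp only [Function.comp_apply]
    rw [lTerm_qExpand_mul]
  · intro n hn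
    rw [lTerm_qExpand_of_notMem_range d f q hn, norm_zero]

theorem lEval_qExpand (f : LaurentSeries ℂ) (q : ℂ) :
    lEval (qExpand ℂ d f) q = lEval f (q ^ d) := by
  unfold lEval
  rw [← (mul_left_injective_natCast d).tsum_eq]
  · exact tsum_congr fun k => lTerm_qExpand_mul d f q k
  · intro n hn
    by_contra h
    exact hn (lTerm_qExpand_of_notMem_range d f q h)

end QExpand

/-! ### reduction to power series, analyticity, identity theorem -/

/-- the sum of a power series at `q` -/
noncomputable def psSum (p : PowerSeries ℂ) (q : ℂ) : ℂ := ∑' n : ℕ, PowerSeries.coeff n p * q ^ n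

/-- the power series converges absolutely on the open unit disc -/
def PSConv (p : PowerSeries ℂ) : Prop :=
  ∀ q : ℂ, ‖q‖ < 1 → Summable (fun n : ℕ => ‖PowerSeries.coeff n p * q ^ n‖)

theorem lTerm_order_add (f : LaurentSeries ℂ) {q : ℂ} (hq0 : q ≠ 0) (n : ℕ) :
    lTerm f q (f.order + n) = q ^ f.order * (PowerSeries.coeff n f.powerSeriesPart * q ^ n) := by
  unfold lTerm
  rw [LaurentSeries.powerSeriesPart_coeff, zpow_add₀ hq0, zpow_natCast]
  ring

theorem lTerm_of_notMem_range (f : LaurentSeries ℂ) (q : ℂ) {k : ℤ}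
    (hk : k ∉ Set.range (fun n : ℕ => f.order + (n : ℤ))) : lTerm f q k = 0 := by
  unfold lTerm
  rw [HahnSeries.coeff_eq_zero_of_lt_order, zero_mul]
  by_contra hlt
  rw [not_lt] at hlt
  exact hk ⟨(k - f.order).toNat, by
    show f.order + ((k - f.order).toNat : ℤ) = k
    rw [Int.toNat_of_nonneg (by linarith)]; ring⟩

theorem order_add_injective (f : LaurentSeries ℂ) :
    Function.Injective (fun n : ℕ => f.order + (n : ℤ)) := fun a b h => by
  simpa using h

theorem lEval_eq_order_mul (f : LaurentSeries ℂ) {q : ℂ} (hq0 : q ≠ 0) :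
    lEval f q = q ^ f.order * psSum f.powerSeriesPart q := by
  unfold lEval psSum
  rw [← (order_add_injective f).tsum_eq, ← tsum_mul_left]
  · exact tsum_congr fun n => lTerm_order_add f hq0 n
  · intro k hk
    by_contra h
    exact hk (lTerm_of_notMem_range f q h)

theorem lconv_iff_psConv (f : LaurentSeries ℂ) : LConv f ↔ PSConv f.powerSeriesPart := by
  constructor
  · intro hf q hq
    rcases eq_or_ne q 0 with rfl | hq0
    · refine summable_of_ne_finset_zero (s := {0}) fun n hn => ?_
      have hn0 : n ≠ 0 := by simpa using hn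
      rw [zero_pow hn0, mul_zero, norm_zero]
    · have h := hf q hq0 hq
      rw [← (order_add_injective f).summable_iff] at h
      · have h2 : Summable (fun n : ℕ =>
            ‖q ^ f.order‖ * ‖PowerSeries.coeff n f.powerSeriesPart * q ^ n‖) := by
          refine h.congr fun n => ?_
          simp only [Function.comp_apply]
          rw [lTerm_order_add f hq0, norm_mul]
        have hne : ‖q ^ f.order‖ ≠ 0 := norm_ne_zero_iff.mpr (zpow_ne_zero _ hq0)
        exact (summable_mul_left_iff hne).mp h2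
      · intro k hk
        rw [lTerm_of_notMem_range f q hk, norm_zero]
  · intro hp q hq0 hq
    have h := hp q hq
    rw [← (order_add_injective f).summable_iff]
    · have h2 := h.mul_left ‖q ^ f.order‖
      refine h2.congr fun n => ?_
      simp only [Function.comp_apply]
      rw [lTerm_order_add f hq0, norm_mul (q ^ f.order)]
    · intro k hk
      rw [lTerm_of_notMem_range f q hk, norm_zero]

theorem PSConv.one_le_radius {p : PowerSeries ℂ} (hp : PSConv p) :
    1 ≤ (FormalMultilinearSeries.ofScalars ℂ (fun n => PowerSeries.coeff n p)).radius := by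
  refine ENNReal.le_of_forall_nnreal_lt fun r hr => ?_
  have hr1 : (r : ℝ) < 1 := by exact_mod_cast hr
  refine FormalMultilinearSeries.le_radius_of_summable_norm _ ?_
  have h := hp (r : ℂ) (by simpa using hr1)
  refine h.congr fun n => ?_
  rw [FormalMultilinearSeries.ofScalars_norm, norm_mul, norm_pow]
  simp

theorem PSConv.hasFPowerSeriesOnBall {p : PowerSeries ℂ} (hp : PSConv p) :
    HasFPowerSeriesOnBall (psSum p)
      (FormalMultilinearSeries.ofScalars ℂ (fun n => PowerSeries.coeff n p)) 0 1 := by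
  have h1 := hp.one_le_radius
  have h0 : 0 < (FormalMultilinearSeries.ofScalars ℂ (fun n => PowerSeries.coeff n p)).radius :=
    lt_of_lt_of_le one_pos h1
  have h := (FormalMultilinearSeries.hasFPowerSeriesOnBall _ h0).mono one_pos h1
  have heq : (FormalMultilinearSeries.ofScalars ℂ (fun n => PowerSeries.coeff n p)).sum
      = psSum p := by
    funext q
    show FormalMultilinearSeries.ofScalarsSum (fun n => PowerSeries.coeff n p) q = psSum p q
    rw [FormalMultilinearSeries.ofScalars_sum_eq]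
    unfold psSum
    exact tsum_congr fun n => by simp
  rwa [heq] at h

theorem psSum_zero_apply (p : PowerSeries ℂ) : psSum p 0 = PowerSeries.coeff 0 p := by
  unfold psSum
  rw [tsum_eq_single 0]
  · simp
  · intro n hn
    rw [zero_pow hn, mul_zero]

theorem PSConv.analyticOnNhd {p : PowerSeries ℂ} (hp : PSConv p) :
    AnalyticOnNhd ℂ (psSum p) (Metric.ball 0 1) := by
  have h := hp.hasFPowerSeriesOnBall.analyticOnNhd
  rwa [← ENNReal.coe_one, Metric.eball_coe, NNReal.coe_one] at h

theorem PSConv.continuousAt_zero {p : PowerSeries ℂ} (hp : PSConv p) :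
    ContinuousAt (psSum p) 0 :=
  hp.hasFPowerSeriesOnBall.hasFPowerSeriesAt.continuousAt


/-! ### analyticity of `lEval`, identity theorem -/

open Filter Topology

theorem LConv.differentiableAt {f : LaurentSeries ℂ} (hf : LConv f) {q : ℂ} (hq0 : q ≠ 0)
    (hq : ‖q‖ < 1) : DifferentiableAt ℂ (lEval f) q := by
  have hp : PSConv f.powerSeriesPart := (lconv_iff_psConv f).mp hf
  have h1 : DifferentiableAt ℂ (psSum f.powerSeriesPart) q :=
    (hp.analyticOnNhd q (by simpa using hq)).differentiableAt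
  have h2 : DifferentiableAt ℂ (fun q : ℂ => q ^ f.order) q :=
    differentiableAt_zpow.mpr (Or.inl hq0)
  have h3 : DifferentiableAt ℂ (fun q : ℂ => q ^ f.order * psSum f.powerSeriesPart q) q :=
    h2.mul h1
  refine h3.congr_of_eventuallyEq ?_
  filter_upwards [isOpen_ne.mem_nhds hq0] with x hx
  exact lEval_eq_order_mul f hx

theorem LConv.differentiableOn {f : LaurentSeries ℂ} (hf : LConv f) :
    DifferentiableOn ℂ (lEval f) {q : ℂ | q ≠ 0 ∧ ‖q‖ < 1} :=
  fun _ hq => (hf.differentiableAt hq.1 hq.2).differentiableWithinAt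

theorem coeff_zero_powerSeriesPart_ne_zero {f : LaurentSeries ℂ} (hf0 : f ≠ 0) :
    PowerSeries.coeff 0 f.powerSeriesPart ≠ 0 := by
  rw [LaurentSeries.powerSeriesPart_coeff, Nat.cast_zero, add_zero]
  exact fun h => hf0 (HahnSeries.coeff_order_eq_zero.mp h)

/-- `lEval f q / q ^ order f` tends to the leading coefficient as `q → 0`. -/
theorem LConv.tendsto_div_zpow_order {f : LaurentSeries ℂ} (hf : LConv f) :
    Tendsto (fun q : ℂ => lEval f q / q ^ f.order) (𝓝[≠] 0) (𝓝 (f.coeff f.order)) := by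
  have hp : PSConv f.powerSeriesPart := (lconv_iff_psConv f).mp hf
  have h1 : Tendsto (psSum f.powerSeriesPart) (𝓝[≠] 0) (𝓝 (f.coeff f.order)) := by
    have := hp.continuousAt_zero.tendsto
    rw [psSum_zero_apply, LaurentSeries.powerSeriesPart_coeff, Nat.cast_zero, add_zero] at this
    exact this.mono_left nhdsWithin_le_nhds
  refine h1.congr' ?_
  filter_upwards [self_mem_nhdsWithin] with q hq
  have hq0 : q ≠ 0 := hq
  rw [lEval_eq_order_mul f hq0, mul_div_cancel_left₀ _ (zpow_ne_zero _ hq0)]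

/-- A nonzero convergent Laurent series has no zeros in a punctured neighbourhood of `0`. -/
theorem LConv.eventually_ne_zero {f : LaurentSeries ℂ} (hf : LConv f) (hf0 : f ≠ 0) :
    ∀ᶠ q in 𝓝[≠] (0 : ℂ), lEval f q ≠ 0 := by
  have h1 := hf.tendsto_div_zpow_order
  have h2 : f.coeff f.order ≠ 0 := fun h => hf0 (HahnSeries.coeff_order_eq_zero.mp h)
  have h3 := h1.eventually_ne h2
  filter_upwards [h3] with q hq hq'
  rw [hq', zero_div] at hq
  exact hq rfl

/-- **Identity theorem**: a convergent Laurent series vanishing frequently near `0` is zero. -/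
theorem LConv.eq_zero_of_frequently {f : LaurentSeries ℂ} (hf : LConv f)
    (h : ∃ᶠ q in 𝓝[≠] (0 : ℂ), lEval f q = 0) : f = 0 := by
  by_contra hf0
  exact h (hf.eventually_ne_zero hf0)

theorem LConv.eq_zero_of_forall {f : LaurentSeries ℂ} (hf : LConv f)
    (h : ∀ q : ℂ, q ≠ 0 → ‖q‖ < 1 → lEval f q = 0) : f = 0 := by
  refine hf.eq_zero_of_frequently (Eventually.frequently ?_)
  have h1 : ∀ᶠ q in 𝓝 (0 : ℂ), ‖q‖ < 1 := by
    have : Metric.ball (0 : ℂ) 1 ∈ 𝓝 (0 : ℂ) := Metric.ball_mem_nhds 0 one_pos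
    filter_upwards [this] with q hq
    simpa using hq
  filter_upwards [self_mem_nhdsWithin, h1.filter_mono nhdsWithin_le_nhds] with q hq0 hq
  exact h q hq0 hq

/-! ### the upper half plane -/

open UpperHalfPlane
open scoped Manifold

/-- `q = e^{2πiτ}` -/
noncomputable def qOf (τ : ℍ) : ℂ := Function.Periodic.qParam 1 (τ : ℂ)

theorem qOf_ne_zero (τ : ℍ) : qOf τ ≠ 0 := Function.Periodic.qParam_ne_zero _

theorem norm_qOf_lt_one (τ : ℍ) : ‖qOf τ‖ < 1 :=
  Function.Periodic.norm_qParam_lt_one one_pos τ.im_pos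

theorem exists_qOf_eq {q : ℂ} (hq0 : q ≠ 0) (hq : ‖q‖ < 1) : ∃ τ : ℍ, qOf τ = q := by
  have him : 0 < (Function.Periodic.invQParam 1 q).im := by
    rw [Function.Periodic.im_invQParam]
    have h1 : Real.log ‖q‖ < 0 := Real.log_neg (norm_pos_iff.mpr hq0) hq
    have h2 : (0 : ℝ) < 2 * Real.pi := by positivity
    have : -(1 : ℝ) / (2 * Real.pi) < 0 := div_neg_of_neg_of_pos (by norm_num) h2
    exact mul_pos_of_neg_of_neg this h1
  exact ⟨⟨_, him⟩, Function.Periodic.qParam_right_inv one_ne_zero hq0⟩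

theorem LConv.eq_zero_of_forall_uhp {f : LaurentSeries ℂ} (hf : LConv f)
    (h : ∀ τ : ℍ, lEval f (qOf τ) = 0) : f = 0 := by
  refine hf.eq_zero_of_forall fun q hq0 hq => ?_
  obtain ⟨τ, rfl⟩ := exists_qOf_eq hq0 hq
  exact h τ

theorem LConv.mdifferentiable {f : LaurentSeries ℂ} (hf : LConv f) :
    MDiff (fun τ : ℍ => lEval f (qOf τ)) := by
  rw [UpperHalfPlane.mdifferentiable_iff]
  intro z hz
  have hz' : 0 < z.im := hz
  have h1 : DifferentiableAt ℂ (lEval f) (Function.Periodic.qParam 1 z) :=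
    hf.differentiableAt (Function.Periodic.qParam_ne_zero z)
      (Function.Periodic.norm_qParam_lt_one one_pos hz')
  have h2 : DifferentiableAt ℂ (Function.Periodic.qParam 1) z :=
    (Function.Periodic.differentiable_qParam (h := 1)) z
  have h3 : DifferentiableAt ℂ (fun w : ℂ => lEval f (Function.Periodic.qParam 1 w)) z :=
    h1.comp z h2
  refine (h3.congr_of_eventuallyEq ?_).differentiableWithinAt
  filter_upwards [isOpen_upperHalfPlaneSet.mem_nhds hz] with w hw
  simp only [Function.comp_apply, qOf]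
  rw [UpperHalfPlane.ofComplex_apply_of_im_pos hw]

/-- From (conditional) summability at every point of `ℍ` to absolute convergence on the disc. -/
theorem psConv_of_summable (p : PowerSeries ℂ)
    (h : ∀ τ : ℍ, Summable (fun n : ℕ => PowerSeries.coeff n p * qOf τ ^ n)) : PSConv p := by
  set P := FormalMultilinearSeries.ofScalars ℂ (fun n => PowerSeries.coeff n p) with hP
  have hrad : 1 ≤ P.radius := by
    refine ENNReal.le_of_forall_nnreal_lt fun r hr => ?_
    have hr1 : (r : ℝ) < 1 := by exact_mod_cast hr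
    rcases eq_or_ne r 0 with rfl | hr0
    · simp
    have hr0' : (0 : ℝ) < r := lt_of_le_of_ne r.2 (fun h => hr0 (NNReal.coe_eq_zero.mp h.symm))
    obtain ⟨τ, hτ⟩ := exists_qOf_eq (q := (r : ℂ)) (by exact_mod_cast hr0'.ne')
      (by simpa using hr1)
    have h1 := (h τ).tendsto_atTop_zero
    rw [hτ] at h1
    have h2 := h1.norm
    rw [norm_zero] at h2
    refine FormalMultilinearSeries.le_radius_of_tendsto P (l := 0) (h2.congr fun n => ?_)
    rw [hP, FormalMultilinearSeries.ofScalars_norm, norm_mul, norm_pow]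
    simp
  intro q hq
  have hq' : (‖q‖₊ : ENNReal) < P.radius :=
    lt_of_lt_of_le (by exact_mod_cast (show ‖q‖₊ < 1 from hq)) hrad
  have h3 := P.summable_norm_mul_pow hq'
  refine h3.congr fun n => ?_
  rw [hP, FormalMultilinearSeries.ofScalars_norm, norm_mul, norm_pow]
  simp

end Fermat.Agent.S24x
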