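/-
S24 helper library: shared analytic definitions.
`Hol` = ring of holomorphic functions on the upper half plane, `Mer` = its fraction field,
the `j`-function, the action of `SL(2,ℤ)` by precomposition.
-/
import Mathlib
import Fermat.Agent.S24x.JFun

set_option autoImplicit false

namespace Fermat.Agent.S24x

open UpperHalfPlane
open scoped MatrixGroups Manifold ModularForm

/-- Holomorphic functions on the upper half plane, as a subring of `ℍ → ℂ`. -/
def Hol : Subring (ℍ → ℂ) where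
  carrier := {f | MDiff f}
  mul_mem' := fun hf hg => MDifferentiable.mul hf hg
  one_mem' := mdifferentiable_const
  add_mem' := fun hf hg => MDifferentiable.add hf hg
  zero_mem' := mdifferentiable_const
  neg_mem' := fun hf => MDifferentiable.neg hf

theorem mem_Hol_iff {f : ℍ → ℂ} : f ∈ Hol ↔ MDiff f := Iff.rfl

theorem Hol.mdiff (f : Hol) : MDiff (f : ℍ → ℂ) := f.2

theorem Hol.analyticOnNhd (f : Hol) :
    AnalyticOnNhd ℂ ((f : ℍ → ℂ) ∘ ofComplex) {z : ℂ | 0 < z.im} :=
  (UpperHalfPlane.mdifferentiable_iff.mp f.2).analyticOnNhd isOpen_upperHalfPlaneSet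

theorem isPreconnected_upperHalfPlaneSet : IsPreconnected {z : ℂ | 0 < z.im} :=
  (convex_halfSpace_im_gt 0).isPreconnected

instance : NoZeroDivisors Hol := by
  refine ⟨fun {f g} hfg => ?_⟩
  have h := AnalyticOnNhd.eq_zero_or_eq_zero_of_mul_eq_zero (Hol.analyticOnNhd f)
    (Hol.analyticOnNhd g) (fun z hz => by
      have := congrFun (congrArg Subtype.val hfg) (ofComplex z)
      simpa using this) isPreconnected_upperHalfPlaneSet
  rcases h with h | h
  · left
    ext τ
    have := h (τ : ℂ) τ.im_pos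
    simpa using this
  · right
    ext τ
    have := h (τ : ℂ) τ.im_pos
    simpa using this

instance : IsDomain Hol := NoZeroDivisors.to_isDomain _

/-- The field of meromorphic functions on `ℍ` (fraction field of `Hol`). -/
abbrev Mer : Type := FractionRing Hol

/-- constant functions -/
def constHol : ℂ →+* Hol where
  toFun c := ⟨fun _ => c, mdifferentiable_const⟩
  map_one' := rfl
  map_mul' _ _ := rfl
  map_zero' := rfl
  map_add' _ _ := rfl

instance : Algebra ℂ Hol := constHol.toAlgebra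

theorem algebraMap_Hol_apply (c : ℂ) (τ : ℍ) : (algebraMap ℂ Hol c : ℍ → ℂ) τ = c := rfl

/- `jFun` (`= E₄³ / Δ`), `jFun_mdiff`, `jFun_smul`, `jFun_surjective` come from `JFun.lean`. -/

/-- `j` as an element of `Hol`. -/
noncomputable def jHol : Hol := ⟨jFun, jFun_mdiff⟩

/-- `j` as an element of `Mer`. -/
noncomputable def jMer : Mer := algebraMap Hol Mer jHol

/-- precomposition with `g ∈ GL(2,ℝ)`, `det g > 0`, as a ring endomorphism of `Hol` -/
noncomputable def compGL (g : GL (Fin 2) ℝ) (hg : 0 < g.det.val) : Hol →+* Hol where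
  toFun f := ⟨fun τ => (f : ℍ → ℂ) (g • τ), f.2.comp (mdifferentiable_smul hg)⟩
  map_one' := rfl
  map_mul' _ _ := rfl
  map_zero' := rfl
  map_add' _ _ := rfl

@[simp] theorem compGL_apply (g : GL (Fin 2) ℝ) (hg : 0 < g.det.val) (f : Hol) (τ : ℍ) :
    (compGL g hg f : ℍ → ℂ) τ = (f : ℍ → ℂ) (g • τ) := rfl

/-- The left action of `SL(2,ℤ)` on `Hol`: `(γ • f) τ = f (γ⁻¹ • τ)`. -/
noncomputable instance : MulSemiringAction SL(2, ℤ) Hol where
  smul γ f := ⟨fun τ => (f : ℍ → ℂ) (γ⁻¹ • τ), by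
    have h : MDiff (fun τ : ℍ => γ⁻¹ • τ) := by
      have := mdifferentiable_smul (g := (Matrix.SpecialLinearGroup.mapGL ℝ γ⁻¹ : GL (Fin 2) ℝ))
        (by simp)
      exact this
    exact f.2.comp h⟩
  one_smul f := by
    apply Subtype.ext; funext τ
    show (f : ℍ → ℂ) ((1 : SL(2, ℤ))⁻¹ • τ) = (f : ℍ → ℂ) τ
    simp
  mul_smul γ₁ γ₂ f := by
    apply Subtype.ext; funext τ
    show (f : ℍ → ℂ) ((γ₁ * γ₂)⁻¹ • τ) = (f : ℍ → ℂ) (γ₂⁻¹ • γ₁⁻¹ • τ)
    rw [mul_inv_rev, mul_smul]
  smul_zero _ := rfl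
  smul_add _ _ _ := rfl
  smul_one _ := rfl
  smul_mul _ _ _ := rfl

theorem smul_Hol_apply (γ : SL(2, ℤ)) (f : Hol) (τ : ℍ) :
    ((γ • f : Hol) : ℍ → ℂ) τ = (f : ℍ → ℂ) (γ⁻¹ • τ) := rfl

/-- The induced action on the fraction field. -/
noncomputable instance : MulSemiringAction SL(2, ℤ) Mer :=
  IsFractionRing.mulSemiringAction SL(2, ℤ) Hol Mer

theorem smul_algebraMap_Mer (γ : SL(2, ℤ)) (f : Hol) :
    γ • (algebraMap Hol Mer f) = algebraMap Hol Mer (γ • f) := by
  show (IsFractionRing.ringEquivOfRingEquiv (MulSemiringAction.toRingEquiv SL(2, ℤ) Hol γ))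
    (algebraMap Hol Mer f) = _
  rw [IsFractionRing.ringEquivOfRingEquiv_algebraMap]
  rfl

end Fermat.Agent.S24x
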