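import Mathlib
import Fermat.Agent.S24x.JFun
import Fermat.Agent.S24x.DeltaQExp
import Fermat.Agent.S24x.E4QExp

/-!
# S24 project, module B2: the formal series `ModularCurve.jq` is the `q`-expansion of `jFun`

Main result: `hasSum_jq : HasSum (fun n : ℕ ↦ (jq.coeff (n - 1) : ℂ) * q ^ (n - 1)) (jFun z)`
with `q = exp (2 π i z)`.
-/

set_option autoImplicit false

noncomputable section

namespace Fermat.Agent.S24x

open UpperHalfPlane ModularForm ModularCurve Function Filter Topology EisensteinSeries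
open scoped Manifold

local notation "𝕢" => Periodic.qParam

/-- The function `z ↦ q(z)` on the upper half plane. -/
def jqa_Q (z : ℍ) : ℂ := 𝕢 1 z

/-- The function `q · j` on the upper half plane. -/
def jqa_G (z : ℍ) : ℂ := 𝕢 1 z * jFun z

lemma jqa_G_mul_discriminant (z : ℍ) :
    jqa_G z * ModularForm.discriminant z = jqa_Q z * E₄ z ^ 3 := by
  rw [jqa_G, jqa_Q, mul_assoc, jFun_mul_discriminant]

lemma jqa_tprod_ne_zero (z : ℍ) : ∏' n : ℕ, (1 - eta_q n z) ^ 24 ≠ 0 := by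
  intro h
  apply discriminant_ne_zero z
  rw [discriminant_eq_q_prod, h, mul_zero]

lemma jqa_Q_ne_zero (z : ℍ) : jqa_Q z ≠ 0 := Periodic.qParam_ne_zero _

lemma jqa_G_eq_div (z : ℍ) : jqa_G z = E₄ z ^ 3 / ∏' n : ℕ, (1 - eta_q n z) ^ 24 := by
  have hq : 𝕢 1 (z : ℂ) ≠ 0 := Periodic.qParam_ne_zero _
  rw [jqa_G, jFun, discriminant_eq_q_prod]
  field_simp [jqa_tprod_ne_zero z]

lemma jqa_tendsto_G : Tendsto jqa_G atImInfty (𝓝 1) := by
  have h := (jf_tendsto_E₄.pow 3).div tendsto_atImInfty_tprod_one_sub_eta_q_pow one_ne_zero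
  simp only [one_pow, div_one] at h
  exact h.congr fun z => (jqa_G_eq_div z).symm

lemma jqa_G_bdd : IsBoundedAtImInfty jqa_G := jf_isBoundedAtImInfty_of_tendsto jqa_tendsto_G

lemma jqa_Q_bdd : IsBoundedAtImInfty jqa_Q :=
  jf_isBoundedAtImInfty_of_tendsto (qParam_tendsto_atImInfty one_pos)

lemma jqa_qParam_add_one (w : ℂ) : 𝕢 1 (w + 1) = 𝕢 1 w := by
  simp only [Periodic.qParam, Complex.ofReal_one, div_one]
  rw [mul_add, mul_one, Complex.exp_add, Complex.exp_two_pi_mul_I, mul_one]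

lemma jqa_Q_vadd (z : ℍ) : jqa_Q ((1 : ℝ) +ᵥ z) = jqa_Q z := by
  simp only [jqa_Q, coe_vadd, Complex.ofReal_one]
  rw [add_comm]
  exact jqa_qParam_add_one _

lemma jqa_jFun_vadd (z : ℍ) : jFun ((1 : ℝ) +ᵥ z) = jFun z := by
  have h := jFun_smul ModularGroup.T z
  rwa [modular_T_smul] at h

lemma jqa_periodic_of_vadd {f : ℍ → ℂ} (hf : ∀ z : ℍ, f ((1 : ℝ) +ᵥ z) = f z) :
    Periodic (f ∘ ofComplex) (1 : ℝ) := by
  intro w
  simp only [Complex.ofReal_one]
  by_cases! hw : 0 < Complex.im w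
  · have : 0 < Complex.im (w + 1) := by simp [hw]
    simp only [comp_apply, ofComplex_apply_of_im_pos this, ofComplex_apply_of_im_pos hw]
    rw [← hf ⟨w, hw⟩]
    congr 1
    ext
    simp [add_comm]
  · have : Complex.im (w + 1) ≤ 0 := by simpa using hw
    simp only [comp_apply, ofComplex_apply_of_im_nonpos this, ofComplex_apply_of_im_nonpos hw]

lemma jqa_Q_periodic : Periodic (jqa_Q ∘ ofComplex) (1 : ℝ) := jqa_periodic_of_vadd jqa_Q_vadd

lemma jqa_G_periodic : Periodic (jqa_G ∘ ofComplex) (1 : ℝ) :=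
  jqa_periodic_of_vadd fun z => by
    have h1 := jqa_Q_vadd z
    have h2 := jqa_jFun_vadd z
    simp only [jqa_G, jqa_Q] at h1 ⊢
    rw [h1, h2]

lemma jqa_Q_mdiff : MDiff jqa_Q := by
  rw [UpperHalfPlane.mdifferentiable_iff]
  have hd : Differentiable ℂ (𝕢 (1 : ℝ)) := Periodic.differentiable_qParam
  refine hd.differentiableOn.congr fun w hw => ?_
  simp [jqa_Q, comp_apply, ofComplex_apply_of_im_pos hw]

lemma jqa_G_mdiff : MDiff jqa_G := jf_mdiff_mul jqa_Q_mdiff jFun_mdiff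

lemma jqa_Q_analytic : AnalyticAt ℂ (cuspFunction 1 jqa_Q) 0 :=
  analyticAt_cuspFunction_zero one_pos jqa_Q_periodic jqa_Q_mdiff jqa_Q_bdd

lemma jqa_G_analytic : AnalyticAt ℂ (cuspFunction 1 jqa_G) 0 :=
  analyticAt_cuspFunction_zero one_pos jqa_G_periodic jqa_G_mdiff jqa_G_bdd

lemma jqa_hasSum_Q (τ : ℍ) :
    HasSum (fun m : ℕ ↦ (if m = 1 then (1 : ℂ) else 0) • 𝕢 1 τ ^ m) (jqa_Q τ) := by
  have h1 := hasSum_ite_eq (1 : ℕ) (jqa_Q τ)
  have heq : (fun m : ℕ ↦ (if m = 1 then (1 : ℂ) else 0) • 𝕢 1 (τ : ℂ) ^ m) =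
      fun m : ℕ ↦ if m = 1 then jqa_Q τ else 0 := by
    funext k
    by_cases hk : k = 1
    · simp [hk, jqa_Q]
    · simp [hk]
  rw [heq]
  exact h1

lemma jqa_qExpansion_Q : qExpansion 1 jqa_Q = PowerSeries.X := by
  letI : FunLike (ℍ → ℂ) ℍ ℂ := ⟨fun f => f, fun _ _ h => h⟩
  ext m
  have h := UpperHalfPlane.qExpansion_coeff_unique (F := ℍ → ℂ) (h := 1) jqa_Q one_pos
    jqa_Q_analytic (c := fun m : ℕ ↦ if m = 1 then (1 : ℂ) else 0) jqa_hasSum_Q m
  rw [PowerSeries.coeff_X]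
  exact h.symm

lemma jqa_E₄_analytic : AnalyticAt ℂ (cuspFunction 1 (⇑E₄ : ℍ → ℂ)) 0 :=
  ModularFormClass.analyticAt_cuspFunction_zero E₄ one_pos one_mem_strictPeriods_SL

lemma jqa_discriminant_analytic :
    AnalyticAt ℂ (cuspFunction 1 (ModularForm.discriminant : ℍ → ℂ)) 0 :=
  ModularFormClass.analyticAt_cuspFunction_zero CuspForm.discriminant one_pos
    one_mem_strictPeriods_SL

/-- The `q`-expansion of `q · j` is the prelude's formal series `jNum`. -/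
theorem jqa_qExpansion_G : qExpansion 1 jqa_G = jNum.map (Int.castRingHom ℂ) := by
  set e : ℍ → ℂ := ⇑E₄ with he_def
  have he : AnalyticAt ℂ (cuspFunction 1 e) 0 := jqa_E₄_analytic
  have hee : AnalyticAt ℂ (cuspFunction 1 (e * e)) 0 := by
    rw [cuspFunction_mul he.continuousAt he.continuousAt]; exact he.mul he
  have heee : AnalyticAt ℂ (cuspFunction 1 (e * (e * e))) 0 := by
    rw [cuspFunction_mul he.continuousAt hee.continuousAt]; exact he.mul hee
  have h1 : qExpansion 1 (e * (e * e)) = (eisenstein4.map (Int.castRingHom ℂ)) ^ 3 := by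
    rw [qExpansion_mul he hee, qExpansion_mul he he, he_def, qExpansion_E4]; ring
  have hfun : jqa_G * (ModularForm.discriminant : ℍ → ℂ) = jqa_Q * (e * (e * e)) := by
    funext z
    simp only [Pi.mul_apply, jqa_G_mul_discriminant, he_def]
    ring
  have h2 : qExpansion 1 jqa_G * (PowerSeries.X * (etaProd ^ 24).map (Int.castRingHom ℂ)) =
      PowerSeries.X * (eisenstein4.map (Int.castRingHom ℂ)) ^ 3 := by
    rw [← qExpansion_discriminant, ← qExpansion_mul jqa_G_analytic jqa_discriminant_analytic,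
      hfun, qExpansion_mul jqa_Q_analytic heee, jqa_qExpansion_Q, h1]
  have h3 : qExpansion 1 jqa_G * (etaProd ^ 24).map (Int.castRingHom ℂ) =
      (eisenstein4.map (Int.castRingHom ℂ)) ^ 3 := by
    apply mul_left_cancel₀ (PowerSeries.X_ne_zero (R := ℂ))
    rw [← h2]; ring
  have hinv : (etaProd ^ 24).map (Int.castRingHom ℂ) *
      dedekindEtaUnitInv.map (Int.castRingHom ℂ) = 1 := by
    rw [← map_mul]
    have := dedekindEtaUnit_mul_inv
    rw [dedekindEtaUnit] at this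
    rw [this, map_one]
  calc qExpansion 1 jqa_G
      = qExpansion 1 jqa_G * ((etaProd ^ 24).map (Int.castRingHom ℂ) *
          dedekindEtaUnitInv.map (Int.castRingHom ℂ)) := by rw [hinv, mul_one]
    _ = (eisenstein4.map (Int.castRingHom ℂ)) ^ 3 *
          dedekindEtaUnitInv.map (Int.castRingHom ℂ) := by rw [← mul_assoc, h3]
    _ = jNum.map (Int.castRingHom ℂ) := by rw [jNum, map_mul, map_pow]

/-- `q · j(z) = ∑ jNum_m q^m`. -/
theorem hasSum_jNum (z : ℍ) :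
    HasSum (fun m : ℕ ↦ ((PowerSeries.coeff m jNum : ℤ) : ℂ) * 𝕢 1 z ^ m) (𝕢 1 z * jFun z) := by
  have h := hasSum_qExpansion one_pos jqa_G_periodic jqa_G_mdiff jqa_G_bdd z
  rw [jqa_qExpansion_G] at h
  simpa [jqa_G, PowerSeries.coeff_map] using h

/-- Coefficients of the prelude's `jq` in terms of `jNum`. -/
lemma jqa_coeff_jq (m : ℕ) : jq.coeff ((m : ℤ) - 1) = ((PowerSeries.coeff m jNum : ℤ) : ℚ) := by
  rw [jq, HahnSeries.coeff_single_mul, one_mul, sub_neg_eq_add, sub_add_cancel,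
    HahnSeries.ofPowerSeries_apply_coeff, jNumQ, PowerSeries.coeff_map]
  simp

/-- **B2**: the prelude's formal Laurent series `jq` is the `q`-expansion of `jFun`. -/
theorem hasSum_jq (z : ℍ) :
    HasSum (fun m : ℕ ↦ ((jq.coeff ((m : ℤ) - 1) : ℚ) : ℂ) * 𝕢 1 z ^ ((m : ℤ) - 1)) (jFun z) := by
  have hq : 𝕢 1 (z : ℂ) ≠ 0 := Periodic.qParam_ne_zero _
  have h := (hasSum_jNum z).mul_left (𝕢 1 (z : ℂ))⁻¹
  have hval : (𝕢 1 (z : ℂ))⁻¹ * (𝕢 1 z * jFun z) = jFun z := by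
    rw [← mul_assoc, inv_mul_cancel₀ hq, one_mul]
  rw [hval] at h
  have heq : (fun m : ℕ ↦ (𝕢 1 (z : ℂ))⁻¹ * (((PowerSeries.coeff m jNum : ℤ) : ℂ) * 𝕢 1 z ^ m)) =
      fun m : ℕ ↦ ((jq.coeff ((m : ℤ) - 1) : ℚ) : ℂ) * 𝕢 1 z ^ ((m : ℤ) - 1) := by
    funext m
    rw [jqa_coeff_jq, zpow_sub₀ hq, zpow_natCast, zpow_one]
    push_cast
    field_simp
  rw [heq] at h
  exact h

end Fermat.Agent.S24x
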