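/-
S24 helper library, module C1 (part 2, helper92): analytic realisation of the modular function
field `FBar N = Q̄(j(q^d) : d ∣ N) ⊆ Q̄((q))` inside `Mer = Frac Hol`.
-/
import Mathlib
import Fermat.Agent.S24x.Defs
import Fermat.Agent.S24x.AlgDefs
import Fermat.Agent.S24x.Iota
import Fermat.Agent.S24x.ConvLaurent
import Fermat.Agent.S24x.LinDisjoint
import Fermat.Agent.S24x.JqAnalytic
import Fermat.Prelude.Thm_ModularCurve_coeffMap_qExpand
import Fermat.Prelude.Def_ModularCurve_JqCoeff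

set_option autoImplicit false

namespace Fermat.Agent.S24x

open ModularCurve UpperHalfPlane HahnSeries
open scoped Manifold MatrixGroups

/-! ### power series inside Laurent series -/

theorem lTerm_ofPowerSeries_natCast (p : PowerSeries ℂ) (q : ℂ) (n : ℕ) :
    lTerm (HahnSeries.ofPowerSeries ℤ ℂ p) q (n : ℤ) = PowerSeries.coeff n p * q ^ n := by
  unfold lTerm
  rw [HahnSeries.ofPowerSeries_apply_coeff, zpow_natCast]

theorem lTerm_ofPowerSeries_of_notMem_range (p : PowerSeries ℂ) (q : ℂ) {k : ℤ}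
    (hk : k ∉ Set.range (Nat.cast : ℕ → ℤ)) :
    lTerm (HahnSeries.ofPowerSeries ℤ ℂ p) q k = 0 := by
  unfold lTerm
  rw [ofPowerSeries_coeff_of_neg, zero_mul]
  by_contra h
  rw [not_lt] at h
  exact hk ⟨k.toNat, Int.toNat_of_nonneg h⟩

theorem lEval_ofPowerSeries (p : PowerSeries ℂ) (q : ℂ) :
    lEval (HahnSeries.ofPowerSeries ℤ ℂ p) q = psSum p q := by
  unfold lEval psSum
  rw [← Nat.cast_injective.tsum_eq]
  · exact tsum_congr fun n => lTerm_ofPowerSeries_natCast p q n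
  · intro k hk
    by_contra h
    exact hk (lTerm_ofPowerSeries_of_notMem_range p q h)

theorem lconv_ofPowerSeries {p : PowerSeries ℂ} (hp : PSConv p) :
    LConv (HahnSeries.ofPowerSeries ℤ ℂ p) := by
  intro q _ hq
  rw [← Nat.cast_injective.summable_iff]
  · refine (hp q hq).congr fun n => ?_
    simp only [Function.comp_apply]
    rw [lTerm_ofPowerSeries_natCast]
  · intro k hk
    rw [lTerm_ofPowerSeries_of_notMem_range p q hk, norm_zero]

/-! ### the `q`-expansion of `j` -/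

/-- `jNum` with complex coefficients -/
noncomputable def jNumC : PowerSeries ℂ := jNum.map (Int.castRingHom ℂ)

theorem coeff_jNumC (m : ℕ) : PowerSeries.coeff m jNumC = ((PowerSeries.coeff m jNum : ℤ) : ℂ) := by
  rw [jNumC, PowerSeries.coeff_map]; rfl

theorem hasSum_jNumC (z : ℍ) :
    HasSum (fun m : ℕ => PowerSeries.coeff m jNumC * qOf z ^ m) (qOf z * jFun z) := by
  simp_rw [coeff_jNumC]
  exact hasSum_jNum z

theorem psConv_jNumC : PSConv jNumC :=
  psConv_of_summable _ fun z => (hasSum_jNumC z).summable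

theorem psSum_jNumC (z : ℍ) : psSum jNumC (qOf z) = qOf z * jFun z :=
  (hasSum_jNumC z).tsum_eq

theorem jqModC_complex_eq :
    jqModC ℂ = HahnSeries.single (-1 : ℤ) (1 : ℂ) * HahnSeries.ofPowerSeries ℤ ℂ jNumC := rfl

theorem lconv_jqModC : LConv (jqModC ℂ) := by
  rw [jqModC_complex_eq]
  exact (lconv_single _ _).mul (lconv_ofPowerSeries psConv_jNumC)

theorem lEval_jqModC (z : ℍ) : lEval (jqModC ℂ) (qOf z) = jFun z := by
  rw [jqModC_complex_eq, lEval_mul (lconv_single _ _) (lconv_ofPowerSeries psConv_jNumC)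
    (qOf_ne_zero z) (norm_qOf_lt_one z), lEval_single, lEval_ofPowerSeries, psSum_jNumC, one_mul,
    zpow_neg_one, ← mul_assoc, inv_mul_cancel₀ (qOf_ne_zero z), one_mul]


/-! ### coefficientwise embedding `Q̄((q)) → ℂ((q))` and evaluation -/

/-- the coefficientwise embedding `Q̄((q)) → ℂ((q))` induced by `iotaQ` -/
noncomputable def iotaL : LaurentSeries Qbar →+* LaurentSeries ℂ := coeffMap iotaQ

theorem iotaL_coeff (a : LaurentSeries Qbar) (k : ℤ) : (iotaL a).coeff k = iotaQ (a.coeff k) := rfl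

theorem iotaL_injective : Function.Injective iotaL := by
  intro a b h
  ext k
  apply iotaQ_injective
  rw [← iotaL_coeff, ← iotaL_coeff, h]

theorem iotaL_algebraMap (c : Qbar) :
    iotaL (algebraMap Qbar (LaurentSeries Qbar) c) = HahnSeries.C (iotaQ c) := by
  rw [algebraMap_laurentSeries_eq_single, iotaL, coeffMap_single, HahnSeries.C_apply]

theorem iotaL_gen (d : ℕ) [NeZero d] :
    iotaL (coeffEmb Qbar (qExpand ℚ d jq)) = qExpand ℂ d (jqModC ℂ) := by
  rw [iotaL, coeffEmb, coeffMap_coeffMap, coeffMap_qExpand]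
  congr 1
  rw [← jqModC_rat]
  exact map_jqModC (iotaQ.comp (algebraMap ℚ Qbar))

/-- Laurent series over `Q̄` which converge (through `iotaQ`) on the punctured unit disc. -/
noncomputable def convBar : Subalgebra Qbar (LaurentSeries Qbar) where
  carrier := {a | LConv (iotaL a)}
  mul_mem' := fun {a b} ha hb => by
    show LConv (iotaL (a * b))
    rw [map_mul]; exact LConv.mul ha hb
  add_mem' := fun {a b} ha hb => by
    show LConv (iotaL (a + b))
    rw [map_add]; exact LConv.add ha hb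
  algebraMap_mem' c := by
    show LConv (iotaL (algebraMap Qbar (LaurentSeries Qbar) c))
    rw [iotaL_algebraMap]; exact lconv_C _

theorem mem_convBar {a : LaurentSeries Qbar} : a ∈ convBar ↔ LConv (iotaL a) := Iff.rfl

/-- evaluation of convergent Laurent series over `Q̄` as holomorphic functions on `ℍ` -/
noncomputable def evBar : convBar →+* Hol where
  toFun a := ⟨fun τ => lEval (iotaL a) (qOf τ), LConv.mdifferentiable a.2⟩
  map_one' := by
    apply Subtype.ext; funext τ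
    show lEval (iotaL ((1 : convBar) : LaurentSeries Qbar)) (qOf τ) = 1
    rw [OneMemClass.coe_one, map_one, lEval_one]
  map_mul' a b := by
    apply Subtype.ext; funext τ
    show lEval (iotaL ((a * b : convBar) : LaurentSeries Qbar)) (qOf τ)
      = lEval (iotaL a) (qOf τ) * lEval (iotaL b) (qOf τ)
    rw [MulMemClass.coe_mul, map_mul, lEval_mul a.2 b.2 (qOf_ne_zero τ) (norm_qOf_lt_one τ)]
  map_zero' := by
    apply Subtype.ext; funext τ
    show lEval (iotaL ((0 : convBar) : LaurentSeries Qbar)) (qOf τ) = 0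
    rw [ZeroMemClass.coe_zero, map_zero, lEval_zero]
  map_add' a b := by
    apply Subtype.ext; funext τ
    show lEval (iotaL ((a + b : convBar) : LaurentSeries Qbar)) (qOf τ)
      = lEval (iotaL a) (qOf τ) + lEval (iotaL b) (qOf τ)
    rw [AddMemClass.coe_add, map_add, lEval_add a.2 b.2 (qOf_ne_zero τ) (norm_qOf_lt_one τ)]

theorem evBar_apply (a : convBar) (τ : ℍ) :
    (evBar a : ℍ → ℂ) τ = lEval (iotaL a) (qOf τ) := rfl

theorem evBar_injective : Function.Injective evBar := by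
  rw [injective_iff_map_eq_zero]
  intro a ha
  have h1 : iotaL (a : LaurentSeries Qbar) = 0 := by
    refine LConv.eq_zero_of_forall_uhp a.2 fun τ => ?_
    rw [← evBar_apply, ha]; rfl
  exact Subtype.ext (iotaL_injective (by rw [h1, ZeroMemClass.coe_zero, map_zero]))

theorem evBar_algebraMap (c : Qbar) :
    evBar (algebraMap Qbar convBar c) = algebraMap ℂ Hol (iotaQ c) := by
  apply Subtype.ext; funext τ
  show lEval (iotaL (algebraMap Qbar (LaurentSeries Qbar) c)) (qOf τ) = iotaQ c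
  rw [iotaL_algebraMap, lEval_C]


/-! ### the ring `R₀ = Q̄[j(q^d) : d ∣ N]` and its fraction field `FBar N` -/

/-- the generators `j(q^d)`, `d ∣ N`, of the modular function field -/
def gensBar (N : ℕ) : Set (LaurentSeries Qbar) :=
  {x | ∃ (d : ℕ) (_ : NeZero d), d ∣ N ∧ x = coeffEmb Qbar (qExpand ℚ d jq)}

theorem gen_mem_gensBar (N d : ℕ) [NeZero d] (hd : d ∣ N) :
    coeffEmb Qbar (qExpand ℚ d jq) ∈ gensBar N := ⟨d, ‹_›, hd, rfl⟩

theorem gen_mem_convBar (d : ℕ) [NeZero d] : coeffEmb Qbar (qExpand ℚ d jq) ∈ convBar := by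
  rw [mem_convBar, iotaL_gen]
  exact lconv_jqModC.qExpand d

theorem gensBar_subset_convBar (N : ℕ) : gensBar N ⊆ convBar := by
  rintro x ⟨d, hne, _, rfl⟩
  haveI := hne
  exact gen_mem_convBar d

/-- `R₀ = Q̄[j(q^d) : d ∣ N]` -/
noncomputable def ringR0 (N : ℕ) : Subalgebra Qbar (LaurentSeries Qbar) :=
  Algebra.adjoin Qbar (gensBar N)

theorem ringR0_le_convBar (N : ℕ) : ringR0 N ≤ convBar :=
  Algebra.adjoin_le (gensBar_subset_convBar N)

theorem coeffEmb_algebraMap_rat (r : ℚ) :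
    coeffEmb Qbar (algebraMap ℚ (LaurentSeries ℚ) r)
      = algebraMap Qbar (LaurentSeries Qbar) (algebraMap ℚ Qbar r) := by
  rw [algebraMap_laurentSeries_eq_single, algebraMap_laurentSeries_eq_single, coeffEmb,
    coeffMap_single]

theorem coeffEmb_mem_adjoin_gensBar (N : ℕ) {y : LaurentSeries ℚ}
    (hy : y ∈ IntermediateField.adjoin ℚ (divisorExpansions N)) :
    coeffEmb Qbar y ∈ IntermediateField.adjoin Qbar (gensBar N) := by
  induction hy using IntermediateField.adjoin_induction with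
  | mem x hx =>
    obtain ⟨d, hne, hd, rfl⟩ := hx
    haveI := hne
    exact IntermediateField.subset_adjoin _ _ (gen_mem_gensBar N d hd)
  | algebraMap r =>
    rw [coeffEmb_algebraMap_rat]
    exact IntermediateField.algebraMap_mem _ _
  | add x y _ _ hx hy =>
    rw [map_add]
    exact add_mem hx hy
  | inv x _ hx =>
    rw [map_inv₀]
    exact inv_mem hx
  | mul x y _ _ hx hy =>
    rw [map_mul]
    exact mul_mem hx hy

theorem modularFunctionFieldBar_eq_adjoin (N : ℕ) :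
    modularFunctionFieldBar N = IntermediateField.adjoin Qbar (gensBar N) := by
  apply le_antisymm
  · show laurentBaseChange Qbar (modularFunctionFieldFull N) ≤ _
    rw [laurentBaseChange, IntermediateField.adjoin_le_iff]
    rintro _ ⟨y, hy, rfl⟩
    exact coeffEmb_mem_adjoin_gensBar N hy
  · rw [IntermediateField.adjoin_le_iff]
    rintro x ⟨d, hne, hd, rfl⟩
    haveI := hne
    exact coeffEmb_mem_laurentBaseChange Qbar (jqd_mem_full N hd)


theorem ringR0_le_FBar (N : ℕ) : ringR0 N ≤ (modularFunctionFieldBar N).toSubalgebra := by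
  rw [modularFunctionFieldBar_eq_adjoin]
  exact IntermediateField.algebra_adjoin_le_adjoin _ _

/-- `FBar N` as an algebra over `R₀` -/
noncomputable instance algebraR0FBar (N : ℕ) : Algebra (ringR0 N) (FBar N) :=
  (Subalgebra.inclusion (ringR0_le_FBar N)).toAlgebra

theorem coe_algebraMap_R0_FBar (N : ℕ) (a : ringR0 N) :
    ((algebraMap (ringR0 N) (FBar N) a : FBar N) : LaurentSeries Qbar) = a := rfl

instance faithfulSMul_R0_FBar (N : ℕ) : FaithfulSMul (ringR0 N) (FBar N) :=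
  Subalgebra.inclusion.faithfulSMul (ringR0_le_FBar N)

instance isFractionRing_R0_FBar (N : ℕ) : IsFractionRing (ringR0 N) (FBar N) :=
  .of_field _ _ fun ⟨x, hx⟩ => by
    have hx' : x ∈ IntermediateField.adjoin Qbar (gensBar N) := by
      rw [← modularFunctionFieldBar_eq_adjoin]; exact hx
    obtain ⟨r, hr, s, hs, rfl⟩ := IntermediateField.mem_adjoin_iff_div.mp hx'
    exact ⟨⟨r, hr⟩, ⟨s, hs⟩, Subtype.ext rfl⟩

/-- evaluation on `R₀` -/
noncomputable def evR0 (N : ℕ) : ringR0 N →+* Hol :=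
  evBar.comp (Subalgebra.inclusion (ringR0_le_convBar N)).toRingHom

theorem evR0_apply (N : ℕ) (a : ringR0 N) (τ : ℍ) :
    (evR0 N a : ℍ → ℂ) τ = lEval (iotaL a) (qOf τ) := rfl

theorem evR0_injective (N : ℕ) : Function.Injective (evR0 N) :=
  evBar_injective.comp (Subalgebra.inclusion_injective (ringR0_le_convBar N))

theorem evR0_mer_injective (N : ℕ) :
    Function.Injective ((algebraMap Hol Mer).comp (evR0 N)) :=
  (IsFractionRing.injective Hol Mer).comp (evR0_injective N)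

/-- THE REALISATION of the modular function field inside `Mer`. -/
noncomputable def evF (N : ℕ) : FBar N →+* Mer :=
  IsFractionRing.lift (evR0_mer_injective N)

theorem evF_algebraMap_R0 (N : ℕ) (a : ringR0 N) :
    evF N (algebraMap (ringR0 N) (FBar N) a) = algebraMap Hol Mer (evR0 N a) :=
  IsFractionRing.lift_algebraMap (evR0_mer_injective N) a


/-! ### the functions `τ ↦ j(dτ)` -/

/-- `τ ↦ d τ` on the upper half plane -/
noncomputable def dmulH (d : ℕ) [NeZero d] (τ : ℍ) : ℍ :=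
  ⟨(d : ℂ) * (τ : ℂ), by
    have hd : (0 : ℝ) < d := by exact_mod_cast Nat.pos_of_ne_zero (NeZero.ne d)
    have : ((d : ℂ) * (τ : ℂ)).im = d * τ.im := by simp
    rw [this]
    exact mul_pos hd τ.im_pos⟩

theorem coe_dmulH (d : ℕ) [NeZero d] (τ : ℍ) : ((dmulH d τ : ℍ) : ℂ) = d * (τ : ℂ) := rfl

theorem qOf_dmulH (d : ℕ) [NeZero d] (τ : ℍ) : qOf (dmulH d τ) = qOf τ ^ d := by
  unfold qOf Function.Periodic.qParam
  rw [coe_dmulH, ← Complex.exp_nat_mul]
  congr 1
  push_cast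
  ring

theorem dmulH_one (τ : ℍ) : dmulH 1 τ = τ := by
  apply UpperHalfPlane.ext
  rw [coe_dmulH]; simp

/-- `τ ↦ j(dτ)` as a holomorphic function -/
noncomputable def jdHol (d : ℕ) [NeZero d] : Hol :=
  ⟨fun τ => lEval (qExpand ℂ d (jqModC ℂ)) (qOf τ), (lconv_jqModC.qExpand d).mdifferentiable⟩

theorem jdHol_eq (d : ℕ) [NeZero d] (τ : ℍ) : (jdHol d : ℍ → ℂ) τ = jFun (dmulH d τ) := by
  show lEval (qExpand ℂ d (jqModC ℂ)) (qOf τ) = _
  rw [lEval_qExpand, ← qOf_dmulH, lEval_jqModC]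

theorem jdHol_apply (d : ℕ) [NeZero d] (τ : ℍ) :
    ∃ τ' : ℍ, (τ' : ℂ) = d * (τ : ℂ) ∧ (jdHol d : ℍ → ℂ) τ = jFun τ' :=
  ⟨dmulH d τ, coe_dmulH d τ, jdHol_eq d τ⟩

theorem jdHol_one : jdHol 1 = jHol := by
  apply Subtype.ext; funext τ
  rw [jdHol_eq, dmulH_one]; rfl

/-! ### the interface theorems of `AnSpec` -/

section Spec

variable (N : ℕ)

theorem evR0_algebraMap (c : Qbar) :
    evR0 N (algebraMap Qbar (ringR0 N) c) = algebraMap ℂ Hol (iotaQ c) := by
  apply Subtype.ext; funext τ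
  show lEval (iotaL (algebraMap Qbar (LaurentSeries Qbar) c)) (qOf τ) = iotaQ c
  rw [iotaL_algebraMap, lEval_C]

theorem evF_algebraMap (c : Qbar) :
    evF N (algebraMap Qbar (FBar N) c) = algebraMap ℂ Mer (iotaQ c) := by
  have h1 : algebraMap Qbar (FBar N) c
      = algebraMap (ringR0 N) (FBar N) (algebraMap Qbar (ringR0 N) c) := Subtype.ext rfl
  rw [h1, evF_algebraMap_R0, evR0_algebraMap, IsScalarTower.algebraMap_apply ℂ Hol Mer]

/-- the generator `j(q^d)` as an element of `R₀` -/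
noncomputable def jdR0 (d : ℕ) [NeZero d] (hd : d ∣ N) : ringR0 N :=
  ⟨coeffEmb Qbar (qExpand ℚ d jq), Algebra.subset_adjoin (gen_mem_gensBar N d hd)⟩

theorem evR0_jdR0 (d : ℕ) [NeZero d] (hd : d ∣ N) : evR0 N (jdR0 N d hd) = jdHol d := by
  apply Subtype.ext; funext τ
  show lEval (iotaL (coeffEmb Qbar (qExpand ℚ d jq))) (qOf τ) = _
  rw [iotaL_gen]; rfl

theorem evF_jdBar (d : ℕ) [NeZero d] (hd : d ∣ N) :
    evF N (jdBar N d hd) = algebraMap Hol Mer (jdHol d) := by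
  have h1 : jdBar N d hd = algebraMap (ringR0 N) (FBar N) (jdR0 N d hd) := Subtype.ext rfl
  rw [h1, evF_algebraMap_R0, evR0_jdR0]

theorem evF_jBar : evF N (jBar N) = jMer := by
  rw [jBar, evF_jdBar, jdHol_one]; rfl


/-! ### `Γ₀(N)`-invariance -/

open CongruenceSubgroup

/-- conjugation by `diag(d, 1)`: if `d ∣ γ 1 0` then `d (γ τ) = γ' (d τ)` with `γ' ∈ SL(2,ℤ)` -/
theorem exists_smul_dmulH (d : ℕ) [NeZero d] (γ : SL(2, ℤ)) (hγ : (d : ℤ) ∣ γ 1 0) (τ : ℍ) :
    ∃ γ' : SL(2, ℤ), dmulH d (γ • τ) = γ' • dmulH d τ := by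
  obtain ⟨c', hc'⟩ := hγ
  have hdet : γ 0 0 * γ 1 1 - γ 0 1 * γ 1 0 = 1 := by
    have := γ.2
    rwa [Matrix.det_fin_two] at this
  let γ' : SL(2, ℤ) := ⟨!![γ 0 0, γ 0 1 * d; c', γ 1 1], by
    rw [Matrix.det_fin_two_of]
    rw [hc'] at hdet
    linear_combination hdet⟩
  have e00 : γ' 0 0 = γ 0 0 := rfl
  have e01 : γ' 0 1 = γ 0 1 * d := rfl
  have e10 : γ' 1 0 = c' := rfl
  have e11 : γ' 1 1 = γ 1 1 := rfl
  refine ⟨γ', ?_⟩
  apply UpperHalfPlane.ext
  rw [coe_dmulH, UpperHalfPlane.coe_specialLinearGroup_apply,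
    UpperHalfPlane.coe_specialLinearGroup_apply γ', coe_dmulH, e00, e01, e10, e11, hc']
  simp only [algebraMap_int_eq, eq_intCast]
  push_cast
  rw [← mul_div_assoc]
  congr 1 <;> ring

theorem natCast_dvd_of_mem_Gamma0 {d : ℕ} (hd : d ∣ N) {γ : SL(2, ℤ)} (hγ : γ ∈ Gamma0 N) :
    (d : ℤ) ∣ γ 1 0 := by
  have h1 : (N : ℤ) ∣ γ 1 0 :=
    (ZMod.intCast_zmod_eq_zero_iff_dvd (γ 1 0) N).mp (Gamma0_mem.mp hγ)
  exact (Int.natCast_dvd_natCast.mpr hd).trans h1

theorem jdHol_smul_of_mem_Gamma0 (d : ℕ) [NeZero d] (hd : d ∣ N) {γ : SL(2, ℤ)}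
    (hγ : γ ∈ Gamma0 N) (τ : ℍ) : (jdHol d : ℍ → ℂ) (γ • τ) = (jdHol d : ℍ → ℂ) τ := by
  obtain ⟨γ', hγ'⟩ := exists_smul_dmulH d γ (natCast_dvd_of_mem_Gamma0 N hd hγ) τ
  rw [jdHol_eq, jdHol_eq, hγ', jFun_smul]

theorem evR0_smul_aux {γ : SL(2, ℤ)} (hγ : γ ∈ Gamma0 N) {x : LaurentSeries Qbar}
    (hx : x ∈ Algebra.adjoin Qbar (gensBar N)) :
    ∀ τ : ℍ, (evR0 N ⟨x, hx⟩ : ℍ → ℂ) (γ • τ) = (evR0 N ⟨x, hx⟩ : ℍ → ℂ) τ := by
  induction hx using Algebra.adjoin_induction with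
  | mem x hx =>
    intro τ
    obtain ⟨d, hne, hd, rfl⟩ := hx
    haveI := hne
    have h1 : (⟨coeffEmb Qbar (qExpand ℚ d jq), Algebra.subset_adjoin ⟨d, hne, hd, rfl⟩⟩ : ringR0 N)
        = jdR0 N d hd := rfl
    rw [h1, evR0_jdR0]
    exact jdHol_smul_of_mem_Gamma0 N d hd hγ τ
  | algebraMap r =>
    intro τ
    have h1 : (⟨algebraMap Qbar (LaurentSeries Qbar) r, Subalgebra.algebraMap_mem _ r⟩ : ringR0 N)
        = algebraMap Qbar (ringR0 N) r := rfl
    rw [h1, evR0_algebraMap]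
    rfl
  | add x y hx hy ihx ihy =>
    intro τ
    have h1 : (⟨x + y, add_mem hx hy⟩ : ringR0 N) = ⟨x, hx⟩ + ⟨y, hy⟩ := rfl
    rw [h1, map_add]
    show (evR0 N ⟨x, hx⟩ : ℍ → ℂ) (γ • τ) + (evR0 N ⟨y, hy⟩ : ℍ → ℂ) (γ • τ) = _
    rw [ihx, ihy]
    rfl
  | mul x y hx hy ihx ihy =>
    intro τ
    have h1 : (⟨x * y, mul_mem hx hy⟩ : ringR0 N) = ⟨x, hx⟩ * ⟨y, hy⟩ := rfl
    rw [h1, map_mul]
    show (evR0 N ⟨x, hx⟩ : ℍ → ℂ) (γ • τ) * (evR0 N ⟨y, hy⟩ : ℍ → ℂ) (γ • τ) = _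
    rw [ihx, ihy]
    rfl

theorem evR0_smul_of_mem_Gamma0 {γ : SL(2, ℤ)} (hγ : γ ∈ Gamma0 N) (a : ringR0 N) (τ : ℍ) :
    (evR0 N a : ℍ → ℂ) (γ • τ) = (evR0 N a : ℍ → ℂ) τ :=
  evR0_smul_aux N hγ a.2 τ

theorem evF_smul_of_mem_Gamma0 (γ : SL(2, ℤ)) (hγ : γ ∈ Gamma0 N) (f : FBar N) :
    γ • evF N f = evF N f := by
  have key : (MulSemiringAction.toRingHom SL(2, ℤ) Mer γ).comp (evF N) = evF N := by
    apply IsLocalization.ringHom_ext (nonZeroDivisors (ringR0 N))
    ext a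
    show γ • evF N (algebraMap (ringR0 N) (FBar N) a) = evF N (algebraMap (ringR0 N) (FBar N) a)
    rw [evF_algebraMap_R0, smul_algebraMap_Mer]
    congr 1
    apply Subtype.ext; funext τ
    rw [smul_Hol_apply]
    exact evR0_smul_of_mem_Gamma0 N (inv_mem hγ) a τ
  exact congrArg (fun φ : FBar N →+* Mer => φ f) key


/-! ### linear disjointness -/

theorem lEval_sum_smul_iotaL {ι : Type} [Fintype ι] (z : ι → ℂ) (a : ι → ringR0 N) (τ : ℍ) :
    lEval (∑ i, z i • iotaL (a i : LaurentSeries Qbar)) (qOf τ)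
      = ∑ i, z i * (evR0 N (a i) : ℍ → ℂ) τ := by
  have hc : ∀ i, LConv (iotaL (a i : LaurentSeries Qbar)) := fun i => ringR0_le_convBar N (a i).2
  rw [lEval_sum _ _ (fun i _ => (hc i).smul (z i)) (qOf_ne_zero τ) (norm_qOf_lt_one τ)]
  refine Finset.sum_congr rfl fun i _ => ?_
  rw [lEval_smul (hc i) _ (qOf_ne_zero τ) (norm_qOf_lt_one τ), evR0_apply]

/-- LINEAR DISJOINTNESS on `R₀`. -/
theorem evR0_linearIndependent {ι : Type} [Fintype ι] (z : ι → ℂ)
    (hz : ∀ a : ι → Qbar, ∑ i, iotaQ (a i) * z i = 0 → ∀ i, a i = 0) (a : ι → ringR0 N)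
    (h : ∀ τ : ℍ, ∑ i, z i * (evR0 N (a i) : ℍ → ℂ) τ = 0) : ∀ i, a i = 0 := by
  have hc : ∀ i, LConv (iotaL (a i : LaurentSeries Qbar)) := fun i => ringR0_le_convBar N (a i).2
  have h1 : ∑ i, z i • iotaL (a i : LaurentSeries Qbar) = 0 := by
    refine LConv.eq_zero_of_forall_uhp (lconv_sum _ _ fun i _ => (hc i).smul (z i)) fun τ => ?_
    rw [lEval_sum_smul_iotaL, h τ]
  have h2 := ld_eq_zero_of_sum_smul_coeffMap_eq_zero iotaQ (z := z) hz
    (fun i => (a i : LaurentSeries Qbar)) h1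
  exact fun i => Subtype.ext (h2 i)

/-- LINEAR DISJOINTNESS (`F ⊗_{Q̄} ℂ → Mer` is injective). -/
theorem evF_linearIndependent {ι : Type} [Fintype ι] (z : ι → ℂ)
    (hz : ∀ a : ι → Qbar, ∑ i, iotaQ (a i) * z i = 0 → ∀ i, a i = 0) (σ : ι → FBar N)
    (h : ∑ i, algebraMap ℂ Mer (z i) * evF N (σ i) = 0) : ∀ i, σ i = 0 := by
  classical
  obtain ⟨b, hb⟩ := IsLocalization.exist_integer_multiples (nonZeroDivisors (ringR0 N))
    Finset.univ σ
  choose a ha using fun i => hb i (Finset.mem_univ i)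
  -- `ha i : algebraMap _ _ (a i) = b • σ i`
  have hb0 : algebraMap (ringR0 N) (FBar N) (b : ringR0 N) ≠ 0 := by
    have := IsFractionRing.injective (ringR0 N) (FBar N)
    rw [Ne, map_eq_zero_iff _ this]
    exact nonZeroDivisors.coe_ne_zero b
  have ha' : ∀ i, algebraMap (ringR0 N) (FBar N) (a i)
      = algebraMap (ringR0 N) (FBar N) (b : ringR0 N) * σ i := fun i => by
    rw [ha i, Algebra.smul_def]
  have h3 : algebraMap Hol Mer (∑ i, algebraMap ℂ Hol (z i) * evR0 N (a i)) = 0 := by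
    rw [map_sum]
    have : ∑ i, algebraMap Hol Mer (algebraMap ℂ Hol (z i) * evR0 N (a i))
        = evF N (algebraMap (ringR0 N) (FBar N) (b : ringR0 N))
          * ∑ i, algebraMap ℂ Mer (z i) * evF N (σ i) := by
      rw [Finset.mul_sum]
      refine Finset.sum_congr rfl fun i _ => ?_
      rw [map_mul, ← evF_algebraMap_R0, ha' i, map_mul, ← IsScalarTower.algebraMap_apply ℂ Hol Mer]
      ring
    rw [this, h, mul_zero]
  have h4 : ∑ i, algebraMap ℂ Hol (z i) * evR0 N (a i) = 0 :=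
    (map_eq_zero_iff _ (IsFractionRing.injective Hol Mer)).mp h3
  have h5 : ∀ τ : ℍ, ∑ i, z i * (evR0 N (a i) : ℍ → ℂ) τ = 0 := by
    intro τ
    have := congrArg (fun f : Hol => (f : ℍ → ℂ) τ) h4
    simpa [algebraMap_Hol_apply] using this
  have h6 := evR0_linearIndependent N z hz a h5
  intro i
  have h7 := ha' i
  rw [h6 i, map_zero] at h7
  exact (mul_eq_zero.mp h7.symm).resolve_left hb0

end Spec

end Fermat.Agent.S24x
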