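/-
S24 helper module C4a (helper32): the modular function field `F_N = Q̄(j(q^d) : d ∣ N)` is finite
over `Q̄(j)`.

Route: over `ℂ`, `j(q^d)` is a root of a monic polynomial over `ℂ(j)` inside `ℂ((q))`
(`S23x.exists_monic_of_isRatio` + `S23x.isRatio_jNL`).  This algebraic dependence of the pair
`(j, j(q^d))` descends from `ℂ((q))` to `Q̄((q))` because coefficientwise base change
`Q̄((q)) → ℂ((q))` preserves algebraic independence (linear disjointness, `LinDisjoint.lean`).
Finally `F_N` is generated over `Q̄` by the finitely many `j(q^d)` (`Realize.lean`).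
-/
import Mathlib
import Fermat.Agent.S24x.AlgDefs
import Fermat.Agent.S24x.LinDisjoint
import Fermat.Agent.S24x.JBarTranscendental
import Fermat.Agent.S24x.DegreeLowerCore
import Fermat.Agent.S24x.Realize
import Fermat.Agent.S23x.DegreeLe
import Fermat.Agent.S23x.LevelRaise

set_option autoImplicit false

namespace Fermat.Agent.S24x

open ModularCurve

section Generic

/-- Algebraic independence is linear independence of the monomials. -/
theorem me_algebraicIndependent_iff_monomials {R A ι : Type*} [CommRing R] [CommRing A]
    [Algebra R A] (x : ι → A) :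
    AlgebraicIndependent R x ↔
      LinearIndependent R (fun m : ι →₀ ℕ => m.prod fun i k => x i ^ k) := by
  rw [algebraicIndependent_iff_injective_aeval, linearIndependent_iff_injective_finsuppLinearCombination]
  have h : ∀ l : (ι →₀ ℕ) →₀ R,
      Finsupp.linearCombination R (fun m : ι →₀ ℕ => m.prod fun i k => x i ^ k) l =
        MvPolynomial.aeval x ((MvPolynomial.basisMonomials ι R).repr.symm l) := by
    intro l
    rw [Module.Basis.repr_symm_apply]
    have := Finsupp.apply_linearCombination R (MvPolynomial.aeval x).toLinearMap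
      (MvPolynomial.basisMonomials ι R) l
    simp only [AlgHom.toLinearMap_apply] at this
    rw [this]
    congr 1
    ext m
    simp [MvPolynomial.aeval_monomial]
  constructor
  · intro hinj l₁ l₂ hl
    rw [h, h] at hl
    exact (MvPolynomial.basisMonomials ι R).repr.symm.injective (hinj hl)
  · intro hinj p₁ p₂ hp
    have h1 := h ((MvPolynomial.basisMonomials ι R).repr p₁)
    have h2 := h ((MvPolynomial.basisMonomials ι R).repr p₂)
    rw [LinearEquiv.symm_apply_apply] at h1 h2
    have := hinj (h1.trans (hp.trans h2.symm))
    exact (MvPolynomial.basisMonomials ι R).repr.injective this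

/-- The `K`-module structure on `LaurentSeries K` coming from the (power series) algebra structure
is the coefficientwise one (not by `rfl`!). -/
theorem me_module_eq (K : Type*) [Field K] :
    (Algebra.toModule : Module K (LaurentSeries K)) = HahnSeries.instModule :=
  Module.ext' _ _ fun r x => by
    rw [Algebra.smul_def, ModularCurve.algebraMap_laurentSeries_eq_single,
      HahnSeries.single_zero_mul_eq_smul]

theorem me_linearIndependent_iff (K : Type*) [Field K] {ι : Type*} (v : ι → LaurentSeries K) :
    @LinearIndependent ι K (LaurentSeries K) v _ _ Algebra.toModule ↔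
      @LinearIndependent ι K (LaurentSeries K) v _ _ HahnSeries.instModule := by
  rw [me_module_eq]

/-- `coeffMap` preserves algebraic independence (linear disjointness of `LaurentSeries K` and
`L` over `K`). -/
theorem me_algebraicIndependent_coeffMap {K L ι : Type*} [Field K] [Field L] [Algebra K L]
    {x : ι → LaurentSeries K} (hx : AlgebraicIndependent K x) :
    AlgebraicIndependent L (fun i => coeffMap (algebraMap K L) (x i)) := by
  have hx' := (me_linearIndependent_iff K _).mp ((me_algebraicIndependent_iff_monomials x).mp hx)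
  refine (me_algebraicIndependent_iff_monomials _).mpr ((me_linearIndependent_iff L _).mpr ?_)
  have h := ld_linearIndependent_coeffMap (L := L) hx'
  have hfun : (fun m : ι →₀ ℕ => m.prod fun i k => (coeffMap (algebraMap K L) (x i)) ^ k) =
      fun m : ι →₀ ℕ => coeffMap (algebraMap K L) (m.prod fun i k => x i ^ k) := by
    funext m
    rw [map_finsuppProd]
    simp only [map_pow]
  rw [hfun]
  exact h

open scoped IntermediateField.algebraAdjoinAdjoin in
/-- For `j` transcendental, `x` is algebraic over `K(j)` iff the pair `(j, x)` is algebraically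
dependent. -/
theorem me_isAlgebraic_iff_not_algInd {K A : Type*} [Field K] [Field A] [Algebra K A] {j : A}
    (hj : Transcendental K j) (x : A) :
    IsAlgebraic (IntermediateField.adjoin K {j}) x ↔
      ¬ AlgebraicIndependent K (fun o : Option Unit => o.elim x fun _ => j) := by
  rw [AlgebraicIndependent.option_iff, algebraicIndependent_unique_type_iff]
  have hrange : Set.range (fun _ : Unit => j) = {j} := Set.range_const
  rw [hrange, ← IsFractionRing.isAlgebraic_iff (Algebra.adjoin K {j})
    (IntermediateField.adjoin K {j}) A]
  have hj' : ¬ IsAlgebraic K j := hj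
  simp only [Transcendental]
  tauto

/-- Descent of algebraicity along `coeffMap`. -/
theorem me_isAlgebraic_descent {K L : Type*} [Field K] [Field L] [Algebra K L]
    {j x : LaurentSeries K} (hj : Transcendental K j)
    (hx : IsAlgebraic (IntermediateField.adjoin L {coeffMap (algebraMap K L) j})
      (coeffMap (algebraMap K L) x)) :
    IsAlgebraic (IntermediateField.adjoin K {j}) x := by
  rw [me_isAlgebraic_iff_not_algInd hj]
  intro hind
  have h2 := me_algebraicIndependent_coeffMap (L := L) hind
  have hj' : Transcendental L (coeffMap (algebraMap K L) j) := h2.transcendental (some ())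
  rw [me_isAlgebraic_iff_not_algInd hj'] at hx
  apply hx
  convert h2 using 1
  · ext o
    cases o <;> rfl
  · rfl

/-- Algebraicity over `K(j)` can be checked in a bigger field. -/
theorem me_isAlgebraic_of_val {K E : Type*} [Field K] [Field E] [Algebra K E]
    (F : IntermediateField K E) {j x : F} (hj : Transcendental K j)
    (hx : IsAlgebraic (IntermediateField.adjoin K {(j : E)}) (x : E)) :
    IsAlgebraic (IntermediateField.adjoin K {j}) x := by
  have hj' : Transcendental K (j : E) := fun h =>
    hj ((isAlgebraic_algHom_iff F.val F.val.injective).mp h)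
  rw [me_isAlgebraic_iff_not_algInd hj'] at hx
  rw [me_isAlgebraic_iff_not_algInd hj]
  intro hind
  apply hx
  have := hind.map' (f := F.val) F.val.injective
  convert this using 1
  ext o
  cases o <;> rfl

end Generic

section Modular

/-- Over `ℂ`: `j(q^d)` is algebraic over `ℂ(j)` inside `ℂ((q))`. -/
theorem me_isAlgebraic_jNL (d : ℕ) [NeZero d] : IsAlgebraic S23x.Kj (S23x.jNL d) := by
  obtain ⟨P, hP, -, h⟩ := S23x.exists_monic_of_isRatio d (S23x.isRatio_jNL d)
  exact ⟨P, hP.ne_zero, h⟩

/-- `j(q^d)` is algebraic over `Q̄(j)` inside `F_N`. -/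
theorem me_isAlgebraic_jdBar (N d : ℕ) [NeZero N] [NeZero d] (hd : d ∣ N) :
    IsAlgebraic (IntermediateField.adjoin Qbar {jBar N}) (jdBar N d hd) := by
  let _ : Algebra Qbar ℂ := iotaQ.toAlgebra
  have htr : Transcendental Qbar (jBar N) := transcendental_jBar N
  have htr' : Transcendental Qbar ((jBar N : FBar N) : LaurentSeries Qbar) := fun h =>
    htr ((isAlgebraic_algHom_iff (modularFunctionFieldBar N).val
      (modularFunctionFieldBar N).val.injective).mp h)
  refine me_isAlgebraic_of_val (modularFunctionFieldBar N) htr ?_
  refine me_isAlgebraic_descent (L := ℂ) htr' ?_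
  have h1 : coeffMap (algebraMap Qbar ℂ) ((jBar N : FBar N) : LaurentSeries Qbar) = S23x.jL :=
    dlPhi_jBar N
  have h2 : coeffMap (algebraMap Qbar ℂ) ((jdBar N d hd : FBar N) : LaurentSeries Qbar) =
      S23x.jNL d := dlPhi_jdBar N d hd
  rw [h1, h2]
  exact me_isAlgebraic_jNL d

/-- The finitely many generators `j(q^d)`, `d ∣ N`, as elements of `F_N`. -/
noncomputable def meGen (N : ℕ) (d : {d // d ∈ N.divisors}) : FBar N :=
  haveI : NeZero d.1 := ⟨(Nat.pos_of_mem_divisors d.2).ne'⟩
  jdBar N d.1 (Nat.dvd_of_mem_divisors d.2)

theorem me_val_image_range_meGen (N : ℕ) [NeZero N] :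
    (Subtype.val '' Set.range (meGen N) : Set (LaurentSeries Qbar)) = gensBar N := by
  ext x
  constructor
  · rintro ⟨_, ⟨d, rfl⟩, rfl⟩
    have : NeZero d.1 := ⟨(Nat.pos_of_mem_divisors d.2).ne'⟩
    exact gen_mem_gensBar N d.1 (Nat.dvd_of_mem_divisors d.2)
  · rintro ⟨d, hne, hd, rfl⟩
    refine ⟨meGen N ⟨d, Nat.mem_divisors.mpr ⟨hd, NeZero.ne N⟩⟩, ⟨_, rfl⟩, ?_⟩
    rfl

theorem me_adjoin_range_meGen (N : ℕ) [NeZero N] :
    IntermediateField.adjoin Qbar (Set.range (meGen N)) = ⊤ := by
  apply IntermediateField.lift_injective (modularFunctionFieldBar N)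
  rw [IntermediateField.lift_adjoin, IntermediateField.lift_top, me_val_image_range_meGen,
    ← modularFunctionFieldBar_eq_adjoin]

/-- **C4a.** `F_N` is finite over `Q̄(j)`. -/
theorem finiteDimensional_jBar (N : ℕ) [NeZero N] :
    FiniteDimensional (IntermediateField.adjoin Qbar {jBar N}) (FBar N) := by
  have hT : IntermediateField.adjoin (IntermediateField.adjoin Qbar {jBar N})
      (Set.range (meGen N)) = ⊤ :=
    IntermediateField.adjoin_eq_top_of_adjoin_eq_top Qbar (me_adjoin_range_meGen N)
  have hfin : FiniteDimensional (IntermediateField.adjoin Qbar {jBar N})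
      (IntermediateField.adjoin (IntermediateField.adjoin Qbar {jBar N})
        (Set.range (meGen N))) := by
    refine IntermediateField.finiteDimensional_adjoin fun x hx => ?_
    obtain ⟨d, rfl⟩ := hx
    have : NeZero d.1 := ⟨(Nat.pos_of_mem_divisors d.2).ne'⟩
    exact (me_isAlgebraic_jdBar N d.1 (Nat.dvd_of_mem_divisors d.2)).isIntegral
  rw [hT] at hfin
  exact (IntermediateField.topEquiv (F := IntermediateField.adjoin Qbar {jBar N})
    (E := FBar N)).toLinearEquiv.finiteDimensional

end Modular

end Fermat.Agent.S24x
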