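/-
S24 module C4 (helper88), final part: `jBar N` is a coordinate of `F_N / Q̄` and
`ψ(N) ≤ [F_N : Q̄(j)]` (exact AnSpec statements `isCoordinate_jBar`, `dedekindPsi_le_cdeg`).
Transcendence is formal (pole of order one); finiteness is `ModularEq.finiteDimensional_jBar`
(helper32); the lower bound is `DegreeLowerCore.dedekindPsi_le_cdeg_of_finite`.
-/
import Fermat.Agent.S24x.DegreeLowerCore
import Fermat.Agent.S24x.ModularEq

set_option autoImplicit false

namespace Fermat.Agent.S24x

open ModularCurve UpperHalfPlane IntermediateField Polynomial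

/-- The coefficient of `q^{-deg p}` in `p(j)` is the leading coefficient of `p`. -/
theorem dl_coeff_aeval_jqModC (K : Type*) [Field K] (p : Polynomial K) :
    (Polynomial.aeval (jqModC K) p).coeff (-(p.natDegree : ℤ)) = p.leadingCoeff := by
  rw [Polynomial.aeval_def, Polynomial.eval₂_eq_sum_range, HahnSeries.coeff_sum,
    Finset.sum_range_succ]
  have h0 : ∀ i ∈ Finset.range p.natDegree,
      (algebraMap K (LaurentSeries K) (p.coeff i) * jqModC K ^ i).coeff
        (-(p.natDegree : ℤ)) = 0 := by
    intro i hi
    rw [algebraMap_laurentSeries_eq_single, HahnSeries.coeff_single_zero_mul,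
      coeff_jqModC_pow_of_lt K (by have := Finset.mem_range.mp hi; omega), mul_zero]
  rw [Finset.sum_eq_zero h0, zero_add, algebraMap_laurentSeries_eq_single,
    HahnSeries.coeff_single_zero_mul, coeff_jqModC_pow_self, mul_one]
  rfl

/-- The formal `j` is transcendental over the field of constants. -/
theorem dl_transcendental_jqModC (K : Type*) [Field K] : Transcendental K (jqModC K) := by
  intro halg
  obtain ⟨p, hp0, hp⟩ := halg
  have h := dl_coeff_aeval_jqModC K p
  rw [hp, HahnSeries.coeff_zero] at h
  exact hp0 (Polynomial.leadingCoeff_eq_zero.mp h.symm)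

theorem dl_coe_jBar (N : ℕ) : ((jBar N : FBar N) : LaurentSeries Qbar) = jqModC Qbar := by
  rw [coe_jBar, coeffEmb, ← jqModC_rat, coeffMap_jqModC]

theorem dl_transcendental_jBar (N : ℕ) : Transcendental Qbar (jBar N) := by
  have h := dl_transcendental_jqModC Qbar
  rw [← dl_coe_jBar N] at h
  exact (transcendental_algebraMap_iff
    (FaithfulSMul.algebraMap_injective (FBar N) (LaurentSeries Qbar))).mp h

/-- **C4a** (AnSpec): `j` is a coordinate of the modular function field `F_N / Q̄`. -/
theorem isCoordinate_jBar (N : ℕ) [NeZero N] : IsCoordinate Qbar (FBar N) (jBar N) :=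
  ⟨dl_transcendental_jBar N, finiteDimensional_jBar N⟩

/-- **C4b** (AnSpec): `ψ(N) ≤ [F_N : Q̄(j)]`. -/
theorem dedekindPsi_le_cdeg (N : ℕ) [NeZero N] :
    dedekindPsi N ≤ cdeg Qbar (FBar N) (jBar N) :=
  dedekindPsi_le_cdeg_of_finite N (finiteDimensional_jBar N)

end Fermat.Agent.S24x
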