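/-
S24 helper library (helper44): bridge from B2 (`JqAnalytic.lean`: `hasSum_jNum`) to the
convergent-Laurent-series vocabulary of `ConvLaurent.lean` (helper92) used by C1 (`Realize`).

Main results (prefix `jqc_`):
* `jqc_lconv_jd`  : for `d ≥ 1`, the `ℂ`-image (through `iotaQ`) of the `q`-expansion
  `coeffEmb Qbar (qExpand ℚ d jq)` of `j(dτ)` converges on the punctured unit disc;
* `jqc_lEval_jd`  : its value at `q(τ)` is `jFun τ'` whenever `τ' = d • τ`;
* `jqc_lconv_jdBar`, `jqc_lEval_jdBar` : the same for `((jdBar N d hd : FBar N) : LaurentSeries Qbar)`.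
-/
import Mathlib
import Fermat.Agent.S24x.JqAnalytic
import Fermat.Agent.S24x.ConvLaurent
import Fermat.Agent.S24x.Iota
import Fermat.Agent.S24x.AlgDefs
import Fermat.Prelude.Def_ModularCurve_X0ModL

set_option autoImplicit false

namespace Fermat.Agent.S24x

open UpperHalfPlane ModularCurve Function HahnSeries

/-! ### power series as Laurent series -/

theorem jqc_lTerm_ofPowerSeries_natCast (p : PowerSeries ℂ) (q : ℂ) (n : ℕ) :
    lTerm (HahnSeries.ofPowerSeries ℤ ℂ p) q (n : ℤ) = PowerSeries.coeff n p * q ^ n := by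
  unfold lTerm
  rw [HahnSeries.ofPowerSeries_apply_coeff, zpow_natCast]

theorem jqc_lTerm_ofPowerSeries_of_notMem_range (p : PowerSeries ℂ) (q : ℂ) {k : ℤ}
    (hk : k ∉ Set.range (fun n : ℕ => (n : ℤ))) :
    lTerm (HahnSeries.ofPowerSeries ℤ ℂ p) q k = 0 := by
  unfold lTerm
  rw [ofPowerSeries_coeff_of_neg, zero_mul]
  by_contra hlt
  rw [not_lt] at hlt
  exact hk ⟨k.toNat, Int.toNat_of_nonneg hlt⟩

theorem jqc_lconv_ofPowerSeries {p : PowerSeries ℂ} (hp : PSConv p) :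
    LConv (HahnSeries.ofPowerSeries ℤ ℂ p) := by
  intro q _ hq
  have h := hp q hq
  rw [← (Nat.cast_injective (R := ℤ)).summable_iff]
  · refine h.congr fun n => ?_
    simp only [Function.comp_apply]
    rw [jqc_lTerm_ofPowerSeries_natCast]
  · intro k hk
    rw [jqc_lTerm_ofPowerSeries_of_notMem_range p q hk, norm_zero]

theorem jqc_lEval_ofPowerSeries (p : PowerSeries ℂ) (q : ℂ) :
    lEval (HahnSeries.ofPowerSeries ℤ ℂ p) q = psSum p q := by
  unfold lEval psSum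
  rw [← (Nat.cast_injective (R := ℤ)).tsum_eq]
  · exact tsum_congr fun n => jqc_lTerm_ofPowerSeries_natCast p q n
  · intro k hk
    by_contra h
    exact hk (jqc_lTerm_ofPowerSeries_of_notMem_range p q h)

/-! ### the `q`-expansion of `j` with complex coefficients -/

/-- `jNum` with complex coefficients -/
noncomputable def jqc_jNumC : PowerSeries ℂ := jNum.map (Int.castRingHom ℂ)

/-- `jq` with complex coefficients -/
noncomputable def jqc_jqC : LaurentSeries ℂ := coeffMap (algebraMap ℚ ℂ) jq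

theorem jqc_jqC_eq :
    jqc_jqC = HahnSeries.single (-1 : ℤ) (1 : ℂ) * HahnSeries.ofPowerSeries ℤ ℂ jqc_jNumC := by
  unfold jqc_jqC jqc_jNumC jq jNumQ
  rw [map_mul, coeffMap_single, map_one, coeffMap_ofPowerSeries,
    ← RingHom.comp_apply (PowerSeries.map (algebraMap ℚ ℂ)) (PowerSeries.map (Int.castRingHom ℚ)),
    ← PowerSeries.map_comp,
    RingHom.ext_int ((algebraMap ℚ ℂ).comp (Int.castRingHom ℚ)) (Int.castRingHom ℂ)]

theorem jqc_coeff_jNumC (m : ℕ) :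
    PowerSeries.coeff m jqc_jNumC = ((PowerSeries.coeff m jNum : ℤ) : ℂ) := by
  unfold jqc_jNumC
  rw [PowerSeries.coeff_map]
  rfl

theorem jqc_psConv_jNumC : PSConv jqc_jNumC := by
  refine psConv_of_summable _ fun τ => ?_
  have h := (hasSum_jNum τ).summable
  refine h.congr fun n => ?_
  rw [jqc_coeff_jNumC]
  rfl

theorem jqc_psSum_jNumC (τ : ℍ) : psSum jqc_jNumC (qOf τ) = qOf τ * jFun τ := by
  unfold psSum
  have h := (hasSum_jNum τ).tsum_eq
  show _ = Function.Periodic.qParam 1 (τ : ℂ) * jFun τ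
  rw [← h]
  refine tsum_congr fun n => ?_
  rw [jqc_coeff_jNumC]
  rfl

theorem jqc_lconv_jqC : LConv jqc_jqC := by
  rw [jqc_jqC_eq]
  exact (lconv_single _ _).mul (jqc_lconv_ofPowerSeries jqc_psConv_jNumC)

theorem jqc_lEval_jqC (τ : ℍ) : lEval jqc_jqC (qOf τ) = jFun τ := by
  rw [jqc_jqC_eq, lEval_mul (lconv_single _ _) (jqc_lconv_ofPowerSeries jqc_psConv_jNumC)
    (qOf_ne_zero τ) (norm_qOf_lt_one τ), lEval_single, jqc_lEval_ofPowerSeries,
    jqc_psSum_jNumC, one_mul, zpow_neg_one, ← mul_assoc, inv_mul_cancel₀ (qOf_ne_zero τ), one_mul]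

/-! ### `j(dτ)` -/

theorem jqc_iotaQ_comp_algebraMap : iotaQ.comp (algebraMap ℚ Qbar) = algebraMap ℚ ℂ :=
  RingHom.ext_rat _ _

/-- the `ℂ`-image of `coeffEmb Qbar x` is the `ℂ`-image of `x` -/
theorem jqc_coeffMap_iotaQ_coeffEmb (x : LaurentSeries ℚ) :
    coeffMap iotaQ (coeffEmb Qbar x) = coeffMap (algebraMap ℚ ℂ) x := by
  rw [coeffEmb, coeffMap_coeffMap, coeffMap_congr jqc_iotaQ_comp_algebraMap]

variable (d : ℕ) [NeZero d]

theorem jqc_coeffMap_jd :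
    coeffMap iotaQ (coeffEmb Qbar (qExpand ℚ d jq)) = qExpand ℂ d jqc_jqC := by
  rw [jqc_coeffMap_iotaQ_coeffEmb, coeffMap_qExpand]
  rfl

/-- **Convergence of the `q`-expansion of `j(dτ)`** (complex image through `iotaQ`). -/
theorem jqc_lconv_jd : LConv (coeffMap iotaQ (coeffEmb Qbar (qExpand ℚ d jq))) := by
  rw [jqc_coeffMap_jd]
  exact jqc_lconv_jqC.qExpand d

omit [NeZero d] in
theorem jqc_qOf_pow (τ τ' : ℍ) (h : (τ' : ℂ) = (d : ℂ) * (τ : ℂ)) : qOf τ ^ d = qOf τ' := by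
  unfold qOf Function.Periodic.qParam
  rw [← Complex.exp_nat_mul, h]
  congr 1
  ring

/-- **Value of the `q`-expansion of `j(dτ)`**: it is `j(τ')` for `τ' = d • τ`. -/
theorem jqc_lEval_jd (τ τ' : ℍ) (h : (τ' : ℂ) = (d : ℂ) * (τ : ℂ)) :
    lEval (coeffMap iotaQ (coeffEmb Qbar (qExpand ℚ d jq))) (qOf τ) = jFun τ' := by
  rw [jqc_coeffMap_jd, lEval_qExpand, jqc_qOf_pow d τ τ' h, jqc_lEval_jqC]

/-- the point `d • τ` of the upper half plane -/
noncomputable def jqc_mulPt (τ : ℍ) : ℍ :=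
  ⟨(d : ℂ) * (τ : ℂ), by
    have hd : (0 : ℝ) < d := by exact_mod_cast Nat.pos_of_ne_zero (NeZero.ne d)
    have : ((d : ℂ) * (τ : ℂ)).im = d * τ.im := by
      simp [Complex.mul_im]
    show 0 < ((d : ℂ) * (τ : ℂ)).im
    rw [this]
    exact mul_pos hd τ.im_pos⟩

theorem jqc_coe_mulPt (τ : ℍ) : ((jqc_mulPt d τ : ℍ) : ℂ) = (d : ℂ) * (τ : ℂ) := rfl

theorem jqc_lEval_jd_mulPt (τ : ℍ) :
    lEval (coeffMap iotaQ (coeffEmb Qbar (qExpand ℚ d jq))) (qOf τ) = jFun (jqc_mulPt d τ) :=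
  jqc_lEval_jd d τ _ (jqc_coe_mulPt d τ)

/-! ### in terms of `jdBar` -/

theorem jqc_lconv_jdBar (N : ℕ) (hd : d ∣ N) :
    LConv (coeffMap iotaQ ((jdBar N d hd : FBar N) : LaurentSeries Qbar)) := by
  rw [coe_jdBar]
  exact jqc_lconv_jd d

theorem jqc_lEval_jdBar (N : ℕ) (hd : d ∣ N) (τ τ' : ℍ) (h : (τ' : ℂ) = (d : ℂ) * (τ : ℂ)) :
    lEval (coeffMap iotaQ ((jdBar N d hd : FBar N) : LaurentSeries Qbar)) (qOf τ) = jFun τ' := by
  rw [coe_jdBar]
  exact jqc_lEval_jd d τ τ' h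

theorem jqc_lconv_jBar (N : ℕ) :
    LConv (coeffMap iotaQ ((jBar N : FBar N) : LaurentSeries Qbar)) := by
  rw [coe_jBar, jqc_coeffMap_iotaQ_coeffEmb]
  exact jqc_lconv_jqC

theorem jqc_lEval_jBar (N : ℕ) (τ : ℍ) :
    lEval (coeffMap iotaQ ((jBar N : FBar N) : LaurentSeries Qbar)) (qOf τ) = jFun τ := by
  rw [coe_jBar, jqc_coeffMap_iotaQ_coeffEmb]
  exact jqc_lEval_jqC τ

end Fermat.Agent.S24x
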