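import Mathlib
import Fermat.Agent.S24x.JFun

/-!
# S24 project, module B3: `SL(2,ℤ)`-invariant holomorphic functions with a pole of finite order
at `i∞` are polynomials in `j`
-/

set_option autoImplicit false

namespace Fermat.Agent.S24x

open UpperHalfPlane ModularForm ModularFormClass MatrixGroups EisensteinSeries
open Filter Topology Asymptotics
open scoped Manifold

/-- `E₄ ^ n` as a level-one form of weight `4 n`, with constant term `1`. -/
noncomputable def loi_E4pow (n : ℕ) : ModularForm 𝒮ℒ ((n : ℤ) * 4) := E₄.pow n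

lemma loi_E4pow_apply (n : ℕ) (z : ℍ) : loi_E4pow n z = E₄ z ^ n := by
  simp [loi_E4pow, ModularForm.coe_pow]

lemma loi_E4pow_coeffZero (n : ℕ) : (qExpansion 1 (loi_E4pow n)).coeff 0 = 1 := by
  rw [loi_E4pow, ModularForm.qExpansion_pow one_pos one_mem_strictPeriods_SL,
    PowerSeries.coeff_zero_eq_constantCoeff_apply, map_pow,
    ← PowerSeries.coeff_zero_eq_constantCoeff_apply, jf_E₄_coeffZero, one_pow]

/-- `Δ^m * G` is invariant of weight `12 m` if `G` is invariant of weight `0`. -/
lemma loi_slash_discriminant_pow_mul (m : ℕ) (G : ℍ → ℂ)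
    (hinv : ∀ (γ : SL(2, ℤ)) (z : ℍ), G (γ • z) = G z) (γ : SL(2, ℤ)) :
    (fun z => ModularForm.discriminant z ^ m * G z) ∣[((m : ℤ) * 12)] γ =
      fun z => ModularForm.discriminant z ^ m * G z := by
  funext z
  have hd := jf_denom_SL_ne_zero γ z
  rw [jf_slash_apply_SL, hinv γ z, jf_discriminant_smul γ z, mul_pow, ← zpow_natCast
    (denom γ z ^ (12 : ℤ)), ← zpow_mul]
  have e : (12 : ℤ) * (m : ℤ) = (m : ℤ) * 12 := mul_comm _ _
  rw [e]
  have : denom γ z ^ ((m : ℤ) * 12) * ModularForm.discriminant z ^ m * G z *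
      denom γ z ^ (-((m : ℤ) * 12)) =
      (denom γ z ^ ((m : ℤ) * 12) * denom γ z ^ (-((m : ℤ) * 12))) *
        (ModularForm.discriminant z ^ m * G z) := by ring
  rw [this, ← zpow_add₀ hd, add_neg_cancel, zpow_zero, one_mul]

/-- the polynomial identity used in the induction step -/
lemma loi_step_identity (m : ℕ) (c : ℂ) (G : ℍ → ℂ) (z : ℍ) :
    ModularForm.discriminant z ^ m * (G z - c * jFun z ^ (m + 1)) =
      (ModularForm.discriminant z ^ (m + 1) * G z - c * E₄ z ^ (3 * (m + 1))) /
        ModularForm.discriminant z := by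
  have hΔ := discriminant_ne_zero z
  rw [jFun, div_pow, ← pow_mul]
  field_simp
  ring

/-- **Level-one invariants are polynomials in `j`.**  A holomorphic `SL(2,ℤ)`-invariant function
`G` on `ℍ` such that `Δ^m G` is bounded at `i∞` is a polynomial of degree `≤ m` in `jFun`. -/
theorem exists_polynomial_jFun_of_discriminant_pow (m : ℕ) :
    ∀ (G : ℍ → ℂ), MDiff G → (∀ (γ : SL(2, ℤ)) (z : ℍ), G (γ • z) = G z) →
      IsBoundedAtImInfty (fun z => ModularForm.discriminant z ^ m * G z) →
      ∃ p : Polynomial ℂ, p.natDegree ≤ m ∧ ∀ z, G z = p.eval (jFun z) := by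
  induction m with
  | zero =>
    intro G hol hinv hbd
    have hbd' : IsBoundedAtImInfty G := by
      have : (fun z => ModularForm.discriminant z ^ 0 * G z) = G := by
        funext z; rw [pow_zero, one_mul]
      rwa [this] at hbd
    have hinv' : ∀ γ : SL(2, ℤ), G ∣[(0 : ℤ)] γ = G := by
      intro γ
      rw [jf_slash_zero_SL]
      funext z
      exact hinv γ z
    obtain ⟨c, hc⟩ := levelOne_weight_zero_const (jf_mkLevelOne 0 G hol hinv' hbd')
    rw [jf_coe_mkLevelOne] at hc
    refine ⟨Polynomial.C c, by simp, fun z => ?_⟩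
    rw [Polynomial.eval_C, hc]
    rfl
  | succ m ih =>
    intro G hol hinv hbd
    -- the modular form `F = Δ^(m+1) G` of weight `12 (m+1)`
    have hk : (((3 * (m + 1) : ℕ) : ℤ) * 4) = ((m + 1 : ℕ) : ℤ) * 12 := by push_cast; ring
    let F : ModularForm 𝒮ℒ (((m + 1 : ℕ) : ℤ) * 12) :=
      jf_mkLevelOne _ (fun z => ModularForm.discriminant z ^ (m + 1) * G z)
        (jf_mdiff_mul (jf_mdiff_pow jf_mdiff_discriminant (m + 1)) hol)
        (loi_slash_discriminant_pow_mul (m + 1) G hinv) hbd
    let Em : ModularForm 𝒮ℒ (((m + 1 : ℕ) : ℤ) * 12) :=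
      ModularForm.mcast hk (loi_E4pow (3 * (m + 1)))
    have hEm : (qExpansion 1 Em).coeff 0 = 1 := by
      show (qExpansion 1 (ModularForm.mcast hk (loi_E4pow (3 * (m + 1))))).coeff 0 = 1
      rw [ModularForm.qExpansion_mcast]
      exact loi_E4pow_coeffZero _
    set c : ℂ := (qExpansion 1 F).coeff 0 with hc
    have hcusp : ModularForm.IsCuspForm (F - c • Em) := ModularForm.sub_smul_isCuspForm F Em hEm
    have h0 := (ModularForm.isCuspForm_iff_coeffZero_eq_zero _).mp hcusp
    let g : CuspForm 𝒮ℒ (((m + 1 : ℕ) : ℤ) * 12) := ModularForm.toCuspForm (F - c • Em) h0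
    have hg : ∀ z, g z = ModularForm.discriminant z ^ (m + 1) * G z - c * E₄ z ^ (3 * (m + 1)) := by
      intro z
      show (F - c • Em) z = _
      rw [sub_apply, smul_apply]
      show ModularForm.discriminant z ^ (m + 1) * G z - c • (loi_E4pow (3 * (m + 1))) z = _
      rw [loi_E4pow_apply, smul_eq_mul]
    have hO : (⇑g) =O[atImInfty] ModularForm.discriminant :=
      CuspForm.exp_decay_isBigO_discriminant g
    -- the new function
    let G' : ℍ → ℂ := fun z => G z - c * jFun z ^ (m + 1)
    have hol' : MDiff G' :=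
      jf_mdiff_sub hol (jf_mdiff_mul (jf_mdiff_const c) (jf_mdiff_pow jFun_mdiff (m + 1)))
    have hinv' : ∀ (γ : SL(2, ℤ)) (z : ℍ), G' (γ • z) = G' z := by
      intro γ z
      simp only [G']
      rw [hinv γ z, jFun_smul γ z]
    have hbd' : IsBoundedAtImInfty (fun z => ModularForm.discriminant z ^ m * G' z) := by
      have e : (fun z => ModularForm.discriminant z ^ m * G' z) =
          fun z => g z / ModularForm.discriminant z := by
        funext z
        rw [hg z]
        exact loi_step_identity m c G z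
      rw [e]
      show (fun z => g z / ModularForm.discriminant z) =O[atImInfty] (1 : ℍ → ℝ)
      obtain ⟨C, hC⟩ := hO.bound
      refine IsBigO.of_bound C ?_
      filter_upwards [hC] with z hz
      have hΔ : 0 < ‖ModularForm.discriminant z‖ := norm_pos_iff.mpr (discriminant_ne_zero z)
      rw [norm_div, Pi.one_apply, norm_one, mul_one, div_le_iff₀ hΔ]
      exact hz
    obtain ⟨p', hp', hGp'⟩ := ih G' hol' hinv' hbd'
    refine ⟨p' + Polynomial.C c * Polynomial.X ^ (m + 1), ?_, fun z => ?_⟩
    · refine (Polynomial.natDegree_add_le _ _).trans (max_le (hp'.trans (Nat.le_succ m)) ?_)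
      exact (Polynomial.natDegree_C_mul_X_pow_le c (m + 1))
    · rw [Polynomial.eval_add, Polynomial.eval_mul, Polynomial.eval_C, Polynomial.eval_pow,
        Polynomial.eval_X, ← hGp' z]
      simp only [G']
      ring

/-- `Δ / q` tends to `1` at `i∞`. -/
lemma loi_tendsto_tprod :
    Tendsto (fun z : ℍ => ∏' n : ℕ, (1 - ModularForm.eta_q n z) ^ 24) atImInfty (𝓝 1) :=
  tendsto_atImInfty_tprod_one_sub_eta_q_pow

/-- **Level-one invariants are polynomials in `j`**, `q`-version: a holomorphic
`SL(2,ℤ)`-invariant function `G` on `ℍ` such that `q^m G` is bounded at `i∞` is a polynomial of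
degree `≤ m` in `jFun`. -/
theorem exists_polynomial_jFun (m : ℕ) (G : ℍ → ℂ) (hol : MDiff G)
    (hinv : ∀ (γ : SL(2, ℤ)) (z : ℍ), G (γ • z) = G z)
    (hbd : IsBoundedAtImInfty (fun z : ℍ => Function.Periodic.qParam 1 (z : ℂ) ^ m * G z)) :
    ∃ p : Polynomial ℂ, p.natDegree ≤ m ∧ ∀ z, G z = p.eval (jFun z) := by
  apply exists_polynomial_jFun_of_discriminant_pow m G hol hinv
  have e : (fun z => ModularForm.discriminant z ^ m * G z) =
      (fun z : ℍ => (∏' n : ℕ, (1 - ModularForm.eta_q n z) ^ 24) ^ m) *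
        (fun z : ℍ => Function.Periodic.qParam 1 (z : ℂ) ^ m * G z) := by
    funext z
    rw [Pi.mul_apply, discriminant_eq_q_prod z, mul_pow]
    ring
  rw [e]
  exact (jf_isBoundedAtImInfty_of_tendsto (loi_tendsto_tprod.pow m)).mul hbd

/-- Variant with a denominator: if `jFun^k * G` is holomorphic, and `q^m jFun^k G` is bounded at
`i∞`, then `jFun^k * G` is a polynomial of degree `≤ m` in `jFun`. -/
theorem exists_polynomial_jFun_of_pow_mul (k m : ℕ) (G : ℍ → ℂ)
    (hol : MDiff (fun z => jFun z ^ k * G z))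
    (hinv : ∀ (γ : SL(2, ℤ)) (z : ℍ), G (γ • z) = G z)
    (hbd : IsBoundedAtImInfty
      (fun z : ℍ => Function.Periodic.qParam 1 (z : ℂ) ^ m * (jFun z ^ k * G z))) :
    ∃ p : Polynomial ℂ, p.natDegree ≤ m ∧ ∀ z, jFun z ^ k * G z = p.eval (jFun z) :=
  exists_polynomial_jFun m (fun z => jFun z ^ k * G z) hol
    (fun γ z => by simp only [jFun_smul γ z, hinv γ z]) hbd

/-- A polynomial is determined by its values on the image of `jFun`. -/
theorem polynomial_eq_of_eval_jFun_eq {p q : Polynomial ℂ}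
    (h : ∀ z, p.eval (jFun z) = q.eval (jFun z)) : p = q := by
  apply Polynomial.funext
  intro c
  obtain ⟨z, rfl⟩ := jFun_surjective c
  exact h z

end Fermat.Agent.S24x
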