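/-
S24 module C4a (shadow by helper27): the modular function field `F_N = Q̄(j(q^d) : d ∣ N)` is a
finite extension of `Q̄(j)`.

* `fbf_adjoin_gens_eq_top`: `F_N` is generated over `Q̄` by the finitely many `j(q^d)`, `d ∣ N`;
* `fbf_transcendental_jBar`: `j` is transcendental over `Q̄` (pole of order one);
* `fbf_isIntegral_jdBar`: each `j(q^d)` is algebraic over `Q̄(j)`: over `ℂ` this is S23x
  (`jNL d` is integral over `ℂ(jL)`, norm polynomial of `Γ₀(d)`), and algebraic independence
  over `Q̄` inside `Q̄((q))` is preserved by coefficientwise extension of scalars to `ℂ((q))`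
  (linear disjointness, `LinDisjoint.lean`);
* `fbf_finiteDimensional_jBar`, `fbf_isCoordinate_jBar`, `fbf_dedekindPsi_le_cdeg`.
-/
import Mathlib
import Fermat.Agent.S24x.AlgDefs
import Fermat.Agent.S24x.LinDisjoint
import Fermat.Agent.S24x.Iota
import Fermat.Agent.S24x.DegreeLowerCore
import Fermat.Agent.S23x.FieldGen

set_option autoImplicit false

namespace Fermat.Agent.S24x

open ModularCurve IntermediateField

/-! ### generators of `F_N` -/

/-- `coeffEmb` of a rational constant. -/
theorem fbf_coeffEmb_algebraMap (L : Type*) [Field L] [Algebra ℚ L] (r : ℚ) :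
    coeffEmb L (algebraMap ℚ (LaurentSeries ℚ) r) =
      algebraMap L (LaurentSeries L) (algebraMap ℚ L r) := by
  rw [algebraMap_laurentSeries_eq_single, algebraMap_laurentSeries_eq_single]
  ext k
  rw [coeffEmb_coeff]
  by_cases hk : k = 0
  · subst hk; simp
  · simp [HahnSeries.coeff_single_of_ne hk]

/-- The base change `Q̄ F₀` of `F₀ = ℚ(S)` is generated over `Q̄` by the image of `S`. -/
theorem fbf_laurentBaseChange_adjoin (L : Type*) [Field L] [Algebra ℚ L]
    (S : Set (LaurentSeries ℚ)) :
    laurentBaseChange L (IntermediateField.adjoin ℚ S) =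
      IntermediateField.adjoin L (⇑(coeffEmb L) '' S) := by
  apply le_antisymm
  · rw [laurentBaseChange, adjoin_le_iff]
    rintro _ ⟨x, hx, rfl⟩
    induction hx using IntermediateField.adjoin_induction with
    | mem x hx => exact subset_adjoin L _ ⟨x, hx, rfl⟩
    | algebraMap r =>
      rw [fbf_coeffEmb_algebraMap]
      exact IntermediateField.algebraMap_mem _ _
    | add x y _ _ hx hy => rw [map_add]; exact add_mem hx hy
    | inv x _ hx => rw [map_inv₀]; exact inv_mem hx
    | mul x y _ _ hx hy => rw [map_mul]; exact mul_mem hx hy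
  · rw [laurentBaseChange]
    exact adjoin.mono L _ _ (Set.image_mono (subset_adjoin ℚ S))


/-- the set of generators `j(q^d)`, `d ∣ N`, of `FBar N`. -/
def fbfGens (N : ℕ) : Set (FBar N) :=
  {x | ∃ (d : ℕ) (_ : NeZero d) (hd : d ∣ N), x = jdBar N d hd}

theorem fbf_val_image_gens (N : ℕ) :
    (⇑(modularFunctionFieldBar N).val '' fbfGens N) =
      (⇑(coeffEmb Qbar) '' divisorExpansions N) := by
  ext x
  constructor
  · rintro ⟨_, ⟨d, hne, hd, rfl⟩, rfl⟩
    exact ⟨qExpand ℚ d jq, ⟨d, hne, hd, rfl⟩, rfl⟩
  · rintro ⟨_, ⟨d, hne, hd, rfl⟩, rfl⟩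
    exact ⟨@jdBar N d hne hd, ⟨d, hne, hd, rfl⟩, rfl⟩

/-- `FBar N` is generated over `Q̄` by the `j(q^d)`, `d ∣ N`. -/
theorem fbf_adjoin_gens_eq_top (N : ℕ) :
    IntermediateField.adjoin Qbar (fbfGens N) = ⊤ := by
  rw [eq_top_iff]
  rintro ⟨y, hy⟩ -
  have h1 : modularFunctionFieldBar N =
      IntermediateField.adjoin Qbar (⇑(coeffEmb Qbar) '' divisorExpansions N) :=
    fbf_laurentBaseChange_adjoin Qbar (divisorExpansions N)
  have h2 : y ∈ (IntermediateField.adjoin Qbar (fbfGens N)).map (modularFunctionFieldBar N).val := by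
    rw [adjoin_map, fbf_val_image_gens, ← h1]
    exact hy
  obtain ⟨y', hy', hyy'⟩ := h2
  have : y' = ⟨y, hy⟩ := Subtype.ext hyy'
  rw [← this]
  exact hy'

theorem fbf_finite_gens (N : ℕ) [NeZero N] : (fbfGens N).Finite := by
  classical
  let g : ℕ → FBar N := fun d =>
    if h : d ∣ N ∧ d ≠ 0 then @jdBar N d ⟨h.2⟩ h.1 else 0
  refine ((N.divisors : Set ℕ).toFinite.image g).subset ?_
  rintro _ ⟨d, hne, hd, rfl⟩
  refine ⟨d, ?_, ?_⟩
  · simpa using ⟨hd, NeZero.ne N⟩
  · have h : d ∣ N ∧ d ≠ 0 := ⟨hd, NeZero.ne d⟩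
    simp only [g, dif_pos h]

set_option synthInstance.maxHeartbeats 400000 in
set_option maxHeartbeats 1000000 in
/-- assembly: if every generator is integral over `Q̄(j)` then `FBar N` is finite over `Q̄(j)`. -/
theorem fbf_finiteDimensional_of_isIntegral (N : ℕ) [NeZero N]
    (h : ∀ x ∈ fbfGens N, IsIntegral (IntermediateField.adjoin Qbar {jBar N}) x) :
    FiniteDimensional (IntermediateField.adjoin Qbar {jBar N}) (FBar N) := by
  have hfin : Finite (fbfGens N) := (fbf_finite_gens N).to_subtype
  have h1 : FiniteDimensional (IntermediateField.adjoin Qbar {jBar N})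
      (IntermediateField.adjoin (IntermediateField.adjoin Qbar {jBar N}) (fbfGens N)) :=
    IntermediateField.finiteDimensional_adjoin h
  have h2 : IntermediateField.adjoin (IntermediateField.adjoin Qbar {jBar N}) (fbfGens N) = ⊤ := by
    rw [← IntermediateField.restrictScalars_eq_top_iff (K := Qbar), adjoin_adjoin_left, eq_top_iff,
      ← fbf_adjoin_gens_eq_top N]
    exact adjoin.mono Qbar _ _ Set.subset_union_right
  rw [h2] at h1
  exact LinearEquiv.finiteDimensional
    (IntermediateField.topEquiv (F := IntermediateField.adjoin Qbar {jBar N})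
      (E := FBar N)).toLinearEquiv


/-! ### descent of algebraic independence and the modular equation -/

/-- algebraic independence = linear independence of the monomials. -/
theorem fbf_algebraicIndependent_iff_linearIndependent {ι R A : Type*} [CommRing R] [CommRing A]
    [Algebra R A] (x : ι → A) :
    AlgebraicIndependent R x ↔
      LinearIndependent R (fun m : ι →₀ ℕ => m.prod fun i k => x i ^ k) := by
  have h1 : (fun m : ι →₀ ℕ => m.prod fun i k => x i ^ k) =
      (MvPolynomial.aeval x).toLinearMap ∘ (MvPolynomial.basisMonomials ι R) := by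
    funext m
    simp [MvPolynomial.aeval_monomial]
  rw [h1, linearIndependent_iff_injective_finsuppLinearCombination,
    Finsupp.linearCombination_linear_comp, ← Module.Basis.coe_repr_symm]
  rw [LinearMap.coe_comp, LinearEquiv.coe_coe, Function.Injective.of_comp_iff'
    _ (MvPolynomial.basisMonomials ι R).repr.symm.bijective]
  rfl

theorem fbf_module_eq (K : Type*) [Field K] :
    (Algebra.toModule : Module K (LaurentSeries K)) = HahnSeries.instModule := by
  refine Module.ext' _ _ fun r x => ?_
  rw [Algebra.smul_def, algebraMap_laurentSeries_eq_single]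
  ext k
  rw [HahnSeries.coeff_single_zero_mul]
  rfl

/-- coefficientwise extension of scalars preserves algebraic independence. -/
theorem fbf_algebraicIndependent_coeffMap {K L : Type*} [Field K] [Field L] [Algebra K L]
    {ι : Type*} {y : ι → LaurentSeries K} (hy : AlgebraicIndependent K y) :
    AlgebraicIndependent L (fun i => coeffMap (algebraMap K L) (y i)) := by
  have hy' := (fbf_algebraicIndependent_iff_linearIndependent y).1 hy
  rw [fbf_module_eq K] at hy'
  have h := ld_linearIndependent_coeffMap (L := L) hy'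
  rw [← fbf_module_eq L] at h
  refine (fbf_algebraicIndependent_iff_linearIndependent _).2 ?_
  have heq : (fun m : ι →₀ ℕ => m.prod fun i k => (coeffMap (algebraMap K L) (y i)) ^ k) =
      (fun m : ι →₀ ℕ => coeffMap (algebraMap K L) (m.prod fun i k => y i ^ k)) := by
    funext m
    rw [map_finsuppProd]
    simp only [map_pow]
  rw [heq]
  exact h


theorem fbf_coeff_algebraMap_mul {K : Type*} [Field K] (r : K) (x : LaurentSeries K) (k : ℤ) :
    (algebraMap K (LaurentSeries K) r * x).coeff k = r * x.coeff k := by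
  rw [algebraMap_laurentSeries_eq_single, HahnSeries.coeff_single_zero_mul]

/-- `j` is transcendental over `Q̄`. -/
theorem fbf_transcendental_jBar (N : ℕ) : Transcendental Qbar (jBar N) := by
  rw [transcendental_iff]
  intro p hp
  by_contra hp0
  have h1 : Polynomial.aeval ((jBar N : FBar N) : LaurentSeries Qbar) p = 0 := by
    have h := Polynomial.aeval_algHom_apply (modularFunctionFieldBar N).val (jBar N) p
    rw [hp, map_zero] at h
    exact h
  rw [coe_jBar, Polynomial.aeval_eq_sum_range] at h1
  simp only [Algebra.smul_def] at h1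
  have h2 := congrArg (fun x : LaurentSeries Qbar => x.coeff (-(p.natDegree : ℤ))) h1
  simp only [HahnSeries.coeff_zero] at h2
  have h3 : (∑ i ∈ Finset.range (p.natDegree + 1),
      algebraMap Qbar (LaurentSeries Qbar) (p.coeff i) *
        (coeffEmb Qbar jq) ^ i).coeff (-(p.natDegree : ℤ)) =
      ∑ i ∈ Finset.range (p.natDegree + 1),
        p.coeff i * algebraMap ℚ Qbar ((jq ^ i).coeff (-(p.natDegree : ℤ))) := by
    rw [HahnSeries.coeff_sum]
    refine Finset.sum_congr rfl fun i _ => ?_
    rw [fbf_coeff_algebraMap_mul, ← map_pow, coeffEmb_coeff]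
  rw [h3, Finset.sum_eq_single p.natDegree] at h2
  · rw [coeff_jq_pow_self, map_one, mul_one] at h2
    exact hp0 (Polynomial.leadingCoeff_eq_zero.1 h2)
  · intro i hi hne
    have hlt : i < p.natDegree :=
      lt_of_le_of_ne (Nat.lt_succ_iff.1 (Finset.mem_range.1 hi)) hne
    rw [coeff_jq_pow_of_lt (by exact_mod_cast neg_lt_neg (by exact_mod_cast hlt)), map_zero,
      mul_zero]
  · intro h
    exact absurd (Finset.mem_range.2 (Nat.lt_succ_self _)) h


/-- **modular equation (existence)**: `j(q^d)` is integral (= algebraic) over `Q̄(j)`. -/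
theorem fbf_isIntegral_jdBar (N d : ℕ) [NeZero d] (hd : d ∣ N) :
    IsIntegral Qbar⟮jBar N⟯ (jdBar N d hd) := by
  by_contra hnot
  have htr : Transcendental Qbar⟮jBar N⟯ (jdBar N d hd) := fun h => hnot h.isIntegral
  rw [IntermediateField.transcendental_adjoin_iff] at htr
  -- `(j, j_d)` is algebraically independent over `Q̄`
  have hJ : AlgebraicIndependent Qbar (fun _ : Unit => jBar N) :=
    (algebraicIndependent_unique_type_iff (ι := Unit)).2 (fbf_transcendental_jBar N)
  have hrange : Set.range (fun _ : Unit => jBar N) = {jBar N} := by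
    ext x; simp
  have h2 : AlgebraicIndependent Qbar
      (fun o : Option Unit => o.elim (jdBar N d hd) (fun _ => jBar N)) := by
    rw [hJ.option_iff_transcendental, hrange]
    exact htr
  -- transport to `ℂ((q))`
  have h3 : AlgebraicIndependent Qbar (fun o : Option Unit =>
      (modularFunctionFieldBar N).val (o.elim (jdBar N d hd) (fun _ => jBar N))) :=
    h2.map' (f := (modularFunctionFieldBar N).val) (modularFunctionFieldBar N).val.injective
  let _ : Algebra Qbar ℂ := iotaQ.toAlgebra
  have h4 := fbf_algebraicIndependent_coeffMap (L := ℂ) h3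
  have h5 : (fun o : Option Unit => coeffMap (algebraMap Qbar ℂ)
      ((modularFunctionFieldBar N).val (o.elim (jdBar N d hd) (fun _ => jBar N)))) =
      (fun o : Option Unit => o.elim (S23x.jNL d) (fun _ => S23x.jL)) := by
    funext o
    cases o with
    | none => exact dlPhi_jdBar N d hd
    | some u => exact dlPhi_jBar N
  rw [h5] at h4
  have hJL : AlgebraicIndependent ℂ (fun _ : Unit => S23x.jL) :=
    h4.comp (fun u : Unit => some u) (Option.some_injective _)
  have h6 := (hJL.option_iff_transcendental (S23x.jNL d)).1 h4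
  have hrange' : Set.range (fun _ : Unit => S23x.jL) = {S23x.jL} := by
    ext x; simp
  rw [hrange', ← IntermediateField.transcendental_adjoin_iff] at h6
  exact h6 (S23x.fg_isIntegral_of_mem d (S23x.fg_jNL_mem_ratioField d)).isAlgebraic


/-! ### the final statements -/

/-- **C4a**: `F_N` is a finite extension of `Q̄(j)`. -/
theorem fbf_finiteDimensional_jBar (N : ℕ) [NeZero N] :
    FiniteDimensional (IntermediateField.adjoin Qbar {jBar N}) (FBar N) :=
  fbf_finiteDimensional_of_isIntegral N (by
    rintro _ ⟨d, hne, hd, rfl⟩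
    exact @fbf_isIntegral_jdBar N d hne hd)

/-- `j` is a coordinate of `F_N`. -/
theorem fbf_isCoordinate_jBar (N : ℕ) [NeZero N] : IsCoordinate Qbar (FBar N) (jBar N) :=
  ⟨fbf_transcendental_jBar N, fbf_finiteDimensional_jBar N⟩

/-- **C4b** unconditionally: `ψ(N) ≤ [F_N : Q̄(j)]`. -/
theorem fbf_dedekindPsi_le_cdeg (N : ℕ) [NeZero N] :
    dedekindPsi N ≤ cdeg Qbar (FBar N) (jBar N) :=
  dedekindPsi_le_cdeg_of_finite N (fbf_finiteDimensional_jBar N)

end Fermat.Agent.S24x
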