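/-
S24 helper library (C2c): definitions for the order of a periodic holomorphic function of moderate
growth at the cusp `i∞`, in terms of two-sided exponential growth (no `q`-expansions in the
interface).
-/
import Mathlib

set_option autoImplicit false

namespace Fermat.Agent.S24x

open UpperHalfPlane
open scoped MatrixGroups Manifold

/-- `h : ℍ → ℂ` is holomorphic, `w`-periodic and of moderate growth at `i∞`. -/
structure IsCuspMer (w : ℕ) (h : ℍ → ℂ) : Prop where
  mdiff : MDiff h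
  periodic : ∀ τ : ℍ, h (ModularGroup.T ^ w • τ) = h τ
  growth : ∃ (m : ℕ) (C A : ℝ), ∀ τ : ℍ, A ≤ τ.im →
    ‖h τ‖ ≤ C * Real.exp (2 * Real.pi * m * τ.im)

/-- two-sided growth of exact exponential order: `|h τ| ≍ |q_w|^m = exp (-2π m Im τ / w)` as
`Im τ → ∞`, uniformly in `Re τ`. -/
def HasCuspGrowth (w : ℕ) (h : ℍ → ℂ) (m : ℤ) : Prop :=
  ∃ (c₁ c₂ A : ℝ), 0 < c₁ ∧ ∀ τ : ℍ, A ≤ τ.im →
    c₁ * Real.exp (-(2 * Real.pi * m * τ.im / w)) ≤ ‖h τ‖ ∧
    ‖h τ‖ ≤ c₂ * Real.exp (-(2 * Real.pi * m * τ.im / w))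

open scoped Classical in
/-- the order at `i∞` in the local parameter `q_w = exp (2π i τ / w)` (junk value `0` if there is
no exact growth order). -/
noncomputable def cuspOrd (w : ℕ) (h : ℍ → ℂ) : ℤ :=
  if hh : ∃ m : ℤ, HasCuspGrowth w h m then hh.choose else 0

end Fermat.Agent.S24x
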