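/-
S24 helper library (C2c-2): for `d ∣ N` and `g : SL(2, ℤ)` the function `τ ↦ j (d (g τ))` is
holomorphic, invariant under `T ^ N` and of moderate growth at `i∞`, i.e. `IsCuspMer N`.
-/
import Fermat.Agent.S24x.CuspDefs
import Fermat.Agent.S24x.JFun
import Fermat.Agent.S22x.Hermite

set_option autoImplicit false

namespace Fermat.Agent.S24x

open UpperHalfPlane ModularForm EisensteinSeries Filter Complex CongruenceSubgroup
open scoped MatrixGroups ModularForm Manifold Topology Real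

/-! ### an upper bound for `j` at `i∞` -/

theorem cgj_jFun_isBigO :
    jFun =O[atImInfty] fun τ : ℍ => Real.exp (2 * π * τ.im) := by
  have h1 : (fun τ : ℍ => (E₄ τ) ^ 3) =O[atImInfty] (fun _ : ℍ => (1 : ℝ)) :=
    (jf_tendsto_E₄.pow 3).isBigO_one ℝ
  have h2 : (fun τ : ℍ => (ModularForm.discriminant τ)⁻¹) =O[atImInfty]
      fun τ : ℍ => (Real.exp (-2 * π * τ.im))⁻¹ :=
    exp_isBigO_discriminant.inv_rev
      (Eventually.of_forall fun τ h => absurd h (Real.exp_ne_zero _))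
  have h3 := h1.mul h2
  refine (h3.congr_left fun τ => ?_).congr_right fun τ => ?_
  · simp [jFun, div_eq_mul_inv]
  · rw [one_mul, ← Real.exp_neg]
    congr 1
    ring

theorem cgj_jFun_bound : ∃ C A : ℝ, 0 < C ∧ ∀ τ : ℍ, A ≤ τ.im →
    ‖jFun τ‖ ≤ C * Real.exp (2 * π * τ.im) := by
  obtain ⟨C, hC, hb⟩ := cgj_jFun_isBigO.exists_pos
  have hb' := hb.bound
  rw [Filter.Eventually, atImInfty_mem] at hb'
  obtain ⟨A, hA⟩ := hb'
  refine ⟨C, A, hC, fun τ hτ => ?_⟩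
  have := hA τ hτ
  simpa [Real.norm_eq_abs, abs_of_pos (Real.exp_pos _)] using this

/-! ### the matrix `diag(d, 1)` -/

/-- the matrix `diag(d, 1)` in `GL(2, ℝ)`. -/
noncomputable def cgjDiag (d : ℕ) [NeZero d] : GL (Fin 2) ℝ :=
  Matrix.GeneralLinearGroup.mkOfDetNeZero !![(d : ℝ), 0; 0, 1]
    (by simp [Matrix.det_fin_two_of, NeZero.ne])

theorem cgjDiag_val (d : ℕ) [NeZero d] : (cgjDiag d).val = !![(d : ℝ), 0; 0, 1] := rfl

theorem cgjDiag_det_pos (d : ℕ) [NeZero d] : 0 < (cgjDiag d).det.val := by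
  have : (cgjDiag d).det.val = (cgjDiag d).val.det := rfl
  rw [this, cgjDiag_val, Matrix.det_fin_two_of]
  have : (0 : ℝ) < d := by exact_mod_cast Nat.pos_of_ne_zero (NeZero.ne d)
  simpa using this

theorem coe_cgjDiag_smul (d : ℕ) [NeZero d] (τ : ℍ) :
    ((cgjDiag d • τ : ℍ) : ℂ) = d * (τ : ℂ) := by
  rw [coe_smul_of_det_pos (cgjDiag_det_pos d)]
  simp [num, denom, cgjDiag_val]

/-- `τ ↦ j (d τ)`. -/
noncomputable def jdFun (d : ℕ) [NeZero d] : ℍ → ℂ := fun τ => jFun (cgjDiag d • τ)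

theorem jdFun_mdiff (d : ℕ) [NeZero d] : MDiff (jdFun d) :=
  jFun_mdiff.comp (mdifferentiable_smul (cgjDiag_det_pos d))

theorem jdFun_eq_of_apply (d : ℕ) [NeZero d] {h : ℍ → ℂ}
    (happ : ∀ τ : ℍ, ∃ τ' : ℍ, (τ' : ℂ) = d * (τ : ℂ) ∧ h τ = jFun τ') : h = jdFun d := by
  funext τ
  obtain ⟨τ', h1, h2⟩ := happ τ
  rw [h2, jdFun]
  congr 1
  ext
  rw [h1, coe_cgjDiag_smul]

/-! ### invariance under `Γ₀(d)` -/

theorem cgj_sl_smul (γ : SL(2, ℤ)) (τ : ℍ) :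
    γ • τ = (Matrix.SpecialLinearGroup.mapGL ℝ γ : GL (Fin 2) ℝ) • τ := rfl

theorem jdFun_smul_of_mem_Gamma0 (d : ℕ) [NeZero d] (γ : SL(2, ℤ)) (hγ : γ ∈ Gamma0 d) (τ : ℍ) :
    jdFun d (γ • τ) = jdFun d τ := by
  rw [Gamma0_mem, ZMod.intCast_zmod_eq_zero_iff_dvd] at hγ
  obtain ⟨c', hc'⟩ := hγ
  have hdet : γ.1 0 0 * γ.1 1 1 - γ.1 0 1 * γ.1 1 0 = 1 := by
    have h := γ.2
    rwa [Matrix.det_fin_two] at h
  let γ' : SL(2, ℤ) := ⟨!![γ.1 0 0, d * γ.1 0 1; c', γ.1 1 1], by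
    rw [Matrix.det_fin_two_of]
    rw [hc'] at hdet
    linarith⟩
  have hmat : cgjDiag d * (Matrix.SpecialLinearGroup.mapGL ℝ γ : GL (Fin 2) ℝ) =
      (Matrix.SpecialLinearGroup.mapGL ℝ γ' : GL (Fin 2) ℝ) * cgjDiag d := by
    apply Units.ext
    rw [Units.val_mul, Units.val_mul, cgjDiag_val]
    ext i j
    rw [Matrix.mul_apply, Matrix.mul_apply, Fin.sum_univ_two, Fin.sum_univ_two,
      S22x.mapGL_val_apply, S22x.mapGL_val_apply, S22x.mapGL_val_apply, S22x.mapGL_val_apply]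
    have hc'' : ((γ.1 1 0 : ℤ) : ℝ) = (d : ℝ) * (c' : ℝ) := by
      have : γ.1 1 0 = (d : ℤ) * c' := hc'
      rw [this]; push_cast; ring
    fin_cases i <;> fin_cases j <;> simp [γ', hc''] <;> ring
  rw [jdFun, jdFun, cgj_sl_smul, ← mul_smul, hmat, mul_smul, ← cgj_sl_smul, jFun_smul]

/-! ### periodicity -/

theorem cgj_conj_T_pow_mem (N d : ℕ) (hd : d ∣ N) (g : SL(2, ℤ)) :
    g * ModularGroup.T ^ N * g⁻¹ ∈ Gamma0 d := by
  have h1 : ModularGroup.T ^ N ∈ CongruenceSubgroup.Gamma N := by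
    have := ModularGroup_T_pow_mem_Gamma (N : ℤ) (N : ℤ) dvd_rfl
    simpa using this
  have h2 : g * ModularGroup.T ^ N * g⁻¹ ∈ CongruenceSubgroup.Gamma N := (Gamma_normal N).conj_mem _ h1 g
  rw [Gamma_mem] at h2
  rw [Gamma0_mem]
  have h3 := h2.2.2.1
  rw [ZMod.intCast_zmod_eq_zero_iff_dvd] at h3 ⊢
  exact (Int.natCast_dvd_natCast.mpr hd).trans h3

theorem jdFun_comp_periodic (N d : ℕ) [NeZero d] (hd : d ∣ N) (g : SL(2, ℤ)) (τ : ℍ) :
    jdFun d (g • (ModularGroup.T ^ N • τ)) = jdFun d (g • τ) := by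
  have h : g • (ModularGroup.T ^ N • τ) = (g * ModularGroup.T ^ N * g⁻¹) • (g • τ) := by
    rw [mul_smul, mul_smul, inv_smul_smul]
  rw [h, jdFun_smul_of_mem_Gamma0 d _ (cgj_conj_T_pow_mem N d hd g)]

/-! ### growth -/

theorem cgjDiag_mem_M2pos (d : ℕ) [NeZero d] : cgjDiag d ∈ S22x.M2pos := by
  refine ⟨cgjDiag_det_pos d, fun i j => ?_⟩
  rw [cgjDiag_val]
  fin_cases i <;> fin_cases j
  · exact ⟨d, by simp⟩
  · exact ⟨0, by simp⟩
  · exact ⟨0, by simp⟩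
  · exact ⟨1, by simp⟩

theorem jdFun_comp_growth (d : ℕ) [NeZero d] (g : SL(2, ℤ)) :
    ∃ C A : ℝ, ∀ τ : ℍ, A ≤ τ.im →
      ‖jdFun d (g • τ)‖ ≤ C * Real.exp (2 * π * d * τ.im) := by
  obtain ⟨C, A₀, hC, hbound⟩ := cgj_jFun_bound
  have hM : cgjDiag d * (Matrix.SpecialLinearGroup.mapGL ℝ g : GL (Fin 2) ℝ) ∈ S22x.M2pos :=
    S22x.M2pos.mul_mem (cgjDiag_mem_M2pos d) (S22x.mapGL_mem_M2pos g)
  obtain ⟨γ', b, hb, hb10, hfac⟩ := S22x.exists_SL2Z_mul_upper hM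
  have hdpos : (0 : ℝ) < d := by exact_mod_cast Nat.pos_of_ne_zero (NeZero.ne d)
  -- determinant of `b`
  have hdetb : b.val.det = d := by
    have h1 : (cgjDiag d * (Matrix.SpecialLinearGroup.mapGL ℝ g : GL (Fin 2) ℝ)).val.det =
        ((Matrix.SpecialLinearGroup.mapGL ℝ γ' : GL (Fin 2) ℝ) * b).val.det := by rw [hfac]
    rw [Units.val_mul, Units.val_mul, Matrix.det_mul, Matrix.det_mul, S22x.mapGL_val_det,
      S22x.mapGL_val_det, cgjDiag_val, Matrix.det_fin_two_of] at h1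
    linarith
  have hb10' : b.val 1 0 = 0 := hb10
  have hprod : b.val 0 0 * b.val 1 1 = d := by
    rw [Matrix.det_fin_two, hb10'] at hdetb
    linarith
  obtain ⟨n, hn⟩ := hb.2 1 1
  have hn0 : n ≠ 0 := by
    rintro rfl
    rw [hn] at hprod
    simp at hprod
    exact hdpos.ne hprod
  have hsq : (1 : ℝ) ≤ b.val 1 1 ^ 2 := by
    rw [hn]
    have : (1 : ℤ) ≤ n ^ 2 := by
      have := sq_nonneg n
      have h0 : n ^ 2 ≠ 0 := pow_ne_zero 2 hn0
      omega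
    exact_mod_cast this
  have hsqpos : (0 : ℝ) < b.val 1 1 ^ 2 := lt_of_lt_of_le one_pos hsq
  -- the imaginary part of `b • τ`
  have him : ∀ τ : ℍ, (b • τ).im = d * τ.im / b.val 1 1 ^ 2 := by
    intro τ
    rw [UpperHalfPlane.im_smul_eq_div_normSq]
    have hden : denom b τ = ((b.val 1 1 : ℝ) : ℂ) := by
      simp [denom, hb10']
    have hdet' : b.det.val = b.val.det := rfl
    rw [hden, Complex.normSq_ofReal, hdet', hdetb, abs_of_pos hdpos, ← sq]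
  -- rewrite the function
  have hfun : ∀ τ : ℍ, jdFun d (g • τ) = jFun (b • τ) := by
    intro τ
    rw [jdFun, cgj_sl_smul, ← mul_smul, hfac, mul_smul, ← cgj_sl_smul, jFun_smul]
  refine ⟨C, A₀ * b.val 1 1 ^ 2 / d, fun τ hτ => ?_⟩
  rw [hfun]
  have h1 : A₀ ≤ (b • τ).im := by
    rw [him, le_div_iff₀ hsqpos]
    rw [div_le_iff₀ hdpos] at hτ
    linarith
  refine (hbound _ h1).trans ?_
  apply mul_le_mul_of_nonneg_left _ hC.le
  apply Real.exp_le_exp.mpr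
  rw [him]
  have h2 : (d : ℝ) * τ.im / b.val 1 1 ^ 2 ≤ d * τ.im := by
    rw [div_le_iff₀ hsqpos]
    have : 0 ≤ (d : ℝ) * τ.im := mul_nonneg hdpos.le τ.im_pos.le
    nlinarith
  have hpi := Real.pi_pos
  nlinarith

/-! ### the result -/

theorem isCuspMer_jdFun_comp (N d : ℕ) [NeZero d] (hd : d ∣ N) (g : SL(2, ℤ)) :
    IsCuspMer N (fun τ => jdFun d (g • τ)) := by
  refine ⟨?_, fun τ => jdFun_comp_periodic N d hd g τ, ?_⟩
  · have h : MDiff (fun τ : ℍ => g • τ) := by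
      have := mdifferentiable_smul (g := (Matrix.SpecialLinearGroup.mapGL ℝ g : GL (Fin 2) ℝ))
        (by simp)
      exact this
    exact (jdFun_mdiff d).comp h
  · obtain ⟨C, A, h⟩ := jdFun_comp_growth d g
    exact ⟨d, C, A, h⟩

/-- version for an arbitrary function with the interface of `jdHol_apply`. -/
theorem isCuspMer_comp_of_apply (N d : ℕ) [NeZero d] (hd : d ∣ N) (g : SL(2, ℤ)) {h : ℍ → ℂ}
    (happ : ∀ τ : ℍ, ∃ τ' : ℍ, (τ' : ℂ) = d * (τ : ℂ) ∧ h τ = jFun τ') :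
    IsCuspMer N (fun τ => h (g • τ)) := by
  rw [jdFun_eq_of_apply d happ]
  exact isCuspMer_jdFun_comp N d hd g

end Fermat.Agent.S24x
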