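/-
S24 helper library (C2c-1): existence of an exact exponential growth order at `i∞` for a nonzero
holomorphic periodic function of moderate growth on the upper half plane.
-/
import Mathlib
import Fermat.Agent.S24x.CuspDefs

set_option autoImplicit false

namespace Fermat.Agent.S24x

open UpperHalfPlane Complex Filter Function Metric Set
open scoped MatrixGroups Manifold Topology Real

local notation "𝕢" => Function.Periodic.qParam

/-- `T ^ w` acts as the translation by `w`. -/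
theorem cge_coe_T_pow_smul (w : ℕ) (τ : ℍ) :
    ((ModularGroup.T ^ w • τ : ℍ) : ℂ) = (τ : ℂ) + ((w : ℝ) : ℂ) := by
  have h := ModularGroup.coe_T_zpow_smul_eq (z := τ) (n := (w : ℤ))
  rw [zpow_natCast] at h
  rw [h]
  simp

/-- a function on `ℍ` invariant under `T ^ w` gives a `w`-periodic function on `ℂ`. -/
theorem cge_periodic_comp_ofComplex {w : ℕ} {h : ℍ → ℂ}
    (hper : ∀ τ : ℍ, h (ModularGroup.T ^ w • τ) = h τ) :
    Periodic (h ∘ ofComplex) (w : ℝ) := by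
  intro z
  by_cases hz : 0 < im z
  · have hz' : 0 < im (z + ((w : ℝ) : ℂ)) := by simpa using hz
    simp only [comp_apply, ofComplex_apply_of_im_pos hz', ofComplex_apply_of_im_pos hz]
    rw [← hper ⟨z, hz⟩]
    congr 1
    apply UpperHalfPlane.ext
    rw [cge_coe_T_pow_smul]
  · have hz0 : im z ≤ 0 := not_lt.mp hz
    have hz' : im (z + ((w : ℝ) : ℂ)) ≤ 0 := by simpa using hz0
    show h (ofComplex (z + ((w : ℝ) : ℂ))) = h (ofComplex z)
    rw [ofComplex_apply_of_im_nonpos hz', ofComplex_apply_of_im_nonpos hz0]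

/-- `q_w` is `w`-periodic. -/
theorem cge_qParam_add_period {w : ℕ} (hw : 0 < w) (z : ℂ) :
    𝕢 (w : ℝ) (z + ((w : ℝ) : ℂ)) = 𝕢 (w : ℝ) z := by
  have hw' : ((w : ℝ) : ℂ) ≠ 0 := by
    have : (w : ℝ) ≠ 0 := by positivity
    exact_mod_cast this
  unfold Function.Periodic.qParam
  have : 2 * (π : ℂ) * Complex.I * (z + ((w : ℝ) : ℂ)) / ((w : ℝ) : ℂ)
      = 2 * (π : ℂ) * Complex.I * z / ((w : ℝ) : ℂ) + 2 * π * Complex.I := by
    field_simp
  rw [this, Complex.exp_add, Complex.exp_two_pi_mul_I, mul_one]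

/-- the twisted function `q_w ^ k * h`. -/
noncomputable def cgeTwist (w k : ℕ) (h : ℍ → ℂ) : ℍ → ℂ :=
  fun τ => 𝕢 (w : ℝ) (τ : ℂ) ^ k * h τ

theorem cgeTwist_apply (w k : ℕ) (h : ℍ → ℂ) (τ : ℍ) :
    cgeTwist w k h τ = 𝕢 (w : ℝ) (τ : ℂ) ^ k * h τ := rfl

theorem cgeTwist_periodic {w : ℕ} (hw : 0 < w) (k : ℕ) {h : ℍ → ℂ}
    (hper : ∀ τ : ℍ, h (ModularGroup.T ^ w • τ) = h τ) (τ : ℍ) :
    cgeTwist w k h (ModularGroup.T ^ w • τ) = cgeTwist w k h τ := by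
  rw [cgeTwist_apply, cgeTwist_apply, hper, cge_coe_T_pow_smul, cge_qParam_add_period hw]

theorem cge_mdiff_qParam_pow (w k : ℕ) : MDiff (fun τ : ℍ => 𝕢 (w : ℝ) (τ : ℂ) ^ k) := by
  rw [UpperHalfPlane.mdifferentiable_iff]
  have hd : DifferentiableOn ℂ (fun z : ℂ => 𝕢 (w : ℝ) z ^ k) {z | 0 < z.im} :=
    ((Function.Periodic.differentiable_qParam (h := (w : ℝ))).pow k).differentiableOn
  refine hd.congr ?_
  intro z hz
  simp only [comp_apply, ofComplex_apply_of_im_pos hz]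

theorem cgeTwist_mdiff (w k : ℕ) {h : ℍ → ℂ} (hh : MDiff h) : MDiff (cgeTwist w k h) :=
  (cge_mdiff_qParam_pow w k).mul hh

theorem cge_norm_qParam {w : ℕ} (τ : ℍ) :
    ‖𝕢 (w : ℝ) (τ : ℂ)‖ = Real.exp (-2 * π * τ.im / w) := by
  rw [Function.Periodic.norm_qParam]
  rfl

/-- `q_w ^ (m₀ w) * h` is bounded at `i∞` when `|h| ≤ C exp (2π m₀ Im τ)`. -/
theorem cgeTwist_bounded {w : ℕ} (hw : 0 < w) {h : ℍ → ℂ} {m₀ : ℕ} {C A : ℝ}
    (hg : ∀ τ : ℍ, A ≤ τ.im → ‖h τ‖ ≤ C * Real.exp (2 * π * m₀ * τ.im)) :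
    IsBoundedAtImInfty (cgeTwist w (m₀ * w) h) := by
  rw [UpperHalfPlane.isBoundedAtImInfty_iff]
  refine ⟨C, A, fun τ hτ => ?_⟩
  have hw' : (w : ℝ) ≠ 0 := by positivity
  rw [cgeTwist_apply, norm_mul, norm_pow, cge_norm_qParam, ← Real.exp_nat_mul]
  have hE : Real.exp (((m₀ * w : ℕ) : ℝ) * (-2 * π * τ.im / w)) =
      Real.exp (-(2 * π * m₀ * τ.im)) := by
    congr 1
    push_cast
    field_simp
  rw [hE]
  calc Real.exp (-(2 * π * m₀ * τ.im)) * ‖h τ‖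
      ≤ Real.exp (-(2 * π * m₀ * τ.im)) * (C * Real.exp (2 * π * m₀ * τ.im)) :=
        mul_le_mul_of_nonneg_left (hg τ hτ) (Real.exp_pos _).le
    _ = C * (Real.exp (-(2 * π * m₀ * τ.im)) * Real.exp (2 * π * m₀ * τ.im)) := by ring
    _ = C := by rw [← Real.exp_add]; simp

/-- **C2c-1.** A nonzero holomorphic `w`-periodic function of moderate growth has an exact
exponential growth order at `i∞`. -/
theorem IsCuspMer.exists_hasCuspGrowth {w : ℕ} (hw : 0 < w) {h : ℍ → ℂ}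
    (hh : IsCuspMer w h) (h0 : h ≠ 0) : ∃ m : ℤ, HasCuspGrowth w h m := by
  obtain ⟨m₀, C, A₀, hg⟩ := hh.growth
  have hwR : (0 : ℝ) < (w : ℝ) := by exact_mod_cast hw
  set k : ℕ := m₀ * w with hk
  set G : ℍ → ℂ := cgeTwist w k h with hG
  have hGper : Periodic (G ∘ ofComplex) (w : ℝ) :=
    cge_periodic_comp_ofComplex (cgeTwist_periodic hw k hh.periodic)
  have hGmd : MDiff G := cgeTwist_mdiff w k hh.mdiff
  have hGbd : IsBoundedAtImInfty G := cgeTwist_bounded hw hg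
  set P : ℂ → ℂ := UpperHalfPlane.cuspFunction (w : ℝ) G with hP
  have hPeq : ∀ τ : ℍ, P (𝕢 (w : ℝ) (τ : ℂ)) = G τ := fun τ =>
    UpperHalfPlane.eq_cuspFunction τ hwR.ne' hGper
  have hPd : DifferentiableOn ℂ P (ball 0 1) :=
    UpperHalfPlane.differentiableOn_cuspFunction_ball hwR hGper hGmd hGbd
  have hPan : AnalyticOnNhd ℂ P (ball 0 1) := hPd.analyticOnNhd isOpen_ball
  have hP0 : AnalyticAt ℂ P 0 := hPan 0 (mem_ball_self one_pos)
  -- `P` is not locally zero at `0`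
  have hne : ¬ ∀ᶠ q in 𝓝 (0 : ℂ), P q = 0 := by
    intro hev
    have hzero : EqOn P 0 (ball 0 1) :=
      hPan.eqOn_zero_of_preconnected_of_eventuallyEq_zero (convex_ball 0 1).isPreconnected
        (mem_ball_self one_pos) hev
    apply h0
    funext τ
    have hq : 𝕢 (w : ℝ) (τ : ℂ) ∈ ball (0 : ℂ) 1 := by
      rw [mem_ball_zero_iff]
      exact Function.Periodic.norm_qParam_lt_one hwR τ.im_pos
    have h1 : G τ = 0 := by
      rw [← hPeq τ]
      exact hzero hq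
    rw [hG, cgeTwist_apply] at h1
    rcases mul_eq_zero.mp h1 with h2 | h2
    · exact absurd h2 (pow_ne_zero _ (Function.Periodic.qParam_ne_zero _))
    · simpa using h2
  obtain ⟨n, u, hu, hu0, hPu⟩ := hP0.exists_eventuallyEq_pow_smul_nonzero_iff.mpr hne
  -- bounds on `u` near `0`
  have hunorm : 0 < ‖u 0‖ := norm_pos_iff.mpr hu0
  have hucont : ContinuousAt u 0 := hu.continuousAt
  have hev1 : ∀ᶠ q in 𝓝 (0 : ℂ), ‖u q - u 0‖ < ‖u 0‖ / 2 := by
    have := Metric.continuousAt_iff'.mp hucont (‖u 0‖ / 2) (by positivity)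
    simpa [dist_eq_norm] using this
  obtain ⟨ε, hε, hball⟩ := Metric.eventually_nhds_iff.mp (hPu.and hev1)
  -- the threshold
  set A₁ : ℝ := -(w : ℝ) * Real.log ε / (2 * π) with hA₁
  have hA₁exp : Real.exp (-2 * π * A₁ / w) = ε := by
    have : -2 * π * A₁ / w = Real.log ε := by
      rw [hA₁]
      field_simp
    rw [this, Real.exp_log hε]
  refine ⟨(n : ℤ) - (k : ℤ), ‖u 0‖ / 2, ‖u 0‖ + ‖u 0‖ / 2, A₁ + 1, by positivity, ?_⟩
  intro τ hτ
  set q : ℂ := 𝕢 (w : ℝ) (τ : ℂ) with hq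
  have hqne : q ≠ 0 := Function.Periodic.qParam_ne_zero _
  have hqlt : ‖q‖ < ε := by
    rw [← hA₁exp]
    exact (Function.Periodic.norm_qParam_lt_iff hwR A₁ (τ : ℂ)).mpr (by
      have : A₁ < τ.im := by linarith
      exact this)
  have hqd : dist q 0 < ε := by simpa [dist_eq_norm] using hqlt
  obtain ⟨hPq, huq⟩ := hball hqd
  -- the key identity
  have hkey : q ^ k * h τ = q ^ n * u q := by
    have := hPeq τ
    rw [hG, cgeTwist_apply] at this
    rw [← hq] at this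
    rw [← this, hPq]
    simp
  have hnormq : ‖q‖ = Real.exp (-2 * π * τ.im / w) := cge_norm_qParam τ
  set x : ℝ := -2 * π * τ.im / w with hx
  have hnk : ‖h τ‖ = Real.exp (-(2 * π * ((n : ℤ) - (k : ℤ) : ℤ) * τ.im / w)) * ‖u q‖ := by
    have h1 : ‖q‖ ^ k * ‖h τ‖ = ‖q‖ ^ n * ‖u q‖ := by
      rw [← norm_pow, ← norm_pow, ← norm_mul, ← norm_mul, hkey]
    rw [hnormq, ← Real.exp_nat_mul, ← Real.exp_nat_mul] at h1
    have h2 : Real.exp (-(2 * π * ((n : ℤ) - (k : ℤ) : ℤ) * τ.im / w)) =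
        Real.exp ((n : ℝ) * x) / Real.exp ((k : ℝ) * x) := by
      rw [← Real.exp_sub]
      congr 1
      rw [hx]
      push_cast
      ring
    rw [h2, div_mul_eq_mul_div, eq_div_iff (Real.exp_pos _).ne', ← h1]
    ring
  have hu_lo : ‖u 0‖ / 2 ≤ ‖u q‖ := by
    have := norm_sub_norm_le (u 0) (u q)
    have h3 : ‖u 0 - u q‖ = ‖u q - u 0‖ := norm_sub_rev _ _
    linarith
  have hu_hi : ‖u q‖ ≤ ‖u 0‖ + ‖u 0‖ / 2 := by
    have := norm_sub_norm_le (u q) (u 0)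
    linarith
  have hEpos : 0 < Real.exp (-(2 * π * ((n : ℤ) - (k : ℤ) : ℤ) * τ.im / w)) := Real.exp_pos _
  rw [hnk]
  constructor
  · calc ‖u 0‖ / 2 * Real.exp (-(2 * π * ((n : ℤ) - (k : ℤ) : ℤ) * τ.im / w))
        = Real.exp (-(2 * π * ((n : ℤ) - (k : ℤ) : ℤ) * τ.im / w)) * (‖u 0‖ / 2) := by ring
      _ ≤ _ := mul_le_mul_of_nonneg_left hu_lo hEpos.le
  · calc Real.exp (-(2 * π * ((n : ℤ) - (k : ℤ) : ℤ) * τ.im / w)) * ‖u q‖
        ≤ Real.exp (-(2 * π * ((n : ℤ) - (k : ℤ) : ℤ) * τ.im / w)) * (‖u 0‖ + ‖u 0‖ / 2) :=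
          mul_le_mul_of_nonneg_left hu_hi hEpos.le
      _ = _ := by ring

end Fermat.Agent.S24x
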