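/-
S24 helper library (C2c, growth form): elementary calculus of the exact exponential growth order
`HasCuspGrowth w h m` at the cusp `i∞`.
-/
import Fermat.Agent.S24x.CuspDefs

set_option autoImplicit false

namespace Fermat.Agent.S24x

open UpperHalfPlane
open scoped MatrixGroups Manifold

/-- the comparison function `|q_w|^m = exp (-2π m y / w)`. -/
noncomputable def cgE (w : ℕ) (m : ℤ) (y : ℝ) : ℝ := Real.exp (-(2 * Real.pi * m * y / w))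

theorem cgE_pos (w : ℕ) (m : ℤ) (y : ℝ) : 0 < cgE w m y := Real.exp_pos _

theorem cgE_add (w : ℕ) (m m' : ℤ) (y : ℝ) : cgE w (m + m') y = cgE w m y * cgE w m' y := by
  unfold cgE
  rw [← Real.exp_add]
  congr 1
  push_cast
  ring

theorem cgE_zero (w : ℕ) (y : ℝ) : cgE w 0 y = 1 := by
  unfold cgE
  simp

/-- monotonicity in the exponent. -/
theorem cgE_le_of_le {w : ℕ} {m m' : ℤ} (h : m ≤ m') {y : ℝ} (hy : 0 ≤ y) :
    cgE w m' y ≤ cgE w m y := by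
  unfold cgE
  apply Real.exp_le_exp.mpr
  have h1 : (m : ℝ) ≤ m' := by exact_mod_cast h
  have hw : (0 : ℝ) ≤ w := Nat.cast_nonneg w
  have hpi := Real.pi_pos
  have : 2 * Real.pi * m * y / w ≤ 2 * Real.pi * m' * y / w := by
    apply div_le_div_of_nonneg_right _ hw
    have : 2 * Real.pi * (m : ℝ) ≤ 2 * Real.pi * m' := by nlinarith
    nlinarith
  linarith

theorem cgE_mul_period (w k : ℕ) (hk : 0 < k) (m : ℤ) (y : ℝ) :
    cgE (w * k) (m * k) y = cgE w m y := by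
  unfold cgE
  congr 2
  push_cast
  have hk' : (k : ℝ) ≠ 0 := by exact_mod_cast hk.ne'
  by_cases hw : (w : ℝ) = 0
  · simp [hw]
  · field_simp

/-- a point of height `y`. -/
def ptY (y : ℝ) (hy : 0 < y) : ℍ := ⟨⟨0, y⟩, hy⟩

@[simp] theorem ptY_im (y : ℝ) (hy : 0 < y) : (ptY y hy).im = y := rfl

theorem hasCuspGrowth_iff {w : ℕ} {h : ℍ → ℂ} {m : ℤ} :
    HasCuspGrowth w h m ↔ ∃ (c₁ c₂ A : ℝ), 0 < c₁ ∧ ∀ τ : ℍ, A ≤ τ.im →
      c₁ * cgE w m τ.im ≤ ‖h τ‖ ∧ ‖h τ‖ ≤ c₂ * cgE w m τ.im := Iff.rfl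

/-- decay of `cgE` for positive exponent: it is eventually below any positive bound. -/
theorem exists_cgE_lt {w : ℕ} (hw : 0 < w) {m : ℤ} (hm : 0 < m) {ε : ℝ} (hε : 0 < ε) (A : ℝ) :
    ∃ y : ℝ, 0 < y ∧ A ≤ y ∧ cgE w m y < ε := by
  have hwR : (0 : ℝ) < w := by exact_mod_cast hw
  have hmR : (1 : ℝ) ≤ m := by exact_mod_cast hm
  have hpi := Real.pi_pos
  -- `exp (-t) ≤ 1 / (1 + t)`
  set y : ℝ := max (max A 1) (w / ε) with hy
  have hy1 : 1 ≤ y := le_trans (le_max_right A 1) (le_max_left _ _)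
  have hyA : A ≤ y := le_trans (le_max_left A 1) (le_max_left _ _)
  have hyw : w / ε ≤ y := le_max_right _ _
  have hy0 : 0 < y := by linarith
  refine ⟨y, hy0, hyA, ?_⟩
  unfold cgE
  set t : ℝ := 2 * Real.pi * m * y / w with ht
  have ht_ge : y / w ≤ t := by
    rw [ht]
    apply div_le_div_of_nonneg_right _ hwR.le
    have h3 : (3 : ℝ) < Real.pi := Real.pi_gt_three
    have h4 : (1 : ℝ) ≤ 2 * Real.pi * m := by nlinarith
    calc y = 1 * y := (one_mul y).symm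
      _ ≤ (2 * Real.pi * m) * y := mul_le_mul_of_nonneg_right h4 hy0.le
  have ht_pos : 0 < t := lt_of_lt_of_le (div_pos hy0 hwR) ht_ge
  have h1 : Real.exp (-t) < 1 / t := by
    rw [Real.exp_neg, one_div]
    apply inv_strictAnti₀ ht_pos
    have := Real.add_one_lt_exp (ne_of_gt ht_pos)
    linarith
  have h2 : 1 / t ≤ ε := by
    rw [div_le_iff₀ ht_pos]
    have : 1 / ε ≤ y / w := by
      rw [div_le_div_iff₀ hε hwR]
      rw [div_le_iff₀ hε] at hyw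
      linarith
    have : 1 / ε ≤ t := le_trans this ht_ge
    rw [div_le_iff₀ hε] at this
    linarith
  linarith

/-- uniqueness of the growth order. -/
theorem hasCuspGrowth_unique {w : ℕ} (hw : 0 < w) {h : ℍ → ℂ} {m m' : ℤ}
    (h1 : HasCuspGrowth w h m) (h2 : HasCuspGrowth w h m') : m = m' := by
  -- it suffices to exclude `m < m'` in general
  have key : ∀ {m m' : ℤ}, HasCuspGrowth w h m → HasCuspGrowth w h m' → ¬ m < m' := by
    intro m m' h1 h2 hlt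
    obtain ⟨c₁, c₂, A, hc₁, hb⟩ := hasCuspGrowth_iff.mp h1
    obtain ⟨c₁', c₂', A', hc₁', hb'⟩ := hasCuspGrowth_iff.mp h2
    have hc₂' : 0 < c₂' := by
      have hy : (0 : ℝ) < max (max A A') 1 := lt_of_lt_of_le one_pos (le_max_right _ _)
      have hA' : A' ≤ (ptY _ hy).im := by
        simp only [ptY_im]
        exact le_trans (le_max_right A A') (le_max_left _ _)
      have := (hb' (ptY _ hy) hA')
      have h3 := le_trans this.1 this.2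
      have h4 := mul_pos hc₁' (cgE_pos w m' (ptY _ hy).im)
      by_contra hneg
      push Not at hneg
      have := mul_nonpos_of_nonpos_of_nonneg hneg (cgE_pos w m' (ptY _ hy).im).le
      linarith
    have hpos : 0 < m' - m := by omega
    obtain ⟨y, hy0, hyA, hlt'⟩ := exists_cgE_lt hw hpos (div_pos hc₁ hc₂') (max A A')
    have hA : A ≤ (ptY y hy0).im := le_trans (le_max_left _ _) hyA
    have hA' : A' ≤ (ptY y hy0).im := le_trans (le_max_right _ _) hyA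
    have hlow := (hb (ptY y hy0) hA).1
    have hup := (hb' (ptY y hy0) hA').2
    simp only [ptY_im] at hlow hup
    have hsplit : cgE w m' y = cgE w m y * cgE w (m' - m) y := by
      rw [← cgE_add]
      congr 1
      ring
    rw [hsplit] at hup
    have hE := cgE_pos w m y
    have : c₁ * cgE w m y ≤ c₂' * (cgE w m y * cgE w (m' - m) y) := le_trans hlow hup
    have h5 : c₁ ≤ c₂' * cgE w (m' - m) y := by
      have : c₁ * cgE w m y ≤ (c₂' * cgE w (m' - m) y) * cgE w m y := by linarith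
      exact le_of_mul_le_mul_right this hE
    have h6 : c₂' * cgE w (m' - m) y < c₂' * (c₁ / c₂') := mul_lt_mul_of_pos_left hlt' hc₂'
    rw [mul_div_cancel₀ _ hc₂'.ne'] at h6
    linarith
  rcases lt_trichotomy m m' with hlt | heq | hgt
  · exact absurd hlt (key h1 h2)
  · exact heq
  · exact absurd hgt (key h2 h1)

theorem cuspOrd_eq_of_hasCuspGrowth {w : ℕ} (hw : 0 < w) {h : ℍ → ℂ} {m : ℤ}
    (hg : HasCuspGrowth w h m) : cuspOrd w h = m := by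
  have hex : ∃ m : ℤ, HasCuspGrowth w h m := ⟨m, hg⟩
  unfold cuspOrd
  rw [dif_pos hex]
  exact hasCuspGrowth_unique hw hex.choose_spec hg

theorem HasCuspGrowth.mul {w : ℕ} {h₁ h₂ : ℍ → ℂ} {m₁ m₂ : ℤ} (hg₁ : HasCuspGrowth w h₁ m₁)
    (hg₂ : HasCuspGrowth w h₂ m₂) : HasCuspGrowth w (h₁ * h₂) (m₁ + m₂) := by
  obtain ⟨c₁, c₂, A, hc₁, hb⟩ := hasCuspGrowth_iff.mp hg₁
  obtain ⟨c₁', c₂', A', hc₁', hb'⟩ := hasCuspGrowth_iff.mp hg₂
  refine hasCuspGrowth_iff.mpr ⟨c₁ * c₁', c₂ * c₂', max A A', mul_pos hc₁ hc₁', fun τ hτ => ?_⟩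
  have h1 := hb τ (le_trans (le_max_left _ _) hτ)
  have h2 := hb' τ (le_trans (le_max_right _ _) hτ)
  change c₁ * c₁' * cgE w (m₁ + m₂) τ.im ≤ ‖(h₁ * h₂) τ‖ ∧
    ‖(h₁ * h₂) τ‖ ≤ c₂ * c₂' * cgE w (m₁ + m₂) τ.im
  change c₁ * cgE w m₁ τ.im ≤ ‖h₁ τ‖ ∧ ‖h₁ τ‖ ≤ c₂ * cgE w m₁ τ.im at h1
  change c₁' * cgE w m₂ τ.im ≤ ‖h₂ τ‖ ∧ ‖h₂ τ‖ ≤ c₂' * cgE w m₂ τ.im at h2
  rw [Pi.mul_apply, norm_mul, cgE_add]
  have hE1 := cgE_pos w m₁ τ.im
  have hE2 := cgE_pos w m₂ τ.im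
  constructor
  · calc c₁ * c₁' * (cgE w m₁ τ.im * cgE w m₂ τ.im)
        = (c₁ * cgE w m₁ τ.im) * (c₁' * cgE w m₂ τ.im) := by ring
      _ ≤ ‖h₁ τ‖ * ‖h₂ τ‖ :=
        mul_le_mul h1.1 h2.1 (mul_pos hc₁' hE2).le (norm_nonneg _)
  · calc ‖h₁ τ‖ * ‖h₂ τ‖ ≤ (c₂ * cgE w m₁ τ.im) * (c₂' * cgE w m₂ τ.im) :=
        mul_le_mul h1.2 h2.2 (norm_nonneg _) (le_trans (norm_nonneg _) h1.2)
      _ = c₂ * c₂' * (cgE w m₁ τ.im * cgE w m₂ τ.im) := by ring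

theorem hasCuspGrowth_const (w : ℕ) {c : ℂ} (hc : c ≠ 0) : HasCuspGrowth w (fun _ => c) 0 := by
  refine hasCuspGrowth_iff.mpr ⟨‖c‖, ‖c‖, 0, norm_pos_iff.mpr hc, fun τ _ => ?_⟩
  change ‖c‖ * cgE w 0 τ.im ≤ ‖c‖ ∧ ‖c‖ ≤ ‖c‖ * cgE w 0 τ.im
  rw [cgE_zero, mul_one]
  exact ⟨le_rfl, le_rfl⟩

/-- an upper bound of exponent `m` holds as soon as `m ≤` the growth order. -/
theorem HasCuspGrowth.bound_of_le {w : ℕ} {h : ℍ → ℂ} {m₀ m : ℤ} (hg : HasCuspGrowth w h m₀)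
    (hle : m ≤ m₀) : ∃ C A : ℝ, 0 ≤ C ∧ ∀ τ : ℍ, A ≤ τ.im → ‖h τ‖ ≤ C * cgE w m τ.im := by
  obtain ⟨c₁, c₂, A, hc₁, hb⟩ := hasCuspGrowth_iff.mp hg
  refine ⟨max c₂ 0, A, le_max_right _ _, fun τ hτ => ?_⟩
  have h1 := (hb τ hτ).2
  change ‖h τ‖ ≤ c₂ * cgE w m₀ τ.im at h1
  have hE := cgE_le_of_le (w := w) hle τ.im_pos.le
  have hE0 := cgE_pos w m₀ τ.im
  calc ‖h τ‖ ≤ c₂ * cgE w m₀ τ.im := h1
    _ ≤ max c₂ 0 * cgE w m₀ τ.im := mul_le_mul_of_nonneg_right (le_max_left _ _) hE0.le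
    _ ≤ max c₂ 0 * cgE w m τ.im := mul_le_mul_of_nonneg_left hE (le_max_right _ _)

/-- conversely an upper bound of exponent `m` forces `m ≤` the growth order. -/
theorem HasCuspGrowth.le_of_bound {w : ℕ} (hw : 0 < w) {h : ℍ → ℂ} {m₀ m : ℤ}
    (hg : HasCuspGrowth w h m₀)
    (hb : ∃ C A : ℝ, ∀ τ : ℍ, A ≤ τ.im → ‖h τ‖ ≤ C * cgE w m τ.im) : m ≤ m₀ := by
  by_contra hlt
  push Not at hlt
  obtain ⟨c₁, c₂, A, hc₁, hb0⟩ := hasCuspGrowth_iff.mp hg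
  obtain ⟨C, A', hb'⟩ := hb
  have hC : 0 < C := by
    have hy : (0 : ℝ) < max (max A A') 1 := lt_of_lt_of_le one_pos (le_max_right _ _)
    have hA : A ≤ (ptY _ hy).im := le_trans (le_max_left A A') (le_max_left _ _)
    have hA' : A' ≤ (ptY _ hy).im := le_trans (le_max_right A A') (le_max_left _ _)
    have h1 := (hb0 (ptY _ hy) hA).1
    have h2 := hb' (ptY _ hy) hA'
    change c₁ * cgE w m₀ (ptY _ hy).im ≤ _ at h1
    have h4 := mul_pos hc₁ (cgE_pos w m₀ (ptY _ hy).im)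
    by_contra hneg
    push Not at hneg
    have := mul_nonpos_of_nonpos_of_nonneg hneg (cgE_pos w m (ptY _ hy).im).le
    linarith
  have hpos : 0 < m - m₀ := by omega
  obtain ⟨y, hy0, hyA, hlt'⟩ := exists_cgE_lt hw hpos (div_pos hc₁ hC) (max A A')
  have hA : A ≤ (ptY y hy0).im := le_trans (le_max_left _ _) hyA
  have hA' : A' ≤ (ptY y hy0).im := le_trans (le_max_right _ _) hyA
  have hlow := (hb0 (ptY y hy0) hA).1
  have hup := hb' (ptY y hy0) hA'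
  change c₁ * cgE w m₀ (ptY y hy0).im ≤ _ at hlow
  simp only [ptY_im] at hlow hup
  have hsplit : cgE w m y = cgE w m₀ y * cgE w (m - m₀) y := by
    rw [← cgE_add]
    congr 1
    ring
  rw [hsplit] at hup
  have hE := cgE_pos w m₀ y
  have : c₁ * cgE w m₀ y ≤ C * (cgE w m₀ y * cgE w (m - m₀) y) := le_trans hlow hup
  have h5 : c₁ ≤ C * cgE w (m - m₀) y := by
    have : c₁ * cgE w m₀ y ≤ (C * cgE w (m - m₀) y) * cgE w m₀ y := by linarith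
    exact le_of_mul_le_mul_right this hE
  have h6 : C * cgE w (m - m₀) y < C * (c₁ / C) := mul_lt_mul_of_pos_left hlt' hC
  rw [mul_div_cancel₀ _ hC.ne'] at h6
  linarith

/-- the ultrametric inequality for growth orders. -/
theorem HasCuspGrowth.min_le_add {w : ℕ} (hw : 0 < w) {h₁ h₂ : ℍ → ℂ} {m₁ m₂ m₃ : ℤ}
    (hg₁ : HasCuspGrowth w h₁ m₁) (hg₂ : HasCuspGrowth w h₂ m₂)
    (hg₃ : HasCuspGrowth w (h₁ + h₂) m₃) : min m₁ m₂ ≤ m₃ := by
  obtain ⟨C₁, A₁, hC₁, hb₁⟩ := hg₁.bound_of_le (min_le_left m₁ m₂)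
  obtain ⟨C₂, A₂, hC₂, hb₂⟩ := hg₂.bound_of_le (min_le_right m₁ m₂)
  refine hg₃.le_of_bound hw ⟨C₁ + C₂, max A₁ A₂, fun τ hτ => ?_⟩
  have h1 := hb₁ τ (le_trans (le_max_left _ _) hτ)
  have h2 := hb₂ τ (le_trans (le_max_right _ _) hτ)
  calc ‖(h₁ + h₂) τ‖ ≤ ‖h₁ τ‖ + ‖h₂ τ‖ := norm_add_le _ _
    _ ≤ C₁ * cgE w (min m₁ m₂) τ.im + C₂ * cgE w (min m₁ m₂) τ.im := add_le_add h1 h2
    _ = (C₁ + C₂) * cgE w (min m₁ m₂) τ.im := by ring

/-- change of period. -/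
theorem HasCuspGrowth.mul_period {w : ℕ} {h : ℍ → ℂ} {m : ℤ} (hg : HasCuspGrowth w h m) {k : ℕ}
    (hk : 0 < k) : HasCuspGrowth (w * k) h (m * k) := by
  obtain ⟨c₁, c₂, A, hc₁, hb⟩ := hasCuspGrowth_iff.mp hg
  refine hasCuspGrowth_iff.mpr ⟨c₁, c₂, A, hc₁, fun τ hτ => ?_⟩
  have := hb τ hτ
  change c₁ * cgE w m τ.im ≤ ‖h τ‖ ∧ ‖h τ‖ ≤ c₂ * cgE w m τ.im at this
  change c₁ * cgE (w * k) (m * k) τ.im ≤ ‖h τ‖ ∧ ‖h τ‖ ≤ c₂ * cgE (w * k) (m * k) τ.im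
  rw [cgE_mul_period w k hk]
  exact this

/-- boundedness at `i∞` is nonnegativity of the growth order. -/
theorem HasCuspGrowth.nonneg_iff_bounded {w : ℕ} (hw : 0 < w) {h : ℍ → ℂ} {m : ℤ}
    (hg : HasCuspGrowth w h m) :
    0 ≤ m ↔ ∃ C A : ℝ, ∀ τ : ℍ, A ≤ τ.im → ‖h τ‖ ≤ C := by
  constructor
  · intro h0
    obtain ⟨C, A, _, hb⟩ := hg.bound_of_le h0
    refine ⟨C, A, fun τ hτ => ?_⟩
    have := hb τ hτ
    rwa [cgE_zero, mul_one] at this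
  · rintro ⟨C, A, hb⟩
    refine hg.le_of_bound hw ⟨C, A, fun τ hτ => ?_⟩
    rw [cgE_zero, mul_one]
    exact hb τ hτ

/-- growth only depends on the values at large height: precomposition with a height preserving
map. -/
theorem HasCuspGrowth.comp_of_im_eq {w : ℕ} {h : ℍ → ℂ} {m : ℤ} (hg : HasCuspGrowth w h m)
    (σ : ℍ → ℍ) (hσ : ∀ τ, (σ τ).im = τ.im) : HasCuspGrowth w (fun τ => h (σ τ)) m := by
  obtain ⟨c₁, c₂, A, hc₁, hb⟩ := hasCuspGrowth_iff.mp hg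
  refine hasCuspGrowth_iff.mpr ⟨c₁, c₂, A, hc₁, fun τ hτ => ?_⟩
  have := hb (σ τ) (by rw [hσ]; exact hτ)
  rw [hσ] at this
  exact this

end Fermat.Agent.S24x
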