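/-
S24 helper library: a place of `F/K` from an integer valued "order function" `o : F → ℤ`
(additive valuation, e.g. an analytic order of vanishing pulled back along a field embedding).
The value group may be a proper subgroup `gℤ` of `ℤ`; we relate `o` and the normalised `ord`.
-/
import Fermat.Agent.S24x.AlgDefs

set_option autoImplicit false

namespace Fermat.Agent.S24x

open AlgebraicCurve

/-- An integer valued additive valuation on a field `F`, trivial on `K` (the value at `0` is junk). -/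
structure OrderFn (K F : Type*) [Field K] [Field F] [Algebra K F] where
  /-- the order function -/
  o : F → ℤ
  map_mul : ∀ a b : F, a ≠ 0 → b ≠ 0 → o (a * b) = o a + o b
  map_add : ∀ a b : F, a ≠ 0 → b ≠ 0 → a + b ≠ 0 → min (o a) (o b) ≤ o (a + b)
  map_const : ∀ c : K, c ≠ 0 → o (algebraMap K F c) = 0
  nontrivial : ∃ f : F, f ≠ 0 ∧ o f ≠ 0

namespace OrderFn

variable {K F : Type*} [Field K] [Field F] [Algebra K F] (ω : OrderFn K F)

theorem map_one : ω.o 1 = 0 := by
  have h := ω.map_mul 1 1 one_ne_zero one_ne_zero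
  rw [mul_one] at h
  linarith

theorem map_inv {a : F} (ha : a ≠ 0) : ω.o a⁻¹ = -ω.o a := by
  have h := ω.map_mul a a⁻¹ ha (inv_ne_zero ha)
  rw [mul_inv_cancel₀ ha, ω.map_one] at h
  linarith

theorem map_neg_one : ω.o (-1) = 0 := by
  have h := ω.map_mul (-1) (-1) (by simp) (by simp)
  rw [neg_mul_neg, mul_one, ω.map_one] at h
  linarith

theorem map_neg {a : F} (ha : a ≠ 0) : ω.o (-a) = ω.o a := by
  have h := ω.map_mul (-1) a (by simp) ha
  rw [neg_one_mul, ω.map_neg_one, zero_add] at h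
  exact h

/-- the valuation subring `{f | f = 0 ∨ 0 ≤ o f}`. -/
def valuationSubring : ValuationSubring F where
  carrier := {f | f = 0 ∨ 0 ≤ ω.o f}
  mul_mem' := by
    rintro a b (rfl | ha) (rfl | hb)
    · left; simp
    · left; simp
    · left; simp
    · by_cases ha0 : a = 0
      · left; simp [ha0]
      by_cases hb0 : b = 0
      · left; simp [hb0]
      right
      rw [ω.map_mul a b ha0 hb0]
      omega
  one_mem' := Or.inr (by rw [ω.map_one])
  add_mem' := by
    rintro a b ha hb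
    by_cases ha0 : a = 0
    · simpa [ha0] using hb
    by_cases hb0 : b = 0
    · simpa [hb0] using ha
    by_cases hab : a + b = 0
    · exact Or.inl hab
    right
    have ha' : 0 ≤ ω.o a := ha.resolve_left ha0
    have hb' : 0 ≤ ω.o b := hb.resolve_left hb0
    exact le_trans (le_min ha' hb') (ω.map_add a b ha0 hb0 hab)
  zero_mem' := Or.inl rfl
  neg_mem' := by
    rintro a (rfl | ha)
    · left; simp
    · by_cases ha0 : a = 0
      · left; simp [ha0]
      right
      rwa [ω.map_neg ha0]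
  mem_or_inv_mem' := by
    intro a
    by_cases ha0 : a = 0
    · exact Or.inl (Or.inl ha0)
    rcases le_total 0 (ω.o a) with h | h
    · exact Or.inl (Or.inr h)
    · refine Or.inr (Or.inr ?_)
      rw [ω.map_inv ha0]
      omega

theorem mem_valuationSubring {f : F} : f ∈ ω.valuationSubring ↔ f = 0 ∨ 0 ≤ ω.o f := Iff.rfl

theorem mem_valuationSubring_of_ne_zero {f : F} (hf : f ≠ 0) :
    f ∈ ω.valuationSubring ↔ 0 ≤ ω.o f := by
  rw [mem_valuationSubring]
  exact ⟨fun h => h.resolve_left hf, Or.inr⟩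

theorem valuationSubring_ne_top : ω.valuationSubring ≠ ⊤ := by
  obtain ⟨f, hf0, hf⟩ := ω.nontrivial
  intro htop
  have h1 : f ∈ ω.valuationSubring := htop ▸ ValuationSubring.mem_top f
  have h2 : f⁻¹ ∈ ω.valuationSubring := htop ▸ ValuationSubring.mem_top f⁻¹
  rw [ω.mem_valuationSubring_of_ne_zero hf0] at h1
  rw [ω.mem_valuationSubring_of_ne_zero (inv_ne_zero hf0), ω.map_inv hf0] at h2
  omega

theorem isPrincipalIdealRing_valuationSubring : IsPrincipalIdealRing ω.valuationSubring := by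
  classical
  refine ⟨fun I => ?_⟩
  by_cases hI : I = ⊥
  · rw [hI]; exact bot_isPrincipal
  have hex : ∃ n : ℕ, ∃ a : ω.valuationSubring, a ∈ I ∧ a ≠ 0 ∧ ω.o (a : F) = n := by
    obtain ⟨a, haI, ha0⟩ := Submodule.exists_mem_ne_zero_of_ne_bot hI
    have haF : (a : F) ≠ 0 := by simpa using ha0
    have hpos : 0 ≤ ω.o (a : F) := (ω.mem_valuationSubring_of_ne_zero haF).mp a.2
    exact ⟨(ω.o (a : F)).toNat, a, haI, ha0, (Int.toNat_of_nonneg hpos).symm⟩
  obtain ⟨a₀, ha₀I, ha₀0, ha₀⟩ := Nat.find_spec hex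
  refine ⟨⟨a₀, le_antisymm ?_ ?_⟩⟩
  · intro b hb
    rw [Submodule.mem_span_singleton] -- Ideal.submodule_span_eq
    by_cases hb0 : b = 0
    · exact ⟨0, by simp [hb0]⟩
    have hbF : (b : F) ≠ 0 := by simpa using hb0
    have ha₀F : (a₀ : F) ≠ 0 := by simpa using ha₀0
    have hbpos : 0 ≤ ω.o (b : F) := (ω.mem_valuationSubring_of_ne_zero hbF).mp b.2
    have hmin : (Nat.find hex : ℤ) ≤ ω.o (b : F) := by
      have := Nat.find_min' hex ⟨b, hb, hb0, (Int.toNat_of_nonneg hbpos).symm⟩
      calc (Nat.find hex : ℤ) ≤ ((ω.o (b : F)).toNat : ℤ) := by exact_mod_cast this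
        _ = ω.o (b : F) := Int.toNat_of_nonneg hbpos
    have hq : (b : F) / (a₀ : F) ∈ ω.valuationSubring := by
      rw [ω.mem_valuationSubring_of_ne_zero (div_ne_zero hbF ha₀F), div_eq_mul_inv,
        ω.map_mul _ _ hbF (inv_ne_zero ha₀F), ω.map_inv ha₀F, ha₀]
      omega
    refine ⟨⟨_, hq⟩, ?_⟩
    ext
    simp only [smul_eq_mul, MulMemClass.coe_mul]
    field_simp
  · rw [Ideal.span_le]
    simpa using ha₀I

/-- the place of `F/K` defined by an order function. -/
def place : Place K F where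
  toValuationSubring := ω.valuationSubring
  algebraMap_mem' := fun c => by
    by_cases hc : c = 0
    · left; simp [hc]
    · right; rw [ω.map_const c hc]
  ne_top' := ω.valuationSubring_ne_top
  isPrincipalIdealRing' := ω.isPrincipalIdealRing_valuationSubring

@[simp]
theorem place_toValuationSubring : ω.place.toValuationSubring = ω.valuationSubring := rfl

theorem o_unit (u : ω.valuationSubringˣ) : ω.o ((u : ω.valuationSubring) : F) = 0 := by
  have hu0 : ((u : ω.valuationSubring) : F) ≠ 0 := by simp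
  have h1 := (ω.mem_valuationSubring_of_ne_zero hu0).mp (u : ω.valuationSubring).2
  have hinv : (((u⁻¹ : ω.valuationSubringˣ) : ω.valuationSubring) : F) =
      ((u : ω.valuationSubring) : F)⁻¹ := by
    have : ((u : ω.valuationSubring) : F) * (((u⁻¹ : ω.valuationSubringˣ) : ω.valuationSubring) : F)
        = 1 := by
      have h := congrArg (fun x : ω.valuationSubring => (x : F)) (u.mul_inv)
      simpa only [MulMemClass.coe_mul, OneMemClass.coe_one] using h
    exact eq_inv_of_mul_eq_one_right this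
  have h2 := (ω.mem_valuationSubring_of_ne_zero (inv_ne_zero hu0)).mp
    (hinv ▸ ((u⁻¹ : ω.valuationSubringˣ) : ω.valuationSubring).2)
  rw [ω.map_inv hu0] at h2
  omega

theorem map_zpow {a : F} (ha : a ≠ 0) (n : ℤ) : ω.o (a ^ n) = n * ω.o a := by
  induction n using Int.induction_on with
  | zero => simp [ω.map_one]
  | succ n ih =>
    rw [zpow_add_one₀ ha, ω.map_mul _ _ (zpow_ne_zero _ ha) ha, ih]
    ring
  | pred n ih =>
    rw [zpow_sub_one₀ ha, ω.map_mul _ _ (zpow_ne_zero _ ha) (inv_ne_zero ha), ih, ω.map_inv ha]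
    ring

/-- **Comparison of `o` with the normalised order of the place**: `o = g * ord` with `g > 0`
the positive generator of the value group. -/
theorem exists_o_eq_mul_ord :
    ∃ g : ℤ, 0 < g ∧ (∃ π : F, π ≠ 0 ∧ ω.o π = g) ∧ ∀ f : F, f ≠ 0 → ω.o f = g * ω.place.ord f := by
  obtain ⟨π, hπ⟩ := IsDiscreteValuationRing.exists_irreducible ω.place.toValuationSubring
  have hπ0 : (π : F) ≠ 0 := by
    simpa [ne_eq, ZeroMemClass.coe_eq_zero] using hπ.ne_zero
  have hπnn : 0 ≤ ω.o (π : F) := (ω.mem_valuationSubring_of_ne_zero hπ0).mp π.2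
  have hπpos : 0 < ω.o (π : F) := by
    rcases hπnn.lt_or_eq with h | h
    · exact h
    · exfalso
      apply hπ.not_isUnit
      have hinv : (π : F)⁻¹ ∈ ω.valuationSubring := by
        rw [ω.mem_valuationSubring_of_ne_zero (inv_ne_zero hπ0), ω.map_inv hπ0]
        omega
      refine ⟨⟨π, ⟨_, hinv⟩, ?_, ?_⟩, rfl⟩
      · apply Subtype.ext
        show (π : F) * (π : F)⁻¹ = 1
        exact mul_inv_cancel₀ hπ0
      · apply Subtype.ext
        show (π : F)⁻¹ * (π : F) = 1
        exact inv_mul_cancel₀ hπ0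
  refine ⟨ω.o (π : F), hπpos, ⟨π, hπ0, rfl⟩, fun f hf => ?_⟩
  obtain ⟨u, hu⟩ := ω.place.exists_unit_mul_zpow hf hπ
  have hu0 : ((u : ω.place.toValuationSubring) : F) ≠ 0 := by simp
  conv_lhs => rw [hu]
  rw [ω.map_mul _ _ hu0 (zpow_ne_zero _ hπ0), ω.map_zpow hπ0]
  have : ω.o ((u : ω.place.toValuationSubring) : F) = 0 := ω.o_unit u
  rw [this, zero_add]
  ring

theorem ord_pos_iff {f : F} (hf : f ≠ 0) : 0 < ω.place.ord f ↔ 0 < ω.o f := by
  obtain ⟨g, hg, -, h⟩ := ω.exists_o_eq_mul_ord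
  rw [h f hf]
  constructor
  · intro h1; positivity
  · intro h1
    by_contra h2
    push Not at h2
    nlinarith

/-- upper bound for the normalised order. -/
theorem ord_le_o {f : F} (hf : f ≠ 0) (hpos : 0 < ω.o f) : ω.place.ord f ≤ ω.o f := by
  obtain ⟨g, hg, -, h⟩ := ω.exists_o_eq_mul_ord
  have hop := (ω.ord_pos_iff hf).mpr hpos
  rw [h f hf]
  nlinarith

/-- if all values of `o` are divisible by `d > 0` then `d * ord f ≤ o f`. -/
theorem mul_ord_le_o {d : ℤ} (hdvd : ∀ f : F, f ≠ 0 → d ∣ ω.o f) {f : F} (hf : f ≠ 0)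
    (hpos : 0 < ω.o f) : d * ω.place.ord f ≤ ω.o f := by
  obtain ⟨g, hg, ⟨π, hπ0, hπ⟩, h⟩ := ω.exists_o_eq_mul_ord
  have hop := (ω.ord_pos_iff hf).mpr hpos
  have hdg : d ≤ g := Int.le_of_dvd hg (hπ ▸ hdvd π hπ0)
  rw [h f hf]
  nlinarith

end OrderFn

end Fermat.Agent.S24x
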