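/-
S24 helper library (C2): extend an integer valued order function on a domain `R` to its fraction
field `F` (`F` any field in which every element is a quotient of elements of `R`).
-/
import Fermat.Agent.S24x.PlaceOfOrder

set_option autoImplicit false

namespace Fermat.Agent.S24x

open AlgebraicCurve

/-- An integer valued additive valuation on a domain `R` whose fraction field is `F`
(the value at `0` is junk). -/
structure FracOrderFn (K R F : Type*) [Field K] [CommRing R] [IsDomain R] [Field F]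
    [Algebra K R] [Algebra R F] [Algebra K F] [IsScalarTower K R F] where
  /-- the order function on `R` -/
  o : R → ℤ
  inj : Function.Injective (algebraMap R F)
  map_mul : ∀ a b : R, a ≠ 0 → b ≠ 0 → o (a * b) = o a + o b
  map_add : ∀ a b : R, a ≠ 0 → b ≠ 0 → a + b ≠ 0 → min (o a) (o b) ≤ o (a + b)
  map_const : ∀ c : K, c ≠ 0 → o (algebraMap K R c) = 0
  /-- `F` is the fraction field of `R` -/
  frac : ∀ f : F, ∃ a b : R, b ≠ 0 ∧ f = algebraMap R F a / algebraMap R F b

namespace FracOrderFn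

variable {K R F : Type*} [Field K] [CommRing R] [IsDomain R] [Field F]
  [Algebra K R] [Algebra R F] [Algebra K F] [IsScalarTower K R F] (ω : FracOrderFn K R F)

include ω in
theorem coe_ne_zero {a : R} (ha : a ≠ 0) : algebraMap R F a ≠ 0 := by
  intro h
  apply ha
  apply ω.inj
  rw [h, map_zero]

/-- numerator of a chosen fraction representation -/
noncomputable def num (f : F) : R := (ω.frac f).choose

/-- denominator of a chosen fraction representation -/
noncomputable def den (f : F) : R := (ω.frac f).choose_spec.choose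

theorem den_ne_zero (f : F) : ω.den f ≠ 0 := (ω.frac f).choose_spec.choose_spec.1

theorem eq_num_div_den (f : F) : f = algebraMap R F (ω.num f) / algebraMap R F (ω.den f) :=
  (ω.frac f).choose_spec.choose_spec.2

theorem coe_den_ne_zero (f : F) : algebraMap R F (ω.den f) ≠ 0 := ω.coe_ne_zero (ω.den_ne_zero f)

theorem num_ne_zero {f : F} (hf : f ≠ 0) : ω.num f ≠ 0 := by
  intro h
  apply hf
  rw [ω.eq_num_div_den f, h]
  simp

open scoped Classical in
/-- the extended order function `o(a/b) = o a - o b`, with value `0` at `0`. -/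
noncomputable def oExt (f : F) : ℤ := if f = 0 then 0 else ω.o (ω.num f) - ω.o (ω.den f)

theorem oExt_zero : ω.oExt 0 = 0 := by simp [oExt]

theorem oExt_of_ne_zero {f : F} (hf : f ≠ 0) : ω.oExt f = ω.o (ω.num f) - ω.o (ω.den f) := by
  simp [oExt, hf]

/-- well-definedness: for any representation `f = a / b`. -/
theorem oExt_eq {f : F} (hf : f ≠ 0) {a b : R} (hb : b ≠ 0)
    (h : f = algebraMap R F a / algebraMap R F b) : ω.oExt f = ω.o a - ω.o b := by
  have hbF : algebraMap R F b ≠ 0 := ω.coe_ne_zero hb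
  have ha : a ≠ 0 := by
    rintro rfl
    apply hf
    rw [h]; simp
  have hn := ω.num_ne_zero hf
  have hd := ω.den_ne_zero f
  have hdF := ω.coe_den_ne_zero f
  have hcross : ω.num f * b = a * ω.den f := by
    apply ω.inj
    have h1 : algebraMap R F (ω.num f) / algebraMap R F (ω.den f) =
        algebraMap R F a / algebraMap R F b := by
      rw [← ω.eq_num_div_den f, ← h]
    have : algebraMap R F (ω.num f) * algebraMap R F b =
        algebraMap R F a * algebraMap R F (ω.den f) := (div_eq_div_iff hdF hbF).mp h1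
    simpa using this
  have h2 := congrArg ω.o hcross
  rw [ω.map_mul _ _ hn hb, ω.map_mul _ _ ha hd] at h2
  rw [ω.oExt_of_ne_zero hf]
  omega

theorem o_one : ω.o (1 : R) = 0 := by
  have h := ω.map_mul 1 1 one_ne_zero one_ne_zero
  rw [mul_one] at h
  linarith

theorem oExt_algebraMap {a : R} (ha : a ≠ 0) : ω.oExt (algebraMap R F a) = ω.o a := by
  have haF : algebraMap R F a ≠ 0 := ω.coe_ne_zero ha
  have := ω.oExt_eq haF (a := a) (b := 1) one_ne_zero (by simp)
  rw [this, ω.o_one, sub_zero]

theorem oExt_div {a b : R} (ha : a ≠ 0) (hb : b ≠ 0) :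
    ω.oExt (algebraMap R F a / algebraMap R F b) = ω.o a - ω.o b :=
  ω.oExt_eq (div_ne_zero (ω.coe_ne_zero ha) (ω.coe_ne_zero hb)) hb rfl

theorem oExt_mul {f g : F} (hf : f ≠ 0) (hg : g ≠ 0) : ω.oExt (f * g) = ω.oExt f + ω.oExt g := by
  have hfn := ω.num_ne_zero hf
  have hgn := ω.num_ne_zero hg
  have hfd := ω.den_ne_zero f
  have hgd := ω.den_ne_zero g
  have hrep : f * g = algebraMap R F (ω.num f * ω.num g) / algebraMap R F (ω.den f * ω.den g) := by
    conv_lhs => rw [ω.eq_num_div_den f, ω.eq_num_div_den g]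
    rw [_root_.map_mul, _root_.map_mul, div_mul_div_comm]
  rw [ω.oExt_eq (mul_ne_zero hf hg) (mul_ne_zero hfd hgd) hrep, ω.map_mul _ _ hfn hgn,
    ω.map_mul _ _ hfd hgd, ω.oExt_of_ne_zero hf, ω.oExt_of_ne_zero hg]
  ring

theorem oExt_add {f g : F} (hf : f ≠ 0) (hg : g ≠ 0) (hfg : f + g ≠ 0) :
    min (ω.oExt f) (ω.oExt g) ≤ ω.oExt (f + g) := by
  have hfn := ω.num_ne_zero hf
  have hgn := ω.num_ne_zero hg
  have hfd := ω.den_ne_zero f
  have hgd := ω.den_ne_zero g
  have hfdF := ω.coe_den_ne_zero f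
  have hgdF := ω.coe_den_ne_zero g
  have hrep : f + g = algebraMap R F (ω.num f * ω.den g + ω.num g * ω.den f) /
      algebraMap R F (ω.den f * ω.den g) := by
    conv_lhs => rw [ω.eq_num_div_den f, ω.eq_num_div_den g]
    rw [_root_.map_add, _root_.map_mul, _root_.map_mul, _root_.map_mul,
      div_add_div _ _ hfdF hgdF]
    congr 1
    ring
  have hnum : ω.num f * ω.den g + ω.num g * ω.den f ≠ 0 := by
    intro h0
    apply hfg
    rw [hrep, h0]
    simp
  rw [ω.oExt_eq hfg (mul_ne_zero hfd hgd) hrep, ω.map_mul _ _ hfd hgd]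
  have hadd := ω.map_add _ _ (mul_ne_zero hfn hgd) (mul_ne_zero hgn hfd) hnum
  rw [ω.map_mul _ _ hfn hgd, ω.map_mul _ _ hgn hfd] at hadd
  rw [ω.oExt_of_ne_zero hf, ω.oExt_of_ne_zero hg]
  rcases min_cases (ω.o (ω.num f) + ω.o (ω.den g)) (ω.o (ω.num g) + ω.o (ω.den f)) with h | h <;>
  rcases min_cases (ω.o (ω.num f) - ω.o (ω.den f)) (ω.o (ω.num g) - ω.o (ω.den g)) with h' | h' <;>
  omega

theorem oExt_const {c : K} (hc : c ≠ 0) : ω.oExt (algebraMap K F c) = 0 := by
  have hc' : algebraMap K R c ≠ 0 := by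
    intro h
    apply hc
    have : algebraMap K F c = 0 := by
      rw [IsScalarTower.algebraMap_apply K R F, h, map_zero]
    exact (map_eq_zero _).mp this
  rw [IsScalarTower.algebraMap_apply K R F, ω.oExt_algebraMap hc', ω.map_const c hc]

/-- the `OrderFn` on `F` extending `ω`, when `ω` is nontrivial. -/
noncomputable def toOrderFn (hnt : ∃ a : R, a ≠ 0 ∧ ω.o a ≠ 0) : OrderFn K F where
  o := ω.oExt
  map_mul := fun _ _ hf hg => ω.oExt_mul hf hg
  map_add := fun _ _ hf hg hfg => ω.oExt_add hf hg hfg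
  map_const := fun _ hc => ω.oExt_const hc
  nontrivial := by
    obtain ⟨a, ha0, ha⟩ := hnt
    exact ⟨algebraMap R F a, ω.coe_ne_zero ha0, by rwa [ω.oExt_algebraMap ha0]⟩

/-- divisibility of all values passes to the fraction field. -/
theorem dvd_oExt {d : ℤ} (hd : ∀ a : R, a ≠ 0 → d ∣ ω.o a) (f : F) : d ∣ ω.oExt f := by
  by_cases hf : f = 0
  · rw [hf, ω.oExt_zero]
    exact dvd_zero d
  · rw [ω.oExt_of_ne_zero hf]
    exact dvd_sub (hd _ (ω.num_ne_zero hf)) (hd _ (ω.den_ne_zero f))

end FracOrderFn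

end Fermat.Agent.S24x
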