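/-
S24 helper library (B4/C2 shared): the order of vanishing `holOrder h τ` of a holomorphic function
on the upper half plane, with its basic calculus.
-/
import Fermat.Agent.S24x.Defs

set_option autoImplicit false

namespace Fermat.Agent.S24x

open UpperHalfPlane
open scoped MatrixGroups Manifold

/-- the order of vanishing at `τ` of a holomorphic function on `ℍ` -/
noncomputable def holOrder (h : Hol) (τ : ℍ) : ℕ∞ :=
  analyticOrderAt ((h : ℍ → ℂ) ∘ ofComplex) (τ : ℂ)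

theorem Hol.analyticAt (h : Hol) (τ : ℍ) : AnalyticAt ℂ ((h : ℍ → ℂ) ∘ ofComplex) (τ : ℂ) :=
  Hol.analyticOnNhd h τ τ.im_pos

theorem holOrder_ne_top {h : Hol} (hh : h ≠ 0) (τ : ℍ) : holOrder h τ ≠ ⊤ := by
  intro htop
  apply hh
  have hev : ∀ᶠ z in nhds (τ : ℂ), ((h : ℍ → ℂ) ∘ ofComplex) z = 0 :=
    analyticOrderAt_eq_top.mp htop
  have hzero := (Hol.analyticOnNhd h).eqOn_zero_of_preconnected_of_eventuallyEq_zero
    isPreconnected_upperHalfPlaneSet τ.im_pos hev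
  apply Subtype.ext
  funext z
  have := hzero z.im_pos
  simpa using this

theorem holOrder_mul (a b : Hol) (τ : ℍ) : holOrder (a * b) τ = holOrder a τ + holOrder b τ := by
  unfold holOrder
  have : (((a * b : Hol) : ℍ → ℂ) ∘ ofComplex) =
      ((a : ℍ → ℂ) ∘ ofComplex) * ((b : ℍ → ℂ) ∘ ofComplex) := by
    funext z
    simp
  rw [this]
  exact analyticOrderAt_mul (Hol.analyticAt a τ) (Hol.analyticAt b τ)

theorem le_holOrder_add (a b : Hol) (τ : ℍ) :
    min (holOrder a τ) (holOrder b τ) ≤ holOrder (a + b) τ := by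
  unfold holOrder
  have : (((a + b : Hol) : ℍ → ℂ) ∘ ofComplex) =
      ((a : ℍ → ℂ) ∘ ofComplex) + ((b : ℍ → ℂ) ∘ ofComplex) := by
    funext z
    simp
  rw [this]
  exact le_analyticOrderAt_add

theorem holOrder_eq_zero_iff (h : Hol) (τ : ℍ) : holOrder h τ = 0 ↔ (h : ℍ → ℂ) τ ≠ 0 := by
  unfold holOrder
  rw [(Hol.analyticAt h τ).analyticOrderAt_eq_zero]
  simp

theorem holOrder_pos_iff (h : Hol) (τ : ℍ) : 0 < holOrder h τ ↔ (h : ℍ → ℂ) τ = 0 := by
  rw [pos_iff_ne_zero, ne_eq, holOrder_eq_zero_iff]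
  push Not
  rfl

theorem holOrder_algebraMap {c : ℂ} (hc : c ≠ 0) (τ : ℍ) : holOrder (algebraMap ℂ Hol c) τ = 0 := by
  rw [holOrder_eq_zero_iff]
  exact hc

theorem holOrder_one (τ : ℍ) : holOrder 1 τ = 0 := by
  rw [holOrder_eq_zero_iff]
  exact one_ne_zero

theorem holOrder_smul (γ : SL(2, ℤ)) (h : Hol) (τ : ℍ) :
    holOrder (γ • h) τ = holOrder h (γ⁻¹ • τ) := by
  unfold holOrder
  set g : GL (Fin 2) ℝ := (Matrix.SpecialLinearGroup.mapGL ℝ γ⁻¹ : GL (Fin 2) ℝ) with hg_def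
  have hg : 0 < g.val.det := by
    have h1 : g.val.det = 1 := by
      rw [hg_def]
      exact (Matrix.SpecialLinearGroup.map (Int.castRingHom ℝ) γ⁻¹).det_coe
    rw [h1]
    exact one_pos
  have hcomp : (((γ • h : Hol) : ℍ → ℂ) ∘ ofComplex) =
      ((h : ℍ → ℂ) ∘ ofComplex) ∘ (fun z : ℂ => ((g • ofComplex z : ℍ) : ℂ)) := by
    funext z
    simp only [Function.comp_apply, smul_Hol_apply, ofComplex_apply]
    rfl
  rw [hcomp, analyticOrderAt_comp_of_deriv_ne_zero (UpperHalfPlane.analyticAt_smul hg τ)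
    (UpperHalfPlane.deriv_smul_ne_zero hg τ)]
  simp only [ofComplex_apply]
  rfl

end Fermat.Agent.S24x
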