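/-
S24 helper library (C2a): the order valuation `ordAt τ` on `Mer = Frac Hol`.
-/
import Fermat.Agent.S24x.HolOrder
import Fermat.Agent.S24x.FracOrder

set_option autoImplicit false

namespace Fermat.Agent.S24x

open UpperHalfPlane AlgebraicCurve
open scoped MatrixGroups Manifold

/-- integer valued version of `holOrder` (junk value `0` at `h = 0`). -/
noncomputable def holOrdZ (h : Hol) (τ : ℍ) : ℤ := ((holOrder h τ).toNat : ℤ)

theorem holOrder_eq_coe_toNat {h : Hol} (hh : h ≠ 0) (τ : ℍ) :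
    holOrder h τ = ((holOrder h τ).toNat : ℕ∞) :=
  (ENat.coe_toNat (holOrder_ne_top hh τ)).symm

theorem holOrdZ_nonneg (h : Hol) (τ : ℍ) : 0 ≤ holOrdZ h τ := Int.natCast_nonneg _

theorem holOrdZ_mul {a b : Hol} (ha : a ≠ 0) (hb : b ≠ 0) (τ : ℍ) :
    holOrdZ (a * b) τ = holOrdZ a τ + holOrdZ b τ := by
  unfold holOrdZ
  rw [holOrder_mul, ENat.toNat_add (holOrder_ne_top ha τ) (holOrder_ne_top hb τ)]
  push_cast
  rfl

theorem holOrdZ_add {a b : Hol} (ha : a ≠ 0) (hb : b ≠ 0) (hab : a + b ≠ 0) (τ : ℍ) :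
    min (holOrdZ a τ) (holOrdZ b τ) ≤ holOrdZ (a + b) τ := by
  have h := le_holOrder_add a b τ
  rw [holOrder_eq_coe_toNat ha, holOrder_eq_coe_toNat hb, holOrder_eq_coe_toNat hab] at h
  unfold holOrdZ
  rcases min_le_iff.mp h with h1 | h1
  · exact min_le_iff.mpr (Or.inl (by exact_mod_cast h1))
  · exact min_le_iff.mpr (Or.inr (by exact_mod_cast h1))

theorem holOrdZ_eq_zero_iff {h : Hol} (hh : h ≠ 0) (τ : ℍ) :
    holOrdZ h τ = 0 ↔ (h : ℍ → ℂ) τ ≠ 0 := by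
  rw [← holOrder_eq_zero_iff]
  unfold holOrdZ
  constructor
  · intro h0
    rw [holOrder_eq_coe_toNat hh]
    have : (holOrder h τ).toNat = 0 := by exact_mod_cast h0
    rw [this]
    rfl
  · intro h0
    rw [h0]
    rfl

theorem holOrdZ_smul (γ : SL(2, ℤ)) (h : Hol) (τ : ℍ) :
    holOrdZ (γ • h) τ = holOrdZ h (γ⁻¹ • τ) := by
  unfold holOrdZ
  rw [holOrder_smul]

/-- the order function of `Hol` at `τ`, packaged. -/
noncomputable def holFracOrderFn (τ : ℍ) : FracOrderFn ℂ Hol Mer where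
  o h := holOrdZ h τ
  inj := IsFractionRing.injective Hol Mer
  map_mul := fun _ _ ha hb => holOrdZ_mul ha hb τ
  map_add := fun _ _ ha hb hab => holOrdZ_add ha hb hab τ
  map_const := by
    intro c hc
    show holOrdZ (algebraMap ℂ Hol c) τ = 0
    unfold holOrdZ
    rw [holOrder_algebraMap hc]
    rfl
  frac := by
    intro f
    obtain ⟨a, b, hb, h⟩ := IsFractionRing.div_surjective (A := Hol) f
    exact ⟨a, b, nonZeroDivisors.ne_zero hb, h.symm⟩

/-- `ord_τ` on `Mer = Frac Hol` (value `0` at `0` by convention). -/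
noncomputable def ordAt (τ : ℍ) : Mer → ℤ := (holFracOrderFn τ).oExt

theorem ordAt_zero (τ : ℍ) : ordAt τ 0 = 0 := (holFracOrderFn τ).oExt_zero

theorem ordAt_mul (τ : ℍ) {x y : Mer} (hx : x ≠ 0) (hy : y ≠ 0) :
    ordAt τ (x * y) = ordAt τ x + ordAt τ y := (holFracOrderFn τ).oExt_mul hx hy

theorem ordAt_add (τ : ℍ) {x y : Mer} (hx : x ≠ 0) (hy : y ≠ 0) (hxy : x + y ≠ 0) :
    min (ordAt τ x) (ordAt τ y) ≤ ordAt τ (x + y) := (holFracOrderFn τ).oExt_add hx hy hxy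

theorem ordAt_algebraMap_eq_holOrdZ (τ : ℍ) {h : Hol} (hh : h ≠ 0) :
    ordAt τ (algebraMap Hol Mer h) = holOrdZ h τ := (holFracOrderFn τ).oExt_algebraMap hh

theorem ordAt_div (τ : ℍ) {a b : Hol} (ha : a ≠ 0) (hb : b ≠ 0) :
    ordAt τ (algebraMap Hol Mer a / algebraMap Hol Mer b) = holOrdZ a τ - holOrdZ b τ :=
  (holFracOrderFn τ).oExt_div ha hb

theorem ordAt_algebraMap (τ : ℍ) {h : Hol} (hh : h ≠ 0) :
    ((ordAt τ (algebraMap Hol Mer h) : ℤ) : WithTop ℤ) = (holOrder h τ).map (Nat.cast) := by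
  rw [ordAt_algebraMap_eq_holOrdZ τ hh]
  conv_rhs => rw [holOrder_eq_coe_toNat hh]
  rw [ENat.map_coe]
  rfl

theorem ordAt_algebraMap_nonneg (τ : ℍ) (h : Hol) : 0 ≤ ordAt τ (algebraMap Hol Mer h) := by
  by_cases hh : h = 0
  · rw [hh, map_zero, ordAt_zero]
  · rw [ordAt_algebraMap_eq_holOrdZ τ hh]
    exact holOrdZ_nonneg h τ

theorem ordAt_algebraMap_eq_zero_iff (τ : ℍ) {h : Hol} (hh : h ≠ 0) :
    ordAt τ (algebraMap Hol Mer h) = 0 ↔ (h : ℍ → ℂ) τ ≠ 0 := by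
  rw [ordAt_algebraMap_eq_holOrdZ τ hh, holOrdZ_eq_zero_iff hh]

theorem ordAt_algebraMap_pos_iff (τ : ℍ) {h : Hol} (hh : h ≠ 0) :
    0 < ordAt τ (algebraMap Hol Mer h) ↔ (h : ℍ → ℂ) τ = 0 := by
  have h1 := ordAt_algebraMap_nonneg τ h
  have h2 := ordAt_algebraMap_eq_zero_iff τ hh
  constructor
  · intro hpos
    by_contra hne
    have := h2.mpr hne
    omega
  · intro h0
    rcases h1.lt_or_eq with h3 | h3
    · exact h3
    · exact absurd h0 (h2.mp h3.symm)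

theorem ordAt_const (τ : ℍ) (c : ℂ) : ordAt τ (algebraMap ℂ Mer c) = 0 := by
  by_cases hc : c = 0
  · rw [hc, map_zero, ordAt_zero]
  · exact (holFracOrderFn τ).oExt_const hc

theorem ordAt_inv (τ : ℍ) {x : Mer} (hx : x ≠ 0) : ordAt τ x⁻¹ = - ordAt τ x := by
  have h := ordAt_mul τ hx (inv_ne_zero hx)
  rw [mul_inv_cancel₀ hx] at h
  have h1 : ordAt τ (1 : Mer) = 0 := by
    have := ordAt_const τ 1
    rwa [map_one] at this
  rw [h1] at h
  omega

theorem ordAt_smul (τ : ℍ) (γ : SL(2, ℤ)) (x : Mer) : ordAt τ (γ • x) = ordAt (γ⁻¹ • τ) x := by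
  by_cases hx : x = 0
  · rw [hx, smul_zero, ordAt_zero, ordAt_zero]
  · obtain ⟨a, b, hb, rfl⟩ := (holFracOrderFn τ).frac x
    have ha : a ≠ 0 := by
      rintro rfl
      apply hx
      simp
    have hγa : γ • a ≠ 0 := by
      rwa [Ne, smul_eq_zero_iff_eq]
    have hγb : γ • b ≠ 0 := by
      rwa [Ne, smul_eq_zero_iff_eq]
    have hsm : γ • (algebraMap Hol Mer a / algebraMap Hol Mer b) =
        algebraMap Hol Mer (γ • a) / algebraMap Hol Mer (γ • b) := by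
      rw [div_eq_mul_inv, smul_mul', smul_inv'', smul_algebraMap_Mer, smul_algebraMap_Mer,
        div_eq_mul_inv]
    rw [hsm, ordAt_div τ hγa hγb, ordAt_div _ ha hb, holOrdZ_smul, holOrdZ_smul]

end Fermat.Agent.S24x
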