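/-
S24 helper library (C2b, generic part): the place of a field `F/K` realised inside `Mer` given by
the order of vanishing at a point `τ` of the upper half plane.
-/
import Fermat.Agent.S24x.PointPlaces

set_option autoImplicit false

namespace Fermat.Agent.S24x

open UpperHalfPlane AlgebraicCurve
open scoped MatrixGroups Manifold

/-- a realisation of a field `F/K` inside `Mer`, compatible with an embedding of the constants. -/
structure MerReal (K F : Type*) [Field K] [Field F] [Algebra K F] where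
  /-- the realisation -/
  φ : F →+* Mer
  /-- the embedding of the constants -/
  ι : K →+* ℂ
  map_const : ∀ c : K, φ (algebraMap K F c) = algebraMap ℂ Mer (ι c)

namespace MerReal

variable {K F : Type*} [Field K] [Field F] [Algebra K F] (ρ : MerReal K F)

theorem φ_ne_zero {f : F} (hf : f ≠ 0) : ρ.φ f ≠ 0 := (map_ne_zero ρ.φ).mpr hf

/-- `τ` is a point of the curve: some element of `F` has nonzero order at `τ`. -/
def IsPt (τ : ℍ) : Prop := ∃ f : F, f ≠ 0 ∧ ordAt τ (ρ.φ f) ≠ 0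

/-- the order function `ord_τ ∘ φ` on `F`. -/
noncomputable def orderFn (τ : ℍ) (h : ρ.IsPt τ) : OrderFn K F where
  o f := ordAt τ (ρ.φ f)
  map_mul := by
    intro f g hf hg
    rw [map_mul]
    exact ordAt_mul τ (ρ.φ_ne_zero hf) (ρ.φ_ne_zero hg)
  map_add := by
    intro f g hf hg hfg
    rw [map_add]
    refine ordAt_add τ (ρ.φ_ne_zero hf) (ρ.φ_ne_zero hg) ?_
    rw [← map_add]
    exact ρ.φ_ne_zero hfg
  map_const := by
    intro c _
    rw [ρ.map_const]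
    exact ordAt_const τ _
  nontrivial := h

/-- the place of `F/K` at the point `τ`. -/
noncomputable def placeAt (τ : ℍ) (h : ρ.IsPt τ) : Place K F := (ρ.orderFn τ h).place

theorem mem_placeAt_iff (τ : ℍ) (h : ρ.IsPt τ) (f : F) :
    f ∈ (ρ.placeAt τ h).toValuationSubring ↔ 0 ≤ ordAt τ (ρ.φ f) := by
  show f ∈ (ρ.orderFn τ h).valuationSubring ↔ _
  rw [OrderFn.mem_valuationSubring]
  constructor
  · rintro (rfl | h0)
    · rw [map_zero, ordAt_zero]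
    · exact h0
  · intro h0
    exact Or.inr h0

/-- `ord_τ ∘ φ = g • ord_{placeAt τ}` with `g ≥ 1`, and `g` is attained. -/
theorem exists_ordAt_eq_mul_placeAt_ord (τ : ℍ) (h : ρ.IsPt τ) :
    ∃ g : ℕ, 0 < g ∧ (∃ π : F, π ≠ 0 ∧ ordAt τ (ρ.φ π) = g) ∧
      ∀ f : F, ordAt τ (ρ.φ f) = g * (ρ.placeAt τ h).ord f := by
  obtain ⟨g, hg, ⟨π, hπ0, hπ⟩, hall⟩ := (ρ.orderFn τ h).exists_o_eq_mul_ord
  lift g to ℕ using hg.le
  refine ⟨g, by exact_mod_cast hg, ⟨π, hπ0, hπ⟩, fun f => ?_⟩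
  by_cases hf : f = 0
  · rw [hf, map_zero, ordAt_zero, Place.ord_zero, mul_zero]
  · exact hall f hf

theorem placeAt_ord_pos_iff (τ : ℍ) (h : ρ.IsPt τ) {f : F} (hf : f ≠ 0) :
    0 < (ρ.placeAt τ h).ord f ↔ 0 < ordAt τ (ρ.φ f) :=
  (ρ.orderFn τ h).ord_pos_iff hf

theorem placeAt_ord_le (τ : ℍ) (h : ρ.IsPt τ) {f : F} (hf : f ≠ 0)
    (hpos : 0 < ordAt τ (ρ.φ f)) : (ρ.placeAt τ h).ord f ≤ ordAt τ (ρ.φ f) :=
  (ρ.orderFn τ h).ord_le_o hf hpos

/-- if all orders at `τ` of elements of `F` are divisible by `d`, then `d * ord f ≤ ord_τ f`. -/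
theorem mul_placeAt_ord_le (τ : ℍ) (h : ρ.IsPt τ) {d : ℤ}
    (hdvd : ∀ f : F, f ≠ 0 → d ∣ ordAt τ (ρ.φ f)) {f : F} (hf : f ≠ 0)
    (hpos : 0 < ordAt τ (ρ.φ f)) : d * (ρ.placeAt τ h).ord f ≤ ordAt τ (ρ.φ f) :=
  (ρ.orderFn τ h).mul_ord_le_o hdvd hf hpos

/-- the place only depends on the order function. -/
theorem placeAt_congr {τ τ' : ℍ} (h : ρ.IsPt τ) (h' : ρ.IsPt τ')
    (heq : ∀ f : F, ordAt τ (ρ.φ f) = ordAt τ' (ρ.φ f)) : ρ.placeAt τ h = ρ.placeAt τ' h' := by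
  have : ρ.orderFn τ h = ρ.orderFn τ' h' := by
    have ho : (ρ.orderFn τ h).o = (ρ.orderFn τ' h').o := funext heq
    cases h1 : ρ.orderFn τ h
    cases h2 : ρ.orderFn τ' h'
    rw [h1, h2] at ho
    simp only at ho
    subst ho
    rfl
  unfold placeAt
  rw [this]

theorem isPt_congr {τ τ' : ℍ} (heq : ∀ f : F, ordAt τ (ρ.φ f) = ordAt τ' (ρ.φ f))
    (h : ρ.IsPt τ) : ρ.IsPt τ' := by
  obtain ⟨f, hf, hne⟩ := h
  exact ⟨f, hf, by rwa [← heq f]⟩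

/-- orders at `γ • τ` and at `τ` agree on `γ⁻¹`-invariant elements. -/
theorem ordAt_smul_point (γ : SL(2, ℤ)) (τ : ℍ) (x : Mer) :
    ordAt (γ • τ) x = ordAt τ (γ⁻¹ • x) := by
  rw [ordAt_smul, inv_inv]

theorem ordAt_smul_point_of_invariant {γ : SL(2, ℤ)} (hγ : ∀ f : F, γ⁻¹ • ρ.φ f = ρ.φ f) (τ : ℍ)
    (f : F) : ordAt (γ • τ) (ρ.φ f) = ordAt τ (ρ.φ f) := by
  rw [ordAt_smul_point, hγ f]

theorem isPt_smul {γ : SL(2, ℤ)} (hγ : ∀ f : F, γ⁻¹ • ρ.φ f = ρ.φ f) {τ : ℍ} (h : ρ.IsPt τ) :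
    ρ.IsPt (γ • τ) :=
  ρ.isPt_congr (fun f => (ρ.ordAt_smul_point_of_invariant hγ τ f).symm) h

theorem placeAt_smul {γ : SL(2, ℤ)} (hγ : ∀ f : F, γ⁻¹ • ρ.φ f = ρ.φ f) {τ : ℍ} (h : ρ.IsPt τ) :
    ρ.placeAt (γ • τ) (ρ.isPt_smul hγ h) = ρ.placeAt τ h :=
  ρ.placeAt_congr _ _ (ρ.ordAt_smul_point_of_invariant hγ τ)

/-- a nonzero element of `F` realised by a holomorphic function vanishing at `τ` makes `τ` a
point. -/
theorem isPt_of_hol_zero {τ : ℍ} {f : F} (hf : f ≠ 0) {a : Hol}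
    (ha : ρ.φ f = algebraMap Hol Mer a) (hτ : (a : ℍ → ℂ) τ = 0) : ρ.IsPt τ := by
  refine ⟨f, hf, ?_⟩
  have ha0 : a ≠ 0 := by
    rintro rfl
    apply ρ.φ_ne_zero hf
    rw [ha, map_zero]
  rw [ha]
  exact ((ordAt_algebraMap_pos_iff τ ha0).mpr hτ).ne'

open scoped Classical in
/-- total version of `placeAt` with a default value. -/
noncomputable def placeAtD (v₀ : Place K F) (τ : ℍ) : Place K F :=
  if h : ρ.IsPt τ then ρ.placeAt τ h else v₀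

theorem placeAtD_eq (v₀ : Place K F) {τ : ℍ} (h : ρ.IsPt τ) :
    ρ.placeAtD v₀ τ = ρ.placeAt τ h := by
  simp [placeAtD, h]

theorem placeAtD_smul (v₀ : Place K F) {γ : SL(2, ℤ)} (hγ : ∀ f : F, γ⁻¹ • ρ.φ f = ρ.φ f)
    (hγ' : ∀ f : F, γ • ρ.φ f = ρ.φ f) (τ : ℍ) :
    ρ.placeAtD v₀ (γ • τ) = ρ.placeAtD v₀ τ := by
  by_cases h : ρ.IsPt τ
  · rw [ρ.placeAtD_eq v₀ h, ρ.placeAtD_eq v₀ (ρ.isPt_smul hγ h), ρ.placeAt_smul hγ h]
  · have h' : ¬ ρ.IsPt (γ • τ) := by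
      intro h2
      apply h
      have h3 := ρ.isPt_smul (γ := γ⁻¹) (by simpa using hγ') h2
      rwa [inv_smul_smul] at h3
    unfold placeAtD
    rw [dif_neg h, dif_neg h']

end MerReal

end Fermat.Agent.S24x
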