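/-
S24 helper library (C2c, growth form): the subalgebra of elements of `F` realised by holomorphic
functions of moderate growth at all cusps, with its holomorphic representatives.
-/
import Fermat.Agent.S24x.CuspOrder
import Fermat.Agent.S24x.PtPlace

set_option autoImplicit false

namespace Fermat.Agent.S24x

open UpperHalfPlane AlgebraicCurve
open scoped MatrixGroups Manifold

/-- moderate growth at `i∞`. -/
def ModGrowth (h : ℍ → ℂ) : Prop :=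
  ∃ (m : ℕ) (C A : ℝ), ∀ τ : ℍ, A ≤ τ.im → ‖h τ‖ ≤ C * Real.exp (2 * Real.pi * m * τ.im)

theorem modGrowth_const (c : ℂ) : ModGrowth (fun _ => c) := by
  refine ⟨0, ‖c‖, 0, fun τ _ => ?_⟩
  simp

theorem cr_exp_mono {m m' : ℕ} (h : m ≤ m') {y : ℝ} (hy : 0 ≤ y) :
    Real.exp (2 * Real.pi * m * y) ≤ Real.exp (2 * Real.pi * m' * y) := by
  apply Real.exp_le_exp.mpr
  have h1 : (m : ℝ) ≤ m' := by exact_mod_cast h
  have hpi := Real.pi_pos
  have : 2 * Real.pi * (m : ℝ) ≤ 2 * Real.pi * m' := by nlinarith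
  nlinarith

theorem ModGrowth.nonneg_const {h : ℍ → ℂ} (hh : ModGrowth h) :
    ∃ (m : ℕ) (C A : ℝ), 0 ≤ C ∧ ∀ τ : ℍ, A ≤ τ.im →
      ‖h τ‖ ≤ C * Real.exp (2 * Real.pi * m * τ.im) := by
  obtain ⟨m, C, A, hb⟩ := hh
  refine ⟨m, max C 0, A, le_max_right _ _, fun τ hτ => le_trans (hb τ hτ) ?_⟩
  exact mul_le_mul_of_nonneg_right (le_max_left _ _) (Real.exp_pos _).le

theorem ModGrowth.mul {h₁ h₂ : ℍ → ℂ} (hh₁ : ModGrowth h₁) (hh₂ : ModGrowth h₂) :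
    ModGrowth (fun τ => h₁ τ * h₂ τ) := by
  obtain ⟨m₁, C₁, A₁, hC₁, hb₁⟩ := hh₁.nonneg_const
  obtain ⟨m₂, C₂, A₂, hC₂, hb₂⟩ := hh₂.nonneg_const
  refine ⟨m₁ + m₂, C₁ * C₂, max A₁ A₂, fun τ hτ => ?_⟩
  have h1 := hb₁ τ (le_trans (le_max_left _ _) hτ)
  have h2 := hb₂ τ (le_trans (le_max_right _ _) hτ)
  rw [norm_mul]
  have hsplit : Real.exp (2 * Real.pi * ((m₁ + m₂ : ℕ) : ℝ) * τ.im) =
      Real.exp (2 * Real.pi * m₁ * τ.im) * Real.exp (2 * Real.pi * m₂ * τ.im) := by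
    rw [← Real.exp_add]
    congr 1
    push_cast
    ring
  rw [hsplit]
  calc ‖h₁ τ‖ * ‖h₂ τ‖ ≤ (C₁ * Real.exp (2 * Real.pi * m₁ * τ.im)) *
        (C₂ * Real.exp (2 * Real.pi * m₂ * τ.im)) :=
        mul_le_mul h1 h2 (norm_nonneg _) (le_trans (norm_nonneg _) h1)
    _ = C₁ * C₂ * (Real.exp (2 * Real.pi * m₁ * τ.im) * Real.exp (2 * Real.pi * m₂ * τ.im)) := by
        ring

theorem ModGrowth.add {h₁ h₂ : ℍ → ℂ} (hh₁ : ModGrowth h₁) (hh₂ : ModGrowth h₂) :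
    ModGrowth (fun τ => h₁ τ + h₂ τ) := by
  obtain ⟨m₁, C₁, A₁, hC₁, hb₁⟩ := hh₁.nonneg_const
  obtain ⟨m₂, C₂, A₂, hC₂, hb₂⟩ := hh₂.nonneg_const
  refine ⟨max m₁ m₂, C₁ + C₂, max A₁ A₂, fun τ hτ => ?_⟩
  have h1 := hb₁ τ (le_trans (le_max_left _ _) hτ)
  have h2 := hb₂ τ (le_trans (le_max_right _ _) hτ)
  have e1 := cr_exp_mono (le_max_left m₁ m₂) τ.im_pos.le
  have e2 := cr_exp_mono (le_max_right m₁ m₂) τ.im_pos.le
  calc ‖h₁ τ + h₂ τ‖ ≤ ‖h₁ τ‖ + ‖h₂ τ‖ := norm_add_le _ _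
    _ ≤ C₁ * Real.exp (2 * Real.pi * m₁ * τ.im) + C₂ * Real.exp (2 * Real.pi * m₂ * τ.im) :=
        add_le_add h1 h2
    _ ≤ C₁ * Real.exp (2 * Real.pi * (max m₁ m₂ : ℕ) * τ.im) +
        C₂ * Real.exp (2 * Real.pi * (max m₁ m₂ : ℕ) * τ.im) :=
        add_le_add (mul_le_mul_of_nonneg_left e1 hC₁) (mul_le_mul_of_nonneg_left e2 hC₂)
    _ = (C₁ + C₂) * Real.exp (2 * Real.pi * (max m₁ m₂ : ℕ) * τ.im) := by ring

/-- `h ∘ g` as an element of `Hol`. -/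
noncomputable def holComp (h : Hol) (g : SL(2, ℤ)) : Hol := g⁻¹ • h

@[simp] theorem holComp_apply (h : Hol) (g : SL(2, ℤ)) (τ : ℍ) :
    (holComp h g : ℍ → ℂ) τ = (h : ℍ → ℂ) (g • τ) := by
  unfold holComp
  rw [smul_Hol_apply, inv_inv]

theorem holComp_ne_zero {h : Hol} (hh : h ≠ 0) (g : SL(2, ℤ)) : holComp h g ≠ 0 := by
  unfold holComp
  rwa [Ne, smul_eq_zero_iff_eq]

theorem holComp_mul (a b : Hol) (g : SL(2, ℤ)) : holComp (a * b) g = holComp a g * holComp b g :=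
  smul_mul' _ _ _

theorem holComp_add (a b : Hol) (g : SL(2, ℤ)) : holComp (a + b) g = holComp a g + holComp b g :=
  smul_add _ _ _

namespace MerReal

variable {K F : Type*} [Field K] [Field F] [Algebra K F] (ρ : MerReal K F)

/-- `f` is realised by a holomorphic function of moderate growth at all cusps. -/
def IsCuspReg (f : F) : Prop :=
  ∃ h : Hol, ρ.φ f = algebraMap Hol Mer h ∧ ∀ g : SL(2, ℤ), ModGrowth (holComp h g : ℍ → ℂ)

/-- the subalgebra of `F` of elements regular on `ℍ` with moderate growth at all cusps. -/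
def cuspReg : Subalgebra K F where
  carrier := {f | ρ.IsCuspReg f}
  mul_mem' := by
    rintro a b ⟨ha, hae, hag⟩ ⟨hb, hbe, hbg⟩
    refine ⟨ha * hb, by rw [map_mul, map_mul, hae, hbe], fun g => ?_⟩
    rw [holComp_mul]
    exact (hag g).mul (hbg g)
  add_mem' := by
    rintro a b ⟨ha, hae, hag⟩ ⟨hb, hbe, hbg⟩
    refine ⟨ha + hb, by rw [map_add, map_add, hae, hbe], fun g => ?_⟩
    rw [holComp_add]
    exact (hag g).add (hbg g)
  algebraMap_mem' := by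
    intro c
    refine ⟨algebraMap ℂ Hol (ρ.ι c), ?_, fun g => ?_⟩
    · rw [ρ.map_const, IsScalarTower.algebraMap_apply ℂ Hol Mer]
    · have : (holComp (algebraMap ℂ Hol (ρ.ι c)) g : ℍ → ℂ) = fun _ => ρ.ι c := by
        funext τ
        rw [holComp_apply]
        rfl
      rw [this]
      exact modGrowth_const _

theorem mem_cuspReg {f : F} : f ∈ ρ.cuspReg ↔ ρ.IsCuspReg f := Iff.rfl

/-- the holomorphic representative of an element of `cuspReg`. -/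
noncomputable def rep (a : ρ.cuspReg) : Hol := a.2.choose

theorem rep_spec (a : ρ.cuspReg) : ρ.φ (a : F) = algebraMap Hol Mer (ρ.rep a) :=
  a.2.choose_spec.1

theorem rep_growth (a : ρ.cuspReg) (g : SL(2, ℤ)) : ModGrowth (holComp (ρ.rep a) g : ℍ → ℂ) :=
  a.2.choose_spec.2 g

theorem rep_unique (a : ρ.cuspReg) {h : Hol} (hh : ρ.φ (a : F) = algebraMap Hol Mer h) :
    ρ.rep a = h := by
  apply IsFractionRing.injective Hol Mer
  rw [← ρ.rep_spec a, hh]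

theorem rep_mul (a b : ρ.cuspReg) : ρ.rep (a * b) = ρ.rep a * ρ.rep b := by
  apply ρ.rep_unique
  rw [map_mul, ← ρ.rep_spec a, ← ρ.rep_spec b]
  simp

theorem rep_add (a b : ρ.cuspReg) : ρ.rep (a + b) = ρ.rep a + ρ.rep b := by
  apply ρ.rep_unique
  rw [map_add, ← ρ.rep_spec a, ← ρ.rep_spec b]
  simp

theorem rep_algebraMap (c : K) : ρ.rep (algebraMap K ρ.cuspReg c) = algebraMap ℂ Hol (ρ.ι c) := by
  apply ρ.rep_unique
  rw [← IsScalarTower.algebraMap_apply ℂ Hol Mer, ← ρ.map_const]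
  rfl

theorem rep_ne_zero {a : ρ.cuspReg} (ha : a ≠ 0) : ρ.rep a ≠ 0 := by
  intro h
  apply ha
  have h1 : ρ.φ (a : F) = 0 := by rw [ρ.rep_spec a, h, map_zero]
  have h2 : (a : F) = 0 := (map_eq_zero ρ.φ).mp h1
  exact Subtype.ext h2

end MerReal

end Fermat.Agent.S24x
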