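/-
S24 helper library (B1 leftovers): the elliptic points `i` and `ρ = e^{2πi/3}` of `ℍ` and their
stabilising elements `S`, `S * T` of `SL(2,ℤ)`.
-/
import Mathlib

set_option autoImplicit false

namespace Fermat.Agent.S24x

open UpperHalfPlane
open scoped MatrixGroups

/-- `ρ = e^{2πi/3} = -1/2 + (√3/2) i` as a point of `ℍ`. -/
noncomputable def rho : ℍ :=
  ⟨(-1 / 2 : ℝ) + (Real.sqrt 3 / 2 : ℝ) * Complex.I, by
    simp only [Complex.add_im, Complex.ofReal_im, Complex.mul_im, Complex.ofReal_re,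
      Complex.I_im, Complex.I_re, mul_one, mul_zero, add_zero, zero_add]
    positivity⟩

theorem rho_coe : (rho : ℂ) = (-1 / 2 : ℝ) + (Real.sqrt 3 / 2 : ℝ) * Complex.I := rfl

/-- `ρ² + ρ + 1 = 0`. -/
theorem rho_sq_add : (rho : ℂ) ^ 2 + (rho : ℂ) + 1 = 0 := by
  rw [rho_coe]
  have h3 : ((Real.sqrt 3 : ℝ) : ℂ) ^ 2 = 3 := by
    rw [← Complex.ofReal_pow, Real.sq_sqrt (by norm_num : (0:ℝ) ≤ 3)]
    norm_num
  push_cast
  ring_nf
  rw [h3, Complex.I_sq]
  ring

theorem S_smul_I : ModularGroup.S • UpperHalfPlane.I = UpperHalfPlane.I := by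
  apply UpperHalfPlane.ext
  rw [UpperHalfPlane.modular_S_smul]
  simp only [UpperHalfPlane.coe_I]
  rw [inv_neg, Complex.inv_I, neg_neg]

theorem ST_smul_rho : (ModularGroup.S * ModularGroup.T) • rho = rho := by
  rw [mul_smul]
  apply UpperHalfPlane.ext
  rw [UpperHalfPlane.modular_S_smul]
  rw [UpperHalfPlane.modular_T_smul]
  simp only [UpperHalfPlane.coe_vadd, Complex.ofReal_one]
  have h := rho_sq_add
  have hne : (1 + (rho : ℂ)) ≠ 0 := by
    intro h0
    have : (rho : ℂ) = -1 := by linear_combination h0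
    rw [this] at h
    norm_num at h
  field_simp
  linear_combination -h

end Fermat.Agent.S24x

namespace Fermat.Agent.S24x

/-- our `rho` is Mathlib's `UpperHalfPlane.ρ`. -/
theorem rho_eq_upperHalfPlane_rho : rho = UpperHalfPlane.ρ := by
  apply UpperHalfPlane.ext
  rw [rho_coe]
  apply Complex.ext <;> simp [UpperHalfPlane.ρ]

end Fermat.Agent.S24x
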