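/-
S24 project, module B1 (rest): special values and growth of the `j`-function.
`jFun_growth` (exact statement of `AnSpec.lean`) and `q · j → 1`.
`rho`, `S_smul_I`, `ST_smul_rho` are in `RhoPoint.lean`, and the AnSpec names `jHol_smul`, `jFun_I`,
`jFun_rho` are in `JFiber.lean` (helper26); the copies here carry the prefix `jf_`.
-/
import Fermat.Agent.S24x.Defs
import Fermat.Agent.S24x.LevelOneJ
import Fermat.Agent.S24x.RhoPoint

set_option autoImplicit false

namespace Fermat.Agent.S24x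

open UpperHalfPlane ModularForm ModularFormClass MatrixGroups EisensteinSeries Filter
open scoped Manifold Topology

theorem jf_jHol_smul (γ : SL(2, ℤ)) : γ • jHol = jHol := by
  apply Subtype.ext
  funext τ
  rw [smul_Hol_apply]
  exact jFun_smul γ⁻¹ τ

/-- `E₆(i) = 0`. -/
theorem jf_E6_I : E₆ UpperHalfPlane.I = 0 := by
  have h := jf_levelOne_smul E₆ ModularGroup.S UpperHalfPlane.I
  rw [S_smul_I] at h
  have hd : denom ModularGroup.S UpperHalfPlane.I = (UpperHalfPlane.I : ℂ) := by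
    simp [denom, ModularGroup.S]
  rw [hd, UpperHalfPlane.coe_I] at h
  have h6 : (Complex.I : ℂ) ^ (6 : ℤ) = -1 := by
    have : (Complex.I : ℂ) ^ (6 : ℤ) = (Complex.I ^ 2) ^ 3 := by
      rw [← pow_mul]; norm_cast
    rw [this, Complex.I_sq]; norm_num
  rw [h6] at h
  have h2 : (2 : ℂ) * E₆ UpperHalfPlane.I = 0 := by linear_combination h
  simpa using h2

theorem jf_jFun_I : jFun UpperHalfPlane.I = 1728 := by
  have h := jAn_sub_1728 UpperHalfPlane.I
  rw [jf_E6_I] at h
  rw [jFun_eq_jAn]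
  have : jAn UpperHalfPlane.I - 1728 = 0 := by rw [h]; simp
  linear_combination this

/-- `E₄(ρ) = 0`. -/
theorem jf_E4_rho : E₄ rho = 0 := by
  have key : ∀ g : SL(2, ℤ), g = ModularGroup.S * ModularGroup.T →
      E₄ rho = ((rho : ℂ) + 1) ^ (4 : ℤ) * E₄ rho := by
    intro g hg
    have h := jf_levelOne_smul E₄ g rho
    have hfix : g • rho = rho := by rw [hg]; exact ST_smul_rho
    rw [hfix] at h
    have e10 : g 1 0 = 1 := by rw [hg]; decide
    have e11 : g 1 1 = 1 := by rw [hg]; decide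
    have hd : denom g rho = (rho : ℂ) + 1 := by
      rw [ModularGroup.denom_apply, e10, e11]
      simp
    rw [hd] at h
    exact h
  have h := key _ rfl
  have hsq := rho_sq_add
  have h4 : ((rho : ℂ) + 1) ^ (4 : ℤ) = -(rho : ℂ) - 1 := by
    have : ((rho : ℂ) + 1) ^ (4 : ℤ) = ((rho : ℂ) + 1) ^ 4 := by
      norm_cast
    rw [this]
    linear_combination ((rho : ℂ) ^ 2 + 3 * (rho : ℂ) + 2) * hsq
  rw [h4] at h
  have h2 : ((rho : ℂ) + 2) * E₄ rho = 0 := by linear_combination h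
  rcases mul_eq_zero.1 h2 with h3 | h3
  · exfalso
    have him := congrArg Complex.im h3
    rw [rho_coe] at him
    simp at him
  · exact h3

theorem jf_jFun_rho : jFun rho = 0 := by
  unfold jFun
  rw [jf_E4_rho]
  simp

/-- `q · j → 1` at `i∞`. -/
theorem jf_tendsto_qParam_mul_jFun :
    Tendsto (fun τ : ℍ => Function.Periodic.qParam 1 (τ : ℂ) * jFun τ) atImInfty (𝓝 1) := by
  have h1 : Tendsto (fun τ : ℍ => E₄ τ ^ 3 /
      (∏' n : ℕ, (1 - ModularForm.eta_q n τ) ^ 24)) atImInfty (𝓝 ((1 : ℂ) ^ 3 / 1)) :=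
    (tendsto_E₄_atImInfty.pow 3).div tendsto_atImInfty_tprod_one_sub_eta_q_pow one_ne_zero
  have h2 : (fun τ : ℍ => Function.Periodic.qParam 1 (τ : ℂ) * jFun τ) =
      fun τ : ℍ => E₄ τ ^ 3 / (∏' n : ℕ, (1 - ModularForm.eta_q n τ) ^ 24) := by
    funext τ
    have hΔ := discriminant_ne_zero τ
    have hq : Function.Periodic.qParam 1 (τ : ℂ) ≠ 0 := by
      simp [Function.Periodic.qParam]
    have e := discriminant_eq_q_prod τ
    have hp : (∏' n : ℕ, (1 - ModularForm.eta_q n τ) ^ 24) ≠ 0 := by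
      intro h0
      rw [h0, mul_zero] at e
      exact hΔ e
    unfold jFun
    rw [e]
    field_simp
  rw [h2]
  simpa using h1

/-- `|j| → ∞` at `i∞`, quantitatively (from the q-expansion `q⁻¹ + 744 + ⋯`). -/
theorem jFun_growth : ∃ A : ℝ, ∀ τ : ℍ, A ≤ τ.im →
    Real.exp (2 * Real.pi * τ.im) / 2 ≤ ‖jFun τ‖ ∧ ‖jFun τ‖ ≤ 2 * Real.exp (2 * Real.pi * τ.im) := by
  have h := jf_tendsto_qParam_mul_jFun.norm
  rw [norm_one] at h
  have hev : ∀ᶠ τ : ℍ in atImInfty,
      ‖Function.Periodic.qParam 1 (τ : ℂ) * jFun τ‖ ∈ Set.Icc (1 / 2 : ℝ) 2 :=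
    h (Icc_mem_nhds (by norm_num) (by norm_num))
  obtain ⟨A, hA⟩ := (atImInfty_mem _).1 hev
  refine ⟨A, fun τ hτ => ?_⟩
  have h1 := hA τ hτ
  simp only [Set.mem_setOf_eq, Set.mem_Icc, norm_mul] at h1
  have hq : ‖Function.Periodic.qParam 1 (τ : ℂ)‖ = Real.exp (-(2 * Real.pi * τ.im)) := by
    rw [Function.Periodic.norm_qParam]
    congr 1
    simp
  rw [hq, Real.exp_neg] at h1
  have hpos : 0 < Real.exp (2 * Real.pi * τ.im) := Real.exp_pos _
  constructor
  · have := h1.1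
    rw [inv_mul_eq_div, le_div_iff₀ hpos] at this
    linarith
  · have := h1.2
    rw [inv_mul_eq_div, div_le_iff₀ hpos] at this
    linarith

end Fermat.Agent.S24x
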