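/-
S24 helper library (C2): an `OrderFn` on `F = Frac R₀` from an order function on the domain `R₀`.
-/
import Fermat.Agent.S24x.PlaceOfOrder

set_option autoImplicit false

namespace Fermat.Agent.S24x

open AlgebraicCurve

/-- An integer valued additive valuation on a subalgebra `R₀` of `F` (value at `0` is junk). -/
structure SubOrderFn (K F : Type*) [Field K] [Field F] [Algebra K F] (R₀ : Subalgebra K F) where
  /-- the order function on `R₀` -/
  o : R₀ → ℤ
  map_mul : ∀ a b : R₀, a ≠ 0 → b ≠ 0 → o (a * b) = o a + o b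
  map_add : ∀ a b : R₀, a ≠ 0 → b ≠ 0 → a + b ≠ 0 → min (o a) (o b) ≤ o (a + b)
  map_const : ∀ c : K, c ≠ 0 → o (algebraMap K R₀ c) = 0
  nontrivial : ∃ a : R₀, a ≠ 0 ∧ o a ≠ 0
  /-- `F` is the fraction field of `R₀` -/
  frac : ∀ f : F, ∃ a b : R₀, b ≠ 0 ∧ f = (a : F) / (b : F)

namespace SubOrderFn

variable {K F : Type*} [Field K] [Field F] [Algebra K F] {R₀ : Subalgebra K F}
  (ω : SubOrderFn K F R₀)

/-- numerator of a chosen fraction representation -/
noncomputable def num (f : F) : R₀ := (ω.frac f).choose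

/-- denominator of a chosen fraction representation -/
noncomputable def den (f : F) : R₀ := (ω.frac f).choose_spec.choose

theorem den_ne_zero (f : F) : ω.den f ≠ 0 := (ω.frac f).choose_spec.choose_spec.1

theorem eq_num_div_den (f : F) : f = (ω.num f : F) / (ω.den f : F) :=
  (ω.frac f).choose_spec.choose_spec.2

theorem coe_den_ne_zero (f : F) : (ω.den f : F) ≠ 0 := by
  have := ω.den_ne_zero f
  simpa using this

theorem num_ne_zero {f : F} (hf : f ≠ 0) : ω.num f ≠ 0 := by
  intro h
  apply hf
  rw [ω.eq_num_div_den f, h]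
  simp

/-- the extended order function `o(a/b) = o a - o b`. -/
noncomputable def oExt (f : F) : ℤ := ω.o (ω.num f) - ω.o (ω.den f)

/-- well-definedness: for any representation `f = a / b`. -/
theorem oExt_eq {f : F} (hf : f ≠ 0) {a b : R₀} (hb : b ≠ 0) (h : f = (a : F) / (b : F)) :
    ω.oExt f = ω.o a - ω.o b := by
  have hbF : (b : F) ≠ 0 := by simpa using hb
  have ha : a ≠ 0 := by
    rintro rfl
    apply hf
    rw [h]; simp
  have hn := ω.num_ne_zero hf
  have hd := ω.den_ne_zero f
  have hdF := ω.coe_den_ne_zero f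
  have hcross : ω.num f * b = a * ω.den f := by
    apply Subtype.ext
    have h1 : (ω.num f : F) / (ω.den f : F) = (a : F) / (b : F) := by
      rw [← ω.eq_num_div_den f, ← h]
    have : (ω.num f : F) * (b : F) = (a : F) * (ω.den f : F) :=
      (div_eq_div_iff hdF hbF).mp h1
    simpa using this
  have h2 := congrArg ω.o hcross
  rw [ω.map_mul _ _ hn hb, ω.map_mul _ _ ha hd] at h2
  unfold oExt
  omega

theorem oExt_coe {a : R₀} (ha : a ≠ 0) : ω.oExt (a : F) = ω.o a := by
  have haF : (a : F) ≠ 0 := by simpa using ha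
  have h1 : ω.o (1 : R₀) = 0 := by
    have h := ω.map_mul 1 1 one_ne_zero one_ne_zero
    rw [mul_one] at h
    linarith
  have := ω.oExt_eq haF (a := a) (b := 1) one_ne_zero (by simp)
  rw [this, h1, sub_zero]

/-- the `OrderFn` on `F` extending `ω`. -/
noncomputable def toOrderFn : OrderFn K F where
  o := ω.oExt
  map_mul := by
    intro f g hf hg
    have hfn := ω.num_ne_zero hf
    have hgn := ω.num_ne_zero hg
    have hfd := ω.den_ne_zero f
    have hgd := ω.den_ne_zero g
    have hrep : f * g = ((ω.num f * ω.num g : R₀) : F) / ((ω.den f * ω.den g : R₀) : F) := by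
      conv_lhs => rw [ω.eq_num_div_den f, ω.eq_num_div_den g]
      push_cast
      rw [div_mul_div_comm]
    rw [ω.oExt_eq (mul_ne_zero hf hg) (mul_ne_zero hfd hgd) hrep, ω.map_mul _ _ hfn hgn,
      ω.map_mul _ _ hfd hgd]
    unfold oExt
    ring
  map_add := by
    intro f g hf hg hfg
    have hfn := ω.num_ne_zero hf
    have hgn := ω.num_ne_zero hg
    have hfd := ω.den_ne_zero f
    have hgd := ω.den_ne_zero g
    have hfdF := ω.coe_den_ne_zero f
    have hgdF := ω.coe_den_ne_zero g
    have hrep : f + g = ((ω.num f * ω.den g + ω.num g * ω.den f : R₀) : F) /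
        ((ω.den f * ω.den g : R₀) : F) := by
      conv_lhs => rw [ω.eq_num_div_den f, ω.eq_num_div_den g]
      push_cast
      rw [div_add_div _ _ hfdF hgdF]
      congr 1
      ring
    have hnum : ω.num f * ω.den g + ω.num g * ω.den f ≠ 0 := by
      intro h0
      apply hfg
      rw [hrep, h0]
      simp
    rw [ω.oExt_eq hfg (mul_ne_zero hfd hgd) hrep, ω.map_mul _ _ hfd hgd]
    have hadd := ω.map_add _ _ (mul_ne_zero hfn hgd) (mul_ne_zero hgn hfd) hnum
    rw [ω.map_mul _ _ hfn hgd, ω.map_mul _ _ hgn hfd] at hadd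
    unfold oExt
    rcases min_cases (ω.o (ω.num f) + ω.o (ω.den g)) (ω.o (ω.num g) + ω.o (ω.den f)) with h | h <;>
    rcases min_cases (ω.o (ω.num f) - ω.o (ω.den f)) (ω.o (ω.num g) - ω.o (ω.den g)) with h' | h' <;>
    omega
  map_const := by
    intro c hc
    have hc' : algebraMap K R₀ c ≠ 0 := by
      intro h
      apply hc
      have : algebraMap K F c = 0 := by
        have := congrArg (fun x : R₀ => (x : F)) h
        simpa using this
      exact (map_eq_zero _).mp this
    have := ω.oExt_coe hc'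
    rw [← ω.map_const c hc, ← this]
    rfl
  nontrivial := by
    obtain ⟨a, ha0, ha⟩ := ω.nontrivial
    refine ⟨(a : F), by simpa using ha0, ?_⟩
    show ω.oExt (a : F) ≠ 0
    rwa [ω.oExt_coe ha0]

theorem toOrderFn_o_coe {a : R₀} (ha : a ≠ 0) : ω.toOrderFn.o (a : F) = ω.o a := ω.oExt_coe ha

theorem toOrderFn_o_div {a b : R₀} (ha : a ≠ 0) (hb : b ≠ 0) :
    ω.toOrderFn.o ((a : F) / (b : F)) = ω.o a - ω.o b := by
  have haF : (a : F) ≠ 0 := by simpa using ha
  have hbF : (b : F) ≠ 0 := by simpa using hb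
  exact ω.oExt_eq (div_ne_zero haF hbF) hb rfl

/-- the place of `F/K` attached to an order function on `R₀`. -/
noncomputable def place : Place K F := ω.toOrderFn.place

/-- divisibility of all values passes to the fraction field. -/
theorem dvd_toOrderFn_o {d : ℤ} (hd : ∀ a : R₀, a ≠ 0 → d ∣ ω.o a) (f : F) (hf : f ≠ 0) :
    d ∣ ω.toOrderFn.o f := by
  show d ∣ ω.oExt f
  unfold oExt
  exact dvd_sub (hd _ (ω.num_ne_zero hf)) (hd _ (ω.den_ne_zero f))

end SubOrderFn

end Fermat.Agent.S24x
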