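/-
S24 helper library (C2c, growth form): the place of `F/K` at the cusp `g • i∞` attached to a
realisation of `F` inside `Mer`, with its properties (generic in the realisation).
-/
import Fermat.Agent.S24x.CuspReg
import Fermat.Agent.S24x.CuspGrowthExist
import Fermat.Agent.S24x.OrderOfFractions
import Fermat.Agent.S24x.JFunSpecial
import Fermat.Agent.S24x.AlgDefs

set_option autoImplicit false

namespace Fermat.Agent.S24x

open UpperHalfPlane AlgebraicCurve CongruenceSubgroup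
open scoped MatrixGroups Manifold

/-! ### growth of `j` -/

theorem hasCuspGrowth_jFun_one : HasCuspGrowth 1 jFun (-1) := by
  obtain ⟨A, hA⟩ := jFun_growth
  refine hasCuspGrowth_iff.mpr ⟨1 / 2, 2, A, by norm_num, fun τ hτ => ?_⟩
  have h := hA τ hτ
  have hE : cgE 1 (-1) τ.im = Real.exp (2 * Real.pi * τ.im) := by
    unfold cgE
    congr 1
    push_cast
    ring
  rw [hE]
  constructor
  · have := h.1
    linarith
  · exact h.2

theorem hasCuspGrowth_jFun {w : ℕ} (hw : 0 < w) : HasCuspGrowth w jFun (-w) := by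
  have h := hasCuspGrowth_jFun_one.mul_period hw
  simpa using h

theorem modGrowth_jFun : ModGrowth jFun := by
  obtain ⟨A, hA⟩ := jFun_growth
  refine ⟨1, 2, A, fun τ hτ => ?_⟩
  have := (hA τ hτ).2
  simpa using this

theorem holComp_jHol (g : SL(2, ℤ)) : holComp jHol g = jHol := by
  apply Subtype.ext
  funext τ
  rw [holComp_apply]
  exact jFun_smul g τ

/-! ### conjugates of translations -/

theorem conj_T_pow_mem_Gamma0 (N : ℕ) (g : SL(2, ℤ)) :
    g * ModularGroup.T ^ N * g⁻¹ ∈ Gamma0 N := by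
  have h1 : ModularGroup.T ^ N ∈ Gamma N := by
    have := ModularGroup_T_pow_mem_Gamma (N : ℤ) (N : ℤ) dvd_rfl
    simpa using this
  have h2 : g * ModularGroup.T ^ N * g⁻¹ ∈ Gamma N := (Gamma_normal N).conj_mem _ h1 g
  rw [Gamma_mem] at h2
  rw [Gamma0_mem]
  exact h2.2.2.1

/-! ### one more growth lemma: bounds at arbitrarily high points suffice -/

theorem cgE_anti_of_nonneg {w : ℕ} {m : ℤ} (hm : 0 ≤ m) {y y' : ℝ} (h : y ≤ y') :
    cgE w m y' ≤ cgE w m y := by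
  unfold cgE
  apply Real.exp_le_exp.mpr
  have hmR : (0 : ℝ) ≤ m := by exact_mod_cast hm
  have hw : (0 : ℝ) ≤ w := Nat.cast_nonneg w
  have hpi := Real.pi_pos
  have : 2 * Real.pi * m * y / w ≤ 2 * Real.pi * m * y' / w := by
    apply div_le_div_of_nonneg_right _ hw
    have : 0 ≤ 2 * Real.pi * (m : ℝ) := by positivity
    nlinarith
  linarith

theorem HasCuspGrowth.le_of_frequently_bound {w : ℕ} (hw : 0 < w) {h : ℍ → ℂ} {m₀ m : ℤ}
    (hg : HasCuspGrowth w h m₀) {C : ℝ}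
    (hb : ∀ A' : ℝ, ∃ τ : ℍ, A' ≤ τ.im ∧ ‖h τ‖ ≤ C * cgE w m τ.im) : m ≤ m₀ := by
  by_contra hlt
  push Not at hlt
  obtain ⟨c₁, c₂, A, hc₁, hb0⟩ := hasCuspGrowth_iff.mp hg
  have hC : 0 < C := by
    obtain ⟨τ, hτ, hτb⟩ := hb A
    have h1 := (hb0 τ hτ).1
    have h4 := mul_pos hc₁ (cgE_pos w m₀ τ.im)
    by_contra hneg
    push Not at hneg
    have := mul_nonpos_of_nonpos_of_nonneg hneg (cgE_pos w m τ.im).le
    linarith
  have hpos : 0 < m - m₀ := by omega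
  obtain ⟨y, hy0, hyA, hlt'⟩ := exists_cgE_lt hw hpos (div_pos hc₁ hC) A
  obtain ⟨τ, hτ, hτb⟩ := hb y
  have hA : A ≤ τ.im := le_trans hyA hτ
  have hlow := (hb0 τ hA).1
  have hsplit : cgE w m τ.im = cgE w m₀ τ.im * cgE w (m - m₀) τ.im := by
    rw [← cgE_add]
    congr 1
    ring
  rw [hsplit] at hτb
  have hE := cgE_pos w m₀ τ.im
  have : c₁ * cgE w m₀ τ.im ≤ C * (cgE w m₀ τ.im * cgE w (m - m₀) τ.im) := le_trans hlow hτb
  have h5 : c₁ ≤ C * cgE w (m - m₀) τ.im := by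
    have : c₁ * cgE w m₀ τ.im ≤ (C * cgE w (m - m₀) τ.im) * cgE w m₀ τ.im := by linarith
    exact le_of_mul_le_mul_right this hE
  have hmono : cgE w (m - m₀) τ.im ≤ cgE w (m - m₀) y := cgE_anti_of_nonneg hpos.le hτ
  have h6 : C * cgE w (m - m₀) y < C * (c₁ / C) := mul_lt_mul_of_pos_left hlt' hC
  rw [mul_div_cancel₀ _ hC.ne'] at h6
  have h7 : C * cgE w (m - m₀) τ.im ≤ C * cgE w (m - m₀) y :=
    mul_le_mul_of_nonneg_left hmono hC.le
  linarith

/-- a nonzero holomorphic function has non-zeros at arbitrary height. -/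
theorem exists_ne_zero_of_im_ge {b : Hol} (hb : b ≠ 0) (M : ℝ) :
    ∃ τ : ℍ, M ≤ τ.im ∧ (b : ℍ → ℂ) τ ≠ 0 := by
  by_contra hcon
  push Not at hcon
  set M' : ℝ := max M 0 + 1 with hM'
  have hM'pos : 0 < M' := by
    have : 0 ≤ max M 0 := le_max_right _ _
    linarith
  have hMM' : M < M' := by
    have : M ≤ max M 0 := le_max_left _ _
    linarith
  apply holOrder_ne_top hb (ptY (M' + 1) (by linarith))
  unfold holOrder
  rw [analyticOrderAt_eq_top]
  have hopen : IsOpen {z : ℂ | M' < z.im} := isOpen_lt continuous_const Complex.continuous_im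
  have hmem : ((ptY (M' + 1) (by linarith) : ℍ) : ℂ) ∈ {z : ℂ | M' < z.im} := by
    show M' < ((ptY (M' + 1) (by linarith) : ℍ) : ℂ).im
    rw [UpperHalfPlane.coe_im, ptY_im]
    linarith
  filter_upwards [hopen.mem_nhds hmem] with z hz
  have hz0 : 0 < z.im := lt_trans hM'pos hz
  simp only [Function.comp_apply]
  apply hcon
  rw [ofComplex_apply_of_im_pos hz0]
  exact le_of_lt (lt_trans hMM' hz)

/-- the data needed for the cusp places of `F/K`. -/
structure CuspData (K F : Type*) [Field K] [Field F] [Algebra K F] (N : ℕ) where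
  /-- the realisation of `F` inside `Mer` -/
  ρ : MerReal K F
  /-- the coordinate realised by `j` -/
  t : F
  map_t : ρ.φ t = jMer
  inv : ∀ γ ∈ Gamma0 N, ∀ f : F, γ • ρ.φ f = ρ.φ f
  frac : ∀ f : F, ∃ a b : ρ.cuspReg, b ≠ 0 ∧ f = (a : F) / (b : F)

namespace CuspData

variable {K F : Type*} [Field K] [Field F] [Algebra K F] {N : ℕ} [NeZero N] (D : CuspData K F N)

/-- `Γ₀(N)`-invariance of the holomorphic representatives. -/
theorem rep_invariant (a : D.ρ.cuspReg) {γ : SL(2, ℤ)} (hγ : γ ∈ Gamma0 N) (τ : ℍ) :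
    (D.ρ.rep a : ℍ → ℂ) (γ • τ) = (D.ρ.rep a : ℍ → ℂ) τ := by
  have h1 := D.inv γ⁻¹ (inv_mem hγ) (a : F)
  rw [D.ρ.rep_spec a, smul_algebraMap_Mer] at h1
  have h2 : γ⁻¹ • D.ρ.rep a = D.ρ.rep a := IsFractionRing.injective Hol Mer h1
  have h3 := congrArg (fun h : Hol => (h : ℍ → ℂ) τ) h2
  simp only [smul_Hol_apply, inv_inv] at h3
  exact h3

/-- periodicity of `a ∘ g` for every width. -/
theorem holComp_rep_periodic (a : D.ρ.cuspReg) (g : SL(2, ℤ)) {w : ℕ}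
    (hw : g * ModularGroup.T ^ w * g⁻¹ ∈ Gamma0 N) (τ : ℍ) :
    (holComp (D.ρ.rep a) g : ℍ → ℂ) (ModularGroup.T ^ w • τ) =
      (holComp (D.ρ.rep a) g : ℍ → ℂ) τ := by
  rw [holComp_apply, holComp_apply]
  have : g • ModularGroup.T ^ w • τ = (g * ModularGroup.T ^ w * g⁻¹) • g • τ := by
    rw [smul_smul, smul_smul]
    congr 1
    group
  rw [this, D.rep_invariant a hw]

theorem isCuspMer_holComp_rep (a : D.ρ.cuspReg) (g : SL(2, ℤ)) {w : ℕ}
    (hw : g * ModularGroup.T ^ w * g⁻¹ ∈ Gamma0 N) :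
    IsCuspMer w (holComp (D.ρ.rep a) g : ℍ → ℂ) :=
  ⟨(holComp (D.ρ.rep a) g).2, D.holComp_rep_periodic a g hw, D.ρ.rep_growth a g⟩

theorem coe_holComp_rep_ne_zero {a : D.ρ.cuspReg} (ha : a ≠ 0) (g : SL(2, ℤ)) :
    (holComp (D.ρ.rep a) g : ℍ → ℂ) ≠ 0 := by
  intro h
  apply holComp_ne_zero (D.ρ.rep_ne_zero ha) g
  exact Subtype.ext h

/-- the order of `a ∈ cuspReg` at the cusp `g • i∞`, in the parameter `q_N`. -/
noncomputable def cuspO (g : SL(2, ℤ)) (a : D.ρ.cuspReg) : ℤ :=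
  cuspOrd N (holComp (D.ρ.rep a) g : ℍ → ℂ)

theorem hasCuspGrowth_rep (g : SL(2, ℤ)) {a : D.ρ.cuspReg} (ha : a ≠ 0) :
    HasCuspGrowth N (holComp (D.ρ.rep a) g : ℍ → ℂ) (D.cuspO g a) := by
  have hN : 0 < N := Nat.pos_of_ne_zero (NeZero.ne N)
  obtain ⟨m, hm⟩ := (D.isCuspMer_holComp_rep a g (conj_T_pow_mem_Gamma0 N g)).exists_hasCuspGrowth
    hN (D.coe_holComp_rep_ne_zero ha g)
  unfold cuspO
  rwa [cuspOrd_eq_of_hasCuspGrowth hN hm]

theorem cuspO_eq (g : SL(2, ℤ)) {a : D.ρ.cuspReg} {m : ℤ}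
    (hm : HasCuspGrowth N (holComp (D.ρ.rep a) g : ℍ → ℂ) m) : D.cuspO g a = m :=
  cuspOrd_eq_of_hasCuspGrowth (Nat.pos_of_ne_zero (NeZero.ne N)) hm

/-- `t` as an element of `cuspReg`. -/
noncomputable def tReg : D.ρ.cuspReg :=
  ⟨D.t, jHol, D.map_t, fun g => by rw [holComp_jHol]; exact modGrowth_jFun⟩

theorem rep_tReg : D.ρ.rep D.tReg = jHol := D.ρ.rep_unique _ D.map_t

theorem t_ne_zero : D.t ≠ 0 := by
  intro h
  have h1 : D.ρ.φ D.t = 0 := by rw [h, map_zero]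
  rw [D.map_t] at h1
  have h2 : jHol = 0 := IsFractionRing.injective Hol Mer (by rw [map_zero]; exact h1)
  obtain ⟨τ, hτ⟩ := jFun_surjective 1
  have h3 := congrArg (fun h : Hol => (h : ℍ → ℂ) τ) h2
  change jFun τ = 0 at h3
  rw [hτ] at h3
  exact one_ne_zero h3

theorem tReg_ne_zero : D.tReg ≠ 0 := by
  intro h
  apply D.t_ne_zero
  exact congrArg (fun a : D.ρ.cuspReg => (a : F)) h

theorem cuspO_tReg (g : SL(2, ℤ)) : D.cuspO g D.tReg = -N := by
  apply D.cuspO_eq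
  rw [D.rep_tReg, holComp_jHol]
  exact hasCuspGrowth_jFun (Nat.pos_of_ne_zero (NeZero.ne N))

/-- the order function at the cusp `g • i∞` on the subalgebra `cuspReg`. -/
noncomputable def subOrderFn (g : SL(2, ℤ)) : SubOrderFn K F D.ρ.cuspReg where
  o := D.cuspO g
  map_mul := by
    intro a b ha hb
    apply D.cuspO_eq
    rw [D.ρ.rep_mul, holComp_mul]
    exact (D.hasCuspGrowth_rep g ha).mul (D.hasCuspGrowth_rep g hb)
  map_add := by
    intro a b ha hb hab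
    have h3 := D.hasCuspGrowth_rep g hab
    rw [D.ρ.rep_add, holComp_add] at h3
    exact (D.hasCuspGrowth_rep g ha).min_le_add (Nat.pos_of_ne_zero (NeZero.ne N))
      (D.hasCuspGrowth_rep g hb) h3
  map_const := by
    intro c hc
    apply D.cuspO_eq
    rw [D.ρ.rep_algebraMap]
    have : (holComp (algebraMap ℂ Hol (D.ρ.ι c)) g : ℍ → ℂ) = fun _ => D.ρ.ι c := by
      funext τ
      rw [holComp_apply]
      rfl
    rw [this]
    exact hasCuspGrowth_const N ((map_ne_zero D.ρ.ι).mpr hc)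
  nontrivial := by
    refine ⟨D.tReg, D.tReg_ne_zero, ?_⟩
    rw [D.cuspO_tReg]
    have hN : (N : ℤ) ≠ 0 := by exact_mod_cast NeZero.ne N
    omega
  frac := D.frac

/-- the place of `F/K` at the cusp `g • i∞`. -/
noncomputable def vCuspG (g : SL(2, ℤ)) : Place K F := (D.subOrderFn g).place

/-! ### invariance properties -/

theorem subOrderFn_congr {g g' : SL(2, ℤ)} (h : ∀ a, D.cuspO g a = D.cuspO g' a) :
    D.subOrderFn g = D.subOrderFn g' := by
  have ho : (D.subOrderFn g).o = (D.subOrderFn g').o := funext h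
  cases h1 : D.subOrderFn g
  cases h2 : D.subOrderFn g'
  rw [h1, h2] at ho
  simp only at ho
  subst ho
  rfl

theorem vCuspG_congr {g g' : SL(2, ℤ)} (h : ∀ a, D.cuspO g a = D.cuspO g' a) :
    D.vCuspG g = D.vCuspG g' := by
  unfold vCuspG
  rw [D.subOrderFn_congr h]

theorem vCuspG_mul_of_mem_Gamma0 (γ : SL(2, ℤ)) (hγ : γ ∈ Gamma0 N) (g : SL(2, ℤ)) :
    D.vCuspG (γ * g) = D.vCuspG g := by
  apply D.vCuspG_congr
  intro a
  unfold cuspO
  have : holComp (D.ρ.rep a) (γ * g) = holComp (D.ρ.rep a) g := by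
    apply Subtype.ext
    funext τ
    rw [holComp_apply, holComp_apply, mul_smul, D.rep_invariant a hγ]
  rw [this]

theorem rep_zero : D.ρ.rep 0 = 0 := D.ρ.rep_unique 0 (by simp)

theorem vCuspG_mul_T (g : SL(2, ℤ)) : D.vCuspG (g * ModularGroup.T) = D.vCuspG g := by
  apply D.vCuspG_congr
  intro a
  by_cases ha : a = 0
  · unfold cuspO
    rw [ha, D.rep_zero]
    have h1 : holComp (0 : Hol) (g * ModularGroup.T) = 0 := smul_zero _
    have h2 : holComp (0 : Hol) g = 0 := smul_zero _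
    rw [h1, h2]
  · apply D.cuspO_eq
    have h := (D.hasCuspGrowth_rep g ha).comp_of_im_eq (fun τ => ModularGroup.T • τ)
      (fun τ => ModularGroup.im_T_smul τ)
    have : (holComp (D.ρ.rep a) (g * ModularGroup.T) : ℍ → ℂ) =
        fun τ => (holComp (D.ρ.rep a) g : ℍ → ℂ) (ModularGroup.T • τ) := by
      funext τ
      rw [holComp_apply, holComp_apply, mul_smul]
    rw [this]
    exact h

/-! ### the pole of `t` and the ramification bound -/

theorem toOrderFn_o_t (g : SL(2, ℤ)) : (D.subOrderFn g).toOrderFn.o D.t = -N := by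
  have h := (D.subOrderFn g).toOrderFn_o_coe D.tReg_ne_zero
  rw [show (D.subOrderFn g).o D.tReg = D.cuspO g D.tReg from rfl, D.cuspO_tReg] at h
  exact h

theorem vCuspG_mem_polePlaces (g : SL(2, ℤ)) : D.vCuspG g ∈ polePlaces K F D.t := by
  rw [mem_polePlaces]
  have hN : (0 : ℤ) < N := by exact_mod_cast Nat.pos_of_ne_zero (NeZero.ne N)
  have h1 : 0 < (D.subOrderFn g).toOrderFn.o D.t⁻¹ := by
    rw [(D.subOrderFn g).toOrderFn.map_inv D.t_ne_zero, D.toOrderFn_o_t]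
    omega
  have h2 := ((D.subOrderFn g).toOrderFn.ord_pos_iff (inv_ne_zero D.t_ne_zero)).mpr h1
  rw [Place.ord_inv] at h2
  change 0 < -((D.vCuspG g).ord D.t) at h2
  omega

theorem dvd_cuspO_mul (g : SL(2, ℤ)) {w : ℕ} (hw0 : 0 < w)
    (hw : g * ModularGroup.T ^ w * g⁻¹ ∈ Gamma0 N) {a : D.ρ.cuspReg} (ha : a ≠ 0) :
    (N : ℤ) ∣ D.cuspO g a * w := by
  have hN : 0 < N := Nat.pos_of_ne_zero (NeZero.ne N)
  obtain ⟨m', hm'⟩ := (D.isCuspMer_holComp_rep a g hw).exists_hasCuspGrowth hw0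
    (D.coe_holComp_rep_ne_zero ha g)
  have h1 := hm'.mul_period hN
  have h2 := (D.hasCuspGrowth_rep g ha).mul_period hw0
  rw [Nat.mul_comm N w] at h2
  have := hasCuspGrowth_unique (Nat.mul_pos hw0 hN) h2 h1
  rw [this]
  exact Dvd.intro_left _ rfl

/-- ramification at a cusp is at most the width: if `g T^w g⁻¹ ∈ Γ₀(N)` then `e ≤ w`. -/
theorem vCuspG_ord_le (g : SL(2, ℤ)) (w : ℕ) (hw0 : 0 < w)
    (hw : g * ModularGroup.T ^ w * g⁻¹ ∈ Gamma0 N) : -((D.vCuspG g).ord D.t) ≤ w := by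
  have hN : (0 : ℤ) < N := by exact_mod_cast Nat.pos_of_ne_zero (NeZero.ne N)
  obtain ⟨g₀, hg₀, ⟨π, hπ0, hπ⟩, hall⟩ := (D.subOrderFn g).toOrderFn.exists_o_eq_mul_ord
  -- `N ∣ g₀ * w`
  have hdiv : (N : ℤ) ∣ g₀ * w := by
    obtain ⟨a, b, hb, rfl⟩ := D.frac π
    have ha : a ≠ 0 := by
      rintro rfl
      apply hπ0
      simp
    rw [(D.subOrderFn g).toOrderFn_o_div ha hb] at hπ
    rw [← hπ, sub_mul]
    exact dvd_sub (D.dvd_cuspO_mul g hw0 hw ha) (D.dvd_cuspO_mul g hw0 hw hb)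
  have ht := hall D.t D.t_ne_zero
  rw [D.toOrderFn_o_t] at ht
  change -(N : ℤ) = g₀ * (D.vCuspG g).ord D.t at ht
  set e : ℤ := -((D.vCuspG g).ord D.t) with he
  have hNe : (N : ℤ) = g₀ * e := by rw [he]; linarith
  rw [hNe] at hdiv
  have hew : e ∣ (w : ℤ) := (mul_dvd_mul_iff_left hg₀.ne').mp hdiv
  exact Int.le_of_dvd (by exact_mod_cast hw0) hew

/-! ### the valuation ring: boundedness at the cusp -/

/-- `f` is in the valuation ring of the cusp `g • i∞` iff `f ∘ g` is bounded at `i∞`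
(for an arbitrary representation `f = a / b`). -/
theorem mem_vCuspG_iff (g : SL(2, ℤ)) (f : F) (a b : Hol) (hb : b ≠ 0)
    (hf : D.ρ.φ f * algebraMap Hol Mer b = algebraMap Hol Mer a) :
    f ∈ (D.vCuspG g).toValuationSubring ↔
      ∃ C A : ℝ, ∀ τ : ℍ, A ≤ τ.im →
        ‖(a : ℍ → ℂ) (g • τ)‖ ≤ C * ‖(b : ℍ → ℂ) (g • τ)‖ := by
  have hN : 0 < N := Nat.pos_of_ne_zero (NeZero.ne N)
  by_cases hf0 : f = 0
  · have ha : a = 0 := by
      apply IsFractionRing.injective Hol Mer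
      rw [← hf, hf0, map_zero, zero_mul, map_zero]
    constructor
    · intro _
      refine ⟨0, 0, fun τ _ => ?_⟩
      rw [ha]
      simp
    · intro _
      rw [hf0]
      exact (D.vCuspG g).toValuationSubring.zero_mem
  · obtain ⟨a₀, b₀, hb₀, hfab⟩ := D.frac f
    have ha₀ : a₀ ≠ 0 := by
      rintro rfl
      apply hf0
      rw [hfab]
      simp
    -- the relation `α * b = a * β` in `Hol`
    have hrel : D.ρ.rep a₀ * b = a * D.ρ.rep b₀ := by
      apply IsFractionRing.injective Hol Mer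
      have hβ : algebraMap Hol Mer (D.ρ.rep b₀) ≠ 0 := by
        rw [← D.ρ.rep_spec b₀]
        apply D.ρ.φ_ne_zero
        intro h
        exact hb₀ (Subtype.ext h)
      rw [map_mul, map_mul, ← hf, hfab, map_div₀, D.ρ.rep_spec a₀, D.ρ.rep_spec b₀]
      field_simp
    have hpt : ∀ x : ℍ, (D.ρ.rep a₀ : ℍ → ℂ) x * (b : ℍ → ℂ) x =
        (a : ℍ → ℂ) x * (D.ρ.rep b₀ : ℍ → ℂ) x := by
      intro x
      have := congrArg (fun h : Hol => (h : ℍ → ℂ) x) hrel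
      simpa using this
    have hα := D.hasCuspGrowth_rep g ha₀
    have hβ := D.hasCuspGrowth_rep g hb₀
    have hmem : f ∈ (D.vCuspG g).toValuationSubring ↔ D.cuspO g b₀ ≤ D.cuspO g a₀ := by
      show f ∈ (D.subOrderFn g).toOrderFn.valuationSubring ↔ _
      rw [(D.subOrderFn g).toOrderFn.mem_valuationSubring_of_ne_zero hf0, hfab,
        (D.subOrderFn g).toOrderFn_o_div ha₀ hb₀]
      show 0 ≤ D.cuspO g a₀ - D.cuspO g b₀ ↔ _
      omega
    rw [hmem]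
    constructor
    · intro hle
      obtain ⟨C₁, A₁, hC₁, hbα⟩ := hα.bound_of_le hle
      obtain ⟨c₁, c₂, A₂, hc₁, hbβ⟩ := hasCuspGrowth_iff.mp hβ
      refine ⟨C₁ / c₁, max A₁ A₂, fun τ hτ => ?_⟩
      have h1 := hbα τ (le_trans (le_max_left _ _) hτ)
      have h2 := (hbβ τ (le_trans (le_max_right _ _) hτ)).1
      rw [holComp_apply] at h1 h2
      have hE := cgE_pos N (D.cuspO g b₀) τ.im
      have hβpos : 0 < ‖(D.ρ.rep b₀ : ℍ → ℂ) (g • τ)‖ := lt_of_lt_of_le (mul_pos hc₁ hE) h2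
      have h3 : ‖(D.ρ.rep a₀ : ℍ → ℂ) (g • τ)‖ ≤ C₁ / c₁ * ‖(D.ρ.rep b₀ : ℍ → ℂ) (g • τ)‖ := by
        calc ‖(D.ρ.rep a₀ : ℍ → ℂ) (g • τ)‖ ≤ C₁ * cgE N (D.cuspO g b₀) τ.im := h1
          _ = C₁ / c₁ * (c₁ * cgE N (D.cuspO g b₀) τ.im) := by field_simp
          _ ≤ C₁ / c₁ * ‖(D.ρ.rep b₀ : ℍ → ℂ) (g • τ)‖ :=
            mul_le_mul_of_nonneg_left h2 (div_nonneg hC₁ hc₁.le)
      have h4 := congrArg norm (hpt (g • τ))
      rw [norm_mul, norm_mul] at h4
      have h5 : ‖(a : ℍ → ℂ) (g • τ)‖ * ‖(D.ρ.rep b₀ : ℍ → ℂ) (g • τ)‖ ≤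
          (C₁ / c₁ * ‖(b : ℍ → ℂ) (g • τ)‖) * ‖(D.ρ.rep b₀ : ℍ → ℂ) (g • τ)‖ := by
        rw [← h4]
        calc ‖(D.ρ.rep a₀ : ℍ → ℂ) (g • τ)‖ * ‖(b : ℍ → ℂ) (g • τ)‖
            ≤ (C₁ / c₁ * ‖(D.ρ.rep b₀ : ℍ → ℂ) (g • τ)‖) * ‖(b : ℍ → ℂ) (g • τ)‖ :=
              mul_le_mul_of_nonneg_right h3 (norm_nonneg _)
          _ = _ := by ring
      exact le_of_mul_le_mul_right h5 hβpos
    · rintro ⟨C, A, hbd⟩
      obtain ⟨c₁, c₂, A₂, hc₁, hbβ⟩ := hasCuspGrowth_iff.mp hβ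
      refine hα.le_of_frequently_bound hN (C := max C 0 * c₂) (fun A' => ?_)
      obtain ⟨τ, hτ, hτne⟩ := exists_ne_zero_of_im_ge (holComp_ne_zero hb g)
        (max (max A A₂) A')
      rw [holComp_apply] at hτne
      have hτA : A ≤ τ.im := le_trans (le_trans (le_max_left _ _) (le_max_left _ _)) hτ
      have hτA₂ : A₂ ≤ τ.im := le_trans (le_trans (le_max_right _ _) (le_max_left _ _)) hτ
      refine ⟨τ, le_trans (le_max_right _ _) hτ, ?_⟩
      rw [holComp_apply]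
      have h1 := hbd τ hτA
      have h2 := (hbβ τ hτA₂).2
      rw [holComp_apply] at h2
      have hbpos : 0 < ‖(b : ℍ → ℂ) (g • τ)‖ := norm_pos_iff.mpr hτne
      have h4 := congrArg norm (hpt (g • τ))
      rw [norm_mul, norm_mul] at h4
      have h5 : ‖(D.ρ.rep a₀ : ℍ → ℂ) (g • τ)‖ * ‖(b : ℍ → ℂ) (g • τ)‖ ≤
          (max C 0 * ‖(D.ρ.rep b₀ : ℍ → ℂ) (g • τ)‖) * ‖(b : ℍ → ℂ) (g • τ)‖ := by
        rw [h4]
        calc ‖(a : ℍ → ℂ) (g • τ)‖ * ‖(D.ρ.rep b₀ : ℍ → ℂ) (g • τ)‖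
            ≤ (C * ‖(b : ℍ → ℂ) (g • τ)‖) * ‖(D.ρ.rep b₀ : ℍ → ℂ) (g • τ)‖ :=
              mul_le_mul_of_nonneg_right h1 (norm_nonneg _)
          _ ≤ (max C 0 * ‖(b : ℍ → ℂ) (g • τ)‖) * ‖(D.ρ.rep b₀ : ℍ → ℂ) (g • τ)‖ := by
              apply mul_le_mul_of_nonneg_right _ (norm_nonneg _)
              exact mul_le_mul_of_nonneg_right (le_max_left _ _) (norm_nonneg _)
          _ = _ := by ring
      have h6 := le_of_mul_le_mul_right h5 hbpos
      calc ‖(D.ρ.rep a₀ : ℍ → ℂ) (g • τ)‖ ≤ max C 0 * ‖(D.ρ.rep b₀ : ℍ → ℂ) (g • τ)‖ := h6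
        _ ≤ max C 0 * (c₂ * cgE N (D.cuspO g b₀) τ.im) :=
          mul_le_mul_of_nonneg_left h2 (le_max_right _ _)
        _ = max C 0 * c₂ * cgE N (D.cuspO g b₀) τ.im := by ring

end CuspData

end Fermat.Agent.S24x
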