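/-
S24 (C2b): the point places `vPt N τ` of the modular function field `FBar N`.
-/
import Fermat.Agent.S24x.Realize
import Fermat.Agent.S24x.PtPlace

set_option autoImplicit false

namespace Fermat.Agent.S24x

open UpperHalfPlane AlgebraicCurve CongruenceSubgroup ModularCurve
open scoped MatrixGroups Manifold

variable (N : ℕ)

/-- the analytic realisation of `FBar N` packaged as a `MerReal`. -/
noncomputable def evReal : MerReal Qbar (FBar N) := ⟨evF N, iotaQ, evF_algebraMap N⟩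

@[simp] theorem evReal_φ : (evReal N).φ = evF N := rfl

@[simp] theorem evReal_ι : (evReal N).ι = iotaQ := rfl

/-- `jBar - c` is realised by the holomorphic function `j - ι c`. -/
theorem evF_jBar_sub (c : Qbar) :
    evF N (jBar N - algebraMap Qbar (FBar N) c) =
      algebraMap Hol Mer (jHol - algebraMap ℂ Hol (iotaQ c)) := by
  rw [map_sub, map_sub, evF_jBar, evF_algebraMap, IsScalarTower.algebraMap_apply ℂ Hol Mer]
  rfl

theorem jHol_sub_const_ne_zero (z : ℂ) : jHol - algebraMap ℂ Hol z ≠ 0 := by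
  intro h
  obtain ⟨τ, hτ⟩ := jFun_surjective (z + 1)
  have h1 := congrArg (fun a : Hol => (a : ℍ → ℂ) τ) h
  have h2 : jFun τ - z = 0 := h1
  rw [hτ] at h2
  simp at h2

theorem jBar_sub_const_ne_zero (c : Qbar) : jBar N - algebraMap Qbar (FBar N) c ≠ 0 := by
  intro h
  have h1 := evF_jBar_sub N c
  rw [h, map_zero] at h1
  apply jHol_sub_const_ne_zero (iotaQ c)
  apply IsFractionRing.injective Hol Mer
  rw [map_zero, ← h1]

/-- points with algebraic `j`-invariant are points of the curve. -/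
theorem evReal_isPt (τ : ℍ) {c : Qbar} (hτ : jFun τ = iotaQ c) : (evReal N).IsPt τ := by
  refine (evReal N).isPt_of_hol_zero (jBar_sub_const_ne_zero N c) (evF_jBar_sub N c) ?_
  show jFun τ - iotaQ c = 0
  rw [hτ, sub_self]

/-- a base point with `j = 0`. -/
noncomputable def vPtBase : ℍ := (jFun_surjective 0).choose

theorem jFun_vPtBase : jFun vPtBase = iotaQ 0 := by
  rw [map_zero]
  exact (jFun_surjective 0).choose_spec

/-- the default place (used for points with transcendental `j`-invariant). -/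
noncomputable def vPtDefault : Place Qbar (FBar N) :=
  (evReal N).placeAt vPtBase (evReal_isPt N vPtBase jFun_vPtBase)

/-- the place of `F_N` given by the order of vanishing at `τ` -/
noncomputable def vPt (τ : ℍ) : Place Qbar (FBar N) := (evReal N).placeAtD (vPtDefault N) τ

theorem vPt_eq (τ : ℍ) {c : Qbar} (hτ : jFun τ = iotaQ c) :
    vPt N τ = (evReal N).placeAt τ (evReal_isPt N τ hτ) :=
  (evReal N).placeAtD_eq _ _

theorem mem_vPt_iff (τ : ℍ) {c : Qbar} (hτ : jFun τ = iotaQ c) (f : FBar N) :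
    f ∈ (vPt N τ).toValuationSubring ↔ 0 ≤ ordAt τ (evF N f) := by
  rw [vPt_eq N τ hτ]
  exact (evReal N).mem_placeAt_iff τ _ f

/-- `ord_τ ∘ evF = g_τ • ord_{vPt τ}` with `g_τ ≥ 1` -/
theorem exists_ordAt_eq_mul_vPt_ord (τ : ℍ) {c : Qbar} (hτ : jFun τ = iotaQ c) :
    ∃ g : ℕ, 0 < g ∧ ∀ f : FBar N, ordAt τ (evF N f) = g * (vPt N τ).ord f := by
  rw [vPt_eq N τ hτ]
  obtain ⟨g, hg, -, h⟩ := (evReal N).exists_ordAt_eq_mul_placeAt_ord τ (evReal_isPt N τ hτ)
  exact ⟨g, hg, h⟩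

/-- strong form: the multiplier `g_τ` is the order of some element. -/
theorem exists_ordAt_eq_mul_vPt_ord' (τ : ℍ) {c : Qbar} (hτ : jFun τ = iotaQ c) :
    ∃ g : ℕ, 0 < g ∧ (∃ π : FBar N, π ≠ 0 ∧ ordAt τ (evF N π) = g) ∧
      ∀ f : FBar N, ordAt τ (evF N f) = g * (vPt N τ).ord f := by
  rw [vPt_eq N τ hτ]
  exact (evReal N).exists_ordAt_eq_mul_placeAt_ord τ (evReal_isPt N τ hτ)

theorem vPt_smul_of_mem_Gamma0 (γ : SL(2, ℤ)) (hγ : γ ∈ Gamma0 N) (τ : ℍ) :
    vPt N (γ • τ) = vPt N τ :=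
  (evReal N).placeAtD_smul _ (fun f => evF_smul_of_mem_Gamma0 N γ⁻¹ (inv_mem hγ) f)
    (fun f => evF_smul_of_mem_Gamma0 N γ hγ f) τ

/-- the order at `τ` of `jBar - c`. -/
theorem ordAt_evF_jBar_sub (τ : ℍ) (c : Qbar) :
    ordAt τ (evF N (jBar N - algebraMap Qbar (FBar N) c)) =
      holOrdZ (jHol - algebraMap ℂ Hol (iotaQ c)) τ := by
  rw [evF_jBar_sub, ordAt_algebraMap_eq_holOrdZ τ (jHol_sub_const_ne_zero (iotaQ c))]

theorem vPt_mem_placesOver (τ : ℍ) {c : Qbar} (hτ : jFun τ = iotaQ c) :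
    vPt N τ ∈ placesOver Qbar (FBar N) (jBar N) c := by
  rw [mem_placesOver, vPt_eq N τ hτ,
    (evReal N).placeAt_ord_pos_iff τ _ (jBar_sub_const_ne_zero N c)]
  show 0 < ordAt τ (evF N (jBar N - algebraMap Qbar (FBar N) c))
  rw [evF_jBar_sub, ordAt_algebraMap_pos_iff τ (jHol_sub_const_ne_zero (iotaQ c))]
  show jFun τ - iotaQ c = 0
  rw [hτ, sub_self]

/-- upper bound for the ramification: `e ≤ ord_τ (j - c)`. -/
theorem vPt_ord_le_holOrdZ (τ : ℍ) {c : Qbar} (hτ : jFun τ = iotaQ c) :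
    (vPt N τ).ord (jBar N - algebraMap Qbar (FBar N) c) ≤
      holOrdZ (jHol - algebraMap ℂ Hol (iotaQ c)) τ := by
  have hpos : 0 < ordAt τ ((evReal N).φ (jBar N - algebraMap Qbar (FBar N) c)) := by
    show 0 < ordAt τ (evF N (jBar N - algebraMap Qbar (FBar N) c))
    rw [evF_jBar_sub, ordAt_algebraMap_pos_iff τ (jHol_sub_const_ne_zero (iotaQ c))]
    show jFun τ - iotaQ c = 0
    rw [hτ, sub_self]
  have := (evReal N).placeAt_ord_le τ (evReal_isPt N τ hτ) (jBar_sub_const_ne_zero N c) hpos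
  rw [vPt_eq N τ hτ, ← ordAt_evF_jBar_sub]
  exact this

/-- if all orders at `τ` are divisible by `d`, then `d * e ≤ ord_τ (j - c)`. -/
theorem mul_vPt_ord_le_holOrdZ (τ : ℍ) {c : Qbar} (hτ : jFun τ = iotaQ c) {d : ℤ}
    (hdvd : ∀ f : FBar N, f ≠ 0 → d ∣ ordAt τ (evF N f)) :
    d * (vPt N τ).ord (jBar N - algebraMap Qbar (FBar N) c) ≤
      holOrdZ (jHol - algebraMap ℂ Hol (iotaQ c)) τ := by
  have hpos : 0 < ordAt τ ((evReal N).φ (jBar N - algebraMap Qbar (FBar N) c)) := by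
    show 0 < ordAt τ (evF N (jBar N - algebraMap Qbar (FBar N) c))
    rw [evF_jBar_sub, ordAt_algebraMap_pos_iff τ (jHol_sub_const_ne_zero (iotaQ c))]
    show jFun τ - iotaQ c = 0
    rw [hτ, sub_self]
  have := (evReal N).mul_placeAt_ord_le τ (evReal_isPt N τ hτ) hdvd
    (jBar_sub_const_ne_zero N c) hpos
  rw [vPt_eq N τ hτ, ← ordAt_evF_jBar_sub]
  exact this

end Fermat.Agent.S24x
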