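/-
S24 (C2c, growth form): the cusp places `cg_vCusp N g` of the modular function field `FBar N`,
with the five interface lemmas of `AnSpec` (names prefixed `cg_`).
-/
import Fermat.Agent.S24x.VPt
import Fermat.Agent.S24x.CuspPlacesG
import Fermat.Agent.S24x.CuspGrowthJd

set_option autoImplicit false

namespace Fermat.Agent.S24x

open UpperHalfPlane AlgebraicCurve CongruenceSubgroup ModularCurve
open scoped MatrixGroups Manifold

variable (N : ℕ)

/-- the generators `j(q^d)` are regular with moderate growth at all cusps. -/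
theorem jdBar_mem_cuspReg (d : ℕ) [NeZero d] (hd : d ∣ N) :
    jdBar N d hd ∈ (evReal N).cuspReg := by
  refine ⟨jdHol d, evF_jdBar N d hd, fun g => ?_⟩
  have h := (isCuspMer_comp_of_apply N d hd g (h := (jdHol d : ℍ → ℂ)) (jdHol_apply d)).growth
  have : (holComp (jdHol d) g : ℍ → ℂ) = fun τ => (jdHol d : ℍ → ℂ) (g • τ) := by
    funext τ
    exact holComp_apply _ _ _
  rw [this]
  exact h

/-- all of `R₀` is regular with moderate growth at all cusps. -/
theorem algebraMap_R0_mem_cuspReg (a : ringR0 N) :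
    algebraMap (ringR0 N) (FBar N) a ∈ (evReal N).cuspReg := by
  obtain ⟨x, hx⟩ := a
  induction hx using Algebra.adjoin_induction with
  | mem x hx =>
    obtain ⟨d, hne, hd, rfl⟩ := hx
    haveI := hne
    have : algebraMap (ringR0 N) (FBar N) ⟨coeffEmb Qbar (qExpand ℚ d jq),
        Algebra.subset_adjoin ⟨d, hne, hd, rfl⟩⟩ = jdBar N d hd := Subtype.ext rfl
    rw [this]
    exact jdBar_mem_cuspReg N d hd
  | algebraMap r =>
    have : algebraMap (ringR0 N) (FBar N) ⟨algebraMap Qbar (LaurentSeries Qbar) r,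
        Subalgebra.algebraMap_mem _ r⟩ = algebraMap Qbar (FBar N) r := Subtype.ext rfl
    rw [this]
    exact Subalgebra.algebraMap_mem _ r
  | add x y hx hy ihx ihy =>
    have : algebraMap (ringR0 N) (FBar N) ⟨x + y, add_mem hx hy⟩ =
        algebraMap (ringR0 N) (FBar N) ⟨x, hx⟩ + algebraMap (ringR0 N) (FBar N) ⟨y, hy⟩ :=
      Subtype.ext rfl
    rw [this]
    exact add_mem ihx ihy
  | mul x y hx hy ihx ihy =>
    have : algebraMap (ringR0 N) (FBar N) ⟨x * y, mul_mem hx hy⟩ =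
        algebraMap (ringR0 N) (FBar N) ⟨x, hx⟩ * algebraMap (ringR0 N) (FBar N) ⟨y, hy⟩ :=
      Subtype.ext rfl
    rw [this]
    exact mul_mem ihx ihy

/-- every element of `FBar N` is a quotient of cusp-regular elements. -/
theorem exists_cuspReg_div (f : FBar N) :
    ∃ a b : (evReal N).cuspReg, b ≠ 0 ∧ f = (a : FBar N) / (b : FBar N) := by
  obtain ⟨x, y, hy, h⟩ := IsFractionRing.div_surjective (A := ringR0 N) f
  refine ⟨⟨_, algebraMap_R0_mem_cuspReg N x⟩, ⟨_, algebraMap_R0_mem_cuspReg N y⟩, ?_, h.symm⟩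
  intro h0
  have h1 : algebraMap (ringR0 N) (FBar N) y = 0 := congrArg Subtype.val h0
  have h2 : y = 0 := by
    apply IsFractionRing.injective (ringR0 N) (FBar N)
    rw [h1, map_zero]
  exact nonZeroDivisors.ne_zero hy h2

/-- the cusp data of the modular function field. -/
noncomputable def evCuspData : CuspData Qbar (FBar N) N where
  ρ := evReal N
  t := jBar N
  map_t := evF_jBar N
  inv := evF_smul_of_mem_Gamma0 N
  frac := exists_cuspReg_div N

variable [NeZero N]

/-- the place of `F_N` at the cusp `g • ∞`, `g : SL(2,ℤ)` (order in `q^{1/N}` of `f ∘ g`) -/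
noncomputable def cg_vCusp (g : SL(2, ℤ)) : Place Qbar (FBar N) := (evCuspData N).vCuspG g

/-- `f` is in the valuation ring of the cusp `g∞` iff `f ∘ g` is bounded at `i∞` -/
theorem cg_mem_vCusp_iff (g : SL(2, ℤ)) (f : FBar N) (a b : Hol) (hb : b ≠ 0)
    (hf : evF N f * algebraMap Hol Mer b = algebraMap Hol Mer a) :
    f ∈ (cg_vCusp N g).toValuationSubring ↔
      ∃ C A : ℝ, ∀ τ : ℍ, A ≤ τ.im →
        ‖(a : ℍ → ℂ) (g • τ)‖ ≤ C * ‖(b : ℍ → ℂ) (g • τ)‖ :=
  (evCuspData N).mem_vCuspG_iff g f a b hb hf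

theorem cg_vCusp_mul_of_mem_Gamma0 (γ : SL(2, ℤ)) (hγ : γ ∈ Gamma0 N) (g : SL(2, ℤ)) :
    cg_vCusp N (γ * g) = cg_vCusp N g :=
  (evCuspData N).vCuspG_mul_of_mem_Gamma0 γ hγ g

theorem cg_vCusp_mul_T (g : SL(2, ℤ)) : cg_vCusp N (g * ModularGroup.T) = cg_vCusp N g :=
  (evCuspData N).vCuspG_mul_T g

/-- ramification at a cusp is at most the width: if `g T^w g⁻¹ ∈ Γ₀(N)` then `e ≤ w`. -/
theorem cg_vCusp_ord_le (g : SL(2, ℤ)) (w : ℕ) (hw : 0 < w)
    (h : g * ModularGroup.T ^ w * g⁻¹ ∈ Gamma0 N) :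
    -((cg_vCusp N g).ord (jBar N)) ≤ w :=
  (evCuspData N).vCuspG_ord_le g w hw h

theorem cg_vCusp_mem_polePlaces (g : SL(2, ℤ)) :
    cg_vCusp N g ∈ polePlaces Qbar (FBar N) (jBar N) :=
  (evCuspData N).vCuspG_mem_polePlaces g

end Fermat.Agent.S24x
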