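import Fermat.Agent.S24x.CombDefs
import Fermat.Agent.S20x.CountCusps

/-!
# S24 project, combinatorics (C4): number of `T`-orbits on `SL(2,ℤ) ⧸ Γ₀(N)`

Direct corollary of `Fermat.Agent.S20x.cuspsX_Gamma0` (explicit complete invariants
`d = gcd(c, N)` and `a (c/d)⁻¹ mod gcd(d, N/d)` of the `T`-orbit of the coset of `g`).
-/

set_option autoImplicit false

open CongruenceSubgroup ModularGroup Matrix.SpecialLinearGroup
open scoped MatrixGroups

namespace Fermat.Agent.S24x

/-- the number of `T`-orbits on `Q N = SL(2,ℤ) ⧸ Γ₀(N)` is `cuspCount N`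
(same statement as `Spec.card_orbits_T`). -/
theorem card_orbits_T_alt (N : ℕ) [NeZero N] :
    Nat.card (MulAction.orbitRel.Quotient (Subgroup.zpowers T) (Q N)) = ModularCurve.cuspCount N :=
  Fermat.Agent.S20x.cuspsX_Gamma0 N

end Fermat.Agent.S24x
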