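import Mathlib

/-!
# S24 / B5 : elliptic points — orders of invariant functions

Core local lemma: if `φ` fixes `z` with multiplier `μ = φ'(z)` and the "meromorphic function"
`a / b` is `φ`-invariant near `z`, then `μ ^ ord_z a = μ ^ ord_z b`.
-/

namespace Fermat.Agent.S24x

open Filter Topology

/-- Core local lemma (leading-coefficient comparison). -/
theorem es_pow_eq_pow_of_invariant {φ a b : ℂ → ℂ} {z μ : ℂ} {m n : ℕ}
    (hφ : DifferentiableAt ℂ φ z) (hφz : φ z = z) (hμ : deriv φ z = μ)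
    (ha : AnalyticAt ℂ a z) (hb : AnalyticAt ℂ b z)
    (hm : analyticOrderAt a z = m) (hn : analyticOrderAt b z = n)
    (h : ∀ᶠ w in 𝓝 z, a (φ w) * b w = a w * b (φ w)) : μ ^ m = μ ^ n := by
  obtain ⟨A, hA, hAz, hAeq⟩ := (ha.analyticOrderAt_eq_natCast).1 hm
  obtain ⟨B, hB, hBz, hBeq⟩ := (hb.analyticOrderAt_eq_natCast).1 hn
  have hφc : ContinuousAt φ z := hφ.continuousAt
  have hφt : Tendsto φ (𝓝 z) (𝓝 z) := by
    have := hφc.tendsto
    rwa [hφz] at this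
  have hAφ := hφt.eventually hAeq
  have hBφ := hφt.eventually hBeq
  set D : ℂ → ℂ := dslope φ z with hD
  have hDc : ContinuousAt D z := continuousAt_dslope_same.2 hφ
  have hDz : D z = μ := by rw [hD, dslope_same, hμ]
  have hφsub : ∀ w, φ w - z = (w - z) * D w := by
    intro w
    have := sub_smul_dslope φ z w
    rw [hφz] at this
    rw [← this, smul_eq_mul]
  -- the cancelled identity on the punctured neighbourhood
  have key : ∀ᶠ w in 𝓝[≠] z, D w ^ m * A (φ w) * B w = A w * (D w ^ n * B (φ w)) := by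
    have hall : ∀ᶠ w in 𝓝 z, w ≠ z → D w ^ m * A (φ w) * B w = A w * (D w ^ n * B (φ w)) := by
      filter_upwards [h, hAeq, hBeq, hAφ, hBφ] with w hw h1 h2 h3 h4 hne
      rw [h1, h2, h3, h4, hφsub w] at hw
      simp only [smul_eq_mul] at hw
      have hne' : (w - z) ≠ 0 := sub_ne_zero.2 hne
      have hpow : (w - z) ^ (m + n) ≠ 0 := pow_ne_zero _ hne'
      apply mul_left_cancel₀ hpow
      rw [pow_add]
      rw [mul_pow, mul_pow] at hw
      linear_combination hw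
    exact eventually_nhdsWithin_iff.2 hall
  have hAcφ : ContinuousAt (fun w => A (φ w)) z := by
    have : ContinuousAt A (φ z) := by rw [hφz]; exact hA.continuousAt
    exact ContinuousAt.comp (g := A) this hφc
  have hBcφ : ContinuousAt (fun w => B (φ w)) z := by
    have : ContinuousAt B (φ z) := by rw [hφz]; exact hB.continuousAt
    exact ContinuousAt.comp (g := B) this hφc
  have hL : Tendsto (fun w => D w ^ m * A (φ w) * B w) (𝓝[≠] z) (𝓝 (μ ^ m * A z * B z)) := by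
    have : ContinuousAt (fun w => D w ^ m * A (φ w) * B w) z :=
      ((hDc.pow m).mul hAcφ).mul hB.continuousAt
    have h2 := this.tendsto
    simp only [hDz, hφz] at h2
    exact h2.mono_left nhdsWithin_le_nhds
  have hR : Tendsto (fun w => A w * (D w ^ n * B (φ w))) (𝓝[≠] z) (𝓝 (A z * (μ ^ n * B z))) := by
    have : ContinuousAt (fun w => A w * (D w ^ n * B (φ w))) z :=
      hA.continuousAt.mul ((hDc.pow n).mul hBcφ)
    have h2 := this.tendsto
    simp only [hDz, hφz] at h2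
    exact h2.mono_left nhdsWithin_le_nhds
  have hlim := tendsto_nhds_unique (hL.congr' key) hR
  have hAB : A z * B z ≠ 0 := mul_ne_zero hAz hBz
  apply mul_right_cancel₀ hAB
  linear_combination hlim


/-- From `μ ^ m = μ ^ n` for a primitive `k`-th root of unity `μ`: `k ∣ m - n`. -/
theorem es_dvd_sub_of_pow_eq {μ : ℂ} {k : ℕ} (hk : k ≠ 0) (hμ : IsPrimitiveRoot μ k) {m n : ℕ}
    (h : μ ^ m = μ ^ n) : (k : ℤ) ∣ (m : ℤ) - n := by
  have hμ0 : μ ≠ 0 := hμ.ne_zero hk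
  rw [← hμ.zpow_eq_one_iff_dvd, zpow_sub₀ hμ0, zpow_natCast, zpow_natCast, h,
    div_self (pow_ne_zero _ hμ0)]

open UpperHalfPlane ModularGroup
open scoped MatrixGroups

/-- Numerator of the Möbius map of `g : SL(2,ℤ)` on `ℂ`. -/
noncomputable def es_num (g : SL(2, ℤ)) (w : ℂ) : ℂ := ((g 0 0 : ℤ) : ℂ) * w + ((g 0 1 : ℤ) : ℂ)

/-- Denominator (automorphy factor) of the Möbius map of `g : SL(2,ℤ)` on `ℂ`. -/
noncomputable def es_den (g : SL(2, ℤ)) (w : ℂ) : ℂ := ((g 1 0 : ℤ) : ℂ) * w + ((g 1 1 : ℤ) : ℂ)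

/-- The Möbius map of `g : SL(2,ℤ)` as a (partial) function on `ℂ`. -/
noncomputable def es_moeb (g : SL(2, ℤ)) (w : ℂ) : ℂ := es_num g w / es_den g w

theorem es_coe_smul (g : SL(2, ℤ)) (τ : ℍ) : ((g • τ : ℍ) : ℂ) = es_moeb g τ := by
  rw [UpperHalfPlane.coe_specialLinearGroup_apply]
  simp [es_moeb, es_num, es_den]

theorem es_den_eq_denom (g : SL(2, ℤ)) (τ : ℍ) : es_den g τ = denom g τ := by
  simp [es_den, ModularGroup.denom_apply]

theorem es_den_ne_zero (g : SL(2, ℤ)) (τ : ℍ) : es_den g τ ≠ 0 := by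
  rw [es_den_eq_denom]
  exact denom_ne_zero _ τ

theorem es_det_complex (g : SL(2, ℤ)) :
    ((g 0 0 : ℤ) : ℂ) * ((g 1 1 : ℤ) : ℂ) - ((g 0 1 : ℤ) : ℂ) * ((g 1 0 : ℤ) : ℂ) = 1 := by
  have h := g.det_coe
  rw [Matrix.det_fin_two] at h
  have h2 := congrArg (fun x : ℤ => (x : ℂ)) h
  simpa using h2


theorem es_hasDerivAt_moeb (g : SL(2, ℤ)) {w : ℂ} (hw : es_den g w ≠ 0) :
    HasDerivAt (es_moeb g) (1 / es_den g w ^ 2) w := by
  have hN : HasDerivAt (es_num g) (((g 0 0 : ℤ) : ℂ)) w := by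
    have h1 : HasDerivAt (fun x : ℂ => ((g 0 0 : ℤ) : ℂ) * x + ((g 0 1 : ℤ) : ℂ))
        (((g 0 0 : ℤ) : ℂ) * 1) w := ((hasDerivAt_id' w).const_mul _).add_const _
    rw [mul_one] at h1
    exact h1
  have hM : HasDerivAt (es_den g) (((g 1 0 : ℤ) : ℂ)) w := by
    have h1 : HasDerivAt (fun x : ℂ => ((g 1 0 : ℤ) : ℂ) * x + ((g 1 1 : ℤ) : ℂ))
        (((g 1 0 : ℤ) : ℂ) * 1) w := ((hasDerivAt_id' w).const_mul _).add_const _
    rw [mul_one] at h1
    exact h1
  have h := hN.div hM hw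
  have hd := es_det_complex g
  have hfun : es_moeb g = es_num g / es_den g := rfl
  rw [hfun]
  have hval : (1 : ℂ) / es_den g w ^ 2
      = (((g 0 0 : ℤ) : ℂ) * es_den g w - es_num g w * ((g 1 0 : ℤ) : ℂ)) / es_den g w ^ 2 := by
    congr 1
    simp only [es_num, es_den]
    linear_combination (-1 : ℂ) * hd
  rw [hval]
  exact h

theorem es_deriv_moeb (g : SL(2, ℤ)) {w : ℂ} (hw : es_den g w ≠ 0) :
    deriv (es_moeb g) w = 1 / es_den g w ^ 2 := (es_hasDerivAt_moeb g hw).deriv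

theorem es_differentiableAt_moeb (g : SL(2, ℤ)) {w : ℂ} (hw : es_den g w ≠ 0) :
    DifferentiableAt ℂ (es_moeb g) w := (es_hasDerivAt_moeb g hw).differentiableAt

/-- Cocycle relation for the automorphy factor. -/
theorem es_den_mul (g h : SL(2, ℤ)) {w : ℂ} (hw : es_den h w ≠ 0) :
    es_den (g * h) w = es_den g (es_moeb h w) * es_den h w := by
  have e10 : (g * h) 1 0 = g 1 0 * h 0 0 + g 1 1 * h 1 0 := by
    simp [Matrix.SpecialLinearGroup.coe_mul, Matrix.mul_apply, Fin.sum_univ_two]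
  have e11 : (g * h) 1 1 = g 1 0 * h 0 1 + g 1 1 * h 1 1 := by
    simp [Matrix.SpecialLinearGroup.coe_mul, Matrix.mul_apply, Fin.sum_univ_two]
  simp only [es_den, es_moeb, es_num] at hw ⊢
  rw [e10, e11]
  push_cast
  field_simp
  ring

/-- The multiplier at `α • z` of a conjugate `α * g * α⁻¹` is the multiplier of `g` at `z`. -/
theorem es_den_conj (α g : SL(2, ℤ)) (z : ℍ) (hz : g • z = z) :
    es_den (α * g * α⁻¹) ((α • z : ℍ) : ℂ) = es_den g z := by
  have h1 : es_den (α * g * α⁻¹ * α) z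
      = es_den (α * g * α⁻¹) ((α • z : ℍ) : ℂ) * es_den α z := by
    rw [es_den_mul _ _ (es_den_ne_zero α z), es_coe_smul]
  have h2 : es_den (α * g) z = es_den α z * es_den g z := by
    rw [es_den_mul _ _ (es_den_ne_zero g z), ← es_coe_smul, hz]
  have h3 : α * g * α⁻¹ * α = α * g := by group
  rw [h3, h2] at h1
  have := es_den_ne_zero α z
  apply mul_right_cancel₀ this
  rw [← h1]; ring


open scoped Manifold

/-- A holomorphic function on `ℍ`, precomposed with `ofComplex`, is analytic at points of `ℍ`. -/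
theorem es_analyticAt_of_mdiff {a : ℍ → ℂ} (ha : MDifferentiable 𝓘(ℂ) 𝓘(ℂ) a) (τ : ℍ) :
    AnalyticAt ℂ (a ∘ ofComplex) (τ : ℂ) :=
  DifferentiableOn.analyticAt (UpperHalfPlane.mdifferentiable_iff.1 ha)
    (isOpen_upperHalfPlaneSet.mem_nhds τ.im_pos)

/-- A nonzero holomorphic function on `ℍ` has finite order at every point. -/
theorem es_order_ne_top {a : ℍ → ℂ} (ha : MDifferentiable 𝓘(ℂ) 𝓘(ℂ) a) (ha0 : a ≠ 0) (τ : ℍ) :
    analyticOrderAt (a ∘ ofComplex) (τ : ℂ) ≠ ⊤ := by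
  have hne : ∃ τ₀ : ℍ, a τ₀ ≠ 0 := by
    by_contra hcon
    push Not at hcon
    exact ha0 (funext hcon)
  obtain ⟨τ₀, hτ₀⟩ := hne
  have hAn : AnalyticOnNhd ℂ (a ∘ ofComplex) {z : ℂ | 0 < z.im} :=
    (UpperHalfPlane.mdifferentiable_iff.1 ha).analyticOnNhd isOpen_upperHalfPlaneSet
  have hpre : IsPreconnected {z : ℂ | 0 < z.im} :=
    (Complex.isConnected_of_upperHalfPlane subset_rfl (by grind)).isPreconnected
  have h0 : analyticOrderAt (a ∘ ofComplex) (τ₀ : ℂ) ≠ ⊤ := by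
    have : analyticOrderAt (a ∘ ofComplex) (τ₀ : ℂ) = 0 := by
      rw [(es_analyticAt_of_mdiff ha τ₀).analyticOrderAt_eq_zero]
      simpa [ofComplex_apply] using hτ₀
    rw [this]
    exact ENat.zero_ne_top
  exact hAn.analyticOrderAt_ne_top_of_isPreconnected hpre τ₀.im_pos τ.im_pos h0

/-- On the upper half plane (as a subset of `ℂ`), `a ∘ ofComplex ∘ es_moeb g` is `a (g • ·)`. -/
theorem es_comp_moeb_apply (a : ℍ → ℂ) (g : SL(2, ℤ)) {w : ℂ} (hw : 0 < w.im) :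
    (a ∘ ofComplex) (es_moeb g w) = a (g • (⟨w, hw⟩ : ℍ)) := by
  have h1 : es_moeb g w = ((g • (⟨w, hw⟩ : ℍ) : ℍ) : ℂ) := by
    rw [es_coe_smul]
  rw [Function.comp_apply, h1, ofComplex_apply]

theorem es_comp_apply (a : ℍ → ℂ) {w : ℂ} (hw : 0 < w.im) :
    (a ∘ ofComplex) w = a (⟨w, hw⟩ : ℍ) := by
  rw [Function.comp_apply, ofComplex_apply_of_im_pos hw]

/-- **General elliptic-point lemma**, `ℕ∞`-order form.  If `γ` fixes `z`, the multiplier
`1 / (c z + d) ^ 2` of `γ` at `z` is a primitive `k`-th root of unity, and the quotient `a / b` of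
holomorphic functions is `γ`-invariant (in cross-multiplied form), then `k ∣ ord_z a - ord_z b`. -/
theorem es_dvd_of_invariant_aux {γ : SL(2, ℤ)} {z : ℍ} (hfix : γ • z = z) {k : ℕ} (hk : k ≠ 0)
    (hμ : IsPrimitiveRoot (1 / es_den γ z ^ 2) k)
    {a b : ℍ → ℂ} (ha : MDifferentiable 𝓘(ℂ) 𝓘(ℂ) a) (hb : MDifferentiable 𝓘(ℂ) 𝓘(ℂ) b)
    {m n : ℕ} (hm : analyticOrderAt (a ∘ ofComplex) (z : ℂ) = m)
    (hn : analyticOrderAt (b ∘ ofComplex) (z : ℂ) = n)
    (hinv : ∀ τ : ℍ, a (γ • τ) * b τ = a τ * b (γ • τ)) :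
    (k : ℤ) ∣ (m : ℤ) - n := by
  apply es_dvd_sub_of_pow_eq hk hμ
  have hden := es_den_ne_zero γ z
  have hφz : es_moeb γ (z : ℂ) = z := by rw [← es_coe_smul, hfix]
  refine es_pow_eq_pow_of_invariant (φ := es_moeb γ) (z := (z : ℂ))
    (es_differentiableAt_moeb γ hden) hφz (es_deriv_moeb γ hden)
    (es_analyticAt_of_mdiff ha z) (es_analyticAt_of_mdiff hb z) hm hn ?_
  filter_upwards [isOpen_upperHalfPlaneSet.mem_nhds z.im_pos] with w hw
  have hw' : 0 < w.im := hw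
  rw [es_comp_moeb_apply a γ hw', es_comp_moeb_apply b γ hw', es_comp_apply a hw',
    es_comp_apply b hw']
  exact hinv _


/-- `ℕ`-valued order form of the general elliptic-point lemma (for nonzero `a`, `b`). -/
theorem es_dvd_of_invariant {γ : SL(2, ℤ)} {z : ℍ} (hfix : γ • z = z) {k : ℕ} (hk : k ≠ 0)
    (hμ : IsPrimitiveRoot (1 / es_den γ z ^ 2) k)
    {a b : ℍ → ℂ} (ha : MDifferentiable 𝓘(ℂ) 𝓘(ℂ) a) (hb : MDifferentiable 𝓘(ℂ) 𝓘(ℂ) b)
    (ha0 : a ≠ 0) (hb0 : b ≠ 0)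
    (hinv : ∀ τ : ℍ, a (γ • τ) * b τ = a τ * b (γ • τ)) :
    (k : ℤ) ∣ (analyticOrderNatAt (a ∘ ofComplex) (z : ℂ) : ℤ)
      - analyticOrderNatAt (b ∘ ofComplex) (z : ℂ) :=
  es_dvd_of_invariant_aux hfix hk hμ ha hb
    (Nat.cast_analyticOrderNatAt (es_order_ne_top ha ha0 z)).symm
    (Nat.cast_analyticOrderNatAt (es_order_ne_top hb hb0 z)).symm hinv

/-- Single-function form: a nonzero `γ`-invariant holomorphic function has order divisible by `k`
at the fixed point. -/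
theorem es_dvd_order_of_invariant {γ : SL(2, ℤ)} {z : ℍ} (hfix : γ • z = z) {k : ℕ} (hk : k ≠ 0)
    (hμ : IsPrimitiveRoot (1 / es_den γ z ^ 2) k)
    {a : ℍ → ℂ} (ha : MDifferentiable 𝓘(ℂ) 𝓘(ℂ) a) (ha0 : a ≠ 0)
    (hinv : ∀ τ : ℍ, a (γ • τ) = a τ) :
    k ∣ analyticOrderNatAt (a ∘ ofComplex) (z : ℂ) := by
  have hb : MDifferentiable 𝓘(ℂ) 𝓘(ℂ) (fun _ : ℍ => (1 : ℂ)) := mdifferentiable_const
  have hb0 : (fun _ : ℍ => (1 : ℂ)) ≠ 0 := by
    intro h
    have := congrFun h z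
    simp at this
  have h := es_dvd_of_invariant hfix hk hμ ha hb ha0 hb0 (by intro τ; show a (γ • τ) * 1 = a τ * 1; rw [hinv τ])
  have h1 : analyticOrderNatAt ((fun _ : ℍ => (1 : ℂ)) ∘ ofComplex) (z : ℂ) = 0 := by
    have : analyticOrderAt ((fun _ : ℍ => (1 : ℂ)) ∘ ofComplex) (z : ℂ) = 0 := by
      rw [(es_analyticAt_of_mdiff hb z).analyticOrderAt_eq_zero]
      simp
    simp [analyticOrderNatAt, this]
  rw [h1] at h
  simpa using Int.natCast_dvd_natCast.1 (by simpa using h)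

/-! ### The fixed points `i` of `S` and `ρ` of `S * T` -/

theorem es_S_smul_I : ModularGroup.S • UpperHalfPlane.I = UpperHalfPlane.I :=
  ModularGroup.stabilizer_I.2 (by simp)

theorem es_ST_smul_rho : (ModularGroup.S * ModularGroup.T) • UpperHalfPlane.ρ = UpperHalfPlane.ρ :=
  ModularGroup.stabilizer_ρ.2 (by simp)

theorem es_den_S (w : ℂ) : es_den ModularGroup.S w = w := by
  simp [es_den, ModularGroup.S]

theorem es_den_ST (w : ℂ) : es_den (ModularGroup.S * ModularGroup.T) w = w + 1 := by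
  have e10 : (ModularGroup.S * ModularGroup.T) 1 0 = 1 := by decide
  have e11 : (ModularGroup.S * ModularGroup.T) 1 1 = 1 := by decide
  simp [es_den, e10, e11]

theorem es_multiplier_S : IsPrimitiveRoot (1 / es_den ModularGroup.S (UpperHalfPlane.I : ℂ) ^ 2) 2 := by
  rw [es_den_S, UpperHalfPlane.coe_I, Complex.I_sq]
  have : (1 : ℂ) / -1 = -1 := by norm_num
  rw [this]
  exact IsPrimitiveRoot.neg_one 0 (by norm_num)

theorem es_rho_cube : (UpperHalfPlane.ρ : ℂ) ^ 3 = 1 := by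
  have h := UpperHalfPlane.ρ_sq
  linear_combination ((UpperHalfPlane.ρ : ℂ) - 1) * h

theorem es_rho_ne_one : (UpperHalfPlane.ρ : ℂ) ≠ 1 := by
  intro h
  have h2 := UpperHalfPlane.ρ_sq
  rw [h] at h2
  norm_num at h2

theorem es_isPrimitiveRoot_rho : IsPrimitiveRoot (UpperHalfPlane.ρ : ℂ) 3 := by
  refine IsPrimitiveRoot.mk_of_lt _ (by norm_num) es_rho_cube ?_
  intro l hl0 hl3
  interval_cases l
  · simpa using es_rho_ne_one
  · intro h2
    apply es_rho_ne_one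
    have h3 := es_rho_cube
    have : (UpperHalfPlane.ρ : ℂ) ^ 3 = (UpperHalfPlane.ρ : ℂ) ^ 2 * UpperHalfPlane.ρ := by ring
    rw [this, h2, one_mul] at h3
    exact h3

theorem es_multiplier_ST :
    IsPrimitiveRoot (1 / es_den (ModularGroup.S * ModularGroup.T) (UpperHalfPlane.ρ : ℂ) ^ 2) 3 := by
  rw [es_den_ST]
  have h : ((UpperHalfPlane.ρ : ℂ) + 1) ^ 2 = UpperHalfPlane.ρ := by
    have h := UpperHalfPlane.ρ_sq
    linear_combination h
  rw [h, one_div]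
  exact es_isPrimitiveRoot_rho.inv

/-- Conjugates: fixed point. -/
theorem es_conj_smul (α g : SL(2, ℤ)) (z : ℍ) (hz : g • z = z) :
    (α * g * α⁻¹) • (α • z) = α • z := by
  rw [mul_smul, inv_smul_smul, mul_smul, hz]

/-- Conjugates: multiplier. -/
theorem es_multiplier_conj (α g : SL(2, ℤ)) (z : ℍ) (hz : g • z = z) {k : ℕ}
    (h : IsPrimitiveRoot (1 / es_den g z ^ 2) k) :
    IsPrimitiveRoot (1 / es_den (α * g * α⁻¹) ((α • z : ℍ) : ℂ) ^ 2) k := by
  rw [es_den_conj α g z hz]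
  exact h


/-! ### Headline statements -/

/-- **Even orders at the elliptic points of order 2.**  Let `γ = α S α⁻¹` and `z = α • i`.
If `a / b` (`a, b` holomorphic, nonzero) is `γ`-invariant then `ord_z a - ord_z b` is even. -/
theorem even_order_of_invariant (α : SL(2, ℤ)) {a b : ℍ → ℂ}
    (ha : MDifferentiable 𝓘(ℂ) 𝓘(ℂ) a) (hb : MDifferentiable 𝓘(ℂ) 𝓘(ℂ) b)
    (ha0 : a ≠ 0) (hb0 : b ≠ 0)
    (hinv : ∀ τ : ℍ, a ((α * ModularGroup.S * α⁻¹) • τ) * b τ
      = a τ * b ((α * ModularGroup.S * α⁻¹) • τ)) :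
    (2 : ℤ) ∣ (analyticOrderNatAt (a ∘ ofComplex) ((α • UpperHalfPlane.I : ℍ) : ℂ) : ℤ)
      - analyticOrderNatAt (b ∘ ofComplex) ((α • UpperHalfPlane.I : ℍ) : ℂ) :=
  es_dvd_of_invariant (es_conj_smul α _ _ es_S_smul_I) two_ne_zero
    (es_multiplier_conj α _ _ es_S_smul_I es_multiplier_S) ha hb ha0 hb0 hinv

/-- **Orders divisible by 3 at the elliptic points of order 3.**  Let `γ = α (S T) α⁻¹` and
`z = α • ρ`.  If `a / b` is `γ`-invariant then `3 ∣ ord_z a - ord_z b`. -/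
theorem three_dvd_order_of_invariant (α : SL(2, ℤ)) {a b : ℍ → ℂ}
    (ha : MDifferentiable 𝓘(ℂ) 𝓘(ℂ) a) (hb : MDifferentiable 𝓘(ℂ) 𝓘(ℂ) b)
    (ha0 : a ≠ 0) (hb0 : b ≠ 0)
    (hinv : ∀ τ : ℍ, a ((α * (ModularGroup.S * ModularGroup.T) * α⁻¹) • τ) * b τ
      = a τ * b ((α * (ModularGroup.S * ModularGroup.T) * α⁻¹) • τ)) :
    (3 : ℤ) ∣ (analyticOrderNatAt (a ∘ ofComplex) ((α • UpperHalfPlane.ρ : ℍ) : ℂ) : ℤ)
      - analyticOrderNatAt (b ∘ ofComplex) ((α • UpperHalfPlane.ρ : ℍ) : ℂ) :=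
  es_dvd_of_invariant (es_conj_smul α _ _ es_ST_smul_rho) three_ne_zero
    (es_multiplier_conj α _ _ es_ST_smul_rho es_multiplier_ST) ha hb ha0 hb0 hinv

/-- Single-function form at the conjugates of `S`: a nonzero holomorphic function invariant under
`α S α⁻¹` vanishes to even order at `α • i`. -/
theorem even_order_of_invariant_single (α : SL(2, ℤ)) {a : ℍ → ℂ}
    (ha : MDifferentiable 𝓘(ℂ) 𝓘(ℂ) a) (ha0 : a ≠ 0)
    (hinv : ∀ τ : ℍ, a ((α * ModularGroup.S * α⁻¹) • τ) = a τ) :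
    2 ∣ analyticOrderNatAt (a ∘ ofComplex) ((α • UpperHalfPlane.I : ℍ) : ℂ) :=
  es_dvd_order_of_invariant (es_conj_smul α _ _ es_S_smul_I) two_ne_zero
    (es_multiplier_conj α _ _ es_S_smul_I es_multiplier_S) ha ha0 hinv

/-- Single-function form at the conjugates of `S T`: a nonzero holomorphic function invariant under
`α (S T) α⁻¹` vanishes to order divisible by `3` at `α • ρ`. -/
theorem three_dvd_order_of_invariant_single (α : SL(2, ℤ)) {a : ℍ → ℂ}
    (ha : MDifferentiable 𝓘(ℂ) 𝓘(ℂ) a) (ha0 : a ≠ 0)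
    (hinv : ∀ τ : ℍ, a ((α * (ModularGroup.S * ModularGroup.T) * α⁻¹) • τ) = a τ) :
    3 ∣ analyticOrderNatAt (a ∘ ofComplex) ((α • UpperHalfPlane.ρ : ℍ) : ℂ) :=
  es_dvd_order_of_invariant (es_conj_smul α _ _ es_ST_smul_rho) three_ne_zero
    (es_multiplier_conj α _ _ es_ST_smul_rho es_multiplier_ST) ha ha0 hinv

/-- Variant with `-γ` (e.g. when only `-(α S α⁻¹)` lies in `Γ₀(N)`): `-γ` and `γ` act identically
on `ℍ`. -/
theorem es_neg_smul (γ : SL(2, ℤ)) (τ : ℍ) : (-γ) • τ = γ • τ := ModularGroup.SL_neg_smul γ τ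

end Fermat.Agent.S24x
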