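/-
S24 / B5 (final interface form): divisibility of `ordAt` at the elliptic points, for elements of
`Mer` invariant under a conjugate of `S` resp. `S T`.
-/
import Fermat.Agent.S24x.EllipticStab
import Fermat.Agent.S24x.PointPlaces
import Fermat.Agent.S24x.RhoPoint

set_option autoImplicit false

namespace Fermat.Agent.S24x

open UpperHalfPlane
open scoped MatrixGroups Manifold

/-- `ordAt` of a nonzero holomorphic function is its analytic order (as a natural number). -/
theorem es_ordAt_algebraMap_eq (τ : ℍ) {h : Hol} (hh : h ≠ 0) :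
    ordAt τ (algebraMap Hol Mer h) = (analyticOrderNatAt ((h : ℍ → ℂ) ∘ ofComplex) (τ : ℂ) : ℤ) := by
  have h1 := ordAt_algebraMap τ hh
  have hne : (h : ℍ → ℂ) ≠ 0 := by
    intro h0
    apply hh
    exact Subtype.ext h0
  have h2 : analyticOrderAt ((h : ℍ → ℂ) ∘ ofComplex) (τ : ℂ)
      = (analyticOrderNatAt ((h : ℍ → ℂ) ∘ ofComplex) (τ : ℂ) : ℕ) :=
    (Nat.cast_analyticOrderNatAt (es_order_ne_top h.2 hne τ)).symm
  have h3 : holOrder h τ = (analyticOrderNatAt ((h : ℍ → ℂ) ∘ ofComplex) (τ : ℂ) : ℕ) := h2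
  rw [h3] at h1
  have h4 : ((analyticOrderNatAt ((h : ℍ → ℂ) ∘ ofComplex) (τ : ℂ) : ℕ) : ℕ∞).map
      (Nat.cast : ℕ → ℤ)
      = ((analyticOrderNatAt ((h : ℍ → ℂ) ∘ ofComplex) (τ : ℂ) : ℤ) : WithTop ℤ) := rfl
  rw [h4] at h1
  exact_mod_cast h1

/-- **General form**: if `γ` fixes `z` with multiplier a primitive `k`-th root of unity, every
`γ`-invariant element of `Mer` has `ordAt z` divisible by `k`. -/
theorem es_dvd_ordAt_of_invariant {γ : SL(2, ℤ)} {z : ℍ} (hfix : γ • z = z) {k : ℕ} (hk : k ≠ 0)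
    (hμ : IsPrimitiveRoot (1 / es_den γ z ^ 2) k) (x : Mer) (hx : γ • x = x) :
    (k : ℤ) ∣ ordAt z x := by
  by_cases hx0 : x = 0
  · rw [hx0, ordAt_zero]; exact dvd_zero _
  obtain ⟨a, b, hb, rfl⟩ := IsFractionRing.div_surjective (A := Hol) x
  have hb0 : b ≠ 0 := nonZeroDivisors.ne_zero hb
  have hbM : algebraMap Hol Mer b ≠ 0 := by
    simpa using hb0
  have ha0 : a ≠ 0 := by
    rintro rfl
    apply hx0
    simp
  have haM : algebraMap Hol Mer a ≠ 0 := by
    simpa using ha0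
  -- order of the quotient
  have hord : ordAt z (algebraMap Hol Mer a / algebraMap Hol Mer b)
      = ordAt z (algebraMap Hol Mer a) - ordAt z (algebraMap Hol Mer b) := by
    have := ordAt_mul z hx0 hbM
    rw [div_mul_cancel₀ _ hbM] at this
    linarith
  -- invariance in cross-multiplied form
  have hγb : algebraMap Hol Mer (γ • b) ≠ 0 := by
    have : γ • b ≠ 0 := by
      intro h0
      apply hb0
      have := congrArg (fun y => γ⁻¹ • y) h0
      simpa using this
    simpa using this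
  have hcross : (γ • a) * b = a * (γ • b) := by
    have h1 : algebraMap Hol Mer (γ • a) / algebraMap Hol Mer (γ • b)
        = algebraMap Hol Mer a / algebraMap Hol Mer b := by
      rw [← smul_algebraMap_Mer, ← smul_algebraMap_Mer]
      rw [div_eq_mul_inv] at hx
      rw [smul_mul', smul_inv''] at hx
      rw [div_eq_mul_inv (γ • (algebraMap Hol Mer) a)]
      exact hx
    rw [div_eq_div_iff hγb hbM] at h1
    apply IsFractionRing.injective Hol Mer
    rw [map_mul, map_mul]
    exact h1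
  have hinv : ∀ τ : ℍ, (a : ℍ → ℂ) (γ • τ) * (b : ℍ → ℂ) τ
      = (a : ℍ → ℂ) τ * (b : ℍ → ℂ) (γ • τ) := by
    intro τ
    have h2 := congrFun (congrArg Subtype.val hcross) (γ • τ)
    simp only [Subring.coe_mul, Pi.mul_apply, smul_Hol_apply, inv_smul_smul] at h2
    rw [mul_comm] at h2
    rw [← h2]; ring
  have hne_a : (a : ℍ → ℂ) ≠ 0 := fun h0 => ha0 (Subtype.ext h0)
  have hne_b : (b : ℍ → ℂ) ≠ 0 := fun h0 => hb0 (Subtype.ext h0)
  have hmain := es_dvd_of_invariant hfix hk hμ a.2 b.2 hne_a hne_b hinv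
  rw [hord, es_ordAt_algebraMap_eq z ha0, es_ordAt_algebraMap_eq z hb0]
  exact hmain

theorem two_dvd_ordAt_of_invariant (α : SL(2, ℤ)) (x : Mer)
    (hx : (α * ModularGroup.S * α⁻¹) • x = x) : (2 : ℤ) ∣ ordAt (α • UpperHalfPlane.I) x :=
  es_dvd_ordAt_of_invariant (es_conj_smul α _ _ es_S_smul_I) two_ne_zero
    (es_multiplier_conj α _ _ es_S_smul_I es_multiplier_S) x hx

theorem es_three_dvd_ordAt_of_invariant (α : SL(2, ℤ)) (x : Mer)
    (hx : (α * (ModularGroup.S * ModularGroup.T) * α⁻¹) • x = x) :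
    (3 : ℤ) ∣ ordAt (α • UpperHalfPlane.ρ) x :=
  es_dvd_ordAt_of_invariant (es_conj_smul α _ _ es_ST_smul_rho) three_ne_zero
    (es_multiplier_conj α _ _ es_ST_smul_rho es_multiplier_ST) x hx

/-- The point `rho` of `RhoPoint.lean` is Mathlib's `UpperHalfPlane.ρ`. -/
theorem es_rho_eq : rho = UpperHalfPlane.ρ := by
  apply UpperHalfPlane.ext
  rw [rho_coe]
  apply Complex.ext
  · simp [UpperHalfPlane.ρ]
  · simp [UpperHalfPlane.ρ]

theorem three_dvd_ordAt_of_invariant (α : SL(2, ℤ)) (x : Mer)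
    (hx : (α * (ModularGroup.S * ModularGroup.T) * α⁻¹) • x = x) :
    (3 : ℤ) ∣ ordAt (α • rho) x := by
  rw [es_rho_eq]
  exact es_three_dvd_ordAt_of_invariant α x hx

end Fermat.Agent.S24x
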