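import Mathlib
import Fermat.Prelude.Def_ModularCurve_GenusNumerics

/-!
# S24 project, combinatorics module (N), basic layer

`Q N = SL(2,ℤ) ⧸ Γ₀(N)` with Mathlib's left action; cosets are determined by the first column
of a representative up to proportionality mod `N`.
-/

set_option autoImplicit false

open CongruenceSubgroup ModularGroup Matrix.SpecialLinearGroup
open scoped MatrixGroups

namespace Fermat.Agent.S24x

/-- The coset space `SL(2,ℤ) ⧸ Γ₀(N)` with Mathlib's left action of `SL(2,ℤ)`. -/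
abbrev Q (N : ℕ) : Type := SL(2, ℤ) ⧸ Gamma0 N

variable (N : ℕ)

/-- lower-left entry of `g⁻¹ * h`. -/
theorem inv_mul_one_zero (g h : SL(2, ℤ)) :
    ((g⁻¹ * h : SL(2, ℤ)) 1 0 : ℤ) = g 0 0 * h 1 0 - g 1 0 * h 0 0 := by
  rw [Matrix.SpecialLinearGroup.coe_mul, Matrix.SpecialLinearGroup.SL2_inv_expl]
  simp [Matrix.mul_apply, Fin.sum_univ_two]
  ring

/-- `gΓ₀(N) = hΓ₀(N)` iff the first columns of `g`, `h` are proportional mod `N`. -/
theorem coset_eq_iff (g h : SL(2, ℤ)) :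
    ((g : SL(2, ℤ)) : Q N) = (h : Q N) ↔
      ((g 0 0 * h 1 0 - g 1 0 * h 0 0 : ℤ) : ZMod N) = 0 := by
  rw [QuotientGroup.eq, Gamma0_mem, inv_mul_one_zero]

theorem smul_coset (x g : SL(2, ℤ)) : x • ((g : SL(2, ℤ)) : Q N) = ((x * g : SL(2, ℤ)) : Q N) :=
  rfl

theorem S_mul_zero_zero (g : SL(2, ℤ)) : ((S * g : SL(2, ℤ)) 0 0 : ℤ) = - g 1 0 := by
  rw [Matrix.SpecialLinearGroup.coe_mul, coe_S]
  simp [Matrix.mul_apply, Fin.sum_univ_two]

theorem S_mul_one_zero (g : SL(2, ℤ)) : ((S * g : SL(2, ℤ)) 1 0 : ℤ) = g 0 0 := by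
  rw [Matrix.SpecialLinearGroup.coe_mul, coe_S]
  simp [Matrix.mul_apply, Fin.sum_univ_two]

theorem ST_mul_zero_zero (g : SL(2, ℤ)) : ((S * T * g : SL(2, ℤ)) 0 0 : ℤ) = - g 1 0 := by
  rw [Matrix.SpecialLinearGroup.coe_mul, Matrix.SpecialLinearGroup.coe_mul, coe_S, coe_T]
  simp [Matrix.mul_apply, Fin.sum_univ_two]

theorem ST_mul_one_zero (g : SL(2, ℤ)) :
    ((S * T * g : SL(2, ℤ)) 1 0 : ℤ) = g 0 0 + g 1 0 := by
  rw [Matrix.SpecialLinearGroup.coe_mul, Matrix.SpecialLinearGroup.coe_mul, coe_S, coe_T]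
  simp [Matrix.mul_apply, Fin.sum_univ_two]

theorem T_zpow_mul_zero_zero (k : ℤ) (g : SL(2, ℤ)) :
    ((T ^ k * g : SL(2, ℤ)) 0 0 : ℤ) = g 0 0 + k * g 1 0 := by
  rw [Matrix.SpecialLinearGroup.coe_mul, coe_T_zpow]
  simp [Matrix.mul_apply, Fin.sum_univ_two]

theorem T_zpow_mul_one_zero (k : ℤ) (g : SL(2, ℤ)) :
    ((T ^ k * g : SL(2, ℤ)) 1 0 : ℤ) = g 1 0 := by
  rw [Matrix.SpecialLinearGroup.coe_mul, coe_T_zpow]
  simp [Matrix.mul_apply, Fin.sum_univ_two]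

/-- `S` fixes the coset of `g` iff `a² + c² ≡ 0`. -/
theorem S_smul_coset_eq_iff (g : SL(2, ℤ)) :
    S • ((g : SL(2, ℤ)) : Q N) = (g : Q N) ↔
      ((g 0 0 ^ 2 + g 1 0 ^ 2 : ℤ) : ZMod N) = 0 := by
  rw [smul_coset, eq_comm, coset_eq_iff, S_mul_zero_zero, S_mul_one_zero]
  constructor <;> intro h <;> [convert h using 2; convert h using 2] <;> ring

/-- `S * T` fixes the coset of `g` iff `a² + a c + c² ≡ 0`. -/
theorem ST_smul_coset_eq_iff (g : SL(2, ℤ)) :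
    (S * T) • ((g : SL(2, ℤ)) : Q N) = (g : Q N) ↔
      ((g 0 0 ^ 2 + g 0 0 * g 1 0 + g 1 0 ^ 2 : ℤ) : ZMod N) = 0 := by
  rw [smul_coset, eq_comm, coset_eq_iff, ST_mul_zero_zero, ST_mul_one_zero]
  constructor <;> intro h <;> [convert h using 2; convert h using 2] <;> ring

/-- `T ^ k` fixes the coset of `g` iff `N ∣ k c²`. -/
theorem T_zpow_smul_coset_eq_iff (k : ℤ) (g : SL(2, ℤ)) :
    (T ^ k) • ((g : SL(2, ℤ)) : Q N) = (g : Q N) ↔
      ((k * g 1 0 ^ 2 : ℤ) : ZMod N) = 0 := by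
  rw [smul_coset, eq_comm, coset_eq_iff, T_zpow_mul_zero_zero, T_zpow_mul_one_zero]
  constructor
  · intro h
    have : ((k * g 1 0 ^ 2 : ℤ) : ZMod N) = -((g 0 0 * g 1 0 - g 1 0 * (g 0 0 + k * g 1 0) : ℤ) : ZMod N) := by
      rw [← Int.cast_neg]; congr 1; ring
    rw [this, h, neg_zero]
  · intro h
    have : ((g 0 0 * g 1 0 - g 1 0 * (g 0 0 + k * g 1 0) : ℤ) : ZMod N) = -((k * g 1 0 ^ 2 : ℤ) : ZMod N) := by
      rw [← Int.cast_neg]; congr 1; ring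
    rw [this, h, neg_zero]

/-- The determinant relation `a d - b c = 1` for `g ∈ SL(2,ℤ)`. -/
theorem det_rel (g : SL(2, ℤ)) : g 0 0 * g 1 1 - g 0 1 * g 1 0 = 1 := by
  have := g.det_coe
  rw [Matrix.det_fin_two] at this
  exact this

instance instFiniteQ [NeZero N] : Finite (Q N) :=
  Subgroup.finite_quotient_of_finiteIndex

end Fermat.Agent.S24x
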