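/-
S24 helper module A4 (helper50): the abstract counting "squeeze".

If `P` is a finite set of places with positive multiplicities `e v` summing to `n`, and a finite
family `w : ι → P` is surjective onto `P` with `e (w i) ≤ a i` and `∑ a i ≤ n`, then `w` is a
bijection onto `P`, `e (w i) = a i` and `∑ a i = n`.  Specialisations to `placesOver` and
`polePlaces` (inputs in the shape of module A3).
-/
import Mathlib
import Fermat.Agent.S24x.AlgDefs

set_option autoImplicit false

namespace Fermat.Agent.S24x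

open AlgebraicCurve

section Abstract

variable {V ι : Type*} [Fintype ι]

/-- The abstract squeeze. -/
theorem squeeze_abstract (P : Set V) (hP : P.Finite) (e : V → ℤ) (n : ℤ)
    (hsum : ∑ v ∈ hP.toFinset, e v = n) (hpos : ∀ v ∈ P, 0 < e v)
    (w : ι → V) (a : ι → ℕ)
    (hsurj : ∀ v ∈ P, ∃ i, w i = v) (hmem : ∀ i, w i ∈ P) (hle : ∀ i, e (w i) ≤ a i)
    (hsum_a : ∑ i, (a i : ℤ) ≤ n) :
    Function.Injective w ∧ (∀ i, e (w i) = a i) ∧ P.ncard = Fintype.card ι ∧
      ∑ i, (a i : ℤ) = n := by
  classical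
  -- fibrewise decomposition of sums over `ι`
  have hfib : ∀ f : ι → ℤ,
      ∑ v ∈ hP.toFinset, ∑ i ∈ Finset.univ.filter (fun i => w i = v), f i = ∑ i, f i := by
    intro f
    exact Finset.sum_fiberwise_of_maps_to (s := Finset.univ) (t := hP.toFinset) (g := w)
      (fun i _ => hP.mem_toFinset.mpr (hmem i)) f
  -- each fibre is nonempty
  have hcard : ∀ v ∈ hP.toFinset, 1 ≤ (Finset.univ.filter (fun i => w i = v)).card := by
    intro v hv
    obtain ⟨i, hi⟩ := hsurj v (hP.mem_toFinset.mp hv)
    exact Finset.card_pos.mpr ⟨i, by simp [hi]⟩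
  -- ∑_v e v ≤ ∑_i e (w i)
  have hfibsum : ∀ v ∈ hP.toFinset,
      ∑ i ∈ Finset.univ.filter (fun i => w i = v), e (w i)
        = ((Finset.univ.filter (fun i => w i = v)).card : ℤ) * e v := by
    intro v _
    rw [Finset.sum_congr rfl (g := fun _ => e v) (fun i hi => by
      rw [(Finset.mem_filter.mp hi).2])]
    simp
  have h1 : ∑ i, e (w i)
      = ∑ v ∈ hP.toFinset, ((Finset.univ.filter (fun i => w i = v)).card : ℤ) * e v := by
    rw [← hfib (fun i => e (w i))]
    exact Finset.sum_congr rfl hfibsum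
  have h2 : ∑ v ∈ hP.toFinset, e v
      ≤ ∑ v ∈ hP.toFinset, ((Finset.univ.filter (fun i => w i = v)).card : ℤ) * e v := by
    apply Finset.sum_le_sum
    intro v hv
    have hc : (1 : ℤ) ≤ ((Finset.univ.filter (fun i => w i = v)).card : ℤ) := by
      exact_mod_cast hcard v hv
    have hp := hpos v (hP.mem_toFinset.mp hv)
    nlinarith
  have h3 : ∑ i, e (w i) ≤ ∑ i, (a i : ℤ) := Finset.sum_le_sum fun i _ => hle i
  -- all inequalities are equalities
  have hEq1 : ∑ i, e (w i) = ∑ i, (a i : ℤ) := by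
    apply le_antisymm h3
    calc ∑ i, (a i : ℤ) ≤ n := hsum_a
      _ = ∑ v ∈ hP.toFinset, e v := hsum.symm
      _ ≤ _ := h2
      _ = ∑ i, e (w i) := h1.symm
  have hEq2 : ∑ v ∈ hP.toFinset, e v
      = ∑ v ∈ hP.toFinset, ((Finset.univ.filter (fun i => w i = v)).card : ℤ) * e v := by
    apply le_antisymm h2
    calc _ = ∑ i, e (w i) := h1.symm
      _ ≤ ∑ i, (a i : ℤ) := h3
      _ ≤ n := hsum_a
      _ = _ := hsum.symm
  have hA : ∀ i, e (w i) = a i := by
    intro i
    have := (Finset.sum_eq_sum_iff_of_le (fun i _ => hle i)).mp hEq1 i (Finset.mem_univ i)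
    exact this
  have hfibre_one : ∀ v ∈ hP.toFinset, (Finset.univ.filter (fun i => w i = v)).card = 1 := by
    intro v hv
    have hterm := (Finset.sum_eq_sum_iff_of_le (f := fun v => e v)
      (g := fun v => ((Finset.univ.filter (fun i => w i = v)).card : ℤ) * e v)
      (s := hP.toFinset) (fun v hv => by
        have hc : (1 : ℤ) ≤ ((Finset.univ.filter (fun i => w i = v)).card : ℤ) := by
          exact_mod_cast hcard v hv
        have hp := hpos v (hP.mem_toFinset.mp hv)
        nlinarith)).mp hEq2 v hv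
    have hp := hpos v (hP.mem_toFinset.mp hv)
    have hc : ((Finset.univ.filter (fun i => w i = v)).card : ℤ) = 1 := by
      have h' : (((Finset.univ.filter (fun i => w i = v)).card : ℤ) - 1) * e v = 0 := by
        have hterm' : e v = ((Finset.univ.filter (fun i => w i = v)).card : ℤ) * e v := hterm
        linarith
      rcases mul_eq_zero.mp h' with h | h
      · linarith
      · exact absurd h hp.ne'
    exact_mod_cast hc
  have hinj : Function.Injective w := by
    intro i i' hii'
    have hv : w i ∈ hP.toFinset := hP.mem_toFinset.mpr (hmem i)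
    have h1' := hfibre_one (w i) hv
    rw [Finset.card_eq_one] at h1'
    obtain ⟨i₀, hi₀⟩ := h1'
    have hi : i ∈ Finset.univ.filter (fun k => w k = w i) := by simp
    have hi' : i' ∈ Finset.univ.filter (fun k => w k = w i) := by simp [hii']
    rw [hi₀, Finset.mem_singleton] at hi hi'
    rw [hi, hi']
  refine ⟨hinj, hA, ?_, ?_⟩
  · -- `P` is the image of `w`
    have himg : P = Set.range w := by
      ext v
      constructor
      · intro hv
        obtain ⟨i, hi⟩ := hsurj v hv
        exact ⟨i, hi⟩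
      · rintro ⟨i, rfl⟩
        exact hmem i
    rw [himg, Set.ncard_eq_toFinset_card' (Set.range w)]
    simp only [Set.toFinset_range]
    rw [Finset.card_image_of_injective _ hinj, Finset.card_univ]
  · apply le_antisymm hsum_a
    calc n = ∑ v ∈ hP.toFinset, e v := hsum.symm
      _ ≤ _ := h2
      _ = ∑ i, e (w i) := h1.symm
      _ ≤ _ := h3

end Abstract

section Places

variable {K F : Type*} [Field K] [Field F] [Algebra K F]
variable {ι : Type*} [Fintype ι]

/-- Squeeze for the places over `t = c` (input `hfin`, `hsum` from module A3). -/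
theorem squeeze_placesOver (t : F) (c : K)
    (hfin : (placesOver K F t c).Finite)
    (hsum : ∑ v ∈ hfin.toFinset, v.ord (t - algebraMap K F c) = (cdeg K F t : ℤ))
    (w : ι → Place K F) (a : ι → ℕ)
    (hsurj : ∀ v ∈ placesOver K F t c, ∃ i, w i = v)
    (hw : ∀ i, w i ∈ placesOver K F t c ∧ (w i).ord (t - algebraMap K F c) ≤ a i)
    (ha : ∑ i, a i ≤ cdeg K F t) :
    Function.Injective w ∧ (∀ i, (w i).ord (t - algebraMap K F c) = a i) ∧
      (placesOver K F t c).ncard = Fintype.card ι ∧ ∑ i, a i = cdeg K F t := by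
  have ha' : ∑ i, (a i : ℤ) ≤ (cdeg K F t : ℤ) := by exact_mod_cast ha
  obtain ⟨h1, h2, h3, h4⟩ := squeeze_abstract (placesOver K F t c) hfin
    (fun v => v.ord (t - algebraMap K F c)) (cdeg K F t : ℤ) hsum (fun v hv => hv) w a hsurj
    (fun i => (hw i).1) (fun i => (hw i).2) ha'
  exact ⟨h1, h2, h3, by exact_mod_cast h4⟩

/-- Squeeze for the pole places of `t` (input `hfin`, `hsum` from module A3). -/
theorem squeeze_polePlaces (t : F)
    (hfin : (polePlaces K F t).Finite)
    (hsum : ∑ v ∈ hfin.toFinset, -v.ord t = (cdeg K F t : ℤ))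
    (w : ι → Place K F) (a : ι → ℕ)
    (hsurj : ∀ v ∈ polePlaces K F t, ∃ i, w i = v)
    (hw : ∀ i, w i ∈ polePlaces K F t ∧ -(w i).ord t ≤ a i)
    (ha : ∑ i, a i ≤ cdeg K F t) :
    Function.Injective w ∧ (∀ i, -(w i).ord t = a i) ∧
      (polePlaces K F t).ncard = Fintype.card ι ∧ ∑ i, a i = cdeg K F t := by
  have ha' : ∑ i, (a i : ℤ) ≤ (cdeg K F t : ℤ) := by exact_mod_cast ha
  obtain ⟨h1, h2, h3, h4⟩ := squeeze_abstract (polePlaces K F t) hfin
    (fun v => -v.ord t) (cdeg K F t : ℤ) hsum
    (fun v hv => by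
      have : v.ord t < 0 := hv
      show 0 < -v.ord t
      linarith) w a hsurj
    (fun i => (hw i).1) (fun i => (hw i).2) ha'
  exact ⟨h1, h2, h3, by exact_mod_cast h4⟩

end Places

end Fermat.Agent.S24x
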