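/-
S24 module C6 (helper78): counting the pole places of a coordinate via cusp data.

Abstract glue: a family of places `vC q` indexed by a finite `G`-set `X` (here `X = Q N`,
`G = ⟨T⟩`), constant on orbits, covering the pole places of `t`, with pole order bounded by the
orbit size, together with `card X ≤ [F : K(t)]`, forces
`#(pole places) = #(orbits)` (squeeze, module A4).
-/
import Mathlib
import Fermat.Agent.S24x.Squeeze
import Fermat.Agent.S24x.CombBasic

set_option autoImplicit false

namespace Fermat.Agent.S24x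

open AlgebraicCurve

section Abstract

variable {K F : Type*} [Field K] [Field F] [Algebra K F]
variable {G X : Type*} [Group G] [MulAction G X] [Finite X]

/-- The sizes of the orbits add up to the size of the set. -/
theorem cc_sum_card_orbits (G X : Type*) [Group G] [MulAction G X] [Finite X]
    [Fintype (MulAction.orbitRel.Quotient G X)] :
    ∑ ω : MulAction.orbitRel.Quotient G X, Nat.card (MulAction.orbit G ω.out) = Nat.card X := by
  classical
  haveI : Fintype X := Fintype.ofFinite X
  have e := MulAction.selfEquivSigmaOrbits G X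
  rw [Nat.card_congr e, Nat.card_sigma]

/-- A function constant along a generating... along the action is constant on orbits. -/
theorem cc_const_on_orbit {Y : Type*} (f : X → Y) (hf : ∀ (g : G) (x : X), f (g • x) = f x)
    (ω : MulAction.orbitRel.Quotient G X) (x : X) (hx : Quotient.mk'' x = ω) :
    f ω.out = f x := by
  have h1 : (Quotient.mk'' ω.out : MulAction.orbitRel.Quotient G X) = Quotient.mk'' x := by
    rw [hx]; exact Quotient.out_eq' ω
  have h2 : ω.out ∈ MulAction.orbit G x := by
    have := Quotient.exact' h1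
    exact this
  obtain ⟨g, hg⟩ := h2
  rw [← hg]
  exact hf g x

/-- **Abstract cusp count**: squeeze for the pole places of `t`. -/
theorem cc_ncard_polePlaces (t : F)
    (hfin : (polePlaces K F t).Finite)
    (hsum : ∑ v ∈ hfin.toFinset, -v.ord t = (cdeg K F t : ℤ))
    (vC : X → Place K F)
    (hinv : ∀ (g : G) (x : X), vC (g • x) = vC x)
    (hcov : ∀ v ∈ polePlaces K F t, ∃ x, vC x = v)
    (hmem : ∀ x, vC x ∈ polePlaces K F t)
    (hbound : ∀ x, -(vC x).ord t ≤ (Nat.card (MulAction.orbit G x) : ℤ))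
    (hdeg : Nat.card X ≤ cdeg K F t) :
    (polePlaces K F t).ncard = Nat.card (MulAction.orbitRel.Quotient G X) ∧
      Nat.card X = cdeg K F t := by
  classical
  haveI : Fintype (MulAction.orbitRel.Quotient G X) := Fintype.ofFinite _
  obtain ⟨-, -, h3, h4⟩ := squeeze_polePlaces (ι := MulAction.orbitRel.Quotient G X) t hfin hsum
    (fun ω => vC ω.out) (fun ω => Nat.card (MulAction.orbit G ω.out))
    (fun v hv => by
      obtain ⟨x, hx⟩ := hcov v hv
      exact ⟨Quotient.mk'' x, by rw [cc_const_on_orbit vC hinv _ x rfl, hx]⟩)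
    (fun ω => ⟨hmem _, hbound _⟩)
    (by rw [cc_sum_card_orbits G X]; exact hdeg)
  refine ⟨?_, ?_⟩
  · rw [h3, Nat.card_eq_fintype_card]
  · rw [← h4, cc_sum_card_orbits G X]

/-- **Abstract fibre count**: squeeze for the places over `t = c` (same glue, for module C5). -/
theorem cc_ncard_placesOver (t : F) (c : K)
    (hfin : (placesOver K F t c).Finite)
    (hsum : ∑ v ∈ hfin.toFinset, v.ord (t - algebraMap K F c) = (cdeg K F t : ℤ))
    (vP : X → Place K F)
    (hinv : ∀ (g : G) (x : X), vP (g • x) = vP x)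
    (hcov : ∀ v ∈ placesOver K F t c, ∃ x, vP x = v)
    (hmem : ∀ x, vP x ∈ placesOver K F t c)
    (hbound : ∀ x, (vP x).ord (t - algebraMap K F c) ≤ (Nat.card (MulAction.orbit G x) : ℤ))
    (hdeg : Nat.card X ≤ cdeg K F t) :
    (placesOver K F t c).ncard = Nat.card (MulAction.orbitRel.Quotient G X) ∧
      Nat.card X = cdeg K F t := by
  classical
  haveI : Fintype (MulAction.orbitRel.Quotient G X) := Fintype.ofFinite _
  obtain ⟨-, -, h3, h4⟩ := squeeze_placesOver (ι := MulAction.orbitRel.Quotient G X) t c hfin hsum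
    (fun ω => vP ω.out) (fun ω => Nat.card (MulAction.orbit G ω.out))
    (fun v hv => by
      obtain ⟨x, hx⟩ := hcov v hv
      exact ⟨Quotient.mk'' x, by rw [cc_const_on_orbit vP hinv _ x rfl, hx]⟩)
    (fun ω => ⟨hmem _, hbound _⟩)
    (by rw [cc_sum_card_orbits G X]; exact hdeg)
  refine ⟨?_, ?_⟩
  · rw [h3, Nat.card_eq_fintype_card]
  · rw [← h4, cc_sum_card_orbits G X]

end Abstract

section Cusps

open CongruenceSubgroup ModularGroup Matrix.SpecialLinearGroup
open scoped MatrixGroups

variable {K F : Type*} [Field K] [Field F] [Algebra K F]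

/-- In a cyclic group action with finite orbits, `g ^ (size of the orbit of x)` fixes `x`. -/
theorem cc_pow_card_orbit_smul {Γ X : Type*} [Group Γ] [MulAction Γ X] (g : Γ) (x : X) :
    g ^ Nat.card (MulAction.orbit (Subgroup.zpowers g) x) • x = x := by
  set Z := Subgroup.zpowers g
  let gz : Z := ⟨g, Subgroup.mem_zpowers g⟩
  have hidx : (MulAction.stabilizer Z x).index = Nat.card (MulAction.orbit Z x) := by
    rw [MulAction.index_stabilizer, Nat.card_coe_set_eq]
  haveI : (MulAction.stabilizer Z x).Normal := inferInstance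
  have hmem : gz ^ (MulAction.stabilizer Z x).index ∈ MulAction.stabilizer Z x :=
    Subgroup.pow_index_mem _ gz
  rw [hidx, MulAction.mem_stabilizer_iff] at hmem
  exact hmem

variable (N : ℕ) [NeZero N]

/-- **C6, hypothesis form.**  `vCusp g` is a family of places indexed by `SL(2,ℤ)`, left
`Γ₀(N)`-invariant and right `T`-invariant, covering the pole places of `t`, with pole order
bounded by the width.  If moreover `#(SL(2,ℤ)/Γ₀(N)) ≤ [F : K(t)]` then the pole places are in
bijection with the `⟨T⟩`-orbits on `SL(2,ℤ)/Γ₀(N)` and `#(SL(2,ℤ)/Γ₀(N)) = [F : K(t)]`. -/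
theorem cc_ncard_polePlaces_of_vCusp (t : F)
    (hpole : ∃ hfin : (polePlaces K F t).Finite,
      ∑ v ∈ hfin.toFinset, -v.ord t = (cdeg K F t : ℤ))
    (vCusp : SL(2, ℤ) → Place K F)
    (hleft : ∀ γ : SL(2, ℤ), γ ∈ Gamma0 N → ∀ g, vCusp (γ * g) = vCusp g)
    (hT : ∀ g, vCusp (g * T) = vCusp g)
    (hord : ∀ (g : SL(2, ℤ)) (w : ℕ), 0 < w → g * T ^ w * g⁻¹ ∈ Gamma0 N →
      -((vCusp g).ord t) ≤ w)
    (hmem : ∀ g, vCusp g ∈ polePlaces K F t)
    (hcov : ∀ v ∈ polePlaces K F t, ∃ g, v = vCusp g)
    (hdeg : Nat.card (Q N) ≤ cdeg K F t) :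
    (polePlaces K F t).ncard =
        Nat.card (MulAction.orbitRel.Quotient (Subgroup.zpowers (T : SL(2, ℤ))) (Q N)) ∧
      Nat.card (Q N) = cdeg K F t := by
  classical
  obtain ⟨hfin, hsum⟩ := hpole
  haveI : Finite (Q N) := by
    have : (Gamma0 N).FiniteIndex := inferInstance
    exact Subgroup.finite_quotient_of_finiteIndex
  -- right invariance under all powers of `T`
  have hTz : ∀ (k : ℤ) (g : SL(2, ℤ)), vCusp (g * T ^ k) = vCusp g := by
    intro k
    induction k using Int.induction_on with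
    | zero => intro g; simp
    | succ n ih =>
      intro g
      rw [zpow_add_one, ← mul_assoc, hT, ih]
    | pred n ih =>
      intro g
      have h1 := hT (g * T ^ (-(n : ℤ) - 1))
      rw [mul_assoc, ← zpow_add_one, sub_add_cancel] at h1
      rw [← h1, ih]
  -- the family on cosets
  let vC : Q N → Place K F := fun q => Quotient.liftOn' q (fun g => vCusp g⁻¹) (by
    intro a b hab
    have hab' : a⁻¹ * b ∈ Gamma0 N := QuotientGroup.leftRel_apply.mp hab
    have e : b⁻¹ = (a⁻¹ * b)⁻¹ * a⁻¹ := by group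
    show vCusp a⁻¹ = vCusp b⁻¹
    rw [e, hleft _ ((Gamma0 N).inv_mem hab')])
  have hvC : ∀ g : SL(2, ℤ), vC ((g : SL(2, ℤ)) : Q N) = vCusp g⁻¹ := fun g => rfl
  refine cc_ncard_polePlaces (G := Subgroup.zpowers (T : SL(2, ℤ))) (X := Q N) t hfin hsum vC
    ?_ ?_ ?_ ?_ hdeg
  · -- invariance
    rintro ⟨z, hz⟩ q
    obtain ⟨k, rfl⟩ := Subgroup.mem_zpowers_iff.mp hz
    induction q using QuotientGroup.induction_on with
    | H g =>
      show vC ((T ^ k : SL(2, ℤ)) • ((g : SL(2, ℤ)) : Q N)) = _
      rw [smul_coset, hvC, hvC, mul_inv_rev, ← zpow_neg, hTz]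
  · -- covering
    intro v hv
    obtain ⟨g, rfl⟩ := hcov v hv
    exact ⟨((g⁻¹ : SL(2, ℤ)) : Q N), by rw [hvC, inv_inv]⟩
  · -- membership
    intro q
    induction q using QuotientGroup.induction_on with
    | H g => rw [hvC]; exact hmem _
  · -- the bound
    intro q
    induction q using QuotientGroup.induction_on with
    | H g =>
      rw [hvC]
      set w := Nat.card (MulAction.orbit (Subgroup.zpowers (T : SL(2, ℤ))) ((g : SL(2, ℤ)) : Q N))
        with hw
      have hwpos : 0 < w := by
        haveI : Finite (MulAction.orbit (Subgroup.zpowers (T : SL(2, ℤ)))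
            ((g : SL(2, ℤ)) : Q N)) := Set.toFinite _ |>.to_subtype
        haveI : Nonempty (MulAction.orbit (Subgroup.zpowers (T : SL(2, ℤ)))
            ((g : SL(2, ℤ)) : Q N)) := ⟨⟨_, MulAction.mem_orbit_self _⟩⟩
        exact Nat.card_pos
      have hfix0 := cc_pow_card_orbit_smul (T : SL(2, ℤ)) (((g : SL(2, ℤ)) : Q N))
      have hfix : (T ^ w : SL(2, ℤ)) • (((g : SL(2, ℤ)) : Q N)) = ((g : SL(2, ℤ)) : Q N) := hfix0
      rw [smul_coset] at hfix
      have hmemΓ : (T ^ w * g)⁻¹ * g ∈ Gamma0 N := QuotientGroup.eq.mp hfix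
      have hmemΓ' : g⁻¹ * T ^ w * (g⁻¹)⁻¹ ∈ Gamma0 N := by
        have := (Gamma0 N).inv_mem hmemΓ
        have e : ((T ^ w * g)⁻¹ * g)⁻¹ = g⁻¹ * T ^ w * (g⁻¹)⁻¹ := by group
        rwa [e] at this
      exact_mod_cast hord g⁻¹ w hwpos hmemΓ'

end Cusps

end Fermat.Agent.S24x
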