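/-
S24 modules C5/C6 (helper78): generic wiring of the orbit squeeze for families of places indexed
by `SL(2,ℤ)`.

* `fc_ncard_placesOver_of_family`: a family `pt : SL(2,ℤ) → Place K F`, left `Γ₀(N)`-invariant and
  right `s`-invariant, covering the places over `t = c`, with `ord (t - c) ≤ w` whenever
  `g s^w g⁻¹ ∈ Γ₀(N)`, plus `#(SL(2,ℤ)/Γ₀(N)) ≤ [F : K(t)]`, forces
  `#(places over c) = #(⟨s⟩-orbits on SL(2,ℤ)/Γ₀(N))` and `#(SL(2,ℤ)/Γ₀(N)) = [F : K(t)]`.
* `fc_ord_le_of_ram`: the order bound from ramification data (`e · ord = p`, and `p ∣ e` at the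
  points whose stabiliser lies in `Γ₀(N)`), `p` prime.
* `fc_ord_le_of_unram`: the same for `p = 1`.
-/
import Mathlib
import Fermat.Agent.S24x.CuspCounts

set_option autoImplicit false

namespace Fermat.Agent.S24x

open AlgebraicCurve

open CongruenceSubgroup ModularGroup Matrix.SpecialLinearGroup
open scoped MatrixGroups

section Family

variable {K F : Type*} [Field K] [Field F] [Algebra K F]
variable (N : ℕ) [NeZero N]

/-- right invariance under `s` gives right invariance under all integer powers of `s` -/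
theorem fc_zpow_invariant {Y : Type*} (pt : SL(2, ℤ) → Y) (s : SL(2, ℤ))
    (hs : ∀ g, pt (g * s) = pt g) (k : ℤ) (g : SL(2, ℤ)) : pt (g * s ^ k) = pt g := by
  induction k using Int.induction_on generalizing g with
  | zero => simp
  | succ n ih => rw [zpow_add_one, ← mul_assoc, hs, ih]
  | pred n ih =>
    have h1 := hs (g * s ^ (-(n : ℤ) - 1))
    rw [mul_assoc, ← zpow_add_one, sub_add_cancel] at h1
    rw [← h1, ih]

/-- **Generic fibre count.**  See the file header. -/
theorem fc_ncard_placesOver_of_family (t : F) (c : K) (s : SL(2, ℤ))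
    (hsum : ∃ hfin : (placesOver K F t c).Finite,
      ∑ v ∈ hfin.toFinset, v.ord (t - algebraMap K F c) = (cdeg K F t : ℤ))
    (pt : SL(2, ℤ) → Place K F)
    (hleft : ∀ γ : SL(2, ℤ), γ ∈ Gamma0 N → ∀ g, pt (γ * g) = pt g)
    (hs : ∀ g, pt (g * s) = pt g)
    (hord : ∀ (g : SL(2, ℤ)) (w : ℕ), 0 < w → g * s ^ w * g⁻¹ ∈ Gamma0 N →
      (pt g).ord (t - algebraMap K F c) ≤ w)
    (hmem : ∀ g, pt g ∈ placesOver K F t c)
    (hcov : ∀ v ∈ placesOver K F t c, ∃ g, v = pt g)
    (hdeg : Nat.card (Q N) ≤ cdeg K F t) :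
    (placesOver K F t c).ncard =
        Nat.card (MulAction.orbitRel.Quotient (Subgroup.zpowers s) (Q N)) ∧
      Nat.card (Q N) = cdeg K F t := by
  classical
  obtain ⟨hfin, hsum⟩ := hsum
  haveI : Finite (Q N) := by
    have : (Gamma0 N).FiniteIndex := inferInstance
    exact Subgroup.finite_quotient_of_finiteIndex
  have hsz : ∀ (k : ℤ) (g : SL(2, ℤ)), pt (g * s ^ k) = pt g := fc_zpow_invariant pt s hs
  -- the family on cosets
  let vP : Q N → Place K F := fun q => Quotient.liftOn' q (fun g => pt g⁻¹) (by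
    intro a b hab
    have hab' : a⁻¹ * b ∈ Gamma0 N := QuotientGroup.leftRel_apply.mp hab
    have e : b⁻¹ = (a⁻¹ * b)⁻¹ * a⁻¹ := by group
    show pt a⁻¹ = pt b⁻¹
    rw [e, hleft _ ((Gamma0 N).inv_mem hab')])
  have hvP : ∀ g : SL(2, ℤ), vP ((g : SL(2, ℤ)) : Q N) = pt g⁻¹ := fun g => rfl
  refine cc_ncard_placesOver (G := Subgroup.zpowers s) (X := Q N) t c hfin hsum vP
    ?_ ?_ ?_ ?_ hdeg
  · -- invariance
    rintro ⟨z, hz⟩ q
    obtain ⟨k, rfl⟩ := Subgroup.mem_zpowers_iff.mp hz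
    induction q using QuotientGroup.induction_on with
    | H g =>
      show vP ((s ^ k : SL(2, ℤ)) • ((g : SL(2, ℤ)) : Q N)) = _
      rw [smul_coset, hvP, hvP, mul_inv_rev, ← zpow_neg, hsz]
  · -- covering
    intro v hv
    obtain ⟨g, rfl⟩ := hcov v hv
    exact ⟨((g⁻¹ : SL(2, ℤ)) : Q N), by rw [hvP, inv_inv]⟩
  · -- membership
    intro q
    induction q using QuotientGroup.induction_on with
    | H g => rw [hvP]; exact hmem _
  · -- the bound
    intro q
    induction q using QuotientGroup.induction_on with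
    | H g =>
      rw [hvP]
      set w := Nat.card (MulAction.orbit (Subgroup.zpowers s) ((g : SL(2, ℤ)) : Q N))
        with hw
      have hwpos : 0 < w := by
        haveI : Finite (MulAction.orbit (Subgroup.zpowers s)
            ((g : SL(2, ℤ)) : Q N)) := Set.toFinite _ |>.to_subtype
        haveI : Nonempty (MulAction.orbit (Subgroup.zpowers s)
            ((g : SL(2, ℤ)) : Q N)) := ⟨⟨_, MulAction.mem_orbit_self _⟩⟩
        exact Nat.card_pos
      have hfix0 := cc_pow_card_orbit_smul s (((g : SL(2, ℤ)) : Q N))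
      have hfix : (s ^ w : SL(2, ℤ)) • (((g : SL(2, ℤ)) : Q N)) = ((g : SL(2, ℤ)) : Q N) := hfix0
      rw [smul_coset] at hfix
      have hmemΓ : (s ^ w * g)⁻¹ * g ∈ Gamma0 N := QuotientGroup.eq.mp hfix
      have hmemΓ' : g⁻¹ * s ^ w * (g⁻¹)⁻¹ ∈ Gamma0 N := by
        have := (Gamma0 N).inv_mem hmemΓ
        have e : ((s ^ w * g)⁻¹ * g)⁻¹ = g⁻¹ * s ^ w * (g⁻¹)⁻¹ := by group
        rwa [e] at this
      exact_mod_cast hord g⁻¹ w hwpos hmemΓ'

/-- The orbits of the trivial cyclic group are the points. -/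
theorem fc_card_orbits_one (G X : Type*) [Group G] [MulAction G X] :
    Nat.card (MulAction.orbitRel.Quotient (Subgroup.zpowers (1 : G)) X) = Nat.card X := by
  refine Nat.card_congr (Equiv.ofBijective
    (fun ω : MulAction.orbitRel.Quotient (Subgroup.zpowers (1 : G)) X => ω.out) ⟨?_, ?_⟩).symm.symm
  · intro a b hab
    have : (Quotient.mk'' a.out : MulAction.orbitRel.Quotient (Subgroup.zpowers (1 : G)) X)
        = Quotient.mk'' b.out := by
      show (Quotient.mk'' a.out : MulAction.orbitRel.Quotient _ X) = _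
      simp only at hab
      rw [hab]
    rwa [Quotient.out_eq', Quotient.out_eq'] at this
  · intro x
    refine ⟨Quotient.mk'' x, ?_⟩
    have h1 : (Quotient.mk'' x : MulAction.orbitRel.Quotient (Subgroup.zpowers (1 : G)) X).out
        ∈ MulAction.orbit (Subgroup.zpowers (1 : G)) x := by
      have := Quotient.exact' (Quotient.out_eq'
        (Quotient.mk'' x : MulAction.orbitRel.Quotient (Subgroup.zpowers (1 : G)) X))
      exact this
    obtain ⟨⟨z, hz⟩, hzx⟩ := h1
    rw [Subgroup.zpowers_one_eq_bot, Subgroup.mem_bot] at hz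
    subst hz
    simpa using hzx.symm

end Family

section Ram

variable {K F : Type*} [Field K] [Field F] [Algebra K F]

/-- Every place has an element of order `1`. -/
theorem fc_exists_ord_eq_one (v : Place K F) : ∃ f : F, v.ord f = 1 := by
  obtain ⟨π, hπ⟩ := IsDiscreteValuationRing.exists_irreducible v.toValuationSubring
  exact ⟨(π : F), v.ord_coe_irreducible hπ⟩

/-- In a group, if `x ^ w` and `x ^ p` lie in a subgroup with `w`, `p` coprime, so does `x`. -/
theorem fc_mem_of_pow_mem_of_coprime {G : Type*} [Group G] (H : Subgroup G) (x : G) {w p : ℕ}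
    (hwp : Nat.Coprime w p) (hw : x ^ w ∈ H) (hp : x ^ p ∈ H) : x ∈ H := by
  have h1 : x ^ ((w : ℤ) * Nat.gcdA w p + (p : ℤ) * Nat.gcdB w p) ∈ H := by
    rw [zpow_add, zpow_mul, zpow_mul, zpow_natCast, zpow_natCast]
    exact H.mul_mem (H.zpow_mem hw _) (H.zpow_mem hp _)
  rw [← Nat.gcd_eq_gcd_ab, hwp.gcd_eq_one] at h1
  simpa using h1

variable (N : ℕ)

/-- **Order bound, ramified case.**  `oF g` is an order function on `F` attached to `g` (the
analytic order at `g • τ₀`), `e_g`-times the order of the place `pt g`; `t - c` has `oF`-order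
`p` (prime) everywhere; where the stabiliser generator `g s g⁻¹` lies in `Γ₀(N)` all `oF g`-orders
are divisible by `p`; and `g s^p g⁻¹ ∈ Γ₀(N)` always.  Then `ord_{pt g} (t - c) ≤ w` as soon as
`g s^w g⁻¹ ∈ Γ₀(N)`, `w > 0`. -/
theorem fc_ord_le_of_ram (p : ℕ) (hp : p.Prime) (x : F) (s : SL(2, ℤ))
    (pt : SL(2, ℤ) → Place K F) (oF : SL(2, ℤ) → F → ℤ)
    (hmul : ∀ g, ∃ e : ℕ, 0 < e ∧ ∀ f : F, oF g f = e * (pt g).ord f)
    (hD : ∀ g, oF g x = p)
    (hdiv : ∀ g, g * s * g⁻¹ ∈ Gamma0 N → ∀ f : F, (p : ℤ) ∣ oF g f)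
    (hsp : ∀ g, g * s ^ p * g⁻¹ ∈ Gamma0 N)
    (g : SL(2, ℤ)) (w : ℕ) (hw : 0 < w) (hgw : g * s ^ w * g⁻¹ ∈ Gamma0 N) :
    (pt g).ord x ≤ w := by
  obtain ⟨e, he, hef⟩ := hmul g
  have h1 : (e : ℤ) * (pt g).ord x = p := by rw [← hef, hD]
  have hp0 : (0 : ℤ) < p := by exact_mod_cast hp.pos
  have he0 : (0 : ℤ) < e := by exact_mod_cast he
  have hn0 : 0 < (pt g).ord x := by
    by_contra hcon
    push_neg at hcon
    have : (e : ℤ) * (pt g).ord x ≤ 0 := mul_nonpos_of_nonneg_of_nonpos he0.le hcon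
    omega
  by_cases hwp : p ≤ w
  · -- `ord ≤ e * ord = p ≤ w`
    have : (pt g).ord x ≤ (e : ℤ) * (pt g).ord x := by nlinarith
    have hwp' : (p : ℤ) ≤ w := by exact_mod_cast hwp
    omega
  · push_neg at hwp
    -- `w < p`: then `g s g⁻¹ ∈ Γ₀(N)`, so `p ∣ e`, so `ord = 1`
    have hcop : Nat.Coprime w p :=
      (Nat.coprime_comm.mp ((Nat.Prime.coprime_iff_not_dvd hp).mpr
        (Nat.not_dvd_of_pos_of_lt hw hwp)))
    have hconj : ∀ k : ℕ, (g * s * g⁻¹) ^ k = g * s ^ k * g⁻¹ := by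
      intro k
      induction k with
      | zero => simp
      | succ k ih => rw [pow_succ, ih, pow_succ]; group
    have hmem : g * s * g⁻¹ ∈ Gamma0 N :=
      fc_mem_of_pow_mem_of_coprime (Gamma0 N) (g * s * g⁻¹) hcop
        (by rw [hconj]; exact hgw) (by rw [hconj]; exact hsp g)
    obtain ⟨π, hπ⟩ := fc_exists_ord_eq_one (pt g)
    have h2 := hdiv g hmem π
    rw [hef, hπ, mul_one] at h2
    obtain ⟨k, hk⟩ := h2
    rw [hk, mul_assoc] at h1
    have h3 : k * (pt g).ord x = 1 := by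
      have := mul_left_cancel₀ hp0.ne' (h1.trans (mul_one (p : ℤ)).symm)
      exact this
    have hk0 : 0 < k := by
      by_contra hcon
      push_neg at hcon
      have : (e : ℤ) ≤ 0 := by rw [hk]; exact mul_nonpos_of_nonneg_of_nonpos hp0.le hcon
      omega
    have h4 : (pt g).ord x = 1 := by
      have h5 : (pt g).ord x ≤ k * (pt g).ord x := by nlinarith
      omega
    rw [h4]
    exact_mod_cast hw

/-- **Order bound, unramified case.** -/
theorem fc_ord_le_of_unram (x : F)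
    (pt : SL(2, ℤ) → Place K F) (oF : SL(2, ℤ) → F → ℤ)
    (hmul : ∀ g, ∃ e : ℕ, 0 < e ∧ ∀ f : F, oF g f = e * (pt g).ord f)
    (hD : ∀ g, oF g x = 1)
    (g : SL(2, ℤ)) (w : ℕ) (hw : 0 < w) :
    (pt g).ord x ≤ w := by
  obtain ⟨e, he, hef⟩ := hmul g
  have h1 : (e : ℤ) * (pt g).ord x = 1 := by rw [← hef, hD]
  have he0 : (0 : ℤ) < e := by exact_mod_cast he
  have hn0 : 0 < (pt g).ord x := by
    by_contra hcon
    push_neg at hcon
    have : (e : ℤ) * (pt g).ord x ≤ 0 := mul_nonpos_of_nonneg_of_nonpos he0.le hcon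
    omega
  have h2 : (pt g).ord x ≤ (e : ℤ) * (pt g).ord x := by nlinarith
  have hw' : (1 : ℤ) ≤ w := by exact_mod_cast hw
  omega

end Ram

end Fermat.Agent.S24x
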