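import Mathlib
import Fermat.Agent.S24x.CombBasic

/-!
# S24 project, module D3: orbits of the cyclic groups `⟨S⟩`, `⟨S * T⟩` on `SL(2,ℤ) ⧸ Γ₀(N)`

General part: a group element `g` acting on a finite set `X` such that `g ^ m` acts trivially
(`m` prime).  The orbits of `⟨g⟩` have size `1` (fixed points of `g`) or `m`, hence
`m * #orbits = #X + (m - 1) * #Fix(g)`.

Special part: `S ^ 2` and `(S * T) ^ 3` are `-1 ∈ Γ₀(N)`, so they act trivially on
`Q N = SL(2,ℤ) ⧸ Γ₀(N)`.
-/

set_option autoImplicit false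

open MulAction

namespace Fermat.Agent.S24x

section General

variable {G X : Type*} [Group G] [MulAction G X]

/-- If `g ^ m` fixes `x` (`m > 0`) then every `g ^ z • x` is `g ^ k • x` for some `k < m`. -/
theorem os_exists_lt_zpow_smul_eq {g : G} {m : ℕ} (hm : 0 < m) {x : X} (hg : g ^ m • x = x)
    (z : ℤ) : ∃ k < m, g ^ z • x = g ^ k • x := by
  have hmem : g ^ m ∈ stabilizer G x := hg
  refine ⟨(z % (m : ℤ)).toNat, ?_, ?_⟩
  · have h1 : z % (m : ℤ) < m := Int.emod_lt_of_pos z (by exact_mod_cast hm)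
    have h0 : 0 ≤ z % (m : ℤ) := Int.emod_nonneg z (by exact_mod_cast hm.ne')
    omega
  · have h0 : 0 ≤ z % (m : ℤ) := Int.emod_nonneg z (by exact_mod_cast hm.ne')
    have e : z = (z % (m : ℤ)).toNat + (m : ℤ) * (z / (m : ℤ)) := by
      rw [Int.toNat_of_nonneg h0]
      exact (Int.emod_add_mul_ediv z m).symm
    have h2 : (g ^ m) ^ (z / (m : ℤ)) ∈ stabilizer G x := Subgroup.zpow_mem _ hmem _
    conv_lhs => rw [e, zpow_add, zpow_natCast, zpow_mul, zpow_natCast, mul_smul]
    rw [mem_stabilizer_iff.mp h2]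

/-- A fixed point of `g` is fixed by the whole cyclic group. -/
theorem os_orbit_eq_singleton {g : G} {x : X} (hx : g • x = x) :
    orbit (Subgroup.zpowers g) x = {x} := by
  ext y
  simp only [Set.mem_singleton_iff]
  constructor
  · rintro ⟨⟨h, hh⟩, rfl⟩
    obtain ⟨z, rfl⟩ := Subgroup.mem_zpowers_iff.mp hh
    have : g ^ z ∈ stabilizer G x := Subgroup.zpow_mem _ (mem_stabilizer_iff.mpr hx) _
    exact mem_stabilizer_iff.mp this
  · rintro rfl
    exact mem_orbit_self _

/-- The orbit of `x` under `⟨g⟩` is `{g ^ k • x | k < m}`. -/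
theorem os_orbit_eq_image {g : G} {m : ℕ} (hm : 0 < m) {x : X} (hg : g ^ m • x = x) :
    orbit (Subgroup.zpowers g) x = (fun k : ℕ => g ^ k • x) '' (Finset.range m : Set ℕ) := by
  ext y
  constructor
  · rintro ⟨⟨h, hh⟩, rfl⟩
    obtain ⟨z, rfl⟩ := Subgroup.mem_zpowers_iff.mp hh
    obtain ⟨k, hk, e⟩ := os_exists_lt_zpow_smul_eq hm hg z
    exact ⟨k, by simpa using hk, e.symm⟩
  · rintro ⟨k, -, rfl⟩
    exact ⟨⟨g ^ k, Subgroup.npow_mem_zpowers g k⟩, rfl⟩

/-- If `g ^ m` fixes `x` (`m` prime) but `g` does not, the points `g ^ k • x`, `k < m`, are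
pairwise distinct. -/
theorem os_injOn_of_not_fixed {g : G} {m : ℕ} (hm : m.Prime) {x : X} (hg : g ^ m • x = x)
    (hx : g • x ≠ x) : Set.InjOn (fun k : ℕ => g ^ k • x) (Finset.range m : Set ℕ) := by
  have key : ∀ i j : ℕ, i ≤ j → j < m → g ^ i • x = g ^ j • x → i = j := by
    intro i j hij hj h
    by_contra hne
    have hd : 0 < j - i := by omega
    have hdm : j - i < m := by omega
    have h1 : g ^ (j - i) • x = x := by
      have e : g ^ j = g ^ i * g ^ (j - i) := by rw [← pow_add]; congr 1; omega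
      rw [e, mul_smul] at h
      exact (smul_left_cancel _ h).symm
    have hcop : Nat.Coprime m (j - i) :=
      (Nat.Prime.coprime_iff_not_dvd hm).mpr (Nat.not_dvd_of_pos_of_lt hd hdm)
    obtain ⟨a, b, hab⟩ := Nat.isCoprime_iff_coprime.mpr hcop
    have hs1 : g ^ m ∈ stabilizer G x := hg
    have hs2 : g ^ (j - i) ∈ stabilizer G x := h1
    have hs : g ∈ stabilizer G x := by
      have e : g = (g ^ m) ^ a * (g ^ (j - i)) ^ b := by
        rw [← zpow_natCast g m, ← zpow_natCast g (j - i), ← zpow_mul', ← zpow_mul', ← zpow_add, hab,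
          zpow_one]
      rw [e]
      exact Subgroup.mul_mem _ (Subgroup.zpow_mem _ hs1 _) (Subgroup.zpow_mem _ hs2 _)
    exact hx (mem_stabilizer_iff.mp hs)
  intro i hi j hj h
  simp only [Finset.coe_range, Set.mem_Iio] at hi hj
  rcases le_total i j with hij | hij
  · exact key i j hij hj h
  · exact (key j i hij hi h.symm).symm

theorem os_ncard_orbit_of_not_fixed {g : G} {m : ℕ} (hm : m.Prime) {x : X}
    (hg : g ^ m • x = x) (hx : g • x ≠ x) : (orbit (Subgroup.zpowers g) x).ncard = m := by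
  rw [os_orbit_eq_image hm.pos hg, (os_injOn_of_not_fixed hm hg hx).ncard_image,
    Set.ncard_coe_finset, Finset.card_range]

theorem os_ncard_orbit_of_fixed {g : G} {x : X} (hx : g • x = x) :
    (orbit (Subgroup.zpowers g) x).ncard = 1 := by
  rw [os_orbit_eq_singleton hx, Set.ncard_singleton]

/-- **Orbit counting** for a cyclic group acting through a quotient of prime order `m`:
`m * #orbits = #X + (m - 1) * #Fix(g)`. -/
theorem os_card_orbits [Finite X] (g : G) {m : ℕ} (hm : m.Prime) (hg : ∀ x : X, g ^ m • x = x) :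
    m * Nat.card (orbitRel.Quotient (Subgroup.zpowers g) X) =
      Nat.card X + (m - 1) * Nat.card (fixedBy X g) := by
  classical
  have : Fintype X := Fintype.ofFinite X
  have : Fintype (orbitRel.Quotient (Subgroup.zpowers g) X) := Fintype.ofFinite _
  set π : X → orbitRel.Quotient (Subgroup.zpowers g) X := Quotient.mk'' with hπ
  have hπeq : ∀ x y : X, π x = π y ↔ x ∈ orbit (Subgroup.zpowers g) y := by
    intro x y
    rw [hπ]
    exact Quotient.eq''
  -- the finset of fixed points and its image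
  set Fix : Finset X := Finset.univ.filter (fun x => g • x = x) with hFix
  set FI : Finset (orbitRel.Quotient (Subgroup.zpowers g) X) := Fix.image π with hFI
  have hinj : Set.InjOn π (Fix : Set X) := by
    intro x hx y hy h
    have hx' : g • x = x := by simpa [hFix] using hx
    have hy' : g • y = y := by simpa [hFix] using hy
    have := (hπeq x y).mp h
    rw [os_orbit_eq_singleton hy'] at this
    exact this
  have hcardFI : FI.card = Fix.card := Finset.card_image_of_injOn hinj
  -- fibre cardinalities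
  have hfib : ∀ ω : orbitRel.Quotient (Subgroup.zpowers g) X,
      (Finset.univ.filter (fun x => π x = ω)).card = if ω ∈ FI then 1 else m := by
    intro ω
    obtain ⟨x₀, rfl⟩ : ∃ x₀, π x₀ = ω := Quotient.exists_rep ω
    have hset : ((Finset.univ.filter (fun x => π x = π x₀) : Finset X) : Set X) =
        orbit (Subgroup.zpowers g) x₀ := by
      ext y
      simp [hπeq]
    have hcard : (Finset.univ.filter (fun x => π x = π x₀)).card =
        (orbit (Subgroup.zpowers g) x₀).ncard := by
      rw [← hset, Set.ncard_coe_finset]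
    rw [hcard]
    by_cases hx₀ : g • x₀ = x₀
    · have : π x₀ ∈ FI := Finset.mem_image.mpr ⟨x₀, by simp [hFix, hx₀], rfl⟩
      rw [if_pos this, os_ncard_orbit_of_fixed hx₀]
    · have : π x₀ ∉ FI := by
        intro h
        obtain ⟨y, hy, hyx⟩ := Finset.mem_image.mp h
        have hy' : g • y = y := by simpa [hFix] using hy
        have h1 := (hπeq x₀ y).mp hyx.symm
        rw [os_orbit_eq_singleton hy'] at h1
        rw [Set.mem_singleton_iff] at h1
        exact hx₀ (h1 ▸ hy')
      rw [if_neg this, os_ncard_orbit_of_not_fixed hm (hg x₀) hx₀]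
  -- count
  have hX : Fintype.card X = ∑ ω : orbitRel.Quotient (Subgroup.zpowers g) X,
      (Finset.univ.filter (fun x => π x = ω)).card := by
    rw [← Finset.card_univ]
    exact Finset.card_eq_sum_card_fiberwise (fun x _ => Finset.mem_univ (π x))
  have hsum : ∑ ω : orbitRel.Quotient (Subgroup.zpowers g) X, (if ω ∈ FI then 1 else m) =
      FI.card + m * (Fintype.card (orbitRel.Quotient (Subgroup.zpowers g) X) - FI.card) := by
    rw [Finset.sum_ite, Finset.sum_const, Finset.sum_const, smul_eq_mul, smul_eq_mul, mul_one]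
    have h1 : Finset.univ.filter (fun ω => ω ∈ FI) = FI := by
      ext ω; simp
    have h2 : (Finset.univ.filter (fun ω => ω ∉ FI)).card =
        Fintype.card (orbitRel.Quotient (Subgroup.zpowers g) X) - FI.card := by
      rw [Finset.filter_not, Finset.card_sdiff_of_subset (Finset.filter_subset _ _), h1,
        Finset.card_univ]
    rw [h1, h2, mul_comm]
  have hle : FI.card ≤ Fintype.card (orbitRel.Quotient (Subgroup.zpowers g) X) :=
    Finset.card_le_univ FI
  have hfixcard : Nat.card (fixedBy X g) = Fix.card := by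
    rw [Nat.card_eq_fintype_card, hFix]
    rw [Fintype.card_subtype]
    rfl
  rw [Nat.card_eq_fintype_card, Nat.card_eq_fintype_card, hfixcard, hX,
    Finset.sum_congr rfl (fun ω _ => hfib ω), hsum, hcardFI]
  rw [hcardFI] at hle
  have hm1 : 1 ≤ m := hm.one_le
  obtain ⟨t, ht⟩ : ∃ t, Fintype.card (orbitRel.Quotient (Subgroup.zpowers g) X) = Fix.card + t :=
    ⟨_, (Nat.add_sub_cancel' hle).symm⟩
  obtain ⟨u, rfl⟩ : ∃ u, m = u + 1 := ⟨m - 1, by omega⟩
  rw [ht]
  simp only [Nat.add_sub_cancel_left, Nat.add_sub_cancel]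
  ring

/-- Orbit sizes, in dichotomy form, for a class of the orbit relation. -/
theorem os_quot_orbit_dichotomy (g : G) {m : ℕ} (hm : m.Prime) (hg : ∀ x : X, g ^ m • x = x)
    (ω : orbitRel.Quotient (Subgroup.zpowers g) X) :
    (ω.orbit.ncard = 1 ∧ ∀ x ∈ ω.orbit, g • x = x) ∨
      (ω.orbit.ncard = m ∧ ∀ x ∈ ω.orbit, g • x ≠ x) := by
  induction ω using Quotient.inductionOn' with
  | h x₀ =>
    rw [orbitRel.Quotient.orbit_mk]
    by_cases hx₀ : g • x₀ = x₀
    · left
      refine ⟨os_ncard_orbit_of_fixed hx₀, fun x hx => ?_⟩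
      rw [os_orbit_eq_singleton hx₀, Set.mem_singleton_iff] at hx
      rw [hx]; exact hx₀
    · right
      refine ⟨os_ncard_orbit_of_not_fixed hm (hg x₀) hx₀, fun x hx hfix => ?_⟩
      have h1 : x₀ ∈ orbit (Subgroup.zpowers g) x := by
        rw [orbit_eq_iff.mpr hx]; exact mem_orbit_self _
      rw [os_orbit_eq_singleton hfix, Set.mem_singleton_iff] at h1
      exact hx₀ (h1 ▸ hfix)

/-- Sum of the orbit sizes. -/
theorem os_sum_ncard_orbit {H : Type*} [Group H] [MulAction H X] [Finite X]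
    [Fintype (orbitRel.Quotient H X)] :
    ∑ ω : orbitRel.Quotient H X, ω.orbit.ncard = Nat.card X := by
  classical
  have : Fintype X := Fintype.ofFinite X
  rw [Nat.card_congr (selfEquivSigmaOrbits' H X), Nat.card_sigma]
  refine Finset.sum_congr rfl fun ω _ => ?_
  rw [Set.ncard_eq_toFinset_card', Nat.card_eq_fintype_card, Set.toFinset_card]

end General

section Special

open ModularGroup CongruenceSubgroup Matrix.SpecialLinearGroup
open scoped MatrixGroups

variable (N : ℕ)

theorem os_neg_one_mem_Gamma0 : (-1 : SL(2, ℤ)) ∈ Gamma0 N := by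
  rw [Gamma0_mem]
  simp

theorem os_neg_one_smul (x : Q N) : (-1 : SL(2, ℤ)) • x = x := by
  induction x using QuotientGroup.induction_on with
  | H g =>
    rw [smul_coset, QuotientGroup.eq]
    have : (-1 * g)⁻¹ * g = (-1 : SL(2, ℤ)) := by
      rw [mul_inv_rev, mul_assoc]
      simp
    rw [this]
    exact os_neg_one_mem_Gamma0 N

theorem os_S_sq : S ^ 2 = (-1 : SL(2, ℤ)) := by
  apply Subtype.ext
  rw [pow_two, Matrix.SpecialLinearGroup.coe_mul, S_mul_S_eq]
  simp

theorem os_ST_cube : (S * T) ^ 3 = (-1 : SL(2, ℤ)) := by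
  apply Subtype.ext
  simp only [pow_succ, pow_zero, one_mul, Matrix.SpecialLinearGroup.coe_mul, coe_S, coe_T,
    Matrix.SpecialLinearGroup.coe_neg, Matrix.SpecialLinearGroup.coe_one]
  ext i j
  fin_cases i <;> fin_cases j <;> simp [Matrix.mul_apply, Fin.sum_univ_two]

theorem os_S_sq_smul (x : Q N) : S ^ 2 • x = x := by
  rw [os_S_sq]; exact os_neg_one_smul N x

theorem os_ST_cube_smul (x : Q N) : (S * T) ^ 3 • x = x := by
  rw [os_ST_cube]; exact os_neg_one_smul N x

/-- `2 * #(⟨S⟩-orbits) = #Q + #Fix(S)`. -/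
theorem os_card_orbits_S [NeZero N] :
    2 * Nat.card (orbitRel.Quotient (Subgroup.zpowers S) (Q N)) =
      Nat.card (Q N) + Nat.card (fixedBy (Q N) S) := by
  have := os_card_orbits (X := Q N) S Nat.prime_two (os_S_sq_smul N)
  simp only [Nat.add_one_sub_one, one_mul] at this
  exact this

/-- `3 * #(⟨ST⟩-orbits) = #Q + 2 * #Fix(ST)`. -/
theorem os_card_orbits_ST [NeZero N] :
    3 * Nat.card (orbitRel.Quotient (Subgroup.zpowers (S * T)) (Q N)) =
      Nat.card (Q N) + 2 * Nat.card (fixedBy (Q N) (S * T)) := by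
  have := os_card_orbits (X := Q N) (S * T) Nat.prime_three (os_ST_cube_smul N)
  simp only [Nat.add_one_sub_one] at this
  exact this

/-- The `⟨S⟩`-orbits on `Q N` have size `1` (fixed points of `S`) or `2`. -/
theorem os_orbit_S_dichotomy (ω : orbitRel.Quotient (Subgroup.zpowers S) (Q N)) :
    (ω.orbit.ncard = 1 ∧ ∀ x ∈ ω.orbit, S • x = x) ∨
      (ω.orbit.ncard = 2 ∧ ∀ x ∈ ω.orbit, S • x ≠ x) :=
  os_quot_orbit_dichotomy (X := Q N) S Nat.prime_two (os_S_sq_smul N) ω

/-- The `⟨S * T⟩`-orbits on `Q N` have size `1` (fixed points of `S * T`) or `3`. -/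
theorem os_orbit_ST_dichotomy (ω : orbitRel.Quotient (Subgroup.zpowers (S * T)) (Q N)) :
    (ω.orbit.ncard = 1 ∧ ∀ x ∈ ω.orbit, (S * T) • x = x) ∨
      (ω.orbit.ncard = 3 ∧ ∀ x ∈ ω.orbit, (S * T) • x ≠ x) :=
  os_quot_orbit_dichotomy (X := Q N) (S * T) Nat.prime_three (os_ST_cube_smul N) ω

/-- `s` fixes the coset `gΓ₀(N)` iff the conjugate `g⁻¹ s g` lies in `Γ₀(N)`. -/
theorem os_smul_coset_eq_iff_conj (s g : SL(2, ℤ)) :
    s • ((g : SL(2, ℤ)) : Q N) = (g : Q N) ↔ g⁻¹ * s * g ∈ Gamma0 N := by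
  rw [smul_coset, eq_comm, QuotientGroup.eq, mul_assoc]

/-- Sum of the sizes of the `⟨S⟩`-orbits. -/
theorem os_sum_ncard_orbit_S [NeZero N]
    [Fintype (orbitRel.Quotient (Subgroup.zpowers S) (Q N))] :
    ∑ ω : orbitRel.Quotient (Subgroup.zpowers S) (Q N), ω.orbit.ncard = Nat.card (Q N) :=
  os_sum_ncard_orbit (H := Subgroup.zpowers S) (X := Q N)

/-- Sum of the sizes of the `⟨S * T⟩`-orbits. -/
theorem os_sum_ncard_orbit_ST [NeZero N]
    [Fintype (orbitRel.Quotient (Subgroup.zpowers (S * T)) (Q N))] :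
    ∑ ω : orbitRel.Quotient (Subgroup.zpowers (S * T)) (Q N), ω.orbit.ncard = Nat.card (Q N) :=
  os_sum_ncard_orbit (H := Subgroup.zpowers (S * T)) (X := Q N)

/-- Sum of the sizes of the `⟨T⟩`-orbits. -/
theorem os_sum_ncard_orbit_T [NeZero N]
    [Fintype (orbitRel.Quotient (Subgroup.zpowers T) (Q N))] :
    ∑ ω : orbitRel.Quotient (Subgroup.zpowers T) (Q N), ω.orbit.ncard = Nat.card (Q N) :=
  os_sum_ncard_orbit (H := Subgroup.zpowers T) (X := Q N)

/-- Numerical form, taking the index and fixed-point counts of the combinatorics module (N) as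
hypotheses: `2 * #(⟨S⟩-orbits) = ψ(N) + ν₂(N)`. -/
theorem os_two_mul_card_orbits_S [NeZero N]
    (hQ : Nat.card (Q N) = ModularCurve.dedekindPsi N)
    (hS : Nat.card (fixedBy (Q N) S) = ModularCurve.nuTwo N) :
    2 * Nat.card (orbitRel.Quotient (Subgroup.zpowers S) (Q N)) =
      ModularCurve.dedekindPsi N + ModularCurve.nuTwo N := by
  rw [os_card_orbits_S, hQ, hS]

/-- `3 * #(⟨ST⟩-orbits) = ψ(N) + 2 ν₃(N)`. -/
theorem os_three_mul_card_orbits_ST [NeZero N]
    (hQ : Nat.card (Q N) = ModularCurve.dedekindPsi N)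
    (hST : Nat.card (fixedBy (Q N) (S * T)) = ModularCurve.nuThree N) :
    3 * Nat.card (orbitRel.Quotient (Subgroup.zpowers (S * T)) (Q N)) =
      ModularCurve.dedekindPsi N + 2 * ModularCurve.nuThree N := by
  rw [os_card_orbits_ST, hQ, hST]

example [NeZero N] : Finite (orbitRel.Quotient (Subgroup.zpowers S) (Q N)) := inferInstance

end Special

end Fermat.Agent.S24x
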