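/-
S24 modules C5/C6 FINAL WIRING (helper78): the five outputs of layer C
(`cdeg_jBar`, `ncard_polePlaces`, `ncard_placesOver_generic/_1728/_zero`) from the analytic inputs
of `AnSpec`, bundled in the structure `CInputs N` (data: `evF`, `vPt`, `vCusp`; the remaining
fields are the `AnSpec` statements B1/B4/C1/C2b/C2c/C3/C4 and the two A3 sum formulas for `jBar N`,
verbatim).  The final assembly only has to build one term of `CInputs N`.

Uses the landed `ordAt`, `holOrder`, `rho`, `S_smul_I`, `ST_smul_rho`,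
`two_dvd_ordAt_of_invariant`, `three_dvd_ordAt_of_invariant`, `card_Q`, `card_fixedBy_S/_ST`,
`card_orbits_T_alt`, `os_two_mul_card_orbits_S`, `os_three_mul_card_orbits_ST`.
-/
import Fermat.Agent.S24x.FibreCounts
import Fermat.Agent.S24x.CombIndex
import Fermat.Agent.S24x.CombFixed
import Fermat.Agent.S24x.CombCuspsAlt
import Fermat.Agent.S24x.OrbitStab
import Fermat.Agent.S24x.EllipticOrdAt
import Fermat.Agent.S24x.AlgDefs
import Fermat.Agent.S24x.Iota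
import Fermat.Prelude.Def_ModularCurve_GenusNumerics

set_option autoImplicit false

namespace Fermat.Agent.S24x

open UpperHalfPlane AlgebraicCurve ModularCurve CongruenceSubgroup ModularGroup
open Matrix.SpecialLinearGroup
open scoped MatrixGroups

/-- The analytic inputs of the counting step (statements of `AnSpec`, verbatim). -/
structure CInputs (N : ℕ) [NeZero N] where
  /-- C1: the realisation -/
  evF : FBar N →+* Mer
  /-- C2b: the point places -/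
  vPt : ℍ → Place Qbar (FBar N)
  /-- C2c: the cusp places -/
  vCusp : SL(2, ℤ) → Place Qbar (FBar N)
  jFun_I : jFun UpperHalfPlane.I = 1728
  jFun_rho : jFun rho = 0
  holOrder_jHol_sub_generic : ∀ τ : ℍ, jFun τ ≠ 0 → jFun τ ≠ 1728 →
    holOrder (jHol - algebraMap ℂ Hol (jFun τ)) τ = 1
  holOrder_jHol_sub_I : holOrder (jHol - algebraMap ℂ Hol 1728) UpperHalfPlane.I = 2
  holOrder_jHol_rho : holOrder jHol rho = 3
  evF_algebraMap : ∀ c : Qbar, evF (algebraMap Qbar (FBar N) c) = algebraMap ℂ Mer (iotaQ c)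
  evF_jBar : evF (jBar N) = jMer
  evF_smul_of_mem_Gamma0 : ∀ γ : SL(2, ℤ), γ ∈ Gamma0 N → ∀ f : FBar N, γ • evF f = evF f
  exists_ordAt_eq_mul_vPt_ord : ∀ τ : ℍ, (∃ c : Qbar, jFun τ = iotaQ c) →
    ∃ g : ℕ, 0 < g ∧ ∀ f : FBar N, ordAt τ (evF f) = g * (vPt τ).ord f
  vPt_mem_placesOver : ∀ (τ : ℍ) (c : Qbar), jFun τ = iotaQ c →
    vPt τ ∈ placesOver Qbar (FBar N) (jBar N) c
  vPt_smul_of_mem_Gamma0 : ∀ γ : SL(2, ℤ), γ ∈ Gamma0 N → ∀ τ : ℍ, vPt (γ • τ) = vPt τ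
  vCusp_mul_of_mem_Gamma0 : ∀ γ : SL(2, ℤ), γ ∈ Gamma0 N → ∀ g : SL(2, ℤ),
    vCusp (γ * g) = vCusp g
  vCusp_mul_T : ∀ g : SL(2, ℤ), vCusp (g * ModularGroup.T) = vCusp g
  vCusp_ord_le : ∀ (g : SL(2, ℤ)) (w : ℕ), 0 < w → g * ModularGroup.T ^ w * g⁻¹ ∈ Gamma0 N →
    -((vCusp g).ord (jBar N)) ≤ w
  vCusp_mem_polePlaces : ∀ g : SL(2, ℤ), vCusp g ∈ polePlaces Qbar (FBar N) (jBar N)
  covering_finite : ∀ (c : Qbar) (τ₀ : ℍ), jFun τ₀ = iotaQ c →
    ∀ v : Place Qbar (FBar N), v ∈ placesOver Qbar (FBar N) (jBar N) c →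
      ∃ g : SL(2, ℤ), v = vPt (g • τ₀)
  covering_cusp : ∀ v : Place Qbar (FBar N), v ∈ polePlaces Qbar (FBar N) (jBar N) →
    ∃ g : SL(2, ℤ), v = vCusp g
  dedekindPsi_le_cdeg : dedekindPsi N ≤ cdeg Qbar (FBar N) (jBar N)
  /-- A3 (zeros) for `jBar N` -/
  sum_ord_placesOver : ∀ c : Qbar, ∃ hfin : (placesOver Qbar (FBar N) (jBar N) c).Finite,
    ∑ v ∈ hfin.toFinset, v.ord (jBar N - algebraMap Qbar (FBar N) c)
      = (cdeg Qbar (FBar N) (jBar N) : ℤ)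
  /-- A3 (poles) for `jBar N` -/
  sum_ord_polePlaces : ∃ hfin : (polePlaces Qbar (FBar N) (jBar N)).Finite,
    ∑ v ∈ hfin.toFinset, -v.ord (jBar N) = (cdeg Qbar (FBar N) (jBar N) : ℤ)

/-! ## plumbing independent of the inputs -/

/-- `j` is invariant (AnSpec B1 `jHol_smul`). -/
theorem cf_jHol_smul (γ : SL(2, ℤ)) : γ • jHol = jHol := by
  apply Subtype.ext; funext τ
  rw [smul_Hol_apply]
  exact jFun_smul γ⁻¹ τ

/-- constants are fixed by the action -/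
theorem cf_smul_const (γ : SL(2, ℤ)) (z : ℂ) : γ • (algebraMap ℂ Hol z) = algebraMap ℂ Hol z := by
  apply Subtype.ext; funext τ
  rw [smul_Hol_apply, algebraMap_Hol_apply, algebraMap_Hol_apply]

/-- the holomorphic function `j - z` -/
noncomputable def cfJ (z : ℂ) : Hol := jHol - algebraMap ℂ Hol z

theorem cfJ_smul (γ : SL(2, ℤ)) (z : ℂ) : γ • cfJ z = cfJ z := by
  unfold cfJ
  rw [smul_sub, cf_jHol_smul, cf_smul_const]

theorem cfJ_ne_zero (z : ℂ) : cfJ z ≠ 0 := by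
  intro h
  obtain ⟨τ, hτ⟩ := jFun_surjective (z + 1)
  have h1 : (cfJ z : ℍ → ℂ) τ = 0 := by rw [h]; rfl
  have h2 : (cfJ z : ℍ → ℂ) τ = jFun τ - z := rfl
  rw [h2, hτ] at h1
  simp at h1

/-- the order of `j - z` at `g • τ₀` equals the one at `τ₀` -/
theorem cf_ordAt_smul (g : SL(2, ℤ)) (τ₀ : ℍ) (z : ℂ) :
    ordAt (g • τ₀) (algebraMap Hol Mer (cfJ z)) = ordAt τ₀ (algebraMap Hol Mer (cfJ z)) := by
  have h := ordAt_smul (g • τ₀) g (algebraMap Hol Mer (cfJ z))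
  rw [smul_algebraMap_Mer, cfJ_smul, inv_smul_smul] at h
  exact h

theorem cf_ordAt_eq (τ₀ : ℍ) (z : ℂ) (n : ℕ) (h : holOrder (cfJ z) τ₀ = n) :
    ordAt τ₀ (algebraMap Hol Mer (cfJ z)) = n := by
  have h1 := ordAt_algebraMap τ₀ (cfJ_ne_zero z)
  rw [h] at h1
  have h2 : ((n : ℕ∞).map (Nat.cast : ℕ → ℤ) : WithTop ℤ) = ((n : ℤ) : WithTop ℤ) := rfl
  rw [h2] at h1
  exact_mod_cast h1

theorem cf_conj_neg_one_mem (N : ℕ) (g : SL(2, ℤ)) : g * (-1) * g⁻¹ ∈ Gamma0 N := by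
  have : g * (-1) * g⁻¹ = (-1 : SL(2, ℤ)) := by
    rw [mul_neg, mul_one, neg_mul, mul_inv_cancel]
  rw [this]
  exact os_neg_one_mem_Gamma0 N

theorem cf_jFun_smul_eq {τ₀ : ℍ} {c : Qbar} (hτ₀ : jFun τ₀ = iotaQ c) (g : SL(2, ℤ)) :
    jFun (g • τ₀) = iotaQ c := by rw [jFun_smul, hτ₀]

namespace CInputs

variable {N : ℕ} [NeZero N] (A : CInputs N)
include A

/-! ## the cusps -/

theorem pole :
    (polePlaces Qbar (FBar N) (jBar N)).ncard =
        Nat.card (MulAction.orbitRel.Quotient (Subgroup.zpowers (T : SL(2, ℤ))) (Q N)) ∧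
      Nat.card (Q N) = cdeg Qbar (FBar N) (jBar N) :=
  cc_ncard_polePlaces_of_vCusp N (jBar N) A.sum_ord_polePlaces
    A.vCusp A.vCusp_mul_of_mem_Gamma0 A.vCusp_mul_T A.vCusp_ord_le
    A.vCusp_mem_polePlaces A.covering_cusp
    (by rw [card_Q]; exact A.dedekindPsi_le_cdeg)

/-- **C5/C6 output** -/
theorem cdeg_jBar : cdeg Qbar (FBar N) (jBar N) = dedekindPsi N := by
  rw [← A.pole.2, card_Q]

/-- **C6 output** -/
theorem ncard_polePlaces : (polePlaces Qbar (FBar N) (jBar N)).ncard = cuspCount N := by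
  rw [A.pole.1, card_orbits_T_alt]

/-! ## the finite fibres -/

theorem evF_sub (c : Qbar) :
    A.evF (jBar N - algebraMap Qbar (FBar N) c) = algebraMap Hol Mer (cfJ (iotaQ c)) := by
  rw [map_sub, A.evF_jBar, A.evF_algebraMap, cfJ, map_sub,
    IsScalarTower.algebraMap_apply ℂ Hol Mer]
  rfl

/-- the family of point places along the `SL(2,ℤ)`-orbit of `τ₀` -/
noncomputable def pt (τ₀ : ℍ) (g : SL(2, ℤ)) : Place Qbar (FBar N) := A.vPt (g • τ₀)

/-- the analytic order at `g • τ₀` -/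
noncomputable def oF (τ₀ : ℍ) (g : SL(2, ℤ)) (f : FBar N) : ℤ := ordAt (g • τ₀) (A.evF f)

theorem hmul {τ₀ : ℍ} {c : Qbar} (hτ₀ : jFun τ₀ = iotaQ c) (g : SL(2, ℤ)) :
    ∃ e : ℕ, 0 < e ∧ ∀ f : FBar N, A.oF τ₀ g f = e * (A.pt τ₀ g).ord f :=
  A.exists_ordAt_eq_mul_vPt_ord (g • τ₀) ⟨c, cf_jFun_smul_eq hτ₀ g⟩

theorem hD (τ₀ : ℍ) (c : Qbar) (n : ℕ) (hn : holOrder (cfJ (iotaQ c)) τ₀ = n) (g : SL(2, ℤ)) :
    A.oF τ₀ g (jBar N - algebraMap Qbar (FBar N) c) = n := by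
  unfold oF
  rw [A.evF_sub, cf_ordAt_smul, cf_ordAt_eq τ₀ _ n hn]

theorem hmem {τ₀ : ℍ} {c : Qbar} (hτ₀ : jFun τ₀ = iotaQ c) (g : SL(2, ℤ)) :
    A.pt τ₀ g ∈ placesOver Qbar (FBar N) (jBar N) c :=
  A.vPt_mem_placesOver (g • τ₀) c (cf_jFun_smul_eq hτ₀ g)

theorem hcov {τ₀ : ℍ} {c : Qbar} (hτ₀ : jFun τ₀ = iotaQ c)
    (v : Place Qbar (FBar N)) (hv : v ∈ placesOver Qbar (FBar N) (jBar N) c) :
    ∃ g, v = A.pt τ₀ g :=
  A.covering_finite c τ₀ hτ₀ v hv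

theorem hleft (τ₀ : ℍ) (γ : SL(2, ℤ)) (hγ : γ ∈ Gamma0 N) (g : SL(2, ℤ)) :
    A.pt τ₀ (γ * g) = A.pt τ₀ g := by
  unfold pt
  rw [mul_smul, A.vPt_smul_of_mem_Gamma0 γ hγ]

theorem hs (τ₀ : ℍ) (s : SL(2, ℤ)) (hs : s • τ₀ = τ₀) (g : SL(2, ℤ)) :
    A.pt τ₀ (g * s) = A.pt τ₀ g := by
  unfold pt
  rw [mul_smul, hs]

theorem hdeg : Nat.card (Q N) ≤ cdeg Qbar (FBar N) (jBar N) := by
  rw [card_Q]; exact A.dedekindPsi_le_cdeg

/-- **C5 output, generic fibre** -/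
theorem ncard_placesOver_generic (c : Qbar) (h0 : c ≠ 0) (h1 : c ≠ 1728) :
    (placesOver Qbar (FBar N) (jBar N) c).ncard = dedekindPsi N := by
  obtain ⟨τ₀, hτ₀⟩ := jFun_surjective (iotaQ c)
  have hc0 : jFun τ₀ ≠ 0 := by
    rw [hτ₀]; intro h; exact h0 (iotaQ_injective (by rw [h, map_zero]))
  have hc1 : jFun τ₀ ≠ 1728 := by
    rw [hτ₀]; intro h; exact h1 (iotaQ_injective (by rw [h, map_ofNat]))
  have hn : holOrder (cfJ (iotaQ c)) τ₀ = (1 : ℕ) := by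
    have := A.holOrder_jHol_sub_generic τ₀ hc0 hc1
    rw [hτ₀] at this
    exact this
  have key := fc_ncard_placesOver_of_family N (jBar N) c (1 : SL(2, ℤ))
    (A.sum_ord_placesOver c) (A.pt τ₀) (A.hleft τ₀)
    (A.hs τ₀ 1 (one_smul _ _))
    (fun g w hw _ => fc_ord_le_of_unram _ (A.pt τ₀) (A.oF τ₀) (A.hmul hτ₀)
      (fun g => by simpa using A.hD τ₀ c 1 hn g) g w hw)
    (A.hmem hτ₀) (A.hcov hτ₀) A.hdeg
  rw [key.1]
  exact (fc_card_orbits_one _ _).trans (card_Q N)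

/-- **C5 output, the fibre over `1728`** -/
theorem ncard_placesOver_1728 :
    2 * (placesOver Qbar (FBar N) (jBar N) 1728).ncard = dedekindPsi N + nuTwo N := by
  have hτ₀ : jFun UpperHalfPlane.I = iotaQ 1728 := by rw [A.jFun_I, map_ofNat]
  have hn : holOrder (cfJ (iotaQ 1728)) UpperHalfPlane.I = (2 : ℕ) := by
    have := A.holOrder_jHol_sub_I
    have e : iotaQ (1728 : Qbar) = 1728 := map_ofNat iotaQ 1728
    rw [e]
    exact this
  have key := fc_ncard_placesOver_of_family N (jBar N) (1728 : Qbar) S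
    (A.sum_ord_placesOver 1728) (A.pt UpperHalfPlane.I)
    (A.hleft UpperHalfPlane.I) (A.hs UpperHalfPlane.I S S_smul_I)
    (fc_ord_le_of_ram N 2 Nat.prime_two _ S (A.pt UpperHalfPlane.I) (A.oF UpperHalfPlane.I)
      (A.hmul hτ₀)
      (fun g => by simpa using A.hD UpperHalfPlane.I 1728 2 hn g)
      (fun g hg f => by
        have := two_dvd_ordAt_of_invariant g (A.evF f) (A.evF_smul_of_mem_Gamma0 _ hg f)
        exact_mod_cast this)
      (fun g => by rw [os_S_sq]; exact cf_conj_neg_one_mem N g))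
    (A.hmem hτ₀) (A.hcov hτ₀) A.hdeg
  rw [key.1]
  exact os_two_mul_card_orbits_S N (card_Q N) (card_fixedBy_S N)

/-- **C5 output, the fibre over `0`** -/
theorem ncard_placesOver_zero :
    3 * (placesOver Qbar (FBar N) (jBar N) 0).ncard = dedekindPsi N + 2 * nuThree N := by
  have hτ₀ : jFun rho = iotaQ 0 := by rw [A.jFun_rho, map_zero]
  have hn : holOrder (cfJ (iotaQ 0)) rho = (3 : ℕ) := by
    have := A.holOrder_jHol_rho
    have e : cfJ (iotaQ (0 : Qbar)) = jHol := by unfold cfJ; rw [map_zero, map_zero, sub_zero]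
    rw [e]
    exact this
  have key := fc_ncard_placesOver_of_family N (jBar N) (0 : Qbar) (S * T)
    (A.sum_ord_placesOver 0) (A.pt rho)
    (A.hleft rho) (A.hs rho (S * T) ST_smul_rho)
    (fc_ord_le_of_ram N 3 Nat.prime_three _ (S * T) (A.pt rho) (A.oF rho)
      (A.hmul hτ₀)
      (fun g => by simpa using A.hD rho 0 3 hn g)
      (fun g hg f => by
        have := three_dvd_ordAt_of_invariant g (A.evF f) (A.evF_smul_of_mem_Gamma0 _ hg f)
        exact_mod_cast this)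
      (fun g => by rw [os_ST_cube]; exact cf_conj_neg_one_mem N g))
    (A.hmem hτ₀) (A.hcov hτ₀) A.hdeg
  rw [key.1]
  exact os_three_mul_card_orbits_ST N (card_Q N) (card_fixedBy_ST N)

end CInputs

end Fermat.Agent.S24x
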