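import Mathlib
import Fermat.Prelude.Def_AlgebraicCurve_DivisorClassGroup

/-!
# Places of a function field and maximal ideals of a Dedekind domain

Dictionary between the prelude's `AlgebraicCurve.Place K F` (discrete valuation subrings of `F`
containing `K`) and `HeightOneSpectrum R` for a Dedekind domain `R` with `K ⊆ R`, `Frac R = F`.
-/

namespace Fermat.Agent.S24x

open AlgebraicCurve IsDedekindDomain WithZero

variable {K F : Type*} [Field K] [Field F] [Algebra K F]
variable (R : Type*) [CommRing R] [IsDedekindDomain R] [Algebra K R] [Algebra R F]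
  [IsScalarTower K R F] [IsFractionRing R F]

theorem mem_ofHeightOneSpectrum_iff (P : HeightOneSpectrum R) (f : F) :
    f ∈ (Place.ofHeightOneSpectrum (K := K) (F := F) P).toValuationSubring ↔ P.valuation F f ≤ 1 :=
  Valuation.mem_valuationSubring_iff _ _

theorem ofHeightOneSpectrum_injective :
    Function.Injective (Place.ofHeightOneSpectrum (K := K) (F := F) (R := R)) := by
  intro P Q h
  have h' : (P.valuation F).valuationSubring = (Q.valuation F).valuationSubring :=
    congrArg Place.toValuationSubring h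
  exact HeightOneSpectrum.eq_of_valuation_isEquiv_valuation
    ((Valuation.isEquiv_iff_valuationSubring _ _).mpr h')

/-- Every place whose valuation ring contains `R` comes from a maximal ideal of `R`. -/
theorem exists_ofHeightOneSpectrum_of_le (v : Place K F)
    (h : ∀ r : R, algebraMap R F r ∈ v.toValuationSubring) :
    ∃ P : HeightOneSpectrum R, v = Place.ofHeightOneSpectrum (K := K) (F := F) P := by
  classical
  -- the centre of `v` on `R`
  let φ : R →+* v.toValuationSubring :=
    (algebraMap R F).codRestrict v.toValuationSubring.toSubring h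
  have hφ : ∀ r : R, ((φ r : v.toValuationSubring) : F) = algebraMap R F r := fun _ => rfl
  have hmem : ∀ s : R, s ∈ (IsLocalRing.maximalIdeal v.toValuationSubring).comap φ ↔
      algebraMap R F s ∈ v.toValuationSubring.nonunits := by
    intro s
    rw [Ideal.mem_comap, ← ValuationSubring.coe_mem_nonunits_iff, hφ]
  have hinv : ∀ s : R, s ∉ (IsLocalRing.maximalIdeal v.toValuationSubring).comap φ →
      algebraMap R F s ≠ 0 ∧ (algebraMap R F s)⁻¹ ∈ v.toValuationSubring := by
    intro s hs
    rw [hmem, ValuationSubring.mem_nonunits_iff_or, not_or, not_not] at hs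
    exact hs
  have hp_prime : ((IsLocalRing.maximalIdeal v.toValuationSubring).comap φ).IsPrime :=
    Ideal.comap_isPrime φ _
  have hp_ne_bot : (IsLocalRing.maximalIdeal v.toValuationSubring).comap φ ≠ ⊥ := by
    intro hbot
    apply v.ne_top'
    refine SetLike.ext fun x => ⟨fun _ => ValuationSubring.mem_top x, fun _ => ?_⟩
    obtain ⟨a, s, hs, rfl⟩ := IsFractionRing.div_surjective (A := R) x
    have hs0 : s ≠ 0 := nonZeroDivisors.ne_zero hs
    have hsp : s ∉ (IsLocalRing.maximalIdeal v.toValuationSubring).comap φ := by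
      rw [hbot, Ideal.mem_bot]; exact hs0
    rw [div_eq_mul_inv]
    exact mul_mem (h a) (hinv s hsp).2
  obtain ⟨P, hP⟩ : ∃ P : HeightOneSpectrum R,
      P.asIdeal = (IsLocalRing.maximalIdeal v.toValuationSubring).comap φ :=
    ⟨⟨_, hp_prime, hp_ne_bot⟩, rfl⟩
  refine ⟨P, ?_⟩
  apply Place.ext
  rw [Place.ofHeightOneSpectrum_toValuationSubring,
    ← HeightOneSpectrum.valuationSubringAtPrime_eq_valuationSubring]
  symm
  refine ValuationSubring.eq_of_le_of_ne_top _ ?_ v.ne_top'
  rintro x ⟨a, s, hs, rfl⟩
  have hsp : s ∉ (IsLocalRing.maximalIdeal v.toValuationSubring).comap φ := by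
    rw [← hP]; exact hs
  exact mul_mem (h a) (hinv s hsp).2

/-- The order function of the place attached to `P` is the additive `P`-adic valuation. -/
theorem ofHeightOneSpectrum_ord (P : HeightOneSpectrum R) (f : F) :
    (Place.ofHeightOneSpectrum (K := K) (F := F) P).ord f = -(WithZero.log (P.valuation F f)) := by
  rcases eq_or_ne f 0 with rfl | hf
  · simp
  have hint := Valuation.valuationSubring.integers (P.valuation F)
  obtain ⟨ϖ, hϖ⟩ := IsDiscreteValuationRing.exists_irreducible
    (Place.ofHeightOneSpectrum (K := K) (F := F) P).toValuationSubring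
  have hunit : ∀ u : ((Place.ofHeightOneSpectrum (K := K) (F := F) P).toValuationSubring)ˣ,
      P.valuation F ((u : (Place.ofHeightOneSpectrum (K := K) (F := F) P).toValuationSubring) : F) = 1 :=
    fun u => hint.isUnit_iff_valuation_eq_one.mp u.isUnit
  have hϖ0 : (ϖ : F) ≠ 0 := by
    simpa [ne_eq, ZeroMemClass.coe_eq_zero] using hϖ.ne_zero
  have hϖlt : P.valuation F (ϖ : F) < 1 :=
    lt_of_le_of_ne ((mem_ofHeightOneSpectrum_iff R P _).mp ϖ.2)
      (fun h1 => hϖ.not_isUnit (hint.isUnit_iff_valuation_eq_one.mpr h1))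
  have hϖval0 : P.valuation F (ϖ : F) ≠ 0 := (Valuation.ne_zero_iff _).mpr hϖ0
  -- write the valuation of `ϖ` as `exp (-m)`
  obtain ⟨m, hm⟩ : ∃ m : ℤ, P.valuation F (ϖ : F) = exp (-m) :=
    ⟨-(log (P.valuation F (ϖ : F))), by rw [neg_neg, exp_log hϖval0]⟩
  have hm1 : 1 ≤ m := by
    rw [hm, ← exp_zero, exp_lt_exp] at hϖlt
    omega
  obtain ⟨π, hπ⟩ := P.valuation_exists_uniformizer F
  have hπ0 : π ≠ 0 := by
    intro h0
    rw [h0, map_zero] at hπ
    exact exp_ne_zero hπ.symm
  obtain ⟨u, hu⟩ := (Place.ofHeightOneSpectrum (K := K) (F := F) P).exists_unit_mul_zpow hπ0 hϖ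
  have hmk : m = 1 := by
    have h2 := congrArg (P.valuation F) hu
    rw [map_mul, hunit u, one_mul, map_zpow₀, hm, hπ, ← exp_zsmul, exp_inj] at h2
    -- h2 : -1 = k • (-m)
    have h3 : m * (Place.ofHeightOneSpectrum (K := K) (F := F) P).ord π = 1 := by
      simp only [smul_eq_mul] at h2
      linarith
    rcases Int.eq_one_or_neg_one_of_mul_eq_one h3 with h | h
    · exact h
    · omega
  rw [hmk] at hm
  obtain ⟨u', hu'⟩ := (Place.ofHeightOneSpectrum (K := K) (F := F) P).exists_unit_mul_zpow hf hϖ
  have h4 := congrArg (P.valuation F) hu'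
  rw [map_mul, hunit u', one_mul, map_zpow₀, hm, ← exp_zsmul] at h4
  rw [h4, log_exp]
  simp only [smul_eq_mul]
  ring

end Fermat.Agent.S24x
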