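import Mathlib
import Fermat.Agent.S24x.PlaceDedekind

/-!
# S24 project, module C3 (part 2): places centred on a Dedekind domain

* `cov_ord_pos_iff` : for a maximal ideal `P` of a Dedekind domain `R` with fraction field `F`,
  an element `r` of `R` has positive order at the place attached to `P` iff `r ∈ P`, `r ≠ 0`.
* `cov_place_eq_of_forall` (prime avoidance): if every element of `R` of positive order at `v`
  has positive order at one of finitely many places `w i` (all containing `R`), then `v = w i`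
  for some `i`.
* `cov_exists_residue` : for `K` algebraically closed and `R` integral over `K[t]`, a place `v ⊇ R`
  with `0 < v.ord (t - c)` has a residue homomorphism `φ : R →ₐ[K] K` with `φ t = c` whose kernel
  is the centre of `v`.
-/

set_option autoImplicit false

namespace Fermat.Agent.S24x

open AlgebraicCurve IsDedekindDomain WithZero Polynomial

section

variable {K F : Type*} [Field K] [Field F] [Algebra K F]
variable (R : Type*) [CommRing R] [IsDedekindDomain R] [Algebra K R] [Algebra R F]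
  [IsScalarTower K R F] [IsFractionRing R F]

theorem cov_ord_pos_iff (P : HeightOneSpectrum R) (r : R) :
    0 < (Place.ofHeightOneSpectrum (K := K) (F := F) P).ord (algebraMap R F r) ↔
      r ∈ P.asIdeal ∧ r ≠ 0 := by
  rw [ofHeightOneSpectrum_ord]
  rcases eq_or_ne r 0 with rfl | hr
  · simp
  have hr' : algebraMap R F r ≠ 0 := by
    rw [Ne, map_eq_zero_iff _ (IsFractionRing.injective R F)]
    exact hr
  have hv0 : P.valuation F (algebraMap R F r) ≠ 0 := (Valuation.ne_zero_iff _).mpr hr'
  rw [neg_pos, log_lt_iff_lt_exp hv0, exp_zero, HeightOneSpectrum.valuation_lt_one_iff_mem]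
  exact ⟨fun h => ⟨h, hr⟩, fun h => h.1⟩

/-- **Prime avoidance for places.** -/
theorem cov_place_eq_of_forall (v : Place K F)
    (hv : ∀ r : R, algebraMap R F r ∈ v.toValuationSubring)
    {ι : Type*} [Finite ι] (w : ι → Place K F)
    (hw : ∀ i, ∀ r : R, algebraMap R F r ∈ (w i).toValuationSubring)
    (h : ∀ r : R, 0 < v.ord (algebraMap R F r) → ∃ i, 0 < (w i).ord (algebraMap R F r)) :
    ∃ i, v = w i := by
  classical
  have : Fintype ι := Fintype.ofFinite ι
  obtain ⟨P, hP⟩ := exists_ofHeightOneSpectrum_of_le R v hv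
  have hQ : ∀ i, ∃ Q : HeightOneSpectrum R, w i = Place.ofHeightOneSpectrum (K := K) (F := F) Q :=
    fun i => exists_ofHeightOneSpectrum_of_le R (w i) (hw i)
  choose Q hQ using hQ
  -- `P ⊆ ⋃ Q i`
  obtain ⟨r0, hr0P, hr0⟩ : ∃ r0 : R, r0 ∈ P.asIdeal ∧ r0 ≠ 0 := by
    by_contra hcon
    apply P.ne_bot
    rw [eq_bot_iff]
    intro x hx
    by_contra hx0
    exact hcon ⟨x, hx, hx0⟩
  obtain ⟨i0, -⟩ := h r0 (by rw [hP, cov_ord_pos_iff]; exact ⟨hr0P, hr0⟩)
  have hsub : (P.asIdeal : Set R) ⊆ ⋃ i ∈ (Finset.univ : Finset ι), ((Q i).asIdeal : Set R) := by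
    intro r hr
    rcases eq_or_ne r 0 with rfl | hr0
    · simp only [Finset.mem_univ, Set.iUnion_true, Set.mem_iUnion, SetLike.mem_coe]
      exact ⟨i0, (Q i0).asIdeal.zero_mem⟩
    · obtain ⟨i, hi⟩ := h r (by rw [hP, cov_ord_pos_iff]; exact ⟨hr, hr0⟩)
      rw [hQ i, cov_ord_pos_iff] at hi
      simp only [Finset.mem_univ, Set.iUnion_true, Set.mem_iUnion, SetLike.mem_coe]
      exact ⟨i, hi.1⟩
  obtain ⟨i, -, hi⟩ := (Ideal.subset_union_prime (s := (Finset.univ : Finset ι))
    (f := fun i => (Q i).asIdeal) i0 i0 (fun i _ _ _ => (Q i).isPrime)).1 hsub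
  refine ⟨i, ?_⟩
  have hmax : P.asIdeal.IsMaximal := P.isMaximal
  have hne : (Q i).asIdeal ≠ ⊤ := (Q i).isPrime.ne_top
  have heq : P.asIdeal = (Q i).asIdeal := hmax.eq_of_le hne hi
  have : P = Q i := HeightOneSpectrum.ext heq
  rw [hP, hQ i, this]

end

section residue

variable {K F : Type*} [Field K] [IsAlgClosed K] [Field F] [Algebra K F]
variable (R : Type*) [CommRing R] [IsDedekindDomain R] [Algebra K R] [Algebra R F]
  [IsScalarTower K R F] [IsFractionRing R F]

/-- The residue homomorphism of a place over `t = c`. -/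
theorem cov_exists_residue (t : R) (c : K)
    (hint : ∀ r : R, ((aeval t : K[X] →ₐ[K] R) : K[X] →+* R).IsIntegralElem r)
    (v : Place K F) (hv : ∀ r : R, algebraMap R F r ∈ v.toValuationSubring)
    (hvt : 0 < v.ord (algebraMap R F t - algebraMap K F c)) :
    ∃ φ : R →ₐ[K] K, φ t = c ∧ ∀ r : R, φ r = 0 ↔ (r = 0 ∨ 0 < v.ord (algebraMap R F r)) := by
  classical
  obtain ⟨P, hP⟩ := exists_ofHeightOneSpectrum_of_le R v hv
  have htc : t - algebraMap K R c ∈ P.asIdeal := by
    have h1 : algebraMap R F (t - algebraMap K R c) = algebraMap R F t - algebraMap K F c := by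
      rw [map_sub, ← IsScalarTower.algebraMap_apply]
    rw [← h1, hP, cov_ord_pos_iff] at hvt
    exact hvt.1
  have hmax : P.asIdeal.IsMaximal := P.isMaximal
  let _ : Field (R ⧸ P.asIdeal) := Ideal.Quotient.field P.asIdeal
  -- `R ⧸ P` is integral over `K`
  have hmk : ((Ideal.Quotient.mk P.asIdeal).comp ((aeval t : K[X] →ₐ[K] R) : K[X] →+* R)) =
      (algebraMap K (R ⧸ P.asIdeal)).comp (Polynomial.evalRingHom c) := by
    apply Polynomial.ringHom_ext
    · intro a
      simp only [RingHom.coe_comp, RingHom.coe_coe, Function.comp_apply, aeval_C,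
        Polynomial.coe_evalRingHom, eval_C]
      rfl
    · simp only [RingHom.coe_comp, RingHom.coe_coe, Function.comp_apply, aeval_X,
        Polynomial.coe_evalRingHom, eval_X]
      rw [← sub_eq_zero]
      have : (Ideal.Quotient.mk P.asIdeal) t - (algebraMap K (R ⧸ P.asIdeal)) c =
          Ideal.Quotient.mk P.asIdeal (t - algebraMap K R c) := by
        rw [map_sub]; rfl
      rw [this, Ideal.Quotient.eq_zero_iff_mem]
      exact htc
  have hintK : Algebra.IsIntegral K (R ⧸ P.asIdeal) := by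
    refine ⟨fun x => ?_⟩
    obtain ⟨r, rfl⟩ := Ideal.Quotient.mk_surjective x
    obtain ⟨p, hpm, hp⟩ := hint r
    refine ⟨p.map (Polynomial.evalRingHom c), hpm.map _, ?_⟩
    rw [Polynomial.eval₂_map, ← hmk, ← Polynomial.hom_eval₂, hp, map_zero]
  have hbij : Function.Bijective (algebraMap K (R ⧸ P.asIdeal)) :=
    IsAlgClosed.algebraMap_bijective_of_isIntegral
  let e : K ≃ₐ[K] (R ⧸ P.asIdeal) := AlgEquiv.ofBijective (Algebra.ofId K (R ⧸ P.asIdeal)) hbij
  refine ⟨(e.symm : (R ⧸ P.asIdeal) →ₐ[K] K).comp (Ideal.Quotient.mkₐ K P.asIdeal), ?_, ?_⟩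
  · show e.symm (Ideal.Quotient.mk P.asIdeal t) = c
    rw [AlgEquiv.symm_apply_eq]
    show Ideal.Quotient.mk P.asIdeal t = algebraMap K (R ⧸ P.asIdeal) c
    rw [← sub_eq_zero]
    have : (Ideal.Quotient.mk P.asIdeal) t - (algebraMap K (R ⧸ P.asIdeal)) c =
        Ideal.Quotient.mk P.asIdeal (t - algebraMap K R c) := by
      rw [map_sub]; rfl
    rw [this, Ideal.Quotient.eq_zero_iff_mem]
    exact htc
  · intro r
    show e.symm (Ideal.Quotient.mk P.asIdeal r) = 0 ↔ _
    rw [AlgEquiv.symm_apply_eq, map_zero]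
    rw [Ideal.Quotient.eq_zero_iff_mem, hP, cov_ord_pos_iff]
    constructor
    · intro h
      rcases eq_or_ne r 0 with h0 | h0
      · exact Or.inl h0
      · exact Or.inr ⟨h, h0⟩
    · rintro (h | h)
      · rw [h]; exact P.asIdeal.zero_mem
      · exact h.1

end residue

end Fermat.Agent.S24x
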