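import Mathlib
import Fermat.Prelude.Def_AlgebraicCurve_CanonicalDivisor

/-!
# S24x / LocalDiff : local computation of the order of a differential at a place

General facts (no modular curves here).  `K` a field, `F/K` a field extension, `v : Place K F`.

* `exists_uniformizer_dCoord` : the hidden uniformizer behind `Place.dCoord`.
* `span_D_eq_top_of_essFiniteType` : conormal sequence + Nakayama.
* `dCoordGenerates_of_essFiniteType` : `v.DCoordGenerates`.
* `differentialCoeff_D_mem` : `d/dt` preserves the valuation ring.
* `ordDifferential_D_of_ord_ne_zero` : `ord_v (dy) = ord_v y - 1` when `ord_v y ≠ 0` (char. 0).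
-/

set_option autoImplicit false

noncomputable section

open KaehlerDifferential AlgebraicCurve IsLocalRing TensorProduct

namespace Fermat.Agent.S24x

section Nakayama

/-- Nakayama + conormal sequence: over a local `K`-algebra `O`, essentially of finite type,
with residue field `K` and principal maximal ideal `(t)`, the Kaehler differentials are
generated by `dt`. -/
theorem span_D_eq_top_of_essFiniteType (K O : Type*) [Field K] [CommRing O] [IsLocalRing O]
    [Algebra K O] [Algebra.EssFiniteType K O]
    (hres : Function.Surjective (algebraMap K (ResidueField O)))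
    (t : O) (ht : maximalIdeal O = Ideal.span {t}) :
    Submodule.span O {D K O t} = ⊤ := by
  rw [← IsLocalRing.map_tensorProduct_mk_eq_top, eq_top_iff]
  intro z _
  have hsub : Subsingleton Ω[ResidueField O⁄K] :=
    KaehlerDifferential.subsingleton_of_surjective K (ResidueField O) hres
  have hex := KaehlerDifferential.exact_kerCotangentToTensor_mapBaseChange K O (ResidueField O)
    Ideal.Quotient.mk_surjective
  obtain ⟨y, rfl⟩ := (hex z).mp (Subsingleton.elim _ _)
  obtain ⟨⟨x, hx⟩, rfl⟩ := Ideal.toCotangent_surjective _ y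
  rw [KaehlerDifferential.kerCotangentToTensor_toCotangent]
  have hx' : x ∈ maximalIdeal O := by
    have : residue O x = 0 := hx
    rwa [residue_eq_zero_iff] at this
  rw [ht, Ideal.mem_span_singleton] at hx'
  obtain ⟨a, rfl⟩ := hx'
  have ht0 : residue O t = 0 := by
    rw [residue_eq_zero_iff, ht]; exact Ideal.mem_span_singleton_self t
  refine ⟨a • D K O t, Submodule.smul_mem _ _ (Submodule.mem_span_singleton_self _), ?_⟩
  simp only [TensorProduct.mk_apply, Derivation.leibniz, TensorProduct.tmul_add,
    TensorProduct.tmul_smul]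
  have : t • ((1 : ResidueField O) ⊗ₜ[O] (D K O a)) = 0 := by
    rw [TensorProduct.smul_tmul', Algebra.smul_def, mul_one]
    have : algebraMap O (ResidueField O) t = 0 := ht0
    rw [this, TensorProduct.zero_tmul]
  rw [this, zero_add]

end Nakayama

variable {K F : Type*} [Field K] [Field F] [Algebra K F]

section OrdAPI

variable (v : Place K F)

/-- The (private) uniformizer behind `Place.dCoord`. -/
theorem exists_uniformizer_dCoord :
    ∃ t : F, v.ord t = 1 ∧ v.dCoord = D K F t := by
  refine ⟨((IsDiscreteValuationRing.exists_irreducible v.toValuationSubring).choose : F), ?_, rfl⟩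
  exact v.ord_coe_irreducible
    (IsDiscreteValuationRing.exists_irreducible v.toValuationSubring).choose_spec

theorem adicValuation_le_one_iff (f : F) :
    v.adicValuation f ≤ 1 ↔ f ∈ v.toValuationSubring := by
  constructor
  · intro h
    obtain ⟨a, ha⟩ := IsDiscreteValuationRing.exists_lift_of_le_one (A := v.toValuationSubring)
      (K := F) h
    rw [← ha]
    exact a.2
  · intro h
    have := v.adicValuation_coe ⟨f, h⟩
    rw [show ((⟨f, h⟩ : v.toValuationSubring) : F) = f from rfl] at this
    rw [this]
    exact IsDedekindDomain.HeightOneSpectrum.intValuation_le_one _ _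

theorem adicValuation_eq_exp {f : F} (hf : f ≠ 0) :
    v.adicValuation f = WithZero.exp (-(v.ord f)) := by
  rw [Place.ord, neg_neg, WithZero.exp_log (v.adicValuation_ne_zero hf)]

theorem ord_nonneg_iff {f : F} (hf : f ≠ 0) :
    0 ≤ v.ord f ↔ f ∈ v.toValuationSubring := by
  rw [← adicValuation_le_one_iff, Place.ord, neg_nonneg,
    WithZero.log_le_iff_le_exp (v.adicValuation_ne_zero hf), WithZero.exp_zero]

theorem ord_nonneg_of_mem {f : F} (hf : f ∈ v.toValuationSubring) : 0 ≤ v.ord f := by
  rcases eq_or_ne f 0 with rfl | h0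
  · simp
  · exact (ord_nonneg_iff v h0).mpr hf

theorem ord_algebraMap (a : K) : v.ord (algebraMap K F a) = 0 := by
  rcases eq_or_ne a 0 with rfl | ha
  · simp
  · have h1 : 0 ≤ v.ord (algebraMap K F a) := ord_nonneg_of_mem v (v.algebraMap_mem' a)
    have h2 : 0 ≤ v.ord (algebraMap K F a⁻¹) := ord_nonneg_of_mem v (v.algebraMap_mem' a⁻¹)
    rw [map_inv₀, v.ord_inv] at h2
    omega

theorem ord_add_of_lt {a b : F} (ha : a ≠ 0) (h : b = 0 ∨ v.ord a < v.ord b) :
    v.ord (a + b) = v.ord a := by
  rcases eq_or_ne b 0 with rfl | hb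
  · simp
  · have hlt : v.ord a < v.ord b := h.resolve_left hb
    have hval : v.adicValuation b < v.adicValuation a := by
      rw [adicValuation_eq_exp v ha, adicValuation_eq_exp v hb, WithZero.exp_lt_exp]
      omega
    have := Valuation.map_add_eq_of_lt_left v.adicValuation hval
    rw [Place.ord, this]
    rfl

end OrdAPI

section Main

variable (v : Place K F)

/-- every `a ∈ O_v` has `da = g • dt` with `g ∈ O_v`, for `t` the uniformizer behind `dCoord`. -/
theorem exists_mem_D_eq_smul_dCoord [Algebra.EssFiniteType K v.toValuationSubring]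
    (hres : Function.Surjective (algebraMap K v.ResidueField))
    (a : v.toValuationSubring) :
    ∃ g : v.toValuationSubring, D K F (a : F) = (g : F) • v.dCoord := by
  set π := (IsDiscreteValuationRing.exists_irreducible v.toValuationSubring).choose with hπdef
  have hπ : Irreducible π :=
    (IsDiscreteValuationRing.exists_irreducible v.toValuationSubring).choose_spec
  have hspan := span_D_eq_top_of_essFiniteType K v.toValuationSubring hres π hπ.maximalIdeal_eq
  have hmem : D K v.toValuationSubring a ∈ Submodule.span v.toValuationSubring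
      {D K v.toValuationSubring π} := by rw [hspan]; trivial
  obtain ⟨g, hg⟩ := Submodule.mem_span_singleton.mp hmem
  refine ⟨g, ?_⟩
  have h1 := congrArg (KaehlerDifferential.map K K v.toValuationSubring F) hg
  rw [map_smul, KaehlerDifferential.map_D, KaehlerDifferential.map_D] at h1
  have h2 : D K F (algebraMap v.toValuationSubring F a)
      = (algebraMap v.toValuationSubring F g) • D K F (algebraMap v.toValuationSubring F π) := by
    rw [algebraMap_smul]; exact h1.symm
  exact h2

theorem span_dCoord_eq_top [Algebra.EssFiniteType K v.toValuationSubring]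
    (hres : Function.Surjective (algebraMap K v.ResidueField)) :
    Submodule.span F {v.dCoord} = ⊤ := by
  rw [eq_top_iff, ← KaehlerDifferential.span_range_derivation K F, Submodule.span_le]
  rintro _ ⟨f, rfl⟩
  have key : ∀ a : F, a ∈ v.toValuationSubring → D K F a ∈ Submodule.span F {v.dCoord} := by
    intro a ha
    obtain ⟨g, hg⟩ := exists_mem_D_eq_smul_dCoord v hres ⟨a, ha⟩
    rw [show ((⟨a, ha⟩ : v.toValuationSubring) : F) = a from rfl] at hg
    rw [hg]
    exact Submodule.smul_mem _ _ (Submodule.mem_span_singleton_self _)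
  rcases v.toValuationSubring.mem_or_inv_mem f with hf | hf
  · exact key f hf
  · have h2 := key f⁻¹ hf
    have h3 : D K F f = -f ^ 2 • D K F f⁻¹ := by
      have := Derivation.leibniz_inv (D K F) f⁻¹
      rwa [inv_inv] at this
    show D K F f ∈ Submodule.span F {v.dCoord}
    rw [h3]
    exact Submodule.smul_mem _ _ h2

theorem dCoordGenerates_of_essFiniteType [Algebra.EssFiniteType K v.toValuationSubring]
    (hres : Function.Surjective (algebraMap K v.ResidueField)) : v.DCoordGenerates :=
  ⟨span_dCoord_eq_top v hres⟩

/-- `d/dt` preserves the valuation ring. -/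
theorem differentialCoeff_D_mem [Algebra.EssFiniteType K v.toValuationSubring]
    [Nontrivial Ω[F⁄K]]
    (hres : Function.Surjective (algebraMap K v.ResidueField))
    {a : F} (ha : a ∈ v.toValuationSubring) :
    v.differentialCoeff (D K F a) ∈ v.toValuationSubring := by
  have := dCoordGenerates_of_essFiniteType v hres
  obtain ⟨g, hg⟩ := exists_mem_D_eq_smul_dCoord v hres ⟨a, ha⟩
  rw [show ((⟨a, ha⟩ : v.toValuationSubring) : F) = a from rfl] at hg
  rw [v.differentialCoeff_unique hg]
  exact g.2

/-- In characteristic zero, `ord_v(dy) = ord_v(y) - 1` as soon as `ord_v(y) ≠ 0`. -/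
theorem ordDifferential_D_of_ord_ne_zero [CharZero K]
    [Algebra.EssFiniteType K v.toValuationSubring] [Nontrivial Ω[F⁄K]]
    (hres : Function.Surjective (algebraMap K v.ResidueField))
    {y : F} (hy : y ≠ 0) (hord : v.ord y ≠ 0) :
    v.ordDifferential (D K F y) = v.ord y - 1 := by
  have := dCoordGenerates_of_essFiniteType v hres
  set π := (IsDiscreteValuationRing.exists_irreducible v.toValuationSubring).choose with hπdef
  have hπ : Irreducible π :=
    (IsDiscreteValuationRing.exists_irreducible v.toValuationSubring).choose_spec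
  have hdC : v.dCoord = D K F (π : F) := rfl
  have hπ0 : (π : F) ≠ 0 := by
    simpa [ne_eq, ZeroMemClass.coe_eq_zero] using hπ.ne_zero
  have hπord : v.ord (π : F) = 1 := v.ord_coe_irreducible hπ
  obtain ⟨u, hu⟩ := v.exists_unit_mul_zpow hy hπ
  set n := v.ord y with hn
  obtain ⟨g, hg⟩ := exists_mem_D_eq_smul_dCoord v hres (u : v.toValuationSubring)
  have hu0 : ((u : v.toValuationSubring) : F) ≠ 0 := by
    simp [ne_eq, ZeroMemClass.coe_eq_zero]
  -- compute `D y`
  have hDy : D K F y = (((π : F) ^ n) * (g : F) + ((n : ℤ) : F) * ((u : v.toValuationSubring) : F)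
      * (π : F) ^ (n - 1)) • v.dCoord := by
    rw [hu, Derivation.leibniz, Derivation.leibniz_zpow, hg, hdC, add_smul, add_comm]
    congr 1
    · rw [mul_smul]
    · rw [← Int.cast_smul_eq_zsmul F n, smul_smul, smul_smul]
      congr 1
      ring
  rw [Place.ordDifferential, v.differentialCoeff_unique hDy]
  -- the dominant term
  have hnK : ((n : ℤ) : K) ≠ 0 := by exact_mod_cast hord
  have hnF : ((n : ℤ) : F) ≠ 0 := by
    have : ((n : ℤ) : F) = algebraMap K F ((n : ℤ) : K) := by simp
    rw [this]
    exact (map_ne_zero_iff _ (algebraMap K F).injective).mpr hnK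
  have hnord : v.ord ((n : ℤ) : F) = 0 := by
    have : ((n : ℤ) : F) = algebraMap K F ((n : ℤ) : K) := by simp
    rw [this]
    exact ord_algebraMap v _
  have hs0 : ((n : ℤ) : F) * ((u : v.toValuationSubring) : F) * (π : F) ^ (n - 1) ≠ 0 :=
    mul_ne_zero (mul_ne_zero hnF hu0) (zpow_ne_zero _ hπ0)
  have hsord : v.ord (((n : ℤ) : F) * ((u : v.toValuationSubring) : F) * (π : F) ^ (n - 1))
      = n - 1 := by
    rw [v.ord_mul (mul_ne_zero hnF hu0) (zpow_ne_zero _ hπ0), v.ord_mul hnF hu0, hnord,
      v.ord_coe_unit u, v.ord_zpow, hπord]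
    ring
  rw [add_comm, ord_add_of_lt v hs0, hsord]
  by_cases hg0 : (g : F) = 0
  · left; rw [hg0, mul_zero]
  · right
    rw [hsord, v.ord_mul (zpow_ne_zero _ hπ0) hg0, v.ord_zpow, hπord]
    have := ord_nonneg_of_mem v g.2
    omega

/-- Version with a constant shift: `ord_v(dx) = ord_v(x - c) - 1`. -/
theorem ordDifferential_D_sub_const [CharZero K]
    [Algebra.EssFiniteType K v.toValuationSubring] [Nontrivial Ω[F⁄K]]
    (hres : Function.Surjective (algebraMap K v.ResidueField))
    {x : F} (c : K) (hx : x ≠ algebraMap K F c) (hord : v.ord (x - algebraMap K F c) ≠ 0) :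
    v.ordDifferential (D K F x) = v.ord (x - algebraMap K F c) - 1 := by
  have h := ordDifferential_D_of_ord_ne_zero v hres (sub_ne_zero.mpr hx) hord
  rwa [map_sub, Derivation.map_algebraMap, sub_zero] at h

end Main

end Fermat.Agent.S24x
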