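import Fermat.Agent.S24x.CoveringSym
import Fermat.Agent.S24x.VPt
import Fermat.Agent.S24x.CoveringDedekind
import Fermat.Agent.S24x.LocalDiff

/-!
# S24 project, module C3 (part 5): covering of the finite places

`covering_finite_of_dedekind` : let `R ⊆ F_N` be a Dedekind domain with fraction field `F_N`,
integral over `Q̄[j]`.  Then every place of `F_N` over `j = c` is of the form `vPt N (g • τ₀)`,
`g ∈ SL(2,ℤ)`, where `τ₀` is any point with `j(τ₀) = c`.
-/

set_option autoImplicit false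

namespace Fermat.Agent.S24x

open UpperHalfPlane Polynomial TensorProduct CongruenceSubgroup AlgebraicCurve
open scoped MatrixGroups Manifold

noncomputable section

attribute [local instance] cov_algQbarC cov_algQbarMer cov_isScalarTower

/-- A polynomial expression (coefficients in `K`) in an element of valuation `≤ 1` has valuation
`≤ 1` when `w ≤ 1` on `K`. -/
theorem cov_val_aeval_le_one' {K H Γ₀ : Type*} [CommRing K] [CommRing H] [Algebra K H]
    [LinearOrderedCommGroupWithZero Γ₀] (w : Valuation H Γ₀)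
    (hwK : ∀ z : K, w (algebraMap K H z) ≤ 1) {J : H} (hJ : w J ≤ 1) (r : K[X]) :
    w (aeval J r) ≤ 1 := by
  induction r using Polynomial.induction_on' with
  | add p q hp hq =>
    rw [map_add]
    exact Valuation.map_add_le w hp hq
  | monomial n a =>
    rw [aeval_monomial, map_mul, map_pow]
    calc w (algebraMap K H a) * w J ^ n ≤ 1 * 1 ^ n := by
          exact mul_le_mul' (hwK a) (pow_le_pow_left' hJ n)
      _ = 1 := by rw [one_pow, mul_one]

section general

variable {K F : Type*} [Field K] [Field F] [Algebra K F]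
variable (R : Type*) [CommRing R] [Algebra K R] [Algebra R F] [IsScalarTower K R F]

/-- If `t ∈ O_v` and `R` is integral over `K[t]`, then `R ⊆ O_v`. -/
theorem cov_mem_of_integral (t : R)
    (hint : ∀ r : R, ((aeval t : K[X] →ₐ[K] R) : K[X] →+* R).IsIntegralElem r)
    (v : Place K F) (ht : algebraMap R F t ∈ v.toValuationSubring) (r : R) :
    algebraMap R F r ∈ v.toValuationSubring := by
  rw [← adicValuation_le_one_iff]
  obtain ⟨P, hPm, hP⟩ := hint r
  refine cov_val_le_one_of_isIntegralElem v.adicValuation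
    ((algebraMap R F).comp ((aeval t : K[X] →ₐ[K] R) : K[X] →+* R)) (fun a => ?_)
    ⟨P, hPm, by rw [← Polynomial.hom_eval₂, hP, map_zero]⟩
  rw [RingHom.comp_apply, RingHom.coe_coe, ← Polynomial.aeval_algebraMap_apply]
  refine cov_val_aeval_le_one' v.adicValuation (fun z => ?_) ?_ a
  · rw [adicValuation_le_one_iff]
    exact v.algebraMap_mem' z
  · rw [adicValuation_le_one_iff]
    exact ht

end general

variable (N : ℕ) [NeZero N]
variable (R : Type*) [CommRing R] [Algebra Qbar R] [Algebra R (FBar N)]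
  [IsScalarTower Qbar R (FBar N)]

/-- transfer of integrality along `cov_ev x` -/
theorem cov_ev_isIntegralElem (tR : R) (J : Mer) (hJ : ∀ x, cov_ev N R x tR = J) (r : R)
    (hint : ((aeval tR : Qbar[X] →ₐ[Qbar] R) : Qbar[X] →+* R).IsIntegralElem r) (x : Q N) :
    ((aeval J : ℂ[X] →ₐ[ℂ] Mer) : ℂ[X] →+* Mer).IsIntegralElem (cov_ev N R x r) := by
  obtain ⟨P, hPm, hP⟩ := hint
  refine ⟨P.map (Polynomial.mapRingHom iotaQ), hPm.map _, ?_⟩
  have hcomp : (((aeval J : ℂ[X] →ₐ[ℂ] Mer) : ℂ[X] →+* Mer)).comp (Polynomial.mapRingHom iotaQ) =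
      ((cov_ev N R x : R →ₐ[Qbar] Mer) : R →+* Mer).comp
        ((aeval tR : Qbar[X] →ₐ[Qbar] R) : Qbar[X] →+* R) := by
    apply Polynomial.ringHom_ext
    · intro a
      simp only [RingHom.coe_comp, RingHom.coe_coe, Function.comp_apply, coe_mapRingHom, map_C,
        aeval_C]
      rw [AlgHom.commutes]
      rfl
    · simp only [RingHom.coe_comp, RingHom.coe_coe, Function.comp_apply, coe_mapRingHom, map_X,
        aeval_X]
      exact (hJ x).symm
  rw [Polynomial.eval₂_map, hcomp, ← RingHom.coe_coe (cov_ev N R x), ← Polynomial.hom_eval₂, hP,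
    map_zero]

/-- **Covering of the finite places** (relative to a Dedekind domain `R ⊆ F_N`, integral over
`Q̄[j]`, with fraction field `F_N`). -/
theorem covering_finite_of_dedekind [IsDedekindDomain R] [IsFractionRing R (FBar N)]
    (tR : R) (htR : algebraMap R (FBar N) tR = jBar N)
    (hint : ∀ r : R, ((aeval tR : Qbar[X] →ₐ[Qbar] R) : Qbar[X] →+* R).IsIntegralElem r)
    (c : Qbar) (τ₀ : ℍ) (hτ₀ : jFun τ₀ = iotaQ c)
    (v : Place Qbar (FBar N)) (hv : v ∈ placesOver Qbar (FBar N) (jBar N) c) :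
    ∃ g : SL(2, ℤ), v = vPt N (g • τ₀) := by
  classical
  have hinjR : Function.Injective (algebraMap R (FBar N)) := IsFractionRing.injective R (FBar N)
  rw [mem_placesOver] at hv
  -- `jBar ∈ O_v`
  have hjv : algebraMap R (FBar N) tR ∈ v.toValuationSubring := by
    rw [htR]
    have h0 : jBar N - algebraMap Qbar (FBar N) c ≠ 0 := by
      intro h
      rw [h, Place.ord_zero] at hv
      exact lt_irrefl _ hv
    have h1 : jBar N - algebraMap Qbar (FBar N) c ∈ v.toValuationSubring :=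
      (ord_nonneg_iff v h0).1 hv.le
    have := v.toValuationSubring.add_mem _ _ h1 (v.algebraMap_mem' c)
    rwa [sub_add_cancel] at this
  have hvR : ∀ r : R, algebraMap R (FBar N) r ∈ v.toValuationSubring :=
    cov_mem_of_integral R tR hint v hjv
  set x0 : Q N := ((1 : SL(2, ℤ)) : Q N) with hx0
  have hJ : ∀ x, cov_ev N R x tR = jMer := by
    intro x
    rw [cov_ev_apply, htR, evF_jBar, cov_jMer_smul]
  have hτ : ∀ g : SL(2, ℤ), jFun (g • τ₀) = iotaQ c := fun g => by rw [jFun_smul, hτ₀]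
  let w : Q N → Place Qbar (FBar N) := fun x => vPt N ((Quotient.out x : SL(2, ℤ))⁻¹ • τ₀)
  have hordval : ∀ (τ : ℍ) (r : R) (x : Q N), cov_ordVal τ (cov_ev N R x r) ≤ 1 := by
    intro τ r x
    refine cov_val_le_one_of_isIntegralElem (cov_ordVal τ) _ (fun a => ?_)
      (cov_ev_isIntegralElem N R tR jMer hJ r (hint r) x)
    rw [RingHom.coe_coe, cov_aeval_jMer]
    exact cov_ordVal_hol τ _
  have hw : ∀ x, ∀ r : R, algebraMap R (FBar N) r ∈ (w x).toValuationSubring := by
    intro x r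
    show algebraMap R (FBar N) r ∈ (vPt N ((Quotient.out x : SL(2, ℤ))⁻¹ • τ₀)).toValuationSubring
    rw [mem_vPt_iff N _ (hτ _)]
    apply cov_ordAt_nonneg_of_le_one
    have := hordval ((Quotient.out x : SL(2, ℤ))⁻¹ • τ₀) r x0
    rwa [cov_ev_one N R x0 rfl] at this
  suffices hmain : ∀ r : R, 0 < v.ord (algebraMap R (FBar N) r) →
      ∃ x, 0 < (w x).ord (algebraMap R (FBar N) r) by
    obtain ⟨x, hx⟩ := cov_place_eq_of_forall R v hvR w hw hmain
    exact ⟨(Quotient.out x : SL(2, ℤ))⁻¹, hx⟩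
  -- the main step
  intro r hr
  have hr0 : algebraMap R (FBar N) r ≠ 0 := by
    intro h
    rw [h, Place.ord_zero] at hr
    exact lt_irrefl _ hr
  have hvt : 0 < v.ord (algebraMap R (FBar N) tR - algebraMap Qbar (FBar N) c) := by
    rw [htR]
    exact hv
  obtain ⟨φ, hφt, hφ⟩ := cov_exists_residue R tR c hint v hvR hvt
  have hφr : φ r = 0 := (hφ r).2 (Or.inr hr)
  obtain ⟨Q, hQ⟩ := cov_exists_Q jMer cov_inv_finite (fun x => cov_ev N R x r)
    (fun γ x => cov_ev_smul N R γ x r)
    (fun x => cov_ev_isIntegralElem N R tR jMer hJ r (hint r) x)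
  have hwt : cov_ordVal τ₀ (cov_ev N R x0 tR - algebraMap ℂ Mer (algebraMap Qbar ℂ c)) < 1 := by
    rw [hJ x0]
    have h1 : jMer - algebraMap ℂ Mer (algebraMap Qbar ℂ c) =
        algebraMap Hol Mer (jHol - algebraMap ℂ Hol (iotaQ c)) := by
      rw [map_sub, ← IsScalarTower.algebraMap_apply ℂ Hol Mer]
      rfl
    rw [h1]
    have hne : jHol - algebraMap ℂ Hol (iotaQ c) ≠ 0 := jHol_sub_const_ne_zero _
    have hne' : algebraMap Hol Mer (jHol - algebraMap ℂ Hol (iotaQ c)) ≠ 0 := by
      rw [Ne, map_eq_zero_iff _ (IsFractionRing.injective Hol Mer)]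
      exact hne
    rw [cov_ordVal_lt_one_iff τ₀ hne', ordAt_algebraMap_pos_iff τ₀ hne]
    show jFun τ₀ - iotaQ c = 0
    rw [hτ₀, sub_self]
  obtain ⟨x, hx⟩ := cov_abstract (cov_ev N R) x0 (cov_tensor_injective N R hinjR x0 rfl) tR c
    (cov_ordVal τ₀) (cov_ordVal_const τ₀) hwt φ hφt r hφr Q (by rw [hJ x0]; exact hQ)
  refine ⟨x, ?_⟩
  rw [cov_ev_apply, cov_ordVal_smul] at hx
  have hne : evF N (algebraMap R (FBar N) r) ≠ 0 := by
    rw [Ne, map_eq_zero]
    exact hr0
  rw [cov_ordVal_lt_one_iff _ hne] at hx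
  obtain ⟨g, hg, hgo⟩ := exists_ordAt_eq_mul_vPt_ord N _ (hτ (Quotient.out x : SL(2, ℤ))⁻¹)
  rw [hgo] at hx
  have hg' : (0 : ℤ) < (g : ℤ) := by exact_mod_cast hg
  show 0 < (vPt N ((Quotient.out x : SL(2, ℤ))⁻¹ • τ₀)).ord (algebraMap R (FBar N) r)
  exact (pos_iff_pos_of_mul_pos hx).1 hg'

end

end Fermat.Agent.S24x
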