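/-
S24 blueprint, module A5 (helper57): Kaehler differentials of the DVR of a place.

Main results (namespace `Fermat.Agent.S24x`):
* `span_D_irreducible_eq_top` : for a DVR `A` over a field `K` with `Ω[A⁄K]` finite and
  residue field `K`, `Ω[A⁄K]` is generated by `dπ` for any uniformizer `π`.
* `Place_exists_D_eq_smul_D` : for a place `v`, `u ∈ A_v`: `D u = u' • D π` with `u' ∈ A_v`.
* `Place_span_D_irreducible_eq_top` : `Ω[F⁄K] = F • D π`.
* `Place_dCoordGenerates` : `v.DCoordGenerates`.
* `Place_D_irreducible_ne_zero` : `D π ≠ 0` if `Ω[F⁄K]` is nontrivial.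
-/
import Mathlib
import Fermat.Prelude.Def_ModularCurve_CanonicalDivisor

set_option autoImplicit false

open KaehlerDifferential

namespace Fermat.Agent.S24x

section AbstractDVR

variable {K A : Type*} [Field K] [CommRing A] [IsDomain A] [IsDiscreteValuationRing A]
  [Algebra K A]

/-- In a DVR `A` over `K` whose residue field is `K`, every element is congruent to a constant
modulo a uniformizer. -/
theorem exists_eq_const_add_irreducible_mul
    (hres : Function.Surjective (algebraMap K (IsLocalRing.ResidueField A)))
    {π : A} (hπ : Irreducible π) (u : A) :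
    ∃ (c : K) (w : A), u = algebraMap K A c + π * w := by
  obtain ⟨c, hc⟩ := hres (IsLocalRing.residue A u)
  have h1 : IsLocalRing.residue A (u - algebraMap K A c) = 0 := by
    rw [map_sub, ← hc]
    have : IsLocalRing.residue A (algebraMap K A c)
        = algebraMap K (IsLocalRing.ResidueField A) c := rfl
    rw [this, sub_self]
  rw [IsLocalRing.residue_eq_zero_iff, hπ.maximalIdeal_eq, Ideal.mem_span_singleton'] at h1
  obtain ⟨w, hw⟩ := h1
  exact ⟨c, w, by rw [mul_comm, hw]; ring⟩

/-- **Key lemma**: for a DVR `A` over `K` with residue field `K` and finitely generated module of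
differentials, `Ω[A⁄K]` is generated by `dπ`. -/
theorem span_D_irreducible_eq_top [Module.Finite A Ω[A⁄K]]
    (hres : Function.Surjective (algebraMap K (IsLocalRing.ResidueField A)))
    {π : A} (hπ : Irreducible π) :
    Submodule.span A {D K A π} = (⊤ : Submodule A Ω[A⁄K]) := by
  rw [eq_top_iff]
  refine Submodule.le_of_le_smul_of_le_jacobson_bot (I := IsLocalRing.maximalIdeal A)
    Module.Finite.fg_top (IsLocalRing.maximalIdeal_le_jacobson _) ?_
  rw [← KaehlerDifferential.span_range_derivation K A, Submodule.span_le]
  rintro _ ⟨u, rfl⟩
  obtain ⟨c, w, rfl⟩ := exists_eq_const_add_irreducible_mul hres hπ u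
  have hd : D K A (algebraMap K A c + π * w) = π • D K A w + w • D K A π := by
    rw [map_add, Derivation.map_algebraMap, zero_add, Derivation.leibniz]
  rw [hd, KaehlerDifferential.span_range_derivation K A]
  refine Submodule.add_mem _ (Submodule.mem_sup_right ?_) (Submodule.mem_sup_left ?_)
  · refine Submodule.smul_mem_smul ?_ Submodule.mem_top
    rw [hπ.maximalIdeal_eq]
    exact Ideal.mem_span_singleton_self π
  · exact Submodule.smul_mem _ _ (Submodule.mem_span_singleton_self _)

theorem exists_D_eq_smul_D_irreducible [Module.Finite A Ω[A⁄K]]
    (hres : Function.Surjective (algebraMap K (IsLocalRing.ResidueField A)))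
    {π : A} (hπ : Irreducible π) (u : A) :
    ∃ u' : A, D K A u = u' • D K A π := by
  have h : D K A u ∈ Submodule.span A {D K A π} := by
    rw [span_D_irreducible_eq_top hres hπ]; exact Submodule.mem_top
  obtain ⟨u', hu'⟩ := Submodule.mem_span_singleton.mp h
  exact ⟨u', hu'.symm⟩

end AbstractDVR

section Place

open AlgebraicCurve

variable {K F : Type*} [Field K] [Field F] [Algebra K F]

/-- The differential of an element of the valuation ring of a place is an integral multiple of the
differential of a uniformizer (inside `Ω[F⁄K]`). -/
theorem Place_exists_D_eq_smul_D (v : Place K F)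
    [Module.Finite v.toValuationSubring Ω[v.toValuationSubring⁄K]]
    (hres : Function.Surjective (algebraMap K v.ResidueField))
    {π : v.toValuationSubring} (hπ : Irreducible π) (u : v.toValuationSubring) :
    ∃ u' : v.toValuationSubring, D K F (u : F) = (u' : F) • D K F (π : F) := by
  obtain ⟨u', hu'⟩ := exists_D_eq_smul_D_irreducible hres hπ u
  refine ⟨u', ?_⟩
  have h := congrArg (KaehlerDifferential.map K K v.toValuationSubring F) hu'
  rw [map_smul, KaehlerDifferential.map_D, KaehlerDifferential.map_D] at h
  rw [← algebraMap_smul F u' (D K F ((algebraMap v.toValuationSubring F) π))] at h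
  exact h

/-- The differential of a uniformizer at a place generates `Ω[F⁄K]` over `F`. -/
theorem Place_span_D_irreducible_eq_top (v : Place K F)
    [Module.Finite v.toValuationSubring Ω[v.toValuationSubring⁄K]]
    (hres : Function.Surjective (algebraMap K v.ResidueField))
    {π : v.toValuationSubring} (hπ : Irreducible π) :
    Submodule.span F {D K F (π : F)} = (⊤ : Submodule F Ω[F⁄K]) := by
  rw [eq_top_iff, ← KaehlerDifferential.span_range_derivation K F, Submodule.span_le]
  rintro _ ⟨f, rfl⟩
  have key : ∀ g : F, g ∈ v.toValuationSubring →
      D K F g ∈ Submodule.span F {D K F (π : F)} := by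
    intro g hg
    obtain ⟨u', hu'⟩ := Place_exists_D_eq_smul_D v hres hπ ⟨g, hg⟩
    rw [show D K F g = D K F ((⟨g, hg⟩ : v.toValuationSubring) : F) from rfl, hu']
    exact Submodule.smul_mem _ _ (Submodule.mem_span_singleton_self _)
  rcases v.toValuationSubring.mem_or_inv_mem f with hf | hf
  · exact key f hf
  · have h1 : D K F f = -(f⁻¹)⁻¹ ^ 2 • D K F f⁻¹ := by
      conv_lhs => rw [← inv_inv f]
      exact Derivation.leibniz_inv _ _
    rw [SetLike.mem_coe, h1]
    exact Submodule.smul_mem _ _ (key _ hf)

/-- The prelude's `dCoord` is the differential of an irreducible element of the valuation ring. -/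
theorem Place_dCoord_eq (v : Place K F) :
    ∃ π : v.toValuationSubring, Irreducible π ∧ v.dCoord = D K F (π : F) :=
  ⟨(IsDiscreteValuationRing.exists_irreducible v.toValuationSubring).choose,
    (IsDiscreteValuationRing.exists_irreducible v.toValuationSubring).choose_spec, rfl⟩

theorem Place_dCoordGenerates (v : Place K F)
    [Module.Finite v.toValuationSubring Ω[v.toValuationSubring⁄K]]
    (hres : Function.Surjective (algebraMap K v.ResidueField)) :
    v.DCoordGenerates := by
  obtain ⟨π, hπ, hd⟩ := Place_dCoord_eq v
  exact ⟨by rw [hd]; exact Place_span_D_irreducible_eq_top v hres hπ⟩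

theorem Place_D_irreducible_ne_zero (v : Place K F)
    [Module.Finite v.toValuationSubring Ω[v.toValuationSubring⁄K]]
    (hres : Function.Surjective (algebraMap K v.ResidueField)) [Nontrivial Ω[F⁄K]]
    {π : v.toValuationSubring} (hπ : Irreducible π) :
    D K F (π : F) ≠ 0 := by
  intro h0
  have htop := Place_span_D_irreducible_eq_top v hres hπ
  rw [h0, Submodule.span_zero_singleton] at htop
  obtain ⟨x, hx⟩ := exists_ne (0 : Ω[F⁄K])
  exact hx ((Submodule.mem_bot F).mp (htop ▸ Submodule.mem_top))

/-- Over an algebraically closed field, a place with finite residue field has residue field `K`. -/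
theorem Place_residue_surjective (v : Place K F) [IsAlgClosed K] [v.FiniteResidue] :
    Function.Surjective (algebraMap K v.ResidueField) := by
  have : Module.Finite K v.ResidueField := Place.FiniteResidue.finite
  have : Algebra.IsIntegral K v.ResidueField := Algebra.IsIntegral.of_finite K _
  exact (IsAlgClosed.algebraMap_bijective_of_isIntegral (k := K) (K := v.ResidueField)).2

section Dedekind

open IsDedekindDomain

variable {R : Type*} [CommRing R] [IsDedekindDomain R] [Algebra R F] [IsFractionRing R F]
  [Algebra K R] [IsScalarTower K R F]

private theorem essFiniteType_aux [Algebra.FiniteType K R] (w : HeightOneSpectrum R)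
    (B : ValuationSubring F) (h : HeightOneSpectrum.valuationSubringAtPrime F w = B)
    (hK : ∀ a : K, algebraMap K F a ∈ B) :
    @Algebra.EssFiniteType K B _ _
      ((algebraMap K F).codRestrict B.toSubring hK).toAlgebra := by
  subst h
  let : Algebra K (HeightOneSpectrum.valuationSubringAtPrime F w) :=
    ((algebraMap K F).codRestrict _ hK).toAlgebra
  have : IsScalarTower K R (HeightOneSpectrum.valuationSubringAtPrime F w) :=
    IsScalarTower.of_algebraMap_eq (fun a => Subtype.ext (by
      show algebraMap K F a = algebraMap R F (algebraMap K R a)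
      exact IsScalarTower.algebraMap_apply K R F a))
  have : Algebra.EssFiniteType R (HeightOneSpectrum.valuationSubringAtPrime F w) :=
    Algebra.EssFiniteType.of_isLocalization _ w.asIdeal.primeCompl
  exact Algebra.EssFiniteType.comp K R _

/-- The valuation ring of the place attached to a maximal ideal of a Dedekind domain `R` of finite
type over `K` is essentially of finite type over `K`. -/
theorem essFiniteType_ofHeightOneSpectrum [Algebra.FiniteType K R] (w : HeightOneSpectrum R) :
    Algebra.EssFiniteType K
      (Place.ofHeightOneSpectrum (K := K) (F := F) w).toValuationSubring :=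
  essFiniteType_aux w _ (HeightOneSpectrum.valuationSubringAtPrime_eq_valuationSubring w)
    (Place.ofHeightOneSpectrum (K := K) (F := F) w).algebraMap_mem'

/-- Consequently its module of differentials is finite. -/
theorem finite_kaehler_ofHeightOneSpectrum [Algebra.FiniteType K R] (w : HeightOneSpectrum R) :
    Module.Finite (Place.ofHeightOneSpectrum (K := K) (F := F) w).toValuationSubring
      Ω[(Place.ofHeightOneSpectrum (K := K) (F := F) w).toValuationSubring⁄K] := by
  have := essFiniteType_ofHeightOneSpectrum (K := K) (F := F) w
  infer_instance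

end Dedekind

end Place

end Fermat.Agent.S24x
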