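import Mathlib
import Fermat.Prelude.Def_AlgebraicCurve_CanonicalDivisor
import Fermat.Agent.S24x.PlaceBasic
import Fermat.Agent.S24x.PlaceCenter

/-!
# S24 project, algebraic core (helper72): places versus primes of the integral closure

`A = K[x] ⊆ F`, `B` = integral closure of `A` in `F`.  Places `v` of `F/K` with `x ∈ O_v`
correspond bijectively to the nonzero primes of `B`.
-/

set_option autoImplicit false

open AlgebraicCurve IntermediateField IsDedekindDomain
open scoped IntermediateField.algebraAdjoinAdjoin WithZero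

namespace Fermat.Agent.S24x

variable {K F : Type*} [Field K] [Field F] [Algebra K F]

section Rings
variable (K) (x : F)

/-- `A = K[x]` as a subalgebra of `F`. -/
abbrev ringA : Subalgebra K F := Algebra.adjoin K {x}

/-- `B` = the integral closure of `K[x]` in `F`. -/
abbrev ringB : Subalgebra (ringA K x) F := integralClosure (ringA K x) F

/-- `x` as an element of `A`. -/
def genA : ringA K x := ⟨x, Algebra.self_mem_adjoin_singleton K x⟩

@[simp] theorem coe_genA : ((genA K x : ringA K x) : F) = x := rfl

end Rings

/-- Standing hypotheses: `x` transcendental over `K` and `F` finite over `K(x)`. -/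
class FFData (K F : Type*) [Field K] [Field F] [Algebra K F] (x : F) : Prop where
  transc : Transcendental K x
  fin : FiniteDimensional K⟮x⟯ F

namespace FFData

variable (x : F) [h : FFData K F x]

instance : FiniteDimensional K⟮x⟯ F := h.fin

instance : Algebra.IsAlgebraic K⟮x⟯ F := Algebra.IsAlgebraic.of_finite K⟮x⟯ F

instance : IsPrincipalIdealRing (ringA K x) :=
  IsPrincipalIdealRing.of_surjective
    (Polynomial.algEquivOfTranscendental K x h.transc).toRingEquiv.toRingHom
    (Polynomial.algEquivOfTranscendental K x h.transc).surjective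

instance [CharZero K] : CharZero K⟮x⟯ :=
  charZero_of_injective_algebraMap (algebraMap K K⟮x⟯).injective

instance [CharZero K] : IsDedekindDomain (ringB K x) :=
  integralClosure.isDedekindDomain (ringA K x) K⟮x⟯ F

instance : IsFractionRing (ringB K x) F :=
  integralClosure.isFractionRing_of_finite_extension K⟮x⟯ F

instance [CharZero K] : Module.Finite (ringA K x) (ringB K x) :=
  IsIntegralClosure.finite (ringA K x) K⟮x⟯ F (ringB K x)

end FFData

/-- comparison of `Place.ord` with any `ℤᵐ⁰`-valued valuation having the same valuation ring and a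
uniformizer. -/
theorem pp_ord_eq_of_valuation (v : Place K F) (w : Valuation F ℤᵐ⁰)
    (hw : w.valuationSubring = v.toValuationSubring) (hunif : ∃ ϖ : F, w ϖ = WithZero.exp (-1 : ℤ))
    {f : F} (hf : f ≠ 0) : v.ord f = -(WithZero.log (w f)) := by
  obtain ⟨π, hπ, -⟩ := pb_exists_uniformizer v
  have hπ0 := pb_irreducible_coe_ne_zero v hπ
  have hmem : ∀ g : F, g ∈ v.toValuationSubring ↔ w g ≤ 1 := by
    intro g; rw [← hw]; exact Valuation.mem_valuationSubring_iff _ _
  have hunit : ∀ u : v.toValuationSubringˣ, w ((u : v.toValuationSubring) : F) = 1 := by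
    intro u
    have h1 := (hmem _).mp (u : v.toValuationSubring).2
    have h2 := (hmem _).mp ((u⁻¹ : v.toValuationSubringˣ) : v.toValuationSubring).2
    have h3 : w (((u : v.toValuationSubring) : F)) *
        w ((((u⁻¹ : v.toValuationSubringˣ) : v.toValuationSubring)) : F) = 1 := by
      rw [← map_mul, ← MulMemClass.coe_mul, Units.mul_inv, OneMemClass.coe_one, map_one]
    refine le_antisymm h1 ?_
    by_contra hlt
    rw [not_le] at hlt
    have : w (((u : v.toValuationSubring) : F)) *
        w ((((u⁻¹ : v.toValuationSubringˣ) : v.toValuationSubring)) : F) < 1 := by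
      calc _ ≤ w (((u : v.toValuationSubring) : F)) * 1 := by gcongr
        _ = w (((u : v.toValuationSubring) : F)) := mul_one _
        _ < 1 := hlt
    rw [h3] at this
    exact lt_irrefl _ this
  -- w π = exp (-1)
  have hwπ0 : w (π : F) ≠ 0 := (Valuation.ne_zero_iff _).mpr hπ0
  have hwπ : w (π : F) = WithZero.exp (-1 : ℤ) := by
    obtain ⟨ϖ, hϖ⟩ := hunif
    have hϖ0 : ϖ ≠ 0 := by
      rintro rfl
      rw [map_zero] at hϖ
      exact WithZero.exp_ne_zero hϖ.symm
    obtain ⟨u, hu⟩ := v.exists_unit_mul_zpow hϖ0 hπ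
    have h1 : w ϖ = w (π : F) ^ (v.ord ϖ) := by
      conv_lhs => rw [hu]
      rw [map_mul, hunit u, one_mul, map_zpow₀]
    -- w π < 1
    have hlt : w (π : F) < 1 := by
      have hle := (hmem _).mp π.2
      refine lt_of_le_of_ne hle ?_
      intro h1'
      -- then π⁻¹ ∈ O_v, so π is a unit
      have hinv : ((π : F))⁻¹ ∈ v.toValuationSubring := by
        rw [hmem, map_inv₀, h1', inv_one]
      apply hπ.not_isUnit
      refine isUnit_iff_exists_inv.mpr ⟨⟨_, hinv⟩, ?_⟩
      ext
      simp [hπ0]
    -- write w π = exp (-k)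
    obtain ⟨k, hk⟩ : ∃ k : ℤ, w (π : F) = WithZero.exp k :=
      ⟨WithZero.log (w (π : F)), (WithZero.exp_log hwπ0).symm⟩
    rw [hk] at hlt h1 ⊢
    rw [hϖ, ← WithZero.exp_zsmul, WithZero.exp_inj] at h1
    have hk' : k < 0 := by
      have := (WithZero.exp_lt_exp (a := k) (b := 0)).mp (by simpa using hlt)
      exact this
    rw [WithZero.exp_inj]
    simp only [smul_eq_mul] at h1
    -- (ord ϖ) * k = -1, k < 0 → k = -1
    have hdvd : k ∣ 1 := ⟨-(v.ord ϖ), by linarith⟩
    rcases Int.isUnit_iff.mp (isUnit_of_dvd_one hdvd) with h | h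
    · omega
    · exact h
  obtain ⟨u, hu⟩ := v.exists_unit_mul_zpow hf hπ
  conv_rhs => rw [hu]
  rw [map_mul, hunit u, one_mul, map_zpow₀, hwπ, ← WithZero.exp_zsmul, WithZero.log_exp]
  simp


section Bij

variable (x : F) [FFData K F x] [CharZero K]

/-- the place attached to a nonzero prime of `B` -/
noncomputable def placeOfPrime (P : HeightOneSpectrum (ringB K x)) : Place K F :=
  Place.ofHeightOneSpectrum (K := K) P

theorem placeOfPrime_toValuationSubring (P : HeightOneSpectrum (ringB K x)) :
    (placeOfPrime x P).toValuationSubring = (P.valuation F).valuationSubring := rfl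

theorem placeOfPrime_ord (P : HeightOneSpectrum (ringB K x)) {f : F} (hf : f ≠ 0) :
    (placeOfPrime x P).ord f = -(WithZero.log (P.valuation F f)) :=
  pp_ord_eq_of_valuation _ (P.valuation F) rfl (P.valuation_exists_uniformizer F) hf

theorem ringB_mem_placeOfPrime (P : HeightOneSpectrum (ringB K x)) (b : ringB K x) :
    (b : F) ∈ (placeOfPrime x P).toValuationSubring := by
  rw [placeOfPrime_toValuationSubring, Valuation.mem_valuationSubring_iff]
  exact P.valuation_le_one b

theorem mem_prime_iff_ord_pos (P : HeightOneSpectrum (ringB K x)) {b : ringB K x} (hb : b ≠ 0) :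
    b ∈ P.asIdeal ↔ 0 < (placeOfPrime x P).ord (b : F) := by
  have hbF : (b : F) ≠ 0 := by
    simpa [ne_eq, ZeroMemClass.coe_eq_zero] using hb
  rw [placeOfPrime_ord x P hbF, ← P.valuation_lt_one_iff_mem (K := F)]
  have hne : P.valuation F (algebraMap (ringB K x) F b) ≠ 0 :=
    (Valuation.ne_zero_iff _).mpr hbF
  show _ ↔ 0 < -(WithZero.log (P.valuation F (algebraMap (ringB K x) F b)))
  rw [neg_pos, ← WithZero.log_one, WithZero.log_lt_log hne one_ne_zero]

theorem placeOfPrime_injective : Function.Injective (placeOfPrime (K := K) x) := by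
  intro P P' h
  apply HeightOneSpectrum.ext
  ext b
  rcases eq_or_ne b 0 with rfl | hb
  · simp
  rw [mem_prime_iff_ord_pos x P hb, mem_prime_iff_ord_pos x P' hb, h]

/-- `O_v` as a `K`-subalgebra of `F` -/
def placeSubalgebra (v : Place K F) : Subalgebra K F :=
  { v.toValuationSubring.toSubring with algebraMap_mem' := v.algebraMap_mem' }

omit [FFData K F x] [CharZero K] in
theorem mem_placeSubalgebra (v : Place K F) (f : F) :
    f ∈ placeSubalgebra v ↔ f ∈ v.toValuationSubring := Iff.rfl

omit [FFData K F x] [CharZero K] in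
theorem ringA_le_place (v : Place K F) (hx : x ∈ v.toValuationSubring) :
    ringA K x ≤ placeSubalgebra v :=
  Algebra.adjoin_le (by
    intro y hy
    rw [Set.mem_singleton_iff] at hy
    subst hy
    exact hx)

omit [FFData K F x] [CharZero K] in
theorem ringB_mem_place (v : Place K F) (hx : x ∈ v.toValuationSubring) (b : ringB K x) :
    (b : F) ∈ v.toValuationSubring := by
  have hA := ringA_le_place x v hx
  let φ : ringA K x →+* v.toValuationSubring :=
    (algebraMap (ringA K x) F).codRestrict v.toValuationSubring.toSubring (fun a => hA a.2)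
  let _ : Algebra (ringA K x) v.toValuationSubring := φ.toAlgebra
  have : IsScalarTower (ringA K x) v.toValuationSubring F :=
    IsScalarTower.of_algebraMap_eq (fun _ => rfl)
  have hint : IsIntegral (ringA K x) (b : F) := b.2
  have hint' : IsIntegral v.toValuationSubring (b : F) := hint.tower_top
  obtain ⟨g, hg⟩ :=
    (IsIntegrallyClosed.isIntegral_iff (R := v.toValuationSubring) (K := F)).mp hint'
  rw [← hg]
  exact g.2

/-- **Every place with `x ∈ O_v` comes from a prime of `B`.** -/
theorem exists_prime_of_place (v : Place K F) (hx : x ∈ v.toValuationSubring) :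
    ∃ P : HeightOneSpectrum (ringB K x), placeOfPrime x P = v := by
  have hB := ringB_mem_place x v hx
  let ψ : ringB K x →+* v.toValuationSubring :=
    (algebraMap (ringB K x) F).codRestrict v.toValuationSubring.toSubring hB
  let I : Ideal (ringB K x) := Ideal.comap ψ (IsLocalRing.maximalIdeal v.toValuationSubring)
  have hIprime : I.IsPrime := Ideal.comap_isPrime ψ _
  -- membership: b ∈ I ↔ b not a unit of O_v
  have hImem : ∀ b : ringB K x, b ∈ I ↔ ¬ IsUnit (ψ b) := by
    intro b
    simp only [I, Ideal.mem_comap, IsLocalRing.mem_maximalIdeal, mem_nonunits_iff]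
  have hIne : I ≠ ⊥ := by
    intro hbot
    apply v.ne_top'
    refine SetLike.ext fun f => ⟨fun _ => ValuationSubring.mem_top f, fun _ => ?_⟩
    obtain ⟨b, s, hs, rfl⟩ := IsFractionRing.div_surjective (A := ringB K x) f
    have hs0 : s ≠ 0 := nonZeroDivisors.ne_zero hs
    have hsI : s ∉ I := by rw [hbot]; simpa using hs0
    rw [hImem, not_not] at hsI
    obtain ⟨u, hu⟩ := hsI
    have hinv : (algebraMap (ringB K x) F s)⁻¹ = ((u⁻¹ : v.toValuationSubringˣ) : v.toValuationSubring) := by
      have h1 : ((u : v.toValuationSubring) : F) = algebraMap (ringB K x) F s := by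
        rw [hu]; rfl
      rw [← h1]
      rw [inv_eq_iff_eq_inv, ← mul_eq_one_iff_eq_inv₀ (by
        have := (u⁻¹).ne_zero
        simp)]
      rw [← MulMemClass.coe_mul, Units.mul_inv, OneMemClass.coe_one]
    rw [div_eq_mul_inv, hinv]
    exact v.toValuationSubring.mul_mem _ _ (hB b) (SetLike.coe_mem _)
  let P : HeightOneSpectrum (ringB K x) := ⟨I, hIprime, hIne⟩
  refine ⟨P, ?_⟩
  apply Place.ext
  rw [placeOfPrime_toValuationSubring]
  have hle : (P.valuation F).valuationSubring ≤ v.toValuationSubring := by
    rw [← HeightOneSpectrum.valuationSubringAtPrime_eq_valuationSubring]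
    rintro f ⟨a, s, hs, rfl⟩
    have hsI : s ∉ I := hs
    rw [hImem, not_not] at hsI
    obtain ⟨u, hu⟩ := hsI
    have hinv : (algebraMap (ringB K x) F s)⁻¹ = ((u⁻¹ : v.toValuationSubringˣ) : v.toValuationSubring) := by
      have h1 : ((u : v.toValuationSubring) : F) = algebraMap (ringB K x) F s := by
        rw [hu]; rfl
      rw [← h1]
      rw [inv_eq_iff_eq_inv, ← mul_eq_one_iff_eq_inv₀ (by
        have := (u⁻¹).ne_zero
        simp)]
      rw [← MulMemClass.coe_mul, Units.mul_inv, OneMemClass.coe_one]
    show algebraMap (ringB K x) F a * (algebraMap (ringB K x) F s)⁻¹ ∈ v.toValuationSubring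
    rw [hinv]
    exact v.toValuationSubring.mul_mem _ _ (hB a) (SetLike.coe_mem _)
  have : IsPrincipalIdealRing ((P.valuation F).valuationSubring) :=
    Place.isPrincipalIdealRing_valuationSubring P
  exact ValuationSubring.eq_of_le_of_ne_top _ hle v.ne_top'

end Bij

end Fermat.Agent.S24x
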