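/-
S24 project, layer A, module A2a (helper58): the valuation ring of EVERY place of `F/K` is
essentially of finite type over `K` (when `F/K` has a coordinate `t`, `char K = 0`).
Built on `PlacePrime` (helper72) and `DVRDifferential.essFiniteType_ofHeightOneSpectrum` (helper57).
-/
import Mathlib
import Fermat.Prelude.Def_AlgebraicCurve_CanonicalDivisor
import Fermat.Agent.S24x.AlgDefs
import Fermat.Agent.S24x.PlaceBasic
import Fermat.Agent.S24x.PlaceCenter
import Fermat.Agent.S24x.PlacePrime
import Fermat.Agent.S24x.DVRDifferential

set_option autoImplicit false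

open AlgebraicCurve IntermediateField IsDedekindDomain
open scoped IntermediateField.algebraAdjoinAdjoin

namespace Fermat.Agent.S24x

variable {K F : Type*} [Field K] [Field F] [Algebra K F]

/-- `K[x]` is of finite type over `K`. -/
theorem pl_finiteType_ringA (x : F) : Algebra.FiniteType K (ringA K x) := by
  rw [← Subalgebra.fg_iff_finiteType]
  exact Subalgebra.fg_adjoin_finset {x} |> fun h => by simpa using h

section Main

variable (x : F) [FFData K F x] [CharZero K]

/-- the integral closure `B` of `K[x]` in `F` is of finite type over `K`. -/
theorem pl_finiteType_ringB : Algebra.FiniteType K (ringB K x) := by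
  have h1 : Algebra.FiniteType K (ringA K x) := pl_finiteType_ringA x
  have h2 : Algebra.FiniteType (ringA K x) (ringB K x) := inferInstance
  exact Algebra.FiniteType.trans h1 h2

/-- places at which `x` is integral have a valuation ring essentially of finite type. -/
theorem pl_essFiniteType_of_mem (v : Place K F) (hx : x ∈ v.toValuationSubring) :
    Algebra.EssFiniteType K v.toValuationSubring := by
  obtain ⟨P, rfl⟩ := exists_prime_of_place x v hx
  have := pl_finiteType_ringB (K := K) x
  exact essFiniteType_ofHeightOneSpectrum (K := K) (F := F) P

end Main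

/-- `K(x⁻¹) = K(x)`. -/
theorem pl_adjoin_inv (x : F) : K⟮x⁻¹⟯ = K⟮x⟯ := by
  apply le_antisymm
  · rw [adjoin_simple_le_iff]
    exact inv_mem (mem_adjoin_simple_self K x)
  · rw [adjoin_simple_le_iff]
    have h : (x⁻¹)⁻¹ ∈ K⟮x⁻¹⟯ := inv_mem (mem_adjoin_simple_self K x⁻¹)
    rwa [inv_inv] at h

/-- a coordinate gives the `FFData` package of `PlacePrime`. -/
theorem pl_ffData_of_isCoordinate {t : F} (ht : IsCoordinate K F t) : FFData K F t :=
  ⟨ht.transcendental, ht.finite⟩

/-- the inverse of a coordinate is a coordinate. -/
theorem pl_isCoordinate_inv {t : F} (ht : IsCoordinate K F t) : IsCoordinate K F t⁻¹ := by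
  refine ⟨?_, ?_⟩
  · intro h
    exact ht.transcendental (by simpa using h.inv)
  · have := ht.finite
    rw [pl_adjoin_inv]
    exact this

/-- **A2a**: the valuation ring of every place is essentially of finite type over `K`. -/
theorem place_essFiniteType [CharZero K] {t : F} (ht : IsCoordinate K F t) (v : Place K F) :
    Algebra.EssFiniteType K v.toValuationSubring := by
  rcases v.toValuationSubring.mem_or_inv_mem t with h | h
  · have := pl_ffData_of_isCoordinate ht
    exact pl_essFiniteType_of_mem t v h
  · have := pl_ffData_of_isCoordinate (pl_isCoordinate_inv ht)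
    exact pl_essFiniteType_of_mem t⁻¹ v h

/-- **A2b** (alias of `pc_place_residue_surjective`, helper72). -/
theorem place_residue_surjective [IsAlgClosed K] {t : F} (ht : IsCoordinate K F t)
    (v : Place K F) : Function.Surjective (algebraMap K v.ResidueField) :=
  pc_place_residue_surjective ht v

end Fermat.Agent.S24x
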