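import Mathlib
import Fermat.Agent.S24x.PlacePrime
import Fermat.Agent.S24x.PlaceLocal
import Fermat.Agent.S24x.CoveringDedekind

/-!
# S24 project, module C3 (part 3): the concrete Dedekind ring `R` used by the covering lemma

For a field extension `F / K` and `x : F`, `R := ringB K x` (helper72, `PlacePrime.lean`) is the
integral closure of `K[x]` in `F`.  Under `[FFData K F x] [CharZero K]` the instances
`IsDedekindDomain (ringB K x)`, `IsFractionRing (ringB K x) F` are on main (`PlacePrime.lean`);
`Algebra K (ringB K x)`, `Algebra (ringB K x) F`, `IsScalarTower K (ringB K x) F` are found by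
instance resolution.  This file adds what the covering lemma (C3, helper55) needs:

* `crGen K x : ringB K x` with `algebraMap_crGen : algebraMap (ringB K x) F (crGen K x) = x`;
* `cr_aeval_crGen : algebraMap _ F (aeval (crGen K x) p) = aeval x p`;
* `cr_isIntegralElem : ∀ r : ringB K x,
    ((aeval (crGen K x) : K[X] →ₐ[K] ringB K x) : K[X] →+* ringB K x).IsIntegralElem r`;
* `cr_mem_place` : `R ⊆ O_v` for every place with `x ∈ O_v`; `cr_mem_place_of_placesOver`
  (`v ∈ placesOver K F x c`), `cr_inv_mem_place_of_polePlaces` (`v ∈ polePlaces K F x`, ring of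
  `x⁻¹`);
* `cr_ffData`, `cr_ffData_inv` : the `FFData` instances for `x` and `x⁻¹` from `IsCoordinate`.

Usage for `FBar N`: `haveI := cr_ffData (isCoordinate_jBar N)` resp.
`haveI := cr_ffData_inv (isCoordinate_jBar N)`, then `R := ringB Qbar (jBar N)` resp.
`ringB Qbar (jBar N)⁻¹`.
-/

set_option autoImplicit false

namespace Fermat.Agent.S24x

open Polynomial AlgebraicCurve IntermediateField

variable {K F : Type*} [Field K] [Field F] [Algebra K F]

section Gen

variable (K) (x : F)

/-- `x` as an element of `B = ringB K x` (the integral closure of `K[x]` in `F`). -/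
def crGen : ringB K x :=
  ⟨x, by
    have h : IsIntegral (ringA K x) (algebraMap (ringA K x) F (genA K x)) :=
      isIntegral_algebraMap
    exact h⟩

@[simp] theorem crGen_coe : ((crGen K x : ringB K x) : F) = x := rfl

@[simp] theorem algebraMap_crGen : algebraMap (ringB K x) F (crGen K x) = x := rfl

theorem cr_coe_aeval_crGen (p : K[X]) :
    ((aeval (crGen K x) p : ringB K x) : F) = aeval x p := by
  have h : algebraMap (ringB K x) F (aeval (crGen K x) p) = aeval x p := by
    rw [← aeval_algebraMap_apply, algebraMap_crGen]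
  exact h

theorem cr_aeval_crGen (p : K[X]) :
    algebraMap (ringB K x) F (aeval (crGen K x) p) = aeval x p :=
  cr_coe_aeval_crGen K x p

/-- every element of `ringA K x = K[x]` is a polynomial in `x`. -/
theorem cr_exists_aeval_eq (a : ringA K x) : ∃ p : K[X], aeval x p = (a : F) := by
  have ha : (a : F) ∈ Algebra.adjoin K {x} := a.2
  rw [Algebra.adjoin_singleton_eq_range_aeval] at ha
  obtain ⟨p, hp⟩ := ha
  exact ⟨p, hp⟩

/-- **Integrality of `R` over `K[tR]`**, in the `RingHom.IsIntegralElem` form. -/
theorem cr_isIntegralElem (r : ringB K x) :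
    ((aeval (crGen K x) : K[X] →ₐ[K] ringB K x) : K[X] →+* ringB K x).IsIntegralElem r := by
  classical
  -- a monic polynomial over `K[x]` killing `r`
  obtain ⟨P, hPmonic, hP⟩ : IsIntegral (ringA K x) (r : F) := r.2
  -- lift the coefficients to `K[X]`
  choose c hc using fun a : ringA K x => cr_exists_aeval_eq K x a
  -- the lifted polynomial: same degree, leading coefficient `1`
  set n := P.natDegree with hn
  let Q : K[X][X] := X ^ n + ∑ i ∈ Finset.range n, C (c (P.coeff i)) * X ^ i
  have hQmonic : Q.Monic := by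
    refine Polynomial.monic_X_pow_add ?_
    refine lt_of_le_of_lt (Polynomial.degree_sum_le _ _) ?_
    rw [Finset.sup_lt_iff (by exact WithBot.bot_lt_coe n)]
    intro i hi
    refine lt_of_le_of_lt (Polynomial.degree_C_mul_X_pow_le i _) ?_
    exact_mod_cast Finset.mem_range.mp hi
  refine ⟨Q, hQmonic, ?_⟩
  -- evaluate
  apply Subtype.ext
  have hPexp : P = X ^ n + ∑ i ∈ Finset.range n, C (P.coeff i) * X ^ i := by
    conv_lhs => rw [hPmonic.as_sum]
  have hP' : eval₂ (algebraMap (ringA K x) F) (r : F) P = 0 := hP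
  rw [hPexp] at hP'
  simp only [eval₂_add, eval₂_pow, eval₂_X, eval₂_finsetSum, eval₂_mul, eval₂_C] at hP'
  have hcoe : ∀ s : ringB K x, ((s : ringB K x) : F) = algebraMap (ringB K x) F s := fun _ => rfl
  rw [hcoe, Polynomial.hom_eval₂]
  simp only [Q, eval₂_add, eval₂_pow, eval₂_X, eval₂_finsetSum, eval₂_mul, eval₂_C]
  rw [ZeroMemClass.coe_zero]
  rw [← hP']
  congr 1
  refine Finset.sum_congr rfl fun i _ => ?_
  congr 1
  show algebraMap (ringB K x) F (aeval (crGen K x) (c (P.coeff i))) = _
  rw [cr_aeval_crGen, hc]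
  rfl

end Gen

section Places

variable (x : F)

/-- `R = ringB K x ⊆ O_v` for every place `v` with `x ∈ O_v`. -/
theorem cr_mem_place (v : Place K F) (hx : x ∈ v.toValuationSubring) (r : ringB K x) :
    algebraMap (ringB K x) F r ∈ v.toValuationSubring :=
  ringB_mem_place x v hx r

/-- a place over `c` (i.e. `0 < ord (x - c)`) has `x ∈ O_v`. -/
theorem cr_mem_of_placesOver {c : K} {v : Place K F} (hv : v ∈ placesOver K F x c) :
    x ∈ v.toValuationSubring := by
  have hpos : 0 < v.ord (x - algebraMap K F c) := hv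
  have hne : x - algebraMap K F c ≠ 0 := by
    intro h0
    rw [h0, v.ord_zero] at hpos
    exact lt_irrefl _ hpos
  have h1 : x - algebraMap K F c ∈ v.toValuationSubring := (pb_mem_iff v hne).mpr hpos.le
  have h2 : x = (x - algebraMap K F c) + algebraMap K F c := by ring
  rw [h2]
  exact v.toValuationSubring.add_mem _ _ h1 (v.algebraMap_mem' c)

theorem cr_mem_place_of_placesOver {c : K} {v : Place K F} (hv : v ∈ placesOver K F x c)
    (r : ringB K x) : algebraMap (ringB K x) F r ∈ v.toValuationSubring :=
  cr_mem_place x v (cr_mem_of_placesOver x hv) r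

/-- a pole of `x` has `x⁻¹ ∈ O_v` (even in the maximal ideal). -/
theorem cr_inv_mem_of_polePlaces {v : Place K F} (hv : v ∈ polePlaces K F x) :
    x⁻¹ ∈ v.toValuationSubring := by
  have hneg : v.ord x < 0 := hv
  have hne : x ≠ 0 := by
    rintro rfl
    rw [v.ord_zero] at hneg
    exact lt_irrefl _ hneg
  rw [pb_mem_iff v (inv_ne_zero hne), v.ord_inv]
  omega

theorem cr_inv_mem_place_of_polePlaces {v : Place K F} (hv : v ∈ polePlaces K F x)
    (r : ringB K x⁻¹) : algebraMap (ringB K x⁻¹) F r ∈ v.toValuationSubring :=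
  cr_mem_place x⁻¹ v (cr_inv_mem_of_polePlaces x hv) r

/-- for a pole `v` of `x`: `0 < ord x⁻¹`, i.e. `v` lies over `0` for the coordinate `x⁻¹`. -/
theorem cr_polePlaces_subset_placesOver_inv {v : Place K F} (hv : v ∈ polePlaces K F x) :
    v ∈ placesOver K F x⁻¹ 0 := by
  have hneg : v.ord x < 0 := hv
  show 0 < v.ord (x⁻¹ - algebraMap K F 0)
  rw [map_zero, sub_zero, v.ord_inv]
  omega

end Places

section Data

/-- `FFData` from `IsCoordinate` (re-export of `pl_ffData_of_isCoordinate`). -/
theorem cr_ffData {t : F} (ht : IsCoordinate K F t) : FFData K F t :=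
  pl_ffData_of_isCoordinate ht

/-- `FFData` for `t⁻¹`. -/
theorem cr_ffData_inv {t : F} (ht : IsCoordinate K F t) : FFData K F t⁻¹ :=
  pl_ffData_of_isCoordinate (pl_isCoordinate_inv ht)

end Data

/-! ## Ready-to-use instantiations of `cov_exists_residue` (helper55, `CoveringDedekind.lean`) -/

section Residue

variable [CharZero K] [IsAlgClosed K]

/-- residue homomorphism `ringB K t →ₐ[K] K` of a place over `t = c`. -/
theorem cr_exists_residue_of_placesOver {t : F} (ht : IsCoordinate K F t) (c : K)
    (v : Place K F) (hv : v ∈ placesOver K F t c) :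
    haveI := cr_ffData ht
    ∃ φ : ringB K t →ₐ[K] K, φ (crGen K t) = c ∧
      ∀ r : ringB K t, φ r = 0 ↔ (r = 0 ∨ 0 < v.ord (algebraMap (ringB K t) F r)) := by
  have := cr_ffData ht
  exact cov_exists_residue (ringB K t) (crGen K t) c (cr_isIntegralElem K t) v
    (cr_mem_place_of_placesOver t hv) hv

/-- residue homomorphism `ringB K t⁻¹ →ₐ[K] K` of a pole of `t`. -/
theorem cr_exists_residue_of_polePlaces {t : F} (ht : IsCoordinate K F t)
    (v : Place K F) (hv : v ∈ polePlaces K F t) :
    haveI := cr_ffData_inv ht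
    ∃ φ : ringB K t⁻¹ →ₐ[K] K, φ (crGen K t⁻¹) = 0 ∧
      ∀ r : ringB K t⁻¹, φ r = 0 ↔ (r = 0 ∨ 0 < v.ord (algebraMap (ringB K t⁻¹) F r)) := by
  have := cr_ffData_inv ht
  exact cov_exists_residue (ringB K t⁻¹) (crGen K t⁻¹) 0 (cr_isIntegralElem K t⁻¹) v
    (cr_inv_mem_place_of_polePlaces t hv) (cr_polePlaces_subset_placesOver_inv t hv)

end Residue

end Fermat.Agent.S24x
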