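import Fermat.Agent.S24x.CoveringCusp
import Fermat.Agent.S24x.CoveringFinite
import Fermat.Agent.S24x.CoveringRing
import Fermat.Agent.S24x.FBarFinite

/-!
# S24 project, module C3 (final wrappers): `covering_finite`, `covering_cusp`

Instantiation of `covering_finite_of_dedekind` / `covering_cusp_of_dedekind` (helper55) at the
concrete Dedekind ring `ringB Qbar (jBar N)` resp. `ringB Qbar (jBar N)⁻¹` (helper72/helper77,
`PlacePrime.lean` / `CoveringRing.lean`), with `IsCoordinate` from `FBarFinite.lean`.
-/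

set_option autoImplicit false

namespace Fermat.Agent.S24x

open UpperHalfPlane Polynomial CongruenceSubgroup AlgebraicCurve
open scoped MatrixGroups

noncomputable section

variable (N : ℕ) [NeZero N]

/-- **Covering of the finite places**: every place of `F_N` over `j = c` is `vPt N (g • τ₀)`. -/
theorem covering_finite (c : Qbar) (τ₀ : ℍ) (hτ₀ : jFun τ₀ = iotaQ c)
    (v : Place Qbar (FBar N)) (hv : v ∈ placesOver Qbar (FBar N) (jBar N) c) :
    ∃ g : SL(2, ℤ), v = vPt N (g • τ₀) := by
  have := cr_ffData (fbf_isCoordinate_jBar N)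
  exact covering_finite_of_dedekind N (ringB Qbar (jBar N)) (crGen Qbar (jBar N))
    (algebraMap_crGen Qbar (jBar N)) (cr_isIntegralElem Qbar (jBar N)) c τ₀ hτ₀ v hv

/-- **Covering of the cusps**: every pole place of `j` in `F_N` is `cg_vCusp N g`. -/
theorem covering_cusp (v : Place Qbar (FBar N))
    (hv : v ∈ polePlaces Qbar (FBar N) (jBar N)) :
    ∃ g : SL(2, ℤ), v = cg_vCusp N g := by
  have := cr_ffData_inv (fbf_isCoordinate_jBar N)
  exact covering_cusp_of_dedekind N (ringB Qbar (jBar N)⁻¹) (crGen Qbar (jBar N)⁻¹)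
    (algebraMap_crGen Qbar (jBar N)⁻¹) (cr_isIntegralElem Qbar (jBar N)⁻¹) v hv

end

end Fermat.Agent.S24x
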