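import Mathlib
import Fermat.Prelude.Def_ModularCurve_GenusNumerics

set_option autoImplicit false

namespace Fermat.Agent.S24x

open ModularCurve

/-- E2 arithmetic: from the natural-number genus identity to the `toNat / 2` expression. -/
theorem fa_genus_arith (N : ℕ) (r0 r1 rinf : ℕ)
    (hg : ∃ g : ℕ, 12 * g + 3 * nuTwo N + 4 * nuThree N + 6 * cuspCount N = dedekindPsi N + 12)
    (h1 : 2 * r1 = dedekindPsi N + nuTwo N) (h0 : 3 * r0 = dedekindPsi N + 2 * nuThree N)
    (hinf : rinf = cuspCount N) :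
    (((((dedekindPsi N : ℤ) - r0) + ((dedekindPsi N : ℤ) - r1) - dedekindPsi N - rinf + 2).toNat / 2
      : ℕ) : ℚ) = genusFormula N := by
  obtain ⟨g, hg⟩ := hg
  subst hinf
  have hd : ((dedekindPsi N : ℤ) - r0) + ((dedekindPsi N : ℤ) - r1) - dedekindPsi N - cuspCount N + 2
      = 2 * (g : ℤ) := by
    have e1 : (2 * r1 : ℤ) = dedekindPsi N + nuTwo N := by exact_mod_cast h1
    have e0 : (3 * r0 : ℤ) = dedekindPsi N + 2 * nuThree N := by exact_mod_cast h0
    have eg : (12 * g + 3 * nuTwo N + 4 * nuThree N + 6 * cuspCount N : ℤ) = dedekindPsi N + 12 := by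
      exact_mod_cast hg
    linarith
  rw [hd]
  have : (2 * (g : ℤ)).toNat / 2 = g := by
    have : (2 * (g : ℤ)).toNat = 2 * g := by
      have : (2 * (g : ℤ)) = ((2 * g : ℕ) : ℤ) := by push_cast; ring
      rw [this, Int.toNat_natCast]
    rw [this]; omega
  rw [this]
  unfold genusFormula
  have eg : (12 * g + 3 * nuTwo N + 4 * nuThree N + 6 * cuspCount N : ℚ) = dedekindPsi N + 12 := by
    exact_mod_cast hg
  linarith

end Fermat.Agent.S24x
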