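import Fermat.Agent.S24x.CombDefs

/-!
# S24 project, combinatorics module (N), W4a: sizes of `⟨T⟩`-orbits on `SL(2,ℤ) ⧸ Γ₀(N)`

* `minimalPeriod_mul_wt` : `(size of the ⟨T⟩-orbit of gΓ₀(N)) * gcd(N, c²) = N`.
* `card_orbits_mul` : `#orbits * N = ∑ q, gcd(N, c_q²)`.
-/

set_option autoImplicit false

open CongruenceSubgroup ModularGroup Matrix.SpecialLinearGroup
open scoped MatrixGroups

namespace Fermat.Agent.S24x

variable (N : ℕ) [NeZero N]

theorem wt_dvd (v : ZMod N × ZMod N) : wt N v ∣ N := Nat.gcd_dvd_left _ _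

theorem wt_pos (v : ZMod N × ZMod N) : 0 < wt N v :=
  Nat.gcd_pos_of_pos_left _ (Nat.pos_of_ne_zero (NeZero.ne N))

/-- `T ^ n` fixes the coset of `g` iff `N ∣ n * m²`, `m` the residue of the lower-left entry. -/
theorem T_pow_smul_coset_eq_iff (n : ℕ) (g : SL(2, ℤ)) :
    (T ^ n) • ((g : SL(2, ℤ)) : Q N) = (g : Q N) ↔ N ∣ n * (col N g).2.val ^ 2 := by
  have h := T_zpow_smul_coset_eq_iff N (n : ℤ) g
  rw [zpow_natCast] at h
  rw [h, ← ZMod.natCast_eq_zero_iff]
  have : (((n : ℤ) * g 1 0 ^ 2 : ℤ) : ZMod N) = ((n * (col N g).2.val ^ 2 : ℕ) : ZMod N) := by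
    push_cast
    rw [ZMod.natCast_zmod_val]
    rfl
  rw [this]

theorem dvd_mul_iff_div_gcd_dvd {N n m : ℕ} (hN : 0 < N) : N ∣ n * m ↔ N / Nat.gcd N m ∣ n := by
  set d := Nat.gcd N m with hd
  have hdpos : 0 < d := Nat.gcd_pos_of_pos_left _ hN
  obtain ⟨N', hN'⟩ : d ∣ N := Nat.gcd_dvd_left _ _
  obtain ⟨m', hm'⟩ : d ∣ m := Nat.gcd_dvd_right _ _
  have hcop : Nat.Coprime N' m' := by
    have := Nat.coprime_div_gcd_div_gcd (m := N) (n := m) (by rw [← hd]; exact hdpos)
    rw [← hd] at this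
    rwa [hN', hm', Nat.mul_div_cancel_left _ hdpos, Nat.mul_div_cancel_left _ hdpos] at this
  rw [show N / d = N' by rw [hN', Nat.mul_div_cancel_left _ hdpos]]
  constructor
  · intro h
    have h1 : d * N' ∣ d * (n * m') := by
      rw [← hN']
      calc N ∣ n * m := h
        _ = d * (n * m') := by rw [hm']; ring
    have h2 : N' ∣ n * m' := (Nat.mul_dvd_mul_iff_left hdpos).mp h1
    exact hcop.dvd_of_dvd_mul_right h2
  · rintro ⟨k, rfl⟩
    rw [hN', hm']
    exact ⟨k * m', by ring⟩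

/-- The `⟨T⟩`-orbit of `gΓ₀(N)` has size `N / gcd(N, c²)`. -/
theorem minimalPeriod_mul_wt (g : SL(2, ℤ)) :
    Function.minimalPeriod (T • ·) ((g : SL(2, ℤ)) : Q N) * wt N (col N g) = N := by
  have hN : 0 < N := Nat.pos_of_ne_zero (NeZero.ne N)
  set P := N / wt N (col N g) with hP
  have hPw : P * wt N (col N g) = N := Nat.div_mul_cancel (wt_dvd N _)
  have hPpos : 0 < P := Nat.div_pos (Nat.le_of_dvd hN (wt_dvd N _)) (wt_pos N _)
  have key : ∀ n : ℕ, Function.IsPeriodicPt (T • ·) n ((g : SL(2, ℤ)) : Q N) ↔ P ∣ n := by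
    intro n
    rw [Function.IsPeriodicPt, Function.IsFixedPt, smul_iterate, T_pow_smul_coset_eq_iff,
      dvd_mul_iff_div_gcd_dvd hN]
    rfl
  have h1 : Function.minimalPeriod (T • ·) ((g : SL(2, ℤ)) : Q N) ∣ P :=
    Function.IsPeriodicPt.minimalPeriod_dvd ((key P).mpr dvd_rfl)
  have h2 : P ∣ Function.minimalPeriod (T • ·) ((g : SL(2, ℤ)) : Q N) :=
    (key _).mp (Function.isPeriodicPt_minimalPeriod _ _)
  rw [Nat.dvd_antisymm h1 h2, hPw]

omit [NeZero N] in
theorem minimalPeriod_zpow_smul_aux (k : ℤ) (x : Q N) :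
    Function.minimalPeriod (T • ·) (T ^ k • x) = Function.minimalPeriod (T • ·) x := by
  rw [Function.minimalPeriod_eq_minimalPeriod_iff]
  intro n
  simp only [Function.IsPeriodicPt, Function.IsFixedPt, smul_iterate]
  rw [smul_smul, ← zpow_natCast, ← zpow_add, add_comm, zpow_add, ← smul_smul]
  exact (MulAction.injective (T ^ k)).eq_iff

theorem minimalPeriod_mul_wt_out (q : Q N) :
    Function.minimalPeriod (T • ·) q * wt N (col N q.out) = N := by
  have := minimalPeriod_mul_wt N q.out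
  rwa [QuotientGroup.out_eq'] at this

/-- `#orbits * N = ∑_q gcd(N, c_q²)`. -/
theorem card_orbits_mul :
    Nat.card (MulAction.orbitRel.Quotient (Subgroup.zpowers T) (Q N)) * N =
      ∑ q : Q N, wt N (col N q.out) := by
  classical
  haveI : Fintype (MulAction.orbitRel.Quotient (Subgroup.zpowers T) (Q N)) := Fintype.ofFinite _
  let e := Subgroup.quotientEquivSigmaZMod (Gamma0 N) T
  haveI : ∀ ω : MulAction.orbitRel.Quotient (Subgroup.zpowers T) (Q N),
      NeZero (Function.minimalPeriod (T • ·) ω.out) := fun ω => by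
    refine ⟨fun h0 => ?_⟩
    have := minimalPeriod_mul_wt_out N ω.out
    rw [h0, zero_mul] at this
    exact (NeZero.ne N) this.symm
  rw [← Equiv.sum_comp e.symm, Fintype.sum_sigma, Nat.card_eq_fintype_card]
  have hinner : ∀ ω : MulAction.orbitRel.Quotient (Subgroup.zpowers T) (Q N),
      ∑ k : ZMod (Function.minimalPeriod (T • ·) ω.out), wt N (col N (e.symm ⟨ω, k⟩).out) = N := by
    intro ω
    have hconst : ∀ k : ZMod (Function.minimalPeriod (T • ·) ω.out),
        wt N (col N (e.symm ⟨ω, k⟩).out) = wt N (col N ω.out.out) := by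
      intro k
      have h1 := minimalPeriod_mul_wt_out N (e.symm ⟨ω, k⟩)
      have h2 := minimalPeriod_mul_wt_out N ω.out
      have hmp : Function.minimalPeriod (T • ·) (e.symm ⟨ω, k⟩) =
          Function.minimalPeriod (T • ·) ω.out := by
        rw [Subgroup.quotientEquivSigmaZMod_symm_apply]
        exact minimalPeriod_zpow_smul_aux N _ _
      rw [hmp] at h1
      have hpos : 0 < Function.minimalPeriod (T • ·) ω.out := Nat.pos_of_ne_zero (NeZero.ne _)
      exact Nat.eq_of_mul_eq_mul_left hpos (h1.trans h2.symm)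
    rw [Finset.sum_congr rfl fun k _ => hconst k, Finset.sum_const, Finset.card_univ, ZMod.card,
      smul_eq_mul]
    exact minimalPeriod_mul_wt_out N ω.out
  rw [Finset.sum_congr rfl fun ω _ => hinner ω, Finset.sum_const, Finset.card_univ, smul_eq_mul]

end Fermat.Agent.S24x
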