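import Mathlib

/-!
# Permutation triples: parity of the Euler characteristic and the Ree (Feit-Lyndon-Scott) bound

For a finite `G`-set `X` and `s u t : G` with `s * u * t = 1` generating a group that acts
transitively on `X`, write `orb g` for the number of orbits of `⟨g⟩` on `X`.  Then
`orb s + orb u + orb t + |X|` is even and `orb s + orb u + orb t ≤ |X| + 2`.
-/

set_option autoImplicit false

namespace Fermat.Agent.S24x

open Module

section LinAlg

variable {k : Type*} [Field k]
variable {V₀ V₁ V₂ V₃ : Type*} [AddCommGroup V₀] [Module k V₀] [AddCommGroup V₁] [Module k V₁]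
  [AddCommGroup V₂] [Module k V₂] [AddCommGroup V₃] [Module k V₃]
  [FiniteDimensional k V₂]

/-- Frobenius rank inequality in the special case `A ∘ B ∘ C = 0`. -/
theorem pg_rank_add_rank_le (A : V₂ →ₗ[k] V₃) (B : V₁ →ₗ[k] V₂) (C : V₀ →ₗ[k] V₁)
    (h : A ∘ₗ B ∘ₗ C = 0) :
    finrank k (LinearMap.range (A ∘ₗ B)) + finrank k (LinearMap.range (B ∘ₗ C)) ≤
      finrank k (LinearMap.range B) := by
  classical
  -- restrict `A` to `range B`
  set A' : LinearMap.range B →ₗ[k] V₃ := A.domRestrict (LinearMap.range B) with hA'
  have hrn := LinearMap.finrank_range_add_finrank_ker A'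
  have hrange : LinearMap.range A' = LinearMap.range (A ∘ₗ B) := by
    ext y
    constructor
    · rintro ⟨⟨x, ⟨z, rfl⟩⟩, rfl⟩
      exact ⟨z, rfl⟩
    · rintro ⟨z, rfl⟩
      exact ⟨⟨B z, ⟨z, rfl⟩⟩, rfl⟩
  -- `range (B ∘ C)` embeds in `ker A'`
  have hle : finrank k (LinearMap.range (B ∘ₗ C)) ≤ finrank k (LinearMap.ker A') := by
    have hmap : (LinearMap.ker A').map (LinearMap.range B).subtype ≥
        LinearMap.range (B ∘ₗ C) := by
      rintro y ⟨z, rfl⟩
      refine ⟨⟨B (C z), ⟨C z, rfl⟩⟩, ?_, rfl⟩
      have := LinearMap.congr_fun h z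
      simpa [hA'] using this
    calc finrank k (LinearMap.range (B ∘ₗ C))
        ≤ finrank k ((LinearMap.ker A').map (LinearMap.range B).subtype) :=
          Submodule.finrank_mono hmap
      _ = finrank k (LinearMap.ker A') :=
          LinearEquiv.finrank_eq
            (Submodule.equivMapOfInjective _ (Submodule.injective_subtype _) _).symm
  rw [hrange] at hrn
  omega

end LinAlg

section Perm

variable {G X : Type*} [Group G] [MulAction G X]

/-- number of orbits of the cyclic group generated by `g` -/
noncomputable def pgOrb (G : Type*) (X : Type*) [Group G] [MulAction G X] (g : G) : ℕ :=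
  Nat.card (MulAction.orbitRel.Quotient (Subgroup.zpowers g) X)

/-- permutation representation on `X → ℚ`: `(pgR g f) x = f (g⁻¹ • x)`. -/
noncomputable def pgR (g : G) : (X → ℚ) →ₗ[ℚ] (X → ℚ) :=
  LinearMap.funLeft ℚ ℚ (fun x : X => g⁻¹ • x)

@[simp] theorem pgR_apply (g : G) (f : X → ℚ) (x : X) : pgR g f x = f (g⁻¹ • x) := rfl

theorem pgR_mul (g h : G) : (pgR (g * h) : (X → ℚ) →ₗ[ℚ] (X → ℚ)) = pgR g ∘ₗ pgR h := by
  ext f x
  simp [mul_smul]

theorem pgR_one : (pgR (1 : G) : (X → ℚ) →ₗ[ℚ] (X → ℚ)) = LinearMap.id := by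
  ext f x
  simp

/-- `1 - R g` -/
noncomputable def pgP (g : G) : (X → ℚ) →ₗ[ℚ] (X → ℚ) := LinearMap.id - pgR g

@[simp] theorem pgP_apply (g : G) (f : X → ℚ) (x : X) : pgP g f x = f x - f (g⁻¹ • x) := rfl

theorem pg_mem_ker_pgP {g : G} {f : X → ℚ} :
    f ∈ LinearMap.ker (pgP g) ↔ ∀ x, f (g • x) = f x := by
  rw [LinearMap.mem_ker]
  constructor
  · intro h x
    have := congrFun h (g • x)
    simp only [pgP_apply, inv_smul_smul, Pi.zero_apply] at this
    linarith
  · intro h
    funext x
    have := h (g⁻¹ • x)
    simp only [smul_inv_smul] at this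
    simp [this]

theorem pg_invariant_zpowers {g : G} {f : X → ℚ} (h : ∀ x, f (g • x) = f x)
    (a : Subgroup.zpowers g) (x : X) : f (a • x) = f x := by
  obtain ⟨a, ⟨n, rfl⟩⟩ := a
  show f ((g ^ n) • x) = f x
  induction n using Int.induction_on generalizing x with
  | zero => simp
  | succ n ih => rw [zpow_add_one, mul_smul, ih, h]
  | pred n ih =>
      rw [zpow_sub_one, mul_smul, ih]
      have := h (g⁻¹ • x)
      rw [smul_inv_smul] at this
      exact this.symm

variable [Fintype X]

theorem pg_finrank_ker_pgP (g : G) :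
    finrank ℚ (LinearMap.ker (pgP g : (X → ℚ) →ₗ[ℚ] (X → ℚ))) = pgOrb G X g := by
  classical
  set Q := MulAction.orbitRel.Quotient (Subgroup.zpowers g) X with hQ
  let _ : Fintype Q := Fintype.ofFinite Q
  let π : X → Q := Quotient.mk''
  have hπ : Function.Surjective π := Quotient.mk''_surjective
  let L : (Q → ℚ) →ₗ[ℚ] (X → ℚ) := LinearMap.funLeft ℚ ℚ π
  have hL : Function.Injective L := LinearMap.funLeft_injective_of_surjective ℚ ℚ π hπ
  have hrange : LinearMap.range L = LinearMap.ker (pgP g : (X → ℚ) →ₗ[ℚ] (X → ℚ)) := by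
    ext f
    rw [pg_mem_ker_pgP]
    constructor
    · rintro ⟨φ, rfl⟩ x
      show φ (π (g • x)) = φ (π x)
      congr 1
      apply Quotient.sound
      exact ⟨⟨g, Subgroup.mem_zpowers g⟩, rfl⟩
    · intro h
      refine ⟨Quotient.lift f ?_, ?_⟩
      · rintro a b ⟨c, rfl⟩
        exact pg_invariant_zpowers h c b
      · funext x
        rfl
  rw [← hrange, LinearMap.finrank_range_of_inj hL, Module.finrank_fintype_fun_eq_card, pgOrb,
    Nat.card_eq_fintype_card]

theorem pg_finrank_range_pgP (g : G) :
    finrank ℚ (LinearMap.range (pgP g : (X → ℚ) →ₗ[ℚ] (X → ℚ))) + pgOrb G X g =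
      Fintype.card X := by
  have := LinearMap.finrank_range_add_finrank_ker (pgP g : (X → ℚ) →ₗ[ℚ] (X → ℚ))
  rw [pg_finrank_ker_pgP, Module.finrank_fintype_fun_eq_card] at this
  exact this

end Perm

section Bridge

open Equiv Equiv.Perm
variable {X : Type*} [Fintype X] [DecidableEq X]

/-- number of `SameCycle` classes = number of nontrivial cycles + number of fixed points -/
theorem pg_card_sameCycle_quotient (σ : Perm X) :
    Nat.card (Quotient (SameCycle.setoid σ)) =
      Multiset.card σ.cycleType + (Fintype.card X - σ.cycleType.sum) := by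
  classical
  -- the classifying map
  let f : X → (σ.cycleFactorsFinset ⊕ Function.fixedPoints σ) := fun x =>
    if h : σ x = x then Sum.inr ⟨x, h⟩
    else Sum.inl ⟨σ.cycleOf x, cycleOf_mem_cycleFactorsFinset_iff.mpr (mem_support.mpr h)⟩
  have hf : ∀ x y, SameCycle σ x y → f x = f y := by
    intro x y hxy
    by_cases hx : σ x = x
    · have : x = y := by
        obtain ⟨i, rfl⟩ := hxy
        exact ((zpow_apply_eq_self_of_apply_eq_self hx i)).symm
      rw [this]
    · have hy : ¬ σ y = y := fun hy => hx (hxy.apply_eq_self_iff.mpr hy)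
      simp only [f, dif_neg hx, dif_neg hy]
      congr 2
      exact hxy.cycleOf_eq
  let F : Quotient (SameCycle.setoid σ) → (σ.cycleFactorsFinset ⊕ Function.fixedPoints σ) :=
    Quotient.lift f hf
  have hF : Function.Bijective F := by
    constructor
    · rintro ⟨x⟩ ⟨y⟩ hxy
      apply Quotient.sound
      show SameCycle σ x y
      change f x = f y at hxy
      by_cases hx : σ x = x <;> by_cases hy : σ y = y
      · simp only [f, dif_pos hx, dif_pos hy, Sum.inr.injEq] at hxy
        have hxy' : x = y := congrArg Subtype.val hxy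
        rw [hxy']
      · simp [f, dif_pos hx, dif_neg hy] at hxy
      · simp [f, dif_neg hx, dif_pos hy] at hxy
      · simp only [f, dif_neg hx, dif_neg hy, Sum.inl.injEq] at hxy
        have hxy' : σ.cycleOf x = σ.cycleOf y := congrArg Subtype.val hxy
        exact (sameCycle_iff_cycleOf_eq_of_mem_support (mem_support.mpr hx)
          (mem_support.mpr hy)).mpr hxy'
    · rintro (⟨c, hc⟩ | ⟨x, hx⟩)
      · have hcyc : c.IsCycle := (mem_cycleFactorsFinset_iff.mp hc).1
        obtain ⟨a, ha⟩ := hcyc.nonempty_support
        have hca : c = σ.cycleOf a := cycle_is_cycleOf ha hc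
        have haσ : a ∈ σ.support := mem_cycleFactorsFinset_support_le hc ha
        refine ⟨Quotient.mk _ a, ?_⟩
        show f a = _
        have : ¬ σ a = a := mem_support.mp haσ
        simp only [f, dif_neg this]
        congr 2
        exact hca.symm
      · refine ⟨Quotient.mk _ x, ?_⟩
        show f x = _
        have hx' : σ x = x := hx
        simp only [f, dif_pos hx']
  rw [Nat.card_congr (Equiv.ofBijective F hF), Nat.card_eq_fintype_card, Fintype.card_sum,
    Fintype.card_coe, card_fixedPoints, cycleType_def]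
  simp
end Bridge

section Sign

open Equiv Equiv.Perm

variable {G X : Type*} [Group G] [MulAction G X] [Fintype X]

omit [Fintype X] in
/-- orbits of `⟨g⟩` are the `SameCycle` classes of the permutation `toPerm g` -/
theorem pgOrb_eq_card_sameCycle (g : G) :
    pgOrb G X g = Nat.card (Quotient (SameCycle.setoid (MulAction.toPerm g : Perm X))) := by
  unfold pgOrb MulAction.orbitRel.Quotient
  apply Nat.card_congr
  refine Quotient.congrRight ?_
  intro a b
  have key : ∀ (i : ℤ) (x : X), ((MulAction.toPerm g : Perm X) ^ i) x = (g ^ i) • x := by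
    intro i x
    show ((MulAction.toPermHom G X g) ^ i) x = (g ^ i) • x
    rw [← map_zpow (MulAction.toPermHom G X)]
    rfl
  constructor
  · rintro ⟨⟨h, ⟨i, rfl⟩⟩, hb⟩
    refine SameCycle.symm ⟨i, ?_⟩
    rw [key]
    exact hb
  · rintro ⟨i, hi⟩
    refine ⟨⟨g ^ (-i), ⟨-i, rfl⟩⟩, ?_⟩
    show (g ^ (-i)) • b = a
    rw [← hi, key, ← mul_smul, ← zpow_add]
    simp

theorem pgOrb_eq_cycleType [DecidableEq X] (g : G) :
    pgOrb G X g = Multiset.card (MulAction.toPerm g : Perm X).cycleType +
      (Fintype.card X - (MulAction.toPerm g : Perm X).cycleType.sum) := by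
  rw [pgOrb_eq_card_sameCycle, pg_card_sameCycle_quotient]

theorem pg_sign [DecidableEq X] (g : G) :
    Equiv.Perm.sign (MulAction.toPerm g : Perm X) = (-1) ^ (Fintype.card X + pgOrb G X g) := by
  set σ : Perm X := MulAction.toPerm g with hσ
  have hle : σ.cycleType.sum ≤ Fintype.card X := σ.sum_cycleType_le
  rw [pgOrb_eq_cycleType, sign_of_cycleType, ← hσ]
  obtain ⟨d, hd⟩ := Nat.exists_eq_add_of_le hle
  have : Fintype.card X + (Multiset.card σ.cycleType + (Fintype.card X - σ.cycleType.sum)) =
      (σ.cycleType.sum + Multiset.card σ.cycleType) + 2 * d := by omega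
  rw [this, pow_add (-1 : ℤˣ) (σ.cycleType.sum + Multiset.card σ.cycleType) (2 * d), pow_mul]
  simp

/-- parity of the Euler characteristic of a permutation triple with product one -/
theorem pg_parity {s u t : G} (hsut : s * u * t = 1) :
    Even (pgOrb G X s + pgOrb G X u + pgOrb G X t + Fintype.card X) := by
  classical
  have h1 : Equiv.Perm.sign (MulAction.toPerm (s * u * t) : Perm X) = 1 := by
    rw [hsut]
    have : (MulAction.toPerm (1 : G) : Perm X) = 1 := map_one (MulAction.toPermHom G X)
    rw [this, map_one]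
  have hmul : (MulAction.toPerm (s * u * t) : Perm X) =
      MulAction.toPerm s * MulAction.toPerm u * MulAction.toPerm t := by
    have := map_mul (MulAction.toPermHom G X) (s * u) t
    rw [map_mul (MulAction.toPermHom G X) s u] at this
    exact this
  rw [hmul, map_mul, map_mul, pg_sign, pg_sign, pg_sign, ← pow_add, ← pow_add] at h1
  have h2 : Even (Fintype.card X + pgOrb G X s + (Fintype.card X + pgOrb G X u) +
      (Fintype.card X + pgOrb G X t)) := by
    by_contra hodd
    rw [Nat.not_even_iff_odd] at hodd
    rw [hodd.neg_one_pow] at h1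
    exact absurd h1 (by decide)
  obtain ⟨r, hr⟩ := h2
  exact ⟨r - Fintype.card X, by omega⟩

/-- orbit count for an element acting with prime order `p`: `p * orb = |X| + (p-1) * fix`. -/
theorem pg_orb_of_pow_prime {p : ℕ} [Fact p.Prime] (g : G) (hg : ∀ x : X, (g ^ p) • x = x) :
    p * pgOrb G X g = Fintype.card X + (p - 1) * Nat.card {x : X // g • x = x} := by
  classical
  set σ : Perm X := MulAction.toPerm g with hσ
  have hσp : σ ^ p = 1 := by
    ext x
    have : (σ ^ p) x = (g ^ p) • x := by
      show ((MulAction.toPermHom G X g) ^ p) x = (g ^ p) • x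
      rw [← map_pow (MulAction.toPermHom G X)]
      rfl
    rw [this, hg]
    rfl
  have hct := cycleType_of_pow_prime_eq_one hσp
  have hsum : σ.cycleType.sum = Multiset.card σ.cycleType * p := by
    conv_lhs => rw [hct]
    simp
  have hfix : Nat.card {x : X // g • x = x} = Fintype.card X - σ.cycleType.sum := by
    rw [← card_fixedPoints, Nat.card_eq_fintype_card]
    rfl
  have hle : σ.cycleType.sum ≤ Fintype.card X := σ.sum_cycleType_le
  have hp : 1 ≤ p := (Fact.out : p.Prime).one_lt.le
  rw [pgOrb_eq_cycleType, hfix, ← hσ, hsum] at *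
  obtain ⟨d, hd⟩ := Nat.exists_eq_add_of_le hle
  obtain ⟨q, rfl⟩ := Nat.exists_eq_add_of_le hp
  rw [hd]
  simp only [Nat.add_sub_cancel_left, Nat.add_sub_cancel_left]
  ring

end Sign

section Scott

variable {G X : Type*} [Group G] [MulAction G X]

/-- a function invariant under generators of a transitively acting group is constant -/
theorem pg_const_of_invariant [MulAction.IsPretransitive G X] {s u t : G}
    (hgen : Subgroup.closure {s, u, t} = ⊤) {f : X → ℚ}
    (hs : ∀ x, f (s • x) = f x) (hu : ∀ x, f (u • x) = f x) (ht : ∀ x, f (t • x) = f x)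
    (x y : X) : f x = f y := by
  have hall : ∀ g : G, ∀ z, f (g • z) = f z := by
    intro g
    have hg : g ∈ Subgroup.closure {s, u, t} := by rw [hgen]; trivial
    induction hg using Subgroup.closure_induction with
    | mem a ha =>
        rcases ha with rfl | rfl | rfl
        · exact hs
        · exact hu
        · exact ht
    | one => intro z; simp
    | mul a b _ _ iha ihb => intro z; rw [mul_smul, iha, ihb]
    | inv a _ iha =>
        intro z
        have := iha (a⁻¹ • z)
        rw [smul_inv_smul] at this
        exact this.symm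
  obtain ⟨g, rfl⟩ := MulAction.exists_smul_eq G x y
  exact (hall g x).symm

variable [Fintype X]

omit [Fintype X] in
theorem pgR_single [DecidableEq X] (g : G) (x : X) :
    pgR g (Pi.single x (1 : ℚ)) = Pi.single (g • x) (1 : ℚ) := by
  funext y
  simp only [pgR_apply, Pi.single_apply]
  by_cases h : y = g • x
  · rw [if_pos h, if_pos (by rw [h, inv_smul_smul])]
  · rw [if_neg h, if_neg (fun h' => h (by rw [← h', smul_inv_smul]))]

/-- **Ree's inequality** (Feit-Lyndon-Scott): for a transitive triple with product one the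
numbers of cycles satisfy `orb s + orb u + orb t ≤ |X| + 2`. -/
theorem pg_ree [MulAction.IsPretransitive G X] {s u t : G} (hsut : s * u * t = 1)
    (hgen : Subgroup.closure {s, u, t} = ⊤) :
    pgOrb G X s + pgOrb G X u + pgOrb G X t ≤ Fintype.card X + 2 := by
  classical
  have es := pg_finrank_range_pgP (G := G) (X := X) s
  have eu := pg_finrank_range_pgP (G := G) (X := X) u
  have et := pg_finrank_range_pgP (G := G) (X := X) t
  rcases isEmpty_or_nonempty X with hX | ⟨⟨x₀⟩⟩
  · have : Fintype.card X = 0 := Fintype.card_eq_zero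
    omega
  set V := X → ℚ
  set Ws := LinearMap.range (pgP s : V →ₗ[ℚ] V)
  set Wu := LinearMap.range (pgP u : V →ₗ[ℚ] V)
  set Wt := LinearMap.range (pgP t : V →ₗ[ℚ] V)
  let β : V →ₗ[ℚ] (Ws × (Wu × Wt)) :=
    (pgP s).rangeRestrict.prod ((pgP u).rangeRestrict.prod (pgP t).rangeRestrict)
  let δ : (Ws × (Wu × Wt)) →ₗ[ℚ] V :=
    Ws.subtype.coprod ((pgR s ∘ₗ Wu.subtype).coprod (pgR s ∘ₗ pgR u ∘ₗ Wt.subtype))
  have hδβ : δ ∘ₗ LinearMap.id ∘ₗ β = 0 := by
    apply LinearMap.ext
    intro v
    funext x
    have h3 : (pgR s ∘ₗ pgR u ∘ₗ pgR t : V →ₗ[ℚ] V) = LinearMap.id := by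
      rw [← pgR_mul, ← pgR_mul, ← mul_assoc, hsut, pgR_one]
    have h3' := congrFun (LinearMap.congr_fun h3 v) x
    simp only [LinearMap.comp_apply, LinearMap.id_apply] at h3'
    show (pgP s v) x + ((pgR s (pgP u v)) x + (pgR s (pgR u (pgP t v))) x) = 0
    simp only [pgP, LinearMap.sub_apply, LinearMap.id_apply, map_sub, Pi.sub_apply]
    linarith
  have key := pg_rank_add_rank_le δ LinearMap.id β hδβ
  rw [LinearMap.range_id, finrank_top, Module.finrank_prod, Module.finrank_prod,
    LinearMap.comp_id, LinearMap.id_comp] at key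
  -- lower bound for `rank β`
  have hβ : Fintype.card X ≤ finrank ℚ (LinearMap.range β) + 1 := by
    have h1 := LinearMap.finrank_range_add_finrank_ker β
    rw [Module.finrank_fintype_fun_eq_card] at h1
    have h2 : finrank ℚ (LinearMap.ker β) ≤ 1 := by
      let ev : LinearMap.ker β →ₗ[ℚ] ℚ := (LinearMap.proj x₀).comp (LinearMap.ker β).subtype
      have hev : Function.Injective ev := by
        rw [← LinearMap.ker_eq_bot, LinearMap.ker_eq_bot']
        rintro ⟨f, hf⟩ hf0
        have hf' : β f = 0 := hf
        have h1 : pgP s f = 0 := congrArg (fun w : Ws × (Wu × Wt) => (w.1 : V)) hf'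
        have h2 : pgP u f = 0 := congrArg (fun w : Ws × (Wu × Wt) => (w.2.1 : V)) hf'
        have h3 : pgP t f = 0 := congrArg (fun w : Ws × (Wu × Wt) => (w.2.2 : V)) hf'
        have i1 : ∀ x, f (s • x) = f x := pg_mem_ker_pgP.mp (LinearMap.mem_ker.mpr h1)
        have i2 : ∀ x, f (u • x) = f x := pg_mem_ker_pgP.mp (LinearMap.mem_ker.mpr h2)
        have i3 : ∀ x, f (t • x) = f x := pg_mem_ker_pgP.mp (LinearMap.mem_ker.mpr h3)
        have hc := pg_const_of_invariant hgen i1 i2 i3
        have hf0' : f x₀ = 0 := hf0
        apply Subtype.ext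
        funext x
        show f x = 0
        rw [hc x x₀, hf0']
      simpa using LinearMap.finrank_le_finrank_of_injective hev
    omega
  -- lower bound for `rank δ` via the dual map
  have hδ : Fintype.card X ≤ finrank ℚ (LinearMap.range δ) + 1 := by
    rw [← LinearMap.finrank_range_dualMap_eq_finrank_range]
    have h1 := LinearMap.finrank_range_add_finrank_ker δ.dualMap
    rw [Subspace.dual_finrank_eq, Module.finrank_fintype_fun_eq_card] at h1
    have h2 : finrank ℚ (LinearMap.ker δ.dualMap) ≤ 1 := by
      let ev : LinearMap.ker δ.dualMap →ₗ[ℚ] ℚ :=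
        (Module.Dual.eval ℚ V (Pi.single x₀ 1)).comp (LinearMap.ker δ.dualMap).subtype
      have hev : Function.Injective ev := by
        rw [← LinearMap.ker_eq_bot, LinearMap.ker_eq_bot']
        rintro ⟨φ, hφ⟩ hφ0
        have hφ' : ∀ w, φ (δ w) = 0 := by
          intro w
          have := LinearMap.congr_fun (LinearMap.mem_ker.mp hφ) w
          simpa [LinearMap.dualMap_apply] using this
        -- the coefficient function
        set c : X → ℚ := fun x => φ (Pi.single x 1) with hc
        have c1 : ∀ x, c (s • x) = c x := by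
          intro x
          have := hφ' (⟨pgP s (Pi.single x 1), ⟨_, rfl⟩⟩, 0, 0)
          simp only [δ, LinearMap.coprod_apply, Submodule.subtype_apply, map_zero, add_zero] at this
          rw [pgP, LinearMap.sub_apply, LinearMap.id_apply, pgR_single, map_sub] at this
          simp only [hc]
          linarith
        have c2 : ∀ x, c (u • x) = c x := by
          intro x
          have := hφ' (0, ⟨pgP u (Pi.single x 1), ⟨_, rfl⟩⟩, 0)
          simp only [δ, LinearMap.coprod_apply, Submodule.subtype_apply, map_zero, add_zero,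
            zero_add, LinearMap.comp_apply] at this
          rw [pgP, LinearMap.sub_apply, LinearMap.id_apply, pgR_single, map_sub, pgR_single,
            pgR_single, map_sub] at this
          have e1 := c1 x
          have e2 := c1 (u • x)
          simp only [hc] at e1 e2 ⊢
          linarith
        have c3 : ∀ x, c (t • x) = c x := by
          intro x
          have := hφ' (0, 0, ⟨pgP t (Pi.single x 1), ⟨_, rfl⟩⟩)
          simp only [δ, LinearMap.coprod_apply, Submodule.subtype_apply, map_zero,
            zero_add, LinearMap.comp_apply] at this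
          rw [pgP, LinearMap.sub_apply, LinearMap.id_apply, pgR_single, map_sub, pgR_single,
            pgR_single, map_sub, pgR_single, pgR_single, map_sub] at this
          have e1 := c1 (u • x)
          have e2 := c2 x
          have e3 := c1 (u • t • x)
          have e4 := c2 (t • x)
          simp only [hc] at e1 e2 e3 e4 ⊢
          linarith
        have hconst := pg_const_of_invariant hgen c1 c2 c3
        have hφ0' : c x₀ = 0 := hφ0
        apply Subtype.ext
        apply LinearMap.ext
        intro f
        rw [LinearMap.pi_apply_eq_sum_univ φ f]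
        simp only [LinearMap.zero_apply, Submodule.coe_zero]
        apply Finset.sum_eq_zero
        intro i _
        have hi : (fun j => if i = j then (1 : ℚ) else 0) = Pi.single i 1 := by
          funext j
          simp [Pi.single_apply, eq_comm]
        rw [hi]
        have : φ (Pi.single i 1) = 0 := by
          have := hconst i x₀
          simp only [hc] at this hφ0'
          rw [this, hφ0']
        rw [this, smul_zero]
      simpa using LinearMap.finrank_le_finrank_of_injective hev
    omega
  omega

/-- variant with the relation in the form `s * u = t` -/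
theorem pg_ree' [MulAction.IsPretransitive G X] {s u t : G} (hsut : s * u = t)
    (hgen : Subgroup.closure {s, u} = ⊤) :
    pgOrb G X s + pgOrb G X u + pgOrb G X t ≤ Fintype.card X + 2 := by
  have h1 : s * u * t⁻¹ = 1 := by rw [hsut, mul_inv_cancel]
  have h2 : Subgroup.closure {s, u, t⁻¹} = ⊤ := by
    rw [eq_top_iff, ← hgen]
    apply Subgroup.closure_mono
    intro x hx
    rcases hx with rfl | rfl
    · simp
    · simp
  have h3 : pgOrb G X t⁻¹ = pgOrb G X t := by
    unfold pgOrb
    rw [Subgroup.zpowers_inv]
  have := pg_ree (X := X) h1 h2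
  rwa [h3] at this

theorem pg_parity' {s u t : G} (hsut : s * u = t) :
    Even (pgOrb G X s + pgOrb G X u + pgOrb G X t + Fintype.card X) := by
  have h1 : s * u * t⁻¹ = 1 := by rw [hsut, mul_inv_cancel]
  have h3 : pgOrb G X t⁻¹ = pgOrb G X t := by
    unfold pgOrb
    rw [Subgroup.zpowers_inv]
  have := pg_parity (X := X) h1
  rwa [h3] at this

/-- **Genus of a permutation triple.** If `s` acts as an involution, `u` with order dividing `3`,
`t = s * u`, and `⟨s, u⟩ = G` acts transitively on the finite set `X`, then there is a natural number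
`g` (the genus) with `12 g + 3 fix(s) + 4 fix(u) + 6 orb(t) = |X| + 12`, i.e.
`g = 1 + |X|/12 - fix(s)/4 - fix(u)/3 - orb(t)/2`. -/
theorem pg_genus_nat [MulAction.IsPretransitive G X] {s u t : G} (hsut : s * u = t)
    (hgen : Subgroup.closure {s, u} = ⊤)
    (hs : ∀ x : X, (s ^ 2) • x = x) (hu : ∀ x : X, (u ^ 3) • x = x) :
    ∃ g : ℕ, 2 * g + pgOrb G X s + pgOrb G X u + pgOrb G X t = Fintype.card X + 2 ∧
      12 * g + 3 * Nat.card {x : X // s • x = x} + 4 * Nat.card {x : X // u • x = x} +
        6 * pgOrb G X t = Fintype.card X + 12 := by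
  have hree := pg_ree' (X := X) hsut hgen
  have hpar := pg_parity' (X := X) hsut
  have : Fact (Nat.Prime 2) := ⟨Nat.prime_two⟩
  have : Fact (Nat.Prime 3) := ⟨Nat.prime_three⟩
  have h2 := pg_orb_of_pow_prime (X := X) (p := 2) s hs
  have h3 := pg_orb_of_pow_prime (X := X) (p := 3) u hu
  obtain ⟨r, hr⟩ := hpar
  refine ⟨Fintype.card X + 1 - r, ?_, ?_⟩ <;> omega

end Scott

end Fermat.Agent.S24x
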