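import Fermat.Agent.S24x.CombFibre2
import Fermat.Agent.S24x.CombFixed
import Fermat.Agent.S24x.CombOrbit
import Fermat.Agent.S24x.CombCount
import Fermat.Agent.S24x.PermGenus
import Fermat.Prelude.Def_ModularCurve_GenusNumerics

/-!
# S24 project, module E1: the arithmetic of the genus formula

`X := SL(2,ℤ) ⧸ Γ₀(N)` with the left action of `SL(2,ℤ)`; `s := S⁻¹`, `u := S * T`, `t := T`
(so `s * u = t`, `s² = u³ = -1` acts trivially, `⟨s, u⟩ = SL(2,ℤ)`).
`pg_genus_nat` (helper23, parity + Ree) gives a natural number `g` with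
`12 g + 3 ν₂ + 4 ν₃ + 6 c = ψ + 12`; hence the Riemann–Hurwitz count
`(ψ - r₀) + (ψ - r₁₇₂₈) - ψ - c + 2` (with `3 r₀ = ψ + 2 ν₃`, `2 r₁₇₂₈ = ψ + ν₂`) equals `2 g`
and `g = genusFormula N`.
-/

set_option autoImplicit false

open CongruenceSubgroup ModularGroup Matrix.SpecialLinearGroup
open scoped MatrixGroups

namespace Fermat.Agent.S24x

variable (N : ℕ) [NeZero N]

omit [NeZero N] in
/-- `-1` acts trivially on `SL(2,ℤ) ⧸ Γ₀(N)`. -/
theorem ga_neg_one_smul (x : Q N) : (-1 : SL(2, ℤ)) • x = x := by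
  induction x using QuotientGroup.induction_on with
  | H g =>
    rw [smul_coset, coset_eq_iff]
    simp only [neg_mul, one_mul, Matrix.SpecialLinearGroup.coe_neg, Matrix.neg_apply]
    have : (-((g : Matrix (Fin 2) (Fin 2) ℤ) 0 0 * g 1 0) - -((g : Matrix (Fin 2) (Fin 2) ℤ) 1 0 * g 0 0) : ℤ) = 0 := by
      ring
    rw [this]
    simp

theorem ga_S_sq : (S : SL(2, ℤ)) ^ 2 = -1 := by
  apply Subtype.ext
  rw [pow_two, Matrix.SpecialLinearGroup.coe_mul, ModularGroup.S_mul_S_eq]
  simp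

theorem ga_ST_cube : ((S * T : SL(2, ℤ))) ^ 3 = -1 := by
  apply Subtype.ext
  simp only [pow_succ, pow_zero, one_mul, Matrix.SpecialLinearGroup.coe_mul, ModularGroup.coe_S,
    ModularGroup.coe_T, Matrix.SpecialLinearGroup.coe_neg, Matrix.SpecialLinearGroup.coe_one]
  ext i j
  fin_cases i <;> fin_cases j <;> simp [Matrix.mul_apply, Fin.sum_univ_two]

theorem ga_closure : Subgroup.closure {(S⁻¹ : SL(2, ℤ)), S * T} = ⊤ := by
  rw [eq_top_iff, ← _root_.SpecialLinearGroup.SL2Z_generators]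
  rw [Subgroup.closure_le]
  intro x hx
  have hS : (S : SL(2, ℤ)) ∈ Subgroup.closure {(S⁻¹ : SL(2, ℤ)), S * T} := by
    have := Subgroup.inv_mem _ (Subgroup.subset_closure
      (Set.mem_insert (S⁻¹ : SL(2, ℤ)) {S * T}))
    simpa using this
  rcases hx with rfl | hx
  · exact hS
  · rw [Set.mem_singleton_iff] at hx
    subst hx
    have hST : (S * T : SL(2, ℤ)) ∈ Subgroup.closure {(S⁻¹ : SL(2, ℤ)), S * T} :=
      Subgroup.subset_closure (Set.mem_insert_of_mem _ rfl)
    have := Subgroup.mul_mem _ (Subgroup.inv_mem _ hS) hST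
    simpa using this

/-- C4 (same statement as `Spec.card_orbits_T`), from W4a + W4b + W4c. -/
theorem ga_card_orbits_T :
    Nat.card (MulAction.orbitRel.Quotient (Subgroup.zpowers T) (Q N)) =
      ModularCurve.cuspCount N := by
  have h1 := card_orbits_mul N
  have h2 := sum_Vset_eq N (wt N) (fun u v => wt_unit_smul N u v)
  have h3 := sum_wt_Vset N
  rw [h3, ← h1] at h2
  have hN : 0 < N := Nat.pos_of_ne_zero (NeZero.ne N)
  have hphi : 0 < Nat.totient N := Nat.totient_pos.mpr hN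
  have h4 : (N * Nat.totient N) * ModularCurve.cuspCount N =
      (N * Nat.totient N) *
        Nat.card (MulAction.orbitRel.Quotient (Subgroup.zpowers T) (Q N)) := by
    rw [h2]; ring
  exact (Nat.eq_of_mul_eq_mul_left (Nat.mul_pos hN hphi) h4).symm

/-- Parity + Ree on `SL(2,ℤ) ⧸ Γ₀(N)`: the genus is a natural number.  The hypothesis `hT` is
`card_orbits_T` (module `CombCusps`). -/
theorem ga_genus_nat_of_orbits_T
    (hT : Nat.card (MulAction.orbitRel.Quotient (Subgroup.zpowers T) (Q N)) =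
      ModularCurve.cuspCount N) :
    ∃ g : ℕ, 12 * g + 3 * ModularCurve.nuTwo N + 4 * ModularCurve.nuThree N +
      6 * ModularCurve.cuspCount N = ModularCurve.dedekindPsi N + 12 := by
  have hs : ∀ x : Q N, ((S⁻¹ : SL(2, ℤ)) ^ 2) • x = x := by
    intro x
    rw [inv_pow, ga_S_sq, inv_smul_eq_iff, ga_neg_one_smul]
  have hu : ∀ x : Q N, ((S * T : SL(2, ℤ)) ^ 3) • x = x := by
    intro x
    rw [ga_ST_cube, ga_neg_one_smul]
  obtain ⟨g, -, hg⟩ := pg_genus_nat (G := SL(2, ℤ)) (X := Q N) (s := S⁻¹) (u := S * T) (t := T)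
    (by group) ga_closure hs hu
  refine ⟨g, ?_⟩
  have h2 : Nat.card {x : Q N // (S⁻¹ : SL(2, ℤ)) • x = x} = ModularCurve.nuTwo N := by
    rw [← card_fixedBy_S N]
    refine Nat.card_congr (Equiv.subtypeEquivRight fun x => ?_)
    rw [MulAction.mem_fixedBy, inv_smul_eq_iff, eq_comm]
  have h3 : Nat.card {x : Q N // (S * T : SL(2, ℤ)) • x = x} = ModularCurve.nuThree N := by
    rw [← card_fixedBy_ST N]
    rfl
  have h4 : pgOrb SL(2, ℤ) (Q N) T = ModularCurve.cuspCount N := hT
  have h5 : Fintype.card (Q N) = ModularCurve.dedekindPsi N := by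
    rw [← Nat.card_eq_fintype_card, card_Q_of_fibre]
  rw [h2, h3, h4, h5] at hg
  exact hg

/-- **E1**: the Riemann–Hurwitz count is `2 * genusFormula N`.  Inputs: the numbers of places of
`F_N` over `j = 0` (`r0`), `j = 1728` (`r1728`), `j = ∞` (`rinf`) as delivered by C5 / C6. -/
theorem ga_genus_arith_of_orbits_T
    (hT : Nat.card (MulAction.orbitRel.Quotient (Subgroup.zpowers T) (Q N)) =
      ModularCurve.cuspCount N)
    (r0 r1728 rinf : ℕ)
    (h0 : 3 * r0 = ModularCurve.dedekindPsi N + 2 * ModularCurve.nuThree N)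
    (h1728 : 2 * r1728 = ModularCurve.dedekindPsi N + ModularCurve.nuTwo N)
    (hinf : rinf = ModularCurve.cuspCount N) (degK : ℤ)
    (hdeg : degK = ((ModularCurve.dedekindPsi N : ℤ) - r0) + ((ModularCurve.dedekindPsi N : ℤ) - r1728)
      - ModularCurve.dedekindPsi N - rinf) :
    (((degK + 2).toNat / 2 : ℕ) : ℚ) = ModularCurve.genusFormula N := by
  obtain ⟨g, hg⟩ := ga_genus_nat_of_orbits_T N hT
  have hd : degK + 2 = ((2 * g : ℕ) : ℤ) := by
    subst hinf
    push_cast
    omega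
  rw [hd, Int.toNat_natCast, Nat.mul_div_cancel_left g (by norm_num : 0 < 2)]
  unfold ModularCurve.genusFormula
  have hgq : (12 * g + 3 * ModularCurve.nuTwo N + 4 * ModularCurve.nuThree N +
      6 * ModularCurve.cuspCount N : ℚ) = ModularCurve.dedekindPsi N + 12 := by
    exact_mod_cast hg
  linarith

/-- hypothesis-free form of `ga_genus_nat_of_orbits_T`. -/
theorem ga_genus_nat :
    ∃ g : ℕ, 12 * g + 3 * ModularCurve.nuTwo N + 4 * ModularCurve.nuThree N +
      6 * ModularCurve.cuspCount N = ModularCurve.dedekindPsi N + 12 :=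
  ga_genus_nat_of_orbits_T N (ga_card_orbits_T N)

/-- **E1**, hypothesis-free form. -/
theorem ga_genus_arith (r0 r1728 rinf : ℕ)
    (h0 : 3 * r0 = ModularCurve.dedekindPsi N + 2 * ModularCurve.nuThree N)
    (h1728 : 2 * r1728 = ModularCurve.dedekindPsi N + ModularCurve.nuTwo N)
    (hinf : rinf = ModularCurve.cuspCount N) (degK : ℤ)
    (hdeg : degK = ((ModularCurve.dedekindPsi N : ℤ) - r0) + ((ModularCurve.dedekindPsi N : ℤ) - r1728)
      - ModularCurve.dedekindPsi N - rinf) :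
    (((degK + 2).toNat / 2 : ℕ) : ℚ) = ModularCurve.genusFormula N :=
  ga_genus_arith_of_orbits_T N (ga_card_orbits_T N) r0 r1728 rinf h0 h1728 hinf degK hdeg

/-- **E1** in the exact shape of the output of `gc_genus_eq_of_counts` (A8) with
`C = {0, 1728}` and `n = ψ(N)`: the finite sum over `C` of `n - r c`. -/
theorem ga_genus_arith_finset {K : Type*} [Field K] [CharZero K] [DecidableEq K]
    (r : K → ℕ) (rinf : ℕ)
    (h0 : 3 * r 0 = ModularCurve.dedekindPsi N + 2 * ModularCurve.nuThree N)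
    (h1728 : 2 * r 1728 = ModularCurve.dedekindPsi N + ModularCurve.nuTwo N)
    (hinf : rinf = ModularCurve.cuspCount N) :
    ((((∑ c ∈ ({0, 1728} : Finset K), ((ModularCurve.dedekindPsi N : ℤ) - (r c : ℤ)))
        - ModularCurve.dedekindPsi N - (rinf : ℤ) + 2).toNat / 2 : ℕ) : ℚ) =
      ModularCurve.genusFormula N := by
  have hne : (0 : K) ≠ 1728 := by norm_num
  rw [Finset.sum_pair hne]
  exact ga_genus_arith N (r 0) (r 1728) rinf h0 h1728 hinf _ rfl

end Fermat.Agent.S24x
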