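import Mathlib
import Fermat.Agent.S24x.JFun
import Fermat.Agent.S24x.LevelOneRam

/-!
# S24, module B4' (helper26): local orders of the analytic `j`-function, WITHOUT injectivity of `j`

All names are prefixed `jo_`.  `D = Derivative.normalizedDerivOfComplex = (2πi)⁻¹ d/dz`.

* `jo_D_discriminant` : `D Δ = E₂ Δ`
* `jo_D_jFun` : `D j * Δ = - E₄² E₆`
* `jo_deriv_jFun_ne_zero` : `j' τ ≠ 0` if `E₄ τ ≠ 0` and `E₆ τ ≠ 0`
* `jo_E₄_eq_zero_iff`, `jo_E₆_eq_zero_iff` : `E₄ τ = 0 ↔ j τ = 0`, `E₆ τ = 0 ↔ j τ = 1728`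
* `jo_order_generic` : `ord_τ (j - j τ) = 1` if `j τ ∉ {0, 1728}`
* `jo_order_of_E₄_zero` : `ord_τ j = 3` if `E₄ τ = 0`
* `jo_order_of_E₆_zero` : `ord_τ (j - 1728) = 2` if `E₆ τ = 0`
* `jo_E₄_eq_zero_of_ST_fixed`, `jo_E₆_eq_zero_of_S_fixed`, and the explicit points `jo_rho`, `I`.
-/

set_option autoImplicit false

open UpperHalfPlane hiding I
open Real Complex ModularForm ModularFormClass EisensteinSeries Derivative Filter Function
open scoped Manifold MatrixGroups ModularForm Topology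

namespace Fermat.Agent.S24x

local notation "Δ" => ModularForm.discriminant

theorem jo_mdiff_E₄ : MDiff (⇑E₄ : ℍ → ℂ) := ModularFormClass.holo E₄
theorem jo_mdiff_E₆ : MDiff (⇑E₆ : ℍ → ℂ) := ModularFormClass.holo E₆
theorem jo_mdiff_Δ : MDiff (Δ : ℍ → ℂ) := CuspForm.discriminant.holo'

/-- `1728 Δ = E₄³ - E₆²` as functions. -/
theorem jo_discriminant_fun :
    (Δ : ℍ → ℂ) = (1728 : ℂ)⁻¹ • ((⇑E₄ : ℍ → ℂ) ^ 3 - (⇑E₆ : ℍ → ℂ) ^ 2) := by
  funext z
  rw [discriminant_eq_E₄_cube_sub_E₆_sq z]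
  simp only [Pi.smul_apply, Pi.sub_apply, Pi.pow_apply, smul_eq_mul]
  ring

/-- `D Δ = E₂ Δ`. -/
theorem jo_D_discriminant (z : ℍ) : D Δ z = E2 z * Δ z := by
  have h4 : MDiff ((⇑E₄ : ℍ → ℂ) ^ 3) := by
    have := jo_mdiff_E₄.pow 3
    exact this
  have h6 : MDiff ((⇑E₆ : ℍ → ℂ) ^ 2) := by
    have := jo_mdiff_E₆.pow 2
    exact this
  rw [jo_discriminant_fun, normalizedDerivOfComplex_smul _ _ (h4.sub h6),
    normalizedDerivOfComplex_sub _ _ h4 h6, normalizedDerivOfComplex_pow _ _ jo_mdiff_E₄,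
    normalizedDerivOfComplex_pow _ _ jo_mdiff_E₆]
  simp only [Pi.smul_apply, Pi.sub_apply, Pi.mul_apply, Pi.pow_apply, smul_eq_mul,
    Nat.cast_ofNat]
  rw [ram_E4 z, ram_E6 z]
  norm_num
  ring

/-- `D j · Δ = - E₄² E₆`. -/
theorem jo_D_jFun (z : ℍ) : D jFun z * Δ z = -(E₄ z ^ 2 * E₆ z) := by
  have hprod : (jFun * (Δ : ℍ → ℂ)) = (⇑E₄ : ℍ → ℂ) ^ 3 := by
    funext w
    simp only [Pi.mul_apply, Pi.pow_apply]
    exact jFun_mul_discriminant w
  have h1 := congrFun (normalizedDerivOfComplex_mul jFun Δ jFun_mdiff jo_mdiff_Δ) z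
  have h2 := congrFun (normalizedDerivOfComplex_pow (⇑E₄ : ℍ → ℂ) 3 jo_mdiff_E₄) z
  rw [hprod] at h1
  rw [h1] at h2
  simp only [Pi.add_apply, Pi.mul_apply, Pi.pow_apply, Nat.cast_ofNat, Pi.ofNat_apply,
    Nat.add_one_sub_one] at h2
  rw [jo_D_discriminant z, ram_E4 z] at h2
  have h3 := jFun_mul_discriminant z
  have hΔ := discriminant_ne_zero z
  -- h2 : D jFun z * Δ z + jFun z * (E2 z * Δ z) = 3 * E₄ z ^ 2 * ((E2 z * E₄ z - E₆ z) / 3)
  linear_combination h2 - E2 z * h3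

/-- `j' τ ≠ 0` as soon as `E₄ τ ≠ 0` and `E₆ τ ≠ 0`. -/
theorem jo_deriv_jFun_ne_zero (τ : ℍ) (h4 : E₄ τ ≠ 0) (h6 : E₆ τ ≠ 0) :
    deriv (jFun ∘ ofComplex) (τ : ℂ) ≠ 0 := by
  intro h
  have h1 := jo_D_jFun τ
  rw [normalizedDerivOfComplex, h, mul_zero, zero_mul] at h1
  have : E₄ τ ^ 2 * E₆ τ ≠ 0 := mul_ne_zero (pow_ne_zero _ h4) h6
  exact this (by linear_combination h1)

theorem jo_E₄_eq_zero_iff (τ : ℍ) : E₄ τ = 0 ↔ jFun τ = 0 := by
  have hΔ := discriminant_ne_zero τ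
  rw [jFun, div_eq_zero_iff]
  constructor
  · intro h; left; rw [h]; ring
  · rintro (h | h)
    · exact pow_eq_zero_iff (by norm_num) |>.mp h
    · exact absurd h hΔ

theorem jo_E₆_eq_zero_iff (τ : ℍ) : E₆ τ = 0 ↔ jFun τ = 1728 := by
  have hΔ := discriminant_ne_zero τ
  have h := jAn_sub_1728 τ
  rw [← jFun_eq_jAn] at h
  constructor
  · intro h6
    rw [h6] at h
    have : jFun τ - 1728 = 0 := by rw [h]; simp
    linear_combination this
  · intro hj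
    rw [hj, sub_self] at h
    have := (div_eq_zero_iff.mp h.symm).resolve_right hΔ
    exact pow_eq_zero_iff (by norm_num) |>.mp this

/-! ### analytic orders -/

theorem jo_analyticAt {F : ℍ → ℂ} (hF : MDiff F) (τ : ℍ) :
    AnalyticAt ℂ (F ∘ ofComplex) (τ : ℂ) := by
  have hd : DifferentiableOn ℂ (F ∘ ofComplex) upperHalfPlaneSet :=
    UpperHalfPlane.mdifferentiable_iff.mp hF
  exact hd.analyticAt (isOpen_upperHalfPlaneSet.mem_nhds τ.im_pos)

theorem jo_deriv_eq (F : ℍ → ℂ) (τ : ℍ) :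
    deriv (F ∘ ofComplex) (τ : ℂ) = 2 * π * I * D F τ := by
  rw [normalizedDerivOfComplex]
  have : (2 * (π : ℂ) * I) ≠ 0 := by
    simp [Real.pi_ne_zero, I_ne_zero]
  field_simp

/-- generic points: `ord_τ (j - j τ) = 1`. -/
theorem jo_order_generic (τ : ℍ) (h0 : jFun τ ≠ 0) (h1 : jFun τ ≠ 1728) :
    analyticOrderAt (fun w : ℂ => jFun (ofComplex w) - jFun τ) (τ : ℂ) = 1 := by
  have h4 : E₄ τ ≠ 0 := fun h => h0 ((jo_E₄_eq_zero_iff τ).mp h)
  have h6 : E₆ τ ≠ 0 := fun h => h1 ((jo_E₆_eq_zero_iff τ).mp h)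
  have key := (jo_analyticAt jFun_mdiff τ).analyticOrderAt_sub_eq_one_of_deriv_ne_zero
    (jo_deriv_jFun_ne_zero τ h4 h6)
  simpa [Function.comp_apply, ofComplex_apply] using key

/-- a zero of `E₄` is simple. -/
theorem jo_order_E₄ (τ : ℍ) (h : E₄ τ = 0) :
    analyticOrderAt ((⇑E₄ : ℍ → ℂ) ∘ ofComplex) (τ : ℂ) = 1 := by
  apply (jo_analyticAt jo_mdiff_E₄ τ).analyticOrderAt_eq_one_of_zero_deriv_ne_zero
  · simpa [Function.comp_apply, ofComplex_apply] using h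
  · rw [jo_deriv_eq, ram_E4 τ, h]
    have h6 : E₆ τ ≠ 0 := by
      intro h6
      have := discriminant_eq_E₄_cube_sub_E₆_sq τ
      rw [h, h6] at this
      exact discriminant_ne_zero τ (by rw [this]; ring)
    have : (2 * (π : ℂ) * I) ≠ 0 := by
      simp [Real.pi_ne_zero, I_ne_zero]
    have h3 : (E2 τ * 0 - E₆ τ) / 3 ≠ 0 := by
      rw [mul_zero, zero_sub]
      exact div_ne_zero (neg_ne_zero.mpr h6) (by norm_num)
    exact mul_ne_zero this h3

/-- a zero of `E₆` is simple. -/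
theorem jo_order_E₆ (τ : ℍ) (h : E₆ τ = 0) :
    analyticOrderAt ((⇑E₆ : ℍ → ℂ) ∘ ofComplex) (τ : ℂ) = 1 := by
  apply (jo_analyticAt jo_mdiff_E₆ τ).analyticOrderAt_eq_one_of_zero_deriv_ne_zero
  · simpa [Function.comp_apply, ofComplex_apply] using h
  · rw [jo_deriv_eq, ram_E6 τ, h]
    have h4 : E₄ τ ≠ 0 := by
      intro h4
      have := discriminant_eq_E₄_cube_sub_E₆_sq τ
      rw [h, h4] at this
      exact discriminant_ne_zero τ (by rw [this]; ring)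
    have : (2 * (π : ℂ) * I) ≠ 0 := by
      simp [Real.pi_ne_zero, I_ne_zero]
    have h3 : (E2 τ * 0 - E₄ τ ^ 2) / 2 ≠ 0 := by
      rw [mul_zero, zero_sub]
      exact div_ne_zero (neg_ne_zero.mpr (pow_ne_zero _ h4)) (by norm_num)
    exact mul_ne_zero this h3

theorem jo_order_Δ (τ : ℍ) : analyticOrderAt ((Δ : ℍ → ℂ) ∘ ofComplex) (τ : ℂ) = 0 := by
  rw [analyticOrderAt_eq_zero]
  right
  simpa [Function.comp_apply, ofComplex_apply] using discriminant_ne_zero τ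

/-- at a zero of `E₄` (e.g. `ρ`): `ord_τ j = 3`. -/
theorem jo_order_of_E₄_zero (τ : ℍ) (h : E₄ τ = 0) :
    analyticOrderAt (fun w : ℂ => jFun (ofComplex w)) (τ : ℂ) = 3 := by
  have hj := jo_analyticAt jFun_mdiff τ
  have hΔ := jo_analyticAt jo_mdiff_Δ τ
  have h4 := jo_analyticAt jo_mdiff_E₄ τ
  have hprod : (jFun ∘ ofComplex) * ((Δ : ℍ → ℂ) ∘ ofComplex) = ((⇑E₄ : ℍ → ℂ) ∘ ofComplex) ^ 3 := by
    funext w
    simp only [Pi.mul_apply, Pi.pow_apply, Function.comp_apply]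
    exact jFun_mul_discriminant _
  have e1 := analyticOrderAt_mul hj hΔ
  rw [hprod, analyticOrderAt_pow h4, jo_order_E₄ τ h, jo_order_Δ τ, add_zero] at e1
  have : (fun w : ℂ => jFun (ofComplex w)) = jFun ∘ ofComplex := rfl
  rw [this, ← e1]
  norm_num

/-- at a zero of `E₆` (e.g. `i`): `ord_τ (j - 1728) = 2`. -/
theorem jo_order_of_E₆_zero (τ : ℍ) (h : E₆ τ = 0) :
    analyticOrderAt (fun w : ℂ => jFun (ofComplex w) - 1728) (τ : ℂ) = 2 := by
  have hj : AnalyticAt ℂ (fun w : ℂ => jFun (ofComplex w) - 1728) (τ : ℂ) :=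
    (jo_analyticAt jFun_mdiff τ).sub analyticAt_const
  have hΔ := jo_analyticAt jo_mdiff_Δ τ
  have h6 := jo_analyticAt jo_mdiff_E₆ τ
  have hprod : (fun w : ℂ => jFun (ofComplex w) - 1728) * ((Δ : ℍ → ℂ) ∘ ofComplex) =
      ((⇑E₆ : ℍ → ℂ) ∘ ofComplex) ^ 2 := by
    funext w
    simp only [Pi.mul_apply, Pi.pow_apply, Function.comp_apply]
    have := jAn_sub_1728 (ofComplex w)
    rw [← jFun_eq_jAn] at this
    rw [this, div_mul_cancel₀ _ (discriminant_ne_zero _)]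
  have e1 := analyticOrderAt_mul hj hΔ
  rw [hprod, analyticOrderAt_pow h6, jo_order_E₆ τ h, jo_order_Δ τ, add_zero] at e1
  rw [← e1]
  norm_num

/-! ### the elliptic points -/

/-- a fixed point of `S` is a zero of `E₆`. -/
theorem jo_E₆_eq_zero_of_S_fixed (τ : ℍ) (h : ModularGroup.S • τ = τ) : E₆ τ = 0 := by
  have h1 := jf_levelOne_smul E₆ ModularGroup.S τ
  rw [h, ModularGroup.denom_S] at h1
  -- τ² = -1
  have h2 : ((ModularGroup.S • τ : ℍ) : ℂ) = (-(τ : ℂ))⁻¹ := by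
    rw [UpperHalfPlane.modular_S_smul]
  rw [h] at h2
  have hτ : (τ : ℂ) ≠ 0 := ne_zero τ
  have hn : (-(τ : ℂ)) ≠ 0 := neg_ne_zero.mpr hτ
  have h5 := mul_inv_cancel₀ hn
  rw [← h2] at h5
  have h3 : (τ : ℂ) ^ 2 = -1 := by linear_combination -h5
  have h4 : (τ : ℂ) ^ (6 : ℤ) = -1 := by
    have : (τ : ℂ) ^ (6 : ℤ) = ((τ : ℂ) ^ 2) ^ 3 := by
      rw [← pow_mul]; norm_cast
    rw [this, h3]; norm_num
  rw [h4] at h1
  have : (2 : ℂ) * E₆ τ = 0 := by linear_combination h1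
  simpa using this

theorem jo_denom_ST (τ : ℍ) :
    denom ((ModularGroup.S * ModularGroup.T : SL(2, ℤ))) τ = (τ : ℂ) + 1 := by
  rw [ModularGroup.denom_apply, Matrix.SpecialLinearGroup.coe_mul, Matrix.mul_apply,
    Matrix.mul_apply]
  simp [ModularGroup.S, ModularGroup.T, Fin.sum_univ_two]

/-- a fixed point of `S * T` is a zero of `E₄`. -/
theorem jo_E₄_eq_zero_of_ST_fixed (τ : ℍ) (h : (ModularGroup.S * ModularGroup.T) • τ = τ) :
    E₄ τ = 0 := by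
  have h1 := jf_levelOne_smul E₄ (ModularGroup.S * ModularGroup.T) τ
  rw [h, jo_denom_ST] at h1
  have h2 : (((ModularGroup.S * ModularGroup.T) • τ : ℍ) : ℂ) = (-((τ : ℂ) + 1))⁻¹ := by
    rw [mul_smul, UpperHalfPlane.modular_S_smul, UpperHalfPlane.modular_T_smul]
    simp only [UpperHalfPlane.coe_vadd, Complex.ofReal_one]
    rw [add_comm]
  rw [h] at h2
  have hu : ((τ : ℂ) + 1) ≠ 0 := by
    intro h0
    have := congrArg Complex.im h0
    simp only [Complex.add_im, Complex.one_im, add_zero, Complex.zero_im] at this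
    exact (ne_of_gt τ.im_pos) this
  have hn : (-((τ : ℂ) + 1)) ≠ 0 := neg_ne_zero.mpr hu
  have h5 := mul_inv_cancel₀ hn
  rw [← h2] at h5
  -- h5 : -(τ + 1) * τ = 1, i.e. with u = τ + 1: u² = u - 1, u⁴ = -u
  have h4 : ((τ : ℂ) + 1) ^ (4 : ℤ) = -((τ : ℂ) + 1) := by
    have : ((τ : ℂ) + 1) ^ (4 : ℤ) = ((τ : ℂ) + 1) ^ 4 := by norm_cast
    rw [this]
    linear_combination (-((τ : ℂ) ^ 2 + 3 * (τ : ℂ) + 2)) * h5
  rw [h4] at h1
  have hne : ((τ : ℂ) + 2) ≠ 0 := by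
    intro h0
    have := congrArg Complex.im h0
    simp only [Complex.add_im, Complex.zero_im] at this
    have h2im : (2 : ℂ).im = 0 := by norm_num
    rw [h2im, add_zero] at this
    exact (ne_of_gt τ.im_pos) this
  have : ((τ : ℂ) + 2) * E₄ τ = 0 := by linear_combination h1
  exact (mul_eq_zero.mp this).resolve_left hne

end Fermat.Agent.S24x
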