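/-
S24 helper library, module B4 (+ B1 leftovers), helper26: the special values `j(i) = 1728`,
`j(ρ) = 0`, invariance of `jHol`, and the local orders of `j - c` (AnSpec shapes).
The proofs are in `JOrders.lean` (via `D j · Δ = -E₄² E₆`); NO injectivity of `j` is used.
-/
import Mathlib
import Fermat.Agent.S24x.Defs
import Fermat.Agent.S24x.HolOrder
import Fermat.Agent.S24x.RhoPoint
import Fermat.Agent.S24x.JOrders

set_option autoImplicit false

namespace Fermat.Agent.S24x

open UpperHalfPlane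
open scoped MatrixGroups Manifold ModularForm

theorem jHol_smul (γ : SL(2, ℤ)) : γ • jHol = jHol := by
  apply Subtype.ext
  funext τ
  rw [smul_Hol_apply]
  exact jFun_smul γ⁻¹ τ

theorem jFun_I : jFun UpperHalfPlane.I = 1728 :=
  (jo_E₆_eq_zero_iff _).mp (jo_E₆_eq_zero_of_S_fixed _ S_smul_I)

theorem jFun_rho : jFun rho = 0 :=
  (jo_E₄_eq_zero_iff _).mp (jo_E₄_eq_zero_of_ST_fixed _ ST_smul_rho)

theorem holOrder_jHol_sub_generic (τ : ℍ) (h0 : jFun τ ≠ 0) (h1 : jFun τ ≠ 1728) :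
    holOrder (jHol - algebraMap ℂ Hol (jFun τ)) τ = 1 :=
  jo_order_generic τ h0 h1

theorem holOrder_jHol_sub_I : holOrder (jHol - algebraMap ℂ Hol 1728) UpperHalfPlane.I = 2 :=
  jo_order_of_E₆_zero _ (jo_E₆_eq_zero_of_S_fixed _ S_smul_I)

theorem holOrder_jHol_rho : holOrder jHol rho = 3 :=
  jo_order_of_E₄_zero _ (jo_E₄_eq_zero_of_ST_fixed _ ST_smul_rho)

/-- general form at any zero of `E₆` (any point of the orbit of `i`): `ord_τ (j - 1728) = 2`. -/
theorem holOrder_jHol_sub_of_jFun_eq_1728 (τ : ℍ) (h : jFun τ = 1728) :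
    holOrder (jHol - algebraMap ℂ Hol 1728) τ = 2 :=
  jo_order_of_E₆_zero _ ((jo_E₆_eq_zero_iff τ).mpr h)

/-- general form at any zero of `E₄` (any point of the orbit of `ρ`): `ord_τ j = 3`. -/
theorem holOrder_jHol_of_jFun_eq_zero (τ : ℍ) (h : jFun τ = 0) : holOrder jHol τ = 3 :=
  jo_order_of_E₄_zero _ ((jo_E₄_eq_zero_iff τ).mpr h)

end Fermat.Agent.S24x
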