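import Mathlib
import Fermat.Prelude.Def_AlgebraicCurve_CanonicalDivisor

/-!
# S24, module A8: Riemann–Hurwitz in counting form

`K` a field, `F / K` a field, `t : F` a "coordinate". Assume (these are the outputs of the other
modules of layer A, taken here as hypotheses in pure Prelude language):

* `Ω[F⁄K] = F · dt`, `dt ≠ 0`, every place has `DCoordGenerates` (A1);
* every place has degree `1` (A2);
* every place is a pole of `t` or a zero of `t - c` for some `c : K` (A2/A3);
* `∑_{v | c} ord_v (t - c) = n` for all `c`, `∑_{v | ∞} - ord_v t = n` (A3);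
* `ord_v (dt) = ord_v (t - c) - 1` at zeros of `t - c`, `ord_v (dt) = ord_v t - 1` at poles (A6);
* principal divisors have degree zero (A7);
* outside a finite set `C ⊆ K` there are exactly `n` places over `c`.

Then for EVERY nonzero differential `ω`,
`deg (div ω) = ∑_{c ∈ C} (n - #{places over c}) - n - #{poles of t}`,
and `genus K F = (that + 2).toNat / 2`.

All names are prefixed `gc_` or live in `Fermat.Agent.S24x`.
-/

set_option autoImplicit false

namespace Fermat.Agent.S24x

open AlgebraicCurve KaehlerDifferential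

section Ord

variable {K F : Type*} [Field K] [Field F] [Algebra K F] (v : Place K F)

lemma gc_ne_zero_of_ord_ne_zero {f : F} (h : v.ord f ≠ 0) : f ≠ 0 := by
  rintro rfl
  exact h v.ord_zero

lemma gc_ord_pos_iff {f : F} (hf : f ≠ 0) : 0 < v.ord f ↔ v.adicValuation f < 1 := by
  have h0 := v.adicValuation_ne_zero hf
  unfold Place.ord
  rw [neg_pos, WithZero.log_lt_iff_lt_exp h0, WithZero.exp_zero]

lemma gc_ord_neg_iff {f : F} (hf : f ≠ 0) : v.ord f < 0 ↔ 1 < v.adicValuation f := by
  have h0 := v.adicValuation_ne_zero hf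
  unfold Place.ord
  rw [neg_lt_zero, WithZero.lt_log_iff_exp_lt h0, WithZero.exp_zero]

lemma gc_adicValuation_algebraMap_le_one (a : K) : v.adicValuation (algebraMap K F a) ≤ 1 := by
  have h := v.adicValuation_coe (algebraMap K v.toValuationSubring a)
  rw [v.coe_algebraMap] at h
  rw [h]
  exact IsDedekindDomain.HeightOneSpectrum.intValuation_le_one _ _

lemma gc_ord_algebraMap {a : K} (ha : a ≠ 0) : v.ord (algebraMap K F a) = 0 := by
  let u : v.toValuationSubringˣ :=
    ⟨algebraMap K v.toValuationSubring a, algebraMap K v.toValuationSubring a⁻¹,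
      by rw [← map_mul, mul_inv_cancel₀ ha, map_one],
      by rw [← map_mul, inv_mul_cancel₀ ha, map_one]⟩
  have h := v.ord_coe_unit u
  simpa [u] using h

/-- A place is a zero of `t - c` for at most one constant `c`. -/
lemma gc_center_unique {t : F} {c c' : K} (h : 0 < v.ord (t - algebraMap K F c))
    (h' : 0 < v.ord (t - algebraMap K F c')) : c = c' := by
  by_contra hne
  have h1 : t - algebraMap K F c ≠ 0 := gc_ne_zero_of_ord_ne_zero v h.ne'
  have h2 : t - algebraMap K F c' ≠ 0 := gc_ne_zero_of_ord_ne_zero v h'.ne'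
  have hcc : c - c' ≠ 0 := sub_ne_zero.mpr hne
  have e : algebraMap K F (c - c') = (t - algebraMap K F c') - (t - algebraMap K F c) := by
    rw [map_sub]; ring
  have hne' : algebraMap K F (c - c') ≠ 0 := by
    rwa [Ne, map_eq_zero]
  have hv : v.adicValuation (algebraMap K F (c - c')) < 1 := by
    rw [e]
    exact lt_of_le_of_lt (Valuation.map_sub _ _ _)
      (max_lt ((gc_ord_pos_iff v h2).mp h') ((gc_ord_pos_iff v h1).mp h))
  have h0 : v.ord (algebraMap K F (c - c')) = 0 := gc_ord_algebraMap v hcc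
  have h3 : 0 < v.ord (algebraMap K F (c - c')) := (gc_ord_pos_iff v hne').mpr hv
  omega

/-- A pole of `t` is not a zero of any `t - c`. -/
lemma gc_not_pole_of_center {t : F} {c : K} (h : 0 < v.ord (t - algebraMap K F c)) :
    ¬ v.ord t < 0 := by
  intro hp
  have h1 : t - algebraMap K F c ≠ 0 := gc_ne_zero_of_ord_ne_zero v h.ne'
  have ht : t ≠ 0 := gc_ne_zero_of_ord_ne_zero v hp.ne
  have hv1 := (gc_ord_pos_iff v h1).mp h
  have hv2 := (gc_ord_neg_iff v ht).mp hp
  have e : t = (t - algebraMap K F c) + algebraMap K F c := by ring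
  have hle : v.adicValuation t ≤ 1 := by
    rw [e]
    exact le_trans (Valuation.map_add _ _ _)
      (max_le hv1.le (gc_adicValuation_algebraMap_le_one v c))
  exact absurd hv2 (not_lt.mpr hle)

end Ord

section Degree

variable {K F : Type*} [Field K] [Field F] [Algebra K F]

/-- If all places have degree one, the degree of a divisor is the sum of its coefficients over
any finite set containing its support. -/
lemma gc_degree_eq_sum (hdeg : ∀ v : Place K F, v.deg = 1) (D : Divisor K F)
    (S : Finset (Place K F)) (hS : D.support ⊆ S) : Divisor.degree D = ∑ v ∈ S, D v := by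
  unfold Divisor.degree
  rw [Finsupp.liftAddHom_apply, Finsupp.sum_of_support_subset D hS]
  · refine Finset.sum_congr rfl fun v _ => ?_
    simp [hdeg v]
  · intro v _
    simp

end Degree

section Main

variable {K F : Type*} [Field K] [Field F] [Algebra K F]

/-- **Riemann–Hurwitz in counting form** (module A8). -/
theorem gc_degree_canonicalDivisorOf_eq [HasCanonicalDivisor (K := K) (F := F)]
    (t : F) (n : ℕ)
    (hspan : ∀ ω : Ω[F⁄K], ∃ f : F, ω = f • D K F t) (hDt : D K F t ≠ 0)
    (hdc : ∀ v : Place K F, v.DCoordGenerates)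
    (hdeg : ∀ v : Place K F, v.deg = 1)
    (hcover : ∀ v : Place K F, v.ord t < 0 ∨ ∃ c : K, 0 < v.ord (t - algebraMap K F c))
    (hzero : ∀ c : K, ∃ hfin : {v : Place K F | 0 < v.ord (t - algebraMap K F c)}.Finite,
      ∑ v ∈ hfin.toFinset, v.ord (t - algebraMap K F c) = (n : ℤ))
    (hpole : ∃ hfin : {v : Place K F | v.ord t < 0}.Finite,
      ∑ v ∈ hfin.toFinset, -v.ord t = (n : ℤ))
    (hD0 : ∀ (c : K) (v : Place K F), 0 < v.ord (t - algebraMap K F c) →
      v.ordDifferential (D K F t) = v.ord (t - algebraMap K F c) - 1)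
    (hDp : ∀ v : Place K F, v.ord t < 0 → v.ordDifferential (D K F t) = v.ord t - 1)
    (hprin : ∀ g : F, g ≠ 0 → ∃ hfin : {v : Place K F | v.ord g ≠ 0}.Finite,
      ∑ v ∈ hfin.toFinset, v.ord g = 0)
    (C : Finset K)
    (hC : ∀ c ∉ C, {v : Place K F | 0 < v.ord (t - algebraMap K F c)}.ncard = n)
    {ω : Ω[F⁄K]} (hω : ω ≠ 0) :
    Divisor.degree (canonicalDivisorOf hω) =
      ∑ c ∈ C, ((n : ℤ) - ({v : Place K F | 0 < v.ord (t - algebraMap K F c)}.ncard : ℤ))
        - n - ({v : Place K F | v.ord t < 0}.ncard : ℤ) := by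
  classical
  haveI : Nontrivial Ω[F⁄K] := ⟨⟨D K F t, 0, hDt⟩⟩
  -- `ω = g • dt`
  obtain ⟨g, hg⟩ := hspan ω
  have hg0 : g ≠ 0 := by
    rintro rfl
    exact hω (by rw [hg, zero_smul])
  -- the coefficient of `dt` w.r.t. the local coordinate differential is nonzero
  have hcoeff : ∀ v : Place K F, v.differentialCoeff (D K F t) ≠ 0 := by
    intro v h0
    haveI := hdc v
    have h := v.differentialCoeff_smul_dCoord (D K F t)
    rw [h0, zero_smul] at h
    exact hDt h.symm
  have hordω : ∀ v : Place K F,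
      v.ordDifferential ω = v.ord g + v.ordDifferential (D K F t) := by
    intro v
    haveI := hdc v
    rw [hg]
    exact v.ordDifferential_smul hg0 (hcoeff v)
  -- Step 1: `deg div ω = deg div dt`
  set Dω := canonicalDivisorOf hω with hDω
  set Dt := canonicalDivisorOf hDt with hDt'
  have hDωv : ∀ v, Dω v = v.ordDifferential ω := fun v => canonicalDivisorOf_apply hω v
  have hDtv : ∀ v, Dt v = v.ordDifferential (D K F t) := fun v => canonicalDivisorOf_apply hDt v
  have hE : ∀ v, (Dω - Dt) v = v.ord g := by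
    intro v
    rw [Finsupp.sub_apply, hDωv, hDtv, hordω]
    ring
  have hdegE : Divisor.degree (Dω - Dt) = 0 := by
    obtain ⟨hfin, hsum⟩ := hprin g hg0
    rw [gc_degree_eq_sum hdeg (Dω - Dt) hfin.toFinset ?_]
    · exact (Finset.sum_congr rfl fun v _ => hE v).trans hsum
    · intro v hv
      rw [Finsupp.mem_support_iff, hE] at hv
      simpa using hv
  have hdegeq : Divisor.degree Dω = Divisor.degree Dt := by
    have := hdegE
    rw [map_sub, sub_eq_zero] at this
    exact this
  rw [hdegeq]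
  -- Step 2: compute `deg div dt`
  choose hfinZ hsumZ using hzero
  obtain ⟨hfinP, hsumP⟩ := hpole
  set Z : K → Finset (Place K F) := fun c => (hfinZ c).toFinset with hZ
  set P : Finset (Place K F) := hfinP.toFinset with hP
  have hmemZ : ∀ c v, v ∈ Z c ↔ 0 < v.ord (t - algebraMap K F c) := by
    intro c v
    simp [hZ]
  have hmemP : ∀ v, v ∈ P ↔ v.ord t < 0 := by
    intro v
    simp [hP]
  -- unramified fibres
  have hunram : ∀ c ∉ C, ∀ v ∈ Z c, v.ord (t - algebraMap K F c) = 1 := by
    intro c hc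
    have hcard : (Z c).card = n := by
      rw [← hC c hc, Set.ncard_eq_toFinset_card _ (hfinZ c)]
    have hsum0 : ∑ v ∈ Z c, (v.ord (t - algebraMap K F c) - 1) = 0 := by
      rw [Finset.sum_sub_distrib, hsumZ c]
      simp [hcard]
    have hnonneg : ∀ v ∈ Z c, 0 ≤ v.ord (t - algebraMap K F c) - 1 := by
      intro v hv
      have := (hmemZ c v).mp hv
      omega
    intro v hv
    have := (Finset.sum_eq_zero_iff_of_nonneg hnonneg).mp hsum0 v hv
    omega
  set S : Finset (Place K F) := (C.biUnion Z) ∪ P with hS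
  have hsupp : Dt.support ⊆ S := by
    intro v hv
    rw [Finsupp.mem_support_iff, hDtv] at hv
    rcases hcover v with hp | ⟨c, hc⟩
    · exact Finset.mem_union_right _ ((hmemP v).mpr hp)
    · by_cases hcC : c ∈ C
      · exact Finset.mem_union_left _ (Finset.mem_biUnion.mpr ⟨c, hcC, (hmemZ c v).mpr hc⟩)
      · exfalso
        apply hv
        rw [hD0 c v hc, hunram c hcC v ((hmemZ c v).mpr hc)]
        norm_num
  rw [gc_degree_eq_sum hdeg Dt S hsupp]
  have hdisj1 : Disjoint (C.biUnion Z) P := by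
    rw [Finset.disjoint_left]
    intro v hv hvP
    obtain ⟨c, _, hvc⟩ := Finset.mem_biUnion.mp hv
    exact gc_not_pole_of_center v ((hmemZ c v).mp hvc) ((hmemP v).mp hvP)
  have hdisj2 : (C : Set K).PairwiseDisjoint Z := by
    intro c _ c' _ hne
    rw [Function.onFun, Finset.disjoint_left]
    intro v hv hv'
    exact hne (gc_center_unique v ((hmemZ c v).mp hv) ((hmemZ c' v).mp hv'))
  rw [hS, Finset.sum_union hdisj1, Finset.sum_biUnion hdisj2]
  have hcardZ : ∀ c, ((Z c).card : ℤ) =
      ({v : Place K F | 0 < v.ord (t - algebraMap K F c)}.ncard : ℤ) := fun c => by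
    rw [Set.ncard_eq_toFinset_card _ (hfinZ c)]
  have hcardP : (P.card : ℤ) = ({v : Place K F | v.ord t < 0}.ncard : ℤ) := by
    rw [Set.ncard_eq_toFinset_card _ hfinP]
  have hZsum : ∀ c ∈ C, ∑ v ∈ Z c, Dt v =
      (n : ℤ) - ({v : Place K F | 0 < v.ord (t - algebraMap K F c)}.ncard : ℤ) := by
    intro c _
    have h1 : ∑ v ∈ Z c, Dt v = ∑ v ∈ Z c, (v.ord (t - algebraMap K F c) - 1) :=
      Finset.sum_congr rfl fun v hv => by rw [hDtv, hD0 c v ((hmemZ c v).mp hv)]
    rw [h1, Finset.sum_sub_distrib, hsumZ c, ← hcardZ c, Finset.sum_const, nsmul_eq_mul, mul_one]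
  have hPsum : ∑ v ∈ P, Dt v = -(n : ℤ) - ({v : Place K F | v.ord t < 0}.ncard : ℤ) := by
    have h1 : ∑ v ∈ P, Dt v = ∑ v ∈ P, (-(-v.ord t) - 1) :=
      Finset.sum_congr rfl fun v hv => by rw [hDtv, hDp v ((hmemP v).mp hv)]; ring
    rw [h1, Finset.sum_sub_distrib, Finset.sum_neg_distrib, hsumP, ← hcardP, Finset.sum_const,
      nsmul_eq_mul, mul_one]
  rw [Finset.sum_congr rfl hZsum, hPsum]
  ring

/-- The genus in terms of the counts (module A8, second half). -/
theorem gc_genus_eq_of_counts [HasCanonicalDivisor (K := K) (F := F)]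
    (t : F) (n : ℕ)
    (hspan : ∀ ω : Ω[F⁄K], ∃ f : F, ω = f • D K F t) (hDt : D K F t ≠ 0)
    (hdc : ∀ v : Place K F, v.DCoordGenerates)
    (hdeg : ∀ v : Place K F, v.deg = 1)
    (hcover : ∀ v : Place K F, v.ord t < 0 ∨ ∃ c : K, 0 < v.ord (t - algebraMap K F c))
    (hzero : ∀ c : K, ∃ hfin : {v : Place K F | 0 < v.ord (t - algebraMap K F c)}.Finite,
      ∑ v ∈ hfin.toFinset, v.ord (t - algebraMap K F c) = (n : ℤ))
    (hpole : ∃ hfin : {v : Place K F | v.ord t < 0}.Finite,
      ∑ v ∈ hfin.toFinset, -v.ord t = (n : ℤ))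
    (hD0 : ∀ (c : K) (v : Place K F), 0 < v.ord (t - algebraMap K F c) →
      v.ordDifferential (D K F t) = v.ord (t - algebraMap K F c) - 1)
    (hDp : ∀ v : Place K F, v.ord t < 0 → v.ordDifferential (D K F t) = v.ord t - 1)
    (hprin : ∀ g : F, g ≠ 0 → ∃ hfin : {v : Place K F | v.ord g ≠ 0}.Finite,
      ∑ v ∈ hfin.toFinset, v.ord g = 0)
    (C : Finset K)
    (hC : ∀ c ∉ C, {v : Place K F | 0 < v.ord (t - algebraMap K F c)}.ncard = n) :
    genus K F =
      (∑ c ∈ C, ((n : ℤ) - ({v : Place K F | 0 < v.ord (t - algebraMap K F c)}.ncard : ℤ))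
        - n - ({v : Place K F | v.ord t < 0}.ncard : ℤ) + 2).toNat / 2 := by
  have h : ∃ ω : Ω[F⁄K], ω ≠ 0 := ⟨_, hDt⟩
  unfold genus
  rw [dif_pos h, gc_degree_canonicalDivisorOf_eq t n hspan hDt hdc hdeg hcover hzero hpole hD0 hDp
    hprin C hC h.choose_spec]

end Main

end Fermat.Agent.S24x
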