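import Mathlib
import Fermat.Agent.S24x.AlgDefs
import Fermat.Agent.S24x.KaehlerBasis
import Fermat.Agent.S24x.LocalDiff
import Fermat.Agent.S24x.GenusCount

/-!
# S24, layer A: integration

Puts together A1 (`KaehlerBasis`), A5/A6 (`LocalDiff`) and A8 (`GenusCount`).  What remains as
hypotheses are exactly the outputs of A2 (every place is essentially of finite type with residue
field `K`), A3 (fundamental identity) and A7 (principal divisors have degree `0`).

Main results: `la_degree_canonicalDivisorOf_eq`, `la_genus_eq_of_counts`.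
-/

set_option autoImplicit false

namespace Fermat.Agent.S24x

open AlgebraicCurve KaehlerDifferential IntermediateField

variable {K F : Type*} [Field K] [Field F] [Algebra K F]

/-- If the residue field of `v` is `K`, then `v` has degree one. -/
theorem la_deg_eq_one (v : Place K F)
    (hres : Function.Surjective (algebraMap K v.ResidueField)) : v.deg = 1 := by
  have hinj : Function.Injective (algebraMap K v.ResidueField) :=
    (algebraMap K v.ResidueField).injective
  let e : K ≃ₗ[K] v.ResidueField :=
    LinearEquiv.ofBijective (Algebra.linearMap K v.ResidueField) ⟨hinj, hres⟩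
  unfold Place.deg
  rw [← e.finrank_eq, Module.finrank_self]

/-- If the residue field of `v` is `K` and `t` lies in the valuation ring and is not a constant,
then `v` is a zero of `t - c` for some constant `c`. -/
theorem la_exists_center (v : Place K F)
    (hres : Function.Surjective (algebraMap K v.ResidueField)) {t : F}
    (htc : ∀ c : K, t ≠ algebraMap K F c) (ht : t ∈ v.toValuationSubring) :
    ∃ c : K, 0 < v.ord (t - algebraMap K F c) := by
  obtain ⟨c, hc⟩ := hres (IsLocalRing.residue v.toValuationSubring ⟨t, ht⟩)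
  refine ⟨c, ?_⟩
  have hne : t - algebraMap K F c ≠ 0 := sub_ne_zero.mpr (htc c)
  rw [gc_ord_pos_iff v hne]
  -- `t - c` lies in the maximal ideal
  have hmem : (⟨t, ht⟩ - algebraMap K v.toValuationSubring c : v.toValuationSubring) ∈
      IsLocalRing.maximalIdeal v.toValuationSubring := by
    rw [← IsLocalRing.residue_eq_zero_iff, map_sub, sub_eq_zero]
    rw [← hc]
    rfl
  have hval := v.adicValuation_coe (⟨t, ht⟩ - algebraMap K v.toValuationSubring c)
  have hcoe : ((⟨t, ht⟩ - algebraMap K v.toValuationSubring c : v.toValuationSubring) : F) =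
      t - algebraMap K F c := by
    rw [AddSubgroupClass.coe_sub, v.coe_algebraMap]
  rw [hcoe] at hval
  rw [hval]
  exact (IsDedekindDomain.HeightOneSpectrum.intValuation_lt_one_iff_mem _ _).mpr hmem

/-- `t⁻¹` is a unit or in the ring: a place is a pole of `t` or contains `t`. -/
theorem la_pole_or_mem (v : Place K F) (t : F) : v.ord t < 0 ∨ t ∈ v.toValuationSubring := by
  by_cases ht : t ∈ v.toValuationSubring
  · exact Or.inr ht
  · left
    have ht0 : t ≠ 0 := fun h => ht (h ▸ v.toValuationSubring.zero_mem)
    rw [gc_ord_neg_iff v ht0]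
    by_contra hle
    rw [not_lt] at hle
    exact ht ((adicValuation_le_one_iff v t).mp hle)

section Main

variable [CharZero K] [HasCanonicalDivisor (K := K) (F := F)]

/-- **Layer A, final form (degree).** -/
theorem la_degree_canonicalDivisorOf_eq (t : F) (ht : IsCoordinate K F t)
    (hess : ∀ v : Place K F, Algebra.EssFiniteType K v.toValuationSubring)
    (hres : ∀ v : Place K F, Function.Surjective (algebraMap K v.ResidueField))
    (hzero : ∀ c : K, ∃ hfin : (placesOver K F t c).Finite,
      ∑ v ∈ hfin.toFinset, v.ord (t - algebraMap K F c) = (cdeg K F t : ℤ))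
    (hpole : ∃ hfin : (polePlaces K F t).Finite,
      ∑ v ∈ hfin.toFinset, -v.ord t = (cdeg K F t : ℤ))
    (hprin : ∀ g : F, g ≠ 0 → ∃ hfin : {v : Place K F | v.ord g ≠ 0}.Finite,
      ∑ v ∈ hfin.toFinset, v.ord g = 0)
    (C : Finset K) (hC : ∀ c ∉ C, (placesOver K F t c).ncard = cdeg K F t)
    {ω : Ω[F⁄K]} (hω : ω ≠ 0) :
    Divisor.degree (canonicalDivisorOf hω) =
      ∑ c ∈ C, ((cdeg K F t : ℤ) - ((placesOver K F t c).ncard : ℤ))
        - cdeg K F t - ((polePlaces K F t).ncard : ℤ) := by
  haveI := ht.finite
  have halg : Algebra.IsAlgebraic K⟮t⟯ F := Algebra.IsAlgebraic.of_finite K⟮t⟯ F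
  obtain ⟨δ, -, hspan, -⟩ := kd_exists_derivation t ht.transcendental halg
  have hDt : D K F t ≠ 0 := kd_D_ne_zero t ht.transcendental halg
  haveI : Nontrivial Ω[F⁄K] := kd_nontrivial t ht.transcendental halg
  have htc : ∀ c : K, t ≠ algebraMap K F c := by
    intro c hc
    apply ht.transcendental
    rw [hc]
    exact isAlgebraic_algebraMap c
  refine gc_degree_canonicalDivisorOf_eq t (cdeg K F t) hspan hDt
    (fun v => haveI := hess v; dCoordGenerates_of_essFiniteType v (hres v))
    (fun v => la_deg_eq_one v (hres v)) ?_ hzero hpole ?_ ?_ hprin C hC hω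
  · intro v
    rcases la_pole_or_mem v t with h | h
    · exact Or.inl h
    · exact Or.inr (la_exists_center v (hres v) htc h)
  · intro c v hv
    haveI := hess v
    exact ordDifferential_D_sub_const v (hres v) c (htc c) hv.ne'
  · intro v hv
    haveI := hess v
    have ht0 : t ≠ 0 := by
      have := htc 0
      rwa [map_zero] at this
    exact ordDifferential_D_of_ord_ne_zero v (hres v) ht0 hv.ne

/-- **Layer A, final form (genus).** -/
theorem la_genus_eq_of_counts (t : F) (ht : IsCoordinate K F t)
    (hess : ∀ v : Place K F, Algebra.EssFiniteType K v.toValuationSubring)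
    (hres : ∀ v : Place K F, Function.Surjective (algebraMap K v.ResidueField))
    (hzero : ∀ c : K, ∃ hfin : (placesOver K F t c).Finite,
      ∑ v ∈ hfin.toFinset, v.ord (t - algebraMap K F c) = (cdeg K F t : ℤ))
    (hpole : ∃ hfin : (polePlaces K F t).Finite,
      ∑ v ∈ hfin.toFinset, -v.ord t = (cdeg K F t : ℤ))
    (hprin : ∀ g : F, g ≠ 0 → ∃ hfin : {v : Place K F | v.ord g ≠ 0}.Finite,
      ∑ v ∈ hfin.toFinset, v.ord g = 0)
    (C : Finset K) (hC : ∀ c ∉ C, (placesOver K F t c).ncard = cdeg K F t) :
    genus K F =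
      (∑ c ∈ C, ((cdeg K F t : ℤ) - ((placesOver K F t c).ncard : ℤ))
        - cdeg K F t - ((polePlaces K F t).ncard : ℤ) + 2).toNat / 2 := by
  haveI := ht.finite
  have halg : Algebra.IsAlgebraic K⟮t⟯ F := Algebra.IsAlgebraic.of_finite K⟮t⟯ F
  have hDt : D K F t ≠ 0 := kd_D_ne_zero t ht.transcendental halg
  have h : ∃ ω : Ω[F⁄K], ω ≠ 0 := ⟨_, hDt⟩
  unfold genus
  rw [dif_pos h, la_degree_canonicalDivisorOf_eq t ht hess hres hzero hpole hprin C hC
    h.choose_spec]

end Main

end Fermat.Agent.S24x
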