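import Mathlib
import Fermat.Agent.S24x.LayerA
import Fermat.Agent.S24x.PlaceLocal
import Fermat.Agent.S24x.FundIdentity
import Fermat.Agent.S24x.PrincipalDegree

/-!
# S24, layer A: hypothesis-free final form

`la_genus_eq` : for an algebraically closed field `K` of characteristic zero, a function field
`F` over `K` with a coordinate `t` and a canonical divisor, the genus is given by the
Riemann--Hurwitz count over the `t`-line.  All inputs A1--A8 are the landed modules
(`KaehlerBasis`, `LocalDiff`, `GenusCount`, `LayerA`, `PlaceLocal`, `FundIdentity`,
`PrincipalDegree`); no hypotheses remain besides the generic-fibre count `hC`.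
-/

set_option autoImplicit false

namespace Fermat.Agent.S24x

open AlgebraicCurve KaehlerDifferential IntermediateField

variable {K F : Type*} [Field K] [Field F] [Algebra K F]

/-- **Layer A, final form.** Riemann--Hurwitz over the `t`-line in counting form. -/
theorem la_genus_eq [IsAlgClosed K] [CharZero K] [HasCanonicalDivisor (K := K) (F := F)]
    (t : F) (ht : IsCoordinate K F t)
    (C : Finset K) (hC : ∀ c ∉ C, (placesOver K F t c).ncard = cdeg K F t) :
    genus K F =
      (∑ c ∈ C, ((cdeg K F t : ℤ) - ((placesOver K F t c).ncard : ℤ))
        - cdeg K F t - ((polePlaces K F t).ncard : ℤ) + 2).toNat / 2 :=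
  la_genus_eq_of_counts t ht (fun v => place_essFiniteType ht v)
    (fun v => place_residue_surjective ht v) (fun c => sum_ord_placesOver ht c)
    (sum_ord_polePlaces ht) (fun g hg => principal_degree_zero ht g hg) C hC

/-- The degree of the canonical divisor, hypothesis-free form. -/
theorem la_degree_canonicalDivisorOf [IsAlgClosed K] [CharZero K]
    [HasCanonicalDivisor (K := K) (F := F)]
    (t : F) (ht : IsCoordinate K F t)
    (C : Finset K) (hC : ∀ c ∉ C, (placesOver K F t c).ncard = cdeg K F t)
    {ω : Ω[F⁄K]} (hω : ω ≠ 0) :
    Divisor.degree (canonicalDivisorOf hω) =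
      ∑ c ∈ C, ((cdeg K F t : ℤ) - ((placesOver K F t c).ncard : ℤ))
        - cdeg K F t - ((polePlaces K F t).ncard : ℤ) :=
  la_degree_canonicalDivisorOf_eq t ht (fun v => place_essFiniteType ht v)
    (fun v => place_residue_surjective ht v) (fun c => sum_ord_placesOver ht c)
    (sum_ord_polePlaces ht) (fun g hg => principal_degree_zero ht g hg) C hC hω

end Fermat.Agent.S24x
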