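import Fermat.Agent.S24x.CombBasic

/-!
# S24 project, combinatorics module (N): shared definitions for the cusp count (C4)
-/

set_option autoImplicit false

open CongruenceSubgroup ModularGroup Matrix.SpecialLinearGroup
open scoped MatrixGroups

namespace Fermat.Agent.S24x

/-- First column of `g` reduced mod `N`. -/
def col (N : ℕ) (g : SL(2, ℤ)) : ZMod N × ZMod N :=
  (((g 0 0 : ℤ) : ZMod N), ((g 1 0 : ℤ) : ZMod N))

/-- Unimodular vectors of `(ℤ/N)²`, phrased with `val`s. -/
def IsUni (N : ℕ) (v : ZMod N × ZMod N) : Prop :=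
  Nat.gcd (Nat.gcd v.1.val v.2.val) N = 1

instance (N : ℕ) : DecidablePred (IsUni N) := fun v => by unfold IsUni; infer_instance

/-- The finite set of unimodular vectors of `(ℤ/N)²`. -/
def Vset (N : ℕ) [NeZero N] : Finset (ZMod N × ZMod N) :=
  Finset.univ.filter (IsUni N)

/-- The weight `gcd(N, c²)` of a vector `(a, c)`; `N / wt` is the size of the `⟨T⟩`-orbit. -/
def wt (N : ℕ) (v : ZMod N × ZMod N) : ℕ := Nat.gcd N (v.2.val ^ 2)

noncomputable instance instFintypeQ (N : ℕ) [NeZero N] : Fintype (Q N) := Fintype.ofFinite _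

end Fermat.Agent.S24x
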