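/-
S24x/AlgMain (helper11): LAYER A MAIN THEOREM, hypothesis-free.  Riemann–Hurwitz in counting form
for a function field `F/K` of one variable over an algebraically closed field of characteristic
zero with respect to an arbitrary coordinate `t`: the Prelude genus is determined by the numbers of
places over the finitely many branch values and over `∞`.
Pure glue: `LayerA.la_genus_eq_of_counts` (helper24) fed with `PlaceLocal` (helper58/helper72),
`FundIdentity` (helper12) and `PrincipalDegree` (helper60).
-/
import Fermat.Agent.S24x.LayerA
import Fermat.Agent.S24x.PlaceLocal
import Fermat.Agent.S24x.FundIdentity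
import Fermat.Agent.S24x.PrincipalDegree

set_option autoImplicit false

namespace Fermat.Agent.S24x

open AlgebraicCurve

variable {K F : Type*} [Field K] [Field F] [Algebra K F] [IsAlgClosed K] [CharZero K]

/-- **Layer A main theorem** (Riemann–Hurwitz, counting form). -/
theorem genus_eq_of_coordinate [HasCanonicalDivisor (K := K) (F := F)] {t : F}
    (ht : IsCoordinate K F t) (C : Finset K)
    (hC : ∀ c ∉ C, (placesOver K F t c).ncard = cdeg K F t) :
    genus K F =
      (∑ c ∈ C, ((cdeg K F t : ℤ) - ((placesOver K F t c).ncard : ℤ))
        - cdeg K F t - ((polePlaces K F t).ncard : ℤ) + 2).toNat / 2 :=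
  la_genus_eq_of_counts t ht (fun v => place_essFiniteType ht v)
    (fun v => place_residue_surjective ht v) (fun c => sum_ord_placesOver ht c)
    (sum_ord_polePlaces ht) (fun g hg => principal_degree_zero ht g hg) C hC

end Fermat.Agent.S24x
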