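import Mathlib

/-!
# S24x / AnOrder : order of vanishing of holomorphic functions on the upper half plane

Mathlib-only.  For `F : ℍ → ℂ` holomorphic (`MDifferentiable`), `ordH F τ : ℕ` is the order of
vanishing of `F` at `τ` (via `F ∘ ofComplex`).  Nonzero holomorphic functions have finite order
everywhere, the order is additive on products, ultrametric on sums, `0` on nonzero constants,
positive exactly at zeros, and compatible with the action of `SL(2, ℤ)`.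
-/

set_option autoImplicit false

noncomputable section

open UpperHalfPlane Complex Filter Topology
open scoped Manifold MatrixGroups

namespace Fermat.Agent.S24x

/-- The order of vanishing at `τ` of a function on the upper half plane (`0` if `F = 0`). -/
def ordH (F : ℍ → ℂ) (τ : ℍ) : ℕ := analyticOrderNatAt (F ∘ ofComplex) (τ : ℂ)

theorem anord_isPreconnected : IsPreconnected upperHalfPlaneSet :=
  (convex_halfSpace_im_gt 0).isPreconnected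

theorem anord_analyticOnNhd {F : ℍ → ℂ} (hF : MDiff F) :
    AnalyticOnNhd ℂ (F ∘ ofComplex) upperHalfPlaneSet :=
  (UpperHalfPlane.mdifferentiable_iff.mp hF).analyticOnNhd isOpen_upperHalfPlaneSet

theorem anord_analyticAt {F : ℍ → ℂ} (hF : MDiff F) (τ : ℍ) :
    AnalyticAt ℂ (F ∘ ofComplex) (τ : ℂ) :=
  anord_analyticOnNhd hF τ τ.im_pos

/-- A nonzero holomorphic function on `ℍ` has finite order at every point. -/
theorem anord_ne_top {F : ℍ → ℂ} (hF : MDiff F) (hF0 : F ≠ 0) (τ : ℍ) :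
    analyticOrderAt (F ∘ ofComplex) (τ : ℂ) ≠ ⊤ := by
  intro htop
  apply hF0
  have hev : (F ∘ ofComplex) =ᶠ[𝓝 (τ : ℂ)] 0 := analyticOrderAt_eq_top.mp htop
  have hz := (anord_analyticOnNhd hF).eqOn_zero_of_preconnected_of_eventuallyEq_zero
    anord_isPreconnected τ.im_pos hev
  funext z
  have := hz z.im_pos
  simpa [Function.comp, ofComplex_apply] using this

/-- The ring of holomorphic functions on `ℍ` has no zero divisors. -/
theorem anord_mul_eq_zero {F G : ℍ → ℂ} (hF : MDiff F) (hG : MDiff G) (h : F * G = 0) :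
    F = 0 ∨ G = 0 := by
  by_contra hcon
  rw [not_or] at hcon
  obtain ⟨hF0, hG0⟩ := hcon
  let τ : ℍ := UpperHalfPlane.I
  have h1 := anord_ne_top hF hF0 τ
  have h2 := anord_ne_top hG hG0 τ
  have hmul : analyticOrderAt ((F ∘ ofComplex) * (G ∘ ofComplex)) (τ : ℂ)
      = analyticOrderAt (F ∘ ofComplex) (τ : ℂ) + analyticOrderAt (G ∘ ofComplex) (τ : ℂ) :=
    analyticOrderAt_mul (anord_analyticAt hF τ) (anord_analyticAt hG τ)
  have hzero : ((F ∘ ofComplex) * (G ∘ ofComplex)) = 0 := by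
    funext z
    have := congrFun h (ofComplex z)
    simpa using this
  rw [hzero] at hmul
  have htop : analyticOrderAt (0 : ℂ → ℂ) (τ : ℂ) = ⊤ := by
    rw [analyticOrderAt_eq_top]; exact Eventually.of_forall fun _ => rfl
  rw [htop] at hmul
  rcases ENat.add_eq_top.mp hmul.symm with h' | h'
  · exact h1 h'
  · exact h2 h'

theorem anord_mul_ne_zero {F G : ℍ → ℂ} (hF : MDiff F) (hG : MDiff G) (hF0 : F ≠ 0)
    (hG0 : G ≠ 0) : F * G ≠ 0 := fun h =>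
  (anord_mul_eq_zero hF hG h).elim hF0 hG0

/-- Additivity of the order on products. -/
theorem ordH_mul {F G : ℍ → ℂ} (hF : MDiff F) (hG : MDiff G) (hF0 : F ≠ 0) (hG0 : G ≠ 0)
    (τ : ℍ) : ordH (F * G) τ = ordH F τ + ordH G τ := by
  have : (F * G) ∘ ofComplex = (F ∘ ofComplex) * (G ∘ ofComplex) := rfl
  rw [ordH, this]
  exact analyticOrderNatAt_mul (anord_analyticAt hF τ) (anord_analyticAt hG τ)
    (anord_ne_top hF hF0 τ) (anord_ne_top hG hG0 τ)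

/-- The ultrametric inequality for the order of a sum. -/
theorem ordH_add {F G : ℍ → ℂ} (hF : MDiff F) (hG : MDiff G) (hF0 : F ≠ 0) (hG0 : G ≠ 0)
    (hFG : F + G ≠ 0) (τ : ℍ) : min (ordH F τ) (ordH G τ) ≤ ordH (F + G) τ := by
  have hsum : (F + G) ∘ ofComplex = (F ∘ ofComplex) + (G ∘ ofComplex) := rfl
  have h1 := anord_ne_top hF hF0 τ
  have h2 := anord_ne_top hG hG0 τ
  have h3 := anord_ne_top (hF.add hG) hFG τ
  have hle := le_analyticOrderAt_add (f := F ∘ ofComplex) (g := G ∘ ofComplex) (z₀ := (τ : ℂ))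
  rw [← hsum] at hle
  rw [← Nat.cast_analyticOrderNatAt h1, ← Nat.cast_analyticOrderNatAt h2,
    ← Nat.cast_analyticOrderNatAt h3] at hle
  simp only [ordH]
  rcases le_total (analyticOrderNatAt (F ∘ ofComplex) (τ : ℂ))
      (analyticOrderNatAt (G ∘ ofComplex) (τ : ℂ)) with h | h
  · rw [min_eq_left h]
    rw [min_eq_left (by exact_mod_cast h)] at hle
    exact_mod_cast hle
  · rw [min_eq_right h]
    rw [min_eq_right (by exact_mod_cast h)] at hle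
    exact_mod_cast hle

/-- Nonzero constants have order `0`. -/
theorem ordH_const {c : ℂ} (hc : c ≠ 0) (τ : ℍ) : ordH (fun _ => c) τ = 0 := by
  have h : analyticOrderAt ((fun _ : ℍ => c) ∘ ofComplex) (τ : ℂ) = 0 := by
    rw [analyticOrderAt_eq_zero]
    right
    simpa using hc
  simp [ordH, analyticOrderNatAt, h]

/-- The order is positive exactly at the zeros. -/
theorem ordH_pos_iff {F : ℍ → ℂ} (hF : MDiff F) (hF0 : F ≠ 0) (τ : ℍ) :
    0 < ordH F τ ↔ F τ = 0 := by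
  have h1 := anord_ne_top hF hF0 τ
  have hval : (F ∘ ofComplex) (τ : ℂ) = F τ := by simp [Function.comp, ofComplex_apply]
  rw [Nat.pos_iff_ne_zero, ordH, Ne, ← Nat.cast_inj (R := ℕ∞), Nat.cast_analyticOrderNatAt h1,
    Nat.cast_zero, (anord_analyticAt hF τ).analyticOrderAt_eq_zero, hval]
  simp

theorem ordH_eq_zero_iff {F : ℍ → ℂ} (hF : MDiff F) (hF0 : F ≠ 0) (τ : ℍ) :
    ordH F τ = 0 ↔ F τ ≠ 0 := by
  rw [← not_iff_not, not_not, ← ordH_pos_iff hF hF0 τ]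
  omega

/-- Characterisation: `F = (z - τ)^n * g` near `τ` with `g(τ) ≠ 0` analytic. -/
theorem ordH_eq_iff {F : ℍ → ℂ} (hF : MDiff F) (hF0 : F ≠ 0) (τ : ℍ) (n : ℕ) :
    ordH F τ = n ↔ ∃ g : ℂ → ℂ, AnalyticAt ℂ g (τ : ℂ) ∧ g (τ : ℂ) ≠ 0 ∧
      ∀ᶠ z in 𝓝 (τ : ℂ), (F ∘ ofComplex) z = (z - (τ : ℂ)) ^ n • g z :=
  (anord_analyticAt hF τ).analyticOrderNatAt_eq_iff (anord_ne_top hF hF0 τ)

section SLAction

/-- the Möbius map of `γ` as a function `ℂ → ℂ`. -/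
def anordMoeb (γ : SL(2, ℤ)) (z : ℂ) : ℂ :=
  (((γ 0 0 : ℤ) : ℂ) * z + ((γ 0 1 : ℤ) : ℂ)) / (((γ 1 0 : ℤ) : ℂ) * z + ((γ 1 1 : ℤ) : ℂ))

theorem anordMoeb_coe (γ : SL(2, ℤ)) (τ : ℍ) : anordMoeb γ (τ : ℂ) = ((γ • τ : ℍ) : ℂ) := by
  rw [coe_specialLinearGroup_apply]
  simp [anordMoeb]

theorem anordMoeb_denom_ne_zero (γ : SL(2, ℤ)) (τ : ℍ) :
    ((γ 1 0 : ℤ) : ℂ) * (τ : ℂ) + ((γ 1 1 : ℤ) : ℂ) ≠ 0 := by
  have := UpperHalfPlane.denom_ne_zero (γ : GL (Fin 2) ℝ) τ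
  simpa [UpperHalfPlane.denom] using this

theorem anordMoeb_hasDerivAt (γ : SL(2, ℤ)) (τ : ℍ) :
    HasDerivAt (anordMoeb γ)
      (1 / (((γ 1 0 : ℤ) : ℂ) * (τ : ℂ) + ((γ 1 1 : ℤ) : ℂ)) ^ 2) (τ : ℂ) := by
  have hden := anordMoeb_denom_ne_zero γ τ
  have h1 : HasDerivAt (fun z : ℂ => ((γ 0 0 : ℤ) : ℂ) * z + ((γ 0 1 : ℤ) : ℂ))
      ((γ 0 0 : ℤ) : ℂ) (τ : ℂ) := by
    simpa using ((hasDerivAt_id (τ : ℂ)).const_mul ((γ 0 0 : ℤ) : ℂ)).add_const ((γ 0 1 : ℤ) : ℂ)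
  have h2 : HasDerivAt (fun z : ℂ => ((γ 1 0 : ℤ) : ℂ) * z + ((γ 1 1 : ℤ) : ℂ))
      ((γ 1 0 : ℤ) : ℂ) (τ : ℂ) := by
    simpa using ((hasDerivAt_id (τ : ℂ)).const_mul ((γ 1 0 : ℤ) : ℂ)).add_const ((γ 1 1 : ℤ) : ℂ)
  have h3 := h1.div h2 hden
  have hdet : ((γ 0 0 : ℤ) : ℂ) * ((γ 1 1 : ℤ) : ℂ) - ((γ 0 1 : ℤ) : ℂ) * ((γ 1 0 : ℤ) : ℂ) = 1 := by
    have h := γ.det_coe
    rw [Matrix.det_fin_two] at h
    exact_mod_cast h
  have hval : (((γ 0 0 : ℤ) : ℂ) * (((γ 1 0 : ℤ) : ℂ) * (τ : ℂ) + ((γ 1 1 : ℤ) : ℂ))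
      - (((γ 0 0 : ℤ) : ℂ) * (τ : ℂ) + ((γ 0 1 : ℤ) : ℂ)) * ((γ 1 0 : ℤ) : ℂ))
      / (((γ 1 0 : ℤ) : ℂ) * (τ : ℂ) + ((γ 1 1 : ℤ) : ℂ)) ^ 2
      = 1 / (((γ 1 0 : ℤ) : ℂ) * (τ : ℂ) + ((γ 1 1 : ℤ) : ℂ)) ^ 2 := by
    congr 1
    linear_combination hdet
  rw [← hval]
  exact h3

/-- The order of `F ∘ γ` at `τ` is the order of `F` at `γ • τ`. -/
theorem ordH_comp_smul (F : ℍ → ℂ) (γ : SL(2, ℤ)) (τ : ℍ) :
    ordH (fun z => F (γ • z)) τ = ordH F (γ • τ) := by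
  have hev : ((fun z => F (γ • z)) ∘ ofComplex) =ᶠ[𝓝 (τ : ℂ)] ((F ∘ ofComplex) ∘ anordMoeb γ) := by
    filter_upwards [isOpen_upperHalfPlaneSet.mem_nhds τ.im_pos] with z hz
    have hz' : ofComplex z = ⟨z, hz⟩ := ofComplex_apply_of_im_pos hz
    simp only [Function.comp_apply]
    rw [hz']
    have : anordMoeb γ z = ((γ • (⟨z, hz⟩ : ℍ) : ℍ) : ℂ) := anordMoeb_coe γ ⟨z, hz⟩
    rw [this, ofComplex_apply]
  have hd := anordMoeb_hasDerivAt γ τ
  have hden := anordMoeb_denom_ne_zero γ τ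
  have hana : AnalyticAt ℂ (anordMoeb γ) (τ : ℂ) := by
    unfold anordMoeb
    refine AnalyticAt.div (by fun_prop) (by fun_prop) hden
  have hne : deriv (anordMoeb γ) (τ : ℂ) ≠ 0 := by
    rw [hd.deriv]
    exact one_div_ne_zero (pow_ne_zero 2 hden)
  rw [ordH, ordH, analyticOrderNatAt, analyticOrderNatAt, analyticOrderAt_congr hev,
    analyticOrderAt_comp_of_deriv_ne_zero hana hne, anordMoeb_coe]

/-- If `F` is invariant under `γ`, the order is the same at `τ` and `γ • τ`. -/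
theorem ordH_smul_of_invariant {F : ℍ → ℂ} {γ : SL(2, ℤ)} (hinv : ∀ z, F (γ • z) = F z) (τ : ℍ) :
    ordH F (γ • τ) = ordH F τ := by
  rw [← ordH_comp_smul F γ τ]
  congr 1
  funext z
  exact hinv z

end SLAction

end Fermat.Agent.S24x
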