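/-
S24 project: INTERFACE SPEC for what is STILL OPEN in layer C (all `sorry`; NEVER imported by
final files). Owners implement EXACTLY these statements (same names, in namespace
`Fermat.Agent.S24x`, i.e. without the `.Spec`).

ALREADY LANDED FOR REAL (import these, do not use `Spec.`): layer A (`LayerAFinal.la_genus_eq`),
B1-B5 (`JFun`, `RhoPoint`, `JFunSpecial`, `JFiber`, `JFunBound`, `JqAnalytic`, `LevelOneInvariant`,
`HolOrder`, `EllipticOrdAt`), C1 (`Realize`: evF …), C2a (`PointPlaces`, `OrdAtHol`),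
C2b (`PtPlace`, `VPt`: vPt N τ …), C5/C6 wiring (`CountsOfInputs`: structure `CInputs N`),
D layer, E1 (`GenusArith`, `Arithmetic`), `FinalArith`.
-/
import Fermat.Agent.S24x.Defs
import Fermat.Agent.S24x.AlgDefs
import Fermat.Agent.S24x.Iota
import Fermat.Agent.S24x.Realize
import Fermat.Agent.S24x.VPt
import Fermat.Agent.S24x.CgCusp
import Fermat.Prelude.Def_ModularCurve_GenusNumerics

set_option autoImplicit false

namespace Fermat.Agent.S24x.Spec

open Fermat.Agent.S24x
open UpperHalfPlane AlgebraicCurve ModularCurve CongruenceSubgroup Polynomial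
open scoped MatrixGroups Manifold ModularForm

variable (N : ℕ) [NeZero N]

/-! ## C2c: LANDED (growth route, helper16): `CgCusp.lean`: `cg_vCusp N g`, `cg_mem_vCusp_iff`,
`cg_vCusp_mul_of_mem_Gamma0`, `cg_vCusp_mul_T`, `cg_vCusp_ord_le`, `cg_vCusp_mem_polePlaces`. -/

/-! ## C3 (Covering.lean, helper55) -/

/- (a hypothesis `ht : IsCoordinate Qbar (FBar N) (jBar N)` may be added to both) -/
theorem covering_finite (c : Qbar) (τ₀ : ℍ) (hτ₀ : jFun τ₀ = iotaQ c)
    (v : Place Qbar (FBar N)) (hv : v ∈ placesOver Qbar (FBar N) (jBar N) c) :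
    ∃ g : SL(2, ℤ), v = vPt N (g • τ₀) := sorry

theorem covering_cusp (v : Place Qbar (FBar N)) (hv : v ∈ polePlaces Qbar (FBar N) (jBar N)) :
    ∃ g : SL(2, ℤ), v = cg_vCusp N g := sorry

/-! ## C4: LANDED (helper27/helper88): `FBarFinite.lean`: `fbf_isCoordinate_jBar N`,
`fbf_dedekindPsi_le_cdeg N`, `fbf_finiteDimensional_jBar N`. -/

end Fermat.Agent.S24x.Spec
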