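import Fermat.Agent.S24x.GenusArith

/-!
# S24 project, module E1 (final shape requested by the captain)

`e1_exists_genus`: the genus of `X₀(N)` is a natural number, in the exact shape of
`FinalStubs.Stub.e1_exists_genus`.  Proof: `ga_genus_nat` (`GenusArith.lean`), i.e. parity + Ree
(`PermGenus.pg_genus_nat`) for `S⁻¹, S*T, T` acting on `SL(2,ℤ) ⧸ Γ₀(N)` + the four counts.
-/

set_option autoImplicit false

namespace Fermat.Agent.S24x

open ModularCurve

/-- E1: the genus is a natural number. -/
theorem e1_exists_genus (N : ℕ) [NeZero N] :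
    ∃ g : ℕ, 12 * g + 3 * nuTwo N + 4 * nuThree N + 6 * cuspCount N = dedekindPsi N + 12 :=
  ga_genus_nat N

end Fermat.Agent.S24x
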