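import Fermat.Agent.S24x.CombDefs

/-!
# S24 project, combinatorics module (N), piece W4b: the fibration `unimodular vectors → Q N`

Unimodular vectors of `(ℤ/N)²` are exactly the first columns of elements of `SL(2,ℤ)`; two matrices
lie in the same coset of `Γ₀(N)` iff their first columns differ by a unit; hence summing a
unit-invariant function over unimodular vectors is `φ(N)` times the sum over cosets.
-/

set_option autoImplicit false

open CongruenceSubgroup ModularGroup Matrix.SpecialLinearGroup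
open scoped MatrixGroups

namespace Fermat.Agent.S24x

variable (N : ℕ) [NeZero N]

theorem mem_Vset_iff (v : ZMod N × ZMod N) : v ∈ Vset N ↔ IsUni N v := by
  simp [Vset]

/-- Unimodularity (phrased with `val`s and `gcd`s) is the existence of a Bezout relation. -/
theorem isUni_iff (v : ZMod N × ZMod N) :
    IsUni N v ↔ ∃ r s : ZMod N, r * v.1 + s * v.2 = 1 := by
  constructor
  · intro hv
    unfold IsUni at hv
    have h1 := Nat.gcd_eq_gcd_ab v.1.val v.2.val
    have h2 := Nat.gcd_eq_gcd_ab (Nat.gcd v.1.val v.2.val) N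
    rw [hv] at h2
    have e1 := congrArg (Int.cast : ℤ → ZMod N) h1
    have e2 := congrArg (Int.cast : ℤ → ZMod N) h2
    push_cast at e1 e2
    rw [ZMod.natCast_zmod_val, ZMod.natCast_zmod_val] at e1
    rw [ZMod.natCast_self, zero_mul, add_zero, e1] at e2
    refine ⟨(Nat.gcdA v.1.val v.2.val : ZMod N) * (Nat.gcdA (Nat.gcd v.1.val v.2.val) N : ZMod N),
      (Nat.gcdB v.1.val v.2.val : ZMod N) * (Nat.gcdA (Nat.gcd v.1.val v.2.val) N : ZMod N), ?_⟩
    rw [e2]; ring
  · rintro ⟨r, s, hrs⟩
    unfold IsUni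
    set d := Nat.gcd (Nat.gcd v.1.val v.2.val) N with hd
    have hdN : d ∣ N := Nat.gcd_dvd_right _ _
    have hd1 : d ∣ v.1.val := (Nat.gcd_dvd_left _ _).trans (Nat.gcd_dvd_left _ _)
    have hd2 : d ∣ v.2.val := (Nat.gcd_dvd_left _ _).trans (Nat.gcd_dvd_right _ _)
    have e := congrArg (ZMod.castHom hdN (ZMod d)) hrs
    simp only [map_add, map_mul, map_one, ZMod.castHom_apply] at e
    have c1 : (v.1.cast : ZMod d) = 0 := by
      rw [← ZMod.natCast_val]; exact (ZMod.natCast_eq_zero_iff _ _).mpr hd1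
    have c2 : (v.2.cast : ZMod d) = 0 := by
      rw [← ZMod.natCast_val]; exact (ZMod.natCast_eq_zero_iff _ _).mpr hd2
    rw [c1, c2, mul_zero, mul_zero, add_zero] at e
    exact ZMod.one_eq_zero_iff.mp e.symm

omit [NeZero N] in
/-- The determinant relation mod `N`. -/
theorem det_rel_zmod (g : SL(2, ℤ)) :
    ((g 1 1 : ℤ) : ZMod N) * (col N g).1 + (-((g 0 1 : ℤ) : ZMod N)) * (col N g).2 = 1 := by
  have h := congrArg (Int.cast : ℤ → ZMod N) (det_rel g)
  push_cast at h
  simp only [col]
  rw [← h]; ring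

theorem isUni_col (g : SL(2, ℤ)) : IsUni N (col N g) :=
  (isUni_iff N _).mpr ⟨_, _, det_rel_zmod N g⟩

/-- W4b (i) -/
theorem col_mem_Vset (g : SL(2, ℤ)) : col N g ∈ Vset N :=
  (mem_Vset_iff N _).mpr (isUni_col N g)

/-- W4b (ii), from the lifting lemma `exists_SL2_col`. -/
theorem exists_col_eq_of_lift
    (hlift : ∀ a c : ℤ, Int.gcd (Int.gcd a c) N = 1 →
      ∃ g : SL(2, ℤ), ((g 0 0 : ℤ) : ZMod N) = a ∧ ((g 1 0 : ℤ) : ZMod N) = c)
    (v : ZMod N × ZMod N) (hv : v ∈ Vset N) : ∃ g : SL(2, ℤ), col N g = v := by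
  rw [mem_Vset_iff] at hv
  unfold IsUni at hv
  obtain ⟨g, h1, h2⟩ := hlift (v.1.val : ℤ) (v.2.val : ℤ) (by
    rw [Int.gcd_natCast_natCast, Int.gcd_natCast_natCast]; exact hv)
  refine ⟨g, ?_⟩
  rw [Int.cast_natCast, ZMod.natCast_zmod_val] at h1 h2
  exact Prod.ext h1 h2

/-- A unit multiple of a vector. -/
def usmul (u : (ZMod N)ˣ) (v : ZMod N × ZMod N) : ZMod N × ZMod N :=
  ((u : ZMod N) * v.1, (u : ZMod N) * v.2)

/-- W4b (iii) -/
theorem coset_eq_iff_col (g h : SL(2, ℤ)) :
    ((g : SL(2, ℤ)) : Q N) = (h : Q N) ↔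
      ∃ u : (ZMod N)ˣ, col N h = ((u : ZMod N) * (col N g).1, (u : ZMod N) * (col N g).2) := by
  rw [coset_eq_iff]
  constructor
  · intro hgh
    -- notation: first columns (a, c), (a', c'); second columns (b, d), (b', d') mod `N`
    set a : ZMod N := ((g 0 0 : ℤ) : ZMod N) with ha
    set c : ZMod N := ((g 1 0 : ℤ) : ZMod N) with hc
    set b : ZMod N := ((g 0 1 : ℤ) : ZMod N) with hb
    set d : ZMod N := ((g 1 1 : ℤ) : ZMod N) with hd
    set a' : ZMod N := ((h 0 0 : ℤ) : ZMod N) with ha'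
    set c' : ZMod N := ((h 1 0 : ℤ) : ZMod N) with hc'
    set b' : ZMod N := ((h 0 1 : ℤ) : ZMod N) with hb'
    set d' : ZMod N := ((h 1 1 : ℤ) : ZMod N) with hd'
    have hdet : a * d - b * c = 1 := by
      have := congrArg (Int.cast : ℤ → ZMod N) (det_rel g)
      push_cast at this; exact this
    have hdet' : a' * d' - b' * c' = 1 := by
      have := congrArg (Int.cast : ℤ → ZMod N) (det_rel h)
      push_cast at this; exact this
    have hprop : a * c' - c * a' = 0 := by
      have := hgh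
      push_cast at this; exact this
    have hcol_g : col N g = (a, c) := rfl
    have hcol_h : col N h = (a', c') := rfl
    -- the unit
    have e1 : (d * a' - b * c') * a = a' := by linear_combination a' * hdet - b * hprop
    have e2 : (d * a' - b * c') * c = c' := by linear_combination c' * hdet - d * hprop
    have e3 : (d' * a - b' * c) * a' = a := by linear_combination a * hdet' + b' * hprop
    have e4 : (d' * a - b' * c) * c' = c := by linear_combination c * hdet' + d' * hprop
    have hu : (d * a' - b * c') * (d' * a - b' * c) = 1 := by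
      calc (d * a' - b * c') * (d' * a - b' * c)
          = (d * a' - b * c') * (d' * a - b' * c) * (a * d - b * c) := by rw [hdet, mul_one]
        _ = d * ((d' * a - b' * c) * ((d * a' - b * c') * a))
              - b * ((d' * a - b' * c) * ((d * a' - b * c') * c)) := by ring
        _ = d * ((d' * a - b' * c) * a') - b * ((d' * a - b' * c) * c') := by rw [e1, e2]
        _ = d * a - b * c := by rw [e3, e4]
        _ = 1 := by linear_combination hdet
    refine ⟨Units.mkOfMulEqOne _ _ hu, ?_⟩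
    rw [hcol_g, hcol_h]
    simp only [Units.val_mkOfMulEqOne]
    exact Prod.ext e1.symm e2.symm
  · rintro ⟨u, hu⟩
    have h1 : ((h 0 0 : ℤ) : ZMod N) = (u : ZMod N) * ((g 0 0 : ℤ) : ZMod N) :=
      congrArg Prod.fst hu
    have h2 : ((h 1 0 : ℤ) : ZMod N) = (u : ZMod N) * ((g 1 0 : ℤ) : ZMod N) :=
      congrArg Prod.snd hu
    push_cast
    rw [h1, h2]; ring

/-- The unit action on unimodular vectors is free. -/
theorem usmul_injective_of_isUni {v : ZMod N × ZMod N} (hv : IsUni N v) {u u' : (ZMod N)ˣ}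
    (h : usmul N u v = usmul N u' v) : u = u' := by
  obtain ⟨r, s, hrs⟩ := (isUni_iff N v).mp hv
  have h1 : (u : ZMod N) * v.1 = (u' : ZMod N) * v.1 := congrArg Prod.fst h
  have h2 : (u : ZMod N) * v.2 = (u' : ZMod N) * v.2 := congrArg Prod.snd h
  apply Units.ext
  have : ((u : ZMod N) - u') * (r * v.1 + s * v.2) = 0 := by
    linear_combination r * h1 + s * h2
  rw [hrs, mul_one] at this
  exact sub_eq_zero.mp this

theorem isUni_usmul (u : (ZMod N)ˣ) {v : ZMod N × ZMod N} (hv : IsUni N v) :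
    IsUni N (usmul N u v) := by
  obtain ⟨r, s, hrs⟩ := (isUni_iff N v).mp hv
  refine (isUni_iff N _).mpr ⟨r * ((u⁻¹ : (ZMod N)ˣ) : ZMod N), s * ((u⁻¹ : (ZMod N)ˣ) : ZMod N), ?_⟩
  simp only [usmul]
  have hu : ((u⁻¹ : (ZMod N)ˣ) : ZMod N) * (u : ZMod N) = 1 := by
    rw [← Units.val_mul, inv_mul_cancel, Units.val_one]
  linear_combination hrs + (r * v.1 + s * v.2) * hu

/-- W4b (iv): summing a unit-invariant function over unimodular vectors
(with `exists_col_eq` as a hypothesis). -/
theorem sum_Vset_eq_of_exists_col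
    (hex : ∀ v : ZMod N × ZMod N, v ∈ Vset N → ∃ g : SL(2, ℤ), col N g = v)
    (F : ZMod N × ZMod N → ℕ)
    (hF : ∀ (u : (ZMod N)ˣ) (v : ZMod N × ZMod N), F ((u : ZMod N) * v.1, (u : ZMod N) * v.2) = F v) :
    ∑ v ∈ Vset N, F v = Nat.totient N * ∑ q : Q N, F (col N q.out) := by
  classical
  have key : ∑ p : (ZMod N)ˣ × Q N, F (col N p.2.out) = ∑ v ∈ Vset N, F v := by
    refine Finset.sum_nbij (fun p => usmul N p.1 (col N p.2.out)) ?_ ?_ ?_ ?_
    · intro p _
      exact (mem_Vset_iff N _).mpr (isUni_usmul N p.1 (isUni_col N _))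
    · rintro ⟨u, q⟩ _ ⟨u', q'⟩ _ hpp
      simp only at hpp
      -- the cosets agree
      have hq : q = q' := by
        have h1 : ((q.out : SL(2, ℤ)) : Q N) = ((q'.out : SL(2, ℤ)) : Q N) := by
          rw [coset_eq_iff_col]
          refine ⟨u'⁻¹ * u, ?_⟩
          have e1 : (u : ZMod N) * (col N q.out).1 = (u' : ZMod N) * (col N q'.out).1 :=
            congrArg Prod.fst hpp
          have e2 : (u : ZMod N) * (col N q.out).2 = (u' : ZMod N) * (col N q'.out).2 :=
            congrArg Prod.snd hpp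
          have hu : ((u'⁻¹ : (ZMod N)ˣ) : ZMod N) * (u' : ZMod N) = 1 := by
            rw [← Units.val_mul, inv_mul_cancel, Units.val_one]
          refine Prod.ext ?_ ?_
          · show (col N q'.out).1 = ((u'⁻¹ * u : (ZMod N)ˣ) : ZMod N) * (col N q.out).1
            rw [Units.val_mul]
            linear_combination (-(col N q'.out).1) * hu - ((u'⁻¹ : (ZMod N)ˣ) : ZMod N) * e1
          · show (col N q'.out).2 = ((u'⁻¹ * u : (ZMod N)ˣ) : ZMod N) * (col N q.out).2
            rw [Units.val_mul]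
            linear_combination (-(col N q'.out).2) * hu - ((u'⁻¹ : (ZMod N)ˣ) : ZMod N) * e2
        rwa [QuotientGroup.out_eq', QuotientGroup.out_eq'] at h1
      subst hq
      have hu : u = u' := usmul_injective_of_isUni N (isUni_col N _) hpp
      rw [hu]
    · intro v hv
      obtain ⟨g, rfl⟩ := hex v hv
      have h1 : ((((g : SL(2, ℤ)) : Q N).out : SL(2, ℤ)) : Q N) = ((g : SL(2, ℤ)) : Q N) :=
        QuotientGroup.out_eq' _
      obtain ⟨u, hu⟩ := (coset_eq_iff_col N _ _).mp h1
      exact ⟨(u, ((g : SL(2, ℤ)) : Q N)), Finset.mem_coe.mpr (Finset.mem_univ _), hu.symm⟩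
    · intro p _
      exact (hF p.1 (col N p.2.out)).symm
  rw [← key, Fintype.sum_prod_type]
  simp only [Finset.sum_const, Finset.card_univ, smul_eq_mul]
  rw [ZMod.card_units_eq_totient]

end Fermat.Agent.S24x
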