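import Fermat.Agent.S24x.CombBasic

set_option autoImplicit false

open CongruenceSubgroup ModularGroup Matrix.SpecialLinearGroup
open scoped MatrixGroups

namespace Fermat.Agent.S24x

/-- Computing a relative index through a complete invariant of the cosets. -/
theorem ci_relIndex_eq_card_of_invariant {G : Type*} [Group G] (H K : Subgroup G) {α : Type*}
    (f : K → α) (hf : ∀ k k' : K, f k = f k' ↔ (k : G)⁻¹ * (k' : G) ∈ H)
    (hsurj : Function.Surjective f) : H.relIndex K = Nat.card α := by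
  rw [Subgroup.relIndex, Subgroup.index]
  have hlift : ∀ a b : K, QuotientGroup.leftRel (H.subgroupOf K) a b → f a = f b := by
    intro a b hab
    rw [QuotientGroup.leftRel_apply, Subgroup.mem_subgroupOf] at hab
    rw [hf]
    simpa using hab
  let F : K ⧸ H.subgroupOf K → α := Quotient.lift f hlift
  have hbij : Function.Bijective F := by
    constructor
    · intro x y
      induction x using Quotient.inductionOn with
      | _ a =>
      induction y using Quotient.inductionOn with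
      | _ b =>
      intro hab
      change f a = f b at hab
      rw [hf] at hab
      apply Quotient.sound
      change QuotientGroup.leftRel (H.subgroupOf K) a b
      rw [QuotientGroup.leftRel_apply, Subgroup.mem_subgroupOf]
      simpa using hab
    · intro y
      obtain ⟨k, rfl⟩ := hsurj y
      exact ⟨Quotient.mk _ k, rfl⟩
  exact Nat.card_congr (Equiv.ofBijective F hbij)

/-- The lower unipotent matrix `[[1,0],[x,1]]`. -/
def ci_lowerUni (x : ℤ) : SL(2, ℤ) := ⟨!![1, 0; x, 1], by simp [Matrix.det_fin_two_of]⟩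

@[simp] theorem ci_lowerUni_zero_zero (x : ℤ) : (ci_lowerUni x) 0 0 = 1 := rfl
@[simp] theorem ci_lowerUni_one_zero (x : ℤ) : (ci_lowerUni x) 1 0 = x := rfl

theorem ci_lowerUni_mem_Gamma0 (M : ℕ) (x : ℤ) (h : (M : ℤ) ∣ x) : ci_lowerUni x ∈ Gamma0 M := by
  rw [Gamma0_mem, ci_lowerUni_one_zero]
  exact (ZMod.intCast_zmod_eq_zero_iff_dvd x M).mpr h

theorem ci_Gamma0_dvd_entry {M : ℕ} {g : SL(2, ℤ)} (hg : g ∈ Gamma0 M) : (M : ℤ) ∣ g 1 0 :=
  (ZMod.intCast_zmod_eq_zero_iff_dvd _ M).mp (Gamma0_mem.mp hg)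

theorem ci_Gamma0_le_of_dvd {M N : ℕ} (h : M ∣ N) : Gamma0 N ≤ Gamma0 M := by
  intro g hg
  rw [Gamma0_mem]
  exact (ZMod.intCast_zmod_eq_zero_iff_dvd _ M).mpr
    ((Int.natCast_dvd_natCast.mpr h).trans (ci_Gamma0_dvd_entry hg))

theorem ci_inv_mul_mem_Gamma0_iff (N : ℕ) (g h : SL(2, ℤ)) :
    g⁻¹ * h ∈ Gamma0 N ↔ (N : ℤ) ∣ g 0 0 * h 1 0 - g 1 0 * h 0 0 := by
  rw [Gamma0_mem, inv_mul_one_zero, ZMod.intCast_zmod_eq_zero_iff_dvd]

end Fermat.Agent.S24x
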