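import Fermat.Agent.S24x.CombDefs

/-!
# S24 project, combinatorics module (N): INTERFACE SPEC (all `sorry`; never imported by final files)

Counting on `SL(2,ℤ) ⧸ Γ₀(N)` (≃ `P¹(ℤ/N)`, coset `gΓ₀(N)` ↦ line spanned by the first column of `g`):
index, fixed points of `S` and `S*T`, orbits of `T`.
Real proofs: `Fermat/Agent/S24x/Comb*.lean`, namespace `Fermat.Agent.S24x`, same names without `Spec`.
-/

set_option autoImplicit false

open CongruenceSubgroup ModularGroup Matrix.SpecialLinearGroup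
open scoped MatrixGroups

namespace Fermat.Agent.S24x.Spec

variable (N : ℕ) [NeZero N]

/-! ## CombBasic: cosets and first columns -/

/-- `gΓ₀(N) = hΓ₀(N)` iff the first columns of `g`, `h` are proportional mod `N`. -/
theorem coset_eq_iff' (g h : SL(2, ℤ)) :
    ((g : SL(2, ℤ)) : Q N) = (h : Q N) ↔
      ((g 0 0 * h 1 0 - g 1 0 * h 0 0 : ℤ) : ZMod N) = 0 := coset_eq_iff N g h

/-- Lifting: every pair `(a, c)` of integers with `gcd(a, c, N) = 1` is congruent mod `N` to the
first column of an element of `SL(2,ℤ)`. -/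
theorem exists_SL2_col (a c : ℤ) (h : Int.gcd (Int.gcd a c) N = 1) :
    ∃ g : SL(2, ℤ), ((g 0 0 : ℤ) : ZMod N) = a ∧ ((g 1 0 : ℤ) : ZMod N) = c := sorry

/-! ## CombIndex (C1) -/

theorem dedekindPsi_mul_prime_of_dvd (M p : ℕ) (hp : p.Prime) (hM : 0 < M) (h : p ∣ M) :
    ModularCurve.dedekindPsi (M * p) = p * ModularCurve.dedekindPsi M := sorry

theorem dedekindPsi_mul_prime_of_not_dvd (M p : ℕ) (hp : p.Prime) (hM : 0 < M) (h : ¬ p ∣ M) :
    ModularCurve.dedekindPsi (M * p) = (p + 1) * ModularCurve.dedekindPsi M := sorry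

theorem relindex_Gamma0_mul_prime_of_dvd (M p : ℕ) (hp : p.Prime) (hM : 0 < M) (h : p ∣ M) :
    (Gamma0 (M * p)).relIndex (Gamma0 M) = p := sorry

theorem relindex_Gamma0_mul_prime_of_not_dvd (M p : ℕ) (hp : p.Prime) (hM : 0 < M) (h : ¬ p ∣ M) :
    (Gamma0 (M * p)).relIndex (Gamma0 M) = p + 1 := sorry

theorem index_Gamma0 : (Gamma0 N).index = ModularCurve.dedekindPsi N := sorry

theorem card_Q : Nat.card (Q N) = ModularCurve.dedekindPsi N := sorry

/-! ## CombFixed (C2), (C3) -/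

theorem card_fixedBy_S : Nat.card (MulAction.fixedBy (Q N) S) = ModularCurve.nuTwo N := sorry

theorem card_fixedBy_ST : Nat.card (MulAction.fixedBy (Q N) (S * T)) = ModularCurve.nuThree N := sorry

/-! ## C4 pieces: CombOrbit (W4a), CombFibre (W4b), CombCount (W4c) -/

/-- W4a -/
theorem card_orbits_mul :
    Nat.card (MulAction.orbitRel.Quotient (Subgroup.zpowers T) (Q N)) * N =
      ∑ q : Q N, wt N (col N q.out) := sorry

/-- W4b (i) -/
theorem col_mem_Vset (g : SL(2, ℤ)) : col N g ∈ Vset N := sorry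

/-- W4b (ii), from `exists_SL2_col` -/
theorem exists_col_eq (v : ZMod N × ZMod N) (hv : v ∈ Vset N) : ∃ g : SL(2, ℤ), col N g = v := sorry

/-- W4b (iii) -/
theorem coset_eq_iff_col (g h : SL(2, ℤ)) :
    ((g : SL(2, ℤ)) : Q N) = (h : Q N) ↔
      ∃ u : (ZMod N)ˣ, col N h = ((u : ZMod N) * (col N g).1, (u : ZMod N) * (col N g).2) := sorry

/-- W4b (iv): summing a unit-invariant function over unimodular vectors. -/
theorem sum_Vset_eq (F : ZMod N × ZMod N → ℕ)
    (hF : ∀ (u : (ZMod N)ˣ) (v : ZMod N × ZMod N), F ((u : ZMod N) * v.1, (u : ZMod N) * v.2) = F v) :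
    ∑ v ∈ Vset N, F v = Nat.totient N * ∑ q : Q N, F (col N q.out) := sorry

/-- W4c -/
theorem wt_unit_smul (u : (ZMod N)ˣ) (v : ZMod N × ZMod N) :
    wt N ((u : ZMod N) * v.1, (u : ZMod N) * v.2) = wt N v := sorry

/-- W4c -/
theorem sum_wt_Vset :
    ∑ v ∈ Vset N, wt N v = N * Nat.totient N * ModularCurve.cuspCount N := sorry

/-! ## CombCusps (C4) -/

theorem card_orbits_T :
    Nat.card (MulAction.orbitRel.Quotient (Subgroup.zpowers T) (Q N)) = ModularCurve.cuspCount N :=
  sorry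

end Fermat.Agent.S24x.Spec
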