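/-
S24x/CoordExchange (helper15): exchange of coordinates in a function field of one variable, and the
Kähler-differential consequences in `IsCoordinate` / Prelude `Place` language.

Main results (namespace `Fermat.Agent.S24x`):
* `cx_isAlgebraic_of_transcendental` : `t` transcendental, `F/K(t)` algebraic, `s` transcendental
    ⟹ `F/K(s)` algebraic   (transcendence degree one exchange).
* `IsCoordinate.of_transcendental`   : `IsCoordinate K F t → Transcendental K s → IsCoordinate K F s`.
* `transcendental_of_ord_ne_zero`    : `v.ord s ≠ 0 → Transcendental K s` for a Prelude place `v`.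
* `IsCoordinate.of_ord_ne_zero`      : an element with a zero or a pole at some place is a coordinate.
* `IsCoordinate.kaehler`             : `finrank F Ω[F⁄K] = 1 ∧ D t ≠ 0 ∧ ∀ ω, ∃ f, ω = f • D t` (char 0).
* `IsCoordinate.nontrivial_kaehler`, `IsCoordinate.dCoordGenerates` (every place), and
  `IsCoordinate.exists_eq_smul_D` (every differential is a multiple of `D s` for any coordinate `s`).
-/
import Mathlib
import Fermat.Agent.S24x.AlgDefs
import Fermat.Agent.S24x.KaehlerBasis
import Fermat.Agent.S24x.LocalDiff

set_option autoImplicit false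
set_option linter.style.haveILetI false

open Polynomial IntermediateField Cardinal KaehlerDifferential AlgebraicCurve
open scoped IntermediateField.algebraAdjoinAdjoin

namespace Fermat.Agent.S24x

universe u w
variable {K : Type w} {F : Type u} [Field K] [Field F] [Algebra K F]

/-- algebraic over `K(t)` iff algebraic over `K[t]`. -/
theorem cx_isAlgebraic_adjoin_iff (t : F) :
    Algebra.IsAlgebraic (Algebra.adjoin K {t}) F ↔ Algebra.IsAlgebraic K⟮t⟯ F :=
  IsFractionRing.comap_isAlgebraic_iff (A := Algebra.adjoin K {t}) (K := K⟮t⟯) (C := F)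

theorem cx_isTranscendenceBasis (t : F) (ht : Transcendental K t)
    (halg : Algebra.IsAlgebraic K⟮t⟯ F) :
    IsTranscendenceBasis K (fun _ : PUnit.{u+1} => t) := by
  rw [isTranscendenceBasis_iff_algebraicIndependent_isAlgebraic]
  refine ⟨algebraicIndependent_unique_type_iff.mpr ht, ?_⟩
  rw [Set.range_const]
  exact (cx_isAlgebraic_adjoin_iff t).mpr halg

/-- Exchange: in transcendence degree one, every transcendental element is a transcendence
basis. -/
theorem cx_isAlgebraic_of_transcendental {t : F} (ht : Transcendental K t)
    (halg : Algebra.IsAlgebraic K⟮t⟯ F) {s : F} (hs : Transcendental K s) :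
    Algebra.IsAlgebraic K⟮s⟯ F := by
  have h1 := cx_isTranscendenceBasis t ht halg
  have h2 : Algebra.trdeg K F = 1 := by
    rw [← h1.cardinalMk_eq_trdeg]; simp
  have h3 : IsTranscendenceBasis K (fun _ : PUnit.{u+1} => s) :=
    (algebraicIndependent_unique_type_iff.mpr hs).isTranscendenceBasis_of_trdeg_le_of_finite
      (by rw [h2]; simp)
  have h4 := h3.isAlgebraic
  rw [Set.range_const] at h4
  exact (cx_isAlgebraic_adjoin_iff s).mp h4

theorem IsCoordinate.isAlgebraic {t : F} (ht : IsCoordinate K F t) :
    Algebra.IsAlgebraic K⟮t⟯ F :=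
  haveI := ht.finite
  Algebra.IsAlgebraic.of_finite _ _

/-- Exchange of coordinates. -/
theorem IsCoordinate.of_transcendental {t : F} (ht : IsCoordinate K F t) {s : F}
    (hs : Transcendental K s) : IsCoordinate K F s := by
  classical
  refine ⟨hs, ?_⟩
  have halg : Algebra.IsAlgebraic K⟮s⟯ F :=
    cx_isAlgebraic_of_transcendental ht.transcendental ht.isAlgebraic hs
  haveI := ht.finite
  -- a finite basis of `F` over `K(t)`
  let b := Module.finBasis K⟮t⟯ F
  let S : Set F := insert t (Set.range b)
  haveI : Finite S := Set.Finite.insert t (Set.finite_range b)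
  let L : IntermediateField K⟮s⟯ F := IntermediateField.adjoin K⟮s⟯ S
  haveI hLfin : FiniteDimensional K⟮s⟯ L :=
    IntermediateField.finiteDimensional_adjoin (fun x _ => (halg.isAlgebraic x).isIntegral)
  have htL : t ∈ L := IntermediateField.subset_adjoin _ _ (Set.mem_insert _ _)
  have hbL : ∀ i, b i ∈ L := fun i =>
    IntermediateField.subset_adjoin _ _ (Set.mem_insert_of_mem _ (Set.mem_range_self i))
  have hKtL : ∀ c : K⟮t⟯, (c : F) ∈ L := by
    have hle : K⟮t⟯ ≤ L.restrictScalars K := by
      rw [IntermediateField.adjoin_le_iff]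
      intro x hx
      rw [Set.mem_singleton_iff] at hx
      subst hx
      exact htL
    intro c
    exact hle c.2
  have hLtop : L = ⊤ := by
    rw [eq_top_iff]
    intro f _
    have hf : f = ∑ i, (b.repr f i) • b i := (b.sum_repr f).symm
    rw [hf]
    refine sum_mem (fun i _ => ?_)
    rw [IntermediateField.smul_def]
    exact mul_mem (hKtL _) (hbL i)
  have e : (⊤ : IntermediateField K⟮s⟯ F) ≃ₗ[K⟮s⟯] F :=
    (IntermediateField.topEquiv (F := K⟮s⟯) (E := F)).toLinearEquiv
  rw [hLtop] at hLfin
  exact LinearEquiv.finiteDimensional e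

/-- An element with non-zero order at some place (trivial on `K`) is transcendental over `K`. -/
theorem transcendental_of_ord_ne_zero (v : Place K F) {s : F} (h : v.ord s ≠ 0) :
    Transcendental K s := by
  -- reduce to positive order
  suffices key : ∀ s : F, 0 < v.ord s → Transcendental K s by
    rcases lt_or_gt_of_ne h with hneg | hpos
    · have hinv : 0 < v.ord s⁻¹ := by rw [v.ord_inv]; omega
      have := key s⁻¹ hinv
      intro halg
      exact this halg.inv
    · exact key s hpos
  intro s hpos halg
  have hs0 : s ≠ 0 := by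
    rintro rfl
    simp at hpos
  have hint : IsIntegral K s := halg.isIntegral
  set p := minpoly K s with hp
  have hp0 : p.coeff 0 ≠ 0 := minpoly.coeff_zero_ne_zero hint hs0
  have hroot : aeval s p = 0 := minpoly.aeval K s
  -- `p = divX p * X + C (p.coeff 0)`
  have hdecomp : aeval s p = aeval s p.divX * s + algebraMap K F (p.coeff 0) := by
    conv_lhs => rw [← Polynomial.divX_mul_X_add p]
    simp
  -- membership of `aeval s q` in the valuation ring
  have hsmem : s ∈ v.toValuationSubring := (ord_nonneg_iff v hs0).mp hpos.le
  have hqmem : aeval s p.divX ∈ v.toValuationSubring := by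
    let A : Subalgebra K F :=
      { v.toValuationSubring.toSubring.toSubsemiring with
        algebraMap_mem' := v.algebraMap_mem' }
    have h1 : aeval s p.divX ∈ Algebra.adjoin K {s} := aeval_mem_adjoin_singleton K s
    have h2 : Algebra.adjoin K {s} ≤ A := Algebra.adjoin_le (by
      intro x hx
      rw [Set.mem_singleton_iff] at hx
      subst hx
      exact hsmem)
    exact h2 h1
  set c := algebraMap K F (p.coeff 0) with hc
  have hc0 : c ≠ 0 := by
    rw [hc]
    exact (map_ne_zero_iff _ (algebraMap K F).injective).mpr hp0
  have hvc : v.adicValuation c = 1 := by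
    rw [adicValuation_eq_exp v hc0, hc, ord_algebraMap]
    simp
  have hvs : v.adicValuation s < 1 := by
    rw [adicValuation_eq_exp v hs0, ← WithZero.exp_zero, WithZero.exp_lt_exp]
    omega
  have hvq : v.adicValuation (aeval s p.divX) ≤ 1 := (adicValuation_le_one_iff v _).mpr hqmem
  have hvb : v.adicValuation (aeval s p.divX * s) < v.adicValuation c := by
    rw [map_mul, hvc]
    calc v.adicValuation (aeval s p.divX) * v.adicValuation s
        ≤ 1 * v.adicValuation s := mul_le_mul_left hvq _
      _ = v.adicValuation s := one_mul _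
      _ < 1 := hvs
  have hsum := Valuation.map_add_eq_of_lt_left v.adicValuation hvb
  rw [add_comm, ← hdecomp, hroot, map_zero, hvc] at hsum
  exact zero_ne_one hsum

/-- An element having a zero or a pole at some place is a coordinate. -/
theorem IsCoordinate.of_ord_ne_zero {t : F} (ht : IsCoordinate K F t) (v : Place K F) {s : F}
    (h : v.ord s ≠ 0) : IsCoordinate K F s :=
  ht.of_transcendental (transcendental_of_ord_ne_zero v h)

section CharZero

variable [CharZero K]

/-- s24_plan A1: Kähler differentials of a function field of one variable (char. 0). -/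
theorem IsCoordinate.kaehler {t : F} (ht : IsCoordinate K F t) :
    Module.finrank F Ω[F⁄K] = 1 ∧ D K F t ≠ 0 ∧ ∀ ω : Ω[F⁄K], ∃ f : F, ω = f • D K F t := by
  obtain ⟨e, he⟩ := kd_exists_equiv t ht.transcendental ht.isAlgebraic
  obtain ⟨δ, -, hspan, -⟩ := kd_exists_derivation t ht.transcendental ht.isAlgebraic
  refine ⟨?_, kd_D_ne_zero t ht.transcendental ht.isAlgebraic, hspan⟩
  rw [e.finrank_eq, Module.finrank_self]

theorem IsCoordinate.nontrivial_kaehler {t : F} (ht : IsCoordinate K F t) :
    Nontrivial Ω[F⁄K] :=
  kd_nontrivial t ht.transcendental ht.isAlgebraic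

/-- Every differential is a multiple of `D s`, for ANY transcendental `s`. -/
theorem IsCoordinate.exists_eq_smul_D {t : F} (ht : IsCoordinate K F t) {s : F}
    (hs : Transcendental K s) (ω : Ω[F⁄K]) : ∃ f : F, ω = f • D K F s :=
  (ht.of_transcendental hs).kaehler.2.2 ω

/-- The Prelude class `Place.DCoordGenerates` holds at every place of a function field of one
variable in characteristic zero. -/
theorem IsCoordinate.dCoordGenerates {t : F} (ht : IsCoordinate K F t) (v : Place K F) :
    v.DCoordGenerates := by
  obtain ⟨π, hπ1, hπ⟩ := exists_uniformizer_dCoord v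
  have hπt : Transcendental K π := transcendental_of_ord_ne_zero v (by rw [hπ1]; exact one_ne_zero)
  have hco := ht.of_transcendental hπt
  refine ⟨?_⟩
  rw [hπ]
  exact kd_span_D_eq_top π hco.transcendental hco.isAlgebraic

/-- `dCoord ≠ 0` at every place. -/
theorem IsCoordinate.dCoord_ne_zero {t : F} (ht : IsCoordinate K F t) (v : Place K F) :
    v.dCoord ≠ 0 := by
  obtain ⟨π, hπ1, hπ⟩ := exists_uniformizer_dCoord v
  have hπt : Transcendental K π := transcendental_of_ord_ne_zero v (by rw [hπ1]; exact one_ne_zero)
  have hco := ht.of_transcendental hπt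
  rw [hπ]
  exact kd_D_ne_zero π hco.transcendental hco.isAlgebraic

end CharZero

end Fermat.Agent.S24x
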