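import Fermat.Agent.S24x.CoveringRing

/-!
# S24 project, module C3: the Dedekind ring of `CoveringRing.lean`, packaged existentially

All instances on `ringB K x` are synthesised here, in the generic context, so that the consumers
(`Covering.lean`) only see an opaque ring `R` with instances in the local context.
-/

set_option autoImplicit false

namespace Fermat.Agent.S24x

open Polynomial AlgebraicCurve

universe u v

theorem cov_exists_ring {K : Type u} {F : Type v} [Field K] [Field F] [Algebra K F] [CharZero K]
    (x : F) [FFData K F x] :
    ∃ (R : Type v) (_ : CommRing R) (_ : IsDedekindDomain R) (_ : Algebra K R) (_ : Algebra R F)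
      (_ : IsScalarTower K R F) (_ : IsFractionRing R F) (tR : R),
      algebraMap R F tR = x ∧
        ∀ r : R, ((aeval tR : K[X] →ₐ[K] R) : K[X] →+* R).IsIntegralElem r :=
  ⟨ringB K x, inferInstance, inferInstance, inferInstance, inferInstance, inferInstance,
    inferInstance, crGen K x, algebraMap_crGen K x, cr_isIntegralElem K x⟩

end Fermat.Agent.S24x
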