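import Fermat.Agent.S24x.CoveringCusp
import Fermat.Agent.S24x.CoveringRingPack
import Fermat.Agent.S24x.FBarFinite

/-!
# S24 project, module C3: the covering theorems (exact AnSpec statements)

* `cov_covering_finite` (same statement as `covering_finite` of `CoveringFinal.lean`, fast proof) : every place of `F_N` over `j = c` is `vPt N (g • τ₀)` for some
  `g ∈ SL(2,ℤ)`, where `τ₀` is any point with `j(τ₀) = c`.
* `cov_covering_cusp` (same statement as `covering_cusp` of `CoveringFinal.lean`, fast proof) : every pole place of `j` is `cg_vCusp N g` for some `g ∈ SL(2,ℤ)`.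

The Dedekind ring is `ringB Q̄ (jBar N)` resp. `ringB Q̄ (jBar N)⁻¹` (`CoveringRing.lean`, packaged
in `CoveringRingPack.lean`), the coordinate property of `jBar N` comes from `FBarFinite.lean`.
-/

set_option autoImplicit false

namespace Fermat.Agent.S24x

open UpperHalfPlane AlgebraicCurve
open scoped MatrixGroups

variable (N : ℕ) [NeZero N]

theorem cov_covering_finite (c : Qbar) (τ₀ : ℍ) (hτ₀ : jFun τ₀ = iotaQ c)
    (v : Place Qbar (FBar N)) (hv : v ∈ placesOver Qbar (FBar N) (jBar N) c) :
    ∃ g : SL(2, ℤ), v = vPt N (g • τ₀) := by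
  have hFF : FFData Qbar (FBar N) (jBar N) := cr_ffData (fbf_isCoordinate_jBar N)
  obtain ⟨R, i1, i2, i3, i4, i5, i6, tR, htR, hint⟩ :=
    cov_exists_ring (K := Qbar) (F := FBar N) (jBar N)
  exact covering_finite_of_dedekind N R tR htR hint c τ₀ hτ₀ v hv

theorem cov_covering_cusp (v : Place Qbar (FBar N)) (hv : v ∈ polePlaces Qbar (FBar N) (jBar N)) :
    ∃ g : SL(2, ℤ), v = cg_vCusp N g := by
  have hFF : FFData Qbar (FBar N) (jBar N)⁻¹ := cr_ffData_inv (fbf_isCoordinate_jBar N)
  obtain ⟨R, i1, i2, i3, i4, i5, i6, tR, htR, hint⟩ :=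
    cov_exists_ring (K := Qbar) (F := FBar N) (jBar N)⁻¹
  exact covering_cusp_of_dedekind N R tR htR hint v hv

end Fermat.Agent.S24x
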