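import Mathlib

/-!
# S24 project, module C3 (part 1): the abstract covering lemma

Setting: `K ⊆ ℂ` a field, `S` a `K`-algebra (the integral closure of `K[t]` in the function field),
`H` a commutative `ℂ`-algebra with a valuation `w` (finite places: `H` = meromorphic functions on
the upper half plane, `w` = order at a point `τ₀`; cusps: `H = ℂ((q^{1/N}))`), a finite family of
`K`-algebra homomorphisms `ev x : S → H` (`ev x s = (ev s) ∘ α_x`), such that

* (LD) `ℂ ⊗[K] S → H` induced by `ev x0` is injective (linear disjointness);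
* (SYM) `∏ x, (X - ev x s)` has coefficients which are polynomials in `ev x0 t` with complex
  coefficients (given as the polynomial `Q`);
* `w ≤ 1` on `ℂ`, `w (ev x0 t - c) < 1`;
* `φ : S → K` is a `K`-algebra homomorphism (residue map of a place) with `φ t = c`.

Conclusion (`cov_abstract`): every `s ∈ ker φ` satisfies `w (ev x s) < 1` for some `x`, i.e. the
prime `ker φ` is contained in the union of the centres of the `ev x`.
-/

set_option autoImplicit false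

namespace Fermat.Agent.S24x

open Polynomial TensorProduct

section aux

variable {H Γ₀ : Type*} [CommRing H] [Algebra ℂ H] [LinearOrderedCommGroupWithZero Γ₀]

/-- A polynomial expression in an element of valuation `≤ 1` with constant coefficients of
valuation `≤ 1` has valuation `≤ 1`. -/
theorem cov_val_aeval_le_one (w : Valuation H Γ₀) (hwℂ : ∀ z : ℂ, w (algebraMap ℂ H z) ≤ 1)
    {J : H} (hJ : w J ≤ 1) (r : ℂ[X]) : w (aeval J r) ≤ 1 := by
  induction r using Polynomial.induction_on' with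
  | add p q hp hq =>
    rw [map_add]
    exact Valuation.map_add_le w hp hq
  | monomial n a =>
    rw [aeval_monomial, map_mul, map_pow]
    calc w (algebraMap ℂ H a) * w J ^ n ≤ 1 * 1 ^ n := by
          exact mul_le_mul' (hwℂ a) (pow_le_pow_left' hJ n)
      _ = 1 := by rw [one_pow, mul_one]

end aux

section main

variable {K S H I Γ₀ : Type*} [Field K] [CommRing S] [Algebra K S] [CommRing H] [Algebra ℂ H]
  [Algebra K ℂ] [Algebra K H] [IsScalarTower K ℂ H] [Fintype I]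
  [LinearOrderedCommGroupWithZero Γ₀]

/-- **Abstract covering lemma, factorisation form.** The "norm" `∏ x, (-(ev x s))` of an element
`s` of the kernel of the residue map `φ` is divisible by `ev x0 t - c` in `ℂ[ev x0 t]`. -/
theorem cov_abstract_factor (ev : I → S →ₐ[K] H) (x0 : I)
    (hLD : Function.Injective
      (Algebra.TensorProduct.lift (Algebra.ofId ℂ H) (ev x0) (fun _ _ => Commute.all _ _) :
        ℂ ⊗[K] S →ₐ[ℂ] H))
    (t : S) (c : K)
    (φ : S →ₐ[K] K) (hφ : φ t = c) (s : S) (hs : φ s = 0)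
    (Q : ℂ[X][X])
    (hQ : Q.map ((aeval (ev x0 t) : ℂ[X] →ₐ[ℂ] H) : ℂ[X] →+* H) = ∏ x, (X - C (ev x s))) :
    ∃ r : ℂ[X], ∏ x, (-(ev x s)) =
      (ev x0 t - algebraMap ℂ H (algebraMap K ℂ c)) * aeval (ev x0 t) r := by
  classical
  set Ψ : ℂ ⊗[K] S →ₐ[ℂ] H :=
    Algebra.TensorProduct.lift (Algebra.ofId ℂ H) (ev x0) (fun _ _ => Commute.all _ _) with hΨ
  set φC : ℂ ⊗[K] S →ₐ[ℂ] ℂ :=
    Algebra.TensorProduct.lift (AlgHom.id ℂ ℂ) ((Algebra.ofId K ℂ).comp φ)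
      (fun _ _ => Commute.all _ _) with hφC
  set τ : ℂ ⊗[K] S := (1 : ℂ) ⊗ₜ[K] t with hτ
  set σ : ℂ ⊗[K] S := (1 : ℂ) ⊗ₜ[K] s with hσ
  set J : H := ev x0 t with hJ
  have hΨτ : Ψ τ = J := by
    rw [hΨ, hτ, Algebra.TensorProduct.lift_tmul, map_one, one_mul]
  have hΨσ : Ψ σ = ev x0 s := by
    rw [hΨ, hσ, Algebra.TensorProduct.lift_tmul, map_one, one_mul]
  have hφτ : φC τ = algebraMap K ℂ c := by
    rw [hφC, hτ, Algebra.TensorProduct.lift_tmul, map_one, one_mul]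
    simp [hφ, Algebra.ofId_apply]
  have hφσ : φC σ = 0 := by
    rw [hφC, hσ, Algebra.TensorProduct.lift_tmul, map_one, one_mul]
    simp [hs]
  -- the relation in the tensor product
  set QT : (ℂ ⊗[K] S)[X] := Q.map ((aeval τ : ℂ[X] →ₐ[ℂ] ℂ ⊗[K] S) : ℂ[X] →+* ℂ ⊗[K] S) with hQT
  have hcompΨ : ((Ψ : ℂ ⊗[K] S →+* H)).comp ((aeval τ : ℂ[X] →ₐ[ℂ] ℂ ⊗[K] S) : ℂ[X] →+* ℂ ⊗[K] S)
      = ((aeval J : ℂ[X] →ₐ[ℂ] H) : ℂ[X] →+* H) := by
    have : Ψ.comp (aeval τ : ℂ[X] →ₐ[ℂ] ℂ ⊗[K] S) = (aeval J : ℂ[X] →ₐ[ℂ] H) := by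
      apply Polynomial.algHom_ext
      simp [hΨτ]
    exact congrArg (fun f : ℂ[X] →ₐ[ℂ] H => (f : ℂ[X] →+* H)) this
  have hcompφ : ((φC : ℂ ⊗[K] S →+* ℂ)).comp
      ((aeval τ : ℂ[X] →ₐ[ℂ] ℂ ⊗[K] S) : ℂ[X] →+* ℂ ⊗[K] S)
      = ((aeval (algebraMap K ℂ c) : ℂ[X] →ₐ[ℂ] ℂ) : ℂ[X] →+* ℂ) := by
    have : φC.comp (aeval τ : ℂ[X] →ₐ[ℂ] ℂ ⊗[K] S) =
        (aeval (algebraMap K ℂ c) : ℂ[X] →ₐ[ℂ] ℂ) := by
      apply Polynomial.algHom_ext
      simp [hφτ]
    exact congrArg (fun f : ℂ[X] →ₐ[ℂ] ℂ => (f : ℂ[X] →+* ℂ)) this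
  have hR : QT.eval σ = 0 := by
    apply hLD
    rw [map_zero]
    have h1 : Ψ (QT.eval σ) = (QT.map (Ψ : ℂ ⊗[K] S →+* H)).eval (Ψ σ) :=
      (Polynomial.eval₂_hom (p := QT) (Ψ : ℂ ⊗[K] S →+* H) σ).symm.trans
        (Polynomial.eval_map (Ψ : ℂ ⊗[K] S →+* H) (Ψ σ)).symm
    rw [h1, hQT, Polynomial.map_map, hcompΨ, hQ, hΨσ, Polynomial.eval_prod]
    exact Finset.prod_eq_zero (Finset.mem_univ x0) (by simp)
  -- apply `φC`
  have hroot : (Q.coeff 0).eval (algebraMap K ℂ c) = 0 := by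
    have h1 : φC (QT.eval σ) = (QT.map (φC : ℂ ⊗[K] S →+* ℂ)).eval (φC σ) :=
      (Polynomial.eval₂_hom (p := QT) (φC : ℂ ⊗[K] S →+* ℂ) σ).symm.trans
        (Polynomial.eval_map (φC : ℂ ⊗[K] S →+* ℂ) (φC σ)).symm
    rw [hR, map_zero, hQT, Polynomial.map_map, hcompφ, hφσ,
      ← Polynomial.coeff_zero_eq_eval_zero, Polynomial.coeff_map] at h1
    rw [← Polynomial.coe_aeval_eq_eval]
    exact h1.symm
  -- the constant coefficient, computed in `H`
  have hcoeff : aeval J (Q.coeff 0) = ∏ x, (-(ev x s)) := by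
    have h1 := congrArg (fun p : H[X] => p.coeff 0) hQ
    simp only [Polynomial.coeff_map] at h1
    rw [Polynomial.coeff_zero_eq_eval_zero (∏ x, (X - C (ev x s))), Polynomial.eval_prod] at h1
    simpa using h1
  -- factor out the root
  obtain ⟨r, hr⟩ : (X - C (algebraMap K ℂ c)) ∣ Q.coeff 0 :=
    Polynomial.dvd_iff_isRoot.2 hroot
  refine ⟨r, ?_⟩
  rw [← hcoeff, hr, map_mul, map_sub, aeval_X, aeval_C]

/-- **Abstract covering lemma.** -/
theorem cov_abstract (ev : I → S →ₐ[K] H) (x0 : I)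
    (hLD : Function.Injective
      (Algebra.TensorProduct.lift (Algebra.ofId ℂ H) (ev x0) (fun _ _ => Commute.all _ _) :
        ℂ ⊗[K] S →ₐ[ℂ] H))
    (t : S) (c : K) (w : Valuation H Γ₀) (hwℂ : ∀ z : ℂ, w (algebraMap ℂ H z) ≤ 1)
    (hwt : w (ev x0 t - algebraMap ℂ H (algebraMap K ℂ c)) < 1)
    (φ : S →ₐ[K] K) (hφ : φ t = c) (s : S) (hs : φ s = 0)
    (Q : ℂ[X][X])
    (hQ : Q.map ((aeval (ev x0 t) : ℂ[X] →ₐ[ℂ] H) : ℂ[X] →+* H) = ∏ x, (X - C (ev x s))) :
    ∃ x, w (ev x s) < 1 := by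
  classical
  obtain ⟨r, hr⟩ := cov_abstract_factor ev x0 hLD t c φ hφ s hs Q hQ
  set J : H := ev x0 t with hJ
  have hwJ : w J ≤ 1 := by
    have : J = (J - algebraMap ℂ H (algebraMap K ℂ c)) + algebraMap ℂ H (algebraMap K ℂ c) := by
      ring
    rw [this]
    exact Valuation.map_add_le w hwt.le (hwℂ _)
  have hlt : w (∏ x, (-(ev x s))) < 1 := by
    rw [hr, map_mul]
    calc w (J - algebraMap ℂ H (algebraMap K ℂ c)) * w (aeval J r)
        ≤ w (J - algebraMap ℂ H (algebraMap K ℂ c)) * 1 :=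
          mul_le_mul' le_rfl (cov_val_aeval_le_one w hwℂ hwJ r)
      _ = w (J - algebraMap ℂ H (algebraMap K ℂ c)) := mul_one _
      _ < 1 := hwt
  by_contra hall
  simp only [not_exists, not_lt] at hall
  have hge : 1 ≤ w (∏ x, (-(ev x s))) := by
    rw [map_prod]
    apply Finset.one_le_prod'
    intro x _
    rw [Valuation.map_neg]
    exact hall x
  exact absurd hlt (not_lt.2 hge)

end main

end Fermat.Agent.S24x
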