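import Fermat.Agent.S24x.CoveringFinite
import Fermat.Agent.S24x.CgCusp
import Fermat.Agent.S24x.HolOrder

/-!
# S24 project, module C3 (part 6): covering of the cusps

`covering_cusp_of_dedekind` : let `R ⊆ F_N` be a Dedekind domain with fraction field `F_N`,
integral over `Q̄[j⁻¹]`.  Then every pole place of `j` is of the form `cg_vCusp N g`,
`g ∈ SL(2,ℤ)`.
-/

set_option autoImplicit false

namespace Fermat.Agent.S24x

open UpperHalfPlane Polynomial TensorProduct CongruenceSubgroup AlgebraicCurve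
open scoped MatrixGroups Manifold

noncomputable section

attribute [local instance] cov_algQbarC cov_algQbarMer cov_isScalarTower

/-- identity theorem: a holomorphic function on `ℍ` vanishing near `i∞` is zero -/
theorem cov_hol_eq_zero_of_vanish (h : Hol) (A : ℝ)
    (hA : ∀ τ : ℍ, A ≤ τ.im → (h : ℍ → ℂ) τ = 0) : h = 0 := by
  by_contra hne
  have hy : 0 < max A 0 + 1 := by positivity
  let τ₁ : ℍ := ⟨⟨0, max A 0 + 1⟩, hy⟩
  apply holOrder_ne_top hne τ₁
  unfold holOrder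
  rw [analyticOrderAt_eq_top]
  have hopen : IsOpen {z : ℂ | max A 0 < z.im} := isOpen_lt continuous_const Complex.continuous_im
  have hmem : (τ₁ : ℂ) ∈ {z : ℂ | max A 0 < z.im} := by
    show max A 0 < max A 0 + 1
    linarith
  filter_upwards [hopen.mem_nhds hmem] with z hz
  have hz0 : 0 < z.im := lt_of_le_of_lt (le_max_right A 0) hz
  rw [Function.comp_apply, UpperHalfPlane.ofComplex_apply_of_im_pos hz0]
  apply hA
  exact (le_max_left A 0).trans hz.le

/-- explicit form of `p(j⁻¹) * j ^ m` -/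
theorem cov_aeval_inv_mul_pow (p : ℂ[X]) (m : ℕ) (hp : p.natDegree ≤ m) :
    aeval jMer⁻¹ p * jMer ^ m =
      ∑ k ∈ Finset.range (p.natDegree + 1), algebraMap ℂ Mer (p.coeff k) * jMer ^ (m - k) := by
  have hj := cov_jMer_ne_zero
  rw [aeval_eq_sum_range, Finset.sum_mul]
  refine Finset.sum_congr rfl (fun k hk => ?_)
  have hk' : k ≤ m := (Nat.lt_succ_iff.1 (Finset.mem_range.1 hk)).trans hp
  rw [Algebra.smul_def, mul_assoc]
  congr 1
  rw [inv_pow, ← pow_sub_mul_pow jMer hk']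
  field_simp

theorem cov_jFun_norm_ge : ∃ A : ℝ, ∀ τ : ℍ, A ≤ τ.im → τ.im ≤ ‖jFun τ‖ := by
  obtain ⟨A, hA⟩ := jFun_growth
  refine ⟨A, fun τ hτ => ?_⟩
  have h1 := (hA τ hτ).1
  have h2 := Real.add_one_le_exp (2 * Real.pi * τ.im)
  have h3 := Real.pi_gt_three
  have h4 := τ.im_pos
  nlinarith

section general

variable {K F : Type*} [Field K] [Field F] [Algebra K F]

theorem cov_inv_of_ord_neg (v : Place K F) {t : F} (ht : v.ord t < 0) :
    t⁻¹ ∈ v.toValuationSubring ∧ 0 < v.ord t⁻¹ := by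
  have h0 : t ≠ 0 := by
    intro h
    rw [h, Place.ord_zero] at ht
    exact lt_irrefl _ ht
  have h1 : 0 < v.ord t⁻¹ := by
    rw [v.ord_inv]
    omega
  exact ⟨(ord_nonneg_iff v (inv_ne_zero h0)).1 h1.le, h1⟩

end general

variable (N : ℕ) [NeZero N]
variable (R : Type*) [CommRing R] [Algebra Qbar R] [Algebra R (FBar N)]
  [IsScalarTower Qbar R (FBar N)]

/-- The analytic core of the cusp covering: if `f ∈ F_N` is nonzero, `evF f = a / b`, the inverse
of `f` is bounded at all cusps, and the "norm" `∏ x, -(out x) • evF f` equals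
`j⁻¹ * r₁(j⁻¹)`, we get a contradiction. -/
theorem cov_cusp_core (a b : Hol) (ha : a ≠ 0) (hb : b ≠ 0)
    (hbd : ∀ x : Q N, ∃ C A : ℝ, ∀ τ : ℍ, A ≤ τ.im →
      ‖(b : ℍ → ℂ) ((Quotient.out x : SL(2, ℤ))⁻¹ • τ)‖ ≤
        C * ‖(a : ℍ → ℂ) ((Quotient.out x : SL(2, ℤ))⁻¹ • τ)‖)
    (r₁ : ℂ[X])
    (hprod : ∏ x : Q N, (-((Quotient.out x : SL(2, ℤ)) • (algebraMap Hol Mer a / algebraMap Hol Mer b)))
      = jMer⁻¹ * aeval jMer⁻¹ r₁) : False := by
  classical
  have hinj : Function.Injective (algebraMap Hol Mer) := IsFractionRing.injective Hol Mer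
  have hj := cov_jMer_ne_zero
  choose C Ab hCA using hbd
  set d := r₁.natDegree with hd
  -- the holomorphic functions
  set A'' : Hol := ∏ x : Q N, (-((Quotient.out x : SL(2, ℤ)) • a)) with hA''
  set B' : Hol := ∏ x : Q N, ((Quotient.out x : SL(2, ℤ)) • b) with hB'
  set S : Hol := ∑ k ∈ Finset.range (d + 1), algebraMap ℂ Hol (r₁.coeff k) * jHol ^ (d - k) with hS
  have hB'ne : B' ≠ 0 := by
    rw [hB', Finset.prod_ne_zero_iff]
    intro x _
    rw [Ne, smul_eq_zero_iff_eq]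
    exact hb
  have hA''ne : A'' ≠ 0 := by
    rw [hA'', Finset.prod_ne_zero_iff]
    intro x _
    rw [Ne, neg_eq_zero, smul_eq_zero_iff_eq]
    exact ha
  -- the identity in `Hol`
  have hHol : A'' * jHol ^ (d + 1) = B' * S := by
    apply hinj
    have hBm : algebraMap Hol Mer B' ≠ 0 := by
      rw [Ne, map_eq_zero_iff _ hinj]
      exact hB'ne
    have h1 : algebraMap Hol Mer A'' / algebraMap Hol Mer B' = jMer⁻¹ * aeval jMer⁻¹ r₁ := by
      rw [← hprod, hA'', hB', map_prod, map_prod, ← Finset.prod_div_distrib]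
      refine Finset.prod_congr rfl (fun x _ => ?_)
      rw [map_neg, ← smul_algebraMap_Mer, ← smul_algebraMap_Mer, div_eq_mul_inv, div_eq_mul_inv,
        smul_mul', smul_inv'', neg_mul]
    have h2 : algebraMap Hol Mer S = aeval jMer⁻¹ r₁ * jMer ^ d := by
      rw [cov_aeval_inv_mul_pow r₁ d le_rfl, hS, map_sum]
      refine Finset.sum_congr rfl (fun k _ => ?_)
      rw [map_mul, map_pow, ← IsScalarTower.algebraMap_apply]
      rfl
    rw [map_mul, map_mul, map_pow, h2]
    have h3 : algebraMap Hol Mer A'' = algebraMap Hol Mer B' * (jMer⁻¹ * aeval jMer⁻¹ r₁) := by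
      rw [← h1, mul_div_cancel₀ _ hBm]
    rw [h3]
    show algebraMap Hol Mer B' * (jMer⁻¹ * aeval jMer⁻¹ r₁) * jMer ^ (d + 1) = _
    rw [pow_succ]
    field_simp
  -- pointwise
  have hpt : ∀ z : ℍ, (∏ x : Q N, (-((a : ℍ → ℂ) ((Quotient.out x : SL(2, ℤ))⁻¹ • z)))) *
      jFun z ^ (d + 1) = (∏ x : Q N, (b : ℍ → ℂ) ((Quotient.out x : SL(2, ℤ))⁻¹ • z)) *
        ∑ k ∈ Finset.range (d + 1), r₁.coeff k * jFun z ^ (d - k) := by
    intro z
    have := congrArg (cov_evalAt z) hHol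
    rw [map_mul, map_mul, map_pow, hA'', hB', hS, map_prod, map_prod, map_sum] at this
    simp only [map_mul, map_pow, map_neg] at this
    exact this
  -- constants
  set C₁ : ℝ := ∑ k ∈ Finset.range (d + 1), ‖r₁.coeff k‖ with hC₁
  have hC₁0 : 0 ≤ C₁ := Finset.sum_nonneg (fun _ _ => norm_nonneg _)
  set C₂ : ℝ := ∏ x : Q N, C x with hC₂
  set A₂ : ℝ := ∑ x : Q N, |Ab x| with hA₂
  obtain ⟨A₁, hA₁⟩ := cov_jFun_norm_ge
  have hvan : ∀ z : ℍ, |A₁| + A₂ + 1 + |C₁ * C₂ + 1| ≤ z.im → (A'' : ℍ → ℂ) z = 0 := by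
    intro z hz
    have hA₂0 : 0 ≤ A₂ := Finset.sum_nonneg (fun _ _ => abs_nonneg _)
    have hz1 : A₁ ≤ z.im := by
      have := le_abs_self A₁
      have := abs_nonneg (C₁ * C₂ + 1)
      linarith
    have hzx : ∀ x : Q N, Ab x ≤ z.im := by
      intro x
      have h1 : |Ab x| ≤ A₂ := Finset.single_le_sum (f := fun x => |Ab x|)
        (fun _ _ => abs_nonneg _) (Finset.mem_univ x)
      have := le_abs_self (Ab x)
      have := abs_nonneg (C₁ * C₂ + 1)
      have := abs_nonneg A₁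
      linarith
    have hJ := hA₁ z hz1
    set J : ℝ := ‖jFun z‖ with hJdef
    have hJ1 : 1 ≤ J := by
      have := abs_nonneg (C₁ * C₂ + 1)
      have := abs_nonneg A₁
      linarith
    have hJC : C₁ * C₂ + 1 ≤ J := by
      have := le_abs_self (C₁ * C₂ + 1)
      have := abs_nonneg A₁
      linarith
    set Pa : ℝ := ∏ x : Q N, ‖(a : ℍ → ℂ) ((Quotient.out x : SL(2, ℤ))⁻¹ • z)‖ with hPa
    set Pb : ℝ := ∏ x : Q N, ‖(b : ℍ → ℂ) ((Quotient.out x : SL(2, ℤ))⁻¹ • z)‖ with hPb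
    have hPa0 : 0 ≤ Pa := Finset.prod_nonneg (fun _ _ => norm_nonneg _)
    have hPb0 : 0 ≤ Pb := Finset.prod_nonneg (fun _ _ => norm_nonneg _)
    have hPbPa : Pb ≤ C₂ * Pa := by
      rw [hPb, hC₂, hPa, ← Finset.prod_mul_distrib]
      exact Finset.prod_le_prod (fun _ _ => norm_nonneg _) (fun x _ => hCA x z (hzx x))
    have hSb : ‖∑ k ∈ Finset.range (d + 1), r₁.coeff k * jFun z ^ (d - k)‖ ≤ C₁ * J ^ d := by
      rw [hC₁, Finset.sum_mul]
      refine (norm_sum_le _ _).trans (Finset.sum_le_sum (fun k _ => ?_))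
      rw [norm_mul, norm_pow]
      exact mul_le_mul_of_nonneg_left (pow_le_pow_right₀ hJ1 (Nat.sub_le d k)) (norm_nonneg _)
    have hnorm := congrArg norm (hpt z)
    rw [norm_mul, norm_mul, norm_prod, norm_prod, norm_pow] at hnorm
    simp only [norm_neg] at hnorm
    -- `Pa * J^(d+1) = Pb * ‖S z‖`
    have hJd : 0 < J ^ d := pow_pos (by linarith) d
    have hkey : Pa * J ^ (d + 1) ≤ C₂ * Pa * (C₁ * J ^ d) := by
      rw [hnorm]
      calc Pb * ‖∑ k ∈ Finset.range (d + 1), r₁.coeff k * jFun z ^ (d - k)‖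
          ≤ Pb * (C₁ * J ^ d) := mul_le_mul_of_nonneg_left hSb hPb0
        _ ≤ C₂ * Pa * (C₁ * J ^ d) := mul_le_mul_of_nonneg_right hPbPa (by positivity)
    have hPa_zero : Pa = 0 := by
      by_contra hne
      have hPapos : 0 < Pa := lt_of_le_of_ne hPa0 (Ne.symm hne)
      have h5 : Pa * J ^ d * J ≤ Pa * J ^ d * (C₁ * C₂) := by
        calc Pa * J ^ d * J = Pa * J ^ (d + 1) := by rw [pow_succ]; ring
          _ ≤ C₂ * Pa * (C₁ * J ^ d) := hkey
          _ = Pa * J ^ d * (C₁ * C₂) := by ring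
      have h6 : J ≤ C₁ * C₂ := le_of_mul_le_mul_left h5 (by positivity)
      linarith
    -- conclude
    have hAz : ‖(A'' : ℍ → ℂ) z‖ = Pa := by
      have h7 : (A'' : ℍ → ℂ) z = cov_evalAt z A'' := rfl
      rw [h7, hA'', map_prod, norm_prod]
      refine Finset.prod_congr rfl (fun x _ => ?_)
      rw [map_neg, norm_neg]
      rfl
    rw [← norm_eq_zero, hAz, hPa_zero]
  exact hA''ne (cov_hol_eq_zero_of_vanish A'' _ hvan)

/-- **Covering of the cusps** (relative to a Dedekind domain `R ⊆ F_N`, integral over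
`Q̄[j⁻¹]`, with fraction field `F_N`). -/
theorem covering_cusp_of_dedekind [IsDedekindDomain R] [IsFractionRing R (FBar N)]
    (tR : R) (htR : algebraMap R (FBar N) tR = (jBar N)⁻¹)
    (hint : ∀ r : R, ((aeval tR : Qbar[X] →ₐ[Qbar] R) : Qbar[X] →+* R).IsIntegralElem r)
    (v : Place Qbar (FBar N)) (hv : v ∈ polePlaces Qbar (FBar N) (jBar N)) :
    ∃ g : SL(2, ℤ), v = cg_vCusp N g := by
  classical
  have hinjR : Function.Injective (algebraMap R (FBar N)) := IsFractionRing.injective R (FBar N)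
  have hinj : Function.Injective (algebraMap Hol Mer) := IsFractionRing.injective Hol Mer
  rw [mem_polePlaces] at hv
  obtain ⟨hjv', hvpos⟩ := cov_inv_of_ord_neg v hv
  have hjv : algebraMap R (FBar N) tR ∈ v.toValuationSubring := by
    rw [htR]
    exact hjv'
  have hvR : ∀ r : R, algebraMap R (FBar N) r ∈ v.toValuationSubring :=
    cov_mem_of_integral R tR hint v hjv
  set x0 : Q N := ((1 : SL(2, ℤ)) : Q N) with hx0
  have hJ : ∀ x, cov_ev N R x tR = jMer⁻¹ := by
    intro x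
    rw [cov_ev_apply, htR, map_inv₀, evF_jBar, smul_inv'', cov_jMer_smul]
  let w : Q N → Place Qbar (FBar N) := fun x => cg_vCusp N (Quotient.out x : SL(2, ℤ))⁻¹
  have hw : ∀ x, ∀ r : R, algebraMap R (FBar N) r ∈ (w x).toValuationSubring := by
    intro x r
    have h1 := cg_vCusp_mem_polePlaces N (Quotient.out x : SL(2, ℤ))⁻¹
    rw [mem_polePlaces] at h1
    have h2 : algebraMap R (FBar N) tR ∈ (w x).toValuationSubring := by
      rw [htR]
      exact (cov_inv_of_ord_neg _ h1).1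
    exact cov_mem_of_integral R tR hint (w x) h2 r
  suffices hmain : ∀ r : R, 0 < v.ord (algebraMap R (FBar N) r) →
      ∃ x, 0 < (w x).ord (algebraMap R (FBar N) r) by
    obtain ⟨x, hx⟩ := cov_place_eq_of_forall R v hvR w hw hmain
    exact ⟨_, hx⟩
  intro r hr
  by_contra hcon
  simp only [not_exists, not_lt] at hcon
  have hr0 : algebraMap R (FBar N) r ≠ 0 := by
    intro h
    rw [h, Place.ord_zero] at hr
    exact lt_irrefl _ hr
  have hvt : 0 < v.ord (algebraMap R (FBar N) tR - algebraMap Qbar (FBar N) 0) := by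
    rw [map_zero, sub_zero, htR]
    exact hvpos
  obtain ⟨φ, hφt, hφ⟩ := cov_exists_residue R tR 0 hint v hvR hvt
  have hφr : φ r = 0 := (hφ r).2 (Or.inr hr)
  obtain ⟨Q, hQ⟩ := cov_exists_Q jMer⁻¹ cov_inv_cusp (fun x => cov_ev N R x r)
    (fun γ x => cov_ev_smul N R γ x r)
    (fun x => cov_ev_isIntegralElem N R tR jMer⁻¹ hJ r (hint r) x)
  obtain ⟨r₁, hr₁⟩ := cov_abstract_factor (cov_ev N R) x0
    (cov_tensor_injective N R hinjR x0 rfl) tR 0 φ hφt r hφr Q (by rw [hJ x0]; exact hQ)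
  rw [hJ x0, map_zero, map_zero, sub_zero] at hr₁
  -- write `evF r` as a fraction
  obtain ⟨a, b, hbmem, hab⟩ :=
    IsFractionRing.div_surjective (A := Hol) (evF N (algebraMap R (FBar N) r))
  have hb : b ≠ 0 := nonZeroDivisors.ne_zero hbmem
  have hne : evF N (algebraMap R (FBar N) r) ≠ 0 := by
    rw [Ne, map_eq_zero]
    exact hr0
  have ha : a ≠ 0 := by
    rintro rfl
    rw [map_zero, zero_div] at hab
    exact hne hab.symm
  have ham : algebraMap Hol Mer a ≠ 0 := by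
    rw [Ne, map_eq_zero_iff _ hinj]
    exact ha
  have hbm : algebraMap Hol Mer b ≠ 0 := by
    rw [Ne, map_eq_zero_iff _ hinj]
    exact hb
  refine cov_cusp_core N a b ha hb (fun x => ?_) r₁ ?_
  · have h1 : (algebraMap R (FBar N) r)⁻¹ ∈ (w x).toValuationSubring := by
      rw [← ord_nonneg_iff (w x) (inv_ne_zero hr0), (w x).ord_inv]
      have := hcon x
      omega
    have hf : evF N (algebraMap R (FBar N) r)⁻¹ * algebraMap Hol Mer a = algebraMap Hol Mer b := by
      rw [map_inv₀, ← hab]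
      field_simp
    exact (cg_mem_vCusp_iff N _ _ b a ha hf).1 h1
  · rw [← hr₁]
    refine Finset.prod_congr rfl (fun x _ => ?_)
    rw [cov_ev_apply, hab]

end

end Fermat.Agent.S24x
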