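/-
S24 (C3, cusp case): the analytic endgame of the covering argument at the cusps.
If `∏ₓ (-(Aₓ / Bₓ)) = j⁻¹ · r(j⁻¹)` in `Mer` and every `Aₓ / Bₓ` is bounded below near `i∞`,
we get a contradiction with the growth of `j`.
-/
import Fermat.Agent.S24x.CuspPlacesG

set_option autoImplicit false

namespace Fermat.Agent.S24x

open UpperHalfPlane Polynomial
open scoped MatrixGroups Manifold

theorem jMer_ne_zero : jMer ≠ 0 := by
  intro h
  have h2 : jHol = 0 := IsFractionRing.injective Hol Mer (by rw [map_zero]; exact h)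
  obtain ⟨τ, hτ⟩ := jFun_surjective 1
  have h3 := congrArg (fun h : Hol => (h : ℍ → ℂ) τ) h2
  change jFun τ = 0 at h3
  rw [hτ] at h3
  exact one_ne_zero h3

/-- the numerator `Σ rₖ j^(d-k)` of `r(j⁻¹)`. -/
noncomputable def ceNum (r : ℂ[X]) : Hol :=
  ∑ i ∈ Finset.range (r.natDegree + 1), algebraMap ℂ Hol (r.coeff i) * jHol ^ (r.natDegree - i)

theorem ceNum_apply (r : ℂ[X]) (τ : ℍ) :
    (ceNum r : ℍ → ℂ) τ = ∑ i ∈ Finset.range (r.natDegree + 1),
      r.coeff i * jFun τ ^ (r.natDegree - i) := by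
  unfold ceNum
  have : ∀ (s : Finset ℕ) (f : ℕ → Hol),
      ((∑ i ∈ s, f i : Hol) : ℍ → ℂ) τ = ∑ i ∈ s, (f i : ℍ → ℂ) τ := by
    intro s f
    induction s using Finset.induction_on with
    | empty => simp
    | insert a s ha ih =>
      rw [Finset.sum_insert ha, Finset.sum_insert ha, ← ih]
      rfl
  rw [this]
  rfl

theorem jMer_pow_mul_aeval (r : ℂ[X]) :
    jMer ^ (r.natDegree + 1) * (jMer⁻¹ * aeval jMer⁻¹ r) = algebraMap Hol Mer (ceNum r) := by
  have hj := jMer_ne_zero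
  rw [aeval_eq_sum_range, ceNum, map_sum, Finset.mul_sum, Finset.mul_sum]
  apply Finset.sum_congr rfl
  intro i hi
  have hi' : i ≤ r.natDegree := Nat.lt_succ_iff.mp (Finset.mem_range.mp hi)
  rw [map_mul, map_pow, ← IsScalarTower.algebraMap_apply ℂ Hol Mer, Algebra.smul_def]
  have hsplit : r.natDegree + 1 = (r.natDegree - i) + i + 1 := by omega
  have hjm : algebraMap Hol Mer jHol = jMer := rfl
  rw [hjm]
  calc jMer ^ (r.natDegree + 1) * (jMer⁻¹ * (algebraMap ℂ Mer (r.coeff i) * jMer⁻¹ ^ i))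
      = algebraMap ℂ Mer (r.coeff i) * (jMer ^ (r.natDegree + 1) * jMer⁻¹ * jMer⁻¹ ^ i) := by ring
    _ = algebraMap ℂ Mer (r.coeff i) * jMer ^ (r.natDegree - i) := by
      congr 1
      rw [hsplit, pow_succ, pow_add, inv_pow]
      field_simp

theorem ceNum_bound (r : ℂ[X]) (τ : ℍ) (hτ : 1 ≤ ‖jFun τ‖) :
    ‖(ceNum r : ℍ → ℂ) τ‖ ≤
      (∑ i ∈ Finset.range (r.natDegree + 1), ‖r.coeff i‖) * ‖jFun τ‖ ^ r.natDegree := by
  rw [ceNum_apply, Finset.sum_mul]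
  refine le_trans (norm_sum_le _ _) (Finset.sum_le_sum fun i _ => ?_)
  rw [norm_mul, norm_pow]
  apply mul_le_mul_of_nonneg_left _ (norm_nonneg _)
  exact pow_le_pow_right₀ hτ (Nat.sub_le _ _)

theorem coe_prod_Hol {I : Type*} (s : Finset I) (f : I → Hol) (τ : ℍ) :
    ((∏ x ∈ s, f x : Hol) : ℍ → ℂ) τ = ∏ x ∈ s, (f x : ℍ → ℂ) τ := by
  classical
  induction s using Finset.induction_on with
  | empty => simp
  | insert a s ha ih =>
    rw [Finset.prod_insert ha, Finset.prod_insert ha, ← ih]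
    rfl

/-- **Cusp endgame.** -/
theorem cusp_endgame {I : Type*} [Fintype I] (A B : I → Hol) (hB : ∀ x, B x ≠ 0) (r : ℂ[X])
    (hid : ∏ x, (-(algebraMap Hol Mer (A x) / algebraMap Hol Mer (B x))) =
      jMer⁻¹ * aeval jMer⁻¹ r)
    (hunit : ∀ x, ∃ C M : ℝ, ∀ τ : ℍ, M ≤ τ.im →
      ‖(B x : ℍ → ℂ) τ‖ ≤ C * ‖(A x : ℍ → ℂ) τ‖) : False := by
  classical
  have hBM : ∀ x, algebraMap Hol Mer (B x) ≠ 0 := fun x => by
    rw [Ne, map_eq_zero_iff _ (IsFractionRing.injective Hol Mer)]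
    exact hB x
  -- the identity in `Hol`
  have hHol : (∏ x, (-(A x))) * jHol ^ (r.natDegree + 1) = ceNum r * ∏ x, B x := by
    apply IsFractionRing.injective Hol Mer
    rw [map_mul, map_mul, map_pow, map_prod, map_prod, ← jMer_pow_mul_aeval, ← hid]
    have hjm : algebraMap Hol Mer jHol = jMer := rfl
    rw [hjm]
    have hprod : (∏ x, (-(algebraMap Hol Mer (A x) / algebraMap Hol Mer (B x)))) *
        (∏ x, algebraMap Hol Mer (B x)) = ∏ x, algebraMap Hol Mer (-(A x)) := by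
      rw [← Finset.prod_mul_distrib]
      apply Finset.prod_congr rfl
      intro x _
      rw [map_neg, neg_mul, div_mul_cancel₀ _ (hBM x)]
    rw [← hprod]
    ring
  -- constants
  choose C M hCM using hunit
  set Cr : ℝ := ∑ i ∈ Finset.range (r.natDegree + 1), ‖r.coeff i‖ with hCr
  set P : ℝ := ∏ x, max (C x) 0 with hP
  have hP0 : 0 ≤ P := Finset.prod_nonneg fun x _ => le_max_right _ _
  obtain ⟨A₀, hA₀⟩ := jFun_growth
  -- all `A x` are nonzero
  have hA : ∀ x, A x ≠ 0 := by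
    intro x hx
    obtain ⟨τ, hτ, hne⟩ := exists_ne_zero_of_im_ge (hB x) (M x)
    have := hCM x τ hτ
    rw [hx] at this
    have h0 : ((0 : Hol) : ℍ → ℂ) τ = 0 := rfl
    rw [h0, norm_zero, mul_zero] at this
    exact hne (norm_le_zero_iff.mp this)
  have hAprod : (∏ x, A x) ≠ 0 := Finset.prod_ne_zero_iff.mpr fun x _ => hA x
  -- choose a high point where no `A x` vanishes
  have hCr0 : 0 ≤ Cr := Finset.sum_nonneg fun i _ => norm_nonneg _
  set M₀ : ℝ := max (max A₀ (∑ x, |M x|)) (2 * (Cr * P + 1)) with hM₀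
  obtain ⟨τ, hτ, hne⟩ := exists_ne_zero_of_im_ge hAprod M₀
  rw [coe_prod_Hol] at hne
  have hτA₀ : A₀ ≤ τ.im := le_trans (le_trans (le_max_left _ _) (le_max_left _ _)) hτ
  have hτM : ∀ x, M x ≤ τ.im := by
    intro x
    have h1 : |M x| ≤ ∑ y, |M y| :=
      Finset.single_le_sum (f := fun y => |M y|) (fun y _ => abs_nonneg _) (Finset.mem_univ x)
    exact le_trans (le_trans (le_abs_self _) h1)
      (le_trans (le_trans (le_max_right _ _) (le_max_left _ _)) hτ)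
  have hτL : 2 * (Cr * P + 1) ≤ τ.im := le_trans (le_max_right _ _) hτ
  -- `j` is large at `τ`
  have hjbig : Cr * P + 1 ≤ ‖jFun τ‖ := by
    have h1 := (hA₀ τ hτA₀).1
    have h2 : 2 * Real.pi * τ.im + 1 ≤ Real.exp (2 * Real.pi * τ.im) := Real.add_one_le_exp _
    have h3 : (3 : ℝ) < Real.pi := Real.pi_gt_three
    have h4 : 0 < τ.im := τ.im_pos
    nlinarith
  have hj1 : 1 ≤ ‖jFun τ‖ := by nlinarith [mul_nonneg hCr0 hP0]
  have hjpos : 0 < ‖jFun τ‖ := lt_of_lt_of_le one_pos hj1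
  -- pointwise identity
  have hpt := congrArg (fun h : Hol => (h : ℍ → ℂ) τ) hHol
  have hpt' : (∏ x, (-(A x : ℍ → ℂ) τ)) * jFun τ ^ (r.natDegree + 1) =
      (ceNum r : ℍ → ℂ) τ * ∏ x, (B x : ℍ → ℂ) τ := by
    have e1 : (((∏ x, (-(A x))) * jHol ^ (r.natDegree + 1) : Hol) : ℍ → ℂ) τ =
        ((∏ x, (-(A x)) : Hol) : ℍ → ℂ) τ * jFun τ ^ (r.natDegree + 1) := rfl
    have e2 : ((ceNum r * ∏ x, B x : Hol) : ℍ → ℂ) τ =
        (ceNum r : ℍ → ℂ) τ * ((∏ x, B x : Hol) : ℍ → ℂ) τ := rfl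
    rw [e1, e2, coe_prod_Hol, coe_prod_Hol] at hpt
    exact hpt
  have hnorm := congrArg norm hpt'
  rw [norm_mul, norm_mul, norm_pow, norm_prod, norm_prod] at hnorm
  simp only [norm_neg] at hnorm
  set Pa : ℝ := ∏ x, ‖(A x : ℍ → ℂ) τ‖ with hPa
  have hPapos : 0 < Pa := by
    apply Finset.prod_pos
    intro x _
    rw [norm_pos_iff]
    exact (Finset.prod_ne_zero_iff.mp hne) x (Finset.mem_univ x)
  have hBle : ∏ x, ‖(B x : ℍ → ℂ) τ‖ ≤ P * Pa := by
    rw [hP, hPa, ← Finset.prod_mul_distrib]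
    apply Finset.prod_le_prod
    · intro x _
      exact norm_nonneg _
    · intro x _
      calc ‖(B x : ℍ → ℂ) τ‖ ≤ C x * ‖(A x : ℍ → ℂ) τ‖ := hCM x τ (hτM x)
        _ ≤ max (C x) 0 * ‖(A x : ℍ → ℂ) τ‖ :=
          mul_le_mul_of_nonneg_right (le_max_left _ _) (norm_nonneg _)
  have hcn := ceNum_bound r τ hj1
  have hkey : Pa * ‖jFun τ‖ ^ (r.natDegree + 1) ≤ (Cr * ‖jFun τ‖ ^ r.natDegree) * (P * Pa) := by
    rw [hnorm]
    exact mul_le_mul hcn hBle (Finset.prod_nonneg fun x _ => norm_nonneg _)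
      (mul_nonneg hCr0 (pow_nonneg (norm_nonneg _) _))
  have hpowpos : 0 < ‖jFun τ‖ ^ r.natDegree := pow_pos hjpos _
  have hfinal : ‖jFun τ‖ ≤ Cr * P := by
    have h1 : (Pa * ‖jFun τ‖ ^ r.natDegree) * ‖jFun τ‖ ≤ (Pa * ‖jFun τ‖ ^ r.natDegree) * (Cr * P) := by
      calc (Pa * ‖jFun τ‖ ^ r.natDegree) * ‖jFun τ‖ = Pa * ‖jFun τ‖ ^ (r.natDegree + 1) := by
            rw [pow_succ]; ring
        _ ≤ (Cr * ‖jFun τ‖ ^ r.natDegree) * (P * Pa) := hkey
        _ = (Pa * ‖jFun τ‖ ^ r.natDegree) * (Cr * P) := by ring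
    exact le_of_mul_le_mul_left h1 (mul_pos hPapos hpowpos)
  linarith

end Fermat.Agent.S24x
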