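/-
S24 (C3, cusp case): from the norm factorisation to `covering_cusp`.
-/
import Fermat.Agent.S24x.CuspEndgame
import Fermat.Agent.S24x.CgCusp
import Fermat.Agent.S24x.CoveringRing
import Fermat.Agent.S24x.LocalDiff

set_option autoImplicit false

namespace Fermat.Agent.S24x

open UpperHalfPlane Polynomial AlgebraicCurve CongruenceSubgroup
open scoped MatrixGroups Manifold

variable (N : ℕ) [NeZero N]

/-- translation of a quotient of holomorphic functions. -/
theorem smul_inv_div_algebraMap (g : SL(2, ℤ)) (a b : Hol) :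
    g⁻¹ • (algebraMap Hol Mer a / algebraMap Hol Mer b) =
      algebraMap Hol Mer (holComp a g) / algebraMap Hol Mer (holComp b g) := by
  unfold holComp
  rw [div_eq_mul_inv, smul_mul', smul_inv'', smul_algebraMap_Mer, smul_algebraMap_Mer,
    div_eq_mul_inv]

/-- **Covering at the cusps, from the norm factorisation.**  Let `v` be a pole of `jBar`.
Assume that for every nonzero `s` in the integral closure `R'` of `Q̄[1/j]` lying in the centre of
`v`, the "norm" `∏ₓ (-(gₓ⁻¹ • evF s))` over a finite family `g : I → SL(2,ℤ)` is of the form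
`j⁻¹ · r(j⁻¹)`.  Then `v` is one of the cusp places `cg_vCusp N (g x)`. -/
theorem covering_cusp_of_factor (ht : IsCoordinate Qbar (FBar N) (jBar N))
    {I : Type*} [Fintype I] (g : I → SL(2, ℤ))
    (v : Place Qbar (FBar N)) (hv : v ∈ polePlaces Qbar (FBar N) (jBar N))
    (hfac : ∀ s : FBar N, s ≠ 0 → IsIntegral (ringA Qbar (jBar N)⁻¹) s → 0 < v.ord s →
      ∃ r : ℂ[X], ∏ x, (-((g x)⁻¹ • evF N s)) = jMer⁻¹ * aeval jMer⁻¹ r) :
    ∃ x, v = cg_vCusp N (g x) := by
  classical
  haveI := cr_ffData_inv ht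
  refine cov_place_eq_of_forall (ringB Qbar (jBar N)⁻¹) v
    (cr_inv_mem_place_of_polePlaces (jBar N) hv) (fun x => cg_vCusp N (g x))
    (fun x => cr_inv_mem_place_of_polePlaces (jBar N) (cg_vCusp_mem_polePlaces N (g x))) ?_
  intro r hr
  by_contra hcon
  push Not at hcon
  set f : FBar N := algebraMap (ringB Qbar (jBar N)⁻¹) (FBar N) r with hf
  have hf0 : f ≠ 0 := by
    intro h0
    rw [h0, v.ord_zero] at hr
    exact lt_irrefl _ hr
  have hfint : IsIntegral (ringA Qbar (jBar N)⁻¹) f := r.2
  obtain ⟨rr, hrr⟩ := hfac f hf0 hfint hr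
  -- a representation `evF f = a / b`
  obtain ⟨a, b, hb, hab⟩ := IsFractionRing.div_surjective (A := Hol) (evF N f)
  have hb0 : b ≠ 0 := nonZeroDivisors.ne_zero hb
  have hbM : algebraMap Hol Mer b ≠ 0 := by
    rw [Ne, map_eq_zero_iff _ (IsFractionRing.injective Hol Mer)]
    exact hb0
  have hevf : evF N f ≠ 0 := (map_ne_zero (evF N)).mpr hf0
  have ha0 : a ≠ 0 := by
    rintro rfl
    apply hevf
    rw [← hab, map_zero, zero_div]
  have haM : algebraMap Hol Mer a ≠ 0 := by
    rw [Ne, map_eq_zero_iff _ (IsFractionRing.injective Hol Mer)]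
    exact ha0
  apply cusp_endgame (fun x => holComp a (g x)) (fun x => holComp b (g x))
    (fun x => holComp_ne_zero hb0 (g x)) rr
  · rw [← hrr]
    apply Finset.prod_congr rfl
    intro x _
    rw [← hab, smul_inv_div_algebraMap]
  · intro x
    -- `f` is a unit at the cusp place `cg_vCusp N (g x)`
    have hmem : f ∈ (cg_vCusp N (g x)).toValuationSubring :=
      cr_inv_mem_place_of_polePlaces (jBar N) (cg_vCusp_mem_polePlaces N (g x)) r
    have h0 : (cg_vCusp N (g x)).ord f = 0 := by
      have h1 := ord_nonneg_of_mem _ hmem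
      have h2 := hcon x
      omega
    have hinv : f⁻¹ ∈ (cg_vCusp N (g x)).toValuationSubring := by
      rw [← ord_nonneg_iff _ (inv_ne_zero hf0), Place.ord_inv, h0]
      simp
    have hrep : evF N f⁻¹ * algebraMap Hol Mer a = algebraMap Hol Mer b := by
      rw [map_inv₀, ← hab]
      field_simp
    obtain ⟨C, M, hCM⟩ := (cg_mem_vCusp_iff N (g x) f⁻¹ b a ha0 hrep).mp hinv
    refine ⟨C, M, fun τ hτ => ?_⟩
    rw [holComp_apply, holComp_apply]
    exact hCM τ hτ

end Fermat.Agent.S24x
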