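/-
S24 helper library (C2a, last item): an element of `Mer` with nonnegative order everywhere is
holomorphic.
-/
import Fermat.Agent.S24x.PointPlaces

set_option autoImplicit false

namespace Fermat.Agent.S24x

open UpperHalfPlane Filter Topology
open scoped MatrixGroups Manifold

/-- analytic division: if `ord_x A ≥ ord_x B` at every point of the open set `U`, then `A / B`
extends to an analytic function on `U`. -/
theorem exists_analyticOnNhd_mul_eq {U : Set ℂ} {A B : ℂ → ℂ}
    (hA : AnalyticOnNhd ℂ A U) (hB : AnalyticOnNhd ℂ B U)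
    (hBtop : ∀ x ∈ U, analyticOrderAt B x ≠ ⊤)
    (hord : ∀ x ∈ U, analyticOrderAt B x ≤ analyticOrderAt A x) :
    ∃ H : ℂ → ℂ, AnalyticOnNhd ℂ H U ∧ ∀ x ∈ U, H x * B x = A x := by
  have hf : MeromorphicOn (A / B) U := fun x hx =>
    (hA x hx).meromorphicAt.div (hB x hx).meromorphicAt
  refine ⟨toMeromorphicNFOn (A / B) U, ?_, ?_⟩
  · intro x hx
    have hNF : MeromorphicNFAt (toMeromorphicNFOn (A / B) U) x :=
      meromorphicNFOn_toMeromorphicNFOn (A / B) U hx
    rw [← hNF.meromorphicOrderAt_nonneg_iff_analyticAt, meromorphicOrderAt_toMeromorphicNFOn hf hx,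
      meromorphicOrderAt_div (hA x hx).meromorphicAt (hB x hx).meromorphicAt,
      (hA x hx).meromorphicOrderAt_eq, (hB x hx).meromorphicOrderAt_eq]
    obtain ⟨m, hm⟩ := ENat.ne_top_iff_exists.mp (hBtop x hx)
    have hle := hord x hx
    rw [← hm] at hle ⊢
    rw [ENat.map_coe]
    cases hn : analyticOrderAt A x with
    | top => simp
    | coe n =>
      rw [hn] at hle
      rw [ENat.map_coe]
      have hmn : m ≤ n := by exact_mod_cast hle
      have : ((n : ℤ) : WithTop ℤ) - ((m : ℤ) : WithTop ℤ) = (((n : ℤ) - (m : ℤ) : ℤ) : WithTop ℤ) := by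
        rfl
      rw [this]
      have h0 : (0 : ℤ) ≤ (n : ℤ) - (m : ℤ) := by omega
      exact_mod_cast h0
  · intro x hx
    -- the analytic function `H * B - A` vanishes on a punctured neighbourhood of `x`
    have hHan : AnalyticAt ℂ (toMeromorphicNFOn (A / B) U) x := by
      have hNF : MeromorphicNFAt (toMeromorphicNFOn (A / B) U) x :=
        meromorphicNFOn_toMeromorphicNFOn (A / B) U hx
      rw [← hNF.meromorphicOrderAt_nonneg_iff_analyticAt,
        meromorphicOrderAt_toMeromorphicNFOn hf hx,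
        meromorphicOrderAt_div (hA x hx).meromorphicAt (hB x hx).meromorphicAt,
        (hA x hx).meromorphicOrderAt_eq, (hB x hx).meromorphicOrderAt_eq]
      obtain ⟨m, hm⟩ := ENat.ne_top_iff_exists.mp (hBtop x hx)
      have hle := hord x hx
      rw [← hm] at hle ⊢
      rw [ENat.map_coe]
      cases hn : analyticOrderAt A x with
      | top => simp
      | coe n =>
        rw [hn] at hle
        rw [ENat.map_coe]
        have hmn : m ≤ n := by exact_mod_cast hle
        have : ((n : ℤ) : WithTop ℤ) - ((m : ℤ) : WithTop ℤ) =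
            (((n : ℤ) - (m : ℤ) : ℤ) : WithTop ℤ) := by
          rfl
        rw [this]
        have h0 : (0 : ℤ) ≤ (n : ℤ) - (m : ℤ) := by omega
        exact_mod_cast h0
    have hG : AnalyticAt ℂ (fun z => toMeromorphicNFOn (A / B) U z * B z - A z) x :=
      (hHan.mul (hB x hx)).sub (hA x hx)
    have hBne : ∀ᶠ z in 𝓝[≠] x, B z ≠ 0 := by
      rcases (hB x hx).eventually_eq_zero_or_eventually_ne_zero with h | h
      · exact absurd (analyticOrderAt_eq_top.mpr h) (hBtop x hx)
      · exact h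
    have hev : ∀ᶠ z in 𝓝[≠] x, toMeromorphicNFOn (A / B) U z * B z - A z = 0 := by
      filter_upwards [hf.toMeromorphicNFOn_eq_self_on_nhdsNE hx, hBne] with z hz hBz
      rw [hz, Pi.div_apply, div_mul_cancel₀ _ hBz, sub_self]
    have hfreq : ∃ᶠ z in 𝓝[≠] x, toMeromorphicNFOn (A / B) U z * B z - A z = 0 :=
      hev.frequently
    have := (hG.frequently_zero_iff_eventually_zero.mp hfreq).self_of_nhds
    exact sub_eq_zero.mp this

/-- if `x ∈ Mer` has nonnegative order everywhere, it is holomorphic -/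
theorem exists_hol_of_ordAt_nonneg (x : Mer) (hx : ∀ τ, 0 ≤ ordAt τ x) :
    ∃ h : Hol, x = algebraMap Hol Mer h := by
  by_cases hx0 : x = 0
  · exact ⟨0, by rw [hx0, map_zero]⟩
  obtain ⟨a, b, hb, rfl⟩ := (holFracOrderFn UpperHalfPlane.I).frac x
  have ha : a ≠ 0 := by
    rintro rfl
    apply hx0
    simp
  have hord : ∀ z ∈ {z : ℂ | 0 < z.im}, analyticOrderAt ((b : ℍ → ℂ) ∘ ofComplex) z ≤
      analyticOrderAt ((a : ℍ → ℂ) ∘ ofComplex) z := by
    intro z hz
    have h1 := hx ⟨z, hz⟩
    rw [ordAt_div _ ha hb] at h1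
    unfold holOrdZ at h1
    have h2 : (holOrder b ⟨z, hz⟩).toNat ≤ (holOrder a ⟨z, hz⟩).toNat := by omega
    have h3 : holOrder b ⟨z, hz⟩ ≤ holOrder a ⟨z, hz⟩ := by
      rw [holOrder_eq_coe_toNat ha, holOrder_eq_coe_toNat hb]
      exact_mod_cast h2
    exact h3
  have hBtop : ∀ z ∈ {z : ℂ | 0 < z.im}, analyticOrderAt ((b : ℍ → ℂ) ∘ ofComplex) z ≠ ⊤ := by
    intro z hz
    exact holOrder_ne_top hb ⟨z, hz⟩
  obtain ⟨H, hHan, hHB⟩ := exists_analyticOnNhd_mul_eq (Hol.analyticOnNhd a) (Hol.analyticOnNhd b)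
    hBtop hord
  have hmd : MDiff (fun τ : ℍ => H (τ : ℂ)) := by
    rw [UpperHalfPlane.mdifferentiable_iff]
    refine hHan.differentiableOn.congr ?_
    intro z hz
    simp only [Function.comp_apply]
    rw [ofComplex_apply_of_im_pos hz]
  refine ⟨⟨fun τ : ℍ => H (τ : ℂ), hmd⟩, ?_⟩
  have hbM : algebraMap Hol Mer b ≠ 0 := (holFracOrderFn UpperHalfPlane.I).coe_ne_zero hb
  rw [div_eq_iff hbM, ← map_mul]
  congr 1
  apply Subtype.ext
  funext τ
  have := hHB (τ : ℂ) τ.im_pos
  simp only [Function.comp_apply, ofComplex_apply] at this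
  exact this.symm

end Fermat.Agent.S24x
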