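import Fermat.Agent.S24x.PointPlaces
import Fermat.Agent.S24x.OrdAtHol
import Fermat.Agent.S24x.JFunSpecial
import Fermat.Agent.S24x.LevelOneInvariant

/-!
# S24 project, module C3 (part 3): invariant integral elements are polynomials in `j`

* `cov_ordVal τ` : the valuation on `Mer` attached to `ordAt τ`.
* `cov_inv_finite` : an `SL(2,ℤ)`-invariant element of `Mer` which is integral over `ℂ[j]` is a
  polynomial in `j`.
* `cov_inv_cusp` : an `SL(2,ℤ)`-invariant element of `Mer` which is integral over `ℂ[j⁻¹]` is a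
  polynomial in `j⁻¹`.
-/

set_option autoImplicit false

namespace Fermat.Agent.S24x

open UpperHalfPlane Polynomial WithZero
open scoped MatrixGroups Manifold

noncomputable section

attribute [local instance] Classical.propDecidable

/-! ## The valuation attached to `ordAt` -/

theorem cov_ordAt_one (τ : ℍ) : ordAt τ (1 : Mer) = 0 := by
  have := ordAt_const τ 1
  rwa [map_one] at this

/-- the valuation `exp (- ordAt τ)` on `Mer` -/
def cov_ordVal (τ : ℍ) : Valuation Mer ℤᵐ⁰ where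
  toFun x := if x = 0 then 0 else exp (-(ordAt τ x))
  map_zero' := by simp
  map_one' := by simp [cov_ordAt_one]
  map_mul' x y := by
    by_cases hx : x = 0
    · simp [hx]
    by_cases hy : y = 0
    · simp [hy]
    simp only [hx, hy, mul_eq_zero, or_self, if_false]
    rw [ordAt_mul τ hx hy, neg_add, exp_add]
  map_add_le_max' x y := by
    by_cases hx : x = 0
    · simp [hx]
    by_cases hy : y = 0
    · simp [hy]
    by_cases hxy : x + y = 0
    · simp [hxy]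
    simp only [hx, hy, hxy, if_false]
    have h := ordAt_add τ hx hy hxy
    rcases min_le_iff.1 h with h1 | h1
    · exact le_max_of_le_left (exp_le_exp.2 (by omega))
    · exact le_max_of_le_right (exp_le_exp.2 (by omega))

theorem cov_ordVal_apply (τ : ℍ) {x : Mer} (hx : x ≠ 0) :
    cov_ordVal τ x = exp (-(ordAt τ x)) := by
  show (if x = 0 then 0 else exp (-(ordAt τ x))) = _
  rw [if_neg hx]

theorem cov_ordVal_le_one_iff (τ : ℍ) {x : Mer} (hx : x ≠ 0) :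
    cov_ordVal τ x ≤ 1 ↔ 0 ≤ ordAt τ x := by
  rw [cov_ordVal_apply τ hx, ← exp_zero, exp_le_exp]
  omega

theorem cov_ordVal_lt_one_iff (τ : ℍ) {x : Mer} (hx : x ≠ 0) :
    cov_ordVal τ x < 1 ↔ 0 < ordAt τ x := by
  rw [cov_ordVal_apply τ hx, ← exp_zero, exp_lt_exp]
  omega

theorem cov_ordVal_le_one_of_nonneg (τ : ℍ) {x : Mer} (hx : 0 ≤ ordAt τ x) :
    cov_ordVal τ x ≤ 1 := by
  rcases eq_or_ne x 0 with rfl | h0
  · simp
  · exact (cov_ordVal_le_one_iff τ h0).2 hx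

theorem cov_ordVal_hol (τ : ℍ) (h : Hol) : cov_ordVal τ (algebraMap Hol Mer h) ≤ 1 :=
  cov_ordVal_le_one_of_nonneg τ (ordAt_algebraMap_nonneg τ h)

theorem cov_ordVal_const (τ : ℍ) (c : ℂ) : cov_ordVal τ (algebraMap ℂ Mer c) ≤ 1 :=
  cov_ordVal_le_one_of_nonneg τ (ordAt_const τ c).ge

theorem cov_ordVal_smul (τ : ℍ) (γ : SL(2, ℤ)) (x : Mer) :
    cov_ordVal τ (γ • x) = cov_ordVal (γ⁻¹ • τ) x := by
  rcases eq_or_ne x 0 with rfl | h0
  · simp
  have h1 : γ • x ≠ 0 := by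
    intro h
    apply h0
    have := congrArg (fun y => γ⁻¹ • y) h
    simpa using this
  rw [cov_ordVal_apply τ h1, cov_ordVal_apply _ h0, ordAt_smul]

theorem cov_ordAt_nonneg_of_le_one (τ : ℍ) {x : Mer} (hx : cov_ordVal τ x ≤ 1) :
    0 ≤ ordAt τ x := by
  rcases eq_or_ne x 0 with rfl | h0
  · rw [ordAt_zero]
  · exact (cov_ordVal_le_one_iff τ h0).1 hx

/-! ## Integral elements have valuation `≤ 1` -/

theorem cov_val_le_one_of_isIntegralElem {A H Γ₀ : Type*} [CommRing A] [CommRing H]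
    [LinearOrderedCommGroupWithZero Γ₀] (w : Valuation H Γ₀) (f : A →+* H)
    (hf : ∀ a, w (f a) ≤ 1) {x : H} (hx : f.IsIntegralElem x) : w x ≤ 1 := by
  obtain ⟨p, hpm, hp⟩ := hx
  let f' : A →+* w.integer := f.codRestrict w.integer (fun a => hf a)
  have hI : IsIntegral w.integer x := by
    refine ⟨p.map f', hpm.map _, ?_⟩
    rw [Polynomial.eval₂_map]
    exact hp
  exact (Valuation.integer.integers w).mem_of_integral hI

/-! ## Pointwise evaluation -/

/-- evaluation at a point of `ℍ` as a ring homomorphism `Hol →+* ℂ` -/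
def cov_evalAt (z : ℍ) : Hol →+* ℂ := (Pi.evalRingHom (fun _ : ℍ => ℂ) z).comp Hol.subtype

theorem cov_evalAt_apply (z : ℍ) (h : Hol) : cov_evalAt z h = (h : ℍ → ℂ) z := rfl

theorem cov_evalAt_comp_aeval (z : ℍ) :
    (cov_evalAt z).comp ((aeval jHol : ℂ[X] →ₐ[ℂ] Hol) : ℂ[X] →+* Hol) =
      Polynomial.evalRingHom (jFun z) := by
  apply Polynomial.ringHom_ext
  · intro a
    simp only [RingHom.coe_comp, RingHom.coe_coe, Function.comp_apply, aeval_C,
      Polynomial.coe_evalRingHom, eval_C, cov_evalAt_apply]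
    rfl
  · simp only [RingHom.coe_comp, RingHom.coe_coe, Function.comp_apply, aeval_X,
      Polynomial.coe_evalRingHom, eval_X, cov_evalAt_apply]
    rfl

theorem cov_aeval_jHol_apply (p : ℂ[X]) (z : ℍ) :
    ((aeval jHol p : Hol) : ℍ → ℂ) z = p.eval (jFun z) := by
  have := congrArg (fun f : ℂ[X] →+* ℂ => f p) (cov_evalAt_comp_aeval z)
  simpa [cov_evalAt_apply] using this

theorem cov_aeval_jMer (p : ℂ[X]) : aeval jMer p = algebraMap Hol Mer (aeval jHol p) := by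
  rw [jMer, Polynomial.aeval_algebraMap_apply]

theorem cov_aeval_jMer_ringHom :
    ((aeval jMer : ℂ[X] →ₐ[ℂ] Mer) : ℂ[X] →+* Mer) =
      (algebraMap Hol Mer).comp ((aeval jHol : ℂ[X] →ₐ[ℂ] Hol) : ℂ[X] →+* Hol) := by
  apply Polynomial.ringHom_ext
  · intro a
    simp only [RingHom.coe_comp, RingHom.coe_coe, Function.comp_apply, aeval_C]
    rw [← IsScalarTower.algebraMap_apply]
  · simp only [RingHom.coe_comp, RingHom.coe_coe, Function.comp_apply, aeval_X]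
    rfl

/-! ## Growth of roots of monic polynomials over `ℂ[j]` -/

theorem cov_poly_bound (p : ℂ[X]) :
    ∃ C : ℝ, 0 ≤ C ∧ ∀ x : ℂ, ‖p.eval x‖ ≤ C * (1 + ‖x‖) ^ p.natDegree := by
  refine ⟨∑ k ∈ Finset.range (p.natDegree + 1), ‖p.coeff k‖,
    Finset.sum_nonneg (fun _ _ => norm_nonneg _), fun x => ?_⟩
  rw [Polynomial.eval_eq_sum_range, Finset.sum_mul]
  refine (norm_sum_le _ _).trans (Finset.sum_le_sum fun k hk => ?_)
  rw [norm_mul, norm_pow]
  have hk' : k ≤ p.natDegree := Nat.lt_succ_iff.1 (Finset.mem_range.1 hk)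
  have hx0 := norm_nonneg x
  have h1 : ‖x‖ ^ k ≤ (1 + ‖x‖) ^ p.natDegree :=
    (pow_le_pow_left₀ hx0 (by linarith) k).trans (pow_le_pow_right₀ (by linarith) hk')
  exact mul_le_mul_of_nonneg_left h1 (norm_nonneg _)

theorem cov_poly_bound_family (P : ℂ[X][X]) (n : ℕ) :
    ∃ (C : ℝ) (D : ℕ), 0 ≤ C ∧ ∀ i < n, ∀ x : ℂ,
      ‖(P.coeff i).eval x‖ ≤ C * (1 + ‖x‖) ^ D := by
  induction n with
  | zero => exact ⟨0, 0, le_rfl, fun i hi => absurd hi (Nat.not_lt_zero i)⟩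
  | succ n ih =>
    obtain ⟨C, D, hC, h⟩ := ih
    obtain ⟨C', hC', h'⟩ := cov_poly_bound (P.coeff n)
    refine ⟨C + C', D + (P.coeff n).natDegree, by linarith, fun i hi x => ?_⟩
    have hx1 : (1 : ℝ) ≤ 1 + ‖x‖ := by linarith [norm_nonneg x]
    have hpow1 : (1 + ‖x‖) ^ D ≤ (1 + ‖x‖) ^ (D + (P.coeff n).natDegree) :=
      pow_le_pow_right₀ hx1 (Nat.le_add_right _ _)
    have hpow2 : (1 + ‖x‖) ^ (P.coeff n).natDegree ≤ (1 + ‖x‖) ^ (D + (P.coeff n).natDegree) :=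
      pow_le_pow_right₀ hx1 (Nat.le_add_left _ _)
    have hpos : (0 : ℝ) ≤ (1 + ‖x‖) ^ (D + (P.coeff n).natDegree) := by positivity
    rcases Nat.lt_succ_iff_lt_or_eq.1 hi with hlt | rfl
    · calc ‖(P.coeff i).eval x‖ ≤ C * (1 + ‖x‖) ^ D := h i hlt x
        _ ≤ C * (1 + ‖x‖) ^ (D + (P.coeff n).natDegree) := mul_le_mul_of_nonneg_left hpow1 hC
        _ ≤ (C + C') * (1 + ‖x‖) ^ (D + (P.coeff n).natDegree) :=
            mul_le_mul_of_nonneg_right (by linarith) hpos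
    · calc ‖(P.coeff i).eval x‖ ≤ C' * (1 + ‖x‖) ^ (P.coeff i).natDegree := h' x
        _ ≤ C' * (1 + ‖x‖) ^ (D + (P.coeff i).natDegree) := mul_le_mul_of_nonneg_left hpow2 hC'
        _ ≤ (C + C') * (1 + ‖x‖) ^ (D + (P.coeff i).natDegree) :=
            mul_le_mul_of_nonneg_right (by linarith) hpos

/-- A function on `ℍ` which is pointwise a root of a monic polynomial with coefficients in
`ℂ[j]` has at most exponential growth at `i∞`. -/
theorem cov_growth_of_integral (G : ℍ → ℂ) (P : ℂ[X][X]) (hP : P.Monic)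
    (hroot : ∀ z : ℍ, (P.map (Polynomial.evalRingHom (jFun z))).eval (G z) = 0) :
    ∃ D : ℕ, IsBoundedAtImInfty
      (fun z : ℍ => Function.Periodic.qParam 1 (z : ℂ) ^ D * G z) := by
  obtain ⟨C, D, hC, hb⟩ := cov_poly_bound_family P P.natDegree
  obtain ⟨A, hA⟩ := jFun_growth
  refine ⟨D, ?_⟩
  rw [UpperHalfPlane.isBoundedAtImInfty_iff]
  refine ⟨C * 3 ^ D + 1, A, fun z hz => ?_⟩
  set q : ℂ[X] := P.map (Polynomial.evalRingHom (jFun z)) with hq
  have hqm : q.Monic := hP.map _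
  have hqd : q.natDegree = P.natDegree := hP.natDegree_map _
  set E : ℝ := Real.exp (2 * Real.pi * z.im) with hE
  have hE1 : 1 ≤ E := by
    rw [hE]
    apply Real.one_le_exp
    have := z.im_pos
    positivity
  have hE0 : 0 < E := by linarith
  have hj : 1 + ‖jFun z‖ ≤ 3 * E := by
    have := (hA z hz).2
    linarith
  have hcb : ∀ i < P.natDegree, ‖q.coeff i‖ ≤ C * 3 ^ D * E ^ D := by
    intro i hi
    rw [hq, Polynomial.coeff_map, Polynomial.coe_evalRingHom]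
    calc ‖(P.coeff i).eval (jFun z)‖ ≤ C * (1 + ‖jFun z‖) ^ D := hb i hi _
      _ ≤ C * (3 * E) ^ D := by
          apply mul_le_mul_of_nonneg_left _ hC
          exact pow_le_pow_left₀ (by linarith [norm_nonneg (jFun z)]) hj D
      _ = C * 3 ^ D * E ^ D := by rw [mul_pow]; ring
  have hB0 : 0 ≤ C * 3 ^ D * E ^ D := by positivity
  have hG : ‖G z‖ ≤ C * 3 ^ D * E ^ D + 1 := by
    have h1 := Polynomial.IsRoot.norm_lt_cauchyBound hqm.ne_zero (a := G z) (hroot z)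
    have h2 : Polynomial.cauchyBound q ≤ Real.toNNReal (C * 3 ^ D * E ^ D) + 1 := by
      unfold Polynomial.cauchyBound
      rw [hqm.leadingCoeff, nnnorm_one, div_one, hqd]
      apply add_le_add_left
      apply Finset.sup_le
      intro i hi
      rw [← NNReal.coe_le_coe, Real.coe_toNNReal _ hB0, coe_nnnorm]
      exact hcb i (Finset.mem_range.1 hi)
    have h3 := lt_of_lt_of_le h1 h2
    have h4 : ((‖G z‖₊ : NNReal) : ℝ) < ((Real.toNNReal (C * 3 ^ D * E ^ D) + 1 : NNReal) : ℝ) :=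
      NNReal.coe_lt_coe.2 h3
    rw [NNReal.coe_add, Real.coe_toNNReal _ hB0, coe_nnnorm, NNReal.coe_one] at h4
    exact h4.le
  have hqn : ‖Function.Periodic.qParam 1 (z : ℂ)‖ = E⁻¹ := by
    rw [Function.Periodic.norm_qParam, hE, ← Real.exp_neg]
    congr 1
    simp only [UpperHalfPlane.coe_im]
    ring
  rw [norm_mul, norm_pow, hqn, inv_pow]
  have hED : 0 < E ^ D := pow_pos hE0 D
  have hED1 : 1 ≤ E ^ D := one_le_pow₀ hE1
  calc (E ^ D)⁻¹ * ‖G z‖ ≤ (E ^ D)⁻¹ * (C * 3 ^ D * E ^ D + 1) :=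
        mul_le_mul_of_nonneg_left hG (inv_nonneg.2 hED.le)
    _ = C * 3 ^ D + (E ^ D)⁻¹ := by field_simp
    _ ≤ C * 3 ^ D + 1 := by
        have : (E ^ D)⁻¹ ≤ 1 := inv_le_one_of_one_le₀ hED1
        linarith

/-! ## Invariant integral elements -/

/-- **Invariant elements integral over `ℂ[j]` are polynomials in `j`.** -/
theorem cov_inv_finite (E : Mer) (hinv : ∀ γ : SL(2, ℤ), γ • E = E)
    (hint : ((aeval jMer : ℂ[X] →ₐ[ℂ] Mer) : ℂ[X] →+* Mer).IsIntegralElem E) :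
    ∃ p : ℂ[X], E = aeval jMer p := by
  -- Step 1: `E` is holomorphic
  have hord : ∀ τ, 0 ≤ ordAt τ E := by
    intro τ
    apply cov_ordAt_nonneg_of_le_one
    refine cov_val_le_one_of_isIntegralElem (cov_ordVal τ) _ (fun a => ?_) hint
    rw [RingHom.coe_coe, cov_aeval_jMer]
    exact cov_ordVal_hol τ _
  obtain ⟨h, rfl⟩ := exists_hol_of_ordAt_nonneg E hord
  -- Step 2: invariance of `h`
  have hinj : Function.Injective (algebraMap Hol Mer) := IsFractionRing.injective Hol Mer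
  have hhinv : ∀ (γ : SL(2, ℤ)) (z : ℍ), (h : ℍ → ℂ) (γ • z) = (h : ℍ → ℂ) z := by
    intro γ z
    have h1 := hinv γ⁻¹
    rw [smul_algebraMap_Mer] at h1
    have h2 := hinj h1
    have h3 := congrArg (fun f : Hol => (f : ℍ → ℂ) z) h2
    simp only [smul_Hol_apply, inv_inv] at h3
    exact h3
  -- Step 3: the pointwise equation
  obtain ⟨P, hPm, hP⟩ := hint
  have hP' : Polynomial.eval₂ ((aeval jHol : ℂ[X] →ₐ[ℂ] Hol) : ℂ[X] →+* Hol) h P = 0 := by
    apply hinj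
    rw [map_zero, Polynomial.hom_eval₂, ← cov_aeval_jMer_ringHom]
    exact hP
  have hroot : ∀ z : ℍ,
      (P.map (Polynomial.evalRingHom (jFun z))).eval ((h : ℍ → ℂ) z) = 0 := by
    intro z
    have := congrArg (cov_evalAt z) hP'
    rw [map_zero, Polynomial.hom_eval₂, cov_evalAt_comp_aeval, cov_evalAt_apply] at this
    rw [Polynomial.eval_map]
    exact this
  obtain ⟨D, hbd⟩ := cov_growth_of_integral _ P hPm hroot
  obtain ⟨p, -, hp⟩ := exists_polynomial_jFun D _ h.2 hhinv hbd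
  refine ⟨p, ?_⟩
  rw [cov_aeval_jMer]
  congr 1
  apply Subtype.ext
  funext z
  rw [hp z, cov_aeval_jHol_apply]

/-! ## The cusp version: integrality over `ℂ[j⁻¹]` -/

theorem cov_jHol_smul (γ : SL(2, ℤ)) : γ • jHol = jHol := by
  apply Subtype.ext
  funext z
  rw [smul_Hol_apply]
  exact jFun_smul γ⁻¹ z

theorem cov_jMer_smul (γ : SL(2, ℤ)) : γ • jMer = jMer := by
  rw [jMer, smul_algebraMap_Mer, cov_jHol_smul]

theorem cov_aeval_jMer_injective : Function.Injective (aeval jMer : ℂ[X] →ₐ[ℂ] Mer) := by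
  rw [injective_iff_map_eq_zero]
  intro p hp
  rw [cov_aeval_jMer, map_eq_zero_iff _ (IsFractionRing.injective Hol Mer)] at hp
  apply Polynomial.funext
  intro c
  obtain ⟨z, rfl⟩ := jFun_surjective c
  rw [← cov_aeval_jHol_apply, hp, eval_zero]
  rfl

theorem cov_jMer_ne_zero : jMer ≠ 0 := by
  intro h
  have h1 : aeval jMer (X : ℂ[X]) = aeval jMer (0 : ℂ[X]) := by
    rw [aeval_X, map_zero, h]
  exact X_ne_zero (cov_aeval_jMer_injective h1)

theorem cov_aeval_jMer_inv_injective :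
    Function.Injective (aeval jMer⁻¹ : ℂ[X] →ₐ[ℂ] Mer) := by
  rw [← transcendental_iff_injective]
  intro halg
  rw [IsAlgebraic.inv_iff] at halg
  exact (transcendental_iff_injective.2 cov_aeval_jMer_injective) halg

/-- `p(j⁻¹) * j ^ m` is a polynomial in `j` when `deg p ≤ m`. -/
theorem cov_aeval_inv_mul_pow_mem (p : ℂ[X]) (m : ℕ) (hp : p.natDegree ≤ m) :
    aeval jMer⁻¹ p * jMer ^ m ∈
      Set.range ((aeval jMer : ℂ[X] →ₐ[ℂ] Mer) : ℂ[X] →+* Mer) := by
  have hj := cov_jMer_ne_zero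
  rw [aeval_eq_sum_range, Finset.sum_mul]
  change _ ∈ ((aeval jMer : ℂ[X] →ₐ[ℂ] Mer) : ℂ[X] →+* Mer).range
  apply Subring.sum_mem
  intro k hk
  have hk' : k ≤ m := (Nat.lt_succ_iff.1 (Finset.mem_range.1 hk)).trans hp
  refine ⟨monomial (m - k) (p.coeff k), ?_⟩
  rw [RingHom.coe_coe, aeval_monomial, Algebra.smul_def, mul_assoc]
  congr 1
  rw [inv_pow, ← pow_sub_mul_pow jMer hk']
  field_simp

/-- If `E` is integral over `ℂ[j⁻¹]`, then `j ^ M * E` is integral over `ℂ[j]` for some `M`. -/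
theorem cov_exists_pow_mul_integral (E : Mer)
    (hint : ((aeval jMer⁻¹ : ℂ[X] →ₐ[ℂ] Mer) : ℂ[X] →+* Mer).IsIntegralElem E) :
    ∃ M : ℕ, ((aeval jMer : ℂ[X] →ₐ[ℂ] Mer) : ℂ[X] →+* Mer).IsIntegralElem (jMer ^ M * E) := by
  obtain ⟨P, hPm, hP⟩ := hint
  set f : ℂ[X] →+* Mer := ((aeval jMer⁻¹ : ℂ[X] →ₐ[ℂ] Mer) : ℂ[X] →+* Mer) with hf
  set g : ℂ[X] →+* Mer := ((aeval jMer : ℂ[X] →ₐ[ℂ] Mer) : ℂ[X] →+* Mer) with hg
  set n := P.natDegree with hn
  set M : ℕ := (Finset.range n).sup (fun i => (P.coeff i).natDegree) with hM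
  refine ⟨M, ?_⟩
  set P₂ : Mer[X] := P.map f with hP₂
  have hP₂m : P₂.Monic := hPm.map f
  have hP₂d : P₂.natDegree = n := hPm.natDegree_map f
  have hP₂E : P₂.eval E = 0 := by rw [hP₂, eval_map]; exact hP
  set Ps : Mer[X] := scaleRoots P₂ (jMer ^ M) with hPs
  have hPsm : Ps.Monic := (monic_scaleRoots_iff _).2 hP₂m
  have hPsE : Ps.eval (jMer ^ M * E) = 0 := by
    rw [hPs, scaleRoots_eval_mul, hP₂E, mul_zero]
  have hlifts : Ps ∈ lifts g := by
    rw [lifts_iff_coeff_lifts]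
    intro i
    rw [hPs, coeff_scaleRoots, hP₂d]
    rcases lt_trichotomy i n with hi | hi | hi
    · rw [hP₂, coeff_map]
      have hdeg : (P.coeff i).natDegree ≤ M * (n - i) := by
        have h1 : (P.coeff i).natDegree ≤ M :=
          Finset.le_sup (f := fun i => (P.coeff i).natDegree) (Finset.mem_range.2 hi)
        have h2 : 1 ≤ n - i := by omega
        calc (P.coeff i).natDegree ≤ M * 1 := by rw [mul_one]; exact h1
          _ ≤ M * (n - i) := Nat.mul_le_mul_left M h2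
      have := cov_aeval_inv_mul_pow_mem (P.coeff i) (M * (n - i)) hdeg
      rw [pow_mul] at this
      exact this
    · rw [hi, ← hP₂d, coeff_natDegree, hP₂m.leadingCoeff, Nat.sub_self, pow_zero, mul_one]
      exact ⟨1, map_one g⟩
    · rw [coeff_eq_zero_of_natDegree_lt (by rw [hP₂d]; exact hi), zero_mul]
      exact ⟨0, map_zero g⟩
  obtain ⟨P', hP'map, -, hP'm⟩ := lifts_and_natDegree_eq_and_monic hlifts hPsm
  refine ⟨P', hP'm, ?_⟩
  rw [← eval_map, hP'map]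
  exact hPsE

/-- **Invariant elements integral over `ℂ[j⁻¹]` are polynomials in `j⁻¹`.** -/
theorem cov_inv_cusp (E : Mer) (hinv : ∀ γ : SL(2, ℤ), γ • E = E)
    (hint : ((aeval jMer⁻¹ : ℂ[X] →ₐ[ℂ] Mer) : ℂ[X] →+* Mer).IsIntegralElem E) :
    ∃ p : ℂ[X], E = aeval jMer⁻¹ p := by
  have hj := cov_jMer_ne_zero
  obtain ⟨M, hM⟩ := cov_exists_pow_mul_integral E hint
  have hinv' : ∀ γ : SL(2, ℤ), γ • (jMer ^ M * E) = jMer ^ M * E := by
    intro γ
    rw [smul_mul', smul_pow', cov_jMer_smul, hinv]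
  obtain ⟨p₀, hp₀⟩ := cov_inv_finite _ hinv' hM
  -- pass to `RatFunc ℂ`
  let ι : RatFunc ℂ →ₐ[ℂ] Mer :=
    IsFractionRing.liftAlgHom (A := ℂ[X]) (K := RatFunc ℂ) (g := (aeval jMer⁻¹ : ℂ[X] →ₐ[ℂ] Mer))
      cov_aeval_jMer_inv_injective
  have hι : ∀ q : ℂ[X], ι (algebraMap ℂ[X] (RatFunc ℂ) q) = aeval jMer⁻¹ q := fun q =>
    IsFractionRing.lift_algebraMap
      (g := ((aeval jMer⁻¹ : ℂ[X] →ₐ[ℂ] Mer) : ℂ[X] →+* Mer)) cov_aeval_jMer_inv_injective q
  have hιinj : Function.Injective ι := (ι : RatFunc ℂ →+* Mer).injective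
  have hιX : ι RatFunc.X = jMer⁻¹ := by
    rw [← RatFunc.algebraMap_X, hι, aeval_X]
  set ρ : RatFunc ℂ := RatFunc.X ^ M * aeval (RatFunc.X⁻¹ : RatFunc ℂ) p₀ with hρ
  have hιρ : ι ρ = E := by
    rw [hρ, map_mul, map_pow, hιX, ← aeval_algHom_apply, map_inv₀, hιX, inv_inv, ← hp₀,
      ← mul_assoc, inv_pow, inv_mul_cancel₀ (pow_ne_zero M hj), one_mul]
  have hρint : IsIntegral ℂ[X] ρ := by
    obtain ⟨P, hPm, hP⟩ := hint
    refine ⟨P, hPm, ?_⟩
    apply hιinj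
    have hcomp : ((ι : RatFunc ℂ →+* Mer)).comp (algebraMap ℂ[X] (RatFunc ℂ)) =
        ((aeval jMer⁻¹ : ℂ[X] →ₐ[ℂ] Mer) : ℂ[X] →+* Mer) := RingHom.ext (fun q => hι q)
    have h1 : ι (eval₂ (algebraMap ℂ[X] (RatFunc ℂ)) ρ P) =
        eval₂ ((ι : RatFunc ℂ →+* Mer).comp (algebraMap ℂ[X] (RatFunc ℂ))) (ι ρ) P :=
      Polynomial.hom_eval₂ P (algebraMap ℂ[X] (RatFunc ℂ)) (ι : RatFunc ℂ →+* Mer) ρ
    rw [map_zero, h1, hcomp, hιρ]
    exact hP
  obtain ⟨y, hy⟩ := (IsIntegrallyClosed.isIntegral_iff (R := ℂ[X]) (K := RatFunc ℂ)).1 hρint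
  refine ⟨y, ?_⟩
  rw [← hιρ, ← hy, hι]

end

end Fermat.Agent.S24x
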