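import Fermat.Agent.S24x.CoveringInv
import Fermat.Agent.S24x.Realize
import Fermat.Agent.S24x.CoveringAbstract
import Fermat.Agent.S24x.CombDefs

/-!
# S24 project, module C3 (part 4): the family of conjugate realisations

* `cov_exists_Q` : for a finite `SL(2,ℤ)`-set `I` and an equivariant family `a : I → Mer` of
  elements integral over `ℂ[J]`, the polynomial `∏ x, (X - a x)` has coefficients in `ℂ[J]`.
* `cov_algQbarC`, `cov_algQbarMer` : the `Q̄`-algebra structures on `ℂ`, `Mer` given by `iotaQ`.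
* `cov_evFA` : `evF` as a `Q̄`-algebra homomorphism; `cov_ev` : the family
  `ev x = (out x) • evF` indexed by `Q N = SL(2,ℤ) ⧸ Γ₀(N)`.
* `cov_tensor_injective` : linear disjointness in the form needed by `cov_abstract`.
-/

set_option autoImplicit false

namespace Fermat.Agent.S24x

open UpperHalfPlane Polynomial TensorProduct CongruenceSubgroup
open scoped MatrixGroups Manifold

noncomputable section

/-! ## The symmetric polynomial -/

theorem cov_exists_Q {I : Type*} [Fintype I] [MulAction SL(2, ℤ) I] (J : Mer)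
    (hINV : ∀ E : Mer, (∀ γ : SL(2, ℤ), γ • E = E) →
      ((aeval J : ℂ[X] →ₐ[ℂ] Mer) : ℂ[X] →+* Mer).IsIntegralElem E → ∃ p : ℂ[X], E = aeval J p)
    (a : I → Mer) (hperm : ∀ (γ : SL(2, ℤ)) (x : I), γ • a x = a (γ • x))
    (hint : ∀ x, ((aeval J : ℂ[X] →ₐ[ℂ] Mer) : ℂ[X] →+* Mer).IsIntegralElem (a x)) :
    ∃ Q : ℂ[X][X], Q.map ((aeval J : ℂ[X] →ₐ[ℂ] Mer) : ℂ[X] →+* Mer) = ∏ x, (X - C (a x)) := by
  classical
  set f : ℂ[X] →+* Mer := ((aeval J : ℂ[X] →ₐ[ℂ] Mer) : ℂ[X] →+* Mer) with hf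
  rw [← mem_lifts, lifts_iff_coeff_lifts]
  intro k
  -- integrality of the coefficients
  have hcoefInt : f.IsIntegralElem ((∏ x, (X - C (a x))).coeff k) := by
    letI : Algebra ℂ[X] Mer := f.toAlgebra
    set T : Subring Mer := (integralClosure ℂ[X] Mer).toSubring with hT
    have ha : ∀ x, a x ∈ T := fun x => hint x
    have hprod : (∏ x, (X - C (a x)) : Mer[X]) =
        (∏ x, (X - C (⟨a x, ha x⟩ : T)) : T[X]).map T.subtype := by
      rw [Polynomial.map_prod]
      refine Finset.prod_congr rfl (fun x _ => ?_)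
      rw [Polynomial.map_sub, map_X, map_C]
      rfl
    rw [hprod, coeff_map]
    exact ((∏ x, (X - C (⟨a x, ha x⟩ : T)) : T[X]).coeff k).2
  -- invariance of the coefficients
  have hcoefInv : ∀ γ : SL(2, ℤ),
      γ • ((∏ x, (X - C (a x))).coeff k) = (∏ x, (X - C (a x))).coeff k := by
    intro γ
    have h1 : (∏ x, (X - C (a x)) : Mer[X]).map (MulSemiringAction.toRingHom SL(2, ℤ) Mer γ) =
        ∏ x, (X - C (a x)) := by
      rw [Polynomial.map_prod]
      have h2 : ∀ x, ((X - C (a x) : Mer[X])).map (MulSemiringAction.toRingHom SL(2, ℤ) Mer γ) =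
          X - C (a (γ • x)) := by
        intro x
        rw [Polynomial.map_sub, map_X, map_C, MulSemiringAction.toRingHom_apply, hperm]
      simp only [h2]
      exact Fintype.prod_equiv (MulAction.toPerm γ) _ _ (fun x => rfl)
    have h3 := congrArg (fun p : Mer[X] => p.coeff k) h1
    simp only [coeff_map, MulSemiringAction.toRingHom_apply] at h3
    exact h3
  obtain ⟨p, hp⟩ := hINV _ hcoefInv hcoefInt
  exact ⟨p, hp.symm⟩

/-! ## `Q̄`-algebra structures given by `iotaQ` -/

/-- `ℂ` as a `Q̄`-algebra via `iotaQ` -/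
@[reducible] def cov_algQbarC : Algebra Qbar ℂ := iotaQ.toAlgebra

/-- `Mer` as a `Q̄`-algebra via `iotaQ` -/
@[reducible] def cov_algQbarMer : Algebra Qbar Mer := ((algebraMap ℂ Mer).comp iotaQ).toAlgebra

attribute [local instance] cov_algQbarC cov_algQbarMer

theorem cov_isScalarTower : IsScalarTower Qbar ℂ Mer :=
  IsScalarTower.of_algebraMap_eq (fun _ => rfl)

attribute [local instance] cov_isScalarTower

theorem cov_algebraMap_Qbar_Mer (c : Qbar) :
    algebraMap Qbar Mer c = algebraMap ℂ Mer (iotaQ c) := rfl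

theorem cov_algebraMap_Qbar_C (c : Qbar) : algebraMap Qbar ℂ c = iotaQ c := rfl

theorem cov_smul_const (g : SL(2, ℤ)) (z : ℂ) : g • algebraMap ℂ Mer z = algebraMap ℂ Mer z := by
  rw [IsScalarTower.algebraMap_apply ℂ Hol Mer, smul_algebraMap_Mer]
  rfl

/-- the action of `g : SL(2,ℤ)` on `Mer` as a `Q̄`-algebra homomorphism -/
def cov_smulA (g : SL(2, ℤ)) : Mer →ₐ[Qbar] Mer :=
  { MulSemiringAction.toRingHom SL(2, ℤ) Mer g with
    commutes' := fun c => cov_smul_const g (iotaQ c) }

theorem cov_smulA_apply (g : SL(2, ℤ)) (y : Mer) : cov_smulA g y = g • y := rfl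

variable (N : ℕ) [NeZero N]

/-- `evF` as a `Q̄`-algebra homomorphism -/
def cov_evFA : FBar N →ₐ[Qbar] Mer :=
  { evF N with commutes' := fun c => evF_algebraMap N c }

theorem cov_evFA_apply (f : FBar N) : cov_evFA N f = evF N f := rfl

variable (R : Type*) [CommRing R] [Algebra Qbar R] [Algebra R (FBar N)]
  [IsScalarTower Qbar R (FBar N)]

/-- the family of conjugate realisations `ev x = (out x) • evF`, `x ∈ SL(2,ℤ) ⧸ Γ₀(N)` -/
def cov_ev (x : Q N) : R →ₐ[Qbar] Mer :=
  (cov_smulA (Quotient.out x)).comp ((cov_evFA N).comp (IsScalarTower.toAlgHom Qbar R (FBar N)))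

theorem cov_ev_apply (x : Q N) (r : R) :
    cov_ev N R x r = (Quotient.out x : SL(2, ℤ)) • evF N (algebraMap R (FBar N) r) := rfl

theorem cov_ev_eq_of_mk (g : SL(2, ℤ)) (x : Q N) (hx : (g : Q N) = x) (r : R) :
    cov_ev N R x r = g • evF N (algebraMap R (FBar N) r) := by
  subst hx
  obtain ⟨h, hh⟩ := QuotientGroup.mk_out_eq_mul (Gamma0 N) g
  rw [cov_ev_apply]
  have : (Quotient.out (g : Q N) : SL(2, ℤ)) = g * h := hh
  rw [this, mul_smul, evF_smul_of_mem_Gamma0 N h h.2]

theorem cov_ev_smul (γ : SL(2, ℤ)) (x : Q N) (r : R) :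
    γ • cov_ev N R x r = cov_ev N R (γ • x) r := by
  rw [cov_ev_apply, ← mul_smul]
  symm
  apply cov_ev_eq_of_mk
  conv_rhs => rw [← QuotientGroup.out_eq' x]
  rfl

theorem cov_ev_one (x0 : Q N) (hx0 : ((1 : SL(2, ℤ)) : Q N) = x0) (r : R) :
    cov_ev N R x0 r = evF N (algebraMap R (FBar N) r) := by
  rw [cov_ev_eq_of_mk N R 1 x0 hx0, one_smul]

/-! ## Linear disjointness -/

theorem cov_tensor_injective (hinj : Function.Injective (algebraMap R (FBar N)))
    (x0 : Q N) (hx0 : ((1 : SL(2, ℤ)) : Q N) = x0) :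
    Function.Injective
      (Algebra.TensorProduct.lift (Algebra.ofId ℂ Mer) (cov_ev N R x0)
        (fun _ _ => Commute.all _ _) : ℂ ⊗[Qbar] R →ₐ[ℂ] Mer) := by
  classical
  rw [injective_iff_map_eq_zero]
  intro ξ hξ
  let b := Module.Free.chooseBasis Qbar ℂ
  obtain ⟨c, rfl⟩ := TensorProduct.eq_repr_basis_left b ξ
  -- the relation in `Mer`
  have hsum : ∑ i : {i // i ∈ c.support}, algebraMap ℂ Mer (b i) *
      evF N (algebraMap R (FBar N) (c i)) = 0 := by
    rw [Finsupp.sum, map_sum] at hξ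
    rw [← Finset.sum_coe_sort c.support] at hξ
    rw [← hξ]
    refine Finset.sum_congr rfl (fun i _ => ?_)
    rw [Algebra.TensorProduct.lift_tmul, cov_ev_one N R x0 hx0, Algebra.ofId_apply]
  have hz : ∀ a : {i // i ∈ c.support} → Qbar,
      ∑ i, iotaQ (a i) * b i = 0 → ∀ i, a i = 0 := by
    have hli : LinearIndependent Qbar (fun i : {i // i ∈ c.support} => b i) :=
      b.linearIndependent.comp Subtype.val Subtype.val_injective
    intro a ha
    refine Fintype.linearIndependent_iff.1 hli a ?_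
    rw [← ha]
    refine Finset.sum_congr rfl (fun i _ => ?_)
    rw [Algebra.smul_def]
    rfl
  have hall := evF_linearIndependent N (fun i : {i // i ∈ c.support} => b i) hz
    (fun i => algebraMap R (FBar N) (c i)) hsum
  have hc : c = 0 := by
    rw [← Finsupp.support_eq_empty]
    by_contra hne
    obtain ⟨i, hi⟩ := Finset.nonempty_iff_ne_empty.2 hne
    have h1 := hall ⟨i, hi⟩
    rw [map_eq_zero_iff _ hinj] at h1
    exact (Finsupp.mem_support_iff.1 hi) h1
  rw [hc, Finsupp.sum_zero_index]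

end

end Fermat.Agent.S24x
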