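import Mathlib
import Fermat.Prelude.Def_ModularCurve_GenusNumerics

/-!
# S24 D2 / S20 Step 8d: counting cusps (model-free core)

Bottom rows `(c, d) : ZMod N × ZMod N` generating the unit ideal, modulo scaling by units
`(c, d) ↦ (l c, l d)` and the shift `(c, d) ↦ (c, d + k c)` (the action of `T^k` on `ℙ¹(ℤ/N)`).
Main result: the number of classes is `ModularCurve.cuspCount N = ∑_{δ ∣ N} φ(gcd(δ, N/δ))`.
-/

set_option autoImplicit false

namespace Fermat.Agent.S24x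

open Nat

/-! ## generalities on `ZMod` -/

section zmod
variable {N : ℕ} [NeZero N]

theorem cc_natCast_val_eq_castHom {m : ℕ} (h : m ∣ N) (x : ZMod N) :
    ((x.val : ℕ) : ZMod m) = ZMod.castHom h (ZMod m) x := by
  rw [ZMod.castHom_apply, ZMod.natCast_val]

omit [NeZero N] in
theorem cc_castHom_natCast {m : ℕ} (h : m ∣ N) (k : ℕ) :
    ZMod.castHom h (ZMod m) (k : ZMod N) = (k : ZMod m) := by
  simp

/-- `δ * e₁ = δ * e₂` in `ZMod (δ * M)` iff `e₁ = e₂` in `ZMod M`. -/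
theorem cc_mul_natCast_eq_iff {δ M : ℕ} (hδ : δ ≠ 0) (e₁ e₂ : ℕ) :
    (((δ * e₁ : ℕ) : ZMod (δ * M)) = ((δ * e₂ : ℕ) : ZMod (δ * M))) ↔
      ((e₁ : ZMod M) = (e₂ : ZMod M)) := by
  rw [ZMod.natCast_eq_natCast_iff, ZMod.natCast_eq_natCast_iff]
  constructor
  · intro h
    exact Nat.ModEq.mul_left_cancel' hδ h
  · intro h
    exact Nat.ModEq.mul_left' δ h

/-- an element of `ZMod N` killed by the reduction mod `δ ∣ N` is a multiple of `δ` -/
theorem cc_exists_eq_mul_of_castHom_eq_zero {δ : ℕ} (h : δ ∣ N) (x : ZMod N)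
    (hx : ZMod.castHom h (ZMod δ) x = 0) : ∃ t : ZMod N, x = (δ : ZMod N) * t := by
  rw [← cc_natCast_val_eq_castHom h x, ZMod.natCast_eq_zero_iff] at hx
  obtain ⟨s, hs⟩ := hx
  refine ⟨(s : ZMod N), ?_⟩
  rw [← Nat.cast_mul, ← hs, ZMod.natCast_zmod_val]

end zmod

/-! ## rows, the action, the relation -/

section rows
variable {N : ℕ} [NeZero N]

/-- scaling by the unit `l` followed by the shift by `k` -/
def ccAct (l : (ZMod N)ˣ) (k : ZMod N) (x : ZMod N × ZMod N) : ZMod N × ZMod N :=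
  ((l : ZMod N) * x.1, (l : ZMod N) * x.2 + k * ((l : ZMod N) * x.1))

/-- two pairs are related if they differ by a unit scaling and a shift -/
def ccRel (x y : ZMod N × ZMod N) : Prop := ∃ (l : (ZMod N)ˣ) (k : ZMod N), y = ccAct l k x

/-- the pair generates the unit ideal -/
def ccIsRow (x : ZMod N × ZMod N) : Prop := ∃ a b : ZMod N, a * x.1 + b * x.2 = 1

omit [NeZero N] in
theorem ccAct_one_zero (x : ZMod N × ZMod N) : ccAct 1 0 x = x := by
  simp [ccAct]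

omit [NeZero N] in
theorem ccAct_ccAct (l l' : (ZMod N)ˣ) (k k' : ZMod N) (x : ZMod N × ZMod N) :
    ccAct l' k' (ccAct l k x) = ccAct (l' * l) (k + k') x := by
  simp only [ccAct, Units.val_mul]
  refine Prod.ext ?_ ?_ <;> simp only <;> ring

omit [NeZero N] in
theorem ccRel_refl (x : ZMod N × ZMod N) : ccRel x x := ⟨1, 0, (ccAct_one_zero x).symm⟩

omit [NeZero N] in
theorem ccRel_symm {x y : ZMod N × ZMod N} (h : ccRel x y) : ccRel y x := by
  obtain ⟨l, k, rfl⟩ := h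
  refine ⟨l⁻¹, -k, ?_⟩
  rw [ccAct_ccAct]
  simp [ccAct_one_zero]

omit [NeZero N] in
theorem ccRel_trans {x y z : ZMod N × ZMod N} (h : ccRel x y) (h' : ccRel y z) : ccRel x z := by
  obtain ⟨l, k, rfl⟩ := h
  obtain ⟨l', k', rfl⟩ := h'
  exact ⟨l' * l, k + k', ccAct_ccAct l l' k k' x⟩

omit [NeZero N] in
theorem ccIsRow_ccAct (l : (ZMod N)ˣ) (k : ZMod N) {x : ZMod N × ZMod N} (hx : ccIsRow x) :
    ccIsRow (ccAct l k x) := by
  obtain ⟨a, b, hab⟩ := hx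
  refine ⟨(a - b * k) * ((l⁻¹ : (ZMod N)ˣ) : ZMod N),
    b * ((l⁻¹ : (ZMod N)ˣ) : ZMod N), ?_⟩
  simp only [ccAct]
  have hl : ((l⁻¹ : (ZMod N)ˣ) : ZMod N) * (l : ZMod N) = 1 := by
    rw [← Units.val_mul]; simp
  linear_combination hab + (a * x.1 + b * x.2) * hl

end rows

/-! ## the invariants -/

section invariants
variable {N : ℕ} [NeZero N]

/-- the gcd stratum of a residue class -/
def ccD (c : ZMod N) : ℕ := Nat.gcd c.val N

omit [NeZero N] in
theorem ccD_dvd (c : ZMod N) : ccD c ∣ N := Nat.gcd_dvd_right _ _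

theorem ccD_pos (c : ZMod N) : 0 < ccD c :=
  Nat.gcd_pos_of_pos_right _ (Nat.pos_of_ne_zero (NeZero.ne N))

omit [NeZero N] in
theorem ccD_dvd_val (c : ZMod N) : ccD c ∣ c.val := Nat.gcd_dvd_left _ _

omit [NeZero N] in
theorem ccD_unit_mul (l : (ZMod N)ˣ) (c : ZMod N) : ccD ((l : ZMod N) * c) = ccD c := by
  unfold ccD
  rw [ZMod.val_mul, (Nat.mod_modEq _ N).gcd_eq]
  exact Nat.Coprime.gcd_mul_left_cancel _ (ZMod.val_coe_unit_coprime l)

/-- `c.val / δ` is prime to `N / δ` when `δ = gcd (c.val, N)` -/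
theorem cc_coprime_div (c : ZMod N) : Nat.Coprime (c.val / ccD c) (N / ccD c) :=
  Nat.coprime_div_gcd_div_gcd (ccD_pos c)

/-- reduction of `(l * c).val / δ` modulo `N / δ` -/
theorem cc_div_unit_mul (l : (ZMod N)ˣ) (c : ZMod N) :
    ((((l : ZMod N) * c).val / ccD c : ℕ) : ZMod (N / ccD c)) =
      (((l : ZMod N).val : ℕ) : ZMod (N / ccD c)) * ((c.val / ccD c : ℕ) : ZMod (N / ccD c)) := by
  have hδ : ccD c ≠ 0 := (ccD_pos c).ne'
  obtain ⟨e, he⟩ := ccD_dvd_val c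
  have h2 : ccD c ∣ ((l : ZMod N) * c).val := by
    have := ccD_dvd_val ((l : ZMod N) * c)
    rwa [ccD_unit_mul] at this
  obtain ⟨e₂, he₂⟩ := h2
  obtain ⟨M, hM⟩ := ccD_dvd c
  have hMdiv : N / ccD c = M := Nat.div_eq_of_eq_mul_right (ccD_pos c) hM
  rw [hMdiv, he, he₂, Nat.mul_div_cancel_left _ (ccD_pos c), Nat.mul_div_cancel_left _ (ccD_pos c),
    ← Nat.cast_mul, ZMod.natCast_eq_natCast_iff]
  have h1 : ((l : ZMod N) * c).val ≡ (l : ZMod N).val * c.val [MOD N] := by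
    rw [ZMod.val_mul]; exact Nat.mod_modEq _ _
  rw [he₂, he] at h1
  have h3 : ccD c * e₂ ≡ ccD c * ((l : ZMod N).val * e) [MOD ccD c * M] := by
    rw [← hM]
    calc ccD c * e₂ ≡ (l : ZMod N).val * (ccD c * e) [MOD N] := h1
      _ = ccD c * ((l : ZMod N).val * e) := by ring
  exact Nat.ModEq.mul_left_cancel' hδ h3

/-- the modulus of the unit invariant -/
def ccG (N δ : ℕ) : ℕ := Nat.gcd δ (N / δ)

omit [NeZero N] in
theorem ccG_dvd_left (δ : ℕ) : ccG N δ ∣ δ := Nat.gcd_dvd_left _ _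

omit [NeZero N] in
theorem ccG_dvd_right (δ : ℕ) : ccG N δ ∣ N / δ := Nat.gcd_dvd_right _ _

omit [NeZero N] in
theorem ccG_dvd (δ : ℕ) (h : δ ∣ N) : ccG N δ ∣ N := (ccG_dvd_left δ).trans h

omit [NeZero N] in
theorem ccG_pos (δ : ℕ) (h : 0 < δ) : 0 < ccG N δ := Nat.gcd_pos_of_pos_left _ h

/-- for a row `(c, d)`, `d` is prime to `gcd (c, N)` -/
theorem cc_row_coprime {x : ZMod N × ZMod N} (hx : ccIsRow x) : Nat.Coprime x.2.val (ccD x.1) := by
  obtain ⟨a, b, hab⟩ := hx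
  set p := Nat.gcd x.2.val (ccD x.1) with hp
  have hpN : p ∣ N := (Nat.gcd_dvd_right _ _).trans (ccD_dvd _)
  have hpc : p ∣ x.1.val := (Nat.gcd_dvd_right _ _).trans (ccD_dvd_val _)
  have hpd : p ∣ x.2.val := Nat.gcd_dvd_left _ _
  have h := congrArg (ZMod.castHom hpN (ZMod p)) hab
  rw [map_add, map_mul, map_mul, map_one, ← cc_natCast_val_eq_castHom hpN x.1,
    ← cc_natCast_val_eq_castHom hpN x.2, (ZMod.natCast_eq_zero_iff _ _).mpr hpc,
    (ZMod.natCast_eq_zero_iff _ _).mpr hpd, mul_zero, mul_zero, add_zero] at h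
  have h1 : ((1 : ℕ) : ZMod p) = 0 := by rw [Nat.cast_one]; exact h.symm
  rw [ZMod.natCast_eq_zero_iff] at h1
  exact Nat.dvd_one.mp h1

/-- the unit invariant, with the stratum `δ` as a parameter -/
noncomputable def ccA (δ : ℕ) (x : ZMod N × ZMod N) : ZMod (ccG N δ) :=
  ((x.2.val : ℕ) : ZMod (ccG N δ)) * (((x.1.val / δ : ℕ)) : ZMod (ccG N δ))⁻¹

theorem cc_coprime_div_G (c : ZMod N) : Nat.Coprime (c.val / ccD c) (ccG N (ccD c)) :=
  Nat.Coprime.coprime_dvd_right (ccG_dvd_right _) (cc_coprime_div c)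

theorem ccA_mul (x : ZMod N × ZMod N) :
    ccA (ccD x.1) x * ((x.1.val / ccD x.1 : ℕ) : ZMod (ccG N (ccD x.1))) =
      ((x.2.val : ℕ) : ZMod (ccG N (ccD x.1))) := by
  unfold ccA
  rw [mul_assoc, mul_comm _ (((x.1.val / ccD x.1 : ℕ)) : ZMod (ccG N (ccD x.1))),
    ZMod.coe_mul_inv_eq_one _ (cc_coprime_div_G x.1), mul_one]

theorem cc_isUnit_div (c : ZMod N) :
    IsUnit ((c.val / ccD c : ℕ) : ZMod (ccG N (ccD c))) :=
  (ZMod.isUnit_iff_coprime _ _).mpr (cc_coprime_div_G c)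

theorem ccA_eq_of_mul {x : ZMod N × ZMod N} {a : ZMod (ccG N (ccD x.1))}
    (h : a * ((x.1.val / ccD x.1 : ℕ) : ZMod (ccG N (ccD x.1))) =
      ((x.2.val : ℕ) : ZMod (ccG N (ccD x.1)))) : ccA (ccD x.1) x = a := by
  have := ccA_mul x
  rw [← h] at this
  exact (cc_isUnit_div x.1).mul_left_injective this

theorem ccA_isUnit {x : ZMod N × ZMod N} (hx : ccIsRow x) : IsUnit (ccA (ccD x.1) x) := by
  have h1 : IsUnit ((x.2.val : ℕ) : ZMod (ccG N (ccD x.1))) :=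
    (ZMod.isUnit_iff_coprime _ _).mpr
      (Nat.Coprime.coprime_dvd_right (ccG_dvd_left _) (cc_row_coprime hx))
  rw [← ccA_mul x] at h1
  exact isUnit_of_mul_isUnit_left h1

theorem ccA_mul' (x : ZMod N × ZMod N) (δ : ℕ) (h : ccD x.1 = δ) :
    ccA δ x * ((x.1.val / δ : ℕ) : ZMod (ccG N δ)) = ((x.2.val : ℕ) : ZMod (ccG N δ)) := by
  subst h; exact ccA_mul x

theorem ccA_eq_of_mul' {x : ZMod N × ZMod N} (δ : ℕ) (h : ccD x.1 = δ) {a : ZMod (ccG N δ)}
    (ha : a * ((x.1.val / δ : ℕ) : ZMod (ccG N δ)) = ((x.2.val : ℕ) : ZMod (ccG N δ))) :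
    ccA δ x = a := by
  subst h; exact ccA_eq_of_mul ha

theorem ccA_isUnit' {x : ZMod N × ZMod N} (hx : ccIsRow x) (δ : ℕ) (h : ccD x.1 = δ) :
    IsUnit (ccA δ x) := by
  subst h; exact ccA_isUnit hx

/-- the invariant `ccA` is unchanged by the action -/
theorem ccA_ccAct (l : (ZMod N)ˣ) (k : ZMod N) (x : ZMod N × ZMod N) (δ : ℕ) (h : ccD x.1 = δ) :
    ccA δ (ccAct l k x) = ccA δ x := by
  subst h
  have hy : ccD (ccAct l k x).1 = ccD x.1 := ccD_unit_mul l x.1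
  apply ccA_eq_of_mul' _ hy
  have hgN : ccG N (ccD x.1) ∣ N := ccG_dvd _ (ccD_dvd _)
  -- the `e`-part
  have h1 := congrArg (ZMod.castHom (ccG_dvd_right (N := N) (ccD x.1)) (ZMod (ccG N (ccD x.1))))
    (cc_div_unit_mul l x.1)
  rw [map_mul, map_natCast, map_natCast, map_natCast] at h1
  -- the `d`-part
  have h2 : (((ccAct l k x).2.val : ℕ) : ZMod (ccG N (ccD x.1))) =
      (((l : ZMod N).val : ℕ) : ZMod (ccG N (ccD x.1))) * ((x.2.val : ℕ) : ZMod (ccG N (ccD x.1))) := by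
    have hc0 : ((x.1.val : ℕ) : ZMod (ccG N (ccD x.1))) = 0 :=
      (ZMod.natCast_eq_zero_iff _ _).mpr ((ccG_dvd_left _).trans (ccD_dvd_val _))
    rw [cc_natCast_val_eq_castHom hgN, cc_natCast_val_eq_castHom hgN, cc_natCast_val_eq_castHom hgN]
    rw [cc_natCast_val_eq_castHom hgN] at hc0
    simp only [ccAct, map_add, map_mul, hc0, mul_zero, add_zero]
  have h3 : (ccAct l k x).1 = (l : ZMod N) * x.1 := rfl
  rw [h2, h3, h1]
  linear_combination (((l : ZMod N).val : ℕ) : ZMod (ccG N (ccD x.1))) * ccA_mul x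

end invariants

/-! ## completeness of the invariants -/

section complete
variable {N : ℕ} [NeZero N]

omit [NeZero N] in
/-- `δ * e₁ = δ * e₂` in `ZMod N`, `N = δ * M`, iff `e₁ = e₂` in `ZMod M`. -/
theorem cc_mul_natCast_eq_iff' {δ M : ℕ} (h : δ * M = N) (hδ : δ ≠ 0) (e₁ e₂ : ℕ) :
    (((δ * e₁ : ℕ) : ZMod N) = ((δ * e₂ : ℕ) : ZMod N)) ↔ ((e₁ : ZMod M) = (e₂ : ZMod M)) := by
  subst h
  exact cc_mul_natCast_eq_iff hδ e₁ e₂

omit [NeZero N] in
/-- modular inverses -/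
theorem cc_exists_inv (e M : ℕ) (h : Nat.Coprime e M) (hM : 0 < M) :
    ∃ w : ℕ, e * w ≡ 1 [MOD M] := by
  have : NeZero M := ⟨hM.ne'⟩
  refine ⟨((e : ZMod M)⁻¹).val, ?_⟩
  rw [← ZMod.natCast_eq_natCast_iff, Nat.cast_mul, ZMod.natCast_zmod_val, Nat.cast_one]
  exact ZMod.coe_mul_inv_eq_one e h

omit [NeZero N] in
/-- Chinese remainder theorem for units, non-coprime moduli -/
theorem cc_exists_unit {δ M : ℕ} (h : δ * M = N) (a b : ℕ) (ha : Nat.Coprime a M)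
    (hb : Nat.Coprime b δ) (hab : a ≡ b [MOD Nat.gcd M δ]) :
    ∃ l : (ZMod N)ˣ, ((l : ZMod N).val ≡ a [MOD M]) ∧ ((l : ZMod N).val ≡ b [MOD δ]) := by
  obtain ⟨k₀, hk1, hk2⟩ := Nat.chineseRemainder' hab
  have hc1 : Nat.Coprime k₀ M := by
    unfold Nat.Coprime; rw [hk1.gcd_eq]; exact ha
  have hc2 : Nat.Coprime k₀ δ := by
    unfold Nat.Coprime; rw [hk2.gcd_eq]; exact hb
  have hc : Nat.Coprime k₀ N := by
    rw [← h]; exact Nat.Coprime.mul_right hc2 hc1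
  refine ⟨ZMod.unitOfCoprime k₀ hc, ?_, ?_⟩
  · rw [ZMod.coe_unitOfCoprime, ZMod.val_natCast]
    exact ((Nat.mod_modEq k₀ N).of_dvd (Dvd.intro_left δ h)).trans hk1
  · rw [ZMod.coe_unitOfCoprime, ZMod.val_natCast]
    exact ((Nat.mod_modEq k₀ N).of_dvd (Dvd.intro M h)).trans hk2

/-- two rows with the same invariants are related -/
theorem ccRel_of_inv_eq {x y : ZMod N × ZMod N} (hx : ccIsRow x) (hy : ccIsRow y) (δ : ℕ)
    (hδx : ccD x.1 = δ) (hδy : ccD y.1 = δ) (ha : ccA δ x = ccA δ y) : ccRel x y := by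
  have hδpos : 0 < δ := hδx ▸ ccD_pos x.1
  have hδN : δ ∣ N := hδx ▸ ccD_dvd x.1
  obtain ⟨M, hM⟩ := hδN
  have hNM : δ * M = N := hM.symm
  have hMdiv : N / δ = M := Nat.div_eq_of_eq_mul_right hδpos hM
  have hMpos : 0 < M := by
    rcases Nat.eq_zero_or_pos M with h0 | h0
    · exfalso; rw [h0, mul_zero] at hM; exact (NeZero.ne N) hM
    · exact h0
  -- the data
  obtain ⟨e₁, he₁⟩ : δ ∣ x.1.val := hδx ▸ ccD_dvd_val x.1
  obtain ⟨e₂, he₂⟩ : δ ∣ y.1.val := hδy ▸ ccD_dvd_val y.1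
  have hdiv₁ : x.1.val / δ = e₁ := by rw [he₁]; exact Nat.mul_div_cancel_left _ hδpos
  have hdiv₂ : y.1.val / δ = e₂ := by rw [he₂]; exact Nat.mul_div_cancel_left _ hδpos
  have hce₁ : Nat.Coprime e₁ M := by
    have := cc_coprime_div x.1
    rwa [hδx, hdiv₁, hMdiv] at this
  have hce₂ : Nat.Coprime e₂ M := by
    have := cc_coprime_div y.1
    rwa [hδy, hdiv₂, hMdiv] at this
  have hcd₁ : Nat.Coprime x.2.val δ := hδx ▸ cc_row_coprime hx
  have hcd₂ : Nat.Coprime y.2.val δ := hδy ▸ cc_row_coprime hy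
  obtain ⟨w₁, hw₁⟩ := cc_exists_inv e₁ M hce₁ hMpos
  obtain ⟨w₂, hw₂⟩ := cc_exists_inv e₂ M hce₂ hMpos
  obtain ⟨f₁, hf₁⟩ := cc_exists_inv x.2.val δ hcd₁ hδpos
  -- coprimality of the inverses
  have hcw₁ : Nat.Coprime w₁ M := by
    have h1 : Nat.gcd (e₁ * w₁) M = 1 := by rw [hw₁.gcd_eq]; exact Nat.gcd_one_left _
    exact Nat.Coprime.coprime_mul_left h1
  have hcf₁ : Nat.Coprime f₁ δ := by
    have h1 : Nat.gcd (x.2.val * f₁) δ = 1 := by rw [hf₁.gcd_eq]; exact Nat.gcd_one_left _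
    exact Nat.Coprime.coprime_mul_left h1
  -- the invariants in `ZMod g`
  have hg : ccG N δ = Nat.gcd δ M := by unfold ccG; rw [hMdiv]
  have hgδ : ccG N δ ∣ δ := ccG_dvd_left δ
  have hgM : ccG N δ ∣ M := hMdiv ▸ ccG_dvd_right (N := N) δ
  have hax := ccA_mul' x δ hδx
  have hay := ccA_mul' y δ hδy
  rw [hdiv₁] at hax
  rw [hdiv₂] at hay
  have hw₁g : ((e₁ : ℕ) : ZMod (ccG N δ)) * ((w₁ : ℕ) : ZMod (ccG N δ)) = 1 := by
    have := (ZMod.natCast_eq_natCast_iff _ _ _).mpr (hw₁.of_dvd hgM)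
    rwa [Nat.cast_mul, Nat.cast_one] at this
  have hf₁g : ((x.2.val : ℕ) : ZMod (ccG N δ)) * ((f₁ : ℕ) : ZMod (ccG N δ)) = 1 := by
    have := (ZMod.natCast_eq_natCast_iff _ _ _).mpr (hf₁.of_dvd hgδ)
    rwa [Nat.cast_mul, Nat.cast_one] at this
  have hcompat : e₂ * w₁ ≡ y.2.val * f₁ [MOD Nat.gcd M δ] := by
    rw [Nat.gcd_comm, ← hg, ← ZMod.natCast_eq_natCast_iff, Nat.cast_mul, Nat.cast_mul]
    linear_combination
      (-(((e₂ : ℕ) : ZMod (ccG N δ)) * ((w₁ : ℕ) : ZMod (ccG N δ)))) * hf₁g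
        - (((e₂ : ℕ) : ZMod (ccG N δ)) * ((w₁ : ℕ) : ZMod (ccG N δ)) * ((f₁ : ℕ) : ZMod (ccG N δ))) * hax
        + (ccA δ x * ((e₂ : ℕ) : ZMod (ccG N δ)) * ((f₁ : ℕ) : ZMod (ccG N δ))) * hw₁g
        + (((e₂ : ℕ) : ZMod (ccG N δ)) * ((f₁ : ℕ) : ZMod (ccG N δ))) * ha
        + ((f₁ : ℕ) : ZMod (ccG N δ)) * hay
  obtain ⟨l, hl1, hl2⟩ := cc_exists_unit hNM (e₂ * w₁) (y.2.val * f₁)
    (Nat.Coprime.mul_left hce₂ hcw₁) (Nat.Coprime.mul_left hcd₂ hcf₁) hcompat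
  -- first coordinate
  have hx1 : x.1 = ((δ * e₁ : ℕ) : ZMod N) := by rw [← he₁, ZMod.natCast_zmod_val]
  have hy1 : y.1 = ((δ * e₂ : ℕ) : ZMod N) := by rw [← he₂, ZMod.natCast_zmod_val]
  have hl : (l : ZMod N) = (((l : ZMod N).val : ℕ) : ZMod N) := (ZMod.natCast_zmod_val _).symm
  have hfirst : y.1 = (l : ZMod N) * x.1 := by
    rw [hy1, hx1, hl, ← Nat.cast_mul]
    have : (l : ZMod N).val * (δ * e₁) = δ * ((l : ZMod N).val * e₁) := by ring
    rw [this, cc_mul_natCast_eq_iff' hNM hδpos.ne', ZMod.natCast_eq_natCast_iff]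
    calc e₂ ≡ e₂ * 1 [MOD M] := by rw [mul_one]
      _ ≡ e₂ * (e₁ * w₁) [MOD M] := (hw₁.symm).mul_left e₂
      _ = (e₂ * w₁) * e₁ := by ring
      _ ≡ (l : ZMod N).val * e₁ [MOD M] := (hl1.symm).mul_right e₁
  -- second coordinate
  have hsec0 : ZMod.castHom (Dvd.intro M hNM) (ZMod δ) (y.2 - (l : ZMod N) * x.2) = 0 := by
    rw [map_sub, map_mul, ← cc_natCast_val_eq_castHom, ← cc_natCast_val_eq_castHom,
      ← cc_natCast_val_eq_castHom, ← Nat.cast_mul, sub_eq_zero, ZMod.natCast_eq_natCast_iff]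
    calc y.2.val ≡ y.2.val * 1 [MOD δ] := by rw [mul_one]
      _ ≡ y.2.val * (x.2.val * f₁) [MOD δ] := (hf₁.symm).mul_left _
      _ = (y.2.val * f₁) * x.2.val := by ring
      _ ≡ (l : ZMod N).val * x.2.val [MOD δ] := (hl2.symm).mul_right _
  obtain ⟨t, ht⟩ := cc_exists_eq_mul_of_castHom_eq_zero _ _ hsec0
  refine ⟨l, ((t.val * w₂ : ℕ) : ZMod N), ?_⟩
  refine Prod.ext hfirst ?_
  change y.2 = (l : ZMod N) * x.2 + ((t.val * w₂ : ℕ) : ZMod N) * ((l : ZMod N) * x.1)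
  rw [← hfirst, hy1, ← Nat.cast_mul]
  have h5 : ((t.val * w₂ * (δ * e₂) : ℕ) : ZMod N) = ((δ * t.val : ℕ) : ZMod N) := by
    have : t.val * w₂ * (δ * e₂) = δ * (t.val * w₂ * e₂) := by ring
    rw [this, cc_mul_natCast_eq_iff' hNM hδpos.ne', ZMod.natCast_eq_natCast_iff]
    calc t.val * w₂ * e₂ = t.val * (e₂ * w₂) := by ring
      _ ≡ t.val * 1 [MOD M] := hw₂.mul_left _
      _ = t.val := mul_one _
  rw [h5, Nat.cast_mul, ZMod.natCast_zmod_val, ← ht]
  ring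

end complete

/-! ## surjectivity of the invariants -/

section surj
variable {N : ℕ} [NeZero N]

theorem cc_exists_row (δ : ℕ) (hδ : δ ∣ N) (a : ZMod (ccG N δ)) (ha : IsUnit a) :
    ∃ x : ZMod N × ZMod N, ccIsRow x ∧ ccD x.1 = δ ∧ ccA δ x = a := by
  have hNpos : 0 < N := Nat.pos_of_ne_zero (NeZero.ne N)
  have hδpos : 0 < δ := Nat.pos_of_dvd_of_pos hδ hNpos
  have hδle : δ ≤ N := Nat.le_of_dvd hNpos hδ
  have : NeZero δ := ⟨hδpos.ne'⟩
  have hgδ : ccG N δ ∣ δ := ccG_dvd_left δ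
  have hgN : ccG N δ ∣ N := ccG_dvd δ hδ
  obtain ⟨D, hD⟩ := ZMod.unitsMap_surjective hgδ ha.unit
  set d₀ : ℕ := (D : ZMod δ).val with hd₀
  have hcop : Nat.Coprime d₀ δ := ZMod.val_coe_unit_coprime D
  have hd₀a : ((d₀ : ℕ) : ZMod (ccG N δ)) = a := by
    rw [hd₀, cc_natCast_val_eq_castHom hgδ]
    have := congrArg (fun u : (ZMod (ccG N δ))ˣ => (u : ZMod (ccG N δ))) hD
    simpa [ZMod.unitsMap] using this
  have hd₀lt : d₀ < N := lt_of_lt_of_le (ZMod.val_lt _) hδle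
  refine ⟨((δ : ZMod N), (d₀ : ZMod N)), ?_, ?_, ?_⟩
  · -- row
    have h1 : IsCoprime (δ : ℤ) (d₀ : ℤ) := Nat.isCoprime_iff_coprime.mpr hcop.symm
    obtain ⟨u, v, huv⟩ := h1
    refine ⟨(u : ZMod N), (v : ZMod N), ?_⟩
    have := congrArg (Int.cast : ℤ → ZMod N) huv
    push_cast at this
    exact this
  · -- stratum
    change Nat.gcd ((δ : ZMod N)).val N = δ
    rw [ZMod.val_natCast, (Nat.mod_modEq δ N).gcd_eq]
    exact Nat.gcd_eq_left hδ
  · have h2 : ccD (((δ : ZMod N), (d₀ : ZMod N)) : ZMod N × ZMod N).1 = δ := by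
      change Nat.gcd ((δ : ZMod N)).val N = δ
      rw [ZMod.val_natCast, (Nat.mod_modEq δ N).gcd_eq]
      exact Nat.gcd_eq_left hδ
    apply ccA_eq_of_mul' δ h2
    change a * ((((δ : ZMod N)).val / δ : ℕ) : ZMod (ccG N δ)) =
      ((((d₀ : ZMod N)).val : ℕ) : ZMod (ccG N δ))
    rw [ZMod.val_natCast, ZMod.val_natCast, Nat.mod_eq_of_lt hd₀lt, hd₀a]
    rcases Nat.lt_or_ge δ N with hlt | hge
    · rw [Nat.mod_eq_of_lt hlt, Nat.div_self hδpos, Nat.cast_one, mul_one]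
    · have hδN : δ = N := le_antisymm hδle hge
      have hg1 : ccG N δ = 1 := by
        unfold ccG; rw [hδN, Nat.div_self hNpos]; exact Nat.gcd_one_right _
      have hsub : Subsingleton (ZMod (ccG N δ)) := by
        rw [hg1]; exact inferInstanceAs (Subsingleton (Fin 1))
      exact Subsingleton.elim _ _

end surj

/-! ## counting -/

section count
variable (N : ℕ) [NeZero N]

/-- the type of bottom rows -/
def ccRow : Type := {x : ZMod N × ZMod N // ccIsRow x}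

omit [NeZero N] in
/-- the equivalence relation generated by unit scalings and shifts -/
def ccSetoid : Setoid (ccRow N) where
  r x y := ccRel x.1 y.1
  iseqv := ⟨fun x => ccRel_refl x.1, fun h => ccRel_symm h, fun h h' => ccRel_trans h h'⟩

/-- the finite set of invariants, encoded as pairs of natural numbers -/
def ccInvSet : Finset (ℕ × ℕ) :=
  (N.divisors.sigma (fun δ => (Finset.range (ccG N δ)).filter (fun r => (ccG N δ).Coprime r))).map
    ⟨fun p => (p.1, p.2), fun p q h => by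
      cases p; cases q; simp only [Prod.mk.injEq] at h; obtain ⟨rfl, rfl⟩ := h; rfl⟩

omit [NeZero N] in
theorem ccInvSet_card : (ccInvSet N).card = ModularCurve.cuspCount N := by
  unfold ccInvSet ModularCurve.cuspCount
  rw [Finset.card_map, Finset.card_sigma]
  rfl

omit [NeZero N] in
theorem mem_ccInvSet (p : ℕ × ℕ) :
    p ∈ ccInvSet N ↔ p.1 ∈ N.divisors ∧ p.2 < ccG N p.1 ∧ (ccG N p.1).Coprime p.2 := by
  unfold ccInvSet
  simp only [Finset.mem_map, Finset.mem_sigma, Finset.mem_filter, Finset.mem_range, Sigma.exists]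
  constructor
  · rintro ⟨δ, r, ⟨h1, h2, h3⟩, rfl⟩
    exact ⟨h1, h2, h3⟩
  · rintro ⟨h1, h2, h3⟩
    exact ⟨p.1, p.2, ⟨h1, h2, h3⟩, rfl⟩

/-- the invariant of a row, encoded in `ℕ × ℕ` -/
noncomputable def ccInv (x : ZMod N × ZMod N) : ℕ × ℕ := (ccD x.1, (ccA (ccD x.1) x).val)

variable {N}

omit [NeZero N] in
theorem ccA_val_congr (x : ZMod N × ZMod N) (δ δ' : ℕ) (h : δ = δ') :
    (ccA δ x).val = (ccA δ' x).val := by subst h; rfl

theorem ccInv_eq_of_rel {x y : ZMod N × ZMod N} (h : ccRel x y) : ccInv N x = ccInv N y := by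
  obtain ⟨l, k, rfl⟩ := h
  have hD : ccD (ccAct l k x).1 = ccD x.1 := ccD_unit_mul l x.1
  unfold ccInv
  refine Prod.ext hD.symm ?_
  change (ccA (ccD x.1) x).val = (ccA (ccD (ccAct l k x).1) (ccAct l k x)).val
  rw [ccA_val_congr (ccAct l k x) _ _ hD, ccA_ccAct l k x _ rfl]

theorem ccRel_of_ccInv_eq {x y : ZMod N × ZMod N} (hx : ccIsRow x) (hy : ccIsRow y)
    (h : ccInv N x = ccInv N y) : ccRel x y := by
  unfold ccInv at h
  have h1 : ccD x.1 = ccD y.1 := congrArg Prod.fst h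
  have h2 : (ccA (ccD x.1) x).val = (ccA (ccD y.1) y).val := congrArg Prod.snd h
  rw [ccA_val_congr y _ _ h1.symm] at h2
  have : NeZero (ccG N (ccD x.1)) := ⟨(ccG_pos _ (ccD_pos x.1)).ne'⟩
  exact ccRel_of_inv_eq hx hy (ccD x.1) rfl h1.symm (ZMod.val_injective _ h2)

theorem ccInv_mem {x : ZMod N × ZMod N} (hx : ccIsRow x) : ccInv N x ∈ ccInvSet N := by
  rw [mem_ccInvSet]
  have : NeZero (ccG N (ccD x.1)) := ⟨(ccG_pos _ (ccD_pos x.1)).ne'⟩
  refine ⟨Nat.mem_divisors.mpr ⟨ccD_dvd x.1, NeZero.ne N⟩, ZMod.val_lt _, ?_⟩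
  have hu := ccA_isUnit hx
  have := ZMod.val_coe_unit_coprime hu.unit
  rw [IsUnit.unit_spec] at this
  exact this.symm

theorem exists_ccInv_eq {p : ℕ × ℕ} (hp : p ∈ ccInvSet N) :
    ∃ x : ZMod N × ZMod N, ccIsRow x ∧ ccInv N x = p := by
  rw [mem_ccInvSet] at hp
  obtain ⟨h1, h2, h3⟩ := hp
  have hδ : p.1 ∣ N := (Nat.mem_divisors.mp h1).1
  have hu : IsUnit ((p.2 : ℕ) : ZMod (ccG N p.1)) := (ZMod.isUnit_iff_coprime _ _).mpr h3.symm
  obtain ⟨x, hx, hxD, hxA⟩ := cc_exists_row p.1 hδ _ hu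
  refine ⟨x, hx, ?_⟩
  unfold ccInv
  refine Prod.ext hxD ?_
  change (ccA (ccD x.1) x).val = p.2
  rw [ccA_val_congr x _ _ hxD, hxA, ZMod.val_natCast, Nat.mod_eq_of_lt h2]

variable (N)

/-- **Cusp count, model-free form**: the number of classes of bottom rows modulo unit scalings and
shifts is `cuspCount N`. -/
theorem cc_card_quotient : Nat.card (Quotient (ccSetoid N)) = ModularCurve.cuspCount N := by
  classical
  let F : Quotient (ccSetoid N) → {p // p ∈ ccInvSet N} :=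
    Quotient.lift (fun x : ccRow N => (⟨ccInv N x.1, ccInv_mem x.2⟩ : {p // p ∈ ccInvSet N}))
      (fun x y h => Subtype.ext (ccInv_eq_of_rel h))
  have hF : Function.Bijective F := by
    constructor
    · intro q q'
      induction q using Quotient.inductionOn with
      | h x =>
        induction q' using Quotient.inductionOn with
        | h y =>
          intro h
          apply Quotient.sound
          exact ccRel_of_ccInv_eq x.2 y.2 (congrArg Subtype.val h)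
    · rintro ⟨p, hp⟩
      obtain ⟨x, hx, hxp⟩ := exists_ccInv_eq hp
      exact ⟨Quotient.mk _ ⟨x, hx⟩, Subtype.ext hxp⟩
  rw [Nat.card_congr (Equiv.ofBijective F hF), Nat.card_eq_fintype_card, Fintype.card_coe,
    ccInvSet_card]

end count

end Fermat.Agent.S24x
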