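import Fermat.Agent.S24x.CuspCountCore

/-!
# S24 D2 / S20 M17: the number of `T`-orbits on `SL(2, ℤ) ⧸ Γ₀(N)` is `cuspCount N`

Transport of `cc_card_quotient` along `g Γ₀(N) ↦ (c, a)`, the first column `(a; c)` of `g` mod `N`.
-/

set_option autoImplicit false

open scoped MatrixGroups

namespace Fermat.Agent.S24x

open Matrix.SpecialLinearGroup CongruenceSubgroup

/-! ## lifting primitive rows -/

/-- adjusting `a₀` modulo `N` to make it prime to `c` -/
theorem cc_lift_coprime (N a₀ c : ℕ) (hc : c ≠ 0)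
    (h : ∀ p : ℕ, p.Prime → p ∣ a₀ → p ∣ c → ¬ p ∣ N) :
    ∃ t : ℕ, Nat.Coprime (a₀ + t * N) c := by
  classical
  refine ⟨∏ p ∈ c.primeFactors.filter (fun p => ¬ p ∣ a₀), p, ?_⟩
  apply Nat.Coprime.symm
  apply Nat.coprime_of_dvd
  intro p hp hpc hpa
  by_cases hpa₀ : p ∣ a₀
  · have hpN : ¬ p ∣ N := h p hp hpa₀ hpc
    have hpt : ¬ p ∣ ∏ q ∈ c.primeFactors.filter (fun q => ¬ q ∣ a₀), q := by
      intro hdvd
      rw [Prime.dvd_finsetProd_iff hp.prime] at hdvd
      obtain ⟨q, hq, hpq⟩ := hdvd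
      rw [Finset.mem_filter, Nat.mem_primeFactors] at hq
      have : p = q := (Nat.prime_dvd_prime_iff_eq hp hq.1.1).mp hpq
      exact hq.2 (this ▸ hpa₀)
    have h1 : p ∣ (∏ q ∈ c.primeFactors.filter (fun q => ¬ q ∣ a₀), q) * N :=
      (Nat.dvd_add_right hpa₀).mp hpa
    rcases (Nat.Prime.dvd_mul hp).mp h1 with h2 | h2
    · exact hpt h2
    · exact hpN h2
  · have hmem : p ∈ c.primeFactors.filter (fun q => ¬ q ∣ a₀) := by
      rw [Finset.mem_filter, Nat.mem_primeFactors]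
      exact ⟨⟨hp, hpc, hc⟩, hpa₀⟩
    have h1 : p ∣ (∏ q ∈ c.primeFactors.filter (fun q => ¬ q ∣ a₀), q) * N :=
      Dvd.dvd.mul_right (Finset.dvd_prod_of_mem _ hmem) N
    exact hpa₀ ((Nat.dvd_add_left h1).mp hpa)

section
variable (N : ℕ) [NeZero N]

/-- the row `(c, a)` attached to the first column `(a; c)` of `g` -/
def ccColRow (g : SL(2, ℤ)) : ccRow N :=
  ⟨(((g 1 0 : ℤ) : ZMod N), ((g 0 0 : ℤ) : ZMod N)), by
    refine ⟨((-(g 0 1) : ℤ) : ZMod N), ((g 1 1 : ℤ) : ZMod N), ?_⟩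
    have h := g.det_coe
    rw [Matrix.det_fin_two] at h
    have := congrArg (Int.cast : ℤ → ZMod N) h
    push_cast at this ⊢
    linear_combination this⟩

omit [NeZero N] in
theorem ccColRow_val (g : SL(2, ℤ)) :
    (ccColRow N g).1 = (((g 1 0 : ℤ) : ZMod N), ((g 0 0 : ℤ) : ZMod N)) := rfl

/-- every row is the first column of some element of `SL(2, ℤ)` -/
theorem ccColRow_surjective : Function.Surjective (ccColRow N) := by
  rintro ⟨⟨cbar, abar⟩, hx⟩
  have hNpos : 0 < N := Nat.pos_of_ne_zero (NeZero.ne N)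
  -- choose a nonzero lift of `cbar`
  obtain ⟨c, hc0, hcN, hcval⟩ : ∃ c : ℕ, c ≠ 0 ∧ ((c : ℕ) : ZMod N) = cbar ∧
      (∀ p : ℕ, p ∣ c → p ∣ N → p ∣ cbar.val) := by
    by_cases h0 : cbar.val = 0
    · refine ⟨N, hNpos.ne', ?_, ?_⟩
      · rw [ZMod.natCast_self]; exact ((ZMod.val_eq_zero cbar).mp h0).symm
      · intro p _ _; rw [h0]; exact dvd_zero p
    · refine ⟨cbar.val, h0, ZMod.natCast_zmod_val cbar, ?_⟩
      intro p hp _; exact hp
  have hcop := cc_row_coprime hx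
  have hkey : ∀ p : ℕ, p.Prime → p ∣ abar.val → p ∣ c → ¬ p ∣ N := by
    intro p hp hpa hpc hpN
    have h1 : p ∣ ccD cbar := Nat.dvd_gcd (hcval p hpc hpN) hpN
    have h2 : p ∣ Nat.gcd abar.val (ccD cbar) := Nat.dvd_gcd hpa h1
    have h3 : Nat.gcd abar.val (ccD cbar) = 1 := hcop
    rw [h3] at h2
    exact hp.one_lt.ne' (Nat.dvd_one.mp h2)
  obtain ⟨t, ht⟩ := cc_lift_coprime N abar.val c hc0 hkey
  obtain ⟨g, hg0, hg1⟩ := (Nat.Coprime.isCoprime ht).exists_SL2_col 0
  refine ⟨g, ?_⟩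
  apply Subtype.ext
  rw [ccColRow_val]
  refine Prod.ext ?_ ?_
  · change ((g 1 0 : ℤ) : ZMod N) = cbar
    rw [hg1]; push_cast; exact hcN
  · change ((g 0 0 : ℤ) : ZMod N) = abar
    rw [hg0]; push_cast
    rw [ZMod.natCast_self, mul_zero, add_zero, ZMod.natCast_zmod_val]

omit [NeZero N] in
/-- right multiplication by `Γ₀(N)` scales the row by a unit -/
theorem ccRel_mul_Gamma0 (g γ : SL(2, ℤ)) (hγ : γ ∈ Gamma0 N) :
    ccRel (ccColRow N g).1 (ccColRow N (g * γ)).1 := by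
  rw [Gamma0_mem] at hγ
  have hdet := γ.det_coe
  rw [Matrix.det_fin_two] at hdet
  have hdet' := congrArg (Int.cast : ℤ → ZMod N) hdet
  push_cast at hdet'
  rw [hγ, mul_zero, sub_zero] at hdet'
  refine ⟨Units.mkOfMulEqOne _ _ hdet', 0, ?_⟩
  rw [ccColRow_val, ccColRow_val]
  simp only [ccAct, Units.val_mkOfMulEqOne, zero_mul, add_zero, coe_mul, Matrix.mul_apply,
    Fin.sum_univ_two, Int.cast_add, Int.cast_mul, hγ, mul_zero]
  refine Prod.ext ?_ ?_ <;> simp only <;> ring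

omit [NeZero N] in
/-- left multiplication by `T ^ n` shifts the row -/
theorem ccRel_T_zpow_mul (n : ℤ) (g : SL(2, ℤ)) :
    ccRel (ccColRow N g).1 (ccColRow N (ModularGroup.T ^ n * g)).1 := by
  refine ⟨1, (n : ZMod N), ?_⟩
  rw [ccColRow_val, ccColRow_val]
  simp only [ccAct, Units.val_one, one_mul, coe_mul, ModularGroup.coe_T_zpow, Matrix.mul_apply,
    Fin.sum_univ_two, Matrix.of_apply, Matrix.cons_val', Matrix.cons_val_zero, Matrix.cons_val_one,
    Matrix.empty_val', Matrix.cons_val_fin_one]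
  refine Prod.ext ?_ ?_ <;> simp only <;> push_cast <;> ring

omit [NeZero N] in
theorem cc_inv_mul_apply_10 (A B : SL(2, ℤ)) :
    ((A⁻¹ * B : SL(2, ℤ)) 1 0 : ℤ) = -(A 1 0) * B 0 0 + A 0 0 * B 1 0 := by
  rw [coe_mul, Matrix.mul_apply, Fin.sum_univ_two, SL2_inv_expl]
  simp

omit [NeZero N] in
theorem cc_T_zpow_mul_10 (n : ℤ) (g : SL(2, ℤ)) :
    ((ModularGroup.T ^ n * g : SL(2, ℤ)) 1 0 : ℤ) = g 1 0 := by
  rw [coe_mul, ModularGroup.coe_T_zpow, Matrix.mul_apply, Fin.sum_univ_two]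
  simp

omit [NeZero N] in
theorem cc_T_zpow_mul_00 (n : ℤ) (g : SL(2, ℤ)) :
    ((ModularGroup.T ^ n * g : SL(2, ℤ)) 0 0 : ℤ) = g 0 0 + n * g 1 0 := by
  rw [coe_mul, ModularGroup.coe_T_zpow, Matrix.mul_apply, Fin.sum_univ_two]
  simp

/-- related rows come from cosets in the same `T`-orbit -/
theorem cc_exists_zpow_of_rel (g g' : SL(2, ℤ))
    (h : ccRel (ccColRow N g).1 (ccColRow N g').1) :
    ∃ n : ℤ, (ModularGroup.T ^ n * g)⁻¹ * g' ∈ Gamma0 N := by
  obtain ⟨l, k, hk⟩ := h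
  rw [ccColRow_val, ccColRow_val] at hk
  simp only [ccAct, Prod.mk.injEq] at hk
  obtain ⟨h1, h2⟩ := hk
  refine ⟨(k.val : ℤ), ?_⟩
  rw [Gamma0_mem, cc_inv_mul_apply_10, cc_T_zpow_mul_10, cc_T_zpow_mul_00]
  push_cast
  rw [h1, h2, ZMod.natCast_zmod_val]
  ring

/-- the class of the first column, as a function on `SL(2, ℤ)` -/
def ccCls (g : SL(2, ℤ)) : Quotient (ccSetoid N) := Quotient.mk _ (ccColRow N g)

omit [NeZero N] in
theorem ccCls_mul_Gamma0 (g γ : SL(2, ℤ)) (hγ : γ ∈ Gamma0 N) : ccCls N (g * γ) = ccCls N g :=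
  (Quotient.sound (ccRel_mul_Gamma0 N g γ hγ)).symm

omit [NeZero N] in
theorem ccCls_T_zpow_mul (n : ℤ) (g : SL(2, ℤ)) : ccCls N (ModularGroup.T ^ n * g) = ccCls N g :=
  (Quotient.sound (ccRel_T_zpow_mul N n g)).symm

/-- the class of the first column, as a function on `SL(2, ℤ) ⧸ Γ₀(N)` -/
def ccClsX : SL(2, ℤ) ⧸ Gamma0 N → Quotient (ccSetoid N) :=
  Quotient.lift (ccCls N) (fun g g' h => by
    have h' : g⁻¹ * g' ∈ Gamma0 N := QuotientGroup.leftRel_apply.mp h
    have : g' = g * (g⁻¹ * g') := by group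
    rw [this, ccCls_mul_Gamma0 N g _ h'])

omit [NeZero N] in
theorem ccClsX_mk (g : SL(2, ℤ)) : ccClsX N (g : SL(2, ℤ) ⧸ Gamma0 N) = ccCls N g := rfl

omit [NeZero N] in
theorem ccClsX_smul (t : Subgroup.zpowers ModularGroup.T) (x : SL(2, ℤ) ⧸ Gamma0 N) :
    ccClsX N (t • x) = ccClsX N x := by
  obtain ⟨t, ht⟩ := t
  obtain ⟨n, rfl⟩ := Subgroup.mem_zpowers_iff.mp ht
  induction x using QuotientGroup.induction_on with
  | H g =>
    change ccClsX N ((ModularGroup.T ^ n) • (g : SL(2, ℤ) ⧸ Gamma0 N)) = _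
    rw [MulAction.Quotient.smul_mk, ccClsX_mk, ccClsX_mk, smul_eq_mul, ccCls_T_zpow_mul]

/-- the class of the first column, as a function on `T`-orbits -/
def ccClsOrb : MulAction.orbitRel.Quotient (Subgroup.zpowers ModularGroup.T)
    (SL(2, ℤ) ⧸ Gamma0 N) → Quotient (ccSetoid N) :=
  Quotient.lift (ccClsX N) (fun x y h => by
    have h' : x ∈ MulAction.orbit (Subgroup.zpowers ModularGroup.T) y :=
      MulAction.orbitRel_apply.mp h
    obtain ⟨t, rfl⟩ := MulAction.mem_orbit_iff.mp h'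
    exact ccClsX_smul N t y)

theorem ccClsOrb_bijective : Function.Bijective (ccClsOrb N) := by
  constructor
  · intro o o'
    induction o using Quotient.inductionOn with
    | h x =>
      induction o' using Quotient.inductionOn with
      | h y =>
        induction x using QuotientGroup.induction_on with
        | H g =>
          induction y using QuotientGroup.induction_on with
          | H g' =>
            intro h
            have h1 : ccCls N g = ccCls N g' := h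
            have h2 : ccRel (ccColRow N g).1 (ccColRow N g').1 := Quotient.exact h1
            obtain ⟨n, hn⟩ := cc_exists_zpow_of_rel N g g' h2
            apply Quotient.sound
            apply MulAction.orbitRel_apply.mpr
            rw [MulAction.mem_orbit_iff]
            refine ⟨⟨ModularGroup.T ^ (-n), Subgroup.zpow_mem_zpowers _ _⟩, ?_⟩
            change (ModularGroup.T ^ (-n)) • (g' : SL(2, ℤ) ⧸ Gamma0 N) = (g : SL(2, ℤ) ⧸ Gamma0 N)
            rw [MulAction.Quotient.smul_mk, smul_eq_mul, QuotientGroup.eq]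
            have : (ModularGroup.T ^ (-n) * g')⁻¹ * g = ((ModularGroup.T ^ n * g)⁻¹ * g')⁻¹ := by
              rw [zpow_neg]; group
            rw [this]
            exact inv_mem hn
  · intro q
    induction q using Quotient.inductionOn with
    | h x =>
      obtain ⟨g, hg⟩ := ccColRow_surjective N x
      refine ⟨Quotient.mk _ (g : SL(2, ℤ) ⧸ Gamma0 N), ?_⟩
      change ccCls N g = _
      unfold ccCls
      rw [hg]

/-- **Cusp count**: the number of orbits of `T` on `SL(2, ℤ) ⧸ Γ₀(N)` is `cuspCount N`. -/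
theorem cc_card_orbits_Gamma0 :
    Nat.card (MulAction.orbitRel.Quotient (Subgroup.zpowers ModularGroup.T)
      (SL(2, ℤ) ⧸ Gamma0 N)) = ModularCurve.cuspCount N := by
  rw [Nat.card_congr (Equiv.ofBijective _ (ccClsOrb_bijective N)), cc_card_quotient]

end

end Fermat.Agent.S24x
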