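/-
S24 helper library (cusps): functions on `ℍ` with a meromorphic `q_n`-expansion at `i∞`
(`q_n = exp (2πiτ/n)`), with leading exponent and leading coefficient.
Mathlib only.  Everything is stated through the predicate

  `HasLeadInf n h m c` : near `i∞`, `h τ = q_n^m * G (q_n)` with `G` analytic at `0`, `G 0 = c ≠ 0`.
-/
import Mathlib

set_option autoImplicit false

namespace Fermat.Agent.S24x

open UpperHalfPlane Filter Topology Function Complex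
open scoped Real

/-- the parameter `q_n(τ) = exp (2πiτ/n)` on `ℍ`. -/
noncomputable def ceQ (n : ℕ) (τ : ℍ) : ℂ := Periodic.qParam (n : ℝ) (τ : ℂ)

theorem ceQ_def (n : ℕ) (τ : ℍ) : ceQ n τ = Complex.exp (2 * π * Complex.I * (τ : ℂ) / (n : ℝ)) := rfl

theorem ceQ_ne_zero (n : ℕ) (τ : ℍ) : ceQ n τ ≠ 0 := Periodic.qParam_ne_zero _

theorem ceQ_tendsto {n : ℕ} (hn : 0 < n) : Tendsto (ceQ n) atImInfty (𝓝 0) :=
  qParam_tendsto_atImInfty (by exact_mod_cast hn)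

theorem ceQ_norm_lt_one {n : ℕ} (hn : 0 < n) (τ : ℍ) : ‖ceQ n τ‖ < 1 :=
  Periodic.norm_qParam_lt_one (by exact_mod_cast hn) τ.im_pos

/-- `h τ = q_n^m * G(q_n)` near `i∞`, `G` analytic at `0`, `G 0 = c ≠ 0`. -/
def HasLeadInf (n : ℕ) (h : ℍ → ℂ) (m : ℤ) (c : ℂ) : Prop :=
  c ≠ 0 ∧ ∃ G : ℂ → ℂ, AnalyticAt ℂ G 0 ∧ G 0 = c ∧
    ∀ᶠ τ : ℍ in atImInfty, h τ = ceQ n τ ^ m * G (ceQ n τ)

/-- `h` is either eventually zero or has a leading term at `i∞`. -/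
def IsMeroInf (n : ℕ) (h : ℍ → ℂ) : Prop :=
  (∀ᶠ τ : ℍ in atImInfty, h τ = 0) ∨ ∃ (m : ℤ) (c : ℂ), HasLeadInf n h m c

namespace HasLeadInf

variable {n : ℕ} {h h₁ h₂ : ℍ → ℂ} {m m₁ m₂ : ℤ} {c c₁ c₂ : ℂ}

theorem ne_zero (H : HasLeadInf n h m c) : c ≠ 0 := H.1

theorem congr (H : HasLeadInf n h₁ m c) (he : ∀ᶠ τ in atImInfty, h₁ τ = h₂ τ) :
    HasLeadInf n h₂ m c := by
  obtain ⟨hc, G, hG, hG0, hev⟩ := H
  refine ⟨hc, G, hG, hG0, ?_⟩
  filter_upwards [hev, he] with τ h1 h2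
  rw [← h2, h1]

/-- the normalised function tends to the leading coefficient -/
theorem tendsto (hn : 0 < n) (H : HasLeadInf n h m c) :
    Tendsto (fun τ => h τ * ceQ n τ ^ (-m)) atImInfty (𝓝 c) := by
  obtain ⟨_, G, hG, hG0, hev⟩ := H
  have h1 : Tendsto (fun τ => G (ceQ n τ)) atImInfty (𝓝 c) := by
    rw [← hG0]
    exact hG.continuousAt.tendsto.comp (ceQ_tendsto hn)
  refine h1.congr' ?_
  filter_upwards [hev] with τ hτ
  rw [hτ, mul_comm (ceQ n τ ^ m), mul_assoc, ← zpow_add₀ (ceQ_ne_zero n τ)]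
  simp

theorem eventually_ne_zero (hn : 0 < n) (H : HasLeadInf n h m c) :
    ∀ᶠ τ in atImInfty, h τ ≠ 0 := by
  have h1 := (H.tendsto hn).eventually_ne H.ne_zero
  filter_upwards [h1] with τ hτ h0
  apply hτ
  rw [h0, zero_mul]

/-- auxiliary: if `h q^{-m} → c` and `k > 0` then `h q^{-(m - k)} → 0`. -/
theorem aux_tendsto_zero (hn : 0 < n) {m' : ℤ} (H : HasLeadInf n h m c) (hlt : m' < m) :
    Tendsto (fun τ => h τ * ceQ n τ ^ (-m')) atImInfty (𝓝 0) := by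
  have h1 := H.tendsto hn
  obtain ⟨k, hk⟩ : ∃ k : ℕ, m - m' = (k + 1 : ℕ) := by
    refine ⟨(m - m' - 1).toNat, ?_⟩
    push_cast
    rw [Int.toNat_of_nonneg (by omega)]
    ring
  have h2 : Tendsto (fun τ => ceQ n τ ^ (k + 1)) atImInfty (𝓝 0) := by
    have := (ceQ_tendsto hn).pow (k + 1)
    simpa using this
  have h3 := h1.mul h2
  rw [mul_zero] at h3
  refine h3.congr' ?_
  filter_upwards with τ
  rw [mul_assoc, ← zpow_natCast, ← zpow_add₀ (ceQ_ne_zero n τ)]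
  congr 2
  rw [← hk]; ring

/-- exponent and leading coefficient are unique -/
theorem unique (hn : 0 < n) (H : HasLeadInf n h m c) (H' : HasLeadInf n h m₁ c₁) :
    m = m₁ ∧ c = c₁ := by
  have hm : m = m₁ := by
    rcases lt_trichotomy m m₁ with hlt | heq | hgt
    · exact absurd (tendsto_nhds_unique (H.tendsto hn) (H'.aux_tendsto_zero hn hlt)) H.ne_zero
    · exact heq
    · exact absurd (tendsto_nhds_unique (H'.tendsto hn) (H.aux_tendsto_zero hn hgt)) H'.ne_zero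
  subst hm
  exact ⟨rfl, tendsto_nhds_unique (H.tendsto hn) (H'.tendsto hn)⟩

theorem mul (H₁ : HasLeadInf n h₁ m₁ c₁) (H₂ : HasLeadInf n h₂ m₂ c₂) :
    HasLeadInf n (fun τ => h₁ τ * h₂ τ) (m₁ + m₂) (c₁ * c₂) := by
  obtain ⟨hc1, G₁, hG₁, hG₁0, hev₁⟩ := H₁
  obtain ⟨hc2, G₂, hG₂, hG₂0, hev₂⟩ := H₂
  refine ⟨mul_ne_zero hc1 hc2, fun z => G₁ z * G₂ z, hG₁.mul hG₂, by simp only [hG₁0, hG₂0], ?_⟩
  filter_upwards [hev₁, hev₂] with τ e1 e2
  rw [e1, e2, zpow_add₀ (ceQ_ne_zero n τ)]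
  ring

theorem const_mul (a : ℂ) (ha : a ≠ 0) (H : HasLeadInf n h m c) :
    HasLeadInf n (fun τ => a * h τ) m (a * c) := by
  obtain ⟨hc, G, hG, hG0, hev⟩ := H
  refine ⟨mul_ne_zero ha hc, fun z => a * G z, analyticAt_const.mul hG, by simp only [hG0], ?_⟩
  filter_upwards [hev] with τ e
  rw [e]; ring

theorem neg (H : HasLeadInf n h m c) : HasLeadInf n (fun τ => - h τ) m (-c) := by
  have := H.const_mul (-1) (by norm_num)
  simpa using this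

theorem pow (H : HasLeadInf n h m c) (k : ℕ) :
    HasLeadInf n (fun τ => h τ ^ k) (k * m) (c ^ k) := by
  obtain ⟨hc, G, hG, hG0, hev⟩ := H
  refine ⟨pow_ne_zero k hc, fun z => G z ^ k, hG.pow k, by simp only [hG0], ?_⟩
  filter_upwards [hev] with τ e
  rw [e, mul_pow, ← zpow_natCast, ← zpow_mul, mul_comm m]

/-- sum of two functions with leading terms, `m₁ ≤ m₂`. -/
theorem add_of_le (hn : 0 < n) (H₁ : HasLeadInf n h₁ m₁ c₁) (H₂ : HasLeadInf n h₂ m₂ c₂)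
    (hle : m₁ ≤ m₂) :
    (∀ᶠ τ in atImInfty, h₁ τ + h₂ τ = 0) ∨
      ∃ (m : ℤ) (c : ℂ), m₁ ≤ m ∧ HasLeadInf n (fun τ => h₁ τ + h₂ τ) m c := by
  obtain ⟨hc1, G₁, hG₁, hG₁0, hev₁⟩ := H₁
  obtain ⟨hc2, G₂, hG₂, hG₂0, hev₂⟩ := H₂
  obtain ⟨k, hk⟩ : ∃ k : ℕ, m₂ = m₁ + k := ⟨(m₂ - m₁).toNat, by
    rw [Int.toNat_of_nonneg (by omega)]; ring⟩
  set K : ℂ → ℂ := fun z => G₁ z + z ^ k * G₂ z with hKdef
  have hK : AnalyticAt ℂ K 0 := hG₁.add ((analyticAt_id.pow k).mul hG₂)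
  have hev : ∀ᶠ τ in atImInfty, h₁ τ + h₂ τ = ceQ n τ ^ m₁ * K (ceQ n τ) := by
    filter_upwards [hev₁, hev₂] with τ e1 e2
    rw [e1, e2, hk, zpow_add₀ (ceQ_ne_zero n τ), zpow_natCast, hKdef]
    ring
  by_cases hK0 : ∀ᶠ z in 𝓝 (0 : ℂ), K z = 0
  · left
    filter_upwards [hev, (ceQ_tendsto hn).eventually hK0] with τ e1 e2
    rw [e1, e2, mul_zero]
  · right
    obtain ⟨j, K', hK', hK'0, hev'⟩ := hK.exists_eventuallyEq_pow_smul_nonzero_iff.mpr hK0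
    refine ⟨m₁ + j, K' 0, by omega, hK'0, K', hK', rfl, ?_⟩
    filter_upwards [hev, (ceQ_tendsto hn).eventually hev'] with τ e1 e2
    rw [e1, e2, zpow_add₀ (ceQ_ne_zero n τ), zpow_natCast, sub_zero, smul_eq_mul]
    ring

/-- sum of two functions with leading terms: ultrametric inequality. -/
theorem add (hn : 0 < n) (H₁ : HasLeadInf n h₁ m₁ c₁) (H₂ : HasLeadInf n h₂ m₂ c₂) :
    (∀ᶠ τ in atImInfty, h₁ τ + h₂ τ = 0) ∨
      ∃ (m : ℤ) (c : ℂ), min m₁ m₂ ≤ m ∧ HasLeadInf n (fun τ => h₁ τ + h₂ τ) m c := by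
  rcases le_total m₁ m₂ with hle | hle
  · rw [min_eq_left hle]
    exact H₁.add_of_le hn H₂ hle
  · rw [min_eq_right hle]
    rcases H₂.add_of_le hn H₁ hle with h0 | ⟨m, c, hm, H⟩
    · left
      filter_upwards [h0] with τ hτ
      rw [add_comm]; exact hτ
    · right
      refine ⟨m, c, hm, H.congr ?_⟩
      filter_upwards with τ
      exact add_comm _ _

/-- **Boundedness criterion**: `a / b` is bounded near `i∞` iff `ord b ≤ ord a`. -/
theorem bounded_iff (hn : 0 < n) {a b : ℍ → ℂ} {ma mb : ℤ} {ca cb : ℂ}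
    (Ha : HasLeadInf n a ma ca) (Hb : HasLeadInf n b mb cb) :
    (∃ C A : ℝ, ∀ τ : ℍ, A ≤ τ.im → ‖a τ‖ ≤ C * ‖b τ‖) ↔ mb ≤ ma := by
  constructor
  · rintro ⟨C, A, hCA⟩
    by_contra hlt
    rw [not_le] at hlt
    have h1 := Ha.tendsto hn
    have h2 := Hb.aux_tendsto_zero hn hlt
    have h3 : Tendsto (fun τ => a τ * ceQ n τ ^ (-ma)) atImInfty (𝓝 0) := by
      apply squeeze_zero_norm' (a := fun τ => C * ‖b τ * ceQ n τ ^ (-ma)‖)
      · have hA : {τ : ℍ | A ≤ τ.im} ∈ atImInfty := (atImInfty_mem _).mpr ⟨A, fun _ h => h⟩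
        filter_upwards [hA] with τ hτ
        rw [norm_mul, norm_mul, ← mul_assoc]
        exact mul_le_mul_of_nonneg_right (hCA τ hτ) (norm_nonneg _)
      · have := (h2.norm).const_mul C
        simpa using this
    exact Ha.ne_zero (tendsto_nhds_unique h1 h3)
  · intro hle
    have h1 := Ha.tendsto hn
    have h2 := Hb.tendsto hn
    have hcb : 0 < ‖cb‖ := norm_pos_iff.mpr Hb.ne_zero
    have e1 : ∀ᶠ τ in atImInfty, ‖a τ * ceQ n τ ^ (-ma)‖ < ‖ca‖ + 1 :=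
      (h1.norm).eventually (gt_mem_nhds (by linarith))
    have e2 : ∀ᶠ τ in atImInfty, ‖cb‖ / 2 < ‖b τ * ceQ n τ ^ (-mb)‖ :=
      (h2.norm).eventually (lt_mem_nhds (by linarith))
    obtain ⟨A, hA⟩ := (atImInfty_mem _).mp (e1.and e2)
    refine ⟨(‖ca‖ + 1) * (2 / ‖cb‖), A, fun τ hτ => ?_⟩
    obtain ⟨ha, hb⟩ := hA τ hτ
    have hq0 : 0 < ‖ceQ n τ‖ := norm_pos_iff.mpr (ceQ_ne_zero n τ)
    have hq1 : ‖ceQ n τ‖ ≤ 1 := (ceQ_norm_lt_one hn τ).le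
    rw [norm_mul, norm_zpow] at ha hb
    have hqa : 0 < ‖ceQ n τ‖ ^ ma := zpow_pos hq0 _
    have hqb : 0 < ‖ceQ n τ‖ ^ mb := zpow_pos hq0 _
    have hqab : ‖ceQ n τ‖ ^ ma ≤ ‖ceQ n τ‖ ^ mb := zpow_le_zpow_right_of_le_one₀ hq0 hq1 hle
    rw [zpow_neg] at ha hb
    have ha' : ‖a τ‖ < (‖ca‖ + 1) * ‖ceQ n τ‖ ^ ma := by
      rwa [← div_eq_mul_inv, div_lt_iff₀ hqa] at ha
    have hb' : ‖cb‖ / 2 * ‖ceQ n τ‖ ^ mb < ‖b τ‖ := by
      rwa [← div_eq_mul_inv, lt_div_iff₀ hqb] at hb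
    have hca : 0 < ‖ca‖ + 1 := by positivity
    calc ‖a τ‖ ≤ (‖ca‖ + 1) * ‖ceQ n τ‖ ^ ma := ha'.le
      _ ≤ (‖ca‖ + 1) * ‖ceQ n τ‖ ^ mb := mul_le_mul_of_nonneg_left hqab hca.le
      _ = (‖ca‖ + 1) * (2 / ‖cb‖) * (‖cb‖ / 2 * ‖ceQ n τ‖ ^ mb) := by
          field_simp
      _ ≤ (‖ca‖ + 1) * (2 / ‖cb‖) * ‖b τ‖ :=
          mul_le_mul_of_nonneg_left hb'.le (by positivity)

end HasLeadInf

theorem ce_tendsto_vadd_atImInfty (x : ℝ) : Tendsto (fun τ : ℍ => x +ᵥ τ) atImInfty atImInfty := by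
  rw [atImInfty, tendsto_comap_iff]
  have : (UpperHalfPlane.im ∘ fun τ : ℍ => x +ᵥ τ) = UpperHalfPlane.im := by
    funext τ; simp [UpperHalfPlane.vadd_im]
  rw [this]
  exact tendsto_comap

theorem ceQ_vadd (n : ℕ) (x : ℝ) (τ : ℍ) :
    ceQ n (x +ᵥ τ) = Complex.exp (2 * π * Complex.I * x / (n : ℝ)) * ceQ n τ := by
  rw [ceQ_def, ceQ_def, ← Complex.exp_add, UpperHalfPlane.coe_vadd]
  congr 1
  push_cast
  ring

/-- **Periodicity forces divisibility of the exponent**: if `h (τ + w) = h τ` then `n ∣ w * m`. -/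
theorem HasLeadInf.dvd_of_periodic {n : ℕ} {h : ℍ → ℂ} {m : ℤ} {c : ℂ} (hn : 0 < n)
    (H : HasLeadInf n h m c) (w : ℤ) (hper : ∀ τ : ℍ, h (((w : ℝ)) +ᵥ τ) = h τ) :
    (n : ℤ) ∣ w * m := by
  obtain ⟨hc, G, hG, hG0, hev⟩ := H
  set ζ : ℂ := Complex.exp (2 * π * Complex.I * ((w : ℝ) : ℂ) / (n : ℝ)) with hζ
  have hev' : ∀ᶠ τ in atImInfty, h τ = (ζ * ceQ n τ) ^ m * G (ζ * ceQ n τ) := by
    filter_upwards [(ce_tendsto_vadd_atImInfty (w : ℝ)).eventually hev] with τ hτ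
    rw [← hper τ, hτ, ceQ_vadd]
  have h1 : Tendsto (fun τ => h τ * ceQ n τ ^ (-m)) atImInfty (𝓝 (ζ ^ m * c)) := by
    have hcont : Tendsto (fun τ => ζ ^ m * G (ζ * ceQ n τ)) atImInfty (𝓝 (ζ ^ m * c)) := by
      have h0 : Tendsto (fun τ => ζ * ceQ n τ) atImInfty (𝓝 0) := by
        have := (ceQ_tendsto hn).const_mul ζ
        simpa using this
      have := (hG.continuousAt.tendsto.comp h0).const_mul (ζ ^ m)
      rw [hG0] at this
      exact this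
    refine hcont.congr' ?_
    filter_upwards [hev'] with τ hτ
    rw [hτ, mul_zpow, zpow_neg]
    have := zpow_ne_zero m (ceQ_ne_zero n τ)
    field_simp
  have h2 := HasLeadInf.tendsto hn ⟨hc, G, hG, hG0, hev⟩
  have h3 : ζ ^ m * c = c := tendsto_nhds_unique h1 h2
  have h4 : ζ ^ m = 1 := by
    have : (ζ ^ m - 1) * c = 0 := by rw [sub_mul, h3, one_mul, sub_self]
    rcases mul_eq_zero.mp this with h | h
    · exact sub_eq_zero.mp h
    · exact absurd h hc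
  rw [hζ, ← Complex.exp_int_mul, Complex.exp_eq_one_iff] at h4
  obtain ⟨k, hk⟩ := h4
  have hn' : ((n : ℝ) : ℂ) ≠ 0 := by exact_mod_cast hn.ne'
  have hpi : (2 * π * Complex.I : ℂ) ≠ 0 := Complex.two_pi_I_ne_zero
  have h5 : ((m : ℂ)) * ((w : ℝ) : ℂ) = k * ((n : ℝ) : ℂ) := by
    field_simp at hk
    linear_combination hk
  refine ⟨k, ?_⟩
  have h7 : ((w * m : ℤ) : ℂ) = ((n * k : ℤ) : ℂ) := by
    push_cast
    push_cast at h5
    linear_combination h5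
  exact_mod_cast h7

/-- **Affine substitution** `σ(τ) = (aτ+b)/e`, `e ∣ n`: a level-one expansion in `q` becomes a
`q_n`-expansion. -/
theorem HasLeadInf.comp_affine {n : ℕ} {h : ℍ → ℂ} {m : ℤ} {c : ℂ} (hn : 0 < n)
    (H : HasLeadInf 1 h m c) (a e : ℕ) (b : ℤ) (ha : 0 < a) (he : 0 < e) (hen : e ∣ n)
    (σ : ℍ → ℍ) (hσ : ∀ τ : ℍ, ((σ τ : ℍ) : ℂ) = (a * (τ : ℂ) + b) / e) :
    HasLeadInf n (fun τ => h (σ τ)) (m * ((a * (n / e) : ℕ) : ℤ))
      (Complex.exp (2 * π * Complex.I * b / e) ^ m * c) := by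
  obtain ⟨hc, G, hG, hG0, hev⟩ := H
  set ζ : ℂ := Complex.exp (2 * π * Complex.I * b / e) with hζ
  set k : ℕ := a * (n / e) with hk
  have hk0 : k ≠ 0 := by
    have : 0 < n / e := Nat.div_pos (Nat.le_of_dvd hn hen) he
    positivity
  have hζ0 : ζ ≠ 0 := Complex.exp_ne_zero _
  have he' : ((e : ℕ) : ℂ) ≠ 0 := by exact_mod_cast he.ne'
  have hn' : ((n : ℕ) : ℂ) ≠ 0 := by exact_mod_cast hn.ne'
  -- `σ` tends to `i∞`
  have hσim : ∀ τ : ℍ, (σ τ).im = a * τ.im / e := by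
    intro τ
    have h1 : (σ τ).im = (((σ τ : ℍ) : ℂ)).im := rfl
    rw [h1, hσ τ]
    have h2 : ((a : ℂ) * (τ : ℂ) + (b : ℂ)) / (e : ℂ) =
        (((a : ℝ) * (τ : ℂ).re + (b : ℝ)) / (e : ℝ) : ℝ) + (((a : ℝ) * τ.im / (e : ℝ) : ℝ)) * Complex.I := by
      apply Complex.ext <;> simp
    rw [h2]
    simp
  have hσt : Tendsto σ atImInfty atImInfty := by
    rw [atImInfty, tendsto_comap_iff]
    have h1 : (UpperHalfPlane.im ∘ σ) = fun τ : ℍ => ((a : ℝ) / e) * τ.im := by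
      funext τ
      simp only [Function.comp_apply, hσim]
      ring
    rw [h1]
    have hpos : (0 : ℝ) < (a : ℝ) / e := by positivity
    exact (tendsto_comap (f := UpperHalfPlane.im) (x := atTop)).const_mul_atTop hpos
  -- the parameter
  have hq : ∀ τ : ℍ, ceQ 1 (σ τ) = ζ * ceQ n τ ^ k := by
    intro τ
    rw [ceQ_def, ceQ_def, hζ, ← Complex.exp_nat_mul, ← Complex.exp_add, hσ τ]
    congr 1
    obtain ⟨t, ht⟩ := hen
    have ht0 : 0 < t := by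
      rcases Nat.eq_zero_or_pos t with h0 | h0
      · rw [h0, mul_zero] at ht; omega
      · exact h0
    have hkt : k = a * t := by rw [hk, ht, Nat.mul_div_cancel_left _ he]
    have ht' : ((t : ℕ) : ℂ) ≠ 0 := by exact_mod_cast ht0.ne'
    rw [hkt, ht]
    push_cast
    field_simp
    ring
  refine ⟨mul_ne_zero (zpow_ne_zero _ hζ0) hc, fun z => ζ ^ m * G (ζ * z ^ k), ?_, ?_, ?_⟩
  · refine analyticAt_const.mul ?_
    have h1 : AnalyticAt ℂ (fun z : ℂ => ζ * z ^ k) 0 := analyticAt_const.mul (analyticAt_id.pow k)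
    have h2 : (fun z : ℂ => ζ * z ^ k) 0 = 0 := by simp [hk0]
    exact AnalyticAt.comp_of_eq hG h1 h2
  · simp only [zero_pow hk0, mul_zero, hG0]
  · filter_upwards [hσt.eventually hev] with τ hτ
    rw [hτ, hq τ, mul_zpow, ← zpow_natCast (ceQ n τ) k, ← zpow_mul, mul_comm (k : ℤ) m]
    ring

theorem hasLeadInf_const (n : ℕ) {a : ℂ} (ha : a ≠ 0) : HasLeadInf n (fun _ => a) 0 a :=
  ⟨ha, fun _ => a, analyticAt_const, rfl, by simp⟩

/-- `q_n` itself. -/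
theorem hasLeadInf_ceQ (n : ℕ) : HasLeadInf n (ceQ n) 1 1 :=
  ⟨one_ne_zero, fun _ => 1, analyticAt_const, rfl, by simp⟩

theorem hasLeadInf_ceQ_zpow (n : ℕ) (m : ℤ) : HasLeadInf n (fun τ => ceQ n τ ^ m) m 1 :=
  ⟨one_ne_zero, fun _ => 1, analyticAt_const, rfl, by simp⟩

theorem norm_ceQ (n : ℕ) (τ : ℍ) : ‖ceQ n τ‖ = Real.exp (-2 * π * τ.im / n) := by
  rw [ceQ, Periodic.norm_qParam]; rfl

/-- growth bound: `‖h τ‖ ≤ C ‖q_n‖^m` near `i∞`. -/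
theorem HasLeadInf.norm_le {n : ℕ} {h : ℍ → ℂ} {m : ℤ} {c : ℂ} (hn : 0 < n)
    (H : HasLeadInf n h m c) :
    ∃ C A : ℝ, ∀ τ : ℍ, A ≤ τ.im → ‖h τ‖ ≤ C * ‖ceQ n τ‖ ^ m := by
  obtain ⟨C, A, hCA⟩ := (H.bounded_iff hn (hasLeadInf_ceQ_zpow n m)).mpr le_rfl
  refine ⟨C, A, fun τ hτ => ?_⟩
  have := hCA τ hτ
  rwa [norm_zpow] at this

/-! ### periodic holomorphic functions bounded at `i∞` -/

theorem ce_periodic_comp_ofComplex_of_vadd {h : ℍ → ℂ} (p : ℝ)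
    (hper : ∀ τ : ℍ, h (p +ᵥ τ) = h τ) : Periodic (h ∘ ofComplex) p := by
  intro w
  by_cases hw : 0 < w.im
  · have hw' : 0 < (w + p).im := by simpa using hw
    simp only [comp_apply, ofComplex_apply_of_im_pos hw', ofComplex_apply_of_im_pos hw]
    rw [← hper ⟨w, hw⟩]
    congr 1
    ext
    simp [UpperHalfPlane.coe_vadd, add_comm]
  · have hw0 : w.im ≤ 0 := not_lt.mp hw
    have hw' : (w + p).im ≤ 0 := by simpa using hw0
    simp [ofComplex_apply_of_im_nonpos hw', ofComplex_apply_of_im_nonpos hw0]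

open scoped Manifold in
/-- a holomorphic `n`-periodic function with a nonzero limit at `i∞` has leading exponent `0`. -/
theorem hasLeadInf_of_tendsto {n : ℕ} (hn : 0 < n) {h : ℍ → ℂ} (hol : MDiff h)
    (hper : ∀ τ : ℍ, h ((n : ℝ) +ᵥ τ) = h τ) {c : ℂ} (hc : c ≠ 0)
    (hlim : Tendsto h atImInfty (𝓝 c)) : HasLeadInf n h 0 c := by
  have hn' : (0 : ℝ) < n := by exact_mod_cast hn
  have hP := ce_periodic_comp_ofComplex_of_vadd (n : ℝ) hper
  have hbd : IsBoundedAtImInfty h := by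
    rw [IsBoundedAtImInfty, BoundedAtFilter]
    exact hlim.isBigO_one ℝ
  have hG : AnalyticAt ℂ (UpperHalfPlane.cuspFunction (n : ℝ) h) 0 :=
    UpperHalfPlane.analyticAt_cuspFunction_zero hn' hP hol hbd
  have heq : ∀ τ : ℍ, UpperHalfPlane.cuspFunction (n : ℝ) h (ceQ n τ) = h τ := fun τ =>
    UpperHalfPlane.eq_cuspFunction τ hn'.ne' hP
  refine ⟨hc, _, hG, ?_, ?_⟩
  · have h1 : Tendsto (fun τ => UpperHalfPlane.cuspFunction (n : ℝ) h (ceQ n τ)) atImInfty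
        (𝓝 (UpperHalfPlane.cuspFunction (n : ℝ) h 0)) :=
      hG.continuousAt.tendsto.comp (ceQ_tendsto hn)
    simp only [heq] at h1
    exact tendsto_nhds_unique h1 hlim
  · filter_upwards with τ
    rw [heq, zpow_zero, one_mul]

open scoped Manifold in
/-- a holomorphic `n`-periodic function bounded at `i∞` is eventually `0` or has a leading term
with exponent `≥ 0`. -/
theorem isMeroInf_of_bounded {n : ℕ} (hn : 0 < n) {h : ℍ → ℂ} (hol : MDiff h)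
    (hper : ∀ τ : ℍ, h ((n : ℝ) +ᵥ τ) = h τ) (hbd : IsBoundedAtImInfty h) :
    (∀ᶠ τ : ℍ in atImInfty, h τ = 0) ∨ ∃ (j : ℕ) (c : ℂ), HasLeadInf n h j c := by
  have hn' : (0 : ℝ) < n := by exact_mod_cast hn
  have hP := ce_periodic_comp_ofComplex_of_vadd (n : ℝ) hper
  have hG : AnalyticAt ℂ (UpperHalfPlane.cuspFunction (n : ℝ) h) 0 :=
    UpperHalfPlane.analyticAt_cuspFunction_zero hn' hP hol hbd
  have heq : ∀ τ : ℍ, UpperHalfPlane.cuspFunction (n : ℝ) h (ceQ n τ) = h τ := fun τ =>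
    UpperHalfPlane.eq_cuspFunction τ hn'.ne' hP
  by_cases h0 : ∀ᶠ z in 𝓝 (0 : ℂ), UpperHalfPlane.cuspFunction (n : ℝ) h z = 0
  · left
    filter_upwards [(ceQ_tendsto hn).eventually h0] with τ hτ
    rw [← heq τ, hτ]
  · right
    obtain ⟨j, K, hK, hK0, hev⟩ := hG.exists_eventuallyEq_pow_smul_nonzero_iff.mpr h0
    refine ⟨j, K 0, hK0, K, hK, rfl, ?_⟩
    filter_upwards [(ceQ_tendsto hn).eventually hev] with τ hτ
    rw [← heq τ, hτ, sub_zero, smul_eq_mul, zpow_natCast]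

/-! ### the class `IsMeroInf` -/

namespace IsMeroInf

variable {n : ℕ} {h h₁ h₂ : ℍ → ℂ}

theorem congr (H : IsMeroInf n h₁) (he : ∀ᶠ τ in atImInfty, h₁ τ = h₂ τ) : IsMeroInf n h₂ := by
  rcases H with H | ⟨m, c, H⟩
  · left
    filter_upwards [H, he] with τ h1 h2
    rw [← h2, h1]
  · exact Or.inr ⟨m, c, H.congr he⟩

theorem add (hn : 0 < n) (H₁ : IsMeroInf n h₁) (H₂ : IsMeroInf n h₂) :
    IsMeroInf n (fun τ => h₁ τ + h₂ τ) := by
  rcases H₁ with H₁ | ⟨m₁, c₁, H₁⟩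
  · refine congr H₂ ?_
    filter_upwards [H₁] with τ hτ
    rw [hτ, zero_add]
  rcases H₂ with H₂ | ⟨m₂, c₂, H₂⟩
  · refine congr (Or.inr ⟨m₁, c₁, H₁⟩) ?_
    filter_upwards [H₂] with τ hτ
    rw [hτ, add_zero]
  rcases H₁.add hn H₂ with h0 | ⟨m, c, _, H⟩
  · exact Or.inl h0
  · exact Or.inr ⟨m, c, H⟩

theorem mul (H₁ : IsMeroInf n h₁) (H₂ : IsMeroInf n h₂) :
    IsMeroInf n (fun τ => h₁ τ * h₂ τ) := by
  rcases H₁ with H₁ | ⟨m₁, c₁, H₁⟩
  · left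
    filter_upwards [H₁] with τ hτ
    rw [hτ, zero_mul]
  rcases H₂ with H₂ | ⟨m₂, c₂, H₂⟩
  · left
    filter_upwards [H₂] with τ hτ
    rw [hτ, mul_zero]
  exact Or.inr ⟨_, _, H₁.mul H₂⟩

theorem neg (H : IsMeroInf n h) : IsMeroInf n (fun τ => - h τ) := by
  rcases H with H | ⟨m, c, H⟩
  · left
    filter_upwards [H] with τ hτ
    rw [hτ, neg_zero]
  · exact Or.inr ⟨_, _, H.neg⟩

theorem pow (H : IsMeroInf n h) (k : ℕ) : IsMeroInf n (fun τ => h τ ^ k) := by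
  induction k with
  | zero => exact Or.inr ⟨0, 1, by simpa using hasLeadInf_const n one_ne_zero⟩
  | succ k ih =>
    refine congr (ih.mul H) ?_
    filter_upwards with τ
    rw [pow_succ]

end IsMeroInf

theorem isMeroInf_const (n : ℕ) (a : ℂ) : IsMeroInf n (fun _ => a) := by
  by_cases ha : a = 0
  · left; simp [ha]
  · exact Or.inr ⟨0, a, hasLeadInf_const n ha⟩

/-! ### the order at `i∞` -/

open Classical in
/-- the exponent of the leading term at `i∞` (`0` if there is none). -/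
noncomputable def ceOrdInf (n : ℕ) (h : ℍ → ℂ) : ℤ :=
  if H : ∃ (m : ℤ) (c : ℂ), HasLeadInf n h m c then H.choose else 0

theorem HasLeadInf.ceOrdInf_eq {n : ℕ} {h : ℍ → ℂ} {m : ℤ} {c : ℂ} (hn : 0 < n)
    (H : HasLeadInf n h m c) : ceOrdInf n h = m := by
  have hex : ∃ (m : ℤ) (c : ℂ), HasLeadInf n h m c := ⟨m, c, H⟩
  rw [ceOrdInf, dif_pos hex]
  obtain ⟨c', hc'⟩ := hex.choose_spec
  exact (hc'.unique hn H).1

end Fermat.Agent.S24x
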