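import Mathlib

/-!
# S24 / C2c kernel : Laurent (width) invariance lemma

* `li_zpow_eq_one_of_invariant` : if `φ` fixes `z` with multiplier `μ = φ'(z) ≠ 0` and the
  meromorphic germ `F` at `z` of finite order `n : ℤ` satisfies `F ∘ φ = F` near `z`, then
  `μ ^ n = 1`.
* `li_dvd_order_of_rotation_invariant` : if `Φ` is meromorphic at `0` of order `n`, `ζ` is a
  primitive `N`-th root of unity and `Φ (ζ ^ w * x) = Φ x` near `0`, then
  `N / gcd N w ∣ n`.
-/

set_option autoImplicit false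

namespace Fermat.Agent.S24x

open Filter Topology

/-- Multiplier lemma for meromorphic germs. -/
theorem li_zpow_eq_one_of_invariant {φ F : ℂ → ℂ} {z μ : ℂ} {n : ℤ}
    (hφ : DifferentiableAt ℂ φ z) (hφz : φ z = z) (hμ : deriv φ z = μ) (hμ0 : μ ≠ 0)
    (hF : MeromorphicAt F z) (hn : meromorphicOrderAt F z = n)
    (h : ∀ᶠ w in 𝓝[≠] z, F (φ w) = F w) : μ ^ n = 1 := by
  obtain ⟨G, hG, hGz, hGeq⟩ := (meromorphicOrderAt_eq_int_iff hF).1 hn
  have hφc : ContinuousAt φ z := hφ.continuousAt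
  set D : ℂ → ℂ := dslope φ z with hD
  have hDc : ContinuousAt D z := continuousAt_dslope_same.2 hφ
  have hDz : D z = μ := by rw [hD, dslope_same, hμ]
  have hφsub : ∀ w, φ w - z = (w - z) * D w := by
    intro w
    have := sub_smul_dslope φ z w
    rw [hφz] at this
    rw [← this, smul_eq_mul]
  have hDne : ∀ᶠ w in 𝓝 z, D w ≠ 0 := hDc.eventually_ne (by rw [hDz]; exact hμ0)
  have hφt : Tendsto φ (𝓝[≠] z) (𝓝[≠] z) := by
    rw [tendsto_nhdsWithin_iff]
    refine ⟨?_, ?_⟩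
    · have := hφc.tendsto
      rw [hφz] at this
      exact this.mono_left nhdsWithin_le_nhds
    · filter_upwards [eventually_nhdsWithin_of_eventually_nhds hDne, self_mem_nhdsWithin]
        with w hw hwne
      have hwne' : w - z ≠ 0 := sub_ne_zero.2 hwne
      have : φ w - z ≠ 0 := by rw [hφsub w]; exact mul_ne_zero hwne' hw
      exact sub_ne_zero.1 this
  have hGφ := hφt.eventually hGeq
  have key : ∀ᶠ w in 𝓝[≠] z, D w ^ n * G (φ w) = G w := by
    filter_upwards [h, hGeq, hGφ, self_mem_nhdsWithin] with w h1 h2 h3 hwne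
    have hwne' : w - z ≠ 0 := sub_ne_zero.2 hwne
    rw [h3, h2, hφsub w, mul_zpow, smul_eq_mul, smul_eq_mul, mul_assoc] at h1
    exact mul_left_cancel₀ (zpow_ne_zero n hwne') h1
  have hGcφ : ContinuousAt (fun w => G (φ w)) z := by
    have : ContinuousAt G (φ z) := by rw [hφz]; exact hG.continuousAt
    exact ContinuousAt.comp (g := G) this hφc
  have hL : Tendsto (fun w => D w ^ n * G (φ w)) (𝓝[≠] z) (𝓝 (μ ^ n * G z)) := by
    have hDn : ContinuousAt (fun w => D w ^ n) z :=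
      hDc.zpow₀ n (Or.inl (by rw [hDz]; exact hμ0))
    have : ContinuousAt (fun w => D w ^ n * G (φ w)) z := hDn.mul hGcφ
    have h2 := this.tendsto
    simp only [hDz, hφz] at h2
    exact h2.mono_left nhdsWithin_le_nhds
  have hR : Tendsto G (𝓝[≠] z) (𝓝 (G z)) := hG.continuousAt.tendsto.mono_left nhdsWithin_le_nhds
  have hlim := tendsto_nhds_unique (hL.congr' key) hR
  exact mul_right_cancel₀ hGz (by rw [hlim, one_mul])

/-- **Laurent / width invariance lemma.**  `Φ` meromorphic at `0` of order `n`, invariant under the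
rotation `x ↦ ζ ^ w * x` with `ζ` a primitive `N`-th root of unity: then `N / gcd N w ∣ n`. -/
theorem li_dvd_order_of_rotation_invariant {Φ : ℂ → ℂ} {n : ℤ} {N : ℕ} (hN : N ≠ 0) {ζ : ℂ}
    (hζ : IsPrimitiveRoot ζ N) (w : ℕ) (hΦ : MeromorphicAt Φ 0)
    (hn : meromorphicOrderAt Φ 0 = n)
    (h : ∀ᶠ x in 𝓝[≠] (0 : ℂ), Φ (ζ ^ w * x) = Φ x) :
    ((N / Nat.gcd N w : ℕ) : ℤ) ∣ n := by
  have hζ0 : ζ ≠ 0 := hζ.ne_zero hN
  have hc0 : ζ ^ w ≠ 0 := pow_ne_zero _ hζ0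
  have hder : HasDerivAt (fun x : ℂ => ζ ^ w * x) (ζ ^ w) 0 := by
    simpa using (hasDerivAt_id (0 : ℂ)).const_mul (ζ ^ w)
  have h1 : (ζ ^ w) ^ n = 1 :=
    li_zpow_eq_one_of_invariant (φ := fun x : ℂ => ζ ^ w * x) (z := 0)
      hder.differentiableAt (by simp) hder.deriv hc0 hΦ hn h
  have hprim : IsPrimitiveRoot (ζ ^ w) (N / Nat.gcd N w) := by
    have h2 := IsPrimitiveRoot.orderOf (ζ ^ w)
    rw [(hζ.isOfFinOrder hN).orderOf_pow, ← hζ.eq_orderOf] at h2
    exact h2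
  exact (hprim.zpow_eq_one_iff_dvd n).1 h1

/-- Variant with an integer shift `w : ℤ`. -/
theorem li_dvd_order_of_rotation_invariant_int {Φ : ℂ → ℂ} {n : ℤ} {N : ℕ} (hN : N ≠ 0) {ζ : ℂ}
    (hζ : IsPrimitiveRoot ζ N) (w : ℤ) (hΦ : MeromorphicAt Φ 0)
    (hn : meromorphicOrderAt Φ 0 = n)
    (h : ∀ᶠ x in 𝓝[≠] (0 : ℂ), Φ (ζ ^ w * x) = Φ x) :
    ((N / Nat.gcd N w.natAbs : ℕ) : ℤ) ∣ n := by
  have hζ0 : ζ ≠ 0 := hζ.ne_zero hN
  have hc0 : ζ ^ w ≠ 0 := zpow_ne_zero _ hζ0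
  have hder : HasDerivAt (fun x : ℂ => ζ ^ w * x) (ζ ^ w) 0 := by
    simpa using (hasDerivAt_id (0 : ℂ)).const_mul (ζ ^ w)
  have h1 : (ζ ^ w) ^ n = 1 :=
    li_zpow_eq_one_of_invariant (φ := fun x : ℂ => ζ ^ w * x) (z := 0)
      hder.differentiableAt (by simp) hder.deriv hc0 hΦ hn h
  -- `(ζ ^ w) ^ n = 1` iff `(ζ ^ |w|) ^ n = 1`
  have h2 : (ζ ^ w.natAbs) ^ n = 1 := by
    rcases Int.natAbs_eq w with hw | hw
    · rw [hw, zpow_natCast] at h1
      exact h1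
    · rw [hw, zpow_neg, inv_zpow, inv_eq_one, zpow_natCast] at h1
      exact h1
  have hprim : IsPrimitiveRoot (ζ ^ w.natAbs) (N / Nat.gcd N w.natAbs) := by
    have h3 := IsPrimitiveRoot.orderOf (ζ ^ w.natAbs)
    rw [(hζ.isOfFinOrder hN).orderOf_pow, ← hζ.eq_orderOf] at h3
    exact h3
  exact (hprim.zpow_eq_one_iff_dvd n).1 h2


open UpperHalfPlane in
/-- **Width lemma on `ℍ`.**  If `h : ℍ → ℂ` is given near `i∞` by `h τ = Φ (q_N τ)` with `Φ`
meromorphic at `0` of order `n`, and `h (τ + w) = h τ`, then `N / gcd N w ∣ n`. -/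
theorem li_dvd_order_of_periodic {N : ℕ} (hN : N ≠ 0) {Φ : ℂ → ℂ} {n : ℤ}
    (hΦ : MeromorphicAt Φ 0) (hn : meromorphicOrderAt Φ 0 = n) {h : ℍ → ℂ} {A : ℝ}
    (hh : ∀ τ : ℍ, A < τ.im → h τ = Φ (Function.Periodic.qParam N τ)) (w : ℕ)
    (hper : ∀ τ : ℍ, A < τ.im → h ((w : ℝ) +ᵥ τ) = h τ) :
    ((N / Nat.gcd N w : ℕ) : ℤ) ∣ n := by
  have hNpos : (0 : ℝ) < N := by exact_mod_cast Nat.pos_of_ne_zero hN
  have hNC : (N : ℂ) ≠ 0 := by exact_mod_cast hN
  set ζ : ℂ := Complex.exp (2 * Real.pi * Complex.I / N) with hζdef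
  have hζ : IsPrimitiveRoot ζ N := Complex.isPrimitiveRoot_exp N hN
  refine li_dvd_order_of_rotation_invariant hN hζ w hΦ hn ?_
  have htend := Function.Periodic.invQParam_tendsto hNpos
  have hev : ∀ᶠ x in 𝓝[≠] (0 : ℂ), max A 0 < (Function.Periodic.invQParam N x).im := by
    have : ∀ᶠ y in Filter.comap Complex.im Filter.atTop, max A 0 < y.im :=
      (Filter.eventually_gt_atTop (max A 0)).comap Complex.im
    exact htend.eventually this
  filter_upwards [hev, self_mem_nhdsWithin] with x hx hx0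
  have hx0' : x ≠ 0 := hx0
  have hpos : 0 < (Function.Periodic.invQParam N x).im := lt_of_le_of_lt (le_max_right A 0) hx
  have hA : A < (Function.Periodic.invQParam N x).im := lt_of_le_of_lt (le_max_left A 0) hx
  set τ : ℍ := ⟨Function.Periodic.invQParam N x, hpos⟩ with hτ
  have hτim : τ.im = (Function.Periodic.invQParam N x).im := rfl
  have hq : Function.Periodic.qParam N (τ : ℂ) = x :=
    Function.Periodic.qParam_right_inv hNpos.ne' hx0'
  have hq2 : Function.Periodic.qParam N (((w : ℝ) +ᵥ τ : ℍ) : ℂ) = ζ ^ w * x := by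
    rw [← hq, UpperHalfPlane.coe_vadd, hζdef, ← Complex.exp_nat_mul]
    unfold Function.Periodic.qParam
    rw [← Complex.exp_add]
    congr 1
    push_cast
    field_simp
  have him : A < ((w : ℝ) +ᵥ τ : ℍ).im := by
    rw [UpperHalfPlane.vadd_im]; exact hA
  rw [← hq2, ← hh _ him, hper τ hA, hh τ hA, hq]

end Fermat.Agent.S24x
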