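/-
S24 helper library (C2c, part 1): elements of `Mer` which are meromorphic at `i∞` as functions of
the local parameter `q_N = exp(2πiτ/N)`; their germ, their order, boundedness criterion.
-/
import Mathlib
import Fermat.Agent.S24x.Defs
import Fermat.Agent.S24x.LaurentInv

set_option autoImplicit false

namespace Fermat.Agent.S24x

open UpperHalfPlane Filter Topology Function
open scoped MatrixGroups Manifold

/-- the local parameter `q_N = exp(2πiτ/N)` at `i∞` -/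
noncomputable def cgermQ (N : ℕ) (τ : ℍ) : ℂ := Periodic.qParam (N : ℝ) (τ : ℂ)

theorem cgermQ_ne_zero (N : ℕ) (τ : ℍ) : cgermQ N τ ≠ 0 := Periodic.qParam_ne_zero _

theorem cgermQ_tendsto (N : ℕ) [NeZero N] : Tendsto (cgermQ N) atImInfty (𝓝[≠] 0) :=
  (Periodic.qParam_tendsto (Nat.cast_pos.mpr (NeZero.pos N))).comp tendsto_coe_atImInfty

/-- identity theorem: an element of `Hol` vanishing near `i∞` is zero. -/
theorem cgerm_hol_eq_zero_of_eventually {h : Hol}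
    (hev : ∀ᶠ τ in atImInfty, (h : ℍ → ℂ) τ = 0) : h = 0 := by
  obtain ⟨A, hA⟩ := (atImInfty_mem _).mp hev
  set B : ℝ := max A 0 + 1 with hB
  have hBpos : 0 < B := by positivity
  have hz0 : (⟨0, B⟩ : ℂ) ∈ {z : ℂ | 0 < z.im} := hBpos
  have hev0 : ((h : ℍ → ℂ) ∘ ofComplex) =ᶠ[𝓝 (⟨0, B⟩ : ℂ)] 0 := by
    have hopen : IsOpen {z : ℂ | max A 0 < z.im} :=
      isOpen_lt continuous_const Complex.continuous_im
    have hmem : (⟨0, B⟩ : ℂ) ∈ {z : ℂ | max A 0 < z.im} := by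
      show max A 0 < B
      rw [hB]; linarith
    filter_upwards [hopen.mem_nhds hmem] with z hz
    have hzpos : 0 < z.im := lt_of_le_of_lt (le_max_right _ _) hz
    simp only [Function.comp_apply, Pi.zero_apply]
    apply hA
    rw [ofComplex_apply_of_im_pos hzpos]
    exact le_trans (le_max_left _ _) (le_of_lt hz)
  have h0 := (Hol.analyticOnNhd h).eqOn_zero_of_preconnected_of_eventuallyEq_zero
    isPreconnected_upperHalfPlaneSet hz0 hev0
  apply Subtype.ext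
  funext τ
  have h1 := h0 τ.im_pos
  simpa using h1

theorem cgerm_hol_frequently_ne_zero {h : Hol} (hh : h ≠ 0) :
    ∃ᶠ τ in atImInfty, (h : ℍ → ℂ) τ ≠ 0 := by
  intro hev
  apply hh
  apply cgerm_hol_eq_zero_of_eventually
  filter_upwards [hev] with τ hτ
  exact not_not.mp hτ

/-- `x ∈ Mer` is meromorphic at `i∞` in the parameter `q_N`, with germ `φ`. -/
def IsGermInf (N : ℕ) (x : Mer) (φ : ℂ → ℂ) : Prop :=
  MeromorphicAt φ 0 ∧ ∃ a b : Hol, b ≠ 0 ∧ x * algebraMap Hol Mer b = algebraMap Hol Mer a ∧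
    ∀ᶠ τ in atImInfty, (a : ℍ → ℂ) τ = φ (cgermQ N τ) * (b : ℍ → ℂ) τ

theorem cgerm_algebraMap_injective : Function.Injective (algebraMap Hol Mer) :=
  IsFractionRing.injective Hol Mer

theorem cgerm_algebraMap_ne_zero {b : Hol} (hb : b ≠ 0) : algebraMap Hol Mer b ≠ 0 := by
  intro h
  apply hb
  apply cgerm_algebraMap_injective
  rw [h, map_zero]

variable {N : ℕ} [NeZero N]

omit [NeZero N] in
theorem IsGermInf.meromorphicAt {x : Mer} {φ : ℂ → ℂ} (h : IsGermInf N x φ) :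
    MeromorphicAt φ 0 := h.1

theorem IsGermInf.congr {x : Mer} {φ ψ : ℂ → ℂ} (h : IsGermInf N x φ)
    (hφψ : φ =ᶠ[𝓝[≠] 0] ψ) : IsGermInf N x ψ := by
  obtain ⟨hm, a, b, hb, hx, hev⟩ := h
  refine ⟨hm.congr hφψ, a, b, hb, hx, ?_⟩
  filter_upwards [hev, (cgermQ_tendsto N).eventually hφψ] with τ h1 h2
  rw [h1, h2]

omit [NeZero N] in
theorem isGermInf_algebraMap {h : Hol} {φ : ℂ → ℂ} (hφ : MeromorphicAt φ 0)
    (hev : ∀ᶠ τ in atImInfty, (h : ℍ → ℂ) τ = φ (cgermQ N τ)) :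
    IsGermInf N (algebraMap Hol Mer h) φ := by
  refine ⟨hφ, h, 1, one_ne_zero, by simp, ?_⟩
  filter_upwards [hev] with τ hτ
  rw [hτ]
  simp

omit [NeZero N] in
theorem isGermInf_const (c : ℂ) : IsGermInf N (algebraMap ℂ Mer c) (fun _ => c) := by
  rw [IsScalarTower.algebraMap_apply ℂ Hol Mer]
  exact isGermInf_algebraMap (MeromorphicAt.const c 0) (Eventually.of_forall fun τ => rfl)

omit [NeZero N] in
theorem IsGermInf.add {x y : Mer} {φ ψ : ℂ → ℂ} (hx : IsGermInf N x φ) (hy : IsGermInf N y ψ) :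
    IsGermInf N (x + y) (φ + ψ) := by
  obtain ⟨hm1, a1, b1, hb1, hx1, hev1⟩ := hx
  obtain ⟨hm2, a2, b2, hb2, hx2, hev2⟩ := hy
  refine ⟨hm1.add hm2, a1 * b2 + a2 * b1, b1 * b2, mul_ne_zero hb1 hb2, ?_, ?_⟩
  · rw [map_add, map_mul, map_mul, map_mul, ← hx1, ← hx2]
    ring
  · filter_upwards [hev1, hev2] with τ h1 h2
    show (a1 : ℍ → ℂ) τ * (b2 : ℍ → ℂ) τ + (a2 : ℍ → ℂ) τ * (b1 : ℍ → ℂ) τ =
      (φ (cgermQ N τ) + ψ (cgermQ N τ)) * ((b1 : ℍ → ℂ) τ * (b2 : ℍ → ℂ) τ)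
    rw [h1, h2]
    ring

omit [NeZero N] in
theorem IsGermInf.mul {x y : Mer} {φ ψ : ℂ → ℂ} (hx : IsGermInf N x φ) (hy : IsGermInf N y ψ) :
    IsGermInf N (x * y) (φ * ψ) := by
  obtain ⟨hm1, a1, b1, hb1, hx1, hev1⟩ := hx
  obtain ⟨hm2, a2, b2, hb2, hx2, hev2⟩ := hy
  refine ⟨hm1.mul hm2, a1 * a2, b1 * b2, mul_ne_zero hb1 hb2, ?_, ?_⟩
  · rw [map_mul, map_mul, ← hx1, ← hx2]
    ring
  · filter_upwards [hev1, hev2] with τ h1 h2
    show (a1 : ℍ → ℂ) τ * (a2 : ℍ → ℂ) τ =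
      (φ (cgermQ N τ) * ψ (cgermQ N τ)) * ((b1 : ℍ → ℂ) τ * (b2 : ℍ → ℂ) τ)
    rw [h1, h2]
    ring

omit [NeZero N] in
theorem IsGermInf.neg {x : Mer} {φ : ℂ → ℂ} (hx : IsGermInf N x φ) :
    IsGermInf N (-x) (-φ) := by
  obtain ⟨hm1, a1, b1, hb1, hx1, hev1⟩ := hx
  refine ⟨hm1.neg, -a1, b1, hb1, ?_, ?_⟩
  · rw [map_neg, ← hx1]
    ring
  · filter_upwards [hev1] with τ h1
    show -(a1 : ℍ → ℂ) τ = (-φ (cgermQ N τ)) * (b1 : ℍ → ℂ) τ
    rw [h1]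
    ring

/-- the germ of `x` vanishes iff `x = 0` -/
theorem IsGermInf.eq_zero_iff {x : Mer} {φ : ℂ → ℂ} (h : IsGermInf N x φ) :
    x = 0 ↔ φ =ᶠ[𝓝[≠] 0] 0 := by
  obtain ⟨hm, a, b, hb, hx, hev⟩ := h
  constructor
  · intro hx0
    have ha : a = 0 := by
      apply cgerm_algebraMap_injective
      rw [← hx, hx0, zero_mul, map_zero]
    rcases hm.eventually_eq_zero_or_eventually_ne_zero with h0 | h0
    · exact h0
    · exfalso
      apply hb
      apply cgerm_hol_eq_zero_of_eventually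
      filter_upwards [hev, (cgermQ_tendsto N).eventually h0] with τ h1 h2
      rw [ha] at h1
      have h3 : φ (cgermQ N τ) * (b : ℍ → ℂ) τ = 0 := h1.symm
      rcases mul_eq_zero.mp h3 with h4 | h4
      · exact absurd h4 h2
      · exact h4
  · intro h0
    have ha : a = 0 := by
      apply cgerm_hol_eq_zero_of_eventually
      filter_upwards [hev, (cgermQ_tendsto N).eventually h0] with τ h1 h2
      rw [h1, h2]
      simp
    rw [ha, map_zero] at hx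
    rcases mul_eq_zero.mp hx with h1 | h1
    · exact h1
    · exact absurd h1 (cgerm_algebraMap_ne_zero hb)

/-- uniqueness of the germ -/
theorem IsGermInf.unique {x : Mer} {φ ψ : ℂ → ℂ} (h1 : IsGermInf N x φ) (h2 : IsGermInf N x ψ) :
    φ =ᶠ[𝓝[≠] 0] ψ := by
  have h := (h1.add h2.neg).eq_zero_iff.mp (by ring)
  filter_upwards [h] with q hq
  have : φ q + -ψ q = 0 := hq
  linear_combination this

theorem IsGermInf.order_ne_top {x : Mer} {φ : ℂ → ℂ} (h : IsGermInf N x φ) (hx : x ≠ 0) :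
    meromorphicOrderAt φ 0 ≠ ⊤ := by
  intro htop
  apply hx
  rw [h.eq_zero_iff]
  exact meromorphicOrderAt_eq_top_iff.mp htop

theorem IsGermInf.eventually_ne_zero {x : Mer} {φ : ℂ → ℂ} (h : IsGermInf N x φ) (hx : x ≠ 0) :
    ∀ᶠ q in 𝓝[≠] (0 : ℂ), φ q ≠ 0 :=
  (meromorphicOrderAt_ne_top_iff_eventually_ne_zero h.1).mp (h.order_ne_top hx)

theorem IsGermInf.inv {x : Mer} {φ : ℂ → ℂ} (h : IsGermInf N x φ) (hx : x ≠ 0) :
    IsGermInf N x⁻¹ φ⁻¹ := by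
  have hne := h.eventually_ne_zero hx
  obtain ⟨hm, a, b, hb, hxab, hev⟩ := h
  have ha : a ≠ 0 := by
    rintro rfl
    rw [map_zero] at hxab
    rcases mul_eq_zero.mp hxab with h1 | h1
    · exact hx h1
    · exact cgerm_algebraMap_ne_zero hb h1
  refine ⟨hm.inv, b, a, ha, ?_, ?_⟩
  · rw [← hxab, ← mul_assoc, inv_mul_cancel₀ hx, one_mul]
  · filter_upwards [hev, (cgermQ_tendsto N).eventually hne] with τ h1 h2
    rw [h1, Pi.inv_apply, ← mul_assoc, inv_mul_cancel₀ h2, one_mul]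

/-- the elements of `Mer` which are meromorphic at `i∞` in `q_N` -/
def MerInf (N : ℕ) [NeZero N] : Subfield Mer where
  carrier := {x | ∃ φ, IsGermInf N x φ}
  mul_mem' := by
    rintro x y ⟨φ, hx⟩ ⟨ψ, hy⟩
    exact ⟨_, hx.mul hy⟩
  one_mem' := ⟨_, by simpa using isGermInf_const (N := N) 1⟩
  add_mem' := by
    rintro x y ⟨φ, hx⟩ ⟨ψ, hy⟩
    exact ⟨_, hx.add hy⟩
  zero_mem' := ⟨_, by simpa using isGermInf_const (N := N) 0⟩
  neg_mem' := by
    rintro x ⟨φ, hx⟩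
    exact ⟨_, hx.neg⟩
  inv_mem' := by
    rintro x ⟨φ, hx⟩
    by_cases hx0 : x = 0
    · rw [hx0, inv_zero]
      exact ⟨_, by simpa using isGermInf_const (N := N) 0⟩
    · exact ⟨_, hx.inv hx0⟩

theorem mem_MerInf {x : Mer} : x ∈ MerInf N ↔ ∃ φ, IsGermInf N x φ := Iff.rfl

open scoped Classical in
/-- the order at `i∞` in the parameter `q_N` (junk value `0` outside `MerInf N` and at `0`) -/
noncomputable def ordInf (N : ℕ) (x : Mer) : ℤ :=
  if h : ∃ φ, IsGermInf N x φ then (meromorphicOrderAt h.choose 0).untop₀ else 0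

theorem IsGermInf.ordInf_eq {x : Mer} {φ : ℂ → ℂ} (h : IsGermInf N x φ) :
    ordInf N x = (meromorphicOrderAt φ 0).untop₀ := by
  have hex : ∃ φ, IsGermInf N x φ := ⟨φ, h⟩
  rw [ordInf, dif_pos hex, meromorphicOrderAt_congr (hex.choose_spec.unique h)]

theorem IsGermInf.coe_ordInf {x : Mer} {φ : ℂ → ℂ} (h : IsGermInf N x φ) (hx : x ≠ 0) :
    ((ordInf N x : ℤ) : WithTop ℤ) = meromorphicOrderAt φ 0 := by
  rw [h.ordInf_eq, WithTop.coe_untop₀_of_ne_top (h.order_ne_top hx)]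

theorem ordInf_mul {x y : Mer} (hx : x ∈ MerInf N) (hy : y ∈ MerInf N) (hx0 : x ≠ 0)
    (hy0 : y ≠ 0) : ordInf N (x * y) = ordInf N x + ordInf N y := by
  obtain ⟨φ, hφ⟩ := hx
  obtain ⟨ψ, hψ⟩ := hy
  have h := (hφ.mul hψ).coe_ordInf (mul_ne_zero hx0 hy0)
  rw [meromorphicOrderAt_mul hφ.1 hψ.1, ← hφ.coe_ordInf hx0, ← hψ.coe_ordInf hy0] at h
  exact_mod_cast h

theorem ordInf_add {x y : Mer} (hx : x ∈ MerInf N) (hy : y ∈ MerInf N) (hx0 : x ≠ 0)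
    (hy0 : y ≠ 0) (hxy : x + y ≠ 0) : min (ordInf N x) (ordInf N y) ≤ ordInf N (x + y) := by
  obtain ⟨φ, hφ⟩ := hx
  obtain ⟨ψ, hψ⟩ := hy
  have h := meromorphicOrderAt_add hφ.1 hψ.1
  rw [← (hφ.add hψ).coe_ordInf hxy, ← hφ.coe_ordInf hx0, ← hψ.coe_ordInf hy0] at h
  exact_mod_cast h

theorem ordInf_const {c : ℂ} (hc : c ≠ 0) : ordInf N (algebraMap ℂ Mer c) = 0 := by
  rw [(isGermInf_const (N := N) c).ordInf_eq]
  classical
  rw [meromorphicOrderAt_const, if_neg hc]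
  rfl

/-! ### independence of the representation `a / b` -/

theorem IsGermInf.rep {x : Mer} {φ : ℂ → ℂ} (h : IsGermInf N x φ) {a' b' : Hol}
    (hx' : x * algebraMap Hol Mer b' = algebraMap Hol Mer a') :
    ∀ᶠ τ in atImInfty, (a' : ℍ → ℂ) τ = φ (cgermQ N τ) * (b' : ℍ → ℂ) τ := by
  obtain ⟨hm, a, b, hb, hx, hev⟩ := h
  have hcross : a' * b = a * b' := by
    apply cgerm_algebraMap_injective
    rw [map_mul, map_mul, ← hx, ← hx']
    ring
  have han : ∀ᶠ τ in atImInfty, AnalyticAt ℂ φ (cgermQ N τ) :=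
    (cgermQ_tendsto N).eventually hm.eventually_analyticAt
  obtain ⟨A1, hA1⟩ := (atImInfty_mem _).mp hev
  obtain ⟨A2, hA2⟩ := (atImInfty_mem _).mp han
  set A : ℝ := max (max A1 A2) 0 with hA
  have hA1le : A1 ≤ A := le_trans (le_max_left _ _) (le_max_left _ _)
  have hA2le : A2 ≤ A := le_trans (le_max_right _ _) (le_max_left _ _)
  have hA0 : 0 ≤ A := le_max_right _ _
  set U : Set ℂ := {z | A < z.im} with hU
  have hUpre : IsPreconnected U := (convex_halfSpace_im_gt A).isPreconnected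
  have hUsub : U ⊆ {z : ℂ | 0 < z.im} := fun z hz => lt_of_le_of_lt hA0 hz
  let f : ℂ → ℂ := fun z => ((a' : ℍ → ℂ) ∘ ofComplex) z -
    (φ ∘ Periodic.qParam (N : ℝ)) z * ((b' : ℍ → ℂ) ∘ ofComplex) z
  let g : ℂ → ℂ := (b : ℍ → ℂ) ∘ ofComplex
  have hf : AnalyticOnNhd ℂ f U := by
    intro z hz
    have hz0 : 0 < z.im := hUsub hz
    have h1 : AnalyticAt ℂ ((a' : ℍ → ℂ) ∘ ofComplex) z := Hol.analyticOnNhd a' z hz0
    have h2 : AnalyticAt ℂ ((b' : ℍ → ℂ) ∘ ofComplex) z := Hol.analyticOnNhd b' z hz0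
    have h3 : AnalyticAt ℂ φ (Periodic.qParam (N : ℝ) z) :=
      hA2 ⟨z, hz0⟩ (le_trans hA2le (le_of_lt hz))
    have h4 : AnalyticAt ℂ (Periodic.qParam (N : ℝ)) z :=
      (Periodic.differentiable_qParam).analyticAt z
    exact h1.sub ((h3.comp h4).mul h2)
  have hg : AnalyticOnNhd ℂ g U := (Hol.analyticOnNhd b).mono hUsub
  have hfg : ∀ z ∈ U, f z * g z = 0 := by
    intro z hz
    have hz0 : 0 < z.im := hUsub hz
    have e1 : (a : ℍ → ℂ) ⟨z, hz0⟩ = φ (cgermQ N ⟨z, hz0⟩) * (b : ℍ → ℂ) ⟨z, hz0⟩ :=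
      hA1 ⟨z, hz0⟩ (le_trans hA1le (le_of_lt hz))
    have e2 : (a' : ℍ → ℂ) ⟨z, hz0⟩ * (b : ℍ → ℂ) ⟨z, hz0⟩ =
        (a : ℍ → ℂ) ⟨z, hz0⟩ * (b' : ℍ → ℂ) ⟨z, hz0⟩ :=
      congrFun (congrArg Subtype.val hcross) ⟨z, hz0⟩
    have e3 : cgermQ N ⟨z, hz0⟩ = Periodic.qParam (N : ℝ) z := rfl
    simp only [f, g, Function.comp_apply, ofComplex_apply_of_im_pos hz0]
    rw [e3] at e1
    linear_combination e2 + (b' : ℍ → ℂ) ⟨z, hz0⟩ * e1
  rcases AnalyticOnNhd.eq_zero_or_eq_zero_of_mul_eq_zero hf hg hfg hUpre with h0 | h0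
  · refine (atImInfty_mem _).mpr ⟨A + 1, fun τ hτ => ?_⟩
    have hτU : (τ : ℂ) ∈ U := by
      show A < (τ : ℂ).im
      have : (τ : ℂ).im = τ.im := rfl
      rw [this]; linarith
    have h1 := h0 (τ : ℂ) hτU
    simp only [f, Function.comp_apply, ofComplex_apply] at h1
    show (a' : ℍ → ℂ) τ = φ (cgermQ N τ) * (b' : ℍ → ℂ) τ
    have e3 : cgermQ N τ = Periodic.qParam (N : ℝ) (τ : ℂ) := rfl
    rw [e3]
    linear_combination h1
  · exfalso
    apply hb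
    apply cgerm_hol_eq_zero_of_eventually
    refine (atImInfty_mem _).mpr ⟨A + 1, fun τ hτ => ?_⟩
    have hτU : (τ : ℂ) ∈ U := by
      show A < (τ : ℂ).im
      have : (τ : ℂ).im = τ.im := rfl
      rw [this]; linarith
    have h1 := h0 (τ : ℂ) hτU
    simpa [g] using h1

/-! ### boundedness criterion -/

theorem IsGermInf.nonneg_iff_bounded {x : Mer} {φ : ℂ → ℂ} (h : IsGermInf N x φ) (hx0 : x ≠ 0)
    {a' b' : Hol} (hb' : b' ≠ 0) (hx' : x * algebraMap Hol Mer b' = algebraMap Hol Mer a') :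
    0 ≤ ordInf N x ↔ ∃ C A : ℝ, ∀ τ : ℍ, A ≤ τ.im →
      ‖(a' : ℍ → ℂ) τ‖ ≤ C * ‖(b' : ℍ → ℂ) τ‖ := by
  have hrep := h.rep hx'
  have hcoe := h.coe_ordInf hx0
  constructor
  · intro hnn
    have hnn' : 0 ≤ meromorphicOrderAt φ 0 := by
      rw [← hcoe]
      exact_mod_cast hnn
    obtain ⟨c, hc⟩ := (tendsto_nhds_iff_meromorphicOrderAt_nonneg h.1).mpr hnn'
    have hbd : ∀ᶠ q in 𝓝[≠] (0 : ℂ), ‖φ q‖ < ‖c‖ + 1 :=
      hc.norm.eventually (eventually_lt_nhds (lt_add_one ‖c‖))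
    have hev : ∀ᶠ τ in atImInfty, ‖(a' : ℍ → ℂ) τ‖ ≤ (‖c‖ + 1) * ‖(b' : ℍ → ℂ) τ‖ := by
      filter_upwards [hrep, (cgermQ_tendsto N).eventually hbd] with τ h1 h2
      rw [h1, norm_mul]
      exact mul_le_mul_of_nonneg_right h2.le (norm_nonneg _)
    obtain ⟨A, hA⟩ := (atImInfty_mem _).mp hev
    exact ⟨‖c‖ + 1, A, hA⟩
  · rintro ⟨C, A, hCA⟩
    by_contra hneg
    rw [not_le] at hneg
    have hneg' : meromorphicOrderAt φ 0 < 0 := by
      rw [← hcoe]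
      exact_mod_cast hneg
    have ht := tendsto_cobounded_of_meromorphicOrderAt_neg hneg'
    rw [← tendsto_norm_atTop_iff_cobounded] at ht
    have hbig : ∀ᶠ q in 𝓝[≠] (0 : ℂ), C < ‖φ q‖ := ht.eventually (eventually_gt_atTop C)
    have hev : ∀ᶠ τ in atImInfty, (b' : ℍ → ℂ) τ = 0 := by
      filter_upwards [hrep, (cgermQ_tendsto N).eventually hbig,
        (atImInfty_mem _).mpr ⟨A, hCA⟩] with τ h1 h2 h3
      by_contra hb0
      have hpos : 0 < ‖(b' : ℍ → ℂ) τ‖ := norm_pos_iff.mpr hb0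
      have h4 : ‖(a' : ℍ → ℂ) τ‖ ≤ C * ‖(b' : ℍ → ℂ) τ‖ := h3
      rw [h1, norm_mul] at h4
      have := mul_lt_mul_of_pos_right h2 hpos
      linarith
    exact hb' (cgerm_hol_eq_zero_of_eventually hev)

/-! ### translation `τ ↦ τ + n`: rotation of the germ -/

/-- `ζ_N = exp(2πi/N)` -/
noncomputable def cgermZeta (N : ℕ) : ℂ := Complex.exp (2 * Real.pi * Complex.I / N)

omit [NeZero N] in
theorem cgermZeta_ne_zero : cgermZeta N ≠ 0 := Complex.exp_ne_zero _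

theorem cgermZeta_isPrimitiveRoot : IsPrimitiveRoot (cgermZeta N) N :=
  Complex.isPrimitiveRoot_exp N (NeZero.ne N)

omit [NeZero N] in
theorem cgermQ_T_zpow_smul (n : ℤ) (τ : ℍ) :
    cgermQ N (ModularGroup.T ^ n • τ) = cgermZeta N ^ n * cgermQ N τ := by
  unfold cgermQ cgermZeta Periodic.qParam
  rw [ModularGroup.coe_T_zpow_smul_eq, ← Complex.exp_int_mul, ← Complex.exp_add]
  congr 1
  push_cast
  ring

omit [NeZero N] in
theorem IsGermInf.smul_T_zpow {x : Mer} {φ : ℂ → ℂ} (h : IsGermInf N x φ) (n : ℤ) :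
    IsGermInf N ((ModularGroup.T ^ n) • x) (fun q => φ (cgermZeta N ^ (-n) * q)) := by
  obtain ⟨hm, a, b, hb, hx, hev⟩ := h
  refine ⟨?_, (ModularGroup.T ^ n) • a, (ModularGroup.T ^ n) • b, ?_, ?_, ?_⟩
  · have hg : AnalyticAt ℂ (fun q : ℂ => cgermZeta N ^ (-n) * q) 0 := by fun_prop
    have hm' : MeromorphicAt φ ((fun q : ℂ => cgermZeta N ^ (-n) * q) 0) := by
      simpa using hm
    exact hm'.comp_analyticAt hg
  · rwa [Ne, smul_eq_zero_iff_eq]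
  · rw [← smul_algebraMap_Mer, ← smul_algebraMap_Mer, ← smul_mul', hx]
  · obtain ⟨A, hA⟩ := (atImInfty_mem _).mp hev
    refine (atImInfty_mem _).mpr ⟨A, fun τ hτ => ?_⟩
    show (a : ℍ → ℂ) ((ModularGroup.T ^ n)⁻¹ • τ) =
      φ (cgermZeta N ^ (-n) * cgermQ N τ) * (b : ℍ → ℂ) ((ModularGroup.T ^ n)⁻¹ • τ)
    have hγ : (ModularGroup.T ^ n)⁻¹ = ModularGroup.T ^ (-n) := (zpow_neg _ _).symm
    rw [hγ, ← cgermQ_T_zpow_smul]
    apply hA
    rw [ModularGroup.im_T_zpow_smul]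
    exact hτ

theorem T_zpow_smul_mem_MerInf {x : Mer} (hx : x ∈ MerInf N) (n : ℤ) :
    (ModularGroup.T ^ n) • x ∈ MerInf N := by
  obtain ⟨φ, hφ⟩ := hx
  exact ⟨_, hφ.smul_T_zpow n⟩

theorem ordInf_T_zpow_smul {x : Mer} (hx : x ∈ MerInf N) (n : ℤ) :
    ordInf N ((ModularGroup.T ^ n) • x) = ordInf N x := by
  obtain ⟨φ, hφ⟩ := hx
  rw [(hφ.smul_T_zpow n).ordInf_eq, hφ.ordInf_eq]
  have hc : cgermZeta N ^ (-n) ≠ 0 := zpow_ne_zero _ cgermZeta_ne_zero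
  have hg : AnalyticAt ℂ (fun q : ℂ => cgermZeta N ^ (-n) * q) 0 := by fun_prop
  have hder : deriv (fun q : ℂ => cgermZeta N ^ (-n) * q) 0 ≠ 0 := by
    have : HasDerivAt (fun q : ℂ => cgermZeta N ^ (-n) * q) (cgermZeta N ^ (-n)) 0 := by
      simpa using (hasDerivAt_id (0 : ℂ)).const_mul (cgermZeta N ^ (-n))
    rw [this.deriv]
    exact hc
  have h1 := meromorphicOrderAt_comp_of_deriv_ne_zero (f := φ) hg hder
  have h2 : (fun q => φ (cgermZeta N ^ (-n) * q)) =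
      φ ∘ (fun q : ℂ => cgermZeta N ^ (-n) * q) := rfl
  rw [h2, h1]
  simp

/-- **width lemma**: if `x` is invariant under `τ ↦ τ + w` then `N / gcd(N, w)` divides its order
at `i∞` (in the parameter `q_N`). -/
theorem dvd_ordInf_of_T_zpow_smul_eq {x : Mer} (hx : x ∈ MerInf N) (hx0 : x ≠ 0) (w : ℤ)
    (hinv : (ModularGroup.T ^ w) • x = x) :
    ((N / Nat.gcd N w.natAbs : ℕ) : ℤ) ∣ ordInf N x := by
  obtain ⟨φ, hφ⟩ := hx
  have h1 := hφ.smul_T_zpow w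
  rw [hinv] at h1
  have huniq := h1.unique hφ
  have h2 := li_dvd_order_of_rotation_invariant_int (NeZero.ne N) (cgermZeta_isPrimitiveRoot (N := N))
    (-w) hφ.1 (hφ.coe_ordInf hx0).symm huniq
  simpa using h2

end Fermat.Agent.S24x
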