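/-
S24 helper library (cusps): the `q_N`-expansion at `i∞` of `τ ↦ j(d·gτ)`, `g ∈ SL(2,ℤ)`, `d ∣ N`.
-/
import Fermat.Agent.S24x.JFun
import Fermat.Agent.S24x.CuspExpansion

set_option autoImplicit false

namespace Fermat.Agent.S24x

open UpperHalfPlane Filter Topology Function Complex ModularForm EisensteinSeries
open scoped Real Manifold MatrixGroups

/-- `q · j`, which extends holomorphically to `q = 0` with value `1`. -/
noncomputable def cjH (τ : ℍ) : ℂ := ceQ 1 τ * jFun τ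

theorem cj_mdiff_ceQ (n : ℕ) : MDiff (ceQ n) := by
  have h1 : Differentiable ℂ (Periodic.qParam (n : ℝ)) := Periodic.differentiable_qParam
  have h2 : MDiff (fun τ : ℍ => ((τ : ℍ) : ℂ)) := mdifferentiable_coe
  have : ceQ n = (Periodic.qParam (n : ℝ)) ∘ (fun τ : ℍ => ((τ : ℍ) : ℂ)) := rfl
  rw [this]
  exact h1.mdifferentiable.comp h2

theorem cjH_eq (τ : ℍ) : cjH τ = E₄ τ ^ 3 / ∏' n, (1 - eta_q n τ) ^ 24 := by
  have hΔ := discriminant_eq_q_prod τ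
  have hq : (Periodic.qParam 1 (τ : ℂ)) = ceQ 1 τ := by simp [ceQ]
  have hne := discriminant_ne_zero τ
  rw [hΔ, hq] at hne
  have hP : (∏' n, (1 - eta_q n τ) ^ 24) ≠ 0 := right_ne_zero_of_mul hne
  rw [cjH, jFun, hΔ, hq]
  field_simp [ceQ_ne_zero 1 τ]

theorem cjH_tendsto : Tendsto cjH atImInfty (𝓝 1) := by
  have h1 : Tendsto (fun τ : ℍ => E₄ τ ^ 3 / ∏' n, (1 - eta_q n τ) ^ 24) atImInfty
      (𝓝 (1 ^ 3 / 1)) :=
    (jf_tendsto_E₄.pow 3).div tendsto_atImInfty_tprod_one_sub_eta_q_pow one_ne_zero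
  simp only [one_pow, div_one] at h1
  exact h1.congr fun τ => (cjH_eq τ).symm

theorem cjH_mdiff : MDiff cjH := (cj_mdiff_ceQ 1).mul jFun_mdiff

theorem cjH_periodic (τ : ℍ) : cjH (((1 : ℕ) : ℝ) +ᵥ τ) = cjH τ := by
  have h1 : jFun (((1 : ℕ) : ℝ) +ᵥ τ) = jFun τ := by
    have := jFun_smul ModularGroup.T τ
    rwa [modular_T_smul, ← Nat.cast_one (R := ℝ)] at this
  rw [cjH, cjH, h1, ceQ_vadd]
  have : Complex.exp (2 * π * Complex.I * (((1 : ℕ) : ℝ) : ℂ) / (((1 : ℕ) : ℝ) : ℂ)) = 1 := by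
    simp [Complex.exp_two_pi_mul_I]
  rw [this, one_mul]

/-- **`j = q⁻¹ (1 + ⋯)`**. -/
theorem hasLeadInf_jFun : HasLeadInf 1 jFun (-1) 1 := by
  have h1 : HasLeadInf 1 cjH 0 1 :=
    hasLeadInf_of_tendsto one_pos cjH_mdiff cjH_periodic one_ne_zero cjH_tendsto
  have h2 := (hasLeadInf_ceQ_zpow 1 (-1)).mul h1
  simp only [add_zero, mul_one] at h2
  refine h2.congr ?_
  filter_upwards with τ
  rw [cjH, ← mul_assoc, ← zpow_add_one₀ (ceQ_ne_zero 1 τ)]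
  simp

/-- the affine map `τ ↦ (aτ+b)/e` of `ℍ`. -/
noncomputable def cjAff (a e : ℕ) (b : ℤ) (ha : 0 < a) (he : 0 < e) (τ : ℍ) : ℍ :=
  ⟨((a : ℂ) * (τ : ℂ) + (b : ℂ)) / (e : ℂ), by
    have h2 : ((a : ℂ) * (τ : ℂ) + (b : ℂ)) / (e : ℂ) =
        (((a : ℝ) * (τ : ℂ).re + (b : ℝ)) / (e : ℝ) : ℝ) +
          (((a : ℝ) * τ.im / (e : ℝ) : ℝ)) * Complex.I := by
      apply Complex.ext <;> simp
    rw [h2]
    have : (0 : ℝ) < (a : ℝ) * τ.im / (e : ℝ) := by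
      have := τ.im_pos
      positivity
    simpa using this⟩

theorem coe_cjAff (a e : ℕ) (b : ℤ) (ha : 0 < a) (he : 0 < e) (τ : ℍ) :
    ((cjAff a e b ha he τ : ℍ) : ℂ) = ((a : ℂ) * (τ : ℂ) + (b : ℂ)) / (e : ℂ) := rfl

/-- `j((aτ+b)/e)` has a `q_N`-expansion with leading exponent `-(a·N/e)` (for `e ∣ N`). -/
theorem hasLeadInf_jFun_affine {N : ℕ} (hN : 0 < N) (a e : ℕ) (b : ℤ) (ha : 0 < a) (he : 0 < e)
    (heN : e ∣ N) (σ : ℍ → ℍ) (hσ : ∀ τ : ℍ, ((σ τ : ℍ) : ℂ) = (a * (τ : ℂ) + b) / e) :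
    HasLeadInf N (fun τ => jFun (σ τ)) (-((a * (N / e) : ℕ) : ℤ))
      (Complex.exp (2 * π * Complex.I * b / e))⁻¹ := by
  have := hasLeadInf_jFun.comp_affine hN a e b ha he heN σ hσ
  simpa using this

/-- **Integer Hermite normal form** for `diag(d,1)·g`, in terms of the action on `ℍ`. -/
theorem cj_hermite (d : ℕ) (hd : 0 < d) (g : SL(2, ℤ)) :
    ∃ (a e : ℕ) (b : ℤ) (γ : SL(2, ℤ)), 0 < a ∧ 0 < e ∧ a * e = d ∧
      ∀ τ σ τ' : ℍ, (σ : ℂ) = ((a : ℂ) * (τ : ℂ) + (b : ℂ)) / (e : ℂ) →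
        (τ' : ℂ) = (d : ℂ) * ((g • τ : ℍ) : ℂ) → τ' = γ • σ := by
  have hdet : g 0 0 * g 1 1 - g 0 1 * g 1 0 = 1 := by
    have := g.det_coe
    rw [Matrix.det_fin_two] at this
    exact this
  set p : ℤ := d * g 0 0 with hp
  set r : ℤ := g 1 0 with hr
  have hpr : ¬ (p = 0 ∧ r = 0) := by
    rintro ⟨h1, h2⟩
    have hd' : (d : ℤ) ≠ 0 := by exact_mod_cast hd.ne'
    have h3 : g 0 0 = 0 := by
      rcases mul_eq_zero.mp h1 with h | h
      · exact absurd h hd'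
      · exact h
    rw [h3, h2] at hdet
    simp at hdet
  set A : ℕ := Int.gcd p r with hA
  have hApos : 0 < A := Int.gcd_pos_iff.mpr (by
    by_contra hcon
    rw [not_or, not_not, not_not] at hcon
    exact hpr hcon)
  have hA' : (A : ℤ) ≠ 0 := by exact_mod_cast hApos.ne'
  obtain ⟨x, hx⟩ : (A : ℤ) ∣ p := Int.gcd_dvd_left p r
  obtain ⟨y, hy⟩ : (A : ℤ) ∣ r := Int.gcd_dvd_right p r
  have hbez : (A : ℤ) = p * Int.gcdA p r + r * Int.gcdB p r := Int.gcd_eq_gcd_ab p r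
  set v : ℤ := Int.gcdA p r with hv
  set u : ℤ := - Int.gcdB p r with hu
  have hxy : x * v - u * y = 1 := by
    have h1 : (A : ℤ) * (x * v - u * y) = (A : ℤ) * 1 := by
      rw [mul_one]
      calc (A : ℤ) * (x * v - u * y) = (A * x) * v + (A * y) * Int.gcdB p r := by rw [hu]; ring
        _ = p * v + r * Int.gcdB p r := by rw [← hx, ← hy]
        _ = A := hbez.symm
    exact mul_left_cancel₀ hA' h1
  set E : ℤ := - y * (d * g 0 1) + x * g 1 1 with hE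
  have hAE : (A : ℤ) * E = d := by
    calc (A : ℤ) * E = - (A * y) * (d * g 0 1) + (A * x) * g 1 1 := by rw [hE]; ring
      _ = - r * (d * g 0 1) + p * g 1 1 := by rw [← hx, ← hy]
      _ = d * (g 0 0 * g 1 1 - g 0 1 * g 1 0) := by rw [hp, hr]; ring
      _ = d := by rw [hdet, mul_one]
  have hEpos : 0 < E := by
    have h1 : (0 : ℤ) < (A : ℤ) * E := by rw [hAE]; exact_mod_cast hd
    have h2 : (0 : ℤ) < (A : ℤ) := by exact_mod_cast hApos
    exact (mul_pos_iff_of_pos_left h2).mp h1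
  set B : ℤ := v * (d * g 0 1) - u * g 1 1 with hB
  let γ : SL(2, ℤ) := ⟨!![x, u; y, v], by rw [Matrix.det_fin_two_of]; exact hxy⟩
  have hEnat : ((E.toNat : ℕ) : ℤ) = E := Int.toNat_of_nonneg hEpos.le
  refine ⟨A, E.toNat, B, γ, hApos, by omega, ?_, ?_⟩
  · have : ((A * E.toNat : ℕ) : ℤ) = (d : ℤ) := by push_cast; rw [hEnat, hAE]
    exact_mod_cast this
  · intro τ σ τ' hσ hτ'
    apply UpperHalfPlane.ext
    rw [hτ', coe_specialLinearGroup_apply, coe_specialLinearGroup_apply, hσ]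
    have hEc : ((E.toNat : ℕ) : ℂ) = (E : ℂ) := by exact_mod_cast congrArg (Int.cast : ℤ → ℂ) hEnat
    have hE0 : (E : ℂ) ≠ 0 := by exact_mod_cast hEpos.ne'
    simp only [algebraMap_int_eq, Int.coe_castRingHom, Complex.ofReal_intCast, hEc]
    have hγ00 : (γ 0 0 : ℤ) = x := rfl
    have hγ01 : (γ 0 1 : ℤ) = u := rfl
    have hγ10 : (γ 1 0 : ℤ) = y := rfl
    have hγ11 : (γ 1 1 : ℤ) = v := rfl
    rw [hγ00, hγ01, hγ10, hγ11]
    -- numerators and denominators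
    have hxc : ((A : ℂ)) * (x : ℂ) = (d : ℂ) * (g 0 0 : ℂ) := by
      have := congrArg (Int.cast : ℤ → ℂ) hx
      push_cast at this
      rw [← this, hp]; push_cast; ring
    have hyc : ((A : ℂ)) * (y : ℂ) = (g 1 0 : ℂ) := by
      have := congrArg (Int.cast : ℤ → ℂ) hy
      push_cast at this
      rw [← this]
    have hxyc : (x : ℂ) * v - u * y = 1 := by exact_mod_cast congrArg (Int.cast : ℤ → ℂ) hxy
    have hBc : (B : ℂ) = v * (d * g 0 1) - u * g 1 1 := by rw [hB]; push_cast; ring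
    have hEc' : (E : ℂ) = - y * (d * g 0 1) + x * g 1 1 := by rw [hE]; push_cast; ring
    have hnum : (x : ℂ) * (((A : ℂ) * τ + B) / E) + u =
        ((d : ℂ) * ((g 0 0 : ℂ) * τ + g 0 1)) / E := by
      rw [eq_div_iff hE0, add_mul, mul_div_assoc', div_mul_cancel₀ _ hE0]
      rw [hBc, hEc']
      linear_combination (τ : ℂ) * hxc + (d : ℂ) * (g 0 1 : ℂ) * hxyc
    have hden : (y : ℂ) * (((A : ℂ) * τ + B) / E) + v = ((g 1 0 : ℂ) * τ + g 1 1) / E := by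
      rw [eq_div_iff hE0, add_mul, mul_div_assoc', div_mul_cancel₀ _ hE0]
      rw [hBc, hEc']
      linear_combination (τ : ℂ) * hyc + (g 1 1 : ℂ) * hxyc
    rw [hnum, hden, div_div_div_cancel_right₀ hE0, mul_div_assoc]

/-- conversion to Mathlib's `MeromorphicAt` language: the germ `φ(q) = q^m G(q)`. -/
theorem HasLeadInf.exists_meromorphicAt {n : ℕ} {h : ℍ → ℂ} {m : ℤ} {c : ℂ}
    (H : HasLeadInf n h m c) :
    ∃ φ : ℂ → ℂ, MeromorphicAt φ 0 ∧ meromorphicOrderAt φ 0 = m ∧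
      ∃ A : ℝ, ∀ τ : ℍ, A < τ.im → h τ = φ (Periodic.qParam (n : ℝ) (τ : ℂ)) := by
  obtain ⟨hc, G, hG, hG0, hev⟩ := H
  have hmer : MeromorphicAt (fun z : ℂ => z ^ m * G z) 0 :=
    ((MeromorphicAt.id (0 : ℂ)).zpow m).mul hG.meromorphicAt
  refine ⟨fun z => z ^ m * G z, hmer, ?_, ?_⟩
  · rw [meromorphicOrderAt_eq_int_iff hmer]
    refine ⟨G, hG, by rw [hG0]; exact hc, ?_⟩
    filter_upwards with z
    rw [sub_zero, smul_eq_mul]
  · obtain ⟨A, hA⟩ := (atImInfty_mem _).mp hev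
    exact ⟨A, fun τ hτ => hA τ hτ.le⟩

/-- multiplication by `d` on `ℍ`. -/
noncomputable def cjMul (d : ℕ) (hd : 0 < d) (τ : ℍ) : ℍ :=
  ⟨(d : ℂ) * (τ : ℂ), by
    have : (0 : ℝ) < (d : ℝ) * τ.im := by have := τ.im_pos; positivity
    simpa using this⟩

theorem coe_cjMul (d : ℕ) (hd : 0 < d) (τ : ℍ) : ((cjMul d hd τ : ℍ) : ℂ) = (d : ℂ) * (τ : ℂ) := rfl

/-- **`τ ↦ j(d·gτ)` has a `q_N`-expansion at `i∞`** with leading exponent `-k`, `1 ≤ k`,
`k = a·(N/e)` with `a·e = d` (so `k ≤ d·N`, and `k / N = a / e ≤ d`). -/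
theorem hasLeadInf_jFun_comp {N d : ℕ} (hN : 0 < N) (hd0 : 0 < d) (hd : d ∣ N) (g : SL(2, ℤ)) :
    ∃ (a e : ℕ) (c : ℂ), 0 < a ∧ 0 < e ∧ a * e = d ∧
      HasLeadInf N (fun τ => jFun (cjMul d hd0 (g • τ))) (-((a * (N / e) : ℕ) : ℤ)) c := by
  obtain ⟨a, e, b, γ, ha, he, hae, hγ⟩ := cj_hermite d hd0 g
  have heN : e ∣ N := (Dvd.intro_left a hae).trans hd
  refine ⟨a, e, (Complex.exp (2 * π * Complex.I * b / e))⁻¹, ha, he, hae, ?_⟩
  have h1 := hasLeadInf_jFun_affine hN a e b ha he heN (cjAff a e b ha he)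
    (fun τ => coe_cjAff a e b ha he τ)
  refine h1.congr ?_
  filter_upwards with τ
  have := hγ τ (cjAff a e b ha he τ) (cjMul d hd0 (g • τ)) (coe_cjAff a e b ha he τ)
    (coe_cjMul d hd0 _)
  rw [this, jFun_smul]

/-- The statement in the form requested by C2c (`CuspGerm.lean`). -/
theorem ce_jFun_comp (N d : ℕ) [NeZero N] [NeZero d] (hd : d ∣ N) (g : SL(2, ℤ)) :
    ∃ φ : ℂ → ℂ, MeromorphicAt φ 0 ∧
      (∃ A : ℝ, ∀ τ τ' : ℍ, A < τ.im → (τ' : ℂ) = d * ((g • τ : ℍ) : ℂ) →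
        jFun τ' = φ (Function.Periodic.qParam N τ)) := by
  have hN : 0 < N := Nat.pos_of_ne_zero (NeZero.ne N)
  have hd0 : 0 < d := Nat.pos_of_ne_zero (NeZero.ne d)
  obtain ⟨a, e, c, _, _, _, H⟩ := hasLeadInf_jFun_comp hN hd0 hd g
  obtain ⟨φ, hφ, _, A, hA⟩ := H.exists_meromorphicAt
  refine ⟨φ, hφ, A, fun τ τ' hτ hτ' => ?_⟩
  have : τ' = cjMul d hd0 (g • τ) := UpperHalfPlane.ext (by rw [hτ', coe_cjMul])
  rw [this]
  exact hA τ hτ

/-- the order of the germ of `j(d·gτ)` is negative (a pole at every cusp). -/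
theorem ce_jFun_comp_order (N d : ℕ) [NeZero N] [NeZero d] (hd : d ∣ N) (g : SL(2, ℤ)) :
    ∃ φ : ℂ → ℂ, MeromorphicAt φ 0 ∧ meromorphicOrderAt φ 0 < 0 ∧
      (∃ A : ℝ, ∀ τ τ' : ℍ, A < τ.im → (τ' : ℂ) = d * ((g • τ : ℍ) : ℂ) →
        jFun τ' = φ (Function.Periodic.qParam N τ)) := by
  have hN : 0 < N := Nat.pos_of_ne_zero (NeZero.ne N)
  have hd0 : 0 < d := Nat.pos_of_ne_zero (NeZero.ne d)
  obtain ⟨a, e, c, ha, he, hae, H⟩ := hasLeadInf_jFun_comp hN hd0 hd g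
  obtain ⟨φ, hφ, hord, A, hA⟩ := H.exists_meromorphicAt
  have heN : e ∣ N := (Dvd.intro_left a hae).trans hd
  have hk : 0 < a * (N / e) := Nat.mul_pos ha (Nat.div_pos (Nat.le_of_dvd hN heN) he)
  refine ⟨φ, hφ, ?_, A, fun τ τ' hτ hτ' => ?_⟩
  · rw [hord]
    have : (-((a * (N / e) : ℕ) : ℤ)) < 0 := by omega
    exact_mod_cast this
  · have : τ' = cjMul d hd0 (g • τ) := UpperHalfPlane.ext (by rw [hτ', coe_cjMul])
    rw [this]
    exact hA τ hτ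

/-- **Moderate growth** of `j(d·gτ)` at `i∞`: `‖j(d·gτ)‖ ≤ C·exp(2π d Im τ)`. -/
theorem jFun_comp_growth {N d : ℕ} (hN : 0 < N) (hd0 : 0 < d) (hd : d ∣ N) (g : SL(2, ℤ)) :
    ∃ C A : ℝ, ∀ τ : ℍ, A ≤ τ.im →
      ‖jFun (cjMul d hd0 (g • τ))‖ ≤ C * Real.exp (2 * π * d * τ.im) := by
  obtain ⟨a, e, c, ha, he, hae, H⟩ := hasLeadInf_jFun_comp hN hd0 hd g
  obtain ⟨C, A, hCA⟩ := H.norm_le hN
  have heN : e ∣ N := (Dvd.intro_left a hae).trans hd
  refine ⟨max C 0, max A 0, fun τ hτ => ?_⟩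
  have hτA : A ≤ τ.im := (le_max_left _ _).trans hτ
  have hτ0 : 0 ≤ τ.im := τ.im_pos.le
  refine (hCA τ hτA).trans ?_
  have h1 : ‖ceQ N τ‖ ^ (-((a * (N / e) : ℕ) : ℤ)) ≤ Real.exp (2 * π * d * τ.im) := by
    rw [norm_ceQ, ← Real.rpow_intCast, ← Real.exp_mul]
    apply Real.exp_le_exp.mpr
    obtain ⟨t, ht⟩ := heN
    have ht0 : 0 < t := by
      rcases Nat.eq_zero_or_pos t with h0 | h0
      · rw [h0, mul_zero] at ht; omega
      · exact h0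
    have hNe : N / e = t := by rw [ht, Nat.mul_div_cancel_left _ he]
    rw [hNe, ht]
    push_cast
    have hae' : (d : ℝ) = a * e := by exact_mod_cast hae.symm
    have he' : (1 : ℝ) ≤ e := by exact_mod_cast he
    have ht' : (0 : ℝ) < t := by exact_mod_cast ht0
    have he0 : (0 : ℝ) < e := by exact_mod_cast he
    have ha0 : (0 : ℝ) < a := by exact_mod_cast ha
    rw [hae']
    have : (-2 * π * τ.im / (e * t)) * (-((a : ℝ) * t)) = 2 * π * (a / e) * τ.im := by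
      field_simp
    rw [this]
    have h2 : (a : ℝ) / e ≤ a * e := by
      rw [div_le_iff₀ he0]
      nlinarith
    have hpi := Real.pi_pos
    have : 2 * π * ((a : ℝ) / e) * τ.im ≤ 2 * π * (a * e) * τ.im := by
      apply mul_le_mul_of_nonneg_right _ hτ0
      apply mul_le_mul_of_nonneg_left h2
      positivity
    exact this
  calc C * ‖ceQ N τ‖ ^ (-((a * (N / e) : ℕ) : ℤ))
      ≤ max C 0 * ‖ceQ N τ‖ ^ (-((a * (N / e) : ℕ) : ℤ)) := by
        apply mul_le_mul_of_nonneg_right (le_max_left _ _)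
        exact zpow_nonneg (norm_nonneg _) _
    _ ≤ max C 0 * Real.exp (2 * π * d * τ.im) :=
        mul_le_mul_of_nonneg_left h1 (le_max_right _ _)

end Fermat.Agent.S24x
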