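/-
S24 helper library (C2c): the cusp places `vCusp N g` of the modular function field `F_N`
(order at `i∞` in `q_N` of `f ∘ g`), with the interface lemmas of `AnSpec`.
-/
import Mathlib
import Fermat.Agent.S24x.CuspGerm
import Fermat.Agent.S24x.CuspJ
import Fermat.Agent.S24x.Realize
import Fermat.Agent.S24x.PlaceOfOrder

set_option autoImplicit false

namespace Fermat.Agent.S24x

open UpperHalfPlane Filter Topology Function AlgebraicCurve ModularCurve CongruenceSubgroup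
open scoped MatrixGroups Manifold

/-! ### generalities -/

/-- the place of an `OrderFn` only depends on the function `o`. -/
theorem OrderFn.place_eq_of_o_eq {K F : Type*} [Field K] [Field F] [Algebra K F] {ω₁ ω₂ : OrderFn K F}
    (h : ∀ f, ω₁.o f = ω₂.o f) : ω₁.place = ω₂.place := by
  have h' : ω₁ = ω₂ := by
    cases ω₁
    cases ω₂
    simp only [OrderFn.mk.injEq]
    exact funext h
  rw [h']

/-- induction principle for the modular function field: it is generated over `Q̄` by the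
`j(q^d)`, `d ∣ N`. -/
theorem FBar_induction (N : ℕ) {P : FBar N → Prop}
    (hconst : ∀ c : Qbar, P (algebraMap Qbar (FBar N) c))
    (hgen : ∀ (d : ℕ) [NeZero d] (hd : d ∣ N), P (jdBar N d hd))
    (hadd : ∀ x y, P x → P y → P (x + y))
    (hmul : ∀ x y, P x → P y → P (x * y))
    (hinv : ∀ x, P x → P x⁻¹) (f : FBar N) : P f := by
  obtain ⟨x, hx⟩ := f
  have hx' : x ∈ IntermediateField.adjoin Qbar (gensBar N) := by
    rw [← modularFunctionFieldBar_eq_adjoin]
    exact hx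
  have hback : ∀ y, y ∈ IntermediateField.adjoin Qbar (gensBar N) →
      y ∈ modularFunctionFieldBar N := by
    intro y hy
    rw [modularFunctionFieldBar_eq_adjoin]
    exact hy
  suffices h : ∀ hx : x ∈ modularFunctionFieldBar N, P ⟨x, hx⟩ from h hx
  clear hx
  induction hx' using IntermediateField.adjoin_induction with
  | mem y hy =>
    intro hy'
    obtain ⟨d, hne, hd, rfl⟩ := hy
    exact @hgen d hne hd
  | algebraMap c =>
    intro _
    exact hconst c
  | add y z hy hz ihy ihz =>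
    intro _
    exact hadd ⟨y, hback y hy⟩ ⟨z, hback z hz⟩ (ihy _) (ihz _)
  | inv y hy ihy =>
    intro _
    exact hinv ⟨y, hback y hy⟩ (ihy _)
  | mul y z hy hz ihy ihz =>
    intro _
    exact hmul ⟨y, hback y hy⟩ ⟨z, hback z hz⟩ (ihy _) (ihz _)

/-- bridge from `HasLeadInf` to germs. -/
theorem cgerm_isGermInf_of_hasLeadInf {n : ℕ} {h : Hol} {m : ℤ} {c : ℂ}
    (H : HasLeadInf n (h : ℍ → ℂ) m c) :
    ∃ φ : ℂ → ℂ, IsGermInf n (algebraMap Hol Mer h) φ ∧ meromorphicOrderAt φ 0 = m := by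
  obtain ⟨φ, hφ, hord, A, hA⟩ := H.exists_meromorphicAt
  refine ⟨φ, isGermInf_algebraMap hφ ?_, hord⟩
  refine (atImInfty_mem _).mpr ⟨A + 1, fun τ hτ => ?_⟩
  exact hA τ (by linarith)

theorem smul_algebraMap_complex_Mer (γ : SL(2, ℤ)) (z : ℂ) :
    γ • (algebraMap ℂ Mer z) = algebraMap ℂ Mer z := by
  rw [IsScalarTower.algebraMap_apply ℂ Hol Mer, smul_algebraMap_Mer]
  rfl

theorem inv_smul_Hol_apply (g : SL(2, ℤ)) (h : Hol) (τ : ℍ) :
    ((g⁻¹ • h : Hol) : ℍ → ℂ) τ = (h : ℍ → ℂ) (g • τ) := by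
  rw [smul_Hol_apply, inv_inv]

/-! ### the homomorphism `f ↦ (evF f) ∘ g` -/

variable (N : ℕ)

/-- `f ↦ g⁻¹ • evF f`, i.e. `f ↦ (evF f) ∘ g` -/
noncomputable def cuspHom (g : SL(2, ℤ)) : FBar N →+* Mer :=
  (MulSemiringAction.toRingHom SL(2, ℤ) Mer g⁻¹).comp (evF N)

theorem cuspHom_apply (g : SL(2, ℤ)) (f : FBar N) : cuspHom N g f = g⁻¹ • evF N f := rfl

theorem cuspHom_ne_zero (g : SL(2, ℤ)) {f : FBar N} (hf : f ≠ 0) : cuspHom N g f ≠ 0 :=
  (map_ne_zero (cuspHom N g)).mpr hf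

variable [NeZero N]

omit [NeZero N] in
theorem cuspHom_algebraMap (g : SL(2, ℤ)) (c : Qbar) :
    cuspHom N g (algebraMap Qbar (FBar N) c) = algebraMap ℂ Mer (iotaQ c) := by
  rw [cuspHom_apply, evF_algebraMap, smul_algebraMap_complex_Mer]

theorem inv_smul_jHol (g : SL(2, ℤ)) : (g⁻¹ • jHol : Hol) = jHol := by
  apply Subtype.ext
  funext τ
  rw [inv_smul_Hol_apply]
  exact jFun_smul g τ

omit [NeZero N] in
theorem cuspHom_jBar (g : SL(2, ℤ)) : cuspHom N g (jBar N) = jMer := by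
  rw [cuspHom_apply, evF_jBar]
  show g⁻¹ • algebraMap Hol Mer jHol = algebraMap Hol Mer jHol
  rw [smul_algebraMap_Mer, inv_smul_jHol]

theorem isGermInf_jMer :
    ∃ φ : ℂ → ℂ, IsGermInf N jMer φ ∧ meromorphicOrderAt φ 0 = (-(N : ℤ) : ℤ) := by
  have hN : 0 < N := Nat.pos_of_ne_zero (NeZero.ne N)
  have H := hasLeadInf_jFun_affine hN 1 1 0 one_pos one_pos (one_dvd N) id (by intro τ; simp)
  have H1 : HasLeadInf N (fun τ => jFun τ) (-(N : ℤ)) 1 := by simpa using H
  have H' : HasLeadInf N (jHol : ℍ → ℂ) (-(N : ℤ)) 1 := H1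
  exact cgerm_isGermInf_of_hasLeadInf H'

theorem ordInf_jMer : ordInf N jMer = -(N : ℤ) := by
  obtain ⟨φ, hφ, hord⟩ := isGermInf_jMer N
  rw [hφ.ordInf_eq, hord]
  rfl

theorem cuspHom_jdBar_mem (g : SL(2, ℤ)) (d : ℕ) [NeZero d] (hd : d ∣ N) :
    cuspHom N g (jdBar N d hd) ∈ MerInf N := by
  have hN : 0 < N := Nat.pos_of_ne_zero (NeZero.ne N)
  have hd0 : 0 < d := Nat.pos_of_ne_zero (NeZero.ne d)
  rw [cuspHom_apply, evF_jdBar, smul_algebraMap_Mer]
  obtain ⟨a, e, c, -, -, -, H⟩ := hasLeadInf_jFun_comp hN hd0 hd g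
  have hfun : ((g⁻¹ • jdHol d : Hol) : ℍ → ℂ) = fun τ => jFun (cjMul d hd0 (g • τ)) := by
    funext τ
    rw [inv_smul_Hol_apply, jdHol_eq]
    congr 1
  rw [← hfun] at H
  obtain ⟨φ, hφ, -⟩ := cgerm_isGermInf_of_hasLeadInf H
  exact ⟨φ, hφ⟩

theorem cuspHom_mem_MerInf (g : SL(2, ℤ)) (f : FBar N) : cuspHom N g f ∈ MerInf N := by
  induction f using FBar_induction with
  | hconst c =>
    rw [cuspHom_algebraMap]
    exact ⟨_, isGermInf_const _⟩
  | hgen d hd => exact cuspHom_jdBar_mem N g d hd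
  | hadd x y hx hy =>
    rw [map_add]
    exact add_mem hx hy
  | hmul x y hx hy =>
    rw [map_mul]
    exact mul_mem hx hy
  | hinv x hx =>
    rw [map_inv₀]
    exact inv_mem hx

/-! ### the order function and the place -/

/-- the order at the cusp `g∞` (in the parameter `q_N`) as an `OrderFn` on `F_N` -/
noncomputable def cuspOrderFn (g : SL(2, ℤ)) : OrderFn Qbar (FBar N) where
  o f := ordInf N (cuspHom N g f)
  map_mul a b ha hb := by
    rw [map_mul]
    exact ordInf_mul (cuspHom_mem_MerInf N g a) (cuspHom_mem_MerInf N g b)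
      (cuspHom_ne_zero N g ha) (cuspHom_ne_zero N g hb)
  map_add a b ha hb hab := by
    rw [map_add]
    refine ordInf_add (cuspHom_mem_MerInf N g a) (cuspHom_mem_MerInf N g b)
      (cuspHom_ne_zero N g ha) (cuspHom_ne_zero N g hb) ?_
    rw [← map_add]
    exact cuspHom_ne_zero N g hab
  map_const c hc := by
    rw [cuspHom_algebraMap]
    exact ordInf_const ((map_ne_zero iotaQ).mpr hc)
  nontrivial := by
    refine ⟨jBar N, ?_, ?_⟩
    · intro h0
      have h1 : cuspHom N g (jBar N) = 0 := by rw [h0, map_zero]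
      rw [cuspHom_jBar] at h1
      have h2 := ordInf_jMer N
      rw [h1] at h2
      have h3 : ordInf N (0 : Mer) = 0 := by
        have := (isGermInf_const (N := N) 0)
        rw [map_zero] at this
        rw [this.ordInf_eq]
        classical
        rw [meromorphicOrderAt_const, if_pos rfl]
        rfl
      rw [h3] at h2
      have : (N : ℤ) ≠ 0 := by exact_mod_cast NeZero.ne N
      omega
    · show ordInf N (cuspHom N g (jBar N)) ≠ 0
      rw [cuspHom_jBar, ordInf_jMer]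
      have : (N : ℤ) ≠ 0 := by exact_mod_cast NeZero.ne N
      omega

theorem cuspOrderFn_o (g : SL(2, ℤ)) (f : FBar N) :
    (cuspOrderFn N g).o f = ordInf N (cuspHom N g f) := rfl

theorem cuspOrderFn_o_jBar (g : SL(2, ℤ)) : (cuspOrderFn N g).o (jBar N) = -(N : ℤ) := by
  rw [cuspOrderFn_o, cuspHom_jBar, ordInf_jMer]

theorem cusp_jBar_ne_zero : jBar N ≠ 0 := by
  obtain ⟨f, hf0, hf⟩ := (cuspOrderFn N 1).nontrivial
  intro h0
  have h1 := cuspOrderFn_o_jBar N 1
  have h2 : (cuspOrderFn N 1).o (jBar N * f) = (cuspOrderFn N 1).o 0 := by rw [h0, zero_mul]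
  have h3 : (cuspOrderFn N 1).o (f * jBar N) = (cuspOrderFn N 1).o 0 := by rw [h0, mul_zero]
  rw [h0] at h1
  have h4 : (cuspOrderFn N 1).o (0 : FBar N) = 0 := by
    rw [cuspOrderFn_o, map_zero]
    have := (isGermInf_const (N := N) 0)
    rw [map_zero] at this
    rw [this.ordInf_eq]
    classical
    rw [meromorphicOrderAt_const, if_pos rfl]
    rfl
  have : (N : ℤ) ≠ 0 := by exact_mod_cast NeZero.ne N
  omega

/-- the place of `F_N` at the cusp `g • ∞` -/
noncomputable def vCusp (g : SL(2, ℤ)) : Place Qbar (FBar N) := (cuspOrderFn N g).place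

theorem vCusp_def (g : SL(2, ℤ)) : vCusp N g = (cuspOrderFn N g).place := rfl

/-- `f` is in the valuation ring of the cusp `g∞` iff `f ∘ g` is bounded at `i∞` -/
theorem mem_vCusp_iff (g : SL(2, ℤ)) (f : FBar N) (a b : Hol) (hb : b ≠ 0)
    (hf : evF N f * algebraMap Hol Mer b = algebraMap Hol Mer a) :
    f ∈ (vCusp N g).toValuationSubring ↔
      ∃ C A : ℝ, ∀ τ : ℍ, A ≤ τ.im →
        ‖(a : ℍ → ℂ) (g • τ)‖ ≤ C * ‖(b : ℍ → ℂ) (g • τ)‖ := by
  rw [vCusp_def, OrderFn.place_toValuationSubring, OrderFn.mem_valuationSubring]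
  by_cases hf0 : f = 0
  · have ha : a = 0 := by
      apply cgerm_algebraMap_injective
      rw [← hf, hf0, map_zero, zero_mul, map_zero]
    constructor
    · intro _
      refine ⟨0, 0, fun τ _ => ?_⟩
      rw [ha]
      simp
    · intro _
      exact Or.inl hf0
  · have hx0 : cuspHom N g f ≠ 0 := cuspHom_ne_zero N g hf0
    obtain ⟨φ, hφ⟩ := cuspHom_mem_MerInf N g f
    have hb' : (g⁻¹ • b : Hol) ≠ 0 := by rwa [Ne, smul_eq_zero_iff_eq]
    have hx' : cuspHom N g f * algebraMap Hol Mer (g⁻¹ • b) = algebraMap Hol Mer (g⁻¹ • a) := by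
      rw [cuspHom_apply, ← smul_algebraMap_Mer, ← smul_algebraMap_Mer, ← smul_mul', hf]
    have hiff := hφ.nonneg_iff_bounded hx0 hb' hx'
    simp only [inv_smul_Hol_apply] at hiff
    rw [← hiff, cuspOrderFn_o]
    constructor
    · rintro (h | h)
      · exact absurd h hf0
      · exact h
    · intro h
      exact Or.inr h

theorem vCusp_mul_of_mem_Gamma0 (γ : SL(2, ℤ)) (hγ : γ ∈ Gamma0 N) (g : SL(2, ℤ)) :
    vCusp N (γ * g) = vCusp N g := by
  rw [vCusp_def, vCusp_def]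
  apply OrderFn.place_eq_of_o_eq
  intro f
  rw [cuspOrderFn_o, cuspOrderFn_o, cuspHom_apply, cuspHom_apply, mul_inv_rev, mul_smul,
    evF_smul_of_mem_Gamma0 N γ⁻¹ (inv_mem hγ) f]

theorem vCusp_mul_T (g : SL(2, ℤ)) : vCusp N (g * ModularGroup.T) = vCusp N g := by
  rw [vCusp_def, vCusp_def]
  apply OrderFn.place_eq_of_o_eq
  intro f
  rw [cuspOrderFn_o, cuspOrderFn_o, cuspHom_apply, mul_inv_rev, mul_smul, ← cuspHom_apply]
  have h := ordInf_T_zpow_smul (cuspHom_mem_MerInf N g f) (-1)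
  rwa [zpow_neg_one] at h

/-- the cusp places are poles of `j` -/
theorem vCusp_mem_polePlaces (g : SL(2, ℤ)) :
    vCusp N g ∈ polePlaces Qbar (FBar N) (jBar N) := by
  rw [mem_polePlaces, vCusp_def]
  obtain ⟨e, he, -, h⟩ := (cuspOrderFn N g).exists_o_eq_mul_ord
  have h1 := h (jBar N) (cusp_jBar_ne_zero N)
  rw [cuspOrderFn_o_jBar] at h1
  have hN : (0 : ℤ) < N := by exact_mod_cast Nat.pos_of_ne_zero (NeZero.ne N)
  by_contra hcon
  rw [not_lt] at hcon
  have : 0 ≤ e * (cuspOrderFn N g).place.ord (jBar N) := mul_nonneg he.le hcon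
  omega

omit [NeZero N] in
/-- invariance of `f ∘ g` under `τ ↦ τ + w` when `g T^w g⁻¹ ∈ Γ₀(N)` -/
theorem cuspHom_T_pow_smul (g : SL(2, ℤ)) (w : ℕ) (h : g * ModularGroup.T ^ w * g⁻¹ ∈ Gamma0 N)
    (f : FBar N) : (ModularGroup.T ^ (w : ℤ)) • cuspHom N g f = cuspHom N g f := by
  have h1 := evF_smul_of_mem_Gamma0 N _ h f
  rw [cuspHom_apply, zpow_natCast]
  conv_rhs => rw [← h1]
  rw [← mul_smul, ← mul_smul]
  congr 1
  group

/-- ramification at a cusp is at most the width: if `g T^w g⁻¹ ∈ Γ₀(N)` then `e ≤ w`. -/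
theorem vCusp_ord_le (g : SL(2, ℤ)) (w : ℕ) (hw : 0 < w)
    (h : g * ModularGroup.T ^ w * g⁻¹ ∈ Gamma0 N) :
    -((vCusp N g).ord (jBar N)) ≤ w := by
  rw [vCusp_def]
  have hNpos : 0 < N := Nat.pos_of_ne_zero (NeZero.ne N)
  set d : ℕ := N / Nat.gcd N w with hd
  have hgpos : 0 < Nat.gcd N w := Nat.gcd_pos_of_pos_left w hNpos
  have hdg : d * Nat.gcd N w = N := Nat.div_mul_cancel (Nat.gcd_dvd_left N w)
  have hdpos : 0 < d := Nat.div_pos (Nat.le_of_dvd hNpos (Nat.gcd_dvd_left N w)) hgpos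
  have hdvd : ∀ f : FBar N, f ≠ 0 → (d : ℤ) ∣ (cuspOrderFn N g).o f := by
    intro f hf
    have h1 := dvd_ordInf_of_T_zpow_smul_eq (cuspHom_mem_MerInf N g f) (cuspHom_ne_zero N g hf)
      (w : ℤ) (cuspHom_T_pow_smul N g w h f)
    rw [Int.natAbs_natCast] at h1
    exact h1
  have hj0 := cusp_jBar_ne_zero N
  have hinv0 : (jBar N)⁻¹ ≠ 0 := inv_ne_zero hj0
  have hoinv : (cuspOrderFn N g).o (jBar N)⁻¹ = (N : ℤ) := by
    rw [(cuspOrderFn N g).map_inv hj0, cuspOrderFn_o_jBar, neg_neg]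
  have hpos : 0 < (cuspOrderFn N g).o (jBar N)⁻¹ := by
    rw [hoinv]
    exact_mod_cast hNpos
  have h2 := (cuspOrderFn N g).mul_ord_le_o hdvd hinv0 hpos
  rw [hoinv, Place.ord_inv] at h2
  -- d * (-ord j) ≤ N = d * gcd
  have h3 : (d : ℤ) * (-(cuspOrderFn N g).place.ord (jBar N)) ≤ (d : ℤ) * (Nat.gcd N w : ℤ) := by
    have : ((d * Nat.gcd N w : ℕ) : ℤ) = (N : ℤ) := by rw [hdg]
    push_cast at this
    rw [this]
    exact h2
  have hdposZ : (0 : ℤ) < d := by exact_mod_cast hdpos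
  have h4 : -(cuspOrderFn N g).place.ord (jBar N) ≤ (Nat.gcd N w : ℤ) :=
    le_of_mul_le_mul_left h3 hdposZ
  have h5 : (Nat.gcd N w : ℤ) ≤ w := by exact_mod_cast Nat.gcd_le_right N hw
  exact h4.trans h5

end Fermat.Agent.S24x
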