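/-
S24 helper library (C2c): the two constructions of the cusp places (germ form `vCusp`,
growth form `cg_vCusp`) coincide; hence every statement about one transfers to the other.
-/
import Fermat.Agent.S24x.CuspPlaces
import Fermat.Agent.S24x.CgCusp

set_option autoImplicit false

namespace Fermat.Agent.S24x

open UpperHalfPlane AlgebraicCurve ModularCurve CongruenceSubgroup
open scoped MatrixGroups

variable (N : ℕ) [NeZero N]

/-- every element of `Mer` is a quotient of holomorphic functions (in the shape used by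
`mem_vCusp_iff`). -/
theorem exists_hol_rep (x : Mer) :
    ∃ a b : Hol, b ≠ 0 ∧ x * algebraMap Hol Mer b = algebraMap Hol Mer a := by
  obtain ⟨a, b, hb, h⟩ := IsFractionRing.div_surjective (A := Hol) x
  have hb0 : b ≠ 0 := nonZeroDivisors.ne_zero hb
  have hbM : algebraMap Hol Mer b ≠ 0 := cgerm_algebraMap_ne_zero hb0
  refine ⟨a, b, hb0, ?_⟩
  rw [← h, div_mul_cancel₀ _ hbM]

/-- the germ-form and the growth-form cusp places are the same place. -/
theorem vCusp_eq_cg_vCusp (g : SL(2, ℤ)) : vCusp N g = cg_vCusp N g := by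
  apply Place.ext
  ext f
  obtain ⟨a, b, hb, hf⟩ := exists_hol_rep (evF N f)
  rw [mem_vCusp_iff N g f a b hb hf, cg_mem_vCusp_iff N g f a b hb hf]

/-- transfer of `covering_cusp` between the two forms. -/
theorem covering_cusp_iff (v : Place Qbar (FBar N)) :
    (∃ g : SL(2, ℤ), v = vCusp N g) ↔ ∃ g : SL(2, ℤ), v = cg_vCusp N g := by
  constructor
  · rintro ⟨g, hg⟩
    exact ⟨g, by rw [hg, vCusp_eq_cg_vCusp]⟩
  · rintro ⟨g, hg⟩
    exact ⟨g, by rw [hg, vCusp_eq_cg_vCusp]⟩

end Fermat.Agent.S24x
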