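import Mathlib

/-!
# S24 project: the abstract fibre lemma

Let `R` be a discrete valuation ring with fraction field `K`, `L/K` a finite separable extension of
degree `n`, `S` a Dedekind domain, finite over `R`, with fraction field `L` (so `S` is the integral
closure of `R` in `L`).  Let `M` be a field with a valuation `v`, such that `R` is mapped into the
valuation ring of `v` and the maximal ideal of `R` into its maximal ideal.  Suppose that we are
given `n` *distinct* `K`-embeddings `φ i : L → M`.  Each of them has a *centre* on `S`: the prime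
`{s | v (φ i s) < 1}`.  Then every maximal ideal `P` of `S` is the centre of exactly `e(P) * f(P)`
of the embeddings `φ i` (`fl_card_fiber`), in particular of at least one (`fl_exists_center_eq`),
and for such an embedding `v (φ i b) ^ e(P) = v ϖ` whenever `P = (b)` and `ϖ` is a uniformiser of
`R` (`fl_pow_ramificationIdx`).

All names are prefixed `fl_`.
-/

set_option autoImplicit false
set_option linter.unusedSectionVars false
set_option linter.overlappingInstances false

open Ideal IsLocalRing

namespace Fermat.Agent.S24x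

section Integral

variable {R M Γ₀ : Type*} [CommRing R] [Field M] [Algebra R M]
  [LinearOrderedCommGroupWithZero Γ₀] (v : Valuation M Γ₀)

/-- An element integral over a ring mapping into the valuation ring lies in the valuation ring. -/
theorem fl_le_one_of_isIntegral (hR : ∀ x : R, v (algebraMap R M x) ≤ 1) {y : M}
    (hy : IsIntegral R y) : v y ≤ 1 := by
  obtain ⟨f, hm, hf⟩ := hy
  by_cases hn : f.natDegree = 0
  · rw [Polynomial.natDegree_eq_zero] at hn
    obtain ⟨c, rfl⟩ := hn
    have hc : c = 1 := by
      have := hm.leadingCoeff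
      simpa using this
    subst hc
    rw [Polynomial.eval₂_C, map_one] at hf
    exact absurd hf one_ne_zero
  simp only [Polynomial.eval₂_eq_sum_range, Finset.sum_range_succ, hm.coeff_natDegree, map_one,
    one_mul, add_eq_zero_iff_eq_neg] at hf
  apply_fun v at hf
  rw [Valuation.map_neg, map_pow] at hf
  contrapose! hf
  refine ne_of_lt (v.map_sum_lt ?_ ?_)
  · simp [hn, (hf.trans' (zero_lt_one)).ne']
  · simp only [Finset.mem_range, map_mul, map_pow]
    intro _ hi
    exact mul_lt_of_le_one_of_lt (hR _) <| pow_lt_pow_right₀ hf hi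

end Integral


section Center

variable {R S K L M Γ₀ : Type*}
  [CommRing R] [CommRing S] [Algebra R S]
  [Field K] [Algebra R K] [Field L] [Algebra S L] [Algebra K L] [Algebra R L]
  [IsScalarTower R K L] [IsScalarTower R S L]
  [Field M] [Algebra K M] [Algebra R M] [IsScalarTower R K M]
  [LinearOrderedCommGroupWithZero Γ₀] (v : Valuation M Γ₀)

/-- elements of `S` are mapped into the valuation ring by every `K`-embedding. -/
theorem fl_le_one [Algebra.IsIntegral R S] (hR : ∀ x : R, v (algebraMap R M x) ≤ 1)
    (g : L →ₐ[K] M) (s : S) : v (g (algebraMap S L s)) ≤ 1 := by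
  apply fl_le_one_of_isIntegral v hR
  have h1 : IsIntegral R (algebraMap S L s) := (Algebra.IsIntegral.isIntegral (R := R) s).algebraMap
  have h2 : IsIntegral R ((g.restrictScalars R) (algebraMap S L s)) := h1.map (g.restrictScalars R)
  exact h2

/-- The centre on `S` of the valuation `v ∘ g`. -/
def fl_center [Algebra.IsIntegral R S] (hR : ∀ x : R, v (algebraMap R M x) ≤ 1)
    (g : L →ₐ[K] M) : Ideal S where
  carrier := {s | v (g (algebraMap S L s)) < 1}
  zero_mem' := by simp
  add_mem' := by
    intro a b ha hb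
    show v (g (algebraMap S L (a + b))) < 1
    rw [map_add, map_add]
    exact lt_of_le_of_lt (v.map_add _ _) (max_lt ha hb)
  smul_mem' := by
    intro c a ha
    show v (g (algebraMap S L (c • a))) < 1
    rw [smul_eq_mul, map_mul, map_mul, map_mul]
    exact mul_lt_one_of_nonneg_of_lt_one_right (fl_le_one v hR g c) zero_le ha

theorem fl_mem_center [Algebra.IsIntegral R S] (hR : ∀ x : R, v (algebraMap R M x) ≤ 1)
    (g : L →ₐ[K] M) (s : S) : s ∈ fl_center (S := S) v hR g ↔ v (g (algebraMap S L s)) < 1 := Iff.rfl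

theorem fl_not_mem_center [Algebra.IsIntegral R S] (hR : ∀ x : R, v (algebraMap R M x) ≤ 1)
    (g : L →ₐ[K] M) (s : S) : s ∉ fl_center (S := S) v hR g ↔ v (g (algebraMap S L s)) = 1 := by
  rw [fl_mem_center (S := S) v hR g, not_lt]
  exact ⟨fun h => le_antisymm (fl_le_one v hR g s) h, fun h => h.ge⟩

instance fl_center_isPrime [Algebra.IsIntegral R S] (hR : ∀ x : R, v (algebraMap R M x) ≤ 1)
    (g : L →ₐ[K] M) : (fl_center (S := S) v hR g).IsPrime := by
  constructor
  · rw [Ideal.ne_top_iff_one]
    rw [fl_mem_center (S := S) v hR g]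
    simp
  · intro a b hab
    by_contra hcon
    rw [not_or, fl_not_mem_center (S := S) v hR g, fl_not_mem_center (S := S) v hR g] at hcon
    rw [fl_mem_center (S := S) v hR g, map_mul, map_mul, map_mul, hcon.1, hcon.2] at hab
    simp at hab

end Center


section NormProd

variable {K L M : Type*} [Field K] [Field L] [Algebra K L] [FiniteDimensional K L]
  [Algebra.IsSeparable K L] [Field M] [Algebra K M]
  {ι : Type*} [Fintype ι]

/-- If `φ i` are `[L:K]` distinct `K`-embeddings of `L` into `M`, the norm is their product. -/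
theorem fl_norm_eq_prod (φ : ι → (L →ₐ[K] M)) (hφ : Function.Injective φ)
    (hcard : Fintype.card ι = Module.finrank K L) (x : L) :
    algebraMap K M (Algebra.norm K x) = ∏ i, φ i x := by
  classical
  let Mb := AlgebraicClosure M
  let j : M →ₐ[K] Mb := IsScalarTower.toAlgHom K M Mb
  have hj : Function.Injective j := (algebraMap M Mb).injective
  let ψ : ι → (L →ₐ[K] Mb) := fun i => j.comp (φ i)
  have hψ : Function.Injective ψ := by
    intro a b hab
    apply hφ
    ext y
    apply hj
    exact DFunLike.congr_fun hab y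
  have hbij : Function.Bijective ψ := by
    rw [Fintype.bijective_iff_injective_and_card]
    exact ⟨hψ, by rw [hcard, AlgHom.card K L Mb]⟩
  have h1 := Algebra.norm_eq_prod_embeddings K Mb x
  have h2 : ∏ σ : L →ₐ[K] Mb, σ x = ∏ i, ψ i x :=
    (Fintype.prod_bijective ψ hbij (fun i => ψ i x) (fun σ => σ x) (fun _ => rfl)).symm
  apply hj
  rw [map_prod]
  have h3 : j (algebraMap K M (Algebra.norm K x)) = algebraMap K Mb (Algebra.norm K x) := by
    rw [AlgHom.commutes]
  rw [h3, h1, h2]
  rfl

end NormProd


section Main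

theorem fl_eq_one_of_mul_eq_one {Γ₀ : Type*} [LinearOrderedCommGroupWithZero Γ₀] {a b : Γ₀}
    (ha : a ≤ 1) (hb : b ≤ 1) (h : a * b = 1) : a = 1 := by
  by_contra hne
  have hlt : a < 1 := lt_of_le_of_ne ha hne
  have : a * b < 1 := mul_lt_one_of_nonneg_of_lt_one_left zero_le hlt hb
  exact absurd h this.ne

variable {R S K L M Γ₀ : Type*}
  [CommRing R] [IsDomain R] [IsDiscreteValuationRing R]
  [CommRing S] [IsDedekindDomain S] [Algebra R S] [Module.Finite R S]
  [Module.IsTorsionFree R S]
  [Field K] [Algebra R K] [IsFractionRing R K]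
  [Field L] [Algebra S L] [IsFractionRing S L]
  [Algebra K L] [Algebra R L] [IsScalarTower R K L] [IsScalarTower R S L]
  [FiniteDimensional K L] [Algebra.IsSeparable K L]
  [Field M] [Algebra K M] [Algebra R M] [IsScalarTower R K M]
  [LinearOrderedCommGroupWithZero Γ₀] (v : Valuation M Γ₀)
  {ι : Type*} [Fintype ι] (φ : ι → (L →ₐ[K] M))

omit [IsDomain R] [IsDiscreteValuationRing R] in
theorem fl_unit_R (hR : ∀ x : R, v (algebraMap R M x) ≤ 1) (u : Rˣ) :
    v (algebraMap R M (u : R)) = 1 := by
  apply fl_eq_one_of_mul_eq_one (hR _) (hR ((u⁻¹ : Rˣ) : R))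
  rw [← map_mul, ← map_mul, Units.mul_inv, map_one, map_one]

theorem fl_unit_S (hR : ∀ x : R, v (algebraMap R M x) ≤ 1) (g : L →ₐ[K] M) (u : Sˣ) :
    v (g (algebraMap S L (u : S))) = 1 := by
  have : Algebra.IsIntegral R S := Algebra.IsIntegral.of_finite R S
  apply fl_eq_one_of_mul_eq_one (fl_le_one v hR g _) (fl_le_one v hR g ((u⁻¹ : Sˣ) : S))
  rw [← map_mul, ← map_mul, ← map_mul, Units.mul_inv, map_one, map_one, map_one]

theorem fl_algHom_algebraMap (g : L →ₐ[K] M) (x : R) :
    g (algebraMap S L (algebraMap R S x)) = algebraMap R M x := by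
  rw [← IsScalarTower.algebraMap_apply R S L, IsScalarTower.algebraMap_apply R K L,
    AlgHom.commutes, ← IsScalarTower.algebraMap_apply R K M]

theorem fl_intNorm_eq_prod (hφ : Function.Injective φ)
    (hcard : Fintype.card ι = Module.finrank K L) (s : S) :
    algebraMap R M (Algebra.intNorm R S s) = ∏ i, φ i (algebraMap S L s) := by
  have : Algebra.IsIntegral R S := Algebra.IsIntegral.of_finite R S
  have : IsIntegralClosure S R L := IsIntegralClosure.of_isIntegrallyClosed S R L
  rw [IsScalarTower.algebraMap_apply R K M, Algebra.algebraMap_intNorm (L := L),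
    fl_norm_eq_prod φ hφ hcard]


/-- a generator of a maximal ideal `P` has valuation `1` under an embedding whose centre is a
different prime. -/
theorem fl_gen_eq_one_of_center_ne (hR : ∀ x : R, v (algebraMap R M x) ≤ 1) (g : L →ₐ[K] M)
    (P : Ideal S) [P.IsMaximal] (b : S) (hP : P = span {b})
    (hne : haveI : Algebra.IsIntegral R S := Algebra.IsIntegral.of_finite R S
      fl_center (S := S) v hR g ≠ P) :
    v (g (algebraMap S L b)) = 1 := by
  have : Algebra.IsIntegral R S := Algebra.IsIntegral.of_finite R S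
  rw [← fl_not_mem_center (S := S) v hR g]
  intro hb
  apply hne
  have hle : P ≤ fl_center (S := S) v hR g := by
    rw [hP, span_singleton_le_iff_mem]
    exact hb
  exact ((‹P.IsMaximal›.eq_of_le (fl_center_isPrime v hR g).ne_top hle)).symm

/-- **Fibre lemma**, explicit version. -/
theorem fl_card_fiber_aux [PerfectField (FractionRing R)]
    (hR : ∀ x : R, v (algebraMap R M x) ≤ 1)
    (hφ : Function.Injective φ) (hcard : Fintype.card ι = Module.finrank K L)
    (ϖ : R) (hϖ : Irreducible ϖ) (hϖv : v (algebraMap R M ϖ) < 1)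
    (P : Ideal S) [P.IsMaximal] (b c : S) (e : ℕ) (hP : P = span {b})
    (hbc : algebraMap R S ϖ = b ^ e * c) (hc : c ∉ P) [DecidableEq (Ideal S)] :
    haveI : Algebra.IsIntegral R S := Algebra.IsIntegral.of_finite R S
    (Finset.univ.filter (fun i => fl_center (S := S) v hR (φ i) = P)).card
      = e * P.inertiaDeg R := by
  have hint : Algebra.IsIntegral R S := Algebra.IsIntegral.of_finite R S
  -- `P` lies over the maximal ideal of `R`
  have hunder : P.under R = maximalIdeal R :=
    IsLocalRing.eq_maximalIdeal (Ideal.IsMaximal.under R P)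
  have hlies : P.LiesOver (maximalIdeal R) := ⟨hunder.symm⟩
  -- the norm of `b`
  have hrel : relNorm R (span {b}) = (maximalIdeal R) ^ P.inertiaDeg R := by
    rw [← hP]
    exact relNorm_eq_pow_of_isMaximal P (maximalIdeal R)
  rw [relNorm_singleton, hϖ.maximalIdeal_eq, span_singleton_pow,
    span_singleton_eq_span_singleton] at hrel
  obtain ⟨u, hu⟩ := hrel
  have hvN : v (algebraMap R M (Algebra.intNorm R S b))
      = v (algebraMap R M ϖ) ^ P.inertiaDeg R := by
    have h1 : Algebra.intNorm R S b = ϖ ^ P.inertiaDeg R * ((u⁻¹ : Rˣ) : R) := by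
      rw [← hu, mul_assoc, Units.mul_inv, mul_one]
    rw [h1, map_mul, map_mul, map_pow, map_pow, fl_unit_R v hR, mul_one]
  rw [fl_intNorm_eq_prod φ hφ hcard, map_prod] at hvN
  -- split the product
  set F := Finset.univ.filter (fun i => fl_center (S := S) v hR (φ i) = P) with hF
  have hsplit : ∏ i, v (φ i (algebraMap S L b)) = ∏ i ∈ F, v (φ i (algebraMap S L b)) := by
    symm
    apply Finset.prod_subset (Finset.subset_univ _)
    intro i _ hi
    apply fl_gen_eq_one_of_center_ne v hR (φ i) P b hP
    intro h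
    exact hi (by rw [hF, Finset.mem_filter]; exact ⟨Finset.mem_univ _, h⟩)
  rw [hsplit] at hvN
  -- each factor
  have hfac : ∀ i ∈ F, v (φ i (algebraMap S L b)) ^ e = v (algebraMap R M ϖ) := by
    intro i hi
    rw [hF, Finset.mem_filter] at hi
    have hcv : v (φ i (algebraMap S L c)) = 1 := by
      rw [← fl_not_mem_center (S := S) v hR (φ i), hi.2]
      exact hc
    rw [← fl_algHom_algebraMap (S := S) (φ i) ϖ, hbc, map_mul, map_mul, map_mul, hcv, mul_one,
      map_pow, map_pow, map_pow]
  have hpow : v (algebraMap R M ϖ) ^ F.card = v (algebraMap R M ϖ) ^ (e * P.inertiaDeg R) := by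
    calc v (algebraMap R M ϖ) ^ F.card
        = ∏ i ∈ F, v (φ i (algebraMap S L b)) ^ e := by
          rw [Finset.prod_congr rfl hfac, Finset.prod_const]
      _ = (∏ i ∈ F, v (φ i (algebraMap S L b))) ^ e := by rw [Finset.prod_pow]
      _ = v (algebraMap R M ϖ) ^ (e * P.inertiaDeg R) := by rw [hvN, ← pow_mul, mul_comm]
  have hne0 : v (algebraMap R M ϖ) ≠ 0 := by
    rw [ne_eq, map_eq_zero, IsScalarTower.algebraMap_apply R K M, map_eq_zero,
      IsFractionRing.to_map_eq_zero_iff]
    exact hϖ.ne_zero
  exact pow_right_injective₀ (zero_lt_iff.mpr hne0) hϖv.ne hpow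


/-- value of a generator of the centre. -/
theorem fl_pow_eq_aux (hR : ∀ x : R, v (algebraMap R M x) ≤ 1) (g : L →ₐ[K] M)
    (ϖ : R) (P : Ideal S) (b c : S) (e : ℕ)
    (hbc : algebraMap R S ϖ = b ^ e * c) (hc : c ∉ P)
    (hg : haveI : Algebra.IsIntegral R S := Algebra.IsIntegral.of_finite R S
      fl_center (S := S) v hR g = P) :
    v (g (algebraMap S L b)) ^ e = v (algebraMap R M ϖ) := by
  have hint : Algebra.IsIntegral R S := Algebra.IsIntegral.of_finite R S
  have hcv : v (g (algebraMap S L c)) = 1 := by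
    rw [← fl_not_mem_center (S := S) v hR g, hg]
    exact hc
  rw [← fl_algHom_algebraMap (S := S) g ϖ, hbc, map_mul, map_mul, map_mul, hcv, mul_one,
    map_pow, map_pow, map_pow]

/-- `S` is semilocal, hence a principal ideal domain. -/
theorem fl_isPrincipalIdealRing (R S : Type*) [CommRing R] [IsDomain R]
    [IsDiscreteValuationRing R] [CommRing S] [IsDedekindDomain S] [Algebra R S]
    [Module.Finite R S] [Module.IsTorsionFree R S] : IsPrincipalIdealRing S := by
  have hint : Algebra.IsIntegral R S := Algebra.IsIntegral.of_finite R S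
  apply IsPrincipalIdealRing.of_finite_primes
  have hfin := IsDedekindDomain.primesOver_finite (maximalIdeal R) S
  apply (hfin.insert ⊥).subset
  intro I (hI : I.IsPrime)
  by_cases h0 : I = ⊥
  · exact Set.mem_insert_iff.mpr (Or.inl h0)
  · refine Set.mem_insert_iff.mpr (Or.inr ⟨hI, ?_⟩)
    have hmax : I.IsMaximal := hI.isMaximal h0
    exact ⟨(IsLocalRing.eq_maximalIdeal (Ideal.IsMaximal.under R I)).symm⟩

/-- decomposition of a uniformiser of `R` at a maximal ideal of `S`. -/
theorem fl_exists_decomp (ϖ : R) (hϖ : Irreducible ϖ) (P : Ideal S) [P.IsMaximal] :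
    ∃ b c : S, P = span {b} ∧ algebraMap R S ϖ = b ^ (P.ramificationIdx R) * c ∧ c ∉ P := by
  have hint : Algebra.IsIntegral R S := Algebra.IsIntegral.of_finite R S
  have hpid : IsPrincipalIdealRing S := fl_isPrincipalIdealRing R S
  have hunder : P.under R = maximalIdeal R :=
    IsLocalRing.eq_maximalIdeal (Ideal.IsMaximal.under R P)
  have hlies : P.LiesOver (maximalIdeal R) := ⟨hunder.symm⟩
  obtain ⟨b, hb⟩ : ∃ b, P = span {b} := ⟨_, (Ideal.span_singleton_generator P).symm⟩
  have hinj : Function.Injective (algebraMap R S) := FaithfulSMul.algebraMap_injective R S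
  have hϖ0 : algebraMap R S ϖ ≠ 0 := by
    rw [ne_eq, map_eq_zero_iff _ hinj]
    exact hϖ.ne_zero
  have hbunit : ¬ IsUnit b := by
    intro hu
    apply ‹P.IsMaximal›.ne_top
    rw [hb]
    exact Ideal.span_singleton_eq_top.mpr hu
  have hfin : FiniteMultiplicity b (algebraMap R S ϖ) := FiniteMultiplicity.of_not_isUnit hbunit hϖ0
  obtain ⟨c, hc1, hc2⟩ := hfin.exists_eq_pow_mul_and_not_dvd
  have hmap : map (algebraMap R S) (maximalIdeal R) = span {algebraMap R S ϖ} := by
    rw [hϖ.maximalIdeal_eq, Ideal.map_span, Set.image_singleton]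
  have hmap0 : map (algebraMap R S) (maximalIdeal R) ≠ ⊥ := by
    rw [hmap, ne_eq, Ideal.span_singleton_eq_bot]
    exact hϖ0
  have he : P.ramificationIdx R = multiplicity b (algebraMap R S ϖ) := by
    rw [IsDedekindDomain.ramificationIdx_eq_multiplicity (maximalIdeal R) P hmap0, hmap, hb]
    apply multiplicity_eq_of_dvd_of_not_dvd
    · rw [Ideal.span_singleton_pow, Ideal.span_singleton_dvd_span_singleton_iff_dvd]
      exact pow_multiplicity_dvd b _
    · rw [Ideal.span_singleton_pow, Ideal.span_singleton_dvd_span_singleton_iff_dvd]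
      exact hfin.not_pow_dvd_of_multiplicity_lt (Nat.lt_succ_self _)
  refine ⟨b, c, hb, ?_, ?_⟩
  · rw [he]
    exact hc1
  · rw [hb, Ideal.mem_span_singleton]
    exact hc2

/-- **Fibre lemma**: a maximal ideal `P` of `S` is the centre of exactly `e(P) * f(P)` of the
embeddings `φ i`. -/
theorem fl_card_fiber [PerfectField (FractionRing R)]
    (hR : ∀ x : R, v (algebraMap R M x) ≤ 1)
    (hm : ∀ x ∈ maximalIdeal R, v (algebraMap R M x) < 1)
    (hφ : Function.Injective φ) (hcard : Fintype.card ι = Module.finrank K L)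
    (P : Ideal S) [P.IsMaximal] [DecidableEq (Ideal S)] :
    haveI : Algebra.IsIntegral R S := Algebra.IsIntegral.of_finite R S
    (Finset.univ.filter (fun i => fl_center (S := S) v hR (φ i) = P)).card
      = P.ramificationIdx R * P.inertiaDeg R := by
  obtain ⟨ϖ, hϖ⟩ := IsDiscreteValuationRing.exists_irreducible R
  obtain ⟨b, c, hP, hbc, hc⟩ := fl_exists_decomp (R := R) ϖ hϖ P
  have hϖm : ϖ ∈ maximalIdeal R := by
    rw [hϖ.maximalIdeal_eq]
    exact Ideal.mem_span_singleton_self ϖ
  exact fl_card_fiber_aux v φ hR hφ hcard ϖ hϖ (hm ϖ hϖm) P b c _ hP hbc hc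

/-- every maximal ideal of `S` is the centre of one of the embeddings. -/
theorem fl_exists_center_eq [PerfectField (FractionRing R)]
    (hR : ∀ x : R, v (algebraMap R M x) ≤ 1)
    (hm : ∀ x ∈ maximalIdeal R, v (algebraMap R M x) < 1)
    (hφ : Function.Injective φ) (hcard : Fintype.card ι = Module.finrank K L)
    (P : Ideal S) [P.IsMaximal] :
    haveI : Algebra.IsIntegral R S := Algebra.IsIntegral.of_finite R S
    ∃ i, fl_center (S := S) v hR (φ i) = P := by
  classical
  have hint : Algebra.IsIntegral R S := Algebra.IsIntegral.of_finite R S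
  have h := fl_card_fiber v φ hR hm hφ hcard P
  have hpos : 0 < P.ramificationIdx R * P.inertiaDeg R :=
    Nat.mul_pos (Ideal.ramificationIdx_pos P R) (Ideal.inertiaDeg_pos P R)
  rw [← h, Finset.card_pos] at hpos
  obtain ⟨i, hi⟩ := hpos
  rw [Finset.mem_filter] at hi
  exact ⟨i, hi.2⟩

end Main

end Fermat.Agent.S24x
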