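/-
S24 final assembly in INPUT FORM (helper78): from the analytic inputs `CInputs N` (module
`CountsOfInputs`) and `IsCoordinate Qbar (FBar N) (jBar N)` to the genus formula.  Everything else
(layer A: `la_genus_eq_of_counts`, `place_essFiniteType`, `place_residue_surjective`,
`principal_degree_zero`; layer E: `e1_exists_genus`, `fa_genus_arith`) is landed and used here.
-/
import Fermat.Agent.S24x.CountsOfInputs
import Fermat.Agent.S24x.LayerA
import Fermat.Agent.S24x.PlaceLocal
import Fermat.Agent.S24x.PrincipalDegree
import Fermat.Agent.S24x.Arithmetic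
import Fermat.Agent.S24x.FinalArith

set_option autoImplicit false

namespace Fermat.Agent.S24x

open AlgebraicCurve ModularCurve

/-- **S24 from the analytic inputs.** -/
theorem genus_eq_genusFormula_of_inputs (N : ℕ) [NeZero N]
    [AlgebraicCurve.HasCanonicalDivisor (K := Qbar) (F := FBar N)]
    (A : CInputs N) (hco : IsCoordinate Qbar (FBar N) (jBar N)) :
    (AlgebraicCurve.genus Qbar (FBar N) : ℚ) = ModularCurve.genusFormula N := by
  classical
  have hne : (0 : Qbar) ≠ 1728 := by norm_num
  have hC : ∀ c ∉ ({0, 1728} : Finset Qbar),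
      (placesOver Qbar (FBar N) (jBar N) c).ncard = cdeg Qbar (FBar N) (jBar N) := by
    intro c hc
    simp only [Finset.mem_insert, Finset.mem_singleton, not_or] at hc
    rw [A.cdeg_jBar, A.ncard_placesOver_generic c hc.1 hc.2]
  have hg := la_genus_eq_of_counts (jBar N) hco
    (fun v => place_essFiniteType hco v) (fun v => place_residue_surjective hco v)
    A.sum_ord_placesOver A.sum_ord_polePlaces
    (fun g hg => principal_degree_zero hco g hg) ({0, 1728} : Finset Qbar) hC
  rw [Finset.sum_pair hne, A.cdeg_jBar] at hg
  rw [hg]
  exact fa_genus_arith N _ _ _ (e1_exists_genus N) A.ncard_placesOver_1728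
    A.ncard_placesOver_zero A.ncard_polePlaces

end Fermat.Agent.S24x
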