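/-
S24 project: STUBS of the layer-A / layer-E inputs of the final assembly `Fermat/Agent/S24.lean`
(sorry-only; NEVER imported by a graded file; the real statements replace these one by one).
-/
import Fermat.Agent.S24x.AlgDefs
import Fermat.Prelude.Def_ModularCurve_GenusNumerics

set_option autoImplicit false

namespace Fermat.Agent.S24x.Stub

open Fermat.Agent.S24x AlgebraicCurve ModularCurve

section A

variable {K F : Type*} [Field K] [Field F] [Algebra K F] [IsAlgClosed K] [CharZero K]

/- A2a/A2b LANDED: `PlaceLocal.place_essFiniteType`, `place_residue_surjective`. -/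

/- A3 (zeros) LANDED: `FundIdentity.sum_ord_placesOver`. -/

/- A3 (poles) LANDED: `FundIdentityAlt.fi_sum_ord_polePlaces`. -/

/-- A7 -/
theorem principal_degree_zero {t : F} (ht : IsCoordinate K F t) (g : F) (hg : g ≠ 0) :
    ∃ hfin : {v : Place K F | v.ord g ≠ 0}.Finite, ∑ v ∈ hfin.toFinset, v.ord g = 0 := sorry

end A

/- E1 LANDED: `GenusArith.ga_genus_nat`; final arithmetic `FinalArith.fa_genus_arith`. -/

end Fermat.Agent.S24x.Stub
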