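import Fermat.Agent.S24x.Defs
import Fermat.Agent.S24x.AlgDefs
import Fermat.Agent.S24x.Iota
import Fermat.Agent.S24x.CuspCounts
import Fermat.Agent.S24x.OrbitStab
import Fermat.Agent.S24x.CombIndex
import Fermat.Agent.S24x.CombFixed

/-!
# S24 project, module C5 (core): the number of places over `j = c` (finite `c`) and `[F : Q̄(j)]`

All analytic / algebraic inputs (modules A3, B1, B4, B5, C1, C2, C3, C4 of the blueprint) are bundled
in the structure `FCData N`; the counting theorems are proved for any `D : FCData N`.  The final file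
`FiniteCounts.lean` only has to build `FCData N` from the real modules.
-/

set_option autoImplicit false

namespace Fermat.Agent.S24x

open UpperHalfPlane AlgebraicCurve ModularCurve CongruenceSubgroup MulAction ModularGroup
open scoped MatrixGroups

/-- The inputs of module C5. -/
structure FCData (N : ℕ) [NeZero N] where
  /-- C2a: order of a meromorphic function at `τ` -/
  ordAt : ℍ → Mer → ℤ
  /-- C1: the analytic realisation -/
  evF : FBar N →+* Mer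
  /-- C2b: the point places -/
  vPt : ℍ → Place Qbar (FBar N)
  /-- B1: the point `ρ` -/
  rho : ℍ
  jHol_smul : ∀ γ : SL(2, ℤ), γ • jHol = jHol
  jFun_I : jFun UpperHalfPlane.I = 1728
  S_smul_I : ModularGroup.S • UpperHalfPlane.I = UpperHalfPlane.I
  ST_smul_rho : (ModularGroup.S * ModularGroup.T) • rho = rho
  jFun_rho : jFun rho = 0
  /-- B4 (through C2a): analytic orders of `j - c` -/
  ordAt_generic : ∀ τ : ℍ, jFun τ ≠ 0 → jFun τ ≠ 1728 →
    ordAt τ (algebraMap Hol Mer (jHol - algebraMap ℂ Hol (jFun τ))) = 1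
  ordAt_I : ordAt UpperHalfPlane.I (algebraMap Hol Mer (jHol - algebraMap ℂ Hol 1728)) = 2
  ordAt_rho : ordAt rho (algebraMap Hol Mer jHol) = 3
  ordAt_algebraMap_nonneg : ∀ (τ : ℍ) (h : Hol), 0 ≤ ordAt τ (algebraMap Hol Mer h)
  ordAt_algebraMap_eq_zero_iff : ∀ (τ : ℍ) {h : Hol}, h ≠ 0 →
    (ordAt τ (algebraMap Hol Mer h) = 0 ↔ (h : ℍ → ℂ) τ ≠ 0)
  ordAt_smul : ∀ (τ : ℍ) (γ : SL(2, ℤ)) (x : Mer), ordAt τ (γ • x) = ordAt (γ⁻¹ • τ) x
  /-- B5 -/
  two_dvd_ordAt_of_invariant : ∀ (α : SL(2, ℤ)) (x : Mer),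
    (α * ModularGroup.S * α⁻¹) • x = x → (2 : ℤ) ∣ ordAt (α • UpperHalfPlane.I) x
  three_dvd_ordAt_of_invariant : ∀ (α : SL(2, ℤ)) (x : Mer),
    (α * (ModularGroup.S * ModularGroup.T) * α⁻¹) • x = x → (3 : ℤ) ∣ ordAt (α • rho) x
  /-- C1 -/
  evF_algebraMap : ∀ c : Qbar, evF (algebraMap Qbar (FBar N) c) = algebraMap ℂ Mer (iotaQ c)
  evF_jBar : evF (jBar N) = jMer
  evF_smul_of_mem_Gamma0 : ∀ (γ : SL(2, ℤ)), γ ∈ Gamma0 N → ∀ f : FBar N, γ • evF f = evF f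
  /-- C2b -/
  exists_ordAt_eq_mul_vPt_ord : ∀ (τ : ℍ) (c : Qbar), jFun τ = iotaQ c →
    ∃ g : ℕ, 0 < g ∧ ∀ f : FBar N, ordAt τ (evF f) = g * (vPt τ).ord f
  vPt_smul_of_mem_Gamma0 : ∀ (γ : SL(2, ℤ)), γ ∈ Gamma0 N → ∀ τ : ℍ, vPt (γ • τ) = vPt τ
  /-- C3 -/
  covering_finite : ∀ (c : Qbar) (τ₀ : ℍ), jFun τ₀ = iotaQ c →
    ∀ v : Place Qbar (FBar N), v ∈ placesOver Qbar (FBar N) (jBar N) c →
      ∃ g : SL(2, ℤ), v = vPt (g • τ₀)
  /-- C4 -/
  dedekindPsi_le_cdeg : dedekindPsi N ≤ cdeg Qbar (FBar N) (jBar N)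
  /-- A3 -/
  sum_ord_placesOver : ∀ c : Qbar, ∃ hfin : (placesOver Qbar (FBar N) (jBar N) c).Finite,
    ∑ v ∈ hfin.toFinset, v.ord (jBar N - algebraMap Qbar (FBar N) c) =
      (cdeg Qbar (FBar N) (jBar N) : ℤ)

/-! ## The holomorphic function `j - z` -/

/-- `j - z` as a holomorphic function. -/
noncomputable def fcH (z : ℂ) : Hol := jHol - algebraMap ℂ Hol z

theorem fcH_apply (z : ℂ) (τ : ℍ) : (fcH z : ℍ → ℂ) τ = jFun τ - z := rfl

theorem fcH_ne_zero (z : ℂ) : fcH z ≠ 0 := by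
  intro h
  obtain ⟨τ, hτ⟩ := jFun_surjective (z + 1)
  have h1 : (fcH z : ℍ → ℂ) τ = 0 := by rw [h]; rfl
  rw [fcH_apply, hτ] at h1
  simp at h1

theorem fcH_zero : fcH 0 = jHol := by
  rw [fcH, map_zero, sub_zero]

/-- Conversion helper: from `(a : WithTop ℤ) = o.map Nat.cast` and `o = n` get `a = n`
(shape of the blueprint statement `ordAt_algebraMap`). -/
theorem fc_int_eq_of_withTop {a : ℤ} {o : ℕ∞} {n : ℕ}
    (h : ((a : ℤ) : WithTop ℤ) = o.map (Nat.cast : ℕ → ℤ)) (ho : o = n) : a = n := by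
  rw [ho] at h
  have h2 : ((n : ℕ∞).map (Nat.cast : ℕ → ℤ)) = ((n : ℤ) : WithTop ℤ) := rfl
  rw [h2] at h
  exact_mod_cast h

variable {N : ℕ} [NeZero N] (D : FCData N)

include D in
theorem fc_smul_fcH (γ : SL(2, ℤ)) (z : ℂ) : γ • fcH z = fcH z := by
  unfold fcH
  rw [smul_sub, D.jHol_smul]
  congr 1

include D in
theorem fc_smul_fcH_mer (γ : SL(2, ℤ)) (z : ℂ) :
    γ • algebraMap Hol Mer (fcH z) = algebraMap Hol Mer (fcH z) := by
  rw [smul_algebraMap_Mer, fc_smul_fcH D]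

theorem fc_ordAt_smul_inv (g : SL(2, ℤ)) (τ : ℍ) (z : ℂ) :
    D.ordAt (g⁻¹ • τ) (algebraMap Hol Mer (fcH z)) = D.ordAt τ (algebraMap Hol Mer (fcH z)) := by
  rw [← D.ordAt_smul τ g, fc_smul_fcH_mer D]

theorem fc_ordAt_pos (τ : ℍ) (z : ℂ) (h : jFun τ = z) :
    0 < D.ordAt τ (algebraMap Hol Mer (fcH z)) := by
  have h1 := D.ordAt_algebraMap_nonneg τ (fcH z)
  have h2 : D.ordAt τ (algebraMap Hol Mer (fcH z)) ≠ 0 := by
    intro h0
    have := (D.ordAt_algebraMap_eq_zero_iff τ (fcH_ne_zero z)).mp h0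
    rw [fcH_apply, h, sub_self] at this
    exact this rfl
  omega

theorem fc_evF_sub (c : Qbar) :
    D.evF (jBar N - algebraMap Qbar (FBar N) c) = algebraMap Hol Mer (fcH (iotaQ c)) := by
  rw [map_sub, D.evF_jBar, D.evF_algebraMap, fcH, map_sub, jMer,
    IsScalarTower.algebraMap_apply ℂ Hol Mer]

/-! ## The point places over `j = c` -/

theorem fc_mem_placesOver (c : Qbar) (τ : ℍ) (hτ : jFun τ = iotaQ c) :
    D.vPt τ ∈ placesOver Qbar (FBar N) (jBar N) c := by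
  obtain ⟨g, hg, hgf⟩ := D.exists_ordAt_eq_mul_vPt_ord τ c hτ
  rw [mem_placesOver]
  have h1 := hgf (jBar N - algebraMap Qbar (FBar N) c)
  rw [fc_evF_sub] at h1
  have h2 := fc_ordAt_pos D τ (iotaQ c) hτ
  rw [h1] at h2
  have hg' : (0 : ℤ) < g := by exact_mod_cast hg
  exact (mul_pos_iff_of_pos_left hg').mp h2

/-- `e ≤ n` if the analytic order of `j - c` at `τ` is `n`. -/
theorem fc_ord_le (c : Qbar) (τ : ℍ) (hτ : jFun τ = iotaQ c) (n : ℤ)
    (hA : D.ordAt τ (algebraMap Hol Mer (fcH (iotaQ c))) = n) :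
    (D.vPt τ).ord (jBar N - algebraMap Qbar (FBar N) c) ≤ n := by
  obtain ⟨g, hg, hgf⟩ := D.exists_ordAt_eq_mul_vPt_ord τ c hτ
  have h0 := D.ordAt_algebraMap_nonneg τ (fcH (iotaQ c))
  have h1 := hgf (jBar N - algebraMap Qbar (FBar N) c)
  rw [fc_evF_sub, hA] at h1
  rw [hA] at h0
  have hg' : (1 : ℤ) ≤ g := by exact_mod_cast hg
  rcases le_or_gt ((D.vPt τ).ord (jBar N - algebraMap Qbar (FBar N) c)) 0 with h | h
  · exact h.trans h0
  · rw [h1]
    exact le_mul_of_one_le_left h.le hg'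

/-- `e ≤ 1` if the analytic order of `j - c` at `τ` is a prime `p` dividing all orders at `τ` of
elements of the function field. -/
theorem fc_ord_le_one (c : Qbar) (τ : ℍ) (hτ : jFun τ = iotaQ c) (p : ℕ) (hp : p.Prime)
    (hA : D.ordAt τ (algebraMap Hol Mer (fcH (iotaQ c))) = p)
    (hdiv : ∀ f : FBar N, (p : ℤ) ∣ D.ordAt τ (D.evF f)) :
    (D.vPt τ).ord (jBar N - algebraMap Qbar (FBar N) c) ≤ 1 := by
  obtain ⟨g, hg, hgf⟩ := D.exists_ordAt_eq_mul_vPt_ord τ c hτ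
  have h1 := hgf (jBar N - algebraMap Qbar (FBar N) c)
  rw [fc_evF_sub, hA] at h1
  obtain ⟨π, -, hπ, -⟩ := dCoord_eq (D.vPt τ)
  have h2 := hdiv (π : FBar N)
  rw [hgf, hπ, mul_one] at h2
  have h3 : p ≤ g := Nat.le_of_dvd hg (by exact_mod_cast h2)
  by_contra hcon
  rw [not_le] at hcon
  have h4 : (2 : ℤ) ≤ (D.vPt τ).ord (jBar N - algebraMap Qbar (FBar N) c) := hcon
  have h5 : (p : ℤ) ≤ g := by exact_mod_cast h3
  have h6 : (0 : ℤ) < p := by exact_mod_cast hp.pos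
  nlinarith

/-- The family of point places indexed by the cosets: `gΓ₀(N) ↦ v_{g⁻¹ τ₀}`. -/
noncomputable def fcVP (τ₀ : ℍ) : Q N → Place Qbar (FBar N) :=
  fun q => D.vPt (q.out⁻¹ • τ₀)

theorem fcVP_mk (τ₀ : ℍ) (g : SL(2, ℤ)) : fcVP D τ₀ (g : Q N) = D.vPt (g⁻¹ • τ₀) := by
  obtain ⟨γ, hγ⟩ := QuotientGroup.mk_out_eq_mul (Gamma0 N) g
  unfold fcVP
  rw [hγ, mul_inv_rev, mul_smul]
  exact D.vPt_smul_of_mem_Gamma0 _ (inv_mem γ.2) _

theorem fcVP_smul (τ₀ : ℍ) (s : SL(2, ℤ)) (hs : s • τ₀ = τ₀) (h : Subgroup.zpowers s) (x : Q N) :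
    fcVP D τ₀ (h • x) = fcVP D τ₀ x := by
  induction x using QuotientGroup.induction_on with
  | H g =>
    have h1 : h • ((g : SL(2, ℤ)) : Q N) = (((h : SL(2, ℤ)) * g : SL(2, ℤ)) : Q N) := rfl
    rw [h1, fcVP_mk, fcVP_mk, mul_inv_rev, mul_smul]
    have hle : Subgroup.zpowers s ≤ stabilizer SL(2, ℤ) τ₀ :=
      (Subgroup.zpowers_le).mpr (mem_stabilizer_iff.mpr hs)
    have h2 : (h : SL(2, ℤ))⁻¹ • τ₀ = τ₀ := mem_stabilizer_iff.mp (inv_mem (hle h.2))
    rw [h2]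

theorem fcVP_cov (c : Qbar) (τ₀ : ℍ) (hτ₀ : jFun τ₀ = iotaQ c) (v : Place Qbar (FBar N))
    (hv : v ∈ placesOver Qbar (FBar N) (jBar N) c) : ∃ x, fcVP D τ₀ x = v := by
  obtain ⟨g, hg⟩ := D.covering_finite c τ₀ hτ₀ v hv
  exact ⟨((g⁻¹ : SL(2, ℤ)) : Q N), by rw [fcVP_mk, inv_inv, hg]⟩

theorem fcVP_mem (c : Qbar) (τ₀ : ℍ) (hτ₀ : jFun τ₀ = iotaQ c) (x : Q N) :
    fcVP D τ₀ x ∈ placesOver Qbar (FBar N) (jBar N) c := by
  induction x using QuotientGroup.induction_on with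
  | H g =>
    rw [fcVP_mk]
    exact fc_mem_placesOver D c _ (by rw [jFun_smul, hτ₀])

include D in
theorem fc_card_le_cdeg : Nat.card (Q N) ≤ cdeg Qbar (FBar N) (jBar N) := by
  rw [card_Q]
  exact D.dedekindPsi_le_cdeg

/-! ## Orbit sizes -/

omit [NeZero N] in
theorem fc_card_orbit_of_fixed (s : SL(2, ℤ)) (x : Q N) (h : s • x = x) :
    Nat.card (orbit (Subgroup.zpowers s) x) = 1 := by
  rw [Nat.card_coe_set_eq]
  exact os_ncard_orbit_of_fixed h

omit [NeZero N] in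
theorem fc_card_orbit_of_not_fixed (s : SL(2, ℤ)) (p : ℕ) (hp : p.Prime)
    (hs : ∀ x : Q N, s ^ p • x = x) (x : Q N) (h : s • x ≠ x) :
    Nat.card (orbit (Subgroup.zpowers s) x) = p := by
  rw [Nat.card_coe_set_eq]
  exact os_ncard_orbit_of_not_fixed hp (hs x) h

/-! ## The counts -/

include D in
/-- Generic fibre: `ψ(N)` places, and `[F : Q̄(j)] = ψ(N)`. -/
theorem fc_generic (c : Qbar) (h0 : c ≠ 0) (h1 : c ≠ 1728) :
    (placesOver Qbar (FBar N) (jBar N) c).ncard = dedekindPsi N ∧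
      cdeg Qbar (FBar N) (jBar N) = dedekindPsi N := by
  obtain ⟨τ₀, hτ₀⟩ := jFun_surjective (iotaQ c)
  obtain ⟨hfin, hsum⟩ := D.sum_ord_placesOver c
  have hj0 : jFun τ₀ ≠ 0 := by
    rw [hτ₀]
    exact fun h => h0 (iotaQ_injective (by rw [h, map_zero]))
  have hj1 : jFun τ₀ ≠ 1728 := by
    rw [hτ₀]
    exact fun h => h1 (iotaQ_injective (by rw [h, map_ofNat]))
  have hA : D.ordAt τ₀ (algebraMap Hol Mer (fcH (iotaQ c))) = 1 := by
    have := D.ordAt_generic τ₀ hj0 hj1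
    rw [hτ₀] at this
    exact this
  have hbound : ∀ x : Q N,
      (fcVP D τ₀ x).ord (jBar N - algebraMap Qbar (FBar N) c) ≤ ((1 : ℕ) : ℤ) := by
    intro x
    induction x using QuotientGroup.induction_on with
    | H g =>
      rw [fcVP_mk]
      have := fc_ord_le D c (g⁻¹ • τ₀) (by rw [jFun_smul, hτ₀]) 1 (by rw [fc_ordAt_smul_inv, hA])
      exact_mod_cast this
  have : Fintype (Q N) := Fintype.ofFinite _
  obtain ⟨-, -, h3, h4⟩ := squeeze_placesOver (ι := Q N) (jBar N) c hfin hsum (fcVP D τ₀)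
    (fun _ => 1) (fcVP_cov D c τ₀ hτ₀) (fun x => ⟨fcVP_mem D c τ₀ hτ₀ x, hbound x⟩)
    (by
      rw [Finset.sum_const, Finset.card_univ, smul_eq_mul, mul_one, ← Nat.card_eq_fintype_card]
      exact fc_card_le_cdeg D)
  rw [Finset.sum_const, Finset.card_univ, smul_eq_mul, mul_one, ← Nat.card_eq_fintype_card,
    card_Q] at h4
  rw [← Nat.card_eq_fintype_card, card_Q] at h3
  exact ⟨h3, h4.symm⟩

include D in
theorem fc_cdeg_jBar : cdeg Qbar (FBar N) (jBar N) = dedekindPsi N :=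
  (fc_generic D 1 one_ne_zero (by norm_num)).2

include D in
theorem fc_ncard_placesOver_generic (c : Qbar) (h0 : c ≠ 0) (h1 : c ≠ 1728) :
    (placesOver Qbar (FBar N) (jBar N) c).ncard = dedekindPsi N :=
  (fc_generic D c h0 h1).1

include D in
theorem fc_ncard_placesOver_1728 :
    2 * (placesOver Qbar (FBar N) (jBar N) 1728).ncard = dedekindPsi N + nuTwo N := by
  obtain ⟨hfin, hsum⟩ := D.sum_ord_placesOver (1728 : Qbar)
  have hτ₀ : jFun UpperHalfPlane.I = iotaQ 1728 := by rw [D.jFun_I, map_ofNat]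
  have hA : D.ordAt UpperHalfPlane.I (algebraMap Hol Mer (fcH (iotaQ 1728))) = 2 := by
    rw [map_ofNat]
    exact D.ordAt_I
  have hbound : ∀ x : Q N,
      (fcVP D UpperHalfPlane.I x).ord (jBar N - algebraMap Qbar (FBar N) 1728) ≤
        (Nat.card (orbit (Subgroup.zpowers S) x) : ℤ) := by
    intro x
    induction x using QuotientGroup.induction_on with
    | H g =>
      rw [fcVP_mk]
      by_cases hfix : S • ((g : SL(2, ℤ)) : Q N) = (g : Q N)
      · rw [fc_card_orbit_of_fixed S _ hfix]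
        have hmem : g⁻¹ * S * g ∈ Gamma0 N := (os_smul_coset_eq_iff_conj N S g).mp hfix
        have := fc_ord_le_one D 1728 (g⁻¹ • UpperHalfPlane.I) (by rw [jFun_smul, hτ₀]) 2
          Nat.prime_two
          (by rw [fc_ordAt_smul_inv, hA]; rfl)
          (fun f => D.two_dvd_ordAt_of_invariant g⁻¹ (D.evF f)
            (by rw [inv_inv]; exact D.evF_smul_of_mem_Gamma0 _ hmem f))
        exact_mod_cast this
      · rw [fc_card_orbit_of_not_fixed S 2 Nat.prime_two (os_S_sq_smul N) _ hfix]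
        have := fc_ord_le D 1728 (g⁻¹ • UpperHalfPlane.I) (by rw [jFun_smul, hτ₀]) 2
          (by rw [fc_ordAt_smul_inv, hA])
        exact_mod_cast this
  obtain ⟨h1, -⟩ := cc_ncard_placesOver (G := Subgroup.zpowers S) (X := Q N) (jBar N) 1728 hfin hsum
    (fcVP D UpperHalfPlane.I) (fcVP_smul D UpperHalfPlane.I S D.S_smul_I)
    (fcVP_cov D 1728 UpperHalfPlane.I hτ₀) (fcVP_mem D 1728 UpperHalfPlane.I hτ₀) hbound
    (fc_card_le_cdeg D)
  rw [h1]
  exact os_two_mul_card_orbits_S N (card_Q N) (card_fixedBy_S N)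

include D in
theorem fc_ncard_placesOver_zero :
    3 * (placesOver Qbar (FBar N) (jBar N) 0).ncard = dedekindPsi N + 2 * nuThree N := by
  obtain ⟨hfin, hsum⟩ := D.sum_ord_placesOver (0 : Qbar)
  have hτ₀ : jFun D.rho = iotaQ 0 := by rw [D.jFun_rho, map_zero]
  have hA : D.ordAt D.rho (algebraMap Hol Mer (fcH (iotaQ 0))) = 3 := by
    rw [map_zero, fcH_zero]
    exact D.ordAt_rho
  have hbound : ∀ x : Q N,
      (fcVP D D.rho x).ord (jBar N - algebraMap Qbar (FBar N) 0) ≤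
        (Nat.card (orbit (Subgroup.zpowers (S * T)) x) : ℤ) := by
    intro x
    induction x using QuotientGroup.induction_on with
    | H g =>
      rw [fcVP_mk]
      by_cases hfix : (S * T) • ((g : SL(2, ℤ)) : Q N) = (g : Q N)
      · rw [fc_card_orbit_of_fixed (S * T) _ hfix]
        have hmem : g⁻¹ * (S * T) * g ∈ Gamma0 N :=
          (os_smul_coset_eq_iff_conj N (S * T) g).mp hfix
        have := fc_ord_le_one D 0 (g⁻¹ • D.rho) (by rw [jFun_smul, hτ₀]) 3 Nat.prime_three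
          (by rw [fc_ordAt_smul_inv, hA]; rfl)
          (fun f => D.three_dvd_ordAt_of_invariant g⁻¹ (D.evF f)
            (by rw [inv_inv]; exact D.evF_smul_of_mem_Gamma0 _ hmem f))
        exact_mod_cast this
      · rw [fc_card_orbit_of_not_fixed (S * T) 3 Nat.prime_three (os_ST_cube_smul N) _ hfix]
        have := fc_ord_le D 0 (g⁻¹ • D.rho) (by rw [jFun_smul, hτ₀]) 3
          (by rw [fc_ordAt_smul_inv, hA])
        exact_mod_cast this
  obtain ⟨h1, -⟩ := cc_ncard_placesOver (G := Subgroup.zpowers (S * T)) (X := Q N) (jBar N) 0 hfin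
    hsum (fcVP D D.rho) (fcVP_smul D D.rho (S * T) D.ST_smul_rho)
    (fcVP_cov D 0 D.rho hτ₀) (fcVP_mem D 0 D.rho hτ₀) hbound (fc_card_le_cdeg D)
  rw [h1]
  exact os_three_mul_card_orbits_ST N (card_Q N) (card_fixedBy_ST N)

end Fermat.Agent.S24x
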