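/-
S24 blueprint, module A3 (helper57): the fundamental identity `∑_{v | t = c} ord_v (t - c) = [F : K(t)]`
for a function field `F/K` (K algebraically closed), via `Ideal.sum_ramification_inertia`.
-/
import Mathlib
import Fermat.Agent.S24x.AlgDefs
import Fermat.Agent.S24x.PlaceDedekind
import Fermat.Agent.S24x.LocalDiff

set_option autoImplicit false
set_option linter.deprecated false

namespace Fermat.Agent.S24x

open AlgebraicCurve IsDedekindDomain Polynomial

section Abstract

variable {K F : Type*} [Field K] [Field F] [Algebra K F]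
variable (A : Type*) [CommRing A] [IsDedekindDomain A] [Algebra K A] [Algebra A F]
  [IsScalarTower K A F]
variable (S : Type*) [CommRing S] [IsDedekindDomain S] [Algebra K S] [Algebra A S] [Algebra S F]
  [IsScalarTower K S F] [IsScalarTower A S F] [IsScalarTower K A S] [IsFractionRing S F]
  [Module.Finite A S]
variable (E : Type*) [Field E] [Algebra A E] [IsFractionRing A E] [Algebra E F]
  [IsScalarTower A E F]

/-- ord at the place of `P` of an element of `S` is the multiplicity of `P` in the principal
ideal. -/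
theorem fi_ord_eq_multiplicity (P : HeightOneSpectrum S) {s : S} (hs : s ≠ 0) :
    (Place.ofHeightOneSpectrum (K := K) (F := F) P).ord (algebraMap S F s)
      = (multiplicity P.asIdeal (Ideal.span {s}) : ℤ) := by
  rw [ofHeightOneSpectrum_ord, HeightOneSpectrum.valuation_of_algebraMap,
    HeightOneSpectrum.intValuation_eq_exp_neg_multiplicity P hs, WithZero.log_exp, neg_neg]

/-- Inertia degree one over an algebraically closed constant field. -/
theorem fi_finrank_quotient_eq_one [IsAlgClosed K]
    (p : Ideal A) [p.IsMaximal] (P : Ideal S) [P.IsPrime] [P.LiesOver p]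
    (hres : Function.Surjective (algebraMap K (A ⧸ p))) :
    Module.finrank (A ⧸ p) (S ⧸ P) = 1 := by
  have h1 : Algebra.IsIntegral (A ⧸ p) (S ⧸ P) := inferInstance
  have h2 : Algebra.IsIntegral K (A ⧸ p) := Algebra.isIntegral_of_surjective hres
  have h3 : IsScalarTower K (A ⧸ p) (S ⧸ P) := inferInstance
  have h4 : Algebra.IsIntegral K (S ⧸ P) :=
    Algebra.IsIntegral.trans (R := K) (A ⧸ p) (B := S ⧸ P)
  have h5 : Function.Surjective (algebraMap K (S ⧸ P)) :=
    (IsAlgClosed.algebraMap_bijective_of_isIntegral (k := K) (K := S ⧸ P)).2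
  have h6 : Function.Surjective (algebraMap (A ⧸ p) (S ⧸ P)) := by
    intro x
    obtain ⟨c, rfl⟩ := h5 x
    exact ⟨algebraMap K (A ⧸ p) c, (IsScalarTower.algebraMap_apply K (A ⧸ p) (S ⧸ P) c).symm⟩
  have h7 : Function.Injective (algebraMap (A ⧸ p) (S ⧸ P)) := by
    let : Field (A ⧸ p) := Ideal.Quotient.field p
    exact (algebraMap (A ⧸ p) (S ⧸ P)).injective
  exact ((LinearEquiv.ofBijective (Algebra.linearMap (A ⧸ p) (S ⧸ P))
    ⟨h7, h6⟩).finrank_eq).symm.trans (Module.finrank_self _)

/-- Sum of ramification indices over a maximal ideal with residue field `K` algebraically closed.-/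
theorem fi_sum_ramificationIdx [IsAlgClosed K] [Module.IsTorsionFree A S]
    {p : Ideal A} [hpm : p.IsMaximal] (hp0 : p ≠ ⊥)
    (hres : Function.Surjective (algebraMap K (A ⧸ p))) :
    ∑ P ∈ IsDedekindDomain.primesOverFinset p S, p.ramificationIdx' P = Module.finrank E F := by
  rw [← Ideal.sum_ramification_inertia S E F hp0]
  refine Finset.sum_congr rfl fun P hP => ?_
  rw [IsDedekindDomain.mem_primesOverFinset_iff hp0] at hP
  obtain ⟨hPprime, hPover⟩ := hP
  have : p.inertiaDeg' P = 1 := by
    rw [Ideal.inertiaDeg'_algebraMap]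
    exact fi_finrank_quotient_eq_one A S p P hres
  rw [this, mul_one]

/-- **Fundamental identity, abstract form**: the zeros of `a` (a generator of a maximal ideal of
`A` with residue field `K`), counted with multiplicity, are `[F : E]` in number. -/
theorem fi_sum_ord_zeros [IsAlgClosed K] [Module.IsTorsionFree A S]
    {a : A} (ha : a ≠ 0) [hmax : (Ideal.span {a}).IsMaximal]
    (hres : Function.Surjective (algebraMap K (A ⧸ Ideal.span {a})))
    (hS : ∀ v : Place K F, 0 < v.ord (algebraMap A F a) →
      ∀ s : S, algebraMap S F s ∈ v.toValuationSubring) :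
    ∃ hfin : {v : Place K F | 0 < v.ord (algebraMap A F a)}.Finite,
      ∑ v ∈ hfin.toFinset, v.ord (algebraMap A F a) = (Module.finrank E F : ℤ) := by
  classical
  have hp0 : Ideal.span {a} ≠ (⊥ : Ideal A) := by
    rwa [Ne, Ideal.span_singleton_eq_bot]
  have hinj : Function.Injective (algebraMap A S) := FaithfulSMul.algebraMap_injective A S
  have haS : algebraMap A S a ≠ 0 := fun h => ha (hinj (by rw [h, map_zero]))
  have hmap : Ideal.map (algebraMap A S) (Ideal.span {a}) = Ideal.span {algebraMap A S a} := by
    rw [Ideal.map_span, Set.image_singleton]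
  have hmap0 : Ideal.map (algebraMap A S) (Ideal.span {a}) ≠ ⊥ := by
    rw [hmap, Ne, Ideal.span_singleton_eq_bot]; exact haS
  set T := IsDedekindDomain.primesOverFinset (Ideal.span {a}) S with hT
  have hTmem : ∀ P ∈ T, P.IsPrime ∧ P ≠ ⊥ := by
    intro P hP
    rw [hT, IsDedekindDomain.mem_primesOverFinset_iff hp0] at hP
    obtain ⟨hPprime, hPover⟩ := hP
    refine ⟨hPprime, ?_⟩
    exact ne_bot_of_le_ne_bot hmap0 (Ideal.map_le_of_le_comap (P.over_def (Ideal.span {a})).le)
  let g : {P // P ∈ T} → Place K F := fun P =>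
    Place.ofHeightOneSpectrum (K := K) (F := F) ⟨P.1, (hTmem P.1 P.2).1, (hTmem P.1 P.2).2⟩
  have hg_inj : Function.Injective g := by
    intro P Q hPQ
    have := ofHeightOneSpectrum_injective (K := K) (F := F) S hPQ
    exact Subtype.ext (congrArg HeightOneSpectrum.asIdeal this)
  have hord : ∀ P : HeightOneSpectrum S,
      (Place.ofHeightOneSpectrum (K := K) (F := F) P).ord (algebraMap A F a)
        = ((Ideal.span {a}).ramificationIdx' P.asIdeal : ℤ) := by
    intro P
    rw [IsScalarTower.algebraMap_apply A S F a, fi_ord_eq_multiplicity S P haS,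
      Ideal.IsDedekindDomain.ramificationIdx'_eq_multiplicity hmap0 P.isPrime, hmap]
  have hset : {v : Place K F | 0 < v.ord (algebraMap A F a)} = ↑(T.attach.image g) := by
    ext v
    simp only [Set.mem_setOf_eq, Finset.coe_image, Set.mem_image, Finset.mem_coe,
      Finset.mem_attach, true_and]
    constructor
    · intro hv
      obtain ⟨P, rfl⟩ := exists_ofHeightOneSpectrum_of_le S v (hS v hv)
      rw [hord P] at hv
      have hne : (Ideal.span {a}).ramificationIdx' P.asIdeal ≠ 0 := by
        intro h0; rw [h0] at hv; simp at hv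
      have hle : Ideal.map (algebraMap A S) (Ideal.span {a}) ≤ P.asIdeal := by
        by_contra hnle
        exact hne (Ideal.ramificationIdx'_of_not_le hnle)
      have hPT : P.asIdeal ∈ T := by
        rw [hT, IsDedekindDomain.mem_primesOverFinset_iff hp0]
        refine ⟨P.isPrime, ⟨?_⟩⟩
        have h1 : Ideal.span {a} ≤ Ideal.comap (algebraMap A S) P.asIdeal :=
          Ideal.map_le_iff_le_comap.mp hle
        exact hmax.eq_of_le (Ideal.comap_ne_top _ P.isPrime.ne_top) h1
      exact ⟨⟨P.asIdeal, hPT⟩, rfl⟩
    · rintro ⟨P, rfl⟩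
      rw [hord]
      have hPT : P.1 ∈ IsDedekindDomain.primesOverFinset (Ideal.span {a}) S := P.2
      rw [IsDedekindDomain.mem_primesOverFinset_iff hp0] at hPT
      obtain ⟨hPprime, hPover⟩ := hPT
      have := Ideal.IsDedekindDomain.ramificationIdx'_ne_zero hmap0 hPprime
        (Ideal.map_le_of_le_comap (P.1.over_def (Ideal.span {a})).le)
      exact_mod_cast Nat.pos_of_ne_zero this
  have hfin : {v : Place K F | 0 < v.ord (algebraMap A F a)}.Finite := by
    rw [hset]; exact Finset.finite_toSet _
  refine ⟨hfin, ?_⟩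
  have htf : hfin.toFinset = T.attach.image g := by
    apply Finset.coe_injective
    rw [Set.Finite.coe_toFinset, hset]
  rw [htf, Finset.sum_image (fun x _ y _ h => hg_inj h)]
  rw [← fi_sum_ramificationIdx A S E hp0 hres, Nat.cast_sum, ← Finset.sum_attach T]
  refine Finset.sum_congr rfl fun P _ => ?_
  exact hord _

end Abstract

section Concrete

open IntermediateField
open scoped IntermediateField.algebraAdjoinAdjoin

variable {K F : Type*} [Field K] [Field F] [Algebra K F]

/-- `t - c` as an element of `K[t]`. -/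
def fiElt (t : F) (c : K) : Algebra.adjoin K {t} :=
  ⟨t - algebraMap K F c, Subalgebra.sub_mem _ (Algebra.self_mem_adjoin_singleton K t)
    (Subalgebra.algebraMap_mem _ c)⟩

theorem fiElt_spec {t : F} (ht : Transcendental K t) (c : K) :
    (Ideal.span {fiElt t c}).IsMaximal ∧
      Function.Surjective (algebraMap K (Algebra.adjoin K {t} ⧸ Ideal.span {fiElt t c})) ∧
      fiElt t c ≠ 0 := by
  let e : K[X] ≃ₐ[K] (Algebra.adjoin K {t}) := Polynomial.algEquivOfTranscendental K t ht
  have he : e (X - C c) = fiElt t c := by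
    apply Subtype.ext
    simp [e, fiElt, Polynomial.algEquivOfTranscendental_apply]
  have hJ : Ideal.span {fiElt t c}
      = (Ideal.span {X - C c}).map (e : K[X] →+* Algebra.adjoin K {t}) := by
    rw [Ideal.map_span, Set.image_singleton]
    congr 2
    exact he.symm
  let ψ : (K[X] ⧸ Ideal.span {X - C c}) ≃ₐ[K]
      (Algebra.adjoin K {t} ⧸ Ideal.span {fiElt t c}) :=
    Ideal.quotientEquivAlg _ _ e hJ
  let φ : (Algebra.adjoin K {t} ⧸ Ideal.span {fiElt t c}) ≃ₐ[K] K :=
    ψ.symm.trans (Polynomial.quotientSpanXSubCAlgEquiv c)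
  refine ⟨?_, ?_, ?_⟩
  · apply Ideal.Quotient.maximal_of_isField
    exact MulEquiv.isField (Field.toIsField K) φ.toMulEquiv
  · intro y
    refine ⟨φ y, ?_⟩
    apply φ.injective
    rw [AlgEquiv.commutes]
    rfl
  · intro h0
    rw [← he] at h0
    have := e.injective (h0.trans (map_zero e).symm)
    exact Polynomial.X_sub_C_ne_zero c this

/-- If `t ∈ O_v` then the integral closure of `K[t]` in `F` lies in `O_v`. -/
theorem fi_integralClosure_le (v : Place K F) {t : F} (ht : t ∈ v.toValuationSubring)
    (s : integralClosure (Algebra.adjoin K {t}) F) :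
    algebraMap (integralClosure (Algebra.adjoin K {t}) F) F s ∈ v.toValuationSubring := by
  have hA : ∀ x : Algebra.adjoin K {t}, (x : F) ∈ v.toValuationSubring := by
    rintro ⟨x, hx⟩
    induction hx using Algebra.adjoin_induction with
    | mem x hx => rw [Set.mem_singleton_iff] at hx; subst hx; exact ht
    | algebraMap r => exact v.algebraMap_mem' r
    | add x y _ _ hx hy => exact add_mem hx hy
    | mul x y _ _ hx hy => exact mul_mem hx hy
  let φ : Algebra.adjoin K {t} →+* v.toValuationSubring :=
    (algebraMap (Algebra.adjoin K {t}) F).codRestrict v.toValuationSubring.toSubring hA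
  have hs : IsIntegral (Algebra.adjoin K {t}) (s : F) := s.2
  have hs' : IsIntegral v.toValuationSubring (s : F) :=
    IsIntegral.map_of_comp_eq φ (RingHom.id F) (by ext; rfl) hs
  obtain ⟨y, hy⟩ := (IsIntegrallyClosed.isIntegral_iff (R := v.toValuationSubring) (K := F)).mp hs'
  rw [show algebraMap (integralClosure (Algebra.adjoin K {t}) F) F s = (s : F) from rfl, ← hy]
  exact y.2

variable [IsAlgClosed K] [CharZero K]

/-- **Fundamental identity** over `t = c`. -/
theorem fi_sum_ord_placesOver {t : F} (ht : IsCoordinate K F t) (c : K) :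
    ∃ hfin : (placesOver K F t c).Finite,
      ∑ v ∈ hfin.toFinset, v.ord (t - algebraMap K F c) = (cdeg K F t : ℤ) := by
  have : FiniteDimensional K⟮t⟯ F := ht.finite
  have i4 : CharZero K⟮t⟯ := charZero_of_injective_algebraMap (algebraMap K K⟮t⟯).injective
  have i5 : Algebra.IsSeparable K⟮t⟯ F := inferInstance
  have i6 : IsPrincipalIdealRing (Algebra.adjoin K {t}) :=
    IsPrincipalIdealRing.of_surjective
      (Polynomial.algEquivOfTranscendental K t ht.transcendental).toRingEquiv.toRingHom
      (Polynomial.algEquivOfTranscendental K t ht.transcendental).surjective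
  have i7 : IsDedekindDomain (Algebra.adjoin K {t}) := inferInstance
  have i8 : IsDedekindDomain (integralClosure (Algebra.adjoin K {t}) F) :=
    IsIntegralClosure.isDedekindDomain (Algebra.adjoin K {t}) K⟮t⟯ F _
  have i9 : IsFractionRing (integralClosure (Algebra.adjoin K {t}) F) F :=
    integralClosure.isFractionRing_of_finite_extension K⟮t⟯ F
  have i10 : Module.Finite (Algebra.adjoin K {t}) (integralClosure (Algebra.adjoin K {t}) F) :=
    IsIntegralClosure.finite (Algebra.adjoin K {t}) K⟮t⟯ F _
  obtain ⟨hmax, hres, hne⟩ := fiElt_spec ht.transcendental c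
  have key := fi_sum_ord_zeros (K := K) (F := F) (Algebra.adjoin K {t})
    (integralClosure (Algebra.adjoin K {t}) F) K⟮t⟯ hne hres ?_
  · exact key
  · intro v hv s
    have hv' : 0 < v.ord (t - algebraMap K F c) := hv
    have hne' : t - algebraMap K F c ≠ 0 := by
      intro h0; rw [h0, v.ord_zero] at hv'; exact lt_irrefl _ hv'
    have h1 : t - algebraMap K F c ∈ v.toValuationSubring :=
      (ord_nonneg_iff v hne').mp hv'.le
    have h2 : t ∈ v.toValuationSubring := by
      have := add_mem h1 (v.algebraMap_mem' c)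
      rwa [sub_add_cancel] at this
    exact fi_integralClosure_le v h2 s

omit [IsAlgClosed K] [CharZero K] in
theorem fi_adjoin_inv (t : F) : K⟮t⁻¹⟯ = K⟮t⟯ := by
  apply le_antisymm
  · rw [adjoin_simple_le_iff]
    exact inv_mem (mem_adjoin_simple_self K t)
  · rw [adjoin_simple_le_iff]
    have := inv_mem (mem_adjoin_simple_self K t⁻¹)
    rwa [inv_inv] at this

omit [IsAlgClosed K] [CharZero K] in
theorem fi_isCoordinate_inv {t : F} (ht : IsCoordinate K F t) : IsCoordinate K F t⁻¹ := by
  refine ⟨?_, ?_⟩
  · have := ht.transcendental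
    rw [Transcendental, ← IsAlgebraic.inv_iff] at this
    exact this
  · rw [fi_adjoin_inv]
    exact ht.finite

omit [IsAlgClosed K] [CharZero K] in
theorem fi_cdeg_inv (t : F) : cdeg K F t⁻¹ = cdeg K F t := by
  unfold cdeg
  rw [fi_adjoin_inv]

/-- **Fundamental identity** over `t = ∞`. -/
theorem fi_sum_ord_polePlaces {t : F} (ht : IsCoordinate K F t) :
    ∃ hfin : (polePlaces K F t).Finite,
      ∑ v ∈ hfin.toFinset, -(v.ord t) = (cdeg K F t : ℤ) := by
  obtain ⟨hfin, hsum⟩ := fi_sum_ord_placesOver (fi_isCoordinate_inv ht) (0 : K)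
  have hset : placesOver K F t⁻¹ (0 : K) = polePlaces K F t := by
    ext v
    simp only [placesOver, polePlaces, Set.mem_setOf_eq, map_zero, sub_zero, v.ord_inv]
    omega
  have hfin' : (polePlaces K F t).Finite := hset ▸ hfin
  refine ⟨hfin', ?_⟩
  have htf : hfin'.toFinset = hfin.toFinset := by
    apply Finset.coe_injective
    rw [Set.Finite.coe_toFinset, Set.Finite.coe_toFinset, hset]
  rw [htf, ← fi_cdeg_inv, ← hsum]
  refine Finset.sum_congr rfl fun v _ => ?_
  rw [map_zero, sub_zero, v.ord_inv]

end Concrete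

end Fermat.Agent.S24x
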