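/-
S24x / GenusNatMul : multiplicativity (for coprime arguments) of the four numerical
functions entering `ModularCurve.genusFormula` : `dedekindPsi`, `cuspCount`, `nuTwo`, `nuThree`.
Pure arithmetic, Mathlib + frozen defs only.  (helper84)
-/
import Mathlib
import Fermat.Prelude.Def_ModularCurve_GenusNumerics

set_option autoImplicit false

namespace Fermat.Agent.S24x

open ModularCurve Finset

/-- Sum over the divisors of a product of coprime numbers. -/
theorem gn_sum_divisors_mul {M : Type*} [AddCommMonoid M] {m n : ℕ} (h : m.Coprime n)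
    (F : ℕ → M) :
    ∑ d ∈ (m * n).divisors, F d = ∑ a ∈ m.divisors, ∑ b ∈ n.divisors, F (a * b) := by
  rw [Nat.divisors_mul, Finset.mul_def, Finset.sum_image, Finset.sum_product]
  intro x hx y hy hxy
  exact h.mul_injOn_divisors (by simpa using hx) (by simpa using hy) hxy

theorem gn_psi_eq_sum (N : ℕ) :
    dedekindPsi N = ∑ d ∈ N.divisors, if Squarefree d then N / d else 0 := by
  rw [dedekindPsi, Finset.sum_filter]

theorem gn_psi_mul {m n : ℕ} (h : m.Coprime n) :
    dedekindPsi (m * n) = dedekindPsi m * dedekindPsi n := by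
  rw [gn_psi_eq_sum, gn_psi_eq_sum, gn_psi_eq_sum, gn_sum_divisors_mul h, Finset.sum_mul_sum]
  refine Finset.sum_congr rfl fun a ha => Finset.sum_congr rfl fun b hb => ?_
  have ha' := Nat.dvd_of_mem_divisors ha
  have hb' := Nat.dvd_of_mem_divisors hb
  have hab : a.Coprime b := Nat.Coprime.coprime_dvd_left ha' (Nat.Coprime.coprime_dvd_right hb' h)
  by_cases h1 : Squarefree a <;> by_cases h2 : Squarefree b <;>
    simp [Nat.squarefree_mul hab, h1, h2, Nat.mul_div_mul_comm ha' hb']

theorem gn_cusp_mul {m n : ℕ} (h : m.Coprime n) :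
    cuspCount (m * n) = cuspCount m * cuspCount n := by
  rcases Nat.eq_zero_or_pos m with rfl | hm
  · simp [cuspCount]
  rcases Nat.eq_zero_or_pos n with rfl | hn
  · simp [cuspCount]
  rw [cuspCount, cuspCount, cuspCount, gn_sum_divisors_mul h, Finset.sum_mul_sum]
  refine Finset.sum_congr rfl fun a ha => Finset.sum_congr rfl fun b hb => ?_
  have ha' := Nat.dvd_of_mem_divisors ha
  have hb' := Nat.dvd_of_mem_divisors hb
  obtain ⟨a', rfl⟩ := ha'
  obtain ⟨b', rfl⟩ := hb'
  have ha0 : 0 < a := Nat.pos_of_ne_zero (by rintro rfl; simp at hm)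
  have hb0 : 0 < b := Nat.pos_of_ne_zero (by rintro rfl; simp at hn)
  have e1 : a * a' * (b * b') / (a * b) = a' * b' := by
    rw [show a * a' * (b * b') = (a * b) * (a' * b') by ring]
    exact Nat.mul_div_cancel_left _ (Nat.mul_pos ha0 hb0)
  have e2 : a * a' / a = a' := Nat.mul_div_cancel_left _ ha0
  have e3 : b * b' / b = b' := Nat.mul_div_cancel_left _ hb0
  rw [e1, e2, e3]
  -- coprimality facts
  have c_ab' : a.Coprime b' :=
    Nat.Coprime.coprime_dvd_left (Dvd.intro _ rfl) (Nat.Coprime.coprime_dvd_right (Dvd.intro_left _ rfl) h)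
  have c_a'b : a'.Coprime b :=
    Nat.Coprime.coprime_dvd_left (Dvd.intro_left _ rfl) (Nat.Coprime.coprime_dvd_right (Dvd.intro _ rfl) h)
  have c_a'b' : a'.Coprime b' :=
    Nat.Coprime.coprime_dvd_left (Dvd.intro_left _ rfl) (Nat.Coprime.coprime_dvd_right (Dvd.intro_left _ rfl) h)
  have c_ab : a.Coprime b :=
    Nat.Coprime.coprime_dvd_left (Dvd.intro _ rfl) (Nat.Coprime.coprime_dvd_right (Dvd.intro _ rfl) h)
  have key : Nat.gcd (a * b) (a' * b') = Nat.gcd a a' * Nat.gcd b b' := by
    rw [Nat.Coprime.gcd_mul _ c_a'b']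
    congr 1
    · exact Nat.Coprime.gcd_mul_right_cancel a c_a'b.symm
    · exact Nat.Coprime.gcd_mul_left_cancel b c_ab'
  rw [key]
  apply Nat.totient_mul
  exact Nat.Coprime.coprime_dvd_left (Nat.gcd_dvd_left _ _)
    (Nat.Coprime.coprime_dvd_right (Nat.gcd_dvd_left _ _) c_ab)

/-- CRT for the zero set of a "polynomial" map commuting with ring homs. -/
theorem gn_card_roots_mul {m n : ℕ} (h : m.Coprime n)
    (P : ∀ (R : Type) [CommRing R], R → R)
    (hP : ∀ (R S : Type) [CommRing R] [CommRing S] (f : R →+* S) (x : R), f (P R x) = P S (f x)) :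
    Nat.card {x : ZMod (m * n) // P _ x = 0}
      = Nat.card {x : ZMod m // P _ x = 0} * Nat.card {x : ZMod n // P _ x = 0} := by
  rw [← Nat.card_prod]
  let e := ZMod.chineseRemainder h
  refine Nat.card_congr
    { toFun := fun x => (⟨(e x.1).1, ?_⟩, ⟨(e x.1).2, ?_⟩)
      invFun := fun y => ⟨e.symm (y.1.1, y.2.1), ?_⟩
      left_inv := ?_
      right_inv := ?_ }
  · have := hP _ _ ((RingHom.fst _ _).comp (e : ZMod (m * n) →+* ZMod m × ZMod n)) x.1
    simpa [x.2] using this.symm
  · have := hP _ _ ((RingHom.snd _ _).comp (e : ZMod (m * n) →+* ZMod m × ZMod n)) x.1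
    simpa [x.2] using this.symm
  · apply e.injective
    rw [map_zero]
    have h1 := hP _ _ ((RingHom.fst _ _).comp (e : ZMod (m * n) →+* ZMod m × ZMod n))
      (e.symm (y.1.1, y.2.1))
    have h2 := hP _ _ ((RingHom.snd _ _).comp (e : ZMod (m * n) →+* ZMod m × ZMod n))
      (e.symm (y.1.1, y.2.1))
    simp only [RingHom.coe_comp, Function.comp_apply, RingHom.coe_coe, RingEquiv.apply_symm_apply,
      RingHom.coe_fst, RingHom.coe_snd] at h1 h2
    ext
    · rw [h1, y.1.2]; rfl
    · rw [h2, y.2.2]; rfl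
  · intro x
    ext
    simp
  · intro y
    ext <;> simp

theorem gn_nuTwo_mul {m n : ℕ} (h : m.Coprime n) : nuTwo (m * n) = nuTwo m * nuTwo n := by
  unfold nuTwo
  exact gn_card_roots_mul h (fun R _ x => x ^ 2 + 1) (fun R S _ _ f x => by simp)

theorem gn_nuThree_mul {m n : ℕ} (h : m.Coprime n) : nuThree (m * n) = nuThree m * nuThree n := by
  unfold nuThree
  exact gn_card_roots_mul h (fun R _ x => x ^ 2 + x + 1) (fun R S _ _ f x => by simp)

end Fermat.Agent.S24x
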