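/-
S24x / GenusNatNu : values of `nuTwo`, `nuThree` at prime powers (via cyclicity of `(ZMod (p^e))ˣ`).
Pure arithmetic, Mathlib + frozen defs only.  (helper84)
-/
import Mathlib
import Fermat.Prelude.Def_ModularCurve_GenusNumerics

set_option autoImplicit false

namespace Fermat.Agent.S24x

open ModularCurve Finset

/-- Non-units of `ZMod (p^e)` die in `ZMod p`. -/
theorem gn_castHom_eq_zero_of_not_isUnit {p e : ℕ} (hp : p.Prime) (he : e ≠ 0)
    (x : ZMod (p ^ e)) (hx : ¬ IsUnit x) :
    ZMod.castHom (dvd_pow_self p he) (ZMod p) x = 0 := by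
  have : NeZero (p ^ e) := ⟨pow_ne_zero _ hp.ne_zero⟩
  rw [← ZMod.natCast_zmod_val x, map_natCast, ZMod.natCast_eq_zero_iff]
  by_contra hdvd
  apply hx
  rw [← ZMod.natCast_zmod_val x, ZMod.isUnit_iff_coprime]
  exact Nat.Coprime.pow_right _ ((Nat.Prime.coprime_iff_not_dvd hp).mpr hdvd).symm

/-- `ZMod (p^e)` is "local": a product is zero and the difference is a unit => a factor vanishes. -/
theorem gn_eq_zero_or_eq_zero {p e : ℕ} (hp : p.Prime) (he : e ≠ 0)
    (a b : ZMod (p ^ e)) (hab : a * b = 0) (hu : IsUnit (a - b)) : a = 0 ∨ b = 0 := by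
  by_cases ha : IsUnit a
  · right; exact (ha.mul_right_eq_zero).mp hab
  by_cases hb : IsUnit b
  · left; exact (hb.mul_left_eq_zero).mp hab
  exfalso
  have : Fact p.Prime := ⟨hp⟩
  have h1 := gn_castHom_eq_zero_of_not_isUnit hp he a ha
  have h2 := gn_castHom_eq_zero_of_not_isUnit hp he b hb
  have h3 : IsUnit (ZMod.castHom (dvd_pow_self p he) (ZMod p) (a - b)) := hu.map _
  rw [map_sub, h1, h2, sub_zero] at h3
  exact not_isUnit_zero h3

theorem gn_isUnit_natCast {p e k : ℕ} (hp : p.Prime) (hk : ¬ p ∣ k) :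
    IsUnit ((k : ℕ) : ZMod (p ^ e)) := by
  rw [ZMod.isUnit_iff_coprime]
  exact Nat.Coprime.pow_right _ ((Nat.Prime.coprime_iff_not_dvd hp).mpr hk).symm

/-- Roots of `x^2+1` in `ZMod (p^e)` (p odd) = units of order 4. -/
noncomputable def gn_equivOrderFour {p e : ℕ} (hp : p.Prime) (hp2 : p ≠ 2) (he : e ≠ 0) :
    {x : ZMod (p ^ e) // x ^ 2 + 1 = 0} ≃ {u : (ZMod (p ^ e))ˣ // orderOf u = 4} := by
  have h2u : IsUnit ((2 : ℕ) : ZMod (p ^ e)) :=
    gn_isUnit_natCast hp (fun h => hp2 ((Nat.prime_dvd_prime_iff_eq hp Nat.prime_two).mp h))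
  have hne : (-1 : ZMod (p ^ e)) ≠ 1 := by
    intro h
    have : ((2 : ℕ) : ZMod (p ^ e)) = 0 := by
      have : (1 : ZMod (p ^ e)) + 1 = 0 := by linear_combination (-1 : ZMod (p ^ e)) * h
      push_cast; rw [← this]; ring
    rw [this] at h2u
    have : Nontrivial (ZMod (p ^ e)) := ZMod.nontrivial_iff.mpr
      (fun h => by
        have := Nat.pow_eq_one.mp h
        rcases this with h | h
        · exact hp.one_lt.ne' h
        · exact he h)
    exact not_isUnit_zero h2u
  refine
    { toFun := fun x => ⟨Units.mkOfMulEqOne x.1 (-x.1) (by linear_combination (-1 : ZMod (p^e)) * x.2), ?_⟩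
      invFun := fun u => ⟨(u.1 : ZMod (p ^ e)), ?_⟩
      left_inv := fun x => rfl
      right_inv := fun u => Subtype.ext (Units.ext rfl) }
  · -- order 4
    have : Fact (Nat.Prime 2) := ⟨Nat.prime_two⟩
    have hx2 : x.1 ^ 2 = -1 := by linear_combination x.2
    have : orderOf (Units.mkOfMulEqOne x.1 (-x.1) (by linear_combination (-1 : ZMod (p^e)) * x.2))
        = 2 ^ (1 + 1) := by
      apply orderOf_eq_prime_pow
      · intro h
        have := congrArg Units.val h
        simp only [pow_one, Units.val_pow_eq_pow_val, Units.val_mkOfMulEqOne, Units.val_one] at this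
        exact hne (hx2 ▸ this)
      · apply Units.ext
        simp only [Units.val_pow_eq_pow_val, Units.val_mkOfMulEqOne, Units.val_one]
        rw [show (2 : ℕ) ^ (1 + 1) = 2 * 2 by norm_num, pow_mul, hx2]; ring
    simpa using this
  · -- root
    have h4 : u.1 ^ 4 = 1 := by
      have := pow_orderOf_eq_one u.1
      rwa [u.2] at this
    have hne2 : u.1 ^ 2 ≠ 1 := by
      intro h
      have := orderOf_dvd_of_pow_eq_one h
      rw [u.2] at this
      norm_num at this
    set t : ZMod (p ^ e) := ((u.1 ^ 2 : (ZMod (p ^ e))ˣ) : ZMod (p ^ e)) with ht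
    have ht2 : t ^ 2 = 1 := by
      rw [ht, ← Units.val_pow_eq_pow_val, ← pow_mul]
      norm_num [h4]
    have hprod : (t + 1) * (t - 1) = 0 := by linear_combination ht2
    have hdiff : IsUnit ((t + 1) - (t - 1)) := by
      have : (t + 1) - (t - 1) = ((2 : ℕ) : ZMod (p ^ e)) := by push_cast; ring
      rw [this]; exact h2u
    rcases gn_eq_zero_or_eq_zero hp he _ _ hprod hdiff with h | h
    · rw [ht, Units.val_pow_eq_pow_val] at h
      exact h
    · exfalso
      apply hne2
      apply Units.ext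
      rw [Units.val_one]
      linear_combination h


/-- Roots of `x^2+x+1` in `ZMod (p^e)` (p ≠ 3) = units of order 3. -/
noncomputable def gn_equivOrderThree {p e : ℕ} (hp : p.Prime) (hp3 : p ≠ 3) (he : e ≠ 0) :
    {x : ZMod (p ^ e) // x ^ 2 + x + 1 = 0} ≃ {u : (ZMod (p ^ e))ˣ // orderOf u = 3} := by
  have h3u : IsUnit ((3 : ℕ) : ZMod (p ^ e)) :=
    gn_isUnit_natCast hp (fun h => hp3 ((Nat.prime_dvd_prime_iff_eq hp Nat.prime_three).mp h))
  have hnt : Nontrivial (ZMod (p ^ e)) := ZMod.nontrivial_iff.mpr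
      (fun h => by
        have := Nat.pow_eq_one.mp h
        rcases this with h | h
        · exact hp.one_lt.ne' h
        · exact he h)
  have h3ne : ((3 : ℕ) : ZMod (p ^ e)) ≠ 0 := fun h => by
    rw [h] at h3u; exact not_isUnit_zero h3u
  refine
    { toFun := fun x => ⟨Units.mkOfMulEqOne x.1 (-x.1 - 1)
        (by linear_combination (-1 : ZMod (p^e)) * x.2), ?_⟩
      invFun := fun u => ⟨(u.1 : ZMod (p ^ e)), ?_⟩
      left_inv := fun x => rfl
      right_inv := fun u => Subtype.ext (Units.ext rfl) }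
  · -- order 3
    have : Fact (Nat.Prime 3) := ⟨Nat.prime_three⟩
    apply orderOf_eq_prime
    · apply Units.ext
      simp only [Units.val_pow_eq_pow_val, Units.val_mkOfMulEqOne, Units.val_one]
      linear_combination (x.1 - 1) * x.2
    · intro h
      have h1 : x.1 = 1 := by
        have := congrArg Units.val h
        simpa using this
      have h2 := x.2
      rw [h1] at h2
      apply h3ne
      push_cast
      linear_combination h2
  · -- root
    have hu3 : (u.1 : ZMod (p ^ e)) ^ 3 = 1 := by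
      have := pow_orderOf_eq_one u.1
      rw [u.2] at this
      have := congrArg Units.val this
      simpa using this
    have hne1 : (u.1 : ZMod (p ^ e)) ≠ 1 := by
      intro h
      have : u.1 = 1 := Units.ext h
      have h2 := u.2
      rw [this, orderOf_one] at h2
      norm_num at h2
    set v : ZMod (p ^ e) := (u.1 : ZMod (p ^ e)) with hv
    set s : ZMod (p ^ e) := v ^ 2 + v + 1 with hs
    have hprod : s * (s - 3) = 0 := by
      rw [hs]
      linear_combination (v + 2) * hu3
    have hdiff : IsUnit (s - (s - 3)) := by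
      have : s - (s - 3) = ((3 : ℕ) : ZMod (p ^ e)) := by push_cast; ring
      rw [this]; exact h3u
    rcases gn_eq_zero_or_eq_zero hp he _ _ hprod hdiff with h | h
    · exact h
    · exfalso
      apply hne1
      have h' : s = 3 := by linear_combination h
      have h4 : ((3 : ℕ) : ZMod (p ^ e)) * (v - 1) = 0 := by
        push_cast
        rw [← h', hs]
        linear_combination hu3
      have := (h3u.mul_right_eq_zero).mp h4
      linear_combination this

theorem gn_card_units {p e : ℕ} (hp : p.Prime) (he : e ≠ 0) :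
    haveI : NeZero (p ^ e) := ⟨pow_ne_zero _ hp.ne_zero⟩
    Fintype.card (ZMod (p ^ e))ˣ = p ^ (e - 1) * (p - 1) := by
  haveI : NeZero (p ^ e) := ⟨pow_ne_zero _ hp.ne_zero⟩
  rw [ZMod.card_units_eq_totient, Nat.totient_prime_pow hp (Nat.pos_of_ne_zero he)]

/-- number of elements of order `d` in the cyclic group `(ZMod (p^e))ˣ`, `p` odd. -/
theorem gn_card_orderOf {p e : ℕ} (hp : p.Prime) (hp2 : p ≠ 2) (he : e ≠ 0) (d : ℕ) (hd : d ≠ 0) :
    Nat.card {u : (ZMod (p ^ e))ˣ // orderOf u = d}
      = if d ∣ p ^ (e - 1) * (p - 1) then Nat.totient d else 0 := by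
  haveI : NeZero (p ^ e) := ⟨pow_ne_zero _ hp.ne_zero⟩
  haveI := ZMod.isCyclic_units_of_prime_pow p hp hp2 e
  rw [Nat.card_eq_fintype_card, Fintype.card_subtype, ← gn_card_units hp he]
  split_ifs with h
  · exact IsCyclic.card_orderOf_eq_totient h
  · rw [Finset.card_eq_zero, Finset.filter_eq_empty_iff]
    intro u _ hu
    apply h
    rw [← hu]
    exact orderOf_dvd_card

theorem gn_nuTwo_odd_prime_pow {p e : ℕ} (hp : p.Prime) (hp2 : p ≠ 2) (he : e ≠ 0) :
    nuTwo (p ^ e) = if p % 4 = 1 then 2 else 0 := by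
  unfold nuTwo
  rw [Nat.card_congr (gn_equivOrderFour hp hp2 he), gn_card_orderOf hp hp2 he 4 (by norm_num)]
  have hodd : ¬ 2 ∣ p := fun h => hp2 ((Nat.prime_dvd_prime_iff_eq Nat.prime_two hp).mp h).symm
  have hcop : Nat.Coprime 4 (p ^ (e - 1)) := by
    apply Nat.Coprime.pow_right
    rw [show 4 = 2 ^ 2 by norm_num]
    apply Nat.Coprime.pow_left
    exact (Nat.Prime.coprime_iff_not_dvd Nat.prime_two).mpr hodd
  have hiff : 4 ∣ p ^ (e - 1) * (p - 1) ↔ p % 4 = 1 := by
    constructor
    · intro h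
      have := hcop.dvd_of_dvd_mul_left h
      omega
    · intro h
      apply Dvd.dvd.mul_left
      omega
  have ht : Nat.totient 4 = 2 := by decide
  simp only [hiff, ht]

theorem gn_nuThree_prime_pow {p e : ℕ} (hp : p.Prime) (hp2 : p ≠ 2) (hp3 : p ≠ 3) (he : e ≠ 0) :
    nuThree (p ^ e) = if p % 3 = 1 then 2 else 0 := by
  unfold nuThree
  rw [Nat.card_congr (gn_equivOrderThree hp hp3 he), gn_card_orderOf hp hp2 he 3 (by norm_num)]
  have h3 : ¬ 3 ∣ p := fun h => hp3 ((Nat.prime_dvd_prime_iff_eq Nat.prime_three hp).mp h).symm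
  have hcop : Nat.Coprime 3 (p ^ (e - 1)) := by
    apply Nat.Coprime.pow_right
    exact (Nat.Prime.coprime_iff_not_dvd Nat.prime_three).mpr h3
  have hiff : 3 ∣ p ^ (e - 1) * (p - 1) ↔ p % 3 = 1 := by
    constructor
    · intro h
      have := hcop.dvd_of_dvd_mul_left h
      have := hp.pos
      omega
    · intro h
      apply Dvd.dvd.mul_left
      omega
  have ht : Nat.totient 3 = 2 := by decide
  simp only [hiff, ht]

end Fermat.Agent.S24x
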