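/-
S24x / GenusNatPP : values of `dedekindPsi`, `cuspCount` at prime powers, and the small cases of
`nuTwo`, `nuThree`.  Pure arithmetic, Mathlib + frozen defs only.  (helper84)
-/
import Mathlib
import Fermat.Prelude.Def_ModularCurve_GenusNumerics

set_option autoImplicit false

namespace Fermat.Agent.S24x

open ModularCurve Finset

theorem gn_psi_prime_pow {p : ℕ} (hp : p.Prime) (e : ℕ) :
    dedekindPsi (p ^ (e + 1)) = p ^ e * (p + 1) := by
  rw [dedekindPsi, Finset.sum_filter, Nat.sum_divisors_prime_pow hp, Finset.sum_range_succ',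
    Finset.sum_range_succ']
  have h0 : ∑ i ∈ range e, (if Squarefree (p ^ (i + 1 + 1)) then p ^ (e + 1) / p ^ (i + 1 + 1) else 0)
      = 0 := by
    apply Finset.sum_eq_zero
    intro i _
    rw [if_neg]
    rw [Nat.squarefree_pow_iff hp.ne_one (by omega)]
    omega
  rw [h0]
  have h1 : Squarefree (p ^ (0 + 1)) := by simpa using hp.squarefree
  have h2 : Squarefree (p ^ 0) := by simp
  rw [if_pos h1, if_pos h2]
  have : p ^ (e + 1) / p ^ (0 + 1) = p ^ e := by
    rw [zero_add, pow_one, pow_succ]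
    exact Nat.mul_div_cancel _ hp.pos
  rw [this]
  simp
  ring

/-- the sum computing `cuspCount (p^e)` -/
theorem gn_cusp_pp {p : ℕ} (hp : p.Prime) (e : ℕ) :
    cuspCount (p ^ e) = ∑ i ∈ range (e + 1), Nat.totient (p ^ min i (e - i)) := by
  rw [cuspCount, Nat.sum_divisors_prime_pow hp]
  refine Finset.sum_congr rfl fun i hi => ?_
  have hi' : i ≤ e := Nat.lt_succ_iff.mp (Finset.mem_range.mp hi)
  rw [Nat.pow_div hi' hp.pos]
  congr 1
  rcases le_total i (e - i) with h | h
  · rw [min_eq_left h]; exact Nat.gcd_eq_left (pow_dvd_pow p h)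
  · rw [min_eq_right h]; exact Nat.gcd_eq_right (pow_dvd_pow p h)

theorem gn_peel (f : ℕ → ℕ) (e : ℕ) :
    ∑ j ∈ range (e + 2), f j = f 0 + f (e + 1) + ∑ j ∈ range e, f (j + 1) := by
  rw [Finset.sum_range_succ, Finset.sum_range_succ']; ring

theorem gn_cusp_one : cuspCount 1 = 1 := by simp [cuspCount]

theorem gn_cusp_prime {p : ℕ} (hp : p.Prime) : cuspCount p = 2 := by
  have := gn_cusp_pp hp 1
  rw [pow_one] at this
  rw [this]
  simp [Finset.sum_range_succ]

theorem gn_cusp_prime_sq {p : ℕ} (hp : p.Prime) : cuspCount (p ^ 2) = p + 1 := by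
  rw [gn_cusp_pp hp 2]
  simp [Finset.sum_range_succ, Nat.totient_prime hp]
  have := hp.pos
  omega

theorem gn_cusp_prime_pow_add_two {p : ℕ} (hp : p.Prime) (e : ℕ) :
    cuspCount (p ^ (e + 3)) = p * cuspCount (p ^ (e + 1)) := by
  rw [gn_cusp_pp hp (e + 3), gn_cusp_pp hp (e + 1)]
  rw [show e + 3 + 1 = (e + 2) + 2 by ring, gn_peel, gn_peel _ e]
  rw [show e + 1 + 1 = e + 2 by ring, gn_peel _ e]
  have hmid : ∀ j ∈ range e,
      Nat.totient (p ^ min (j + 1 + 1) (e + 3 - (j + 1 + 1)))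
        = p * Nat.totient (p ^ min (j + 1) (e + 1 - (j + 1))) := by
    intro j hj
    have hj' : j < e := Finset.mem_range.mp hj
    have h1 : min (j + 1 + 1) (e + 3 - (j + 1 + 1)) = min (j + 1) (e + 1 - (j + 1)) - 1 + 1 + 1 := by
      simp only [Nat.min_def]; split_ifs <;> omega
    have h2 : min (j + 1) (e + 1 - (j + 1)) = min (j + 1) (e + 1 - (j + 1)) - 1 + 1 := by
      simp only [Nat.min_def]; split_ifs <;> omega
    rw [h1]
    conv_rhs => rw [h2]
    rw [Nat.totient_prime_pow_succ hp, Nat.totient_prime_pow_succ hp]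
    ring
  rw [Finset.sum_congr rfl hmid, ← Finset.mul_sum]
  have e1 : min 0 (e + 3 - 0) = 0 := by simp
  have e2 : min (e + 2 + 1) (e + 3 - (e + 2 + 1)) = 0 := by simp
  have e3 : min (0 + 1) (e + 3 - (0 + 1)) = 1 := by
    simp only [Nat.min_def]; split_ifs <;> omega
  have e4 : min (e + 1 + 1) (e + 3 - (e + 1 + 1)) = 1 := by
    simp only [Nat.min_def]; split_ifs <;> omega
  have e5 : min 0 (e + 1 - 0) = 0 := by simp
  have e6 : min (e + 1) (e + 1 - (e + 1)) = 0 := by simp
  rw [e1, e2, e3, e4, e5, e6]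
  simp only [pow_zero, pow_one, Nat.totient_one, Nat.totient_prime hp]
  have := hp.pos
  have hp1 : p - 1 + 1 = p := by omega
  generalize ∑ i ∈ range e, Nat.totient (p ^ min (i + 1) (e + 1 - (i + 1))) = S
  calc 1 + 1 + (p - 1 + (p - 1) + p * S) = (p - 1 + 1) + (p - 1 + 1) + p * S := by ring
    _ = p * (1 + 1 + S) := by rw [hp1]; ring

/-- small cases of `nuTwo`/`nuThree` -/
theorem gn_nuTwo_one : nuTwo 1 = 1 := by
  unfold nuTwo
  rw [Nat.card_eq_fintype_card]; decide

theorem gn_nuThree_one : nuThree 1 = 1 := by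
  unfold nuThree
  rw [Nat.card_eq_fintype_card]; decide

theorem gn_nuTwo_two : nuTwo 2 = 1 := by
  unfold nuTwo
  rw [Nat.card_eq_fintype_card]; decide

theorem gn_nuThree_three : nuThree 3 = 1 := by
  unfold nuThree
  rw [Nat.card_eq_fintype_card]; decide

theorem gn_nuTwo_eq_zero_of_four_dvd {N : ℕ} (h : 4 ∣ N) : nuTwo N = 0 := by
  unfold nuTwo
  haveI : IsEmpty {x : ZMod N // x ^ 2 + 1 = 0} := by
    refine ⟨fun x => ?_⟩
    have h1 := congrArg (ZMod.castHom h (ZMod 4)) x.2
    simp only [map_add, map_pow, map_one, map_zero] at h1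
    revert h1
    generalize (ZMod.castHom h (ZMod 4)) x.1 = y
    revert y
    decide
  exact Nat.card_of_isEmpty

theorem gn_nuThree_eq_zero_of_two_dvd {N : ℕ} (h : 2 ∣ N) : nuThree N = 0 := by
  unfold nuThree
  haveI : IsEmpty {x : ZMod N // x ^ 2 + x + 1 = 0} := by
    refine ⟨fun x => ?_⟩
    have h1 := congrArg (ZMod.castHom h (ZMod 2)) x.2
    simp only [map_add, map_pow, map_one, map_zero] at h1
    revert h1
    generalize (ZMod.castHom h (ZMod 2)) x.1 = y
    revert y
    decide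
  exact Nat.card_of_isEmpty

theorem gn_nuThree_eq_zero_of_nine_dvd {N : ℕ} (h : 9 ∣ N) : nuThree N = 0 := by
  unfold nuThree
  haveI : IsEmpty {x : ZMod N // x ^ 2 + x + 1 = 0} := by
    refine ⟨fun x => ?_⟩
    have h1 := congrArg (ZMod.castHom h (ZMod 9)) x.2
    simp only [map_add, map_pow, map_one, map_zero] at h1
    revert h1
    generalize (ZMod.castHom h (ZMod 9)) x.1 = y
    revert y
    decide
  exact Nat.card_of_isEmpty

end Fermat.Agent.S24x
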