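/-
S24x / GenusNat : `ModularCurve.genusFormula N` is a nonnegative integer, plus the cast wrapper
needed because `AlgebraicCurve.genus` is defined by `(deg K + 2).toNat / 2` (natural division).
Pure arithmetic, Mathlib + frozen defs only.  (helper84)
-/
import Mathlib
import Fermat.Prelude.Def_ModularCurve_GenusNumerics
import Fermat.Agent.S24x.GenusNatMul
import Fermat.Agent.S24x.GenusNatNu
import Fermat.Agent.S24x.GenusNatPP

set_option autoImplicit false

namespace Fermat.Agent.S24x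

open ModularCurve Finset

/-! ### prime power facts for `cuspCount` -/

theorem gn_cusp_ge_two {p : ℕ} (hp : p.Prime) : ∀ e : ℕ, 2 ≤ cuspCount (p ^ (e + 1)) := by
  intro e
  induction e using Nat.twoStepInduction with
  | zero => rw [zero_add, pow_one, gn_cusp_prime hp]
  | one => rw [gn_cusp_prime_sq hp]; have := hp.two_le; omega
  | more e ih _ =>
    rw [show e + 2 + 1 = e + 3 by ring, gn_cusp_prime_pow_add_two hp]
    have := hp.two_le
    nlinarith

theorem gn_cusp_even {p : ℕ} (hp : p.Prime) (hp2 : p ≠ 2) : ∀ e : ℕ, 2 ∣ cuspCount (p ^ (e + 1)) := by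
  intro e
  induction e using Nat.twoStepInduction with
  | zero => rw [zero_add, pow_one, gn_cusp_prime hp]
  | one =>
    rw [gn_cusp_prime_sq hp]
    rcases hp.eq_two_or_odd with h | h
    · exact absurd h hp2
    · omega
  | more e ih _ =>
    rw [show e + 2 + 1 = e + 3 by ring, gn_cusp_prime_pow_add_two hp]
    exact Dvd.dvd.mul_left ih _

theorem gn_cusp_two_pow_even : ∀ e : ℕ, 2 ∣ cuspCount (2 ^ (e + 3)) := by
  intro e
  induction e using Nat.twoStepInduction with
  | zero =>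
    rw [zero_add, gn_cusp_prime_pow_add_two Nat.prime_two 0]
    exact Dvd.intro _ rfl
  | one =>
    rw [show 1 + 3 = 1 + 3 from rfl, gn_cusp_prime_pow_add_two Nat.prime_two 1]
    exact Dvd.intro _ rfl
  | more e ih _ =>
    rw [show e + 2 + 3 = (e + 2) + 3 from rfl, gn_cusp_prime_pow_add_two Nat.prime_two (e + 2)]
    exact Dvd.intro _ rfl

theorem gn_ineq_pp {p : ℕ} (hp : p.Prime) :
    ∀ e : ℕ, p ^ (e + 1) * cuspCount (p ^ (e + 1)) ^ 2 ≤ dedekindPsi (p ^ (e + 1)) ^ 2 := by
  intro e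
  induction e using Nat.twoStepInduction with
  | zero =>
    rw [zero_add, gn_psi_prime_pow hp 0, pow_one, gn_cusp_prime hp]
    nlinarith [sq_nonneg ((p : ℤ) - 1), hp.two_le]
  | one =>
    rw [gn_psi_prime_pow hp 1, gn_cusp_prime_sq hp]
    apply le_of_eq; ring
  | more e ih _ =>
    rw [show e + 2 + 1 = e + 3 by ring, gn_cusp_prime_pow_add_two hp, gn_psi_prime_pow hp (e + 2)]
    rw [gn_psi_prime_pow hp e] at ih
    calc p ^ (e + 3) * (p * cuspCount (p ^ (e + 1))) ^ 2
        = p ^ 4 * (p ^ (e + 1) * cuspCount (p ^ (e + 1)) ^ 2) := by ring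
      _ ≤ p ^ 4 * (p ^ e * (p + 1)) ^ 2 := Nat.mul_le_mul_left _ ih
      _ = (p ^ (e + 2) * (p + 1)) ^ 2 := by ring

/-! ### `nuTwo`, `nuThree` at prime powers: bounds -/

theorem gn_nuTwo_pp_le {p : ℕ} (hp : p.Prime) (e : ℕ) : nuTwo (p ^ (e + 1)) ≤ 2 := by
  by_cases hp2 : p = 2
  · subst hp2
    rcases e with _ | e
    · rw [zero_add, pow_one, gn_nuTwo_two]; omega
    · rw [gn_nuTwo_eq_zero_of_four_dvd]; · omega
      exact ⟨2 ^ e, by ring⟩
  · rw [gn_nuTwo_odd_prime_pow hp hp2 (Nat.succ_ne_zero e)]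
    split_ifs <;> omega

theorem gn_nuThree_pp_le {p : ℕ} (hp : p.Prime) (e : ℕ) : nuThree (p ^ (e + 1)) ≤ 2 := by
  by_cases hp2 : p = 2
  · subst hp2
    rw [gn_nuThree_eq_zero_of_two_dvd (dvd_pow_self 2 (Nat.succ_ne_zero e))]; omega
  by_cases hp3 : p = 3
  · subst hp3
    rcases e with _ | e
    · rw [zero_add, pow_one, gn_nuThree_three]; omega
    · rw [gn_nuThree_eq_zero_of_nine_dvd]; · omega
      exact ⟨3 ^ e, by ring⟩
  · rw [gn_nuThree_prime_pow hp hp2 hp3 (Nat.succ_ne_zero e)]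
    split_ifs <;> omega

/-! ### multiplicative inductions -/

theorem gn_ineq (N : ℕ) (hN : N ≠ 0) : N * cuspCount N ^ 2 ≤ dedekindPsi N ^ 2 := by
  induction N using Nat.recOnPosPrimePosCoprime with
  | prime_pow p n hp hn =>
    obtain ⟨e, rfl⟩ : ∃ e, n = e + 1 := ⟨n - 1, by omega⟩
    exact gn_ineq_pp hp e
  | zero => exact absurd rfl hN
  | one => simp [dedekindPsi_one]
  | coprime a b ha hb hab iha ihb =>
    rw [gn_cusp_mul hab, gn_psi_mul hab]
    calc a * b * (cuspCount a * cuspCount b) ^ 2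
        = (a * cuspCount a ^ 2) * (b * cuspCount b ^ 2) := by ring
      _ ≤ dedekindPsi a ^ 2 * dedekindPsi b ^ 2 :=
          Nat.mul_le_mul (iha (by omega)) (ihb (by omega))
      _ = (dedekindPsi a * dedekindPsi b) ^ 2 := by ring

theorem gn_nu_le_cusp (N : ℕ) (hN : N ≠ 0) : nuTwo N ≤ cuspCount N ∧ nuThree N ≤ cuspCount N := by
  induction N using Nat.recOnPosPrimePosCoprime with
  | prime_pow p n hp hn =>
    obtain ⟨e, rfl⟩ : ∃ e, n = e + 1 := ⟨n - 1, by omega⟩
    exact ⟨(gn_nuTwo_pp_le hp e).trans (gn_cusp_ge_two hp e),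
      (gn_nuThree_pp_le hp e).trans (gn_cusp_ge_two hp e)⟩
  | zero => exact absurd rfl hN
  | one => simp [gn_nuTwo_one, gn_nuThree_one]
  | coprime a b ha hb hab iha ihb =>
    rw [gn_cusp_mul hab, gn_nuTwo_mul hab, gn_nuThree_mul hab]
    exact ⟨Nat.mul_le_mul (iha (by omega)).1 (ihb (by omega)).1,
      Nat.mul_le_mul (iha (by omega)).2 (ihb (by omega)).2⟩

/-- mod 3 : `ψ ≡ ν₃`. -/
theorem gn_mod_three (N : ℕ) (hN : N ≠ 0) : dedekindPsi N ≡ nuThree N [MOD 3] := by
  induction N using Nat.recOnPosPrimePosCoprime with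
  | prime_pow p n hp hn =>
    obtain ⟨e, rfl⟩ : ∃ e, n = e + 1 := ⟨n - 1, by omega⟩
    rw [gn_psi_prime_pow hp e]
    by_cases hp2 : p = 2
    · subst hp2
      rw [gn_nuThree_eq_zero_of_two_dvd (dvd_pow_self 2 (Nat.succ_ne_zero e))]
      exact (Nat.modEq_zero_iff_dvd).mpr (Dvd.intro_left _ rfl)
    by_cases hp3 : p = 3
    · subst hp3
      rcases e with _ | e
      · rw [zero_add, pow_one, gn_nuThree_three]; decide
      · rw [gn_nuThree_eq_zero_of_nine_dvd ⟨3 ^ e, by ring⟩]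
        exact (Nat.modEq_zero_iff_dvd).mpr ⟨3 ^ e * 4, by ring⟩
    · rw [gn_nuThree_prime_pow hp hp2 hp3 (Nat.succ_ne_zero e)]
      have h3 : ¬ 3 ∣ p := fun h => hp3 ((Nat.prime_dvd_prime_iff_eq Nat.prime_three hp).mp h).symm
      have hcases : p % 3 = 1 ∨ p % 3 = 2 := by omega
      rcases hcases with h | h
      · rw [if_pos h]
        have h1 : p ^ e % 3 = 1 := by rw [Nat.pow_mod, h]; simp
        unfold Nat.ModEq
        rw [Nat.mul_mod, h1, Nat.add_mod, h]
      · rw [if_neg (by omega)]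
        refine (Nat.modEq_zero_iff_dvd).mpr (Dvd.dvd.mul_left ?_ _)
        omega
  | zero => exact absurd rfl hN
  | one => rw [dedekindPsi_one, gn_nuThree_one]
  | coprime a b ha hb hab iha ihb =>
    rw [gn_psi_mul hab, gn_nuThree_mul hab]
    exact Nat.ModEq.mul (iha (by omega)) (ihb (by omega))

/-! ### mod 4 -/

/-- "half" class -/
def gn_H (n : ℕ) : Prop := dedekindPsi n % 4 = 2 ∧ nuTwo n = 2 ∧ 2 ∣ cuspCount n
/-- absorbing class -/
def gn_Abs (n : ℕ) : Prop := 4 ∣ dedekindPsi n ∧ 4 ∣ nuTwo n ∧ 2 ∣ cuspCount n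

theorem gn_Abs_mul_left {a b : ℕ} (hab : a.Coprime b) (h : gn_Abs a) : gn_Abs (a * b) := by
  obtain ⟨h1, h2, h3⟩ := h
  refine ⟨?_, ?_, ?_⟩
  · rw [gn_psi_mul hab]; exact Dvd.dvd.mul_right h1 _
  · rw [gn_nuTwo_mul hab]; exact Dvd.dvd.mul_right h2 _
  · rw [gn_cusp_mul hab]; exact Dvd.dvd.mul_right h3 _

theorem gn_Abs_mul_right {a b : ℕ} (hab : a.Coprime b) (h : gn_Abs b) : gn_Abs (a * b) := by
  rw [mul_comm]; exact gn_Abs_mul_left hab.symm h

theorem gn_psi_two : dedekindPsi 2 = 3 := by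
  have := gn_psi_prime_pow Nat.prime_two 0
  simpa using this

theorem gn_psi_four : dedekindPsi 4 = 6 := by
  have := gn_psi_prime_pow Nat.prime_two 1
  simpa using this

theorem gn_cusp_two : cuspCount 2 = 2 := gn_cusp_prime Nat.prime_two

theorem gn_cusp_four : cuspCount 4 = 3 := by
  have := gn_cusp_prime_sq Nat.prime_two
  simpa using this

theorem gn_nuTwo_four : nuTwo 4 = 0 := gn_nuTwo_eq_zero_of_four_dvd (dvd_refl 4)

theorem gn_cls (N : ℕ) (hN : N ≠ 0) : N = 1 ∨ N = 2 ∨ N = 4 ∨ gn_H N ∨ gn_Abs N := by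
  induction N using Nat.recOnPosPrimePosCoprime with
  | prime_pow p n hp hn =>
    obtain ⟨e, rfl⟩ : ∃ e, n = e + 1 := ⟨n - 1, by omega⟩
    by_cases hp2 : p = 2
    · subst hp2
      rcases e with _ | _ | e
      · right; left; norm_num
      · right; right; left; norm_num
      · right; right; right; right
        refine ⟨?_, ?_, ?_⟩
        · rw [gn_psi_prime_pow Nat.prime_two]
          exact Dvd.dvd.mul_right ⟨2 ^ e, by ring⟩ _
        · rw [gn_nuTwo_eq_zero_of_four_dvd ⟨2 ^ (e + 1), by ring⟩]; exact dvd_zero 4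
        · exact gn_cusp_two_pow_even e
    · have hodd : p % 2 = 1 := by
        rcases hp.eq_two_or_odd with h | h
        · exact absurd h hp2
        · exact h
      have hcases : p % 4 = 1 ∨ p % 4 = 3 := by omega
      rcases hcases with h | h
      · right; right; right; left
        refine ⟨?_, ?_, gn_cusp_even hp hp2 e⟩
        · rw [gn_psi_prime_pow hp e]
          have h1 : p ^ e % 4 = 1 := by rw [Nat.pow_mod, h]; simp
          rw [Nat.mul_mod, h1, Nat.add_mod, h]
        · rw [gn_nuTwo_odd_prime_pow hp hp2 (Nat.succ_ne_zero e), if_pos h]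
      · right; right; right; right
        refine ⟨?_, ?_, gn_cusp_even hp hp2 e⟩
        · rw [gn_psi_prime_pow hp e]
          refine Dvd.dvd.mul_left ?_ _
          omega
        · rw [gn_nuTwo_odd_prime_pow hp hp2 (Nat.succ_ne_zero e), if_neg (by omega)]
          exact dvd_zero 4
  | zero => exact absurd rfl hN
  | one => left; rfl
  | coprime a b ha hb hab iha ihb =>
    right; right; right
    have iha' := iha (by omega)
    have ihb' := ihb (by omega)
    -- helper: H * H is Abs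
    rcases iha' with rfl | rfl | rfl | hHa | hAa
    · omega
    · -- a = 2
      rcases ihb' with rfl | rfl | rfl | hHb | hAb
      · omega
      · exact absurd hab (by decide)
      · exact absurd hab (by decide)
      · left
        obtain ⟨h1, h2, h3⟩ := hHb
        refine ⟨?_, ?_, ?_⟩
        · rw [gn_psi_mul hab, gn_psi_two, Nat.mul_mod, h1]
        · rw [gn_nuTwo_mul hab, gn_nuTwo_two, h2]
        · rw [gn_cusp_mul hab]; exact Dvd.dvd.mul_left h3 _
      · right; exact gn_Abs_mul_right hab hAb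
    · -- a = 4
      rcases ihb' with rfl | rfl | rfl | hHb | hAb
      · omega
      · exact absurd hab (by decide)
      · exact absurd hab (by decide)
      · right
        obtain ⟨h1, h2, h3⟩ := hHb
        refine ⟨?_, ?_, ?_⟩
        · rw [gn_psi_mul hab, gn_psi_four]
          have : dedekindPsi b % 2 = 0 := by omega
          obtain ⟨k, hk⟩ := Nat.dvd_of_mod_eq_zero this
          rw [hk]; exact ⟨3 * k, by ring⟩
        · rw [gn_nuTwo_mul hab, gn_nuTwo_four, zero_mul]; exact dvd_zero 4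
        · rw [gn_cusp_mul hab]; exact Dvd.dvd.mul_left h3 _
      · right; exact gn_Abs_mul_right hab hAb
    · -- a in H
      obtain ⟨h1, h2, h3⟩ := hHa
      rcases ihb' with rfl | rfl | rfl | hHb | hAb
      · omega
      · left
        refine ⟨?_, ?_, ?_⟩
        · rw [gn_psi_mul hab, gn_psi_two, Nat.mul_mod, h1]
        · rw [gn_nuTwo_mul hab, gn_nuTwo_two, h2]
        · rw [gn_cusp_mul hab]; exact Dvd.dvd.mul_right h3 _
      · right
        refine ⟨?_, ?_, ?_⟩
        · rw [gn_psi_mul hab, gn_psi_four]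
          have : dedekindPsi a % 2 = 0 := by omega
          obtain ⟨k, hk⟩ := Nat.dvd_of_mod_eq_zero this
          rw [hk]; exact ⟨3 * k, by ring⟩
        · rw [gn_nuTwo_mul hab, gn_nuTwo_four, mul_zero]; exact dvd_zero 4
        · rw [gn_cusp_mul hab]; exact Dvd.dvd.mul_right h3 _
      · right
        obtain ⟨g1, g2, g3⟩ := hHb
        refine ⟨?_, ?_, ?_⟩
        · rw [gn_psi_mul hab]
          have e1 : dedekindPsi a % 2 = 0 := by omega
          have e2 : dedekindPsi b % 2 = 0 := by omega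
          obtain ⟨k, hk⟩ := Nat.dvd_of_mod_eq_zero e1
          obtain ⟨l, hl⟩ := Nat.dvd_of_mod_eq_zero e2
          rw [hk, hl]; exact ⟨k * l, by ring⟩
        · rw [gn_nuTwo_mul hab, h2, g2]
        · rw [gn_cusp_mul hab]; exact Dvd.dvd.mul_right h3 _
      · right; exact gn_Abs_mul_right hab hAb
    · right; exact gn_Abs_mul_left hab hAa

theorem gn_mod_four (N : ℕ) (hN : N ≠ 0) : 4 ∣ dedekindPsi N + nuTwo N + 2 * cuspCount N := by
  rcases gn_cls N hN with rfl | rfl | rfl | h | h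
  · rw [dedekindPsi_one, gn_nuTwo_one, gn_cusp_one]
  · rw [gn_psi_two, gn_nuTwo_two, gn_cusp_two]; decide
  · rw [gn_psi_four, gn_nuTwo_four, gn_cusp_four]; decide
  · obtain ⟨h1, h2, h3⟩ := h
    omega
  · obtain ⟨h1, h2, h3⟩ := h
    omega

/-! ### the small range, by computation -/

/-- computable mirror of `dedekindPsi` -/
def gn_psiC (N : ℕ) : ℕ :=
  ∑ d ∈ N.divisors with (∀ x ∈ Finset.range (d + 1), x * x ∣ d → x = 1), N / d
/-- computable mirror of `nuTwo` -/
def gn_nu2C (N : ℕ) : ℕ := ((Finset.range N).filter (fun x => N ∣ x * x + 1)).card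
/-- computable mirror of `nuThree` -/
def gn_nu3C (N : ℕ) : ℕ := ((Finset.range N).filter (fun x => N ∣ x * x + x + 1)).card

theorem gn_psiC_eq (N : ℕ) : dedekindPsi N = gn_psiC N := by
  unfold dedekindPsi gn_psiC
  congr 1
  apply Finset.filter_congr
  intro d hd
  have hd0 : d ≠ 0 := (Nat.pos_of_mem_divisors hd).ne'
  constructor
  · intro h x _ hx
    exact Nat.isUnit_iff.mp (h x hx)
  · intro h x hx
    rw [Nat.isUnit_iff]
    apply h x _ hx
    rw [Finset.mem_range]
    have hx0 : x ≠ 0 := by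
      rintro rfl
      simp at hx
      exact hd0 hx
    have : x * x ≤ d := Nat.le_of_dvd (Nat.pos_of_ne_zero hd0) hx
    nlinarith [Nat.pos_of_ne_zero hx0]

/-- generic transfer from `ZMod N` roots to a filter on `range N`. -/
theorem gn_card_roots_eq (N : ℕ) (hN : N ≠ 0) (F : ZMod N → ZMod N) (f : ℕ → ℕ)
    (hF : ∀ x : ZMod N, F x = ((f x.val : ℕ) : ZMod N)) :
    Nat.card {x : ZMod N // F x = 0} = ((Finset.range N).filter (fun x => N ∣ f x)).card := by
  haveI : NeZero N := ⟨hN⟩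
  rw [Nat.card_eq_fintype_card, Fintype.card_subtype]
  apply Finset.card_bij (fun x _ => x.val)
  · intro x hx
    rw [Finset.mem_filter] at hx ⊢
    refine ⟨Finset.mem_range.mpr (ZMod.val_lt x), ?_⟩
    rw [← ZMod.natCast_eq_zero_iff, ← hF]
    exact hx.2
  · intro x _ y _ h
    exact ZMod.val_injective N h
  · intro y hy
    rw [Finset.mem_filter, Finset.mem_range] at hy
    refine ⟨(y : ZMod N), ?_, ZMod.val_natCast_of_lt hy.1⟩
    rw [Finset.mem_filter]
    refine ⟨Finset.mem_univ _, ?_⟩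
    rw [hF, ZMod.val_natCast_of_lt hy.1, ZMod.natCast_eq_zero_iff]
    exact hy.2

theorem gn_nu2C_eq (N : ℕ) (hN : N ≠ 0) : nuTwo N = gn_nu2C N := by
  haveI : NeZero N := ⟨hN⟩
  unfold nuTwo gn_nu2C
  apply gn_card_roots_eq N hN (fun x => x ^ 2 + 1) (fun x => x * x + 1)
  intro x
  push_cast
  rw [ZMod.natCast_zmod_val]
  ring

theorem gn_nu3C_eq (N : ℕ) (hN : N ≠ 0) : nuThree N = gn_nu3C N := by
  haveI : NeZero N := ⟨hN⟩
  unfold nuThree gn_nu3C
  apply gn_card_roots_eq N hN (fun x => x ^ 2 + x + 1) (fun x => x * x + x + 1)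
  intro x
  push_cast
  rw [ZMod.natCast_zmod_val]
  ring

set_option maxRecDepth 1000000 in
theorem gn_finite_check : ∀ N ∈ Finset.Icc 1 168,
    3 * gn_nu2C N + 4 * gn_nu3C N + 6 * cuspCount N ≤ 12 + gn_psiC N := by
  decide

/-! ### main results -/

theorem gn_nonneg (N : ℕ) (hN : N ≠ 0) :
    3 * nuTwo N + 4 * nuThree N + 6 * cuspCount N ≤ 12 + dedekindPsi N := by
  by_cases h : N ≤ 168
  · have := gn_finite_check N (Finset.mem_Icc.mpr ⟨Nat.pos_of_ne_zero hN, h⟩)
    rwa [← gn_nu2C_eq N hN, ← gn_nu3C_eq N hN, ← gn_psiC_eq N] at this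
  · have h1 := gn_ineq N hN
    obtain ⟨h2, h3⟩ := gn_nu_le_cusp N hN
    have h4 : (13 * cuspCount N) ^ 2 ≤ dedekindPsi N ^ 2 := by
      calc (13 * cuspCount N) ^ 2 = 169 * cuspCount N ^ 2 := by ring
        _ ≤ N * cuspCount N ^ 2 := Nat.mul_le_mul_right _ (by omega)
        _ ≤ _ := h1
    have h5 : 13 * cuspCount N ≤ dedekindPsi N :=
      (Nat.pow_le_pow_iff_left (by norm_num)).mp h4
    omega

theorem gn_dvd (N : ℕ) (hN : N ≠ 0) :
    (12 : ℤ) ∣ 12 + (dedekindPsi N : ℤ) - 3 * nuTwo N - 4 * nuThree N - 6 * cuspCount N := by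
  have h3 := gn_mod_three N hN
  have h4 := gn_mod_four N hN
  have h3' : (dedekindPsi N : ℤ) % 3 = (nuThree N : ℤ) % 3 := by
    have := h3
    unfold Nat.ModEq at this
    exact_mod_cast this
  have h4' : ((dedekindPsi N : ℤ) + nuTwo N + 2 * cuspCount N) % 4 = 0 := by
    obtain ⟨k, hk⟩ := h4
    have : ((dedekindPsi N + nuTwo N + 2 * cuspCount N : ℕ) : ℤ) = 4 * k := by exact_mod_cast hk
    push_cast at this
    omega
  omega

/-- `genusFormula N` is a natural number. -/
theorem genusFormula_eq_natCast (N : ℕ) [NeZero N] :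
    ∃ g : ℕ, ModularCurve.genusFormula N = (g : ℚ) := by
  have hN : N ≠ 0 := NeZero.ne N
  obtain ⟨k, hk⟩ := gn_dvd N hN
  have hnn := gn_nonneg N hN
  have hk0 : 0 ≤ k := by
    have : (0 : ℤ) ≤ 12 + (dedekindPsi N : ℤ) - 3 * nuTwo N - 4 * nuThree N - 6 * cuspCount N := by
      have : ((3 * nuTwo N + 4 * nuThree N + 6 * cuspCount N : ℕ) : ℤ)
          ≤ ((12 + dedekindPsi N : ℕ) : ℤ) := by exact_mod_cast hnn
      push_cast at this
      linarith
    omega
  refine ⟨k.toNat, ?_⟩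
  have hk' : ((k.toNat : ℕ) : ℚ) = (k : ℚ) := by
    have : ((k.toNat : ℕ) : ℤ) = k := Int.toNat_of_nonneg hk0
    exact_mod_cast this
  rw [hk']
  have hq : (12 : ℚ) + (dedekindPsi N : ℚ) - 3 * nuTwo N - 4 * nuThree N - 6 * cuspCount N
      = 12 * (k : ℚ) := by exact_mod_cast hk
  unfold ModularCurve.genusFormula
  linarith

/-- cast wrapper: from the Riemann–Hurwitz degree identity to the `genus` value. -/
theorem genus_cast_of_degree (N : ℕ) [NeZero N] (d : ℤ)
    (h : (d : ℚ) + 2 = 2 * ModularCurve.genusFormula N) :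
    ((((d + 2).toNat / 2 : ℕ)) : ℚ) = ModularCurve.genusFormula N := by
  obtain ⟨g, hg⟩ := genusFormula_eq_natCast N
  rw [hg] at h ⊢
  have hd : d + 2 = 2 * (g : ℤ) := by exact_mod_cast h
  rw [hd]
  have : (2 * (g : ℤ)).toNat = 2 * g := by omega
  rw [this]
  simp

end Fermat.Agent.S24x
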