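/-
S24 project: global bound for the `j`-function,
`‖j τ‖ ≤ C · exp (2π · max (Im τ) (1 / Im τ))` (moderate growth of `j ∘ M` for every integer
matrix `M` of positive determinant follows without Hermite normal forms).
-/
import Fermat.Agent.S24x.JFunSpecial

set_option autoImplicit false

namespace Fermat.Agent.S24x

open UpperHalfPlane ModularForm ModularFormClass MatrixGroups EisensteinSeries Filter
open scoped Manifold Topology

/-- `Im (γ τ) ≤ max (Im τ) (1 / Im τ)` for `γ ∈ SL(2,ℤ)`. -/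
theorem jf_im_smul_le (γ : SL(2, ℤ)) (τ : ℍ) : (γ • τ).im ≤ max τ.im (1 / τ.im) := by
  have him : 0 < τ.im := τ.im_pos
  rw [ModularGroup.im_smul_eq_div_normSq]
  have hpos : 0 < Complex.normSq (denom γ τ) := normSq_denom_pos γ τ.im_ne_zero
  have hden : denom γ τ = (γ 1 0 : ℂ) * (τ : ℂ) + γ 1 1 := ModularGroup.denom_apply γ τ
  by_cases hc : γ 1 0 = 0
  · -- `c = 0`, so `d = ± 1`
    have hdet := Matrix.SpecialLinearGroup.det_coe γ
    rw [Matrix.det_fin_two, hc, mul_zero, sub_zero] at hdet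
    have hd : (γ 1 1) ^ 2 = 1 := by
      have h1 : γ 1 1 ∣ 1 := ⟨γ 0 0, by linarith⟩
      rcases Int.isUnit_iff.1 (isUnit_of_dvd_one h1) with h | h <;> rw [h] <;> norm_num
    have hn : Complex.normSq (denom γ τ) = 1 := by
      rw [hden, hc]
      simp only [Int.cast_zero, zero_mul, zero_add]
      rw [Complex.normSq_intCast, ← sq]
      exact_mod_cast hd
    rw [hn, div_one]
    exact le_max_left _ _
  · -- `c ≠ 0`: `|cτ + d|² ≥ (Im τ)²`
    have hc1 : (1 : ℝ) ≤ ((γ 1 0 : ℤ) : ℝ) ^ 2 := by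
      have : (1 : ℤ) ≤ (γ 1 0) ^ 2 := by
        have := sq_nonneg (γ 1 0)
        have h0 : (γ 1 0) ^ 2 ≠ 0 := pow_ne_zero 2 hc
        omega
      exact_mod_cast this
    have hn : τ.im ^ 2 ≤ Complex.normSq (denom γ τ) := by
      rw [hden, Complex.normSq_apply]
      simp only [Complex.add_re, Complex.mul_re, Complex.intCast_re, Complex.intCast_im,
        Complex.add_im, Complex.mul_im, zero_mul, sub_zero, add_zero]
      have e : ((γ 1 0 : ℤ) : ℝ) * (τ : ℂ).im * (((γ 1 0 : ℤ) : ℝ) * (τ : ℂ).im) =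
          ((γ 1 0 : ℤ) : ℝ) ^ 2 * τ.im ^ 2 := by
        rw [UpperHalfPlane.coe_im]; ring
      have h2 : τ.im ^ 2 ≤ ((γ 1 0 : ℤ) : ℝ) ^ 2 * τ.im ^ 2 := by
        nlinarith [sq_nonneg τ.im]
      nlinarith [mul_self_nonneg (((γ 1 0 : ℤ) : ℝ) * (τ : ℂ).re + ((γ 1 1 : ℤ) : ℝ))]
    refine le_trans ?_ (le_max_right _ _)
    rw [div_le_div_iff₀ hpos him]
    nlinarith

/-- **Global bound for `j`**. -/
theorem jFun_norm_le : ∃ C : ℝ, ∀ τ : ℍ,
    ‖jFun τ‖ ≤ C * Real.exp (2 * Real.pi * max τ.im (1 / τ.im)) := by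
  obtain ⟨A, hA⟩ := jFun_growth
  -- bound on the truncated fundamental domain
  have hK := ModularGroup.isCompact_truncatedFundamentalDomain A
  have hcont : ContinuousOn jFun (ModularGroup.truncatedFundamentalDomain A) :=
    jFun_mdiff.continuous.continuousOn
  obtain ⟨B, hB⟩ := hK.exists_bound_of_continuousOn hcont
  refine ⟨max 2 B, fun τ => ?_⟩
  obtain ⟨γ, hγ⟩ := ModularGroup.exists_smul_mem_fd τ
  have hinv : jFun τ = jFun (γ • τ) := (jFun_smul γ τ).symm
  have hexp : Real.exp (2 * Real.pi * (γ • τ).im) ≤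
      Real.exp (2 * Real.pi * max τ.im (1 / τ.im)) := by
    apply Real.exp_le_exp.2
    exact mul_le_mul_of_nonneg_left (jf_im_smul_le γ τ) (by positivity)
  have hmax0 : 0 ≤ max 2 B := le_trans (by norm_num) (le_max_left 2 B)
  have key : ‖jFun (γ • τ)‖ ≤ max 2 B * Real.exp (2 * Real.pi * (γ • τ).im) := by
    by_cases hle : A ≤ (γ • τ).im
    · refine le_trans (hA _ hle).2 ?_
      exact mul_le_mul_of_nonneg_right (le_max_left _ _) (Real.exp_pos _).le
    · have hmem : γ • τ ∈ ModularGroup.truncatedFundamentalDomain A :=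
        ⟨hγ, (not_le.1 hle).le⟩
      have h1 := hB _ hmem
      have h2 : (1 : ℝ) ≤ Real.exp (2 * Real.pi * (γ • τ).im) := by
        apply Real.one_le_exp
        have := (γ • τ).im_pos
        positivity
      calc ‖jFun (γ • τ)‖ ≤ B := h1
        _ ≤ max 2 B := le_max_right _ _
        _ = max 2 B * 1 := (mul_one _).symm
        _ ≤ max 2 B * Real.exp (2 * Real.pi * (γ • τ).im) :=
            mul_le_mul_of_nonneg_left h2 hmax0
  rw [hinv]
  exact le_trans key (mul_le_mul_of_nonneg_left hexp hmax0)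

end Fermat.Agent.S24x
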