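/-
S24 helper (helper14): local analytic facts about the `j`-function, WITHOUT the valence
formula, Ramanujan identities or injectivity of `j`:

* `jl_exists_eq` (J2): for every `c : ℂ` there is `z : ℍ` with `E₄ z ^ 3 = c * Δ z`.
* `jl_disc_mul_D_j` (J3a): `Δ * D j = κ * E₄² * E₆` for some constant `κ ≠ 0`.
* orders of `j - j z₀` at `z₀`  (J3b).
-/
import Mathlib

set_option autoImplicit false

namespace Fermat.Agent.S24x

open UpperHalfPlane ModularForm Filter Derivative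
open scoped MatrixGroups Manifold ModularForm Topology Real

local notation "Δ" => ModularForm.discriminant

/-- Build a level one modular form from a holomorphic `SL(2,ℤ)`-invariant function bounded at
`i∞`. -/
noncomputable def jl_mkForm (k : ℤ) (f : ℍ → ℂ) (hol : MDiff f)
    (inv : ∀ γ : SL(2, ℤ), f ∣[k] γ = f) (bdd : IsBoundedAtImInfty f) : ModularForm 𝒮ℒ k where
  toFun := f
  slash_action_eq' A hA := by
    obtain ⟨A, rfl⟩ := hA
    exact inv A
  holo' := hol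
  bdd_at_cusps' hc := by
    rw [Subgroup.IsArithmetic.isCusp_iff_isCusp_SL2Z] at hc
    rw [OnePoint.isBoundedAt_iff_forall_SL2Z hc]
    intro γ _
    rw [inv γ]
    exact bdd

@[simp] theorem jl_mkForm_apply (k : ℤ) (f : ℍ → ℂ) (hol : MDiff f)
    (inv : ∀ γ : SL(2, ℤ), f ∣[k] γ = f) (bdd : IsBoundedAtImInfty f) (z : ℍ) :
    jl_mkForm k f hol inv bdd z = f z := rfl

/-- A level one modular form tends to its constant `q`-coefficient at `i∞`. -/
theorem jl_tendsto_coeff_zero {k : ℤ} (f : ModularForm 𝒮ℒ k) :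
    Tendsto (f : ℍ → ℂ) atImInfty (𝓝 ((qExpansion 1 f).coeff 0)) := by
  have han : AnalyticAt ℂ (cuspFunction 1 f) 0 :=
    ModularFormClass.analyticAt_cuspFunction_zero f one_pos one_mem_strictPeriods_SL
  have hper := SlashInvariantFormClass.periodic_comp_ofComplex f one_mem_strictPeriods_SL
  have h0 : (qExpansion 1 f).coeff 0 = cuspFunction 1 f 0 := by
    simp [qExpansion_coeff]
  rw [h0]
  have : (cuspFunction 1 f ∘ fun τ : ℍ ↦ Function.Periodic.qParam 1 τ : ℍ → ℂ) = f := by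
    funext τ
    simpa using eq_cuspFunction τ one_ne_zero hper
  have h2 := han.continuousAt.tendsto.comp (qParam_tendsto_atImInfty (h := 1) one_pos)
  rwa [this] at h2

theorem jl_tendsto_E₄ : Tendsto (E₄ : ℍ → ℂ) atImInfty (𝓝 1) := by
  have := jl_tendsto_coeff_zero E₄
  rwa [EisensteinSeries.E_qExpansion_coeff_zero _ ⟨2, rfl⟩] at this

theorem jl_tendsto_E₆ : Tendsto (E₆ : ℍ → ℂ) atImInfty (𝓝 1) := by
  have := jl_tendsto_coeff_zero E₆
  rwa [EisensteinSeries.E_qExpansion_coeff_zero _ ⟨3, rfl⟩] at this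

theorem jl_tendsto_disc : Tendsto (Δ : ℍ → ℂ) atImInfty (𝓝 0) :=
  ModularForm.discriminant_isZeroAtImInfty


theorem jl_E₄_smul (γ : SL(2, ℤ)) (z : ℍ) : E₄ (γ • z) = denom γ z ^ (4 : ℤ) * E₄ z :=
  SlashInvariantForm.slash_action_eqn'' E₄ (γ := (γ : GL (Fin 2) ℝ)) (Set.mem_range_self γ) z

theorem jl_E₆_smul (γ : SL(2, ℤ)) (z : ℍ) : E₆ (γ • z) = denom γ z ^ (6 : ℤ) * E₆ z :=
  SlashInvariantForm.slash_action_eqn'' E₆ (γ := (γ : GL (Fin 2) ℝ)) (Set.mem_range_self γ) z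

theorem jl_disc_smul (γ : SL(2, ℤ)) (z : ℍ) : Δ (γ • z) = denom γ z ^ (12 : ℤ) * Δ z :=
  SlashInvariantForm.slash_action_eqn'' CuspForm.discriminant (γ := (γ : GL (Fin 2) ℝ))
    (Set.mem_range_self γ) z

theorem jl_diffOn_E₄ : DifferentiableOn ℂ ((E₄ : ℍ → ℂ) ∘ ofComplex) {z : ℂ | 0 < z.im} :=
  UpperHalfPlane.mdifferentiable_iff.mp (ModularForm.holo' E₄)

theorem jl_diffOn_E₆ : DifferentiableOn ℂ ((E₆ : ℍ → ℂ) ∘ ofComplex) {z : ℂ | 0 < z.im} :=
  UpperHalfPlane.mdifferentiable_iff.mp (ModularForm.holo' E₆)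

theorem jl_diffOn_disc : DifferentiableOn ℂ ((Δ : ℍ → ℂ) ∘ ofComplex) {z : ℂ | 0 < z.im} :=
  UpperHalfPlane.mdifferentiable_iff.mp (CuspForm.holo' CuspForm.discriminant)

/-- (J2) `j` takes every complex value. -/
theorem jl_exists_eq (c : ℂ) : ∃ z : ℍ, E₄ z ^ 3 = c * Δ z := by
  by_contra hne
  push Not at hne
  have hne' : ∀ z : ℍ, E₄ z ^ 3 - c * Δ z ≠ 0 := fun z => sub_ne_zero.mpr (hne z)
  set g : ℍ → ℂ := fun z => Δ z / (E₄ z ^ 3 - c * Δ z) with hg
  have hol : MDiff g := by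
    rw [UpperHalfPlane.mdifferentiable_iff]
    have h1 : DifferentiableOn ℂ (fun w : ℂ => ((Δ : ℍ → ℂ) ∘ ofComplex) w /
        ((((E₄ : ℍ → ℂ) ∘ ofComplex) w) ^ 3 - c * ((Δ : ℍ → ℂ) ∘ ofComplex) w))
        {z : ℂ | 0 < z.im} := by
      refine jl_diffOn_disc.div ((jl_diffOn_E₄.pow 3).sub (jl_diffOn_disc.const_mul c)) ?_
      intro w hw
      exact hne' (ofComplex w)
    exact h1
  have inv : ∀ γ : SL(2, ℤ), g ∣[(0 : ℤ)] γ = g := by
    intro γ
    funext z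
    rw [ModularForm.SL_slash_apply]
    simp only [neg_zero, zpow_zero, mul_one, hg]
    have hd : denom γ z ≠ 0 := denom_ne_zero _ _
    have hd12 : denom γ z ^ (12 : ℤ) ≠ 0 := zpow_ne_zero _ hd
    rw [jl_E₄_smul, jl_disc_smul]
    have : (denom γ z ^ (4 : ℤ) * E₄ z) ^ 3 - c * (denom γ z ^ (12 : ℤ) * Δ z)
        = denom γ z ^ (12 : ℤ) * (E₄ z ^ 3 - c * Δ z) := by
      rw [mul_pow, ← zpow_natCast (denom γ z ^ (4 : ℤ)) 3, ← zpow_mul]
      norm_num
      ring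
    rw [this, mul_div_mul_left _ _ hd12]
  have htend : Tendsto g atImInfty (𝓝 0) := by
    have h1 : Tendsto (fun z : ℍ => E₄ z ^ 3 - c * Δ z) atImInfty (𝓝 (1 ^ 3 - c * 0)) :=
      (jl_tendsto_E₄.pow 3).sub (jl_tendsto_disc.const_mul c)
    have h2 := jl_tendsto_disc.div h1 (by norm_num)
    have h3 : (Δ / fun z : ℍ => E₄ z ^ 3 - c * Δ z) = g := by
      funext z; rfl
    rw [h3] at h2
    simpa using h2
  have bdd : IsBoundedAtImInfty g := htend.isBigO_one ℝ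
  obtain ⟨c', hc'⟩ := ModularFormClass.levelOne_weight_zero_const (jl_mkForm 0 g hol inv bdd)
  have hconst : ∀ z : ℍ, g z = c' := fun z => congrFun hc' z
  have hc0 : c' = 0 := by
    have h3 : Tendsto g atImInfty (𝓝 c') := by
      have : g = fun _ => c' := funext hconst
      rw [this]
      exact tendsto_const_nhds
    exact tendsto_nhds_unique h3 htend
  have := hconst UpperHalfPlane.I
  rw [hc0, hg] at this
  simp only [div_eq_zero_iff] at this
  rcases this with h | h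
  · exact discriminant_ne_zero _ h
  · exact hne' _ h


/-- Cauchy estimate: the normalised derivative of a holomorphic function bounded at `i∞` is
bounded at `i∞`. -/
theorem jl_bdd_D {f : ℍ → ℂ} (hf : MDiff f) (hb : IsBoundedAtImInfty f) :
    IsBoundedAtImInfty (D f) := by
  rw [isBoundedAtImInfty_iff] at hb ⊢
  obtain ⟨M, A, hMA⟩ := hb
  have hdiff := UpperHalfPlane.mdifferentiable_iff.mp hf
  refine ⟨‖(2 * π * Complex.I : ℂ)⁻¹‖ * M, max A 0 + 2, fun z hz => ?_⟩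
  have hzA : A + 2 ≤ z.im := le_trans (by gcongr; exact le_max_left _ _) hz
  have hz0 : 2 ≤ z.im := le_trans (by linarith [le_max_right A 0]) hz
  have him : ∀ w ∈ Metric.closedBall (z : ℂ) 1, z.im - 1 ≤ w.im := by
    intro w hw
    have h1 : |(w - z).im| ≤ ‖w - z‖ := Complex.abs_im_le_norm _
    have h2 : ‖w - z‖ ≤ 1 := by simpa [dist_eq_norm] using hw
    have h3 := abs_le.mp (h1.trans h2)
    simp only [Complex.sub_im, UpperHalfPlane.coe_im] at h3
    linarith [h3.1]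
  have hsub : Metric.closedBall (z : ℂ) 1 ⊆ {w : ℂ | 0 < w.im} := by
    intro w hw
    have := him w hw
    show 0 < w.im
    linarith
  have hbound : ∀ w ∈ Metric.sphere (z : ℂ) 1, ‖(f ∘ ofComplex) w‖ ≤ M := by
    intro w hw
    have hw' : w ∈ Metric.closedBall (z : ℂ) 1 := Metric.sphere_subset_closedBall hw
    have hpos : 0 < w.im := hsub hw'
    have := him w hw'
    simp only [Function.comp_apply, ofComplex_apply_of_im_pos hpos]
    apply hMA
    show A ≤ w.im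
    linarith
  have hC := Complex.norm_deriv_le_of_forall_mem_sphere_norm_le one_pos
    (hdiff.diffContOnCl_ball hsub) hbound
  simp only [normalizedDerivOfComplex, norm_mul]
  gcongr
  simpa using hC


/-- The `j`-function `E₄³/Δ`. -/
noncomputable def jl_j (z : ℍ) : ℂ := E₄ z ^ 3 / Δ z

theorem jl_j_diffOn : DifferentiableOn ℂ (jl_j ∘ ofComplex) {z : ℂ | 0 < z.im} := by
  have h1 : DifferentiableOn ℂ (fun w : ℂ => (((E₄ : ℍ → ℂ) ∘ ofComplex) w) ^ 3 /
      ((Δ : ℍ → ℂ) ∘ ofComplex) w) {z : ℂ | 0 < z.im} :=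
    (jl_diffOn_E₄.pow 3).div jl_diffOn_disc fun w _ => discriminant_ne_zero _
  exact h1

theorem jl_j_mdiff : MDiff jl_j := UpperHalfPlane.mdifferentiable_iff.mpr jl_j_diffOn

theorem jl_j_smul (γ : SL(2, ℤ)) (z : ℍ) : jl_j (γ • z) = jl_j z := by
  unfold jl_j
  have hd : denom γ z ≠ 0 := denom_ne_zero _ _
  have hd12 : denom γ z ^ (12 : ℤ) ≠ 0 := zpow_ne_zero _ hd
  rw [jl_E₄_smul, jl_disc_smul]
  have : (denom γ z ^ (4 : ℤ) * E₄ z) ^ 3 = denom γ z ^ (12 : ℤ) * E₄ z ^ 3 := by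
    rw [mul_pow, ← zpow_natCast (denom γ z ^ (4 : ℤ)) 3, ← zpow_mul]
    norm_num
  rw [this, mul_div_mul_left _ _ hd12]

theorem jl_j_slash (γ : SL(2, ℤ)) : jl_j ∣[(0 : ℤ)] γ = jl_j := by
  funext z
  rw [ModularForm.SL_slash_apply]
  simp only [neg_zero, zpow_zero, mul_one]
  exact jl_j_smul γ z

theorem jl_Dj_slash (γ : SL(2, ℤ)) : D jl_j ∣[(2 : ℤ)] γ = D jl_j := by
  have h := normalizedDerivOfComplex_SL_slash (k := 0) jl_j_mdiff (γ := γ)
  rw [jl_j_slash] at h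
  have h2 : D jl_j ∣[(0 : ℤ) + 2] γ = D jl_j := by
    conv_rhs => rw [h]
    funext z
    simp
  rw [zero_add] at h2
  exact h2

theorem jl_disc_slash (γ : SL(2, ℤ)) : (Δ : ℍ → ℂ) ∣[(12 : ℤ)] γ = Δ :=
  SlashInvariantForm.slash_action_eqn CuspForm.discriminant _ (Set.mem_range_self γ)

/-- `G = Δ · D j`. -/
noncomputable def jl_G (z : ℍ) : ℂ := Δ z * D jl_j z

theorem jl_G_slash (γ : SL(2, ℤ)) : jl_G ∣[(14 : ℤ)] γ = jl_G := by
  have h := ModularForm.mul_slash_SL2 12 2 γ (Δ : ℍ → ℂ) (D jl_j)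
  rw [jl_disc_slash, jl_Dj_slash] at h
  exact h

theorem jl_G_mdiff : MDiff jl_G :=
  (CuspForm.holo' CuspForm.discriminant).mul (normalizedDerivOfComplex_mdifferentiable jl_j_mdiff)


theorem jl_G_eq (z : ℍ) :
    jl_G z = 3 * E₄ z ^ 2 * D E₄ z - E₄ z ^ 3 * EisensteinSeries.E2 z := by
  have hz : (z : ℂ) ∈ {w : ℂ | 0 < w.im} := z.im_pos
  set a : ℂ → ℂ := (E₄ : ℍ → ℂ) ∘ ofComplex with ha
  have hda : DifferentiableAt ℂ a z :=
    (jl_diffOn_E₄ z hz).differentiableAt (isOpen_upperHalfPlaneSet.mem_nhds hz)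
  have hde : DifferentiableAt ℂ ModularForm.eta (z : ℂ) :=
    ModularForm.differentiableAt_eta_of_mem_upperHalfPlaneSet hz
  have he0 : ModularForm.eta (z : ℂ) ≠ 0 := ModularForm.eta_ne_zero hz
  have hcongr : (jl_j ∘ ofComplex) =ᶠ[𝓝 (z : ℂ)] fun w => a w ^ 3 / ModularForm.eta w ^ 24 := by
    filter_upwards [isOpen_upperHalfPlaneSet.mem_nhds hz] with w hw
    simp only [Function.comp_apply, jl_j, ha, ModularForm.discriminant,
      ofComplex_apply_of_im_pos hw]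
  have hderiv : deriv (jl_j ∘ ofComplex) z =
      (3 * a z ^ 2 * deriv a z * ModularForm.eta z ^ 24 -
        a z ^ 3 * (24 * ModularForm.eta z ^ 23 * deriv ModularForm.eta z)) /
        (ModularForm.eta z ^ 24) ^ 2 := by
    rw [hcongr.deriv_eq]
    have h1 : HasDerivAt (fun w => a w ^ 3) (3 * a z ^ 2 * deriv a z) z := by
      have := (hda.hasDerivAt.fun_pow 3)
      simpa using this
    have h2 : HasDerivAt (fun w => ModularForm.eta w ^ 24)
        (24 * ModularForm.eta z ^ 23 * deriv ModularForm.eta z) z := by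
      have := (hde.hasDerivAt.fun_pow 24)
      simpa using this
    exact (h1.div h2 (pow_ne_zero _ he0)).deriv
  have hlog := logDeriv_eta_eq_E2 z
  rw [logDeriv_apply] at hlog
  have hE : deriv ModularForm.eta z = ModularForm.eta z * (π * Complex.I / 12 * EisensteinSeries.E2 z) := by
    rw [← hlog]; field_simp
  have haz : a z = E₄ z := by simp [ha]
  have hDE : D (E₄ : ℍ → ℂ) z = (2 * π * Complex.I)⁻¹ * deriv a z := rfl
  have hΔ : Δ z = ModularForm.eta z ^ 24 := rfl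
  unfold jl_G
  rw [normalizedDerivOfComplex, hderiv, hE, hDE, hΔ, haz]
  have hpi : (π : ℂ) ≠ 0 := by exact_mod_cast Real.pi_ne_zero
  field_simp
  ring


theorem jl_G_bdd : IsBoundedAtImInfty jl_G := by
  have h4 : IsBoundedAtImInfty (E₄ : ℍ → ℂ) := jl_tendsto_E₄.isBigO_one ℝ
  have hD4 : IsBoundedAtImInfty (D (E₄ : ℍ → ℂ)) := jl_bdd_D (ModularForm.holo' E₄) h4
  have h2 := EisensteinSeries.isBoundedAtImInfty_E2
  have hform : jl_G = (fun _ : ℍ => (3 : ℂ)) * ((E₄ : ℍ → ℂ) * (E₄ : ℍ → ℂ)) * D (E₄ : ℍ → ℂ)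
      - ((E₄ : ℍ → ℂ) * ((E₄ : ℍ → ℂ) * (E₄ : ℍ → ℂ))) * EisensteinSeries.E2 := by
    funext z
    rw [jl_G_eq]
    simp only [Pi.sub_apply, Pi.mul_apply]
    ring
  rw [hform]
  have hc : IsBoundedAtImInfty (fun _ : ℍ => (3 : ℂ)) :=
    (tendsto_const_nhds (x := (3 : ℂ)) (f := atImInfty)).isBigO_one ℝ
  exact ((hc.mul (h4.mul h4)).mul hD4).sub ((h4.mul (h4.mul h4)).mul h2)

/-- `Δ · D j` as a modular form of weight 14. -/
noncomputable def jl_Gform : ModularForm 𝒮ℒ 14 :=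
  jl_mkForm 14 jl_G jl_G_mdiff jl_G_slash jl_G_bdd

/-- `E₄² E₆` as a modular form of weight 14. -/
noncomputable def jl_H : ModularForm 𝒮ℒ 14 :=
  ModularForm.mcast (by decide) ((E₄.mul E₄).mul E₆)

theorem jl_H_apply (z : ℍ) : jl_H z = E₄ z ^ 2 * E₆ z := by
  rw [pow_two]
  rfl

theorem jl_rank14 : Module.rank ℂ (ModularForm 𝒮ℒ 14) = 1 := by
  have h := ModularForm.dimension_level_one 14 (by decide)
  simpa [Nat.ModEq] using h

theorem jl_H_ne_zero : jl_H ≠ 0 := by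
  intro h
  have h1 : Tendsto (jl_H : ℍ → ℂ) atImInfty (𝓝 (1 ^ 2 * 1)) := by
    have : (jl_H : ℍ → ℂ) = fun z => E₄ z ^ 2 * E₆ z := funext jl_H_apply
    rw [this]
    exact (jl_tendsto_E₄.pow 2).mul jl_tendsto_E₆
  rw [h] at h1
  have h2 : Tendsto ((0 : ModularForm 𝒮ℒ 14) : ℍ → ℂ) atImInfty (𝓝 0) := by
    simp only [FunLike.coe_zero]
    exact tendsto_const_nhds
  have := tendsto_nhds_unique h1 h2
  norm_num at this

theorem jl_exists_kappa : ∃ κ : ℂ, ∀ z : ℍ, Δ z * D jl_j z = κ * (E₄ z ^ 2 * E₆ z) := by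
  have hfin : Module.finrank ℂ (ModularForm 𝒮ℒ 14) = 1 := by
    have := jl_rank14
    exact Module.finrank_eq_of_rank_eq (by simpa using this)
  obtain ⟨κ, hκ⟩ := (finrank_eq_one_iff_of_nonzero' jl_H jl_H_ne_zero).mp hfin jl_Gform
  refine ⟨κ, fun z => ?_⟩
  have := congrArg (fun f : ModularForm 𝒮ℒ 14 => f z) hκ
  simp only [smul_apply, smul_eq_mul, jl_H_apply] at this
  rw [this]
  rfl


theorem jl_j_eq_zero_iff (z : ℍ) : jl_j z = 0 ↔ E₄ z = 0 := by
  unfold jl_j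
  rw [div_eq_zero_iff]
  constructor
  · rintro (h | h)
    · exact pow_eq_zero_iff (by norm_num) |>.mp h
    · exact absurd h (discriminant_ne_zero z)
  · intro h; left; rw [h]; norm_num

theorem jl_j_sub_1728 (z : ℍ) : jl_j z - 1728 = E₆ z ^ 2 / Δ z := by
  unfold jl_j
  have h := ModularForm.discriminant_eq_E₄_cube_sub_E₆_sq z
  have hΔ := discriminant_ne_zero z
  field_simp
  rw [h]
  ring

theorem jl_kappa_ne_zero {κ : ℂ} (hκ : ∀ z : ℍ, Δ z * D jl_j z = κ * (E₄ z ^ 2 * E₆ z)) :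
    κ ≠ 0 := by
  rintro rfl
  have hD : ∀ z : ℍ, deriv (jl_j ∘ ofComplex) z = 0 := by
    intro z
    have h := hκ z
    rw [zero_mul, mul_eq_zero] at h
    rcases h with h | h
    · exact absurd h (discriminant_ne_zero z)
    · unfold normalizedDerivOfComplex at h
      rw [mul_eq_zero] at h
      rcases h with h | h
      · exfalso
        have hpi : (π : ℂ) ≠ 0 := by exact_mod_cast Real.pi_ne_zero
        simp [hpi] at h
      · exact h
  obtain ⟨z1, h1⟩ := jl_exists_eq 0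
  obtain ⟨z2, h2⟩ := jl_exists_eq 1
  have e := IsOpen.is_const_of_deriv_eq_zero isOpen_upperHalfPlaneSet
    (convex_halfSpace_im_gt 0).isPreconnected jl_j_diffOn
    (fun w hw => by simpa using hD ⟨w, hw⟩) (x := (z1 : ℂ)) (y := (z2 : ℂ)) z1.im_pos z2.im_pos
  simp only [Function.comp_apply, ofComplex_apply] at e
  have j1 : jl_j z1 = 0 := by
    unfold jl_j; rw [h1]; simp
  have j2 : jl_j z2 = 1 := by
    unfold jl_j; rw [h2, one_mul]; exact div_self (discriminant_ne_zero z2)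
  rw [j1, j2] at e
  exact zero_ne_one e


/-- analyticity at points of the upper half plane -/
theorem jl_analyticAt_of_diffOn {f : ℂ → ℂ} (hf : DifferentiableOn ℂ f {z : ℂ | 0 < z.im})
    (z : ℍ) : AnalyticAt ℂ f z :=
  hf.analyticAt (isOpen_upperHalfPlaneSet.mem_nhds z.im_pos)

theorem jl_order_eq_zero {f : ℂ → ℂ} {z : ℂ} (hf : f z ≠ 0) : analyticOrderAt f z = 0 :=
  analyticOrderAt_eq_zero.mpr (Or.inr hf)

/-- A level-one form which is not identically zero has finite order everywhere. -/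
theorem jl_order_ne_top {f : ℂ → ℂ} (hf : DifferentiableOn ℂ f {z : ℂ | 0 < z.im})
    (hne : ∃ w : ℍ, f w ≠ 0) (z : ℍ) : analyticOrderAt f z ≠ ⊤ := by
  intro htop
  rw [analyticOrderAt_eq_top] at htop
  have han : AnalyticOnNhd ℂ f {z : ℂ | 0 < z.im} :=
    hf.analyticOnNhd isOpen_upperHalfPlaneSet
  have := han.eqOn_zero_of_preconnected_of_eventuallyEq_zero
    (convex_halfSpace_im_gt 0).isPreconnected z.im_pos htop
  obtain ⟨w, hw⟩ := hne
  exact hw (this w.im_pos)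

theorem jl_E₄_exists_ne : ∃ w : ℍ, ((E₄ : ℍ → ℂ) ∘ ofComplex) w ≠ 0 := by
  by_contra h
  push Not at h
  have h1 : (E₄ : ℍ → ℂ) = fun _ => 0 := by
    funext w
    simpa using h w
  have h2 := jl_tendsto_E₄
  rw [h1] at h2
  have := tendsto_nhds_unique h2 tendsto_const_nhds
  norm_num at this

theorem jl_E₆_exists_ne : ∃ w : ℍ, ((E₆ : ℍ → ℂ) ∘ ofComplex) w ≠ 0 := by
  by_contra h
  push Not at h
  have h1 : (E₆ : ℍ → ℂ) = fun _ => 0 := by
    funext w
    simpa using h w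
  have h2 := jl_tendsto_E₆
  rw [h1] at h2
  have := tendsto_nhds_unique h2 tendsto_const_nhds
  norm_num at this

/-- `E₄` and `E₆` have no common zero. -/
theorem jl_E₆_ne_zero_of_E₄ {z : ℍ} (h : E₄ z = 0) : E₆ z ≠ 0 := by
  intro h6
  have := ModularForm.discriminant_eq_E₄_cube_sub_E₆_sq z
  rw [h, h6] at this
  exact discriminant_ne_zero z (by rw [this]; norm_num)

theorem jl_E₄_ne_zero_of_E₆ {z : ℍ} (h : E₆ z = 0) : E₄ z ≠ 0 := fun h4 =>
  jl_E₆_ne_zero_of_E₄ h4 h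

/-- the derivative of `j` in terms of `E₄, E₆, Δ` (up to the nonzero constant `κ`). -/
theorem jl_deriv_j {κ : ℂ} (hκ : ∀ z : ℍ, Δ z * D jl_j z = κ * (E₄ z ^ 2 * E₆ z)) (z : ℍ) :
    deriv (jl_j ∘ ofComplex) z = (2 * π * Complex.I) * κ * (E₄ z ^ 2 * E₆ z) / Δ z := by
  have h := hκ z
  unfold normalizedDerivOfComplex at h
  have hΔ := discriminant_ne_zero z
  have hpi : (π : ℂ) ≠ 0 := by exact_mod_cast Real.pi_ne_zero
  field_simp
  field_simp at h
  linear_combination h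


/-- (J3, generic point) `j' (z) ≠ 0` unless `E₄ z = 0` or `E₆ z = 0`. -/
theorem jl_deriv_ne_zero (z : ℍ) (h4 : E₄ z ≠ 0) (h6 : E₆ z ≠ 0) :
    deriv (jl_j ∘ ofComplex) z ≠ 0 := by
  obtain ⟨κ, hκ⟩ := jl_exists_kappa
  have hκ0 := jl_kappa_ne_zero hκ
  rw [jl_deriv_j hκ z]
  have hpi : (π : ℂ) ≠ 0 := by exact_mod_cast Real.pi_ne_zero
  have hΔ := discriminant_ne_zero z
  refine div_ne_zero (mul_ne_zero (mul_ne_zero ?_ hκ0) (mul_ne_zero (pow_ne_zero 2 h4) h6)) hΔ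
  simp [hpi]

/-- (J3 at a zero of `E₄`) `j` vanishes to order exactly `3`. -/
theorem jl_order_of_E₄_eq_zero (z : ℍ) (h4 : E₄ z = 0) :
    analyticOrderAt (jl_j ∘ ofComplex) z = 3 := by
  obtain ⟨κ, hκ⟩ := jl_exists_kappa
  have hκ0 := jl_kappa_ne_zero hκ
  have h6 : E₆ z ≠ 0 := jl_E₆_ne_zero_of_E₄ h4
  set a : ℂ → ℂ := (E₄ : ℍ → ℂ) ∘ ofComplex with ha
  set b : ℂ → ℂ := (E₆ : ℍ → ℂ) ∘ ofComplex with hb
  set δ : ℂ → ℂ := (Δ : ℍ → ℂ) ∘ ofComplex with hδ
  have haA : AnalyticAt ℂ a z := jl_analyticAt_of_diffOn jl_diffOn_E₄ z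
  have hbA : AnalyticAt ℂ b z := jl_analyticAt_of_diffOn jl_diffOn_E₆ z
  have hδA : AnalyticAt ℂ δ z := jl_analyticAt_of_diffOn jl_diffOn_disc z
  have hδz : δ z ≠ 0 := by simp [hδ, discriminant_ne_zero]
  have hδiA : AnalyticAt ℂ δ⁻¹ z := hδA.inv hδz
  have hbz : b z ≠ 0 := by simpa [hb] using h6
  have haz : a z = 0 := by simpa [ha] using h4
  have hJA : AnalyticAt ℂ (jl_j ∘ ofComplex) z := jl_analyticAt_of_diffOn jl_j_diffOn z
  have hJ : (jl_j ∘ ofComplex) = a ^ 3 * δ⁻¹ := by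
    funext w
    simp [jl_j, ha, hδ, div_eq_mul_inv]
  have hJz : (jl_j ∘ ofComplex) z = 0 := by
    rw [hJ]; simp [haz]
  set c : ℂ := (2 * π * Complex.I) * κ with hc
  have hc0 : c ≠ 0 := by
    have hpi : (π : ℂ) ≠ 0 := by exact_mod_cast Real.pi_ne_zero
    rw [hc]
    refine mul_ne_zero ?_ hκ0
    simp [hpi]
  have hdJ : deriv (jl_j ∘ ofComplex) =ᶠ[𝓝 (z : ℂ)] (fun _ => c) * (a ^ 2 * b) * δ⁻¹ := by
    filter_upwards [isOpen_upperHalfPlaneSet.mem_nhds z.im_pos] with w hw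
    have := jl_deriv_j hκ ⟨w, hw⟩
    rw [this]
    simp [ha, hb, hδ, ofComplex_apply_of_im_pos hw, div_eq_mul_inv, hc]
  set k := analyticOrderAt a z with hk
  have hktop : k ≠ ⊤ := jl_order_ne_top jl_diffOn_E₄ jl_E₄_exists_ne z
  have ordJ : analyticOrderAt (jl_j ∘ ofComplex) z = 3 • k := by
    rw [hJ, analyticOrderAt_mul (haA.pow 3) hδiA, analyticOrderAt_pow haA,
      jl_order_eq_zero (f := δ⁻¹) (by simpa using hδz), add_zero]
  have orddJ : analyticOrderAt (deriv (jl_j ∘ ofComplex)) z = 2 • k := by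
    rw [analyticOrderAt_congr hdJ,
      analyticOrderAt_mul (analyticAt_const.mul ((haA.pow 2).mul hbA)) hδiA,
      analyticOrderAt_mul analyticAt_const ((haA.pow 2).mul hbA),
      analyticOrderAt_mul (haA.pow 2) hbA, analyticOrderAt_pow haA,
      jl_order_eq_zero (f := δ⁻¹) (by simpa using hδz), jl_order_eq_zero (f := b) hbz,
      jl_order_eq_zero (f := fun _ => c) hc0]
    simp [hk]
  have key := hJA.analyticOrderAt_deriv_add_one
  have hsub : (fun w => (jl_j ∘ ofComplex) w - (jl_j ∘ ofComplex) z) = jl_j ∘ ofComplex := by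
    funext w; rw [hJz, sub_zero]
  rw [hsub, ordJ, orddJ] at key
  rw [ordJ]
  lift k to ℕ using hktop with n hn
  have : 2 * n + 1 = 3 * n := by
    have h := key
    simp only [nsmul_eq_mul] at h
    exact_mod_cast h
  have hn1 : n = 1 := by omega
  rw [hn1]
  rfl





theorem jl_j_of_E₆_eq_zero (z : ℍ) (h6 : E₆ z = 0) : jl_j z = 1728 := by
  have := jl_j_sub_1728 z
  rw [h6] at this
  simp at this
  linear_combination this

/-- (J3 at a zero of `E₆`) `j - 1728` vanishes to order exactly `2`. -/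
theorem jl_order_of_E₆_eq_zero (z : ℍ) (h6 : E₆ z = 0) :
    analyticOrderAt (fun w => (jl_j ∘ ofComplex) w - 1728) z = 2 := by
  obtain ⟨κ, hκ⟩ := jl_exists_kappa
  have hκ0 := jl_kappa_ne_zero hκ
  have h4 : E₄ z ≠ 0 := jl_E₄_ne_zero_of_E₆ h6
  set a : ℂ → ℂ := (E₄ : ℍ → ℂ) ∘ ofComplex with ha
  set b : ℂ → ℂ := (E₆ : ℍ → ℂ) ∘ ofComplex with hb
  set δ : ℂ → ℂ := (Δ : ℍ → ℂ) ∘ ofComplex with hδ
  have haA : AnalyticAt ℂ a z := jl_analyticAt_of_diffOn jl_diffOn_E₄ z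
  have hbA : AnalyticAt ℂ b z := jl_analyticAt_of_diffOn jl_diffOn_E₆ z
  have hδA : AnalyticAt ℂ δ z := jl_analyticAt_of_diffOn jl_diffOn_disc z
  have hδz : δ z ≠ 0 := by simp [hδ, discriminant_ne_zero]
  have hδiA : AnalyticAt ℂ δ⁻¹ z := hδA.inv hδz
  have haz : a z ≠ 0 := by simpa [ha] using h4
  have hbz : b z = 0 := by simpa [hb] using h6
  have hJA : AnalyticAt ℂ (jl_j ∘ ofComplex) z := jl_analyticAt_of_diffOn jl_j_diffOn z
  have hJ : (fun w => (jl_j ∘ ofComplex) w - 1728) = b ^ 2 * δ⁻¹ := by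
    funext w
    simp only [Function.comp_apply, jl_j_sub_1728, Pi.mul_apply, Pi.pow_apply, Pi.inv_apply, hb,
      hδ, div_eq_mul_inv]
  have hJz : (jl_j ∘ ofComplex) z = 1728 := by
    simp [jl_j_of_E₆_eq_zero z h6]
  set c : ℂ := (2 * π * Complex.I) * κ with hc
  have hc0 : c ≠ 0 := by
    have hpi : (π : ℂ) ≠ 0 := by exact_mod_cast Real.pi_ne_zero
    rw [hc]
    refine mul_ne_zero ?_ hκ0
    simp [hpi]
  have hdJ : deriv (jl_j ∘ ofComplex) =ᶠ[𝓝 (z : ℂ)] (fun _ => c) * (a ^ 2 * b) * δ⁻¹ := by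
    filter_upwards [isOpen_upperHalfPlaneSet.mem_nhds z.im_pos] with w hw
    have := jl_deriv_j hκ ⟨w, hw⟩
    rw [this]
    simp [ha, hb, hδ, ofComplex_apply_of_im_pos hw, div_eq_mul_inv, hc]
  set m := analyticOrderAt b z with hm
  have hmtop : m ≠ ⊤ := jl_order_ne_top jl_diffOn_E₆ jl_E₆_exists_ne z
  have ordJ : analyticOrderAt (fun w => (jl_j ∘ ofComplex) w - 1728) z = 2 • m := by
    rw [hJ, analyticOrderAt_mul (hbA.pow 2) hδiA, analyticOrderAt_pow hbA,
      jl_order_eq_zero (f := δ⁻¹) (by simpa using hδz), add_zero]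
  have orddJ : analyticOrderAt (deriv (jl_j ∘ ofComplex)) z = m := by
    rw [analyticOrderAt_congr hdJ,
      analyticOrderAt_mul (analyticAt_const.mul ((haA.pow 2).mul hbA)) hδiA,
      analyticOrderAt_mul analyticAt_const ((haA.pow 2).mul hbA),
      analyticOrderAt_mul (haA.pow 2) hbA, analyticOrderAt_pow haA,
      jl_order_eq_zero (f := δ⁻¹) (by simpa using hδz), jl_order_eq_zero (f := a) haz,
      jl_order_eq_zero (f := fun _ => c) hc0]
    simp [hm]
  have key := hJA.analyticOrderAt_deriv_add_one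
  have hsub : (fun w => (jl_j ∘ ofComplex) w - (jl_j ∘ ofComplex) z)
      = fun w => (jl_j ∘ ofComplex) w - 1728 := by
    funext w; rw [hJz]
  rw [hsub, ordJ, orddJ] at key
  rw [ordJ]
  lift m to ℕ using hmtop with n hn
  have : n + 1 = 2 * n := by
    have h := key
    simp only [nsmul_eq_mul] at h
    exact_mod_cast h
  have hn1 : n = 1 := by omega
  rw [hn1]
  rfl


end Fermat.Agent.S24x
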