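/-
S24 helper (helper14): B4 in the interface shape of `AnSpec.lean`, derived from `JLocal.lean`
(no valence formula, no Ramanujan identities, no injectivity of `j`).
All names carry the prefix `jl_`.
-/
import Fermat.Agent.S24x.JLocal
import Fermat.Agent.S24x.Defs
import Fermat.Agent.S24x.HolOrder
import Fermat.Agent.S24x.RhoPoint

set_option autoImplicit false

namespace Fermat.Agent.S24x

open UpperHalfPlane ModularForm Filter Derivative
open scoped MatrixGroups Manifold ModularForm Topology Real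

theorem jl_j_eq_jFun : jl_j = jFun := rfl

theorem jl_denom_S (z : ℍ) : denom (ModularGroup.S : SL(2, ℤ)) z = z := by
  simp [denom, ModularGroup.S]

theorem jl_denom_ST (z : ℍ) : denom ((ModularGroup.S * ModularGroup.T : SL(2, ℤ))) z = z + 1 := by
  simp [denom, ModularGroup.S, ModularGroup.T, Matrix.mul_apply, Fin.sum_univ_two]

/-- `E₆ (i) = 0`. -/
theorem jl_E₆_I : E₆ UpperHalfPlane.I = 0 := by
  have h := jl_E₆_smul ModularGroup.S UpperHalfPlane.I
  rw [S_smul_I, jl_denom_S] at h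
  have hI : ((UpperHalfPlane.I : ℍ) : ℂ) ^ (6 : ℤ) = -1 := by
    rw [UpperHalfPlane.coe_I]
    norm_cast
    rw [show (6 : ℕ) = 2 * 3 by norm_num, pow_mul, Complex.I_sq]
    norm_num
  rw [hI] at h
  have : (2 : ℂ) * E₆ UpperHalfPlane.I = 0 := by linear_combination h
  simpa using this

/-- `E₄ (ρ) = 0`. -/
theorem jl_E₄_rho : E₄ rho = 0 := by
  have h := jl_E₄_smul (ModularGroup.S * ModularGroup.T) rho
  rw [ST_smul_rho, jl_denom_ST] at h
  have hr := rho_sq_add
  have h4 : ((rho : ℂ) + 1) ^ (4 : ℤ) = (rho : ℂ) ^ 2 := by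
    norm_cast
    have h1 : (rho : ℂ) + 1 = -(rho : ℂ) ^ 2 := by linear_combination hr
    have h3 : (rho : ℂ) ^ 3 = 1 := by linear_combination ((rho : ℂ) - 1) * hr
    rw [h1]
    calc (-(rho : ℂ) ^ 2) ^ 4 = ((rho : ℂ) ^ 3) ^ 2 * (rho : ℂ) ^ 2 := by ring
      _ = (rho : ℂ) ^ 2 := by rw [h3]; ring
  rw [h4] at h
  have hne : (1 : ℂ) - (rho : ℂ) ^ 2 ≠ 0 := by
    intro h0
    have h2 : (rho : ℂ) = -2 := by linear_combination hr + h0
    have := congrArg Complex.im h2
    have him : (rho : ℂ).im = Real.sqrt 3 / 2 := by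
      rw [rho_coe]; simp
    rw [him] at this
    have hs : (0 : ℝ) < Real.sqrt 3 := Real.sqrt_pos.mpr (by norm_num)
    simp at this
  have : ((1 : ℂ) - (rho : ℂ) ^ 2) * E₄ rho = 0 := by linear_combination h
  rcases mul_eq_zero.mp this with h' | h'
  · exact absurd h' hne
  · exact h'

theorem jl_jFun_I : jFun UpperHalfPlane.I = 1728 := jl_j_of_E₆_eq_zero _ jl_E₆_I

theorem jl_jFun_rho : jFun rho = 0 := (jl_j_eq_zero_iff rho).mpr jl_E₄_rho

theorem jl_holOrder_jHol_sub_generic (τ : ℍ) (h0 : jFun τ ≠ 0) (h1 : jFun τ ≠ 1728) :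
    holOrder (jHol - algebraMap ℂ Hol (jFun τ)) τ = 1 := by
  have h4 : E₄ τ ≠ 0 := fun h => h0 ((jl_j_eq_zero_iff τ).mpr h)
  have h6 : E₆ τ ≠ 0 := fun h => h1 (jl_j_of_E₆_eq_zero τ h)
  have hd := jl_deriv_ne_zero τ h4 h6
  have hA : AnalyticAt ℂ (jl_j ∘ ofComplex) τ := jl_analyticAt_of_diffOn jl_j_diffOn τ
  have := hA.analyticOrderAt_sub_eq_one_of_deriv_ne_zero hd
  unfold holOrder
  convert this using 2
  funext w
  simp [jHol, jl_j_eq_jFun, algebraMap_Hol_apply]

theorem jl_holOrder_jHol_sub_I :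
    holOrder (jHol - algebraMap ℂ Hol 1728) UpperHalfPlane.I = 2 := by
  have := jl_order_of_E₆_eq_zero UpperHalfPlane.I jl_E₆_I
  unfold holOrder
  convert this using 2
  funext w
  simp [jHol, jl_j_eq_jFun, algebraMap_Hol_apply]

theorem jl_holOrder_jHol_rho : holOrder jHol rho = 3 := by
  have := jl_order_of_E₄_eq_zero rho jl_E₄_rho
  unfold holOrder
  convert this using 2
  funext w
  simp [jHol, jl_j_eq_jFun]

end Fermat.Agent.S24x
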