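/-
S24 helper (helper14): B1 leftovers of `AnSpec.lean`: quantitative growth of `jFun` at `i∞`
(`jl_jFun_growth`, exact AnSpec shape of `jFun_growth`), `jl_jHol_smul`, and the limit
`q · j → 1`.  All names prefixed `jl_`.
-/
import Fermat.Agent.S24x.JLocalOrders

set_option autoImplicit false

namespace Fermat.Agent.S24x

open UpperHalfPlane ModularForm Filter Function
open scoped MatrixGroups Manifold ModularForm Topology Real

local notation "𝕢" => Periodic.qParam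

/-- `q · j → 1` at `i∞`. -/
theorem jl_tendsto_q_mul_jFun :
    Tendsto (fun τ : ℍ => 𝕢 1 τ * jFun τ) atImInfty (𝓝 1) := by
  have hP := ModularForm.tendsto_atImInfty_tprod_one_sub_eta_q_pow
  have h4 : Tendsto (fun τ : ℍ => E₄ τ ^ 3) atImInfty (𝓝 (1 ^ 3)) := jl_tendsto_E₄.pow 3
  have hdiv := h4.div hP (by norm_num)
  rw [one_pow, div_one] at hdiv
  refine hdiv.congr' ?_
  filter_upwards with τ
  have hq : (𝕢 1 τ : ℂ) ≠ 0 := by simp [Periodic.qParam]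
  have hΔ := ModularForm.discriminant_eq_q_prod τ
  have hΔ0 := ModularForm.discriminant_ne_zero τ
  have hP0 : (∏' n, (1 - ModularForm.eta_q n τ) ^ 24 : ℂ) ≠ 0 := by
    intro h0
    rw [h0, mul_zero] at hΔ
    exact hΔ0 hΔ
  simp only [Pi.div_apply, jFun]
  rw [hΔ]
  field_simp

/-- exact shape of `AnSpec.jFun_growth`. -/
theorem jl_jFun_growth : ∃ A : ℝ, ∀ τ : ℍ, A ≤ τ.im →
    Real.exp (2 * Real.pi * τ.im) / 2 ≤ ‖jFun τ‖ ∧ ‖jFun τ‖ ≤ 2 * Real.exp (2 * Real.pi * τ.im) := by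
  have h := jl_tendsto_q_mul_jFun
  have hev : ∀ᶠ τ : ℍ in atImInfty, ‖𝕢 1 τ * jFun τ - 1‖ < 1 / 2 := by
    have := (tendsto_iff_norm_sub_tendsto_zero.mp h)
    exact this.eventually (gt_mem_nhds (by norm_num : (0 : ℝ) < 1 / 2))
  obtain ⟨A, hA⟩ := (atImInfty_mem _).mp hev
  refine ⟨A, fun τ hτ => ?_⟩
  have h1 : ‖𝕢 1 τ * jFun τ - 1‖ < 1 / 2 := hA τ hτ
  have hq : ‖(𝕢 1 τ : ℂ)‖ = Real.exp (-(2 * Real.pi * τ.im)) := by
    rw [Periodic.norm_qParam]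
    congr 1
    simp
  have hqpos : 0 < Real.exp (-(2 * Real.pi * τ.im)) := Real.exp_pos _
  have hmul : ‖𝕢 1 τ * jFun τ‖ = Real.exp (-(2 * Real.pi * τ.im)) * ‖jFun τ‖ := by
    rw [norm_mul, hq]
  have hup : ‖𝕢 1 τ * jFun τ‖ ≤ 3 / 2 := by
    have := norm_le_norm_add_norm_sub' (𝕢 1 τ * jFun τ) 1
    have h2 : ‖𝕢 1 τ * jFun τ‖ ≤ ‖(1 : ℂ)‖ + ‖𝕢 1 τ * jFun τ - 1‖ := by
      have := norm_add_le (1 : ℂ) (𝕢 1 τ * jFun τ - 1)
      simpa using this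
    rw [norm_one] at h2
    linarith
  have hlow : 1 / 2 ≤ ‖𝕢 1 τ * jFun τ‖ := by
    have h2 : ‖(1 : ℂ)‖ ≤ ‖𝕢 1 τ * jFun τ‖ + ‖𝕢 1 τ * jFun τ - 1‖ := by
      have := norm_sub_le (𝕢 1 τ * jFun τ) (𝕢 1 τ * jFun τ - 1)
      simpa using this
    rw [norm_one] at h2
    linarith
  have hexp : Real.exp (2 * Real.pi * τ.im) * Real.exp (-(2 * Real.pi * τ.im)) = 1 := by
    rw [← Real.exp_add]; simp
  have hE : 0 < Real.exp (2 * Real.pi * τ.im) := Real.exp_pos _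
  have hj : ‖jFun τ‖ = Real.exp (2 * Real.pi * τ.im) * ‖𝕢 1 τ * jFun τ‖ := by
    rw [hmul, ← mul_assoc, hexp, one_mul]
  rw [hj]
  constructor
  · nlinarith
  · nlinarith

theorem jl_jHol_smul (γ : SL(2, ℤ)) : γ • jHol = jHol := by
  apply Subtype.ext
  funext τ
  rw [smul_Hol_apply]
  exact jFun_smul γ⁻¹ τ

end Fermat.Agent.S24x
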