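/-
S24 project, piece of C2c (cusp places): Hermite decomposition of `(d 0; 0 1) * g`, the identity
`j(d · (g • τ)) = j((aτ + b)/e)` and the moderate growth bound at the cusp `g∞`.
All names are prefixed `jdc_`.
-/
import Fermat.Agent.S24x.Defs

set_option autoImplicit false

namespace Fermat.Agent.S24x

open UpperHalfPlane
open scoped MatrixGroups

/-! ## Hermite decomposition (pure integers) -/

/-- Hermite normal form for an integral `2 × 2` matrix `(A B; C D)` of positive determinant `d`: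
it is `(p' q'; r' s') * (a b; 0 e)` with `p' s' - q' r' = 1`, `a e = d`, `a, e > 0`, `0 ≤ b < e`. -/
theorem jdc_hermite_int (A B C D : ℤ) (d : ℕ) (hd : 0 < d) (hdet : A * D - B * C = d) :
    ∃ p' q' r' s' a b e : ℤ, p' * s' - q' * r' = 1 ∧ 0 < a ∧ 0 < e ∧ a * e = d ∧ 0 ≤ b ∧ b < e ∧
      A = p' * a ∧ B = p' * b + q' * e ∧ C = r' * a ∧ D = r' * b + s' * e := by
  have hdZ : (0 : ℤ) < d := by exact_mod_cast hd
  have hAC : ¬ (A = 0 ∧ C = 0) := by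
    rintro ⟨h1, h2⟩
    rw [h1, h2] at hdet
    simp at hdet
    omega
  have hgpos : 0 < Int.gcd A C :=
    Nat.pos_of_ne_zero (fun h0 => hAC (Int.gcd_eq_zero_iff.1 h0))
  have ha0 : (0 : ℤ) < (Int.gcd A C : ℤ) := by exact_mod_cast hgpos
  obtain ⟨p', hp'⟩ : (Int.gcd A C : ℤ) ∣ A := Int.gcd_dvd_left A C
  obtain ⟨r', hr'⟩ : (Int.gcd A C : ℤ) ∣ C := Int.gcd_dvd_right A C
  have hbez : (Int.gcd A C : ℤ) = A * Int.gcdA A C + C * Int.gcdB A C := Int.gcd_eq_gcd_ab A C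
  obtain ⟨a, haa⟩ : ∃ a : ℤ, a = (Int.gcd A C : ℤ) := ⟨_, rfl⟩
  obtain ⟨x, hx⟩ : ∃ x : ℤ, x = Int.gcdA A C := ⟨_, rfl⟩
  obtain ⟨y, hy⟩ : ∃ y : ℤ, y = Int.gcdB A C := ⟨_, rfl⟩
  rw [← haa] at ha0 hp' hr' hbez
  rw [← hx, ← hy] at hbez
  have hone : p' * x + r' * y = 1 := by
    apply mul_left_cancel₀ ha0.ne'
    calc a * (p' * x + r' * y) = (a * p') * x + (a * r') * y := by ring
      _ = A * x + C * y := by rw [← hp', ← hr']
      _ = a * 1 := by rw [mul_one]; exact hbez.symm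
  obtain ⟨e, he⟩ : ∃ e : ℤ, e = p' * D - r' * B := ⟨_, rfl⟩
  obtain ⟨b₀, hb₀⟩ : ∃ b₀ : ℤ, b₀ = x * B + y * D := ⟨_, rfl⟩
  have hae : a * e = d := by
    calc a * e = (a * p') * D - (a * r') * B := by rw [he]; ring
      _ = A * D - B * C := by rw [← hp', ← hr']; ring
      _ = d := hdet
  have he0 : 0 < e := by
    by_contra hcon
    rw [not_lt] at hcon
    have : a * e ≤ 0 := mul_nonpos_of_nonneg_of_nonpos ha0.le hcon
    omega
  have hb_nonneg : 0 ≤ b₀ % e := Int.emod_nonneg _ he0.ne'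
  have hb_lt : b₀ % e < e := Int.emod_lt_of_pos _ he0
  have hb₀eq : b₀ = b₀ % e + e * (b₀ / e) := (Int.emod_add_mul_ediv b₀ e).symm
  obtain ⟨k, hk⟩ : ∃ k : ℤ, k = b₀ / e := ⟨_, rfl⟩
  obtain ⟨b, hb⟩ : ∃ b : ℤ, b = b₀ % e := ⟨_, rfl⟩
  rw [← hk, ← hb] at hb₀eq
  rw [← hb] at hb_nonneg hb_lt
  refine ⟨p', -y + p' * k, r', x + r' * k, a, b, e, ?_, ha0, he0, hae, hb_nonneg, hb_lt,
    ?_, ?_, ?_, ?_⟩
  · linear_combination hone
  · rw [hp']; ring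
  · have h1 : p' * b₀ - y * e = B := by
      rw [hb₀, he]
      linear_combination B * hone
    rw [hb₀eq] at h1
    linear_combination -h1
  · rw [hr']; ring
  · have h1 : r' * b₀ + x * e = D := by
      rw [hb₀, he]
      linear_combination D * hone
    rw [hb₀eq] at h1
    linear_combination -h1

/-- **Hermite**: for `g ∈ SL(2,ℤ)` and `d > 0` there are `g' ∈ SL(2,ℤ)` and integers
`a, b, e` with `a e = d`, `a, e > 0`, `0 ≤ b < e` and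
`(d 0; 0 1) * g = g' * (a b; 0 e)`. -/
theorem jdc_hermite (g : SL(2, ℤ)) (d : ℕ) (hd : 0 < d) :
    ∃ (g' : SL(2, ℤ)) (a b e : ℤ), 0 < a ∧ 0 < e ∧ a * e = d ∧ 0 ≤ b ∧ b < e ∧
      (d : ℤ) * g 0 0 = g' 0 0 * a ∧ (d : ℤ) * g 0 1 = g' 0 0 * b + g' 0 1 * e ∧
      g 1 0 = g' 1 0 * a ∧ g 1 1 = g' 1 0 * b + g' 1 1 * e := by
  have hdet : g 0 0 * g 1 1 - g 0 1 * g 1 0 = 1 := by
    have := g.2
    rwa [Matrix.det_fin_two] at this
  have hdet' : ((d : ℤ) * g 0 0) * g 1 1 - ((d : ℤ) * g 0 1) * g 1 0 = d := by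
    linear_combination (d : ℤ) * hdet
  obtain ⟨p', q', r', s', a, b, e, hdet1, ha, he, hae, hb0, hbe, h00, h01, h10, h11⟩ :=
    jdc_hermite_int _ _ _ _ d hd hdet'
  refine ⟨⟨!![p', q'; r', s'], by rw [Matrix.det_fin_two_of]; exact hdet1⟩, a, b, e, ha, he, hae,
    hb0, hbe, ?_, ?_, ?_, ?_⟩
  · exact h00
  · exact h01
  · exact h10
  · exact h11

/-! ## The affine point `(aτ + b)/e` -/

/-- the point `(aτ + b)/e` of the upper half plane (`a, e > 0`). -/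
noncomputable def jdc_affine (a b e : ℤ) (ha : 0 < a) (he : 0 < e) (τ : ℍ) : ℍ :=
  ⟨((a : ℂ) * τ + b) / e, by
    have ha' : (0 : ℝ) < a := by exact_mod_cast ha
    have he' : (0 : ℝ) < e := by exact_mod_cast he
    have h : (((a : ℂ) * τ + b) / e).im = a * τ.im / e := by
      have : ((a : ℂ) * τ + b) / e = ((a : ℝ) * (τ : ℂ) + (b : ℝ)) / (e : ℝ) := by push_cast; ring
      rw [this, Complex.div_ofReal_im]
      simp
    rw [h]
    exact div_pos (mul_pos ha' τ.im_pos) he'⟩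

theorem jdc_affine_coe (a b e : ℤ) (ha : 0 < a) (he : 0 < e) (τ : ℍ) :
    ((jdc_affine a b e ha he τ : ℍ) : ℂ) = ((a : ℂ) * τ + b) / e := rfl

theorem jdc_affine_im (a b e : ℤ) (ha : 0 < a) (he : 0 < e) (τ : ℍ) :
    (jdc_affine a b e ha he τ).im = a * τ.im / e := by
  have : ((a : ℂ) * τ + b) / e = ((a : ℝ) * (τ : ℂ) + (b : ℝ)) / (e : ℝ) := by push_cast; ring
  show (((a : ℂ) * τ + b) / e).im = _
  rw [this, Complex.div_ofReal_im]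
  simp

/-! ## `j(d · gτ) = j((aτ+b)/e)` -/

/-- If `(d 0;0 1) g = g' (a b;0 e)` then the point `d · (g • τ)` is `g' • ((aτ+b)/e)`. -/
theorem jdc_point_eq (g g' : SL(2, ℤ)) (d : ℕ) (a b e : ℤ) (ha : 0 < a) (he : 0 < e)
    (h00 : (d : ℤ) * g 0 0 = g' 0 0 * a) (h01 : (d : ℤ) * g 0 1 = g' 0 0 * b + g' 0 1 * e)
    (h10 : g 1 0 = g' 1 0 * a) (h11 : g 1 1 = g' 1 0 * b + g' 1 1 * e)
    (τ τ' : ℍ) (hτ' : (τ' : ℂ) = d * ((g • τ : ℍ) : ℂ)) :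
    τ' = g' • jdc_affine a b e ha he τ := by
  apply UpperHalfPlane.ext
  rw [hτ', coe_specialLinearGroup_apply, coe_specialLinearGroup_apply, jdc_affine_coe]
  have heC : (e : ℂ) ≠ 0 := by exact_mod_cast he.ne'
  have h00' : (d : ℂ) * (g 0 0 : ℂ) = (g' 0 0 : ℂ) * a := by exact_mod_cast h00
  have h01' : (d : ℂ) * (g 0 1 : ℂ) = (g' 0 0 : ℂ) * b + (g' 0 1 : ℂ) * e := by exact_mod_cast h01
  have h10' : (g 1 0 : ℂ) = (g' 1 0 : ℂ) * a := by exact_mod_cast h10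
  have h11' : (g 1 1 : ℂ) = (g' 1 0 : ℂ) * b + (g' 1 1 : ℂ) * e := by exact_mod_cast h11
  simp only [eq_intCast, Complex.ofReal_intCast]
  -- numerators and denominators
  have hnum : (g' 0 0 : ℂ) * (((a : ℂ) * τ + b) / e) + (g' 0 1 : ℂ) =
      ((d : ℂ) * ((g 0 0 : ℂ) * τ + (g 0 1 : ℂ))) / e := by
    field_simp
    linear_combination (-(τ : ℂ)) * h00' - h01'
  have hden : (g' 1 0 : ℂ) * (((a : ℂ) * τ + b) / e) + (g' 1 1 : ℂ) =
      ((g 1 0 : ℂ) * τ + (g 1 1 : ℂ)) / e := by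
    field_simp
    linear_combination (-(τ : ℂ)) * h10' - h11'
  rw [hnum, hden]
  have hden0 : (g 1 0 : ℂ) * τ + (g 1 1 : ℂ) ≠ 0 := by
    have := UpperHalfPlane.denom_ne_zero (g : GL (Fin 2) ℝ) τ
    simpa [UpperHalfPlane.denom] using this
  field_simp

/-- **`j(d · gτ) = j((aτ+b)/e)`**: the function `τ ↦ j(d · (g • τ))` is `τ ↦ j((aτ+b)/e)` for
suitable integers `a e = d`, `0 ≤ b < e`. -/
theorem jdc_jFun_comp_eq (g : SL(2, ℤ)) (d : ℕ) (hd : 0 < d) :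
    ∃ (a b e : ℤ) (ha : 0 < a) (he : 0 < e), a * e = d ∧ 0 ≤ b ∧ b < e ∧
      ∀ τ τ' : ℍ, (τ' : ℂ) = d * ((g • τ : ℍ) : ℂ) →
        jFun τ' = jFun (jdc_affine a b e ha he τ) := by
  obtain ⟨g', a, b, e, ha, he, hae, hb0, hbe, h00, h01, h10, h11⟩ := jdc_hermite g d hd
  refine ⟨a, b, e, ha, he, hae, hb0, hbe, fun τ τ' hτ' => ?_⟩
  rw [jdc_point_eq g g' d a b e ha he h00 h01 h10 h11 τ τ' hτ', jFun_smul]

/-! ## Moderate growth at the cusp `g∞` -/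

/-- Moderate growth of `τ ↦ j(d · (g • τ))` as `Im τ → ∞`, given the growth of `j` itself
(`hgrowth` is the statement `Spec.jFun_growth`). -/
theorem jdc_growth_of
    (hgrowth : ∃ A : ℝ, ∀ τ : ℍ, A ≤ τ.im →
      Real.exp (2 * Real.pi * τ.im) / 2 ≤ ‖jFun τ‖ ∧ ‖jFun τ‖ ≤ 2 * Real.exp (2 * Real.pi * τ.im))
    (g : SL(2, ℤ)) (d : ℕ) (hd : 0 < d) :
    ∃ C A : ℝ, ∀ τ τ' : ℍ, (τ' : ℂ) = d * ((g • τ : ℍ) : ℂ) → A ≤ τ.im →
      ‖jFun τ'‖ ≤ C * Real.exp (2 * Real.pi * d * τ.im) := by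
  obtain ⟨A₀, hA₀⟩ := hgrowth
  obtain ⟨a, b, e, ha, he, hae, -, -, hj⟩ := jdc_jFun_comp_eq g d hd
  refine ⟨2, max A₀ 0 * d, fun τ τ' hτ' hτ => ?_⟩
  rw [hj τ τ' hτ']
  have haR : (1 : ℝ) ≤ a := by exact_mod_cast ha
  have heR : (1 : ℝ) ≤ e := by exact_mod_cast he
  have hdR : (0 : ℝ) < d := by exact_mod_cast hd
  have haeR : (a : ℝ) * e = d := by exact_mod_cast hae
  have him := jdc_affine_im a b e ha he τ
  have hτpos := τ.im_pos
  have he0 : (0 : ℝ) < e := by linarith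
  have ha0 : (0 : ℝ) < a := by linarith
  -- lower bound on the imaginary part: a τ.im / e ≥ τ.im / d ≥ A₀
  have hlow : A₀ ≤ (jdc_affine a b e ha he τ).im := by
    rw [him]
    have h1 : τ.im / d ≤ a * τ.im / e := by
      rw [div_le_div_iff₀ hdR he0]
      have h3 : (1 : ℝ) ≤ a * a := by nlinarith
      have h4 : 0 < τ.im * e := mul_pos hτpos he0
      have : τ.im * e ≤ a * τ.im * d := by
        rw [← haeR]
        nlinarith [mul_le_mul_of_nonneg_right h3 h4.le]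
      linarith
    have h2 : A₀ ≤ τ.im / d := by
      rw [le_div_iff₀ hdR]
      calc A₀ * d ≤ max A₀ 0 * d := by
            apply mul_le_mul_of_nonneg_right (le_max_left _ _) hdR.le
        _ ≤ τ.im := hτ
    linarith
  -- upper bound on the imaginary part: a τ.im / e ≤ d τ.im
  have hup : (jdc_affine a b e ha he τ).im ≤ d * τ.im := by
    rw [him, div_le_iff₀ he0, ← haeR]
    have h3 : (1 : ℝ) ≤ e * e := by nlinarith
    have h4 : 0 < a * τ.im := mul_pos ha0 hτpos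
    nlinarith [mul_le_mul_of_nonneg_right h3 h4.le]
  refine (hA₀ _ hlow).2.trans ?_
  apply mul_le_mul_of_nonneg_left _ (by norm_num)
  apply Real.exp_le_exp.2
  have h2pi : (0 : ℝ) < 2 * Real.pi := by positivity
  calc 2 * Real.pi * (jdc_affine a b e ha he τ).im ≤ 2 * Real.pi * (d * τ.im) :=
        mul_le_mul_of_nonneg_left hup h2pi.le
    _ = 2 * Real.pi * d * τ.im := by ring

/-! ## Versions for any realisation `F` of `τ ↦ j(dτ)` (apply with `F = jdHol d`, `hF = jdHol_apply d`) -/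

/-- `F (g • τ) = j((aτ+b)/e)` for any function `F` with `F τ = j(dτ)`. -/
theorem jdc_jd_comp_eq (d : ℕ) (hd : 0 < d) (F : ℍ → ℂ)
    (hF : ∀ τ : ℍ, ∃ τ' : ℍ, (τ' : ℂ) = d * (τ : ℂ) ∧ F τ = jFun τ') (g : SL(2, ℤ)) :
    ∃ (a b e : ℤ) (ha : 0 < a) (he : 0 < e), a * e = d ∧ 0 ≤ b ∧ b < e ∧
      ∀ τ : ℍ, F (g • τ) = jFun (jdc_affine a b e ha he τ) := by
  obtain ⟨a, b, e, ha, he, hae, hb0, hbe, hj⟩ := jdc_jFun_comp_eq g d hd
  refine ⟨a, b, e, ha, he, hae, hb0, hbe, fun τ => ?_⟩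
  obtain ⟨τ', hτ', hFτ⟩ := hF (g • τ)
  rw [hFτ, hj τ τ' hτ']

/-- moderate growth of `τ ↦ F (g • τ)` for any function `F` with `F τ = j(dτ)`. -/
theorem jdc_jd_growth_of
    (hgrowth : ∃ A : ℝ, ∀ τ : ℍ, A ≤ τ.im →
      Real.exp (2 * Real.pi * τ.im) / 2 ≤ ‖jFun τ‖ ∧ ‖jFun τ‖ ≤ 2 * Real.exp (2 * Real.pi * τ.im))
    (d : ℕ) (hd : 0 < d) (F : ℍ → ℂ)
    (hF : ∀ τ : ℍ, ∃ τ' : ℍ, (τ' : ℂ) = d * (τ : ℂ) ∧ F τ = jFun τ') (g : SL(2, ℤ)) :
    ∃ C A : ℝ, ∀ τ : ℍ, A ≤ τ.im → ‖F (g • τ)‖ ≤ C * Real.exp (2 * Real.pi * d * τ.im) := by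
  obtain ⟨C, A, h⟩ := jdc_growth_of hgrowth g d hd
  refine ⟨C, A, fun τ hτ => ?_⟩
  obtain ⟨τ', hτ', hFτ⟩ := hF (g • τ)
  rw [hFτ]
  exact h τ τ' hτ' hτ

/-! ## Shape requested by the cusp-expansion kernel (`helper76`) -/

/-- Hermite + point identity with natural numbers `a, e` and an arbitrary point `σ` with
coordinate `(aτ + b)/e`. -/
theorem jdc_point_eq_nat (g : SL(2, ℤ)) (d : ℕ) (hd : 0 < d) :
    ∃ (a e : ℕ) (b : ℤ) (γ : SL(2, ℤ)), 0 < a ∧ 0 < e ∧ a * e = d ∧ 0 ≤ b ∧ b < e ∧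
      ∀ τ σ τ' : ℍ, (σ : ℂ) = ((a : ℂ) * τ + b) / e → (τ' : ℂ) = d * ((g • τ : ℍ) : ℂ) →
        τ' = γ • σ := by
  obtain ⟨g', a, b, e, ha, he, hae, hb0, hbe, h00, h01, h10, h11⟩ := jdc_hermite g d hd
  obtain ⟨a', rfl⟩ : ∃ a' : ℕ, a = a' := ⟨a.toNat, (Int.toNat_of_nonneg ha.le).symm⟩
  obtain ⟨e', rfl⟩ : ∃ e' : ℕ, e = e' := ⟨e.toNat, (Int.toNat_of_nonneg he.le).symm⟩
  refine ⟨a', e', b, g', by exact_mod_cast ha, by exact_mod_cast he, by exact_mod_cast hae,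
    hb0, hbe, fun τ σ τ' hσ hτ' => ?_⟩
  have hσ' : σ = jdc_affine (a' : ℤ) b (e' : ℤ) ha he τ := by
    apply UpperHalfPlane.ext
    rw [hσ, jdc_affine_coe]
    push_cast
    rfl
  rw [hσ']
  exact jdc_point_eq g g' d (a' : ℤ) b (e' : ℤ) ha he h00 h01 h10 h11 τ τ' hτ'

end Fermat.Agent.S24x
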