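/-
S24 project, piece of C2c (cusp places): exact two-sided growth of `τ ↦ j(d · (g • τ))` at `i∞`,
in the language of `CuspDefs.lean`: for `d ∣ N` the function has exact order `-(a * (N / e))` in
the local parameter `q_N`, where `(d 0; 0 1) g = g' (a b; 0 e)` is the Hermite decomposition.
All names are prefixed `jdc_`.
-/
import Fermat.Agent.S24x.JdCusp
import Fermat.Agent.S24x.JFunSpecial
import Fermat.Agent.S24x.CuspDefs
import Fermat.Agent.S24x.CuspOrder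
import Fermat.Agent.S24x.CuspGrowthJd

set_option autoImplicit false

namespace Fermat.Agent.S24x

open UpperHalfPlane
open scoped MatrixGroups

/-- two-sided bound for `j((aτ+b)/e)`. -/
theorem jdc_affine_two_sided (a b e : ℤ) (ha : 0 < a) (he : 0 < e) :
    ∃ A : ℝ, ∀ τ : ℍ, A ≤ τ.im →
      Real.exp (2 * Real.pi * (a * τ.im / e)) / 2 ≤ ‖jFun (jdc_affine a b e ha he τ)‖ ∧
      ‖jFun (jdc_affine a b e ha he τ)‖ ≤ 2 * Real.exp (2 * Real.pi * (a * τ.im / e)) := by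
  obtain ⟨A₀, hA₀⟩ := jFun_growth
  refine ⟨max A₀ 0 * e, fun τ hτ => ?_⟩
  have haR : (1 : ℝ) ≤ a := by exact_mod_cast ha
  have he0 : (0 : ℝ) < e := by exact_mod_cast he
  have him := jdc_affine_im a b e ha he τ
  have hτpos := τ.im_pos
  have hlow : A₀ ≤ (jdc_affine a b e ha he τ).im := by
    rw [him, le_div_iff₀ he0]
    have h1 : A₀ * e ≤ max A₀ 0 * e := mul_le_mul_of_nonneg_right (le_max_left _ _) he0.le
    have h2 : τ.im ≤ a * τ.im := by nlinarith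
    linarith
  have h := hA₀ _ hlow
  rw [him] at h
  exact h

/-- **Exact growth at the cusp `g∞`**: for any realisation `F` of `τ ↦ j(dτ)` (apply with
`F = jdHol d`, `hF = jdHol_apply d`, or `F = jdFun d`) and `d ∣ N`, the function
`τ ↦ F (g • τ)` has exact order `-(a * (N / e))` in `q_N`, with `a e = d`. -/
theorem jdc_hasCuspGrowth_of (N d : ℕ) (hN : 0 < N) (hd0 : 0 < d) (hd : d ∣ N) (F : ℍ → ℂ)
    (hF : ∀ τ : ℍ, ∃ τ' : ℍ, (τ' : ℂ) = d * (τ : ℂ) ∧ F τ = jFun τ') (g : SL(2, ℤ)) :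
    ∃ a e : ℕ, 0 < a ∧ 0 < e ∧ a * e = d ∧
      HasCuspGrowth N (fun τ => F (g • τ)) (-((a * (N / e) : ℕ) : ℤ)) := by
  obtain ⟨a, b, e, ha, he, hae, -, -, hj⟩ := jdc_jd_comp_eq d hd0 F hF g
  obtain ⟨a', rfl⟩ : ∃ a' : ℕ, a = a' := ⟨a.toNat, (Int.toNat_of_nonneg ha.le).symm⟩
  obtain ⟨e', rfl⟩ : ∃ e' : ℕ, e = e' := ⟨e.toNat, (Int.toNat_of_nonneg he.le).symm⟩
  have ha' : 0 < a' := by exact_mod_cast ha
  have he' : 0 < e' := by exact_mod_cast he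
  have hae' : a' * e' = d := by exact_mod_cast hae
  have heN : e' ∣ N := (Dvd.intro_left a' hae').trans hd
  obtain ⟨A, hA⟩ := jdc_affine_two_sided (a' : ℤ) b (e' : ℤ) ha he
  refine ⟨a', e', ha', he', hae', 1 / 2, 2, A, by norm_num, fun τ hτ => ?_⟩
  have hNR : (0 : ℝ) < N := by exact_mod_cast hN
  have heR : (0 : ℝ) < e' := by exact_mod_cast he'
  have hcast : ((N / e' : ℕ) : ℝ) = (N : ℝ) / e' := Nat.cast_div heN heR.ne'
  have hexp : -(2 * Real.pi * ((-((a' * (N / e') : ℕ) : ℤ) : ℤ) : ℝ) * τ.im / N) =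
      2 * Real.pi * (((a' : ℤ) : ℝ) * τ.im / ((e' : ℤ) : ℝ)) := by
    rw [Int.cast_neg, Int.cast_natCast, Nat.cast_mul, hcast, Int.cast_natCast, Int.cast_natCast]
    field_simp
  rw [hexp]
  show 1 / 2 * _ ≤ ‖F (g • τ)‖ ∧ ‖F (g • τ)‖ ≤ _
  rw [hj τ]
  have h := hA τ hτ
  constructor
  · calc 1 / 2 * Real.exp (2 * Real.pi * (((a' : ℤ) : ℝ) * τ.im / ((e' : ℤ) : ℝ)))
        = Real.exp (2 * Real.pi * (((a' : ℤ) : ℝ) * τ.im / ((e' : ℤ) : ℝ))) / 2 := by ring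
      _ ≤ _ := h.1
  · exact h.2

/-- the order at the cusp `g∞` (in `q_N`) of any realisation `F` of `τ ↦ j(dτ)`, `d ∣ N`. -/
theorem jdc_cuspOrd_of (N d : ℕ) (hN : 0 < N) (hd0 : 0 < d) (hd : d ∣ N) (F : ℍ → ℂ)
    (hF : ∀ τ : ℍ, ∃ τ' : ℍ, (τ' : ℂ) = d * (τ : ℂ) ∧ F τ = jFun τ') (g : SL(2, ℤ)) :
    ∃ a e : ℕ, 0 < a ∧ 0 < e ∧ a * e = d ∧
      cuspOrd N (fun τ => F (g • τ)) = -((a * (N / e) : ℕ) : ℤ) := by
  obtain ⟨a, e, ha, he, hae, h⟩ := jdc_hasCuspGrowth_of N d hN hd0 hd F hF g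
  exact ⟨a, e, ha, he, hae, cuspOrd_eq_of_hasCuspGrowth hN h⟩

/-- the order is negative: `τ ↦ F (g • τ)` has a pole at every cusp. -/
theorem jdc_cuspOrd_neg_of (N d : ℕ) (hN : 0 < N) (hd0 : 0 < d) (hd : d ∣ N) (F : ℍ → ℂ)
    (hF : ∀ τ : ℍ, ∃ τ' : ℍ, (τ' : ℂ) = d * (τ : ℂ) ∧ F τ = jFun τ') (g : SL(2, ℤ)) :
    cuspOrd N (fun τ => F (g • τ)) < 0 := by
  obtain ⟨a, e, ha, he, hae, h⟩ := jdc_cuspOrd_of N d hN hd0 hd F hF g
  rw [h]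
  have heN : e ∣ N := (Dvd.intro_left a hae).trans hd
  have h1 : 0 < N / e := Nat.div_pos (Nat.le_of_dvd hN heN) he
  have h2 : 0 < a * (N / e) := Nat.mul_pos ha h1
  omega

/-- the instance `F = jdFun d` of `CuspGrowthJd.lean`. -/
theorem jdc_hasCuspGrowth_jdFun (N d : ℕ) [NeZero d] (hN : 0 < N) (hd : d ∣ N) (g : SL(2, ℤ)) :
    ∃ a e : ℕ, 0 < a ∧ 0 < e ∧ a * e = d ∧
      HasCuspGrowth N (fun τ => jdFun d (g • τ)) (-((a * (N / e) : ℕ) : ℤ)) :=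
  jdc_hasCuspGrowth_of N d hN (Nat.pos_of_ne_zero (NeZero.ne d)) hd (jdFun d)
    (fun τ => ⟨cgjDiag d • τ, coe_cgjDiag_smul d τ, rfl⟩) g

/-- `j` itself has a simple pole in `q`, i.e. order `-N` in `q_N`, at every cusp. -/
theorem jdc_hasCuspGrowth_jFun (N : ℕ) (hN : 0 < N) (g : SL(2, ℤ)) :
    HasCuspGrowth N (fun τ => jFun (g • τ)) (-(N : ℤ)) := by
  obtain ⟨A, hA⟩ := jFun_growth
  refine ⟨1 / 2, 2, A, by norm_num, fun τ hτ => ?_⟩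
  have hNR : (0 : ℝ) < N := by exact_mod_cast hN
  have hexp : -(2 * Real.pi * ((-(N : ℤ) : ℤ) : ℝ) * τ.im / N) = 2 * Real.pi * τ.im := by
    rw [Int.cast_neg, Int.cast_natCast]
    field_simp
  rw [hexp]
  show 1 / 2 * _ ≤ ‖jFun (g • τ)‖ ∧ ‖jFun (g • τ)‖ ≤ _
  rw [jFun_smul]
  have h := hA τ hτ
  constructor
  · calc 1 / 2 * Real.exp (2 * Real.pi * τ.im) = Real.exp (2 * Real.pi * τ.im) / 2 := by ring
      _ ≤ _ := h.1
  · exact h.2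

theorem jdc_cuspOrd_jFun (N : ℕ) (hN : 0 < N) (g : SL(2, ℤ)) :
    cuspOrd N (fun τ => jFun (g • τ)) = -(N : ℤ) :=
  cuspOrd_eq_of_hasCuspGrowth hN (jdc_hasCuspGrowth_jFun N hN g)

end Fermat.Agent.S24x
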