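/-
S24 project, lemma for C1 (`evF_smul_of_mem_Gamma0`), helper22: `τ ↦ j(dτ)` is invariant under
`Γ₀(N)` for `d ∣ N`.  All names are prefixed `jdi_`.
-/
import Fermat.Agent.S24x.JFun

set_option autoImplicit false

namespace Fermat.Agent.S24x

open UpperHalfPlane
open scoped MatrixGroups

/-- for `γ = (a b; c δ) ∈ SL(2,ℤ)` with `c = d c'` the matrix `(a, b d; c', δ)` is in `SL(2,ℤ)`. -/
theorem jdi_exists_conj (d : ℕ) (γ : SL(2, ℤ)) (c' : ℤ) (hc : γ 1 0 = (d : ℤ) * c') :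
    ∃ δ : SL(2, ℤ), δ 0 0 = γ 0 0 ∧ δ 0 1 = γ 0 1 * d ∧ δ 1 0 = c' ∧ δ 1 1 = γ 1 1 := by
  have hdet : γ 0 0 * γ 1 1 - γ 0 1 * γ 1 0 = 1 := by
    have h := γ.det_coe
    rw [Matrix.det_fin_two] at h
    exact h
  have hdet' : Matrix.det !![γ 0 0, γ 0 1 * (d : ℤ); c', γ 1 1] = 1 := by
    rw [Matrix.det_fin_two_of]
    rw [hc] at hdet
    linear_combination hdet
  exact ⟨⟨_, hdet'⟩, rfl, rfl, rfl, rfl⟩

/-- `d · (γ • τ) = γ' • (d · τ)` at the level of points of `ℍ`. -/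
theorem jdi_point_eq (d : ℕ) (hd0 : 0 < d) (γ δ : SL(2, ℤ)) (c' : ℤ)
    (hc : γ 1 0 = (d : ℤ) * c') (h00 : δ 0 0 = γ 0 0) (h01 : δ 0 1 = γ 0 1 * d)
    (h10 : δ 1 0 = c') (h11 : δ 1 1 = γ 1 1) (τ τ1 τ2 : ℍ)
    (h1 : (τ1 : ℂ) = d * (τ : ℂ)) (h2 : (τ2 : ℂ) = d * ((γ • τ : ℍ) : ℂ)) :
    τ2 = δ • τ1 := by
  apply UpperHalfPlane.ext
  rw [h2, coe_specialLinearGroup_apply, coe_specialLinearGroup_apply, h1, h00, h01, h10, h11, hc]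
  have hden : ((algebraMap ℤ ℝ ((d : ℤ) * c') : ℝ) : ℂ) * (τ : ℂ) +
      ((algebraMap ℤ ℝ (γ 1 1) : ℝ) : ℂ) ≠ 0 := by
    have h := UpperHalfPlane.denom_ne_zero (Matrix.SpecialLinearGroup.mapGL ℝ γ) τ
    have h' : denom (Matrix.SpecialLinearGroup.mapGL ℝ γ) τ =
        ((algebraMap ℤ ℝ (γ 1 0) : ℝ) : ℂ) * (τ : ℂ) + ((algebraMap ℤ ℝ (γ 1 1) : ℝ) : ℂ) := by
      simp [denom]
    rw [h', hc] at h
    exact h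
  have hdC : (d : ℂ) ≠ 0 := Nat.cast_ne_zero.mpr hd0.ne'
  have hden2 : ((algebraMap ℤ ℝ c' : ℝ) : ℂ) * ((d : ℂ) * (τ : ℂ)) +
      ((algebraMap ℤ ℝ (γ 1 1) : ℝ) : ℂ) ≠ 0 := by
    convert hden using 2
    push_cast
    simp only [algebraMap_int_eq, eq_intCast]
    push_cast
    ring
  rw [mul_div_assoc', div_eq_div_iff hden hden2]
  simp only [algebraMap_int_eq, eq_intCast, Int.cast_mul, Int.cast_natCast]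
  push_cast
  ring

/-- `τ ↦ j(dτ)` is `Γ₀(N)`-invariant for `d ∣ N`. -/
theorem jdi_invariant (N d : ℕ) (hd0 : 0 < d) (hd : d ∣ N) (F : ℍ → ℂ)
    (hF : ∀ τ : ℍ, ∃ τ1 : ℍ, (τ1 : ℂ) = d * (τ : ℂ) ∧ F τ = jFun τ1) (γ : SL(2, ℤ))
    (hγ : γ ∈ CongruenceSubgroup.Gamma0 N) (τ : ℍ) : F (γ • τ) = F τ := by
  rw [CongruenceSubgroup.Gamma0_mem] at hγ
  obtain ⟨c0, hc0⟩ := (ZMod.intCast_zmod_eq_zero_iff_dvd _ _).mp hγ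
  obtain ⟨e, rfl⟩ := hd
  have hc : γ 1 0 = (d : ℤ) * ((e : ℤ) * c0) := by
    rw [hc0]; push_cast; ring
  obtain ⟨δ, h00, h01, h10, h11⟩ := jdi_exists_conj d γ _ hc
  obtain ⟨τ1, h1, hF1⟩ := hF τ
  obtain ⟨τ2, h2, hF2⟩ := hF (γ • τ)
  rw [hF1, hF2, jdi_point_eq d hd0 γ δ _ hc h00 h01 h10 h11 τ τ1 τ2 h1 h2, jFun_smul]

end Fermat.Agent.S24x
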