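import Fermat.Agent.S24x.QAn
import Fermat.Agent.S24x.JFun
import Fermat.Agent.S24x.DeltaQExp
import Fermat.Agent.S24x.E4QExp
import Fermat.Prelude.Def_ModularCurve_LaurentCoeff

/-!
# S24 bridge, part 4: the formal `j(q^d)` of the Prelude is the `q`-expansion of `z ↦ j(d z)`

Main statement (`qaL_discriminant_qaScale_mul_jqd`): for `d ≥ 1`, in `LaurentSeries ℂ`,
`qaL (Δ ∘ qaScale d) * coeffEmb ℂ (qExpand ℚ d jq) = qaL ((E₄ ^ 3) ∘ qaScale d)`,
where `qaL f` is the `q`-expansion of `f` viewed as a Laurent series, `Δ ∘ qaScale d` and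
`E₄ ^ 3 ∘ qaScale d` are `1`-periodic, holomorphic, bounded at `i∞` (`IsQAn`), `Δ` vanishes nowhere and
`jFun (qaScale d z) = E₄ (qaScale d z) ^ 3 / Δ (qaScale d z)`.
-/

set_option autoImplicit false

noncomputable section

namespace Fermat.Agent.S24x

open UpperHalfPlane ModularForm EisensteinSeries ModularCurve Function
open scoped Manifold

lemma isQAn_E4 : IsQAn (⇑E₄ : ℍ → ℂ) :=
  ⟨SlashInvariantFormClass.periodic_comp_ofComplex E₄ one_mem_strictPeriods_SL,
    ModularFormClass.holo E₄, ModularFormClass.bdd_at_infty E₄⟩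

lemma isQAn_discriminant : IsQAn (ModularForm.discriminant : ℍ → ℂ) :=
  ⟨SlashInvariantFormClass.periodic_comp_ofComplex CuspForm.discriminant one_mem_strictPeriods_SL,
    CuspForm.discriminant.holo', ModularFormClass.bdd_at_infty CuspForm.discriminant⟩

section formal

variable {R S : Type*} [CommRing R] [CommRing S]

lemma qa_coeffMap_ofPowerSeries (f : R →+* S) (x : PowerSeries R) :
    coeffMap f (HahnSeries.ofPowerSeries ℤ R x) = HahnSeries.ofPowerSeries ℤ S (x.map f) := by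
  ext k
  rw [coeffMap_coeff]
  rcases lt_or_ge k 0 with hk | hk
  · rw [ofPowerSeries_coeff_of_neg _ hk, ofPowerSeries_coeff_of_neg _ hk, map_zero]
  · obtain ⟨n, rfl⟩ := Int.eq_ofNat_of_zero_le hk
    rw [HahnSeries.ofPowerSeries_apply_coeff, HahnSeries.ofPowerSeries_apply_coeff,
      PowerSeries.coeff_map]

lemma qa_coeffMap_qExpand (f : R →+* S) (d : ℕ) [NeZero d] (x : LaurentSeries R) :
    coeffMap f (qExpand R d x) = qExpand S d (coeffMap f x) := by
  ext k
  rw [coeffMap_coeff]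
  by_cases hk : (d : ℤ) ∣ k
  · obtain ⟨m, rfl⟩ := hk
    rw [qExpand_coeff_mul, qExpand_coeff_mul, coeffMap_coeff]
  · rw [qExpand_coeff_of_not_dvd d _ hk, qExpand_coeff_of_not_dvd d _ hk, map_zero]

end formal

/-- the formal `j` over `ℂ` -/
def qaJqC : LaurentSeries ℂ := coeffEmb ℂ jq

lemma coeffEmb_qExpand_jq (d : ℕ) [NeZero d] :
    coeffEmb ℂ (qExpand ℚ d jq) = qExpand ℂ d qaJqC :=
  qa_coeffMap_qExpand _ d jq

lemma qaJqC_eq :
    qaJqC = HahnSeries.single (-1 : ℤ) (1 : ℂ) *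
      HahnSeries.ofPowerSeries ℤ ℂ (jNum.map (Int.castRingHom ℂ)) := by
  have h : (PowerSeries.map (algebraMap ℚ ℂ)) ((PowerSeries.map (Int.castRingHom ℚ)) jNum) =
      PowerSeries.map (Int.castRingHom ℂ) jNum := by
    ext n
    simp
  rw [qaJqC, coeffEmb, jq, map_mul, coeffMap_single, map_one, qa_coeffMap_ofPowerSeries, jNumQ, h]

/-- **`Δ · j = E₄³` on the level of `q`-expansions**, with the Prelude's formal `j`. -/
theorem qaL_discriminant_mul_qaJqC :
    qaL ModularForm.discriminant * qaJqC = qaL ((⇑E₄ : ℍ → ℂ) ^ 3) := by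
  have hη : (dedekindEtaUnit.map (Int.castRingHom ℂ)) * (dedekindEtaUnitInv.map (Int.castRingHom ℂ))
      = 1 := by
    rw [← map_mul, dedekindEtaUnit_mul_inv, map_one]
  rw [isQAn_E4.qaL_pow, qaL, qaL, qExpansion_discriminant, qExpansion_E4, qaJqC_eq, jNum,
    ← dedekindEtaUnit, map_mul, map_mul, map_pow, HahnSeries.ofPowerSeries_X, map_mul, map_pow]
  have h1 : (HahnSeries.single (1 : ℤ) (1 : ℂ)) * HahnSeries.single (-1 : ℤ) (1 : ℂ) = 1 := by
    rw [HahnSeries.single_mul_single]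
    simp
  have h2 := congrArg (HahnSeries.ofPowerSeries ℤ ℂ) hη
  rw [map_mul, map_one] at h2
  calc _ = (HahnSeries.single (1 : ℤ) (1 : ℂ) * HahnSeries.single (-1 : ℤ) (1 : ℂ)) *
        ((HahnSeries.ofPowerSeries ℤ ℂ) ((PowerSeries.map (Int.castRingHom ℂ)) dedekindEtaUnit) *
          (HahnSeries.ofPowerSeries ℤ ℂ) ((PowerSeries.map (Int.castRingHom ℂ)) dedekindEtaUnitInv)) *
        (HahnSeries.ofPowerSeries ℤ ℂ) ((PowerSeries.map (Int.castRingHom ℂ)) eisenstein4) ^ 3 := by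
        ring
    _ = _ := by rw [h1, h2, one_mul, one_mul]


/-- **The formal `j(q^d)` of the Prelude is the `q`-expansion of `z ↦ j(d z)`**:
`Δ(d z) · j(q^d) = E₄(d z)³` on the level of `q`-expansions. -/
theorem qaL_discriminant_qaScale_mul_jqd (d : ℕ) [NeZero d] :
    qaL (ModularForm.discriminant ∘ qaScale d) * coeffEmb ℂ (qExpand ℚ d jq) =
      qaL (((⇑E₄ : ℍ → ℂ) ^ 3) ∘ qaScale d) := by
  rw [isQAn_discriminant.qaL_comp_qaScale, (isQAn_E4.pow 3).qaL_comp_qaScale, coeffEmb_qExpand_jq,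
    ← map_mul, qaL_discriminant_mul_qaJqC]

lemma isQAn_discriminant_qaScale (d : ℕ) [NeZero d] : IsQAn (ModularForm.discriminant ∘ qaScale d) :=
  isQAn_discriminant.comp_qaScale d

lemma isQAn_E4_cube_qaScale (d : ℕ) [NeZero d] : IsQAn (((⇑E₄ : ℍ → ℂ) ^ 3) ∘ qaScale d) :=
  (isQAn_E4.pow 3).comp_qaScale d

lemma jFun_qaScale (d : ℕ) [NeZero d] (z : ℍ) :
    jFun (qaScale d z) = (((⇑E₄ : ℍ → ℂ) ^ 3) ∘ qaScale d) z / (ModularForm.discriminant ∘ qaScale d) z :=
  rfl

lemma discriminant_qaScale_ne_zero (d : ℕ) [NeZero d] (z : ℍ) :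
    (ModularForm.discriminant ∘ qaScale d) z ≠ 0 := discriminant_ne_zero _

lemma qaL_discriminant_qaScale_ne_zero (d : ℕ) [NeZero d] :
    qaL (ModularForm.discriminant ∘ qaScale d) ≠ 0 := by
  rw [Ne, (isQAn_discriminant_qaScale d).qaL_eq_zero_iff]
  intro h
  exact discriminant_qaScale_ne_zero d UpperHalfPlane.I (congrFun h _)

/-- `j(q^d)` as a quotient of `q`-expansions. -/
theorem coeffEmb_qExpand_jq_eq_div (d : ℕ) [NeZero d] :
    coeffEmb ℂ (qExpand ℚ d jq) =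
      qaL (((⇑E₄ : ℍ → ℂ) ^ 3) ∘ qaScale d) / qaL (ModularForm.discriminant ∘ qaScale d) := by
  rw [eq_div_iff (qaL_discriminant_qaScale_ne_zero d), mul_comm, qaL_discriminant_qaScale_mul_jqd]

end Fermat.Agent.S24x
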