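/-
S24 helper module (helper53, backup for C1): LINEAR DISJOINTNESS of an analytic realisation.

Abstract form of `Spec.evF_linearIndependent`: let `R` be a ring with fraction field `F`, embedded
in `LaurentSeries Q̄` such that (after `coeffMap iotaQ`) every element converges on the punctured
unit disc, and let `E : F →+* Mer` be a ring homomorphism which on `R` is "take the holomorphic
function `τ ↦ ∑ ι(aₙ) q(τ)ⁿ`".  Then `ℂ ⊗_{Q̄} F → Mer` is injective.
-/
import Fermat.Agent.S24x.LinDisjoint
import Fermat.Agent.S24x.ConvLaurent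
import Fermat.Agent.S24x.Defs
import Fermat.Agent.S24x.Iota

set_option autoImplicit false

namespace Fermat.Agent.S24x

open UpperHalfPlane ModularCurve
open scoped Manifold

/-- the holomorphic function `τ ↦ f(q(τ))` of a convergent Laurent series. -/
noncomputable def holOfConv (f : LaurentSeries ℂ) (hf : LConv f) : Hol :=
  ⟨fun τ => lEval f (qOf τ), hf.mdifferentiable⟩

theorem holOfConv_apply (f : LaurentSeries ℂ) (hf : LConv f) (τ : ℍ) :
    (holOfConv f hf : ℍ → ℂ) τ = lEval f (qOf τ) := rfl

/-- **Linear disjointness, abstract form.** -/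
theorem lde_linearIndependent {R F : Type*} [CommRing R] [Field F] [Algebra R F]
    [IsFractionRing R F] (emb : R →+* LaurentSeries Qbar) (hemb : Function.Injective emb)
    (hconv : ∀ a : R, LConv (coeffMap iotaQ (emb a)))
    (E : F →+* Mer)
    (hE : ∀ a : R, E (algebraMap R F a) = algebraMap Hol Mer (holOfConv _ (hconv a)))
    {ι : Type} [Fintype ι] (z : ι → ℂ)
    (hz : ∀ a : ι → Qbar, ∑ i, iotaQ (a i) * z i = 0 → ∀ i, a i = 0) (σ : ι → F)
    (h : ∑ i, algebraMap ℂ Mer (z i) * E (σ i) = 0) : ∀ i, σ i = 0 := by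
  classical
  -- common denominator
  obtain ⟨b, hb⟩ := IsLocalization.exist_integer_multiples (nonZeroDivisors R) Finset.univ σ
  have hb0 : algebraMap R F (b : R) ≠ 0 := (IsLocalization.map_units F b).ne_zero
  choose a ha using fun i => hb i (Finset.mem_univ i)
  have ha' : ∀ i, algebraMap R F (a i) = algebraMap R F (b : R) * σ i := by
    intro i
    rw [ha i]
    exact Algebra.smul_def (b : R) (σ i)
  -- the relation among the numerators, in `Mer`
  have h1 : ∑ i, algebraMap ℂ Mer (z i) * E (algebraMap R F (a i)) = 0 := by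
    have : ∑ i, algebraMap ℂ Mer (z i) * E (algebraMap R F (a i)) =
        E (algebraMap R F (b : R)) * ∑ i, algebraMap ℂ Mer (z i) * E (σ i) := by
      rw [Finset.mul_sum]
      refine Finset.sum_congr rfl fun i _ => ?_
      rw [ha' i, map_mul]
      ring
    rw [this, h, mul_zero]
  -- in `Hol`
  have h2 : ∑ i, algebraMap ℂ Hol (z i) * holOfConv _ (hconv (a i)) = 0 := by
    apply IsFractionRing.injective Hol Mer
    rw [map_zero, map_sum, ← h1]
    refine Finset.sum_congr rfl fun i _ => ?_
    rw [map_mul, hE, ← IsScalarTower.algebraMap_apply]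
  -- as a Laurent series
  set G : LaurentSeries ℂ := ∑ i, z i • coeffMap iotaQ (emb (a i)) with hG
  have hGconv : LConv G := lconv_sum _ _ fun i _ => (hconv (a i)).smul (z i)
  have hG0 : G = 0 := by
    refine hGconv.eq_zero_of_forall_uhp fun τ => ?_
    rw [hG, lEval_sum _ _ (fun i _ => (hconv (a i)).smul (z i)) (qOf_ne_zero τ) (norm_qOf_lt_one τ)]
    have h3 := congrArg ((Pi.evalRingHom (fun _ : ℍ => ℂ) τ).comp Hol.subtype) h2
    rw [map_zero, map_sum] at h3
    rw [← h3]
    refine Finset.sum_congr rfl fun i _ => ?_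
    rw [lEval_smul (hconv (a i)) (z i) (qOf_ne_zero τ) (norm_qOf_lt_one τ), map_mul]
    rfl
  have hzero := ld_eq_zero_of_sum_smul_coeffMap_eq_zero iotaQ hz (fun i => emb (a i)) hG0
  intro i
  have hai : a i = 0 := hemb ((hzero i).trans (map_zero emb).symm)
  have := ha' i
  rw [hai, map_zero] at this
  exact (mul_eq_zero.mp this.symm).resolve_left hb0

end Fermat.Agent.S24x
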