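import Mathlib

/-!
# S24 project: counting orbits of a cyclic group generated by an element of prime order

If `g ^ p` acts trivially on the finite set `X` (`p` prime) then the orbits `Ω` of `⟨g⟩` on `X` satisfy
`p * #Ω = #X + (p - 1) * #(fixed points of g)`.
-/

set_option autoImplicit false

namespace Fermat.Agent.S24x

open MulAction

section Perm

variable {X : Type*}

/-- The homomorphism `ℤ/p → Perm X`, `k ↦ σ ^ k`, for `σ ^ p = 1`. -/
noncomputable def ocHom (σ : Equiv.Perm X) (p : ℕ) (hσ : σ ^ p = 1) :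
    Multiplicative (ZMod p) →* Equiv.Perm X :=
  AddMonoidHom.toMultiplicativeLeft
    (ZMod.lift p ⟨zmultiplesHom (Additive (Equiv.Perm X)) (Additive.ofMul σ), by
      rw [zmultiplesHom_apply, natCast_zsmul, ← ofMul_pow, hσ, ofMul_one]⟩)

theorem ocHom_apply_intCast (σ : Equiv.Perm X) (p : ℕ) (hσ : σ ^ p = 1) (k : ℤ) :
    ocHom σ p hσ (Multiplicative.ofAdd (k : ZMod p)) = σ ^ k := by
  unfold ocHom
  rw [AddMonoidHom.coe_toMultiplicativeLeft]
  simp [ZMod.lift_coe]

theorem oc_exists_intCast (p : ℕ) [NeZero p] (a : Multiplicative (ZMod p)) :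
    ∃ k : ℤ, a = Multiplicative.ofAdd (k : ZMod p) := by
  obtain ⟨k, hk⟩ := ZMod.intCast_surjective (Multiplicative.toAdd a)
  exact ⟨k, by rw [hk]; rfl⟩

/-- Orbit counting for a permutation with `σ ^ p = 1`. -/
theorem oc_perm_card_orbits [Finite X] (σ : Equiv.Perm X) (p : ℕ) [hp : Fact p.Prime]
    (hσ : σ ^ p = 1) :
    p * Nat.card (orbitRel.Quotient (Subgroup.zpowers σ) X) =
      Nat.card X + (p - 1) * Nat.card (fixedBy X σ) := by
  classical
  have : Fintype X := Fintype.ofFinite X
  let act : MulAction (Multiplicative (ZMod p)) X := MulAction.compHom X (ocHom σ p hσ)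
  have hsmul : ∀ (k : ℤ) (x : X), (Multiplicative.ofAdd (k : ZMod p)) • x = (σ ^ k) x := by
    intro k x
    show (ocHom σ p hσ (Multiplicative.ofAdd (k : ZMod p))) x = _
    rw [ocHom_apply_intCast]
  -- the orbit relations coincide
  have horb : ∀ x y : X, orbitRel (Multiplicative (ZMod p)) X x y ↔
      orbitRel (Subgroup.zpowers σ) X x y := by
    intro x y
    rw [orbitRel_apply, orbitRel_apply, mem_orbit_iff, mem_orbit_iff]
    constructor
    · rintro ⟨a, ha⟩
      obtain ⟨k, rfl⟩ := oc_exists_intCast p a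
      rw [hsmul] at ha
      exact ⟨⟨σ ^ k, k, rfl⟩, ha⟩
    · rintro ⟨⟨τ, k, rfl⟩, ha⟩
      exact ⟨Multiplicative.ofAdd (k : ZMod p), by rw [hsmul]; exact ha⟩
  have hcardΩ : Nat.card (orbitRel.Quotient (Multiplicative (ZMod p)) X) =
      Nat.card (orbitRel.Quotient (Subgroup.zpowers σ) X) :=
    Nat.card_congr (Quotient.congr (Equiv.refl X) (fun x y => horb x y))
  -- fixed points of a nontrivial element
  have hfix : ∀ a : Multiplicative (ZMod p), a ≠ 1 → ∀ x : X, a • x = x ↔ σ x = x := by
    intro a ha x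
    have hcard : Nat.card (Multiplicative (ZMod p)) = p := by
      rw [Nat.card_eq_fintype_card, Fintype.card_multiplicative, ZMod.card]
    have hgen : σ x = x ↔ Multiplicative.ofAdd ((1 : ℤ) : ZMod p) ∈
        stabilizer (Multiplicative (ZMod p)) x := by
      rw [mem_stabilizer_iff, hsmul, zpow_one]
    rw [hgen, ← mem_stabilizer_iff]
    constructor
    · intro h
      have htop : Subgroup.zpowers a = ⊤ := zpowers_eq_top_of_prime_card hcard ha
      have hle : Subgroup.zpowers a ≤ stabilizer (Multiplicative (ZMod p)) x :=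
        (Subgroup.zpowers_le).mpr h
      exact hle (htop ▸ Subgroup.mem_top _)
    · intro h
      have h1 : Multiplicative.ofAdd ((1 : ℤ) : ZMod p) ≠ 1 := by
        intro h0
        have h2 : ((1 : ℤ) : ZMod p) = 0 := h0
        rw [Int.cast_one] at h2
        exact one_ne_zero h2
      have htop : Subgroup.zpowers (Multiplicative.ofAdd ((1 : ℤ) : ZMod p)) = ⊤ :=
        zpowers_eq_top_of_prime_card hcard h1
      have hle : Subgroup.zpowers (Multiplicative.ofAdd ((1 : ℤ) : ZMod p)) ≤
          stabilizer (Multiplicative (ZMod p)) x := (Subgroup.zpowers_le).mpr h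
      exact hle (htop ▸ Subgroup.mem_top _)
  -- Burnside
  have hB := sum_card_fixedBy_eq_card_orbits_mul_card_group (Multiplicative (ZMod p)) X
  have hc1 : Fintype.card (fixedBy X (1 : Multiplicative (ZMod p))) = Nat.card X := by
    rw [Nat.card_eq_fintype_card]
    exact Fintype.card_congr ⟨fun x => x.1, fun x => ⟨x, by rw [mem_fixedBy, one_smul]⟩,
      fun x => rfl, fun x => rfl⟩
  have hca : ∀ a : Multiplicative (ZMod p), a ≠ 1 →
      Fintype.card (fixedBy X a) = Nat.card (fixedBy X σ) := by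
    intro a ha
    rw [Nat.card_eq_fintype_card]
    exact Fintype.card_congr ⟨fun x => ⟨x.1, (hfix a ha x.1).mp x.2⟩,
      fun x => ⟨x.1, (hfix a ha x.1).mpr x.2⟩, fun x => rfl, fun x => rfl⟩
  rw [← Finset.add_sum_erase Finset.univ _ (Finset.mem_univ (1 : Multiplicative (ZMod p))),
    hc1, Finset.sum_congr rfl (fun a ha => hca a (Finset.ne_of_mem_erase ha)),
    Finset.sum_const, Finset.card_erase_of_mem (Finset.mem_univ _), Finset.card_univ,
    Fintype.card_multiplicative, ZMod.card, smul_eq_mul] at hB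
  rw [← hcardΩ, Nat.card_eq_fintype_card, mul_comm, ← hB]

end Perm

section Action

variable {G X : Type*} [Group G] [MulAction G X]

theorem oc_toPerm_pow (g : G) (p : ℕ) (hg : ∀ x : X, g ^ p • x = x) :
    (MulAction.toPermHom G X g) ^ p = 1 := by
  rw [← map_pow]
  ext x
  exact hg x

/-- **Orbit counting**: if `g ^ p` acts trivially (`p` prime) then
`p * #orbits = #X + (p - 1) * #fixed points`. -/
theorem oc_card_orbits [Finite X] (g : G) (p : ℕ) (hp : p.Prime) (hg : ∀ x : X, g ^ p • x = x) :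
    p * Nat.card (orbitRel.Quotient (Subgroup.zpowers g) X) =
      Nat.card X + (p - 1) * Nat.card (fixedBy X g) := by
  have : Fact p.Prime := ⟨hp⟩
  have h := oc_perm_card_orbits (MulAction.toPermHom G X g) p (oc_toPerm_pow g p hg)
  have horb : ∀ x y : X, orbitRel (Subgroup.zpowers g) X x y ↔
      orbitRel (Subgroup.zpowers (MulAction.toPermHom G X g)) X x y := by
    intro x y
    rw [orbitRel_apply, orbitRel_apply, mem_orbit_iff, mem_orbit_iff]
    constructor
    · rintro ⟨⟨τ, k, rfl⟩, ha⟩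
      refine ⟨⟨(MulAction.toPermHom G X g) ^ k, k, rfl⟩, ?_⟩
      rw [← ha]
      show ((MulAction.toPermHom G X g) ^ k) y = (g ^ k) • y
      rw [← map_zpow]
      rfl
    · rintro ⟨⟨τ, k, rfl⟩, ha⟩
      refine ⟨⟨g ^ k, k, rfl⟩, ?_⟩
      rw [← ha]
      show (g ^ k) • y = ((MulAction.toPermHom G X g) ^ k) y
      rw [← map_zpow]
      rfl
  have hΩ : Nat.card (orbitRel.Quotient (Subgroup.zpowers g) X) =
      Nat.card (orbitRel.Quotient (Subgroup.zpowers (MulAction.toPermHom G X g)) X) :=
    Nat.card_congr (Quotient.congr (Equiv.refl X) (fun x y => horb x y))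
  have hF : Nat.card (fixedBy X g) = Nat.card (fixedBy X (MulAction.toPermHom G X g)) :=
    Nat.card_congr ⟨fun x => ⟨x.1, x.2⟩, fun x => ⟨x.1, x.2⟩, fun x => rfl, fun x => rfl⟩
  rw [hΩ, hF]
  exact h

end Action

section Weights

variable {G X : Type*} [Group G] [MulAction G X]

theorem oc_zpowers_smul_eq {g : G} {x : X} (hx : g • x = x) (h : Subgroup.zpowers g) :
    h • x = x := by
  have hle : Subgroup.zpowers g ≤ stabilizer G x :=
    (Subgroup.zpowers_le).mpr (mem_stabilizer_iff.mpr hx)
  exact mem_stabilizer_iff.mp (hle h.2)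

/-- If `g` fixes `y`, the `⟨g⟩`-orbit of `y` is `{y}`. -/
theorem oc_eq_of_mem_orbit {g : G} {x y : X} (hxy : x ∈ orbit (Subgroup.zpowers g) y)
    (hy : g • y = y) : x = y := by
  obtain ⟨h, rfl⟩ := hxy
  exact oc_zpowers_smul_eq hy h

/-- Being fixed by `g` is constant on `⟨g⟩`-orbits. -/
theorem oc_fixed_iff_of_mem_orbit {g : G} {x y : X} (hxy : x ∈ orbit (Subgroup.zpowers g) y) :
    g • x = x ↔ g • y = y := by
  constructor
  · intro hx
    have hyx : y ∈ orbit (Subgroup.zpowers g) x := by
      rw [← orbitRel_apply] at hxy ⊢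
      exact (orbitRel (Subgroup.zpowers g) X).symm hxy
    rw [oc_eq_of_mem_orbit hyx hx]
    exact hx
  · intro hy
    rw [oc_eq_of_mem_orbit hxy hy]
    exact hy

/-- The orbit `ω` of `⟨g⟩` consists of a fixed point of `g`. -/
def ocFixed (g : G) (ω : orbitRel.Quotient (Subgroup.zpowers g) X) : Prop :=
  g • ω.out = ω.out

theorem oc_out_mem_orbit (g : G) (x : X) :
    (Quotient.mk'' x : orbitRel.Quotient (Subgroup.zpowers g) X).out ∈
      orbit (Subgroup.zpowers g) x := by
  rw [← orbitRel_apply]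
  exact Quotient.exact (Quotient.out_eq _)

theorem oc_fixed_mk (g : G) (x : X) :
    ocFixed g (Quotient.mk'' x : orbitRel.Quotient (Subgroup.zpowers g) X) ↔ g • x = x :=
  oc_fixed_iff_of_mem_orbit (oc_out_mem_orbit g x)

/-- The weight of an orbit: `1` if it is a fixed point, `p` otherwise. -/
noncomputable def ocWeight (g : G) (p : ℕ) (ω : orbitRel.Quotient (Subgroup.zpowers g) X) : ℕ :=
  open Classical in if ocFixed g ω then 1 else p

theorem ocWeight_of_fixed {g : G} {p : ℕ} {ω : orbitRel.Quotient (Subgroup.zpowers g) X}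
    (h : ocFixed g ω) : ocWeight g p ω = 1 := by
  unfold ocWeight; exact if_pos h

theorem ocWeight_of_not_fixed {g : G} {p : ℕ} {ω : orbitRel.Quotient (Subgroup.zpowers g) X}
    (h : ¬ ocFixed g ω) : ocWeight g p ω = p := by
  unfold ocWeight; exact if_neg h

/-- Fixed orbits correspond to fixed points. -/
theorem oc_card_fixed_orbits (g : G) :
    Nat.card {ω : orbitRel.Quotient (Subgroup.zpowers g) X // ocFixed g ω} =
      Nat.card (fixedBy X g) := by
  symm
  refine Nat.card_congr (Equiv.ofBijective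
    (fun x => ⟨Quotient.mk'' x.1, (oc_fixed_mk g x.1).mpr x.2⟩) ⟨?_, ?_⟩)
  · rintro ⟨x, hx⟩ ⟨y, hy⟩ hxy
    have h1 : (Quotient.mk'' x : orbitRel.Quotient (Subgroup.zpowers g) X) = Quotient.mk'' y :=
      congrArg Subtype.val hxy
    have h2 : x ∈ orbit (Subgroup.zpowers g) y := by
      rw [← orbitRel_apply]
      exact Quotient.exact h1
    exact Subtype.ext (oc_eq_of_mem_orbit h2 hy)
  · rintro ⟨ω, hω⟩
    exact ⟨⟨ω.out, hω⟩, Subtype.ext (Quotient.out_eq ω)⟩

/-- The weights of the orbits add up to `#X`. -/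
theorem oc_sum_weight [Finite X] (g : G) (p : ℕ) (hp : p.Prime) (hg : ∀ x : X, g ^ p • x = x)
    [Fintype (orbitRel.Quotient (Subgroup.zpowers g) X)] :
    ∑ ω : orbitRel.Quotient (Subgroup.zpowers g) X, ocWeight g p ω = Nat.card X := by
  classical
  have hmain := oc_card_orbits g p hp hg
  have hfix := oc_card_fixed_orbits (X := X) g
  have h1 : ∀ ω : orbitRel.Quotient (Subgroup.zpowers g) X,
      ocWeight g p ω + (p - 1) * (if ocFixed g ω then 1 else 0) = p := by
    intro ω
    by_cases h : ocFixed g ω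
    · rw [ocWeight_of_fixed h, if_pos h, mul_one]
      have := hp.one_lt
      omega
    · rw [ocWeight_of_not_fixed h, if_neg h, mul_zero, add_zero]
  have h2 : ∑ ω : orbitRel.Quotient (Subgroup.zpowers g) X,
      (ocWeight g p ω + (p - 1) * (if ocFixed g ω then 1 else 0)) =
      p * Nat.card (orbitRel.Quotient (Subgroup.zpowers g) X) := by
    rw [Finset.sum_congr rfl (fun ω _ => h1 ω), Finset.sum_const, Finset.card_univ,
      smul_eq_mul, Nat.card_eq_fintype_card, mul_comm]
  have h3 : ∑ ω : orbitRel.Quotient (Subgroup.zpowers g) X, (if ocFixed g ω then 1 else 0) =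
      Nat.card (fixedBy X g) := by
    rw [← hfix, Nat.card_eq_fintype_card, Fintype.card_subtype, Finset.card_filter]
  rw [Finset.sum_add_distrib, ← Finset.mul_sum, h3, hmain] at h2
  exact Nat.add_right_cancel h2

end Weights

end Fermat.Agent.S24x
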