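import Fermat.Agent.S24x.OrbitCount
import Fermat.Agent.S24x.CombDefs

/-!
# S24 project: orbits of `⟨S⟩` and `⟨S * T⟩` on `Q N = SL(2,ℤ) ⧸ Γ₀(N)`

`2 * #(Q N / ⟨S⟩) = #Q N + #Fix(S)` and `3 * #(Q N / ⟨S*T⟩) = #Q N + 2 * #Fix(S*T)`.
-/

set_option autoImplicit false

open CongruenceSubgroup ModularGroup Matrix.SpecialLinearGroup MulAction
open scoped MatrixGroups

namespace Fermat.Agent.S24x

variable (N : ℕ)

theorem oc_S_sq_smul (q : Q N) : (S ^ 2 : SL(2, ℤ)) • q = q := by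
  induction q using QuotientGroup.induction_on with
  | H g =>
    rw [pow_two, mul_smul, smul_coset, smul_coset, coset_eq_iff]
    simp only [S_mul_zero_zero, S_mul_one_zero]
    rw [← Int.cast_zero]
    congr 1
    ring

theorem oc_ST_cube_smul (q : Q N) : ((S * T) ^ 3 : SL(2, ℤ)) • q = q := by
  induction q using QuotientGroup.induction_on with
  | H g =>
    rw [pow_succ, pow_two, mul_smul, mul_smul, smul_coset, smul_coset, smul_coset, coset_eq_iff]
    simp only [ST_mul_zero_zero, ST_mul_one_zero]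
    rw [← Int.cast_zero]
    congr 1
    ring

/-- `2 * #orbits of ⟨S⟩ = #Q N + #Fix(S)`. -/
theorem oc_two_mul_card_orbits_S [NeZero N] :
    2 * Nat.card (orbitRel.Quotient (Subgroup.zpowers (S : SL(2, ℤ))) (Q N)) =
      Nat.card (Q N) + Nat.card (fixedBy (Q N) (S : SL(2, ℤ))) := by
  have h := oc_card_orbits (X := Q N) (S : SL(2, ℤ)) 2 Nat.prime_two (oc_S_sq_smul N)
  rw [show (2 - 1 : ℕ) = 1 from rfl, one_mul] at h
  exact h

/-- `3 * #orbits of ⟨S * T⟩ = #Q N + 2 * #Fix(S * T)`. -/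
theorem oc_three_mul_card_orbits_ST [NeZero N] :
    3 * Nat.card (orbitRel.Quotient (Subgroup.zpowers (S * T : SL(2, ℤ))) (Q N)) =
      Nat.card (Q N) + 2 * Nat.card (fixedBy (Q N) (S * T : SL(2, ℤ))) := by
  have h := oc_card_orbits (X := Q N) (S * T : SL(2, ℤ)) 3 Nat.prime_three (oc_ST_cube_smul N)
  rw [show (3 - 1 : ℕ) = 2 from rfl] at h
  exact h

/-- The weights (`1` for fixed cosets, `2` otherwise) of the `⟨S⟩`-orbits add up to `#Q N`. -/
theorem oc_sum_weight_S [NeZero N]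
    [inst : Fintype (orbitRel.Quotient (Subgroup.zpowers (S : SL(2, ℤ))) (Q N))] :
    ∑ ω : orbitRel.Quotient (Subgroup.zpowers (S : SL(2, ℤ))) (Q N),
      ocWeight (S : SL(2, ℤ)) 2 ω = Nat.card (Q N) :=
  @oc_sum_weight _ _ _ _ _ (S : SL(2, ℤ)) 2 Nat.prime_two (oc_S_sq_smul N) inst

/-- The weights (`1` for fixed cosets, `3` otherwise) of the `⟨S * T⟩`-orbits add up to `#Q N`. -/
theorem oc_sum_weight_ST [NeZero N]
    [inst : Fintype (orbitRel.Quotient (Subgroup.zpowers (S * T : SL(2, ℤ))) (Q N))] :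
    ∑ ω : orbitRel.Quotient (Subgroup.zpowers (S * T : SL(2, ℤ))) (Q N),
      ocWeight (S * T : SL(2, ℤ)) 3 ω = Nat.card (Q N) :=
  @oc_sum_weight _ _ _ _ _ (S * T : SL(2, ℤ)) 3 Nat.prime_three (oc_ST_cube_smul N) inst

end Fermat.Agent.S24x
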