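import Mathlib
import Fermat.Prelude.Def_ModularCurve_CanonicalDivisor

/-!
# S24 project, module A6: the order of `dt` at a place

`K` a field of characteristic zero, `F/K` a field, `v : Place K F` (Prelude).  Hypothesis `hA5`
(delivered by module A5): for every `u` in the valuation ring `A_v` the differential `du` is an
`A_v`-multiple of `v.dCoord` (= `dπ` for the uniformizer `π` chosen by the Prelude).

Main results (all under `[v.DCoordGenerates] [Nontrivial Ω[F⁄K]]`):
* `a6_ordDifferential_D_of_ord_ne_zero` : `v.ord f ≠ 0 → v.ordDifferential (D f) = v.ord f - 1`;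
* `ordDifferential_D_of_zero` : `0 < v.ord (t - c) → v.ordDifferential (D t) = v.ord (t - c) - 1`;
* `ordDifferential_D_of_pole` : `v.ord t < 0 → v.ordDifferential (D t) = v.ord t - 1`;
* `a6_hA5_of_irreducible` : converts the A5 statement "for every irreducible `π`" to `hA5`;
* `a6_dCoordGenerates_of_span` : `Ω[F⁄K] = F·dt` and `hA5` give `v.DCoordGenerates`;
* `a6_differentialCoeff_D_ne_zero` : the coefficient of `D f` is nonzero when `v.ord f ≠ 0`.
-/

set_option autoImplicit false

namespace Fermat.Agent.S24x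

open AlgebraicCurve KaehlerDifferential

variable {K F : Type*} [Field K] [Field F] [Algebra K F]

/-- The Prelude's `v.dCoord` is `dπ` for an irreducible element `π` of the valuation ring. -/
theorem a6_dCoord_eq (v : Place K F) :
    ∃ π : v.toValuationSubring, Irreducible π ∧ v.dCoord = D K F (π : F) :=
  ⟨_, (IsDiscreteValuationRing.exists_irreducible v.toValuationSubring).choose_spec, rfl⟩

/-- Convert the A5 statement (quantified over all irreducible `π`) into the form used here. -/
theorem a6_hA5_of_irreducible (v : Place K F)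
    (h : ∀ π : v.toValuationSubring, Irreducible π → ∀ u ∈ v.toValuationSubring,
      ∃ u' ∈ v.toValuationSubring, D K F u = u' • D K F (π : F)) :
    ∀ u ∈ v.toValuationSubring, ∃ u' ∈ v.toValuationSubring, D K F u = u' • v.dCoord := by
  obtain ⟨π, hπ, hdc⟩ := a6_dCoord_eq v
  intro u hu
  obtain ⟨u', hu', e⟩ := h π hπ u hu
  exact ⟨u', hu', by rw [hdc]; exact e⟩

/-- In a local ring, a unit plus a non-unit is a unit. -/
theorem a6_isUnit_add_of_mem_maximalIdeal {R : Type*} [CommRing R] [IsLocalRing R] {a b : R}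
    (ha : IsUnit a) (hb : b ∈ IsLocalRing.maximalIdeal R) : IsUnit (a + b) := by
  by_contra h
  have h1 : a + b ∈ IsLocalRing.maximalIdeal R := (IsLocalRing.mem_maximalIdeal _).mpr h
  have h2 : a ∈ IsLocalRing.maximalIdeal R := by
    have : a = (a + b) - b := by ring
    rw [this]
    exact Ideal.sub_mem _ h1 hb
  exact (IsLocalRing.mem_maximalIdeal _).mp h2 ha

/-- Every element of `F` has differential in `F · v.dCoord`, given `hA5`. -/
theorem a6_D_mem_span (v : Place K F)
    (hA5 : ∀ u ∈ v.toValuationSubring, ∃ u' ∈ v.toValuationSubring, D K F u = u' • v.dCoord)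
    (f : F) : ∃ g : F, D K F f = g • v.dCoord := by
  rcases v.toValuationSubring.mem_or_inv_mem f with hf | hf
  · obtain ⟨u', -, e⟩ := hA5 f hf
    exact ⟨u', e⟩
  · obtain ⟨u', -, e⟩ := hA5 f⁻¹ hf
    by_cases hf0 : f = 0
    · subst hf0
      exact ⟨0, by simp⟩
    · refine ⟨-(f ^ 2) * u', ?_⟩
      have h1 : D K F f = D K F (f⁻¹)⁻¹ := by rw [inv_inv]
      rw [h1, Derivation.leibniz_inv, e, inv_inv, smul_smul]

/-- `Ω[F⁄K] = F · dt` together with `hA5` gives `v.DCoordGenerates`. -/
theorem a6_dCoordGenerates_of_span (v : Place K F)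
    (hA5 : ∀ u ∈ v.toValuationSubring, ∃ u' ∈ v.toValuationSubring, D K F u = u' • v.dCoord)
    (t : F) (ht : ∀ ω : Ω[F⁄K], ∃ f : F, ω = f • D K F t) : v.DCoordGenerates := by
  constructor
  rw [eq_top_iff]
  intro ω _
  obtain ⟨f, rfl⟩ := ht ω
  obtain ⟨g, hg⟩ := a6_D_mem_span v hA5 t
  rw [hg, smul_smul]
  exact Submodule.smul_mem _ _ (Submodule.subset_span rfl)

section Main

variable [CharZero K] (v : Place K F) [v.DCoordGenerates] [Nontrivial Ω[F⁄K]]

omit [v.DCoordGenerates] [Nontrivial Ω[F⁄K]] in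
/-- Key computation: if `v.ord f = e ≠ 0` then `D f = (π^(e-1) * x) • v.dCoord` with `x` a unit of
the valuation ring. -/
theorem a6_exists_unit_D_eq
    (hA5 : ∀ u ∈ v.toValuationSubring, ∃ u' ∈ v.toValuationSubring, D K F u = u' • v.dCoord)
    {f : F} (hf : v.ord f ≠ 0) :
    ∃ (π : v.toValuationSubring) (x : v.toValuationSubringˣ), Irreducible π ∧
      D K F f = (((π : F) ^ (v.ord f - 1)) * ((x : v.toValuationSubring) : F)) • v.dCoord := by
  have hf0 : f ≠ 0 := by
    rintro rfl
    exact hf v.ord_zero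
  obtain ⟨π, hπ, hdc⟩ := a6_dCoord_eq v
  obtain ⟨u, hu⟩ := v.exists_unit_mul_zpow hf0 hπ
  set e : ℤ := v.ord f with he
  obtain ⟨u', hu'mem, hDu⟩ := hA5 ((u : v.toValuationSubring) : F) (u : v.toValuationSubring).2
  have hπF : (π : F) ≠ 0 := by
    simpa [ne_eq, ZeroMemClass.coe_eq_zero] using hπ.ne_zero
  -- the integer `e` as a unit of the valuation ring
  have heK : ((e : ℤ) : K) ≠ 0 := by exact_mod_cast hf
  have heU : IsUnit (algebraMap K v.toValuationSubring ((e : ℤ) : K)) :=
    (IsUnit.mk0 _ heK).map _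
  -- the element `x = e * u + π * u'`
  have hπmem : π * ⟨u', hu'mem⟩ ∈ IsLocalRing.maximalIdeal v.toValuationSubring :=
    Ideal.mul_mem_right _ _ ((IsLocalRing.mem_maximalIdeal _).mpr hπ.not_isUnit)
  have hx : IsUnit (algebraMap K v.toValuationSubring ((e : ℤ) : K) * (u : v.toValuationSubring)
      + π * ⟨u', hu'mem⟩) :=
    a6_isUnit_add_of_mem_maximalIdeal (heU.mul u.isUnit) hπmem
  refine ⟨π, hx.unit, hπ, ?_⟩
  have hxcoe : ((hx.unit : v.toValuationSubring) : F)
      = ((e : ℤ) : F) * ((u : v.toValuationSubring) : F) + (π : F) * u' := by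
    rw [IsUnit.unit_spec]
    push_cast
    rw [v.coe_algebraMap]
    simp
  rw [hxcoe]
  -- compute `D f`
  conv_lhs => rw [hu]
  rw [Derivation.leibniz, Derivation.leibniz_zpow, hDu, ← hdc]
  rw [← Int.cast_smul_eq_zsmul F e, smul_smul, smul_smul, smul_smul, ← add_smul]
  congr 1
  have h1 : (π : F) ^ e = (π : F) ^ (e - 1) * (π : F) := by
    rw [← zpow_add_one₀ hπF]
    congr 1
    ring
  rw [h1]
  ring

/-- The coefficient of `D f` with respect to `v.dCoord` is nonzero when `v.ord f ≠ 0`. -/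
theorem a6_differentialCoeff_D_ne_zero
    (hA5 : ∀ u ∈ v.toValuationSubring, ∃ u' ∈ v.toValuationSubring, D K F u = u' • v.dCoord)
    {f : F} (hf : v.ord f ≠ 0) : v.differentialCoeff (D K F f) ≠ 0 := by
  obtain ⟨π, x, hπ, hD⟩ := a6_exists_unit_D_eq v hA5 hf
  rw [v.differentialCoeff_unique hD]
  have hπF : (π : F) ≠ 0 := by
    simpa [ne_eq, ZeroMemClass.coe_eq_zero] using hπ.ne_zero
  have hxF : ((x : v.toValuationSubring) : F) ≠ 0 := by
    simp [ne_eq, ZeroMemClass.coe_eq_zero]
  exact mul_ne_zero (zpow_ne_zero _ hπF) hxF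

/-- **Local computation.** If `v.ord f ≠ 0` then `ord_v(df) = ord_v(f) - 1`. -/
theorem a6_ordDifferential_D_of_ord_ne_zero
    (hA5 : ∀ u ∈ v.toValuationSubring, ∃ u' ∈ v.toValuationSubring, D K F u = u' • v.dCoord)
    {f : F} (hf : v.ord f ≠ 0) : v.ordDifferential (D K F f) = v.ord f - 1 := by
  obtain ⟨π, x, hπ, hD⟩ := a6_exists_unit_D_eq v hA5 hf
  have hπF : (π : F) ≠ 0 := by
    simpa [ne_eq, ZeroMemClass.coe_eq_zero] using hπ.ne_zero
  have hxF : ((x : v.toValuationSubring) : F) ≠ 0 := by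
    simp [ne_eq, ZeroMemClass.coe_eq_zero]
  rw [Place.ordDifferential, v.differentialCoeff_unique hD,
    v.ord_mul (zpow_ne_zero _ hπF) hxF, v.ord_zpow, v.ord_coe_irreducible hπ, v.ord_coe_unit]
  ring

/-- At a zero of `t - c`: `ord_v(dt) = ord_v(t - c) - 1`. -/
theorem ordDifferential_D_of_zero
    (hA5 : ∀ u ∈ v.toValuationSubring, ∃ u' ∈ v.toValuationSubring, D K F u = u' • v.dCoord)
    (t : F) (c : K) (hv : 0 < v.ord (t - algebraMap K F c)) :
    v.ordDifferential (D K F t) = v.ord (t - algebraMap K F c) - 1 := by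
  have h := a6_ordDifferential_D_of_ord_ne_zero v hA5 (ne_of_gt hv)
  rwa [map_sub, Derivation.map_algebraMap, sub_zero] at h

/-- At a pole of `t`: `ord_v(dt) = ord_v(t) - 1`. -/
theorem ordDifferential_D_of_pole
    (hA5 : ∀ u ∈ v.toValuationSubring, ∃ u' ∈ v.toValuationSubring, D K F u = u' • v.dCoord)
    (t : F) (hv : v.ord t < 0) :
    v.ordDifferential (D K F t) = v.ord t - 1 :=
  a6_ordDifferential_D_of_ord_ne_zero v hA5 (ne_of_lt hv)

end Main

end Fermat.Agent.S24x
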