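import Mathlib

/-!
# S24 project (X₀(N) cluster): the projective line over a commutative ring, `P¹(R)`

`P1 R` = unimodular rows `(c, d)` modulo units, with the right action of `SL(2, R)` (as a
function `P1.act`).  For `R = ZMod N` this is a model of `Γ₀(N) \ SL(2, ℤ)` (see `P1Cosets.lean`).
-/

set_option autoImplicit false

namespace Fermat.Agent.S24x

open scoped MatrixGroups

variable {R : Type*} [CommRing R]

/-- unimodular rows `(c, d)`: the ideal `(c, d)` is the unit ideal. -/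
def IsUnimodRow (v : R × R) : Prop := ∃ a b : R, a * v.1 + b * v.2 = 1

variable (R) in
/-- the type of unimodular rows. -/
def Rows : Type _ := {v : R × R // IsUnimodRow v}

namespace Rows

@[ext] theorem ext {v w : Rows R} (h1 : v.1.1 = w.1.1) (h2 : v.1.2 = w.1.2) : v = w :=
  Subtype.ext (Prod.ext h1 h2)

theorem isUnimodRow_smul (u : Rˣ) {v : R × R} (hv : IsUnimodRow v) :
    IsUnimodRow ((u : R) * v.1, (u : R) * v.2) := by
  obtain ⟨a, b, h⟩ := hv
  refine ⟨a * (↑u⁻¹ : R), b * (↑u⁻¹ : R), ?_⟩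
  have hu : (↑u⁻¹ : R) * (u : R) = 1 := by simp
  calc a * ↑u⁻¹ * (↑u * v.1) + b * ↑u⁻¹ * (↑u * v.2)
      = (↑u⁻¹ * ↑u) * (a * v.1 + b * v.2) := by ring
    _ = 1 := by rw [hu, h, one_mul]

instance : MulAction Rˣ (Rows R) where
  smul u v := ⟨((u : R) * v.1.1, (u : R) * v.1.2), isUnimodRow_smul u v.2⟩
  one_smul v := by
    apply Rows.ext <;> simp [HSMul.hSMul, SMul.smul]
  mul_smul u u' v := by
    apply Rows.ext <;> simp [HSMul.hSMul, SMul.smul, mul_assoc]

@[simp] theorem smul_fst (u : Rˣ) (v : Rows R) : (u • v).1.1 = (u : R) * v.1.1 := rfl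
@[simp] theorem smul_snd (u : Rˣ) (v : Rows R) : (u • v).1.2 = (u : R) * v.1.2 := rfl

/-- the scaling action of units on unimodular rows is free. -/
theorem eq_one_of_smul_eq {u : Rˣ} {v : Rows R} (h : u • v = v) : u = 1 := by
  obtain ⟨a, b, hab⟩ := v.2
  have h1 : (u : R) * v.1.1 = v.1.1 := congrArg (fun w : Rows R => w.1.1) h
  have h2 : (u : R) * v.1.2 = v.1.2 := congrArg (fun w : Rows R => w.1.2) h
  ext
  calc (u : R) = (u : R) * (a * v.1.1 + b * v.1.2) := by rw [hab, mul_one]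
    _ = a * ((u : R) * v.1.1) + b * ((u : R) * v.1.2) := by ring
    _ = 1 := by rw [h1, h2, hab]

/-- right multiplication of a row by a matrix of `SL(2, R)`. -/
def mulSL (v : Rows R) (g : SL(2, R)) : Rows R :=
  ⟨(v.1.1 * g 0 0 + v.1.2 * g 1 0, v.1.1 * g 0 1 + v.1.2 * g 1 1), by
    obtain ⟨a, b, hab⟩ := v.2
    refine ⟨a * g 1 1 - b * g 0 1, b * g 0 0 - a * g 1 0, ?_⟩
    have hdet : g 0 0 * g 1 1 - g 0 1 * g 1 0 = 1 := by
      have := g.det_coe
      rw [Matrix.det_fin_two] at this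
      exact this
    simp only
    linear_combination (a * v.1.1 + b * v.1.2) * hdet + hab⟩

@[simp] theorem mulSL_fst (v : Rows R) (g : SL(2, R)) :
    (v.mulSL g).1.1 = v.1.1 * g 0 0 + v.1.2 * g 1 0 := rfl
@[simp] theorem mulSL_snd (v : Rows R) (g : SL(2, R)) :
    (v.mulSL g).1.2 = v.1.1 * g 0 1 + v.1.2 * g 1 1 := rfl

theorem mulSL_one (v : Rows R) : v.mulSL 1 = v := by
  apply Rows.ext <;> simp

theorem mulSL_mul (v : Rows R) (g h : SL(2, R)) : v.mulSL (g * h) = (v.mulSL g).mulSL h := by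
  apply Rows.ext
  · simp only [mulSL_fst, mulSL_snd, Matrix.SpecialLinearGroup.coe_mul, Matrix.mul_apply,
      Fin.sum_univ_two]
    ring
  · simp only [mulSL_fst, mulSL_snd, Matrix.SpecialLinearGroup.coe_mul, Matrix.mul_apply,
      Fin.sum_univ_two]
    ring

theorem smul_mulSL (u : Rˣ) (v : Rows R) (g : SL(2, R)) : (u • v).mulSL g = u • v.mulSL g := by
  apply Rows.ext
  · simp only [mulSL_fst, smul_fst, smul_snd]; ring
  · simp only [mulSL_snd, smul_fst, smul_snd]; ring

end Rows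

variable (R) in
/-- the projective line over `R`: unimodular rows modulo units. -/
def P1 : Type _ := MulAction.orbitRel.Quotient Rˣ (Rows R)

namespace P1

/-- the class of a unimodular row. -/
def mk (v : Rows R) : P1 R := Quotient.mk'' v

theorem mk_surjective : Function.Surjective (mk (R := R)) := Quotient.mk''_surjective

theorem mk_eq_mk {v w : Rows R} : mk v = mk w ↔ ∃ u : Rˣ, u • w = v := by
  show (Quotient.mk'' v : MulAction.orbitRel.Quotient Rˣ (Rows R)) = Quotient.mk'' w ↔ _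
  rw [Quotient.eq'']
  exact MulAction.orbitRel_apply.trans MulAction.mem_orbit_iff

theorem mk_smul (u : Rˣ) (v : Rows R) : mk (u • v) = mk v :=
  mk_eq_mk.mpr ⟨u, rfl⟩

/-- right action of `SL(2, R)` on `P¹(R)`. -/
def act (g : SL(2, R)) : P1 R → P1 R :=
  Quotient.map' (fun v => v.mulSL g) (by
    intro v w h
    rw [MulAction.orbitRel_apply, MulAction.mem_orbit_iff] at h ⊢
    obtain ⟨u, rfl⟩ := h
    exact ⟨u, (Rows.smul_mulSL u w g).symm⟩)

@[simp] theorem act_mk (g : SL(2, R)) (v : Rows R) : act g (mk v) = mk (v.mulSL g) := rfl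

theorem act_one (x : P1 R) : act 1 x = x := by
  obtain ⟨v, rfl⟩ := mk_surjective x
  rw [act_mk, Rows.mulSL_one]

theorem act_mul (g h : SL(2, R)) (x : P1 R) : act (g * h) x = act h (act g x) := by
  obtain ⟨v, rfl⟩ := mk_surjective x
  rw [act_mk, act_mk, act_mk, Rows.mulSL_mul]

theorem act_bijective (g : SL(2, R)) : Function.Bijective (act (R := R) g) := by
  refine Function.bijective_iff_has_inverse.mpr ⟨act g⁻¹, fun x => ?_, fun x => ?_⟩
  · rw [← act_mul, mul_inv_cancel, act_one]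
  · rw [← act_mul, inv_mul_cancel, act_one]

end P1

end Fermat.Agent.S24x
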