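import Fermat.Agent.S24x.P1Basic

/-!
# S24 project: fixed points of `S` and `ST` on `P¹(R)`

`Fix(S) ≃ {u | u² + 1 = 0}` and `Fix(ST) ≃ {u | u² + u + 1 = 0}`.
-/

set_option autoImplicit false

namespace Fermat.Agent.S24x

open scoped MatrixGroups

variable {R : Type*} [CommRing R]

variable (R) in
/-- the image of `S = [[0,-1],[1,0]]` in `SL(2, R)`. -/
def sSL : SL(2, R) := Matrix.SpecialLinearGroup.map (Int.castRingHom R) ModularGroup.S

variable (R) in
/-- the image of `T = [[1,1],[0,1]]` in `SL(2, R)`. -/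
def tSL : SL(2, R) := Matrix.SpecialLinearGroup.map (Int.castRingHom R) ModularGroup.T

@[simp] theorem sSL_00 : sSL R 0 0 = 0 := by simp [sSL, ModularGroup.S]
@[simp] theorem sSL_01 : sSL R 0 1 = -1 := by simp [sSL, ModularGroup.S]
@[simp] theorem sSL_10 : sSL R 1 0 = 1 := by simp [sSL, ModularGroup.S]
@[simp] theorem sSL_11 : sSL R 1 1 = 0 := by simp [sSL, ModularGroup.S]
@[simp] theorem tSL_00 : tSL R 0 0 = 1 := by simp [tSL, ModularGroup.T]
@[simp] theorem tSL_01 : tSL R 0 1 = 1 := by simp [tSL, ModularGroup.T]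
@[simp] theorem tSL_10 : tSL R 1 0 = 0 := by simp [tSL, ModularGroup.T]
@[simp] theorem tSL_11 : tSL R 1 1 = 1 := by simp [tSL, ModularGroup.T]

theorem Rows.mulSL_sSL_fst (v : Rows R) : (v.mulSL (sSL R)).1.1 = v.1.2 := by simp
theorem Rows.mulSL_sSL_snd (v : Rows R) : (v.mulSL (sSL R)).1.2 = -v.1.1 := by simp
theorem Rows.mulSL_tSL_fst (v : Rows R) : (v.mulSL (tSL R)).1.1 = v.1.1 := by simp
theorem Rows.mulSL_tSL_snd (v : Rows R) : (v.mulSL (tSL R)).1.2 = v.1.1 + v.1.2 := by simp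

theorem Rows.mulSL_sSL_mul_tSL_fst (v : Rows R) : (v.mulSL (sSL R * tSL R)).1.1 = v.1.2 := by
  rw [Rows.mulSL_mul]; simp
theorem Rows.mulSL_sSL_mul_tSL_snd (v : Rows R) :
    (v.mulSL (sSL R * tSL R)).1.2 = -v.1.1 + v.1.2 := by
  rw [Rows.mulSL_mul]; simp [add_comm]

/-- the row `(1, u)`. -/
def Rows.oneCol (u : R) : Rows R := ⟨(1, u), ⟨1, 0, by simp⟩⟩

@[simp] theorem Rows.oneCol_fst (u : R) : (Rows.oneCol u).1.1 = 1 := rfl
@[simp] theorem Rows.oneCol_snd (u : R) : (Rows.oneCol u).1.2 = u := rfl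

theorem P1.mk_oneCol_injective : Function.Injective fun u : R => P1.mk (Rows.oneCol u) := by
  intro u u' h
  obtain ⟨w, hw⟩ := P1.mk_eq_mk.mp h
  have h1 : (w : R) * 1 = 1 := congrArg (fun z : Rows R => z.1.1) hw
  have h2 : (w : R) * u' = u := congrArg (fun z : Rows R => z.1.2) hw
  rw [mul_one] at h1
  rw [h1, one_mul] at h2
  exact h2.symm

/-- a point `(c : d)` with `d = w c` is `(1 : w)`. -/
theorem P1.mk_eq_mk_oneCol {v : Rows R} {w : R} (h : v.1.2 = w * v.1.1) :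
    P1.mk v = P1.mk (Rows.oneCol w) := by
  obtain ⟨a, b, hab⟩ := v.2
  have hc : v.1.1 * (a + b * w) = 1 := by rw [h] at hab; linear_combination hab
  let c : Rˣ := ⟨v.1.1, a + b * w, hc, by rw [mul_comm]; exact hc⟩
  refine P1.mk_eq_mk.mpr ⟨c, ?_⟩
  apply Rows.ext
  · simp [c]
  · simp only [Rows.smul_snd, Rows.oneCol_snd, c, h]
    ring

/-- **Fixed points of `S`** on `P¹(R)` are in bijection with the roots of `x² + 1`. -/
noncomputable def P1.fixSEquiv :
    {u : R // u ^ 2 + 1 = 0} ≃ {x : P1 R // P1.act (sSL R) x = x} := by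
  refine Equiv.ofBijective (fun u => ⟨P1.mk (Rows.oneCol u.1), ?_⟩) ⟨?_, ?_⟩
  · -- `(1, u) S = (u, -1) = u (1, u)`
    have hu : u.1 * (-u.1) = 1 := by linear_combination (-1 : R) * u.2
    let w : Rˣ := ⟨u.1, -u.1, hu, by rw [mul_comm]; exact hu⟩
    rw [P1.act_mk]
    refine P1.mk_eq_mk.mpr ⟨w, ?_⟩
    apply Rows.ext
    · simp [w]
    · simp only [Rows.smul_snd, Rows.oneCol_snd, Rows.mulSL_sSL_snd, Rows.oneCol_fst, w]
      linear_combination u.2
  · intro u u' h
    exact Subtype.ext (P1.mk_oneCol_injective (congrArg Subtype.val h))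
  · rintro ⟨x, hx⟩
    obtain ⟨v, rfl⟩ := P1.mk_surjective x
    rw [P1.act_mk] at hx
    obtain ⟨w, hw⟩ := P1.mk_eq_mk.mp hx
    -- `w • v = v S = (d, -c)`
    have h1 : (w : R) * v.1.1 = v.1.2 := by
      have := congrArg (fun z : Rows R => z.1.1) hw
      simpa using this
    have h2 : (w : R) * v.1.2 = -v.1.1 := by
      have := congrArg (fun z : Rows R => z.1.2) hw
      simpa using this
    obtain ⟨a, b, hab⟩ := v.2
    have hc : v.1.1 * (a + b * w) = 1 := by rw [← h1] at hab; linear_combination hab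
    have hroot : (w : R) ^ 2 + 1 = 0 := by
      have : v.1.1 * ((w : R) ^ 2 + 1) = 0 := by
        rw [← h1] at h2; linear_combination h2
      calc (w : R) ^ 2 + 1 = (v.1.1 * (a + b * w)) * ((w : R) ^ 2 + 1) := by rw [hc, one_mul]
        _ = (a + b * w) * (v.1.1 * ((w : R) ^ 2 + 1)) := by ring
        _ = 0 := by rw [this, mul_zero]
    refine ⟨⟨w, hroot⟩, Subtype.ext ?_⟩
    exact (P1.mk_eq_mk_oneCol h1.symm).symm

/-- **Fixed points of `ST`** on `P¹(R)` are in bijection with the roots of `x² + x + 1`. -/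
noncomputable def P1.fixSTEquiv :
    {u : R // u ^ 2 + u + 1 = 0} ≃ {x : P1 R // P1.act (sSL R * tSL R) x = x} := by
  refine Equiv.ofBijective (fun u => ⟨P1.mk (Rows.oneCol (-u.1)), ?_⟩) ⟨?_, ?_⟩
  · -- `(1, -u) ST = (-u, -1 - u) = (-u) (1, -u)`
    have hu : (-u.1) * (u.1 + 1) = 1 := by linear_combination (-1 : R) * u.2
    let w : Rˣ := ⟨-u.1, u.1 + 1, hu, by rw [mul_comm]; exact hu⟩
    rw [P1.act_mk]
    refine P1.mk_eq_mk.mpr ⟨w, ?_⟩
    apply Rows.ext
    · rw [Rows.mulSL_sSL_mul_tSL_fst]; simp [w]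
    · rw [Rows.mulSL_sSL_mul_tSL_snd]
      simp only [Rows.smul_snd, Rows.oneCol_snd, Rows.oneCol_fst, w]
      linear_combination u.2
  · intro u u' h
    have := P1.mk_oneCol_injective (congrArg Subtype.val h)
    exact Subtype.ext (neg_injective this)
  · rintro ⟨x, hx⟩
    obtain ⟨v, rfl⟩ := P1.mk_surjective x
    rw [P1.act_mk] at hx
    obtain ⟨w, hw⟩ := P1.mk_eq_mk.mp hx
    have h1 : (w : R) * v.1.1 = v.1.2 := by
      have := congrArg (fun z : Rows R => z.1.1) hw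
      rw [Rows.mulSL_sSL_mul_tSL_fst] at this
      simpa using this
    have h2 : (w : R) * v.1.2 = -v.1.1 + v.1.2 := by
      have := congrArg (fun z : Rows R => z.1.2) hw
      rw [Rows.mulSL_sSL_mul_tSL_snd] at this
      simpa using this
    obtain ⟨a, b, hab⟩ := v.2
    have hc : v.1.1 * (a + b * w) = 1 := by rw [← h1] at hab; linear_combination hab
    have hroot : (-(w : R)) ^ 2 + (-(w : R)) + 1 = 0 := by
      have : v.1.1 * ((-(w : R)) ^ 2 + (-(w : R)) + 1) = 0 := by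
        rw [← h1] at h2; linear_combination h2
      calc (-(w : R)) ^ 2 + (-(w : R)) + 1
          = (v.1.1 * (a + b * w)) * ((-(w : R)) ^ 2 + (-(w : R)) + 1) := by rw [hc, one_mul]
        _ = (a + b * w) * (v.1.1 * ((-(w : R)) ^ 2 + (-(w : R)) + 1)) := by ring
        _ = 0 := by rw [this, mul_zero]
    refine ⟨⟨-(w : R), hroot⟩, Subtype.ext ?_⟩
    simp only [neg_neg]
    exact (P1.mk_eq_mk_oneCol h1.symm).symm

end Fermat.Agent.S24x
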