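import Mathlib

/-!
# S24 project, module D4: parity and Ree's inequality for three permutations with product one

* `orbCount σ` : number of cycles of a permutation, fixed points included.
* `ree_ineq`   : if `s * u * t = 1` and `⟨s, u, t⟩` is transitive on the finite set `X`, then
  `orbCount s + orbCount u + orbCount t ≤ |X| + 2`  (Ree's theorem, via Scott's lemma on `X → ℚ`).
* `ree_parity` : `|X| + orbCount s + orbCount u + orbCount t` is even (signature).
-/

set_option autoImplicit false

namespace Fermat.Agent.S24x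

open Module Equiv.Perm

section Scott

variable {k V : Type*} [Field k] [AddCommGroup V] [Module k V] [FiniteDimensional k V]

/-- Scott's lemma (rank form). -/
theorem pr_scott_rank (A B C : V →ₗ[k] V) (h : A ∘ₗ B ∘ₗ C = LinearMap.id) :
    finrank k V +
      finrank k ↥(LinearMap.range (LinearMap.id - A) ⊔ LinearMap.range (LinearMap.id - B) ⊔
        LinearMap.range (LinearMap.id - C)) ≤
    finrank k ↥(LinearMap.range (LinearMap.id - A)) + finrank k ↥(LinearMap.range (LinearMap.id - B)) +
      finrank k ↥(LinearMap.range (LinearMap.id - C)) +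
      finrank k ↥(LinearMap.ker (LinearMap.id - A) ⊓ LinearMap.ker (LinearMap.id - B) ⊓
        LinearMap.ker (LinearMap.id - C)) := by
  set RA := LinearMap.range (LinearMap.id - A) with hRA
  set RB := LinearMap.range (LinearMap.id - B) with hRB
  set RC := LinearMap.range (LinearMap.id - C) with hRC
  -- β : V → RA × RB × RC
  obtain ⟨β, hβ⟩ : ∃ β : V →ₗ[k] (RA × RB × RC), ∀ v,
      ((β v).1 : V) = v - A v ∧ ((β v).2.1 : V) = v - B v ∧ ((β v).2.2 : V) = v - C v :=
    ⟨LinearMap.prod ((LinearMap.id - A).rangeRestrict)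
      (LinearMap.prod ((LinearMap.id - B).rangeRestrict) ((LinearMap.id - C).rangeRestrict)),
      fun v => ⟨rfl, rfl, rfl⟩⟩
  -- δ : RA × RB × RC → V
  obtain ⟨δ, hδ⟩ : ∃ δ : (RA × RB × RC) →ₗ[k] V, ∀ x,
      δ x = (x.1 : V) + (A (x.2.1 : V) + A (B (x.2.2 : V))) :=
    ⟨LinearMap.coprod RA.subtype (LinearMap.coprod (A ∘ₗ RB.subtype) (A ∘ₗ B ∘ₗ RC.subtype)),
      fun x => rfl⟩
  have hABC : ∀ v, A (B (C v)) = v := fun v => by
    have := LinearMap.congr_fun h v
    simpa using this
  have hδβ : ∀ v, δ (β v) = 0 := by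
    intro v
    obtain ⟨h1, h2, h3⟩ := hβ v
    rw [hδ, h1, h2, h3, map_sub, map_sub, map_sub, hABC]
    abel
  have h1 : finrank k ↥(LinearMap.range β) ≤ finrank k ↥(LinearMap.ker δ) := by
    apply Submodule.finrank_mono
    rintro _ ⟨v, rfl⟩
    exact hδβ v
  have h2 : finrank k ↥(LinearMap.ker β) ≤
      finrank k ↥(LinearMap.ker (LinearMap.id - A) ⊓ LinearMap.ker (LinearMap.id - B) ⊓
        LinearMap.ker (LinearMap.id - C)) := by
    apply Submodule.finrank_mono
    intro v hv
    have hv' : β v = 0 := hv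
    obtain ⟨e1, e2, e3⟩ := hβ v
    rw [hv'] at e1 e2 e3
    simp only [Submodule.mem_inf, LinearMap.mem_ker, LinearMap.sub_apply, LinearMap.id_apply]
    exact ⟨⟨e1.symm, e2.symm⟩, e3.symm⟩
  have h3 : finrank k ↥(RA ⊔ RB ⊔ RC) ≤ finrank k ↥(LinearMap.range δ) := by
    apply Submodule.finrank_mono
    refine sup_le (sup_le ?_ ?_) ?_
    · intro x hx
      refine ⟨(⟨x, hx⟩, 0, 0), ?_⟩
      rw [hδ]; simp
    · intro y hy
      have hy1 : y - A y ∈ RA := ⟨y, rfl⟩
      refine ⟨(⟨y - A y, hy1⟩, ⟨y, hy⟩, 0), ?_⟩
      rw [hδ]; simp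
    · intro z hz
      have hz1 : z - A z ∈ RA := ⟨z, rfl⟩
      have hz2 : z - B z ∈ RB := ⟨z, rfl⟩
      refine ⟨(⟨z - A z, hz1⟩, ⟨z - B z, hz2⟩, ⟨z, hz⟩), ?_⟩
      rw [hδ]
      simp only [map_sub]
      abel
  have h4 := LinearMap.finrank_range_add_finrank_ker β
  have h5 := LinearMap.finrank_range_add_finrank_ker δ
  have h6 : finrank k (RA × RB × RC) = finrank k RA + (finrank k RB + finrank k RC) := by
    rw [Module.finrank_prod, Module.finrank_prod]
  omega

end Scott

/-- number of cycles of `σ`, fixed points included (= number of orbits of `⟨σ⟩`). -/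
noncomputable def orbCount {X : Type*} (σ : Equiv.Perm X) : ℕ :=
  Nat.card (Quotient (Equiv.Perm.SameCycle.setoid σ))

theorem orbCount_inv {X : Type*} (σ : Equiv.Perm X) : orbCount σ⁻¹ = orbCount σ := by
  unfold orbCount
  apply Nat.card_congr
  refine Quotient.congr (Equiv.refl X) ?_
  intro a b
  exact Equiv.Perm.sameCycle_inv

section PermModule

variable {X : Type*}

/-- the permutation operator `f ↦ f ∘ σ` on `X → ℚ`. -/
noncomputable def prPermOp (σ : Equiv.Perm X) : (X → ℚ) →ₗ[ℚ] (X → ℚ) := LinearMap.funLeft ℚ ℚ σ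

theorem pr_permOp_apply (σ : Equiv.Perm X) (f : X → ℚ) (x : X) : prPermOp σ f x = f (σ x) := rfl

theorem pr_permOp_mul (σ τ : Equiv.Perm X) : prPermOp (σ * τ) = prPermOp τ ∘ₗ prPermOp σ := by
  ext f x
  rfl

theorem pr_permOp_one : prPermOp (1 : Equiv.Perm X) = LinearMap.id := by
  ext f x
  rfl

theorem pr_mem_ker_id_sub_permOp (σ : Equiv.Perm X) (f : X → ℚ) :
    f ∈ LinearMap.ker (LinearMap.id - prPermOp σ) ↔ ∀ x, f (σ x) = f x := by
  rw [LinearMap.mem_ker, LinearMap.sub_apply, LinearMap.id_apply, sub_eq_zero]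
  constructor
  · intro h x
    exact (congrFun h x).symm
  · intro h
    funext x
    exact (h x).symm

theorem pr_invariant_zpow (σ : Equiv.Perm X) (f : X → ℚ) (h : ∀ x, f (σ x) = f x) (i : ℤ) :
    ∀ x : X, f ((σ ^ i) x) = f x := by
  have hinv : ∀ y, f (σ⁻¹ y) = f y := fun y => by
    have h1 := h (σ⁻¹ y)
    have h2 : σ (σ⁻¹ y) = y := by simp
    rw [h2] at h1
    exact h1.symm
  induction i using Int.induction_on with
  | zero => intro x; simp
  | succ n ih =>
    intro x
    rw [zpow_add_one, Equiv.Perm.mul_apply, ih, h]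
  | pred n ih =>
    intro x
    rw [zpow_sub_one, Equiv.Perm.mul_apply, ih, hinv]

/-- the fixed space of `prPermOp σ` has dimension `orbCount σ`. -/
theorem pr_finrank_ker_id_sub_permOp [Finite X] (σ : Equiv.Perm X) :
    finrank ℚ ↥(LinearMap.ker (LinearMap.id - prPermOp σ)) = orbCount σ := by
  classical
  haveI : Fintype X := Fintype.ofFinite X
  set Q := Quotient (Equiv.Perm.SameCycle.setoid σ) with hQ
  haveI : Finite Q := Quotient.finite _
  haveI : Fintype Q := Fintype.ofFinite Q
  let π : X → Q := Quotient.mk _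
  have hπ : Function.Surjective π := Quotient.mk_surjective
  let φ : (Q → ℚ) →ₗ[ℚ] (X → ℚ) := LinearMap.funLeft ℚ ℚ π
  have hφ : Function.Injective φ := LinearMap.funLeft_injective_of_surjective ℚ ℚ π hπ
  have hrange : LinearMap.range φ = LinearMap.ker (LinearMap.id - prPermOp σ) := by
    ext f
    rw [pr_mem_ker_id_sub_permOp]
    constructor
    · rintro ⟨g, rfl⟩ x
      show g (π (σ x)) = g (π x)
      congr 1
      apply Quotient.sound
      exact ⟨-1, by simp⟩
    · intro h
      refine ⟨Quotient.lift f ?_, ?_⟩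
      · rintro a b ⟨i, rfl⟩
        exact (pr_invariant_zpow σ f h i a).symm
      · funext x
        rfl
  rw [← hrange, LinearMap.finrank_range_of_inj hφ, Module.finrank_fintype_fun_eq_card, orbCount,
    Nat.card_eq_fintype_card]


/-- invariants of a transitive set of permutations are constant functions -/
theorem pr_invariant_const_of_transitive (S : Set (Equiv.Perm X))
    (htr : ∀ x y : X, ∃ g ∈ Subgroup.closure S, g x = y)
    (f : X → ℚ) (hf : ∀ σ ∈ S, ∀ x, f (σ x) = f x) (x y : X) : f x = f y := by
  have key : ∀ g ∈ Subgroup.closure S, ∀ z, f (g z) = f z := by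
    intro g hg
    induction hg using Subgroup.closure_induction with
    | mem σ hσ => exact hf σ hσ
    | one => intro z; rfl
    | mul a b _ _ iha ihb => intro z; rw [Equiv.Perm.mul_apply, iha, ihb]
    | inv a _ iha =>
      intro z
      have h1 := iha (a⁻¹ z)
      have h2 : a (a⁻¹ z) = z := by simp
      rw [h2] at h1
      exact h1.symm
  obtain ⟨g, hg, rfl⟩ := htr x y
  exact (key g hg x).symm

theorem pr_single_sub_single_mem_range [DecidableEq X] (σ : Equiv.Perm X) (x : X) :
    (Pi.single (σ x) (1 : ℚ) - Pi.single x (1 : ℚ) : X → ℚ) ∈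
      LinearMap.range (LinearMap.id - prPermOp σ) := by
  refine ⟨Pi.single (σ x) (1 : ℚ), ?_⟩
  funext z
  simp only [LinearMap.sub_apply, LinearMap.id_apply, Pi.sub_apply, pr_permOp_apply]
  congr 1
  by_cases hz : z = x
  · subst hz; simp
  · rw [Pi.single_eq_of_ne hz, Pi.single_eq_of_ne]
    intro h
    exact hz (σ.injective h)

/-- **Ree's inequality** for three permutations with product one generating a transitive group:
the total number of cycles is at most `|X| + 2`. -/
theorem ree_ineq [Fintype X] [Nonempty X] (s u t : Equiv.Perm X) (h : s * u * t = 1)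
    (htr : ∀ x y : X, ∃ g ∈ Subgroup.closure ({s, u, t} : Set (Equiv.Perm X)), g x = y) :
    orbCount s + orbCount u + orbCount t ≤ Fintype.card X + 2 := by
  classical
  have hABC : prPermOp t ∘ₗ prPermOp u ∘ₗ prPermOp s = LinearMap.id := by
    rw [← pr_permOp_mul, ← pr_permOp_mul, h, pr_permOp_one]
  have hscott := pr_scott_rank (prPermOp t) (prPermOp u) (prPermOp s) hABC
  have hV : finrank ℚ (X → ℚ) = Fintype.card X := Module.finrank_fintype_fun_eq_card ℚ
  have hs := LinearMap.finrank_range_add_finrank_ker (LinearMap.id - prPermOp s)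
  have hu := LinearMap.finrank_range_add_finrank_ker (LinearMap.id - prPermOp u)
  have ht := LinearMap.finrank_range_add_finrank_ker (LinearMap.id - prPermOp t)
  rw [pr_finrank_ker_id_sub_permOp, hV] at hs hu ht
  -- invariants are constants
  have hinv : finrank ℚ ↥(LinearMap.ker (LinearMap.id - prPermOp t) ⊓
      LinearMap.ker (LinearMap.id - prPermOp u) ⊓ LinearMap.ker (LinearMap.id - prPermOp s)) ≤ 1 := by
    have hle : LinearMap.ker (LinearMap.id - prPermOp t) ⊓
        LinearMap.ker (LinearMap.id - prPermOp u) ⊓ LinearMap.ker (LinearMap.id - prPermOp s) ≤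
        Submodule.span ℚ {(fun _ => (1 : ℚ) : X → ℚ)} := by
      rintro f ⟨⟨hft, hfu⟩, hfs⟩
      rw [SetLike.mem_coe, pr_mem_ker_id_sub_permOp] at hft hfu hfs
      obtain ⟨x0⟩ := ‹Nonempty X›
      rw [Submodule.mem_span_singleton]
      refine ⟨f x0, ?_⟩
      funext y
      have : f y = f x0 := by
        apply pr_invariant_const_of_transitive _ htr f
        intro σ hσ
        rcases hσ with rfl | rfl | rfl
        · exact hfs
        · exact hfu
        · exact hft
      simp [this]
    calc _ ≤ finrank ℚ ↥(Submodule.span ℚ {(fun _ => (1 : ℚ) : X → ℚ)}) :=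
          Submodule.finrank_mono hle
      _ ≤ 1 := by
          refine (finrank_span_le_card _).trans ?_
          simp
  -- the sum of the ranges has codimension at most one
  have hW : Fintype.card X ≤ finrank ℚ ↥(LinearMap.range (LinearMap.id - prPermOp t) ⊔
      LinearMap.range (LinearMap.id - prPermOp u) ⊔ LinearMap.range (LinearMap.id - prPermOp s)) + 1 := by
    set W := LinearMap.range (LinearMap.id - prPermOp t) ⊔
      LinearMap.range (LinearMap.id - prPermOp u) ⊔ LinearMap.range (LinearMap.id - prPermOp s) with hWdef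
    obtain ⟨x0⟩ := ‹Nonempty X›
    -- relation: e_x - e_y ∈ W
    have hgen : ∀ σ ∈ ({s, u, t} : Set (Equiv.Perm X)), ∀ x,
        (Pi.single (σ x) (1 : ℚ) - Pi.single x (1 : ℚ) : X → ℚ) ∈ W := by
      intro σ hσ x
      rcases hσ with rfl | rfl | rfl
      · exact Submodule.mem_sup_right (pr_single_sub_single_mem_range _ x)
      · exact Submodule.mem_sup_left (Submodule.mem_sup_right (pr_single_sub_single_mem_range _ x))
      · exact Submodule.mem_sup_left (Submodule.mem_sup_left (pr_single_sub_single_mem_range _ x))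
    have hcl : ∀ g ∈ Subgroup.closure ({s, u, t} : Set (Equiv.Perm X)), ∀ x,
        (Pi.single (g x) (1 : ℚ) - Pi.single x (1 : ℚ) : X → ℚ) ∈ W := by
      intro g hg
      induction hg using Subgroup.closure_induction with
      | mem σ hσ => exact hgen σ hσ
      | one => intro x; simp
      | mul a b _ _ iha ihb =>
        intro x
        have := W.add_mem (iha (b x)) (ihb x)
        rw [Equiv.Perm.mul_apply]
        convert this using 1
        abel
      | inv a _ iha =>
        intro x
        have h1 := iha (a⁻¹ x)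
        have h2 : a (a⁻¹ x) = x := by simp
        rw [h2] at h1
        have := W.neg_mem h1
        convert this using 1
        abel
    have htop : W ⊔ Submodule.span ℚ {(Pi.single x0 (1 : ℚ) : X → ℚ)} = ⊤ := by
      rw [eq_top_iff]
      intro f _
      have hf : f = ∑ x, f x • (Pi.single x (1 : ℚ) : X → ℚ) := by
        funext y
        simp [Finset.sum_apply, Pi.single_apply]
      rw [hf]
      apply Submodule.sum_mem
      intro x _
      apply Submodule.smul_mem
      obtain ⟨g, hg, hgx⟩ := htr x0 x
      have h1 := hcl g hg x0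
      rw [hgx] at h1
      have h2 : (Pi.single x (1 : ℚ) : X → ℚ) =
          (Pi.single x (1 : ℚ) - Pi.single x0 (1 : ℚ)) + Pi.single x0 (1 : ℚ) := by abel
      rw [h2]
      exact Submodule.add_mem _ (Submodule.mem_sup_left h1)
        (Submodule.mem_sup_right (Submodule.mem_span_singleton_self _))
    have h1 : finrank ℚ (↥(W ⊔ Submodule.span ℚ {(Pi.single x0 (1 : ℚ) : X → ℚ)})) ≤
        finrank ℚ ↥W + finrank ℚ ↥(Submodule.span ℚ {(Pi.single x0 (1 : ℚ) : X → ℚ)}) :=
      Submodule.finrank_add_le_finrank_add_finrank _ _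
    have h2 : finrank ℚ ↥(Submodule.span ℚ {(Pi.single x0 (1 : ℚ) : X → ℚ)}) ≤ 1 := by
      refine (finrank_span_le_card _).trans ?_
      simp
    rw [htop, finrank_top, hV] at h1
    omega
  omega

end PermModule

section Bridge

variable {X : Type*} [Fintype X] [DecidableEq X]

/-- The number of cycles (fixed points included) in terms of `cycleType`. -/
theorem orbCount_eq_cycleType (σ : Equiv.Perm X) :
    orbCount σ = Multiset.card σ.cycleType + (Fintype.card X - σ.support.card) := by
  classical
  set Q := Quotient (Equiv.Perm.SameCycle.setoid σ) with hQ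
  -- the classifying map on `X`
  let F : X → {c // c ∈ σ.cycleFactorsFinset} ⊕ Function.fixedPoints σ := fun x =>
    if h : σ x = x then Sum.inr ⟨x, h⟩
    else Sum.inl ⟨σ.cycleOf x, cycleOf_mem_cycleFactorsFinset_iff.2 (mem_support.2 h)⟩
  have hF_fix : ∀ x (h : σ x = x), F x = Sum.inr ⟨x, h⟩ := fun x h => dif_pos h
  have hF_mov : ∀ x (h : ¬ σ x = x), F x =
      Sum.inl ⟨σ.cycleOf x, cycleOf_mem_cycleFactorsFinset_iff.2 (mem_support.2 h)⟩ :=
    fun x h => dif_neg h
  have hcompat : ∀ a b : X, (Equiv.Perm.SameCycle.setoid σ).r a b → F a = F b := by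
    intro a b hab
    have hab' : σ.SameCycle a b := hab
    by_cases ha : σ a = a
    · have : a = b := hab'.eq_of_left ha
      subst this
      rfl
    · have hb : ¬ σ b = b := fun hb => ha (hab'.apply_eq_self_iff.2 hb)
      rw [hF_mov a ha, hF_mov b hb]
      congr 1
      exact Subtype.ext hab'.cycleOf_eq
  let Φ : Q → {c // c ∈ σ.cycleFactorsFinset} ⊕ Function.fixedPoints σ := Quotient.lift F hcompat
  have hΦ : ∀ x, Φ (Quotient.mk _ x) = F x := fun x => rfl
  have hbij : Function.Bijective Φ := by
    constructor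
    · intro q₁ q₂
      induction q₁ using Quotient.inductionOn with | _ x => ?_
      induction q₂ using Quotient.inductionOn with | _ y => ?_
      intro h
      rw [hΦ, hΦ] at h
      apply Quotient.sound
      show σ.SameCycle x y
      by_cases hx : σ x = x
      · by_cases hy : σ y = y
        · rw [hF_fix x hx, hF_fix y hy] at h
          have : x = y := congrArg Subtype.val (Sum.inr.inj h)
          subst this
          exact SameCycle.refl _ _
        · rw [hF_fix x hx, hF_mov y hy] at h
          cases h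
      · by_cases hy : σ y = y
        · rw [hF_mov x hx, hF_fix y hy] at h
          cases h
        · rw [hF_mov x hx, hF_mov y hy] at h
          have h1 : σ.cycleOf x = σ.cycleOf y := congrArg Subtype.val (Sum.inl.inj h)
          have h2 : y ∈ (σ.cycleOf y).support :=
            mem_support_cycleOf_iff.2 ⟨SameCycle.refl _ _, mem_support.2 hy⟩
          rw [← h1] at h2
          exact (mem_support_cycleOf_iff.1 h2).1
    · rintro (⟨c, hc⟩ | ⟨x, hx⟩)
      · have hcyc : c.IsCycle := (mem_cycleFactorsFinset_iff.1 hc).1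
        obtain ⟨a, ha⟩ := hcyc.nonempty_support
        have hca : c = σ.cycleOf a := cycle_is_cycleOf ha hc
        have haσ : a ∈ σ.support := mem_cycleFactorsFinset_support_le hc ha
        refine ⟨Quotient.mk _ a, ?_⟩
        rw [hΦ, hF_mov a (mem_support.1 haσ)]
        congr 1
        exact Subtype.ext hca.symm
      · refine ⟨Quotient.mk _ x, ?_⟩
        rw [hΦ, hF_fix x hx]
  haveI : Finite Q := Quotient.finite _
  haveI : Fintype Q := Fintype.ofFinite Q
  rw [orbCount, Nat.card_eq_fintype_card, Fintype.card_of_bijective hbij, Fintype.card_sum,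
    Fintype.card_coe, card_fixedPoints, sum_cycleType, cycleType_def, Multiset.card_map]
  rfl

end Bridge

section Parity

variable {X : Type*} [Fintype X] [DecidableEq X]

/-- the signature in terms of the number of cycles -/
theorem sign_eq_neg_one_pow_orbCount (σ : Equiv.Perm X) :
    Equiv.Perm.sign σ = (-1 : ℤˣ) ^ (Fintype.card X + orbCount σ) := by
  rw [orbCount_eq_cycleType, Equiv.Perm.sign_of_cycleType, Equiv.Perm.sum_cycleType]
  have hle : σ.support.card ≤ Fintype.card X := Finset.card_le_univ _
  have e : Fintype.card X + (Multiset.card σ.cycleType + (Fintype.card X - σ.support.card)) =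
      (σ.support.card + Multiset.card σ.cycleType) + 2 * (Fintype.card X - σ.support.card) := by
    omega
  rw [e, pow_add (-1 : ℤˣ) (σ.support.card + Multiset.card σ.cycleType), pow_mul, neg_one_sq,
    one_pow, mul_one]

/-- **Parity**: for three permutations with product one, `|X| + (total number of cycles)` is even. -/
theorem ree_parity (s u t : Equiv.Perm X) (h : s * u * t = 1) :
    Even (Fintype.card X + orbCount s + orbCount u + orbCount t) := by
  have h1 : Equiv.Perm.sign (s * u * t) = 1 := by rw [h, map_one]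
  rw [map_mul, map_mul, sign_eq_neg_one_pow_orbCount, sign_eq_neg_one_pow_orbCount,
    sign_eq_neg_one_pow_orbCount, ← pow_add, ← pow_add] at h1
  have hne : (-1 : ℤˣ) ≠ 1 := by decide
  have h2 := (neg_one_pow_eq_one_iff_even hne).1 h1
  have e : Fintype.card X + orbCount s + (Fintype.card X + orbCount u) +
      (Fintype.card X + orbCount t) =
      (Fintype.card X + orbCount s + orbCount u + orbCount t) + 2 * Fintype.card X := by ring
  rw [e] at h2
  exact (Nat.even_add.1 h2).2 (even_two_mul _)

end Parity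

section Action

variable {G X : Type*} [Group G] [MulAction G X]

/-- orbits of `⟨g⟩` on `X` are the cycles of the permutation `x ↦ g • x`. -/
theorem card_orbitRel_zpowers_eq_orbCount (g : G) :
    Nat.card (MulAction.orbitRel.Quotient (Subgroup.zpowers g) X) =
      orbCount (MulAction.toPerm g : Equiv.Perm X) := by
  unfold orbCount MulAction.orbitRel.Quotient
  apply Nat.card_congr
  refine Quotient.congr (Equiv.refl X) ?_
  intro a b
  have hpow : ∀ i : ℤ, ∀ x : X, ((MulAction.toPerm g : Equiv.Perm X) ^ i) x = g ^ i • x := by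
    intro i x
    have : (MulAction.toPerm g : Equiv.Perm X) ^ i = MulAction.toPerm (g ^ i) :=
      (map_zpow (MulAction.toPermHom G X) g i).symm
    rw [this]
    rfl
  simp only [Equiv.refl_apply]
  constructor
  · intro hab
    have hab' : a ∈ MulAction.orbit (Subgroup.zpowers g) b := hab
    obtain ⟨⟨h, hh⟩, rfl⟩ := hab'
    obtain ⟨i, rfl⟩ := Subgroup.mem_zpowers_iff.1 hh
    show Equiv.Perm.SameCycle _ _ _
    refine Equiv.Perm.SameCycle.symm ⟨i, ?_⟩
    rw [hpow]
    rfl
  · intro hab
    have hab' : Equiv.Perm.SameCycle (MulAction.toPerm g : Equiv.Perm X) a b := hab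
    obtain ⟨i, hi⟩ := hab'.symm
    show a ∈ MulAction.orbit (Subgroup.zpowers g) b
    refine ⟨⟨g ^ i, Subgroup.zpow_mem_zpowers g i⟩, ?_⟩
    rw [← hi, hpow]
    rfl

/-- Ree's inequality and parity for a transitive action, three group elements with product one
generating the group (cycle counts of the induced permutations). -/
theorem ree_mulAction_orbCount [Finite X] [Nonempty X] [MulAction.IsPretransitive G X] (a b c : G)
    (habc : a * b * c = 1) (hgen : Subgroup.closure ({a, b, c} : Set G) = ⊤) :
    orbCount (MulAction.toPerm a : Equiv.Perm X) + orbCount (MulAction.toPerm b : Equiv.Perm X) +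
        orbCount (MulAction.toPerm c : Equiv.Perm X) ≤ Nat.card X + 2 ∧
    Even (Nat.card X + orbCount (MulAction.toPerm a : Equiv.Perm X) +
        orbCount (MulAction.toPerm b : Equiv.Perm X) +
        orbCount (MulAction.toPerm c : Equiv.Perm X)) := by
  classical
  haveI : Fintype X := Fintype.ofFinite X
  rw [Nat.card_eq_fintype_card]
  have hprod : (MulAction.toPerm a : Equiv.Perm X) * MulAction.toPerm b * MulAction.toPerm c = 1 := by
    have := congrArg (MulAction.toPermHom G X) habc
    rwa [map_mul, map_mul, map_one] at this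
  refine ⟨ree_ineq _ _ _ hprod ?_, ree_parity _ _ _ hprod⟩
  intro x y
  obtain ⟨g, rfl⟩ := MulAction.exists_smul_eq G x y
  refine ⟨MulAction.toPermHom G X g, ?_, rfl⟩
  have hg : g ∈ Subgroup.closure ({a, b, c} : Set G) := by rw [hgen]; trivial
  have := Subgroup.mem_map_of_mem (MulAction.toPermHom G X) hg
  rw [MonoidHom.map_closure] at this
  convert this using 2
  simp [Set.image_insert_eq]

/-- the same, with orbits of the cyclic subgroups counted via `MulAction.orbitRel.Quotient`. -/
theorem ree_mulAction [Finite X] [Nonempty X] [MulAction.IsPretransitive G X] (a b c : G)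
    (habc : a * b * c = 1) (hgen : Subgroup.closure ({a, b, c} : Set G) = ⊤) :
    Nat.card (MulAction.orbitRel.Quotient (Subgroup.zpowers a) X) +
        Nat.card (MulAction.orbitRel.Quotient (Subgroup.zpowers b) X) +
        Nat.card (MulAction.orbitRel.Quotient (Subgroup.zpowers c) X) ≤ Nat.card X + 2 ∧
    Even (Nat.card X + Nat.card (MulAction.orbitRel.Quotient (Subgroup.zpowers a) X) +
        Nat.card (MulAction.orbitRel.Quotient (Subgroup.zpowers b) X) +
        Nat.card (MulAction.orbitRel.Quotient (Subgroup.zpowers c) X)) := by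
  rw [card_orbitRel_zpowers_eq_orbCount, card_orbitRel_zpowers_eq_orbCount,
    card_orbitRel_zpowers_eq_orbCount]
  exact ree_mulAction_orbCount a b c habc hgen

theorem orbCount_toPerm_inv (g : G) :
    orbCount (MulAction.toPerm g⁻¹ : Equiv.Perm X) = orbCount (MulAction.toPerm g : Equiv.Perm X) := by
  have : (MulAction.toPerm g⁻¹ : Equiv.Perm X) = (MulAction.toPerm g)⁻¹ :=
    map_inv (MulAction.toPermHom G X) g
  rw [this, orbCount_inv]

end Action


section Gamma0

open CongruenceSubgroup ModularGroup Matrix.SpecialLinearGroup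
open scoped MatrixGroups

/-- Ree's inequality and parity for the action of `S`, `S * T`, `T` on `SL(2,ℤ) ⧸ Γ₀(N)`. -/
theorem ree_Gamma0 (N : ℕ) [NeZero N] :
    Nat.card (MulAction.orbitRel.Quotient (Subgroup.zpowers S) (SL(2, ℤ) ⧸ Gamma0 N)) +
        Nat.card (MulAction.orbitRel.Quotient (Subgroup.zpowers (S * T)) (SL(2, ℤ) ⧸ Gamma0 N)) +
        Nat.card (MulAction.orbitRel.Quotient (Subgroup.zpowers T) (SL(2, ℤ) ⧸ Gamma0 N)) ≤
      Nat.card (SL(2, ℤ) ⧸ Gamma0 N) + 2 ∧
    Even (Nat.card (SL(2, ℤ) ⧸ Gamma0 N) +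
        Nat.card (MulAction.orbitRel.Quotient (Subgroup.zpowers S) (SL(2, ℤ) ⧸ Gamma0 N)) +
        Nat.card (MulAction.orbitRel.Quotient (Subgroup.zpowers (S * T)) (SL(2, ℤ) ⧸ Gamma0 N)) +
        Nat.card (MulAction.orbitRel.Quotient (Subgroup.zpowers T) (SL(2, ℤ) ⧸ Gamma0 N))) := by
  have habc : (S * T) * T⁻¹ * S⁻¹ = (1 : SL(2, ℤ)) := by group
  have hgen : Subgroup.closure ({S * T, T⁻¹, S⁻¹} : Set SL(2, ℤ)) = ⊤ := by
    rw [eq_top_iff, ← SpecialLinearGroup.SL2Z_generators, Subgroup.closure_le]
    intro g hg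
    rcases hg with rfl | rfl
    · have h1 : (S : SL(2, ℤ))⁻¹ ∈ Subgroup.closure ({S * T, T⁻¹, S⁻¹} : Set SL(2, ℤ)) :=
        Subgroup.subset_closure (by simp)
      have := Subgroup.inv_mem _ h1
      rwa [inv_inv] at this
    · have h1 : (T : SL(2, ℤ))⁻¹ ∈ Subgroup.closure ({S * T, T⁻¹, S⁻¹} : Set SL(2, ℤ)) :=
        Subgroup.subset_closure (by simp)
      have := Subgroup.inv_mem _ h1
      rwa [inv_inv] at this
  have key := ree_mulAction_orbCount (X := SL(2, ℤ) ⧸ Gamma0 N) (S * T) T⁻¹ S⁻¹ habc hgen
  rw [orbCount_toPerm_inv, orbCount_toPerm_inv] at key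
  have hcard : ∀ g : SL(2, ℤ),
      Nat.card (MulAction.orbitRel.Quotient (Subgroup.zpowers g) (SL(2, ℤ) ⧸ Gamma0 N)) =
        orbCount (MulAction.toPerm g : Equiv.Perm (SL(2, ℤ) ⧸ Gamma0 N)) :=
    fun g => card_orbitRel_zpowers_eq_orbCount g
  rw [hcard S, hcard (S * T), hcard T]
  obtain ⟨k1, k2⟩ := key
  refine ⟨by omega, ?_⟩
  convert k2 using 1
  ring

end Gamma0

end Fermat.Agent.S24x
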