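import Mathlib
import Fermat.Prelude.Def_AlgebraicCurve_DivisorClassGroup

/-!
# S24x / PlaceOfOrd : a `ℤ`-valued order function gives a `Place`

Pure algebra.  If `ν : F → ℤ` is multiplicative, ultrametric, trivial on `K` and nontrivial on `F`,
then `{f | f = 0 ∨ 0 ≤ ν f}` is the valuation ring of a place `v` of `F/K` and
`ν f = g * v.ord f` for a fixed integer `g > 0`.
-/

set_option autoImplicit false

noncomputable section

open AlgebraicCurve

namespace Fermat.Agent.S24x

variable {K F : Type*} [Field K] [Field F] [Algebra K F]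

/-- An abstract `ℤ`-valued order function on a field `F`, trivial on the constants `K`.
The value at `0` is irrelevant. -/
structure IsOrdFun (K : Type*) {F : Type*} [Field K] [Field F] [Algebra K F] (ν : F → ℤ) :
    Prop where
  mul : ∀ f g : F, f ≠ 0 → g ≠ 0 → ν (f * g) = ν f + ν g
  add : ∀ f g : F, f ≠ 0 → g ≠ 0 → f + g ≠ 0 → min (ν f) (ν g) ≤ ν (f + g)
  const : ∀ a : K, a ≠ 0 → ν (algebraMap K F a) = 0
  nontriv : ∃ f : F, f ≠ 0 ∧ ν f ≠ 0

namespace IsOrdFun

variable {ν : F → ℤ} (h : IsOrdFun K ν)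
include h

theorem map_one : ν 1 = 0 := by
  have := h.mul 1 1 one_ne_zero one_ne_zero
  rw [mul_one] at this
  omega

theorem map_neg_one : ν (-1) = 0 := by
  have h1 : (-1 : F) ≠ 0 := neg_ne_zero.mpr one_ne_zero
  have := h.mul (-1) (-1) h1 h1
  rw [neg_one_mul, neg_neg, h.map_one] at this
  omega

theorem map_neg (f : F) (hf : f ≠ 0) : ν (-f) = ν f := by
  have h1 : (-1 : F) ≠ 0 := neg_ne_zero.mpr one_ne_zero
  have := h.mul (-1) f h1 hf
  rw [neg_one_mul, h.map_neg_one, zero_add] at this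
  exact this

theorem map_inv (f : F) (hf : f ≠ 0) : ν f⁻¹ = -ν f := by
  have := h.mul f f⁻¹ hf (inv_ne_zero hf)
  rw [mul_inv_cancel₀ hf, h.map_one] at this
  omega

theorem map_pow (f : F) (hf : f ≠ 0) (n : ℕ) : ν (f ^ n) = n * ν f := by
  induction n with
  | zero => simp [h.map_one]
  | succ n ih =>
    rw [pow_succ, h.mul _ _ (pow_ne_zero n hf) hf, ih]
    push_cast
    ring

theorem map_zpow (f : F) (hf : f ≠ 0) (n : ℤ) : ν (f ^ n) = n * ν f := by
  cases n with
  | ofNat n => simpa using h.map_pow f hf n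
  | negSucc n =>
    rw [zpow_negSucc, h.map_inv _ (pow_ne_zero _ hf), h.map_pow f hf]
    push_cast
    rw [Int.negSucc_eq]
    ring

/-- The valuation subring `{f | f = 0 ∨ 0 ≤ ν f}`. -/
def valuationSubring : ValuationSubring F where
  carrier := {f | f = 0 ∨ 0 ≤ ν f}
  mul_mem' := by
    rintro a b (rfl | ha) (rfl | hb)
    · left; simp
    · left; simp
    · left; simp
    · rcases eq_or_ne a 0 with rfl | ha0
      · left; simp
      rcases eq_or_ne b 0 with rfl | hb0
      · left; simp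
      right
      rw [h.mul a b ha0 hb0]
      omega
  one_mem' := Or.inr (le_of_eq h.map_one.symm)
  add_mem' := by
    rintro a b ha hb
    rcases eq_or_ne a 0 with rfl | ha0
    · simpa using hb
    rcases eq_or_ne b 0 with rfl | hb0
    · simpa using ha
    rcases eq_or_ne (a + b) 0 with hab | hab
    · exact Or.inl hab
    right
    have ha' : 0 ≤ ν a := ha.resolve_left ha0
    have hb' : 0 ≤ ν b := hb.resolve_left hb0
    exact le_trans (le_min ha' hb') (h.add a b ha0 hb0 hab)
  zero_mem' := Or.inl rfl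
  neg_mem' := by
    rintro a ha
    rcases eq_or_ne a 0 with rfl | ha0
    · left; simp
    right
    rw [h.map_neg a ha0]
    exact ha.resolve_left ha0
  mem_or_inv_mem' := by
    intro a
    rcases eq_or_ne a 0 with rfl | ha0
    · left; left; rfl
    by_cases hν : 0 ≤ ν a
    · left; right; exact hν
    · right; right
      rw [h.map_inv a ha0]
      omega

theorem mem_valuationSubring_iff (f : F) : f ∈ h.valuationSubring ↔ f = 0 ∨ 0 ≤ ν f := Iff.rfl

theorem isUnit_iff (x : h.valuationSubring) : IsUnit x ↔ (x : F) ≠ 0 ∧ ν (x : F) = 0 := by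
  constructor
  · intro hx
    obtain ⟨u, rfl⟩ := hx
    have hu0 : ((u : h.valuationSubring) : F) ≠ 0 := by
      simp [ne_eq, ZeroMemClass.coe_eq_zero]
    refine ⟨hu0, ?_⟩
    have h1 : 0 ≤ ν ((u : h.valuationSubring) : F) := (u : h.valuationSubring).2.resolve_left hu0
    have hinv : (((u⁻¹ : (h.valuationSubring)ˣ) : h.valuationSubring) : F)
        = ((u : h.valuationSubring) : F)⁻¹ := by
      have : ((u : h.valuationSubring) : F) * (((u⁻¹ : (h.valuationSubring)ˣ) :
          h.valuationSubring) : F) = 1 := by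
        have h3 : ((u : h.valuationSubring) * ((u⁻¹ : (h.valuationSubring)ˣ) :
          h.valuationSubring) : h.valuationSubring) = 1 := u.mul_inv
        have h4 := congrArg (Subtype.val) h3
        exact h4
      exact (eq_inv_of_mul_eq_one_right this)
    have hui0 : (((u⁻¹ : (h.valuationSubring)ˣ) : h.valuationSubring) : F) ≠ 0 := by
      simp [ne_eq, ZeroMemClass.coe_eq_zero]
    have h2 : 0 ≤ ν (((u⁻¹ : (h.valuationSubring)ˣ) : h.valuationSubring) : F) :=
      ((u⁻¹ : (h.valuationSubring)ˣ) : h.valuationSubring).2.resolve_left hui0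
    rw [hinv, h.map_inv _ hu0] at h2
    omega
  · rintro ⟨hx0, hν⟩
    have hinv : (x : F)⁻¹ ∈ h.valuationSubring := by
      right
      rw [h.map_inv _ hx0, hν]
      simp
    refine isUnit_iff_exists_inv.mpr ⟨⟨(x : F)⁻¹, hinv⟩, ?_⟩
    ext
    simp [mul_inv_cancel₀ hx0]

theorem ne_top : h.valuationSubring ≠ ⊤ := by
  obtain ⟨f, hf0, hν⟩ := h.nontriv
  intro htop
  rcases lt_or_gt_of_ne hν with hlt | hgt
  · have : f ∈ h.valuationSubring := htop ▸ ValuationSubring.mem_top f
    rcases this with h0 | h0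
    · exact hf0 h0
    · omega
  · have : f⁻¹ ∈ h.valuationSubring := htop ▸ ValuationSubring.mem_top f⁻¹
    rcases this with h0 | h0
    · exact inv_ne_zero hf0 h0
    · rw [h.map_inv f hf0] at h0
      omega

theorem isPrincipalIdealRing : IsPrincipalIdealRing h.valuationSubring := by
  classical
  refine ⟨fun I => ?_⟩
  by_cases hI : I = ⊥
  · rw [hI]; exact bot_isPrincipal
  obtain ⟨x, hxI, hx0⟩ := Submodule.exists_mem_ne_zero_of_ne_bot hI
  have hx0F : (x : F) ≠ 0 := by simpa [ne_eq, ZeroMemClass.coe_eq_zero] using hx0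
  -- the set of values taken on nonzero elements of `I`
  let P : ℕ → Prop := fun n => ∃ y : h.valuationSubring, y ∈ I ∧ (y : F) ≠ 0 ∧ ν (y : F) = n
  have hP : ∃ n, P n := by
    refine ⟨(ν (x : F)).toNat, x, hxI, hx0F, ?_⟩
    have : 0 ≤ ν (x : F) := x.2.resolve_left hx0F
    omega
  obtain ⟨y, hyI, hy0, hyν⟩ := Nat.find_spec hP
  refine ⟨⟨y, ?_⟩⟩
  apply le_antisymm
  · intro z hzI
    rcases eq_or_ne z 0 with rfl | hz0
    · exact Submodule.zero_mem _
    have hz0F : (z : F) ≠ 0 := by simpa [ne_eq, ZeroMemClass.coe_eq_zero] using hz0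
    have hzν : 0 ≤ ν (z : F) := z.2.resolve_left hz0F
    have hmin : Nat.find hP ≤ (ν (z : F)).toNat :=
      Nat.find_min' hP ⟨z, hzI, hz0F, by omega⟩
    have hquot : (z : F) / (y : F) ∈ h.valuationSubring := by
      right
      rw [div_eq_mul_inv, h.mul _ _ hz0F (inv_ne_zero hy0), h.map_inv _ hy0, hyν]
      omega
    rw [Submodule.mem_span_singleton]
    refine ⟨⟨(z : F) / (y : F), hquot⟩, ?_⟩
    ext
    simp [div_mul_cancel₀ _ hy0]
  · rw [Submodule.span_le]
    rintro _ ⟨rfl⟩
    exact hyI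

/-- The place of `F/K` attached to an order function. -/
def place : Place K F where
  toValuationSubring := h.valuationSubring
  algebraMap_mem' := fun a => by
    rcases eq_or_ne a 0 with rfl | ha
    · left; simp
    · right; rw [h.const a ha]
  ne_top' := h.ne_top
  isPrincipalIdealRing' := h.isPrincipalIdealRing

@[simp]
theorem place_toValuationSubring : h.place.toValuationSubring = h.valuationSubring := rfl

theorem mem_place_iff (f : F) : f ∈ h.place.toValuationSubring ↔ f = 0 ∨ 0 ≤ ν f := Iff.rfl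

/-- `ν` is a positive integer multiple of the normalised order of the place. -/
theorem exists_pos_mul_ord :
    ∃ g : ℤ, 0 < g ∧ ∀ f : F, f ≠ 0 → ν f = g * h.place.ord f := by
  obtain ⟨π, hπ⟩ := IsDiscreteValuationRing.exists_irreducible h.place.toValuationSubring
  have hπ0 : (π : F) ≠ 0 := by
    simpa [ne_eq, ZeroMemClass.coe_eq_zero] using hπ.ne_zero
  have hπν : 0 ≤ ν (π : F) := π.2.resolve_left hπ0
  have hπpos : 0 < ν (π : F) := by
    rcases hπν.lt_or_eq with hlt | heq
    · exact hlt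
    · exact absurd ((h.isUnit_iff π).mpr ⟨hπ0, heq.symm⟩) hπ.not_isUnit
  refine ⟨ν (π : F), hπpos, fun f hf => ?_⟩
  obtain ⟨u, hu⟩ := h.place.exists_unit_mul_zpow hf hπ
  have huu : IsUnit ((u : h.place.toValuationSubring) : h.valuationSubring) := u.isUnit
  have hu0 : ((u : h.place.toValuationSubring) : F) ≠ 0 := ((h.isUnit_iff _).mp huu).1
  have huν : ν ((u : h.place.toValuationSubring) : F) = 0 := ((h.isUnit_iff _).mp huu).2
  conv_lhs => rw [hu]
  rw [h.mul _ _ hu0 (zpow_ne_zero _ hπ0), huν, zero_add, h.map_zpow _ hπ0]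
  ring

end IsOrdFun

/-- Existence form, convenient for applications. -/
theorem exists_place_of_ordFun (ν : F → ℤ)
    (hmul : ∀ f g : F, f ≠ 0 → g ≠ 0 → ν (f * g) = ν f + ν g)
    (hadd : ∀ f g : F, f ≠ 0 → g ≠ 0 → f + g ≠ 0 → min (ν f) (ν g) ≤ ν (f + g))
    (hK : ∀ a : K, a ≠ 0 → ν (algebraMap K F a) = 0)
    (hnt : ∃ f : F, f ≠ 0 ∧ ν f ≠ 0) :
    ∃ (v : Place K F) (g : ℤ), 0 < g ∧ (∀ f : F, f ≠ 0 → ν f = g * v.ord f) ∧
      (∀ f : F, f ∈ v.toValuationSubring ↔ f = 0 ∨ 0 ≤ ν f) := by
  have h : IsOrdFun K ν := ⟨hmul, hadd, hK, hnt⟩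
  obtain ⟨g, hg, hord⟩ := h.exists_pos_mul_ord
  exact ⟨h.place, g, hg, hord, fun f => h.mem_place_iff f⟩

/-- Two places with the same valuation ring (as a set) are equal; in particular two order
functions with the same sign pattern define the same place. -/
theorem IsOrdFun.place_eq_of_nonneg_iff {ν ν' : F → ℤ} (h : IsOrdFun K ν) (h' : IsOrdFun K ν')
    (hiff : ∀ f : F, f ≠ 0 → (0 ≤ ν f ↔ 0 ≤ ν' f)) : h.place = h'.place := by
  apply Place.ext
  ext f
  show f ∈ h.valuationSubring ↔ f ∈ h'.valuationSubring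
  rw [h.mem_valuationSubring_iff, h'.mem_valuationSubring_iff]
  rcases eq_or_ne f 0 with rfl | hf
  · simp
  · rw [hiff f hf]

end Fermat.Agent.S24x
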