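/-
S24 blueprint, module A7 (shadow by helper57): a principal divisor has degree zero,
from the two halves of the fundamental identity (`FundIdentityAlt`) and coordinate exchange.
-/
import Mathlib
import Fermat.Agent.S24x.FundIdentityAlt
import Fermat.Agent.S24x.CoordExchange

set_option autoImplicit false

namespace Fermat.Agent.S24x

open AlgebraicCurve

variable {K F : Type*} [Field K] [Field F] [Algebra K F] [IsAlgClosed K] [CharZero K]

/-- **A7**: the divisor of a non-zero function is finite of degree zero. -/
theorem fi_principal_degree_zero {t : F} (ht : IsCoordinate K F t) (g : F) (_hg : g ≠ 0) :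
    ∃ hfin : {v : Place K F | v.ord g ≠ 0}.Finite, ∑ v ∈ hfin.toFinset, v.ord g = 0 := by
  classical
  by_cases hall : ∀ v : Place K F, v.ord g = 0
  · have hempty : {v : Place K F | v.ord g ≠ 0} = ∅ := by
      ext v; simp [hall v]
    have hfin : {v : Place K F | v.ord g ≠ 0}.Finite := by rw [hempty]; exact Set.finite_empty
    refine ⟨hfin, ?_⟩
    have : hfin.toFinset = ∅ := by
      apply Finset.coe_injective
      rw [Set.Finite.coe_toFinset, hempty, Finset.coe_empty]
    rw [this, Finset.sum_empty]
  · rw [not_forall] at hall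
    obtain ⟨v₀, hv₀⟩ := hall
    have hgc : IsCoordinate K F g :=
      ht.of_transcendental (transcendental_of_ord_ne_zero v₀ hv₀)
    obtain ⟨hfZ, hsZ⟩ := fi_sum_ord_placesOver hgc (0 : K)
    obtain ⟨hfP, hsP⟩ := fi_sum_ord_polePlaces hgc
    have hset : {v : Place K F | v.ord g ≠ 0} = placesOver K F g 0 ∪ polePlaces K F g := by
      ext v
      simp only [Set.mem_ofPred_eq, Set.mem_union, placesOver, polePlaces, map_zero, sub_zero]
      omega
    have hfin : {v : Place K F | v.ord g ≠ 0}.Finite := by
      rw [hset]; exact hfZ.union hfP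
    refine ⟨hfin, ?_⟩
    have htf : hfin.toFinset = hfZ.toFinset ∪ hfP.toFinset := by
      apply Finset.coe_injective
      rw [Set.Finite.coe_toFinset, Finset.coe_union, Set.Finite.coe_toFinset,
        Set.Finite.coe_toFinset, hset]
    have hdisj : Disjoint hfZ.toFinset hfP.toFinset := by
      rw [Finset.disjoint_left]
      intro v hvZ hvP
      rw [Set.Finite.mem_toFinset] at hvZ hvP
      simp only [placesOver, polePlaces, Set.mem_ofPred_eq, map_zero, sub_zero] at hvZ hvP
      omega
    rw [htf, Finset.sum_union hdisj]
    have h1 : ∑ v ∈ hfZ.toFinset, v.ord g = (cdeg K F g : ℤ) := by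
      rw [← hsZ]
      refine Finset.sum_congr rfl fun v _ => ?_
      rw [map_zero, sub_zero]
    have h2 : ∑ v ∈ hfP.toFinset, v.ord g = -(cdeg K F g : ℤ) := by
      rw [← hsP, Finset.sum_neg_distrib, neg_neg]
    rw [h1, h2, add_neg_cancel]

end Fermat.Agent.S24x
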