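import Mathlib
import Fermat.Prelude.Def_ModularCurve_X0

/-!
# S24 bridge, part 3: functions analytic at the cusp, and the substitution `z ↦ d z`

`IsQAn f` : `f : ℍ → ℂ` is `1`-periodic, holomorphic and bounded at `i∞`.  On these functions
`qExpansion 1` is an injective ring homomorphism to `PowerSeries ℂ`; the substitution `z ↦ d z`
corresponds to the Prelude's `ModularCurve.qExpand ℂ d` on the level of Laurent series.
-/

set_option autoImplicit false

noncomputable section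

namespace Fermat.Agent.S24x

open UpperHalfPlane Filter Topology Function
open scoped Manifold

local notation "𝕢" => Function.Periodic.qParam

/-- `f` is `1`-periodic, holomorphic on `ℍ` and bounded at `i∞`. -/
def IsQAn (f : ℍ → ℂ) : Prop :=
  Function.Periodic (f ∘ ofComplex) (1 : ℝ) ∧ MDiff f ∧ IsBoundedAtImInfty f

namespace IsQAn

variable {f g : ℍ → ℂ}

lemma periodic (hf : IsQAn f) : Function.Periodic (f ∘ ofComplex) (1 : ℝ) := hf.1
lemma mdiff (hf : IsQAn f) : MDiff f := hf.2.1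
lemma bdd (hf : IsQAn f) : IsBoundedAtImInfty f := hf.2.2

lemma analyticAt (hf : IsQAn f) : AnalyticAt ℂ (cuspFunction 1 f) 0 :=
  analyticAt_cuspFunction_zero one_pos hf.1 hf.2.1 hf.2.2

lemma hasSum (hf : IsQAn f) (τ : ℍ) :
    HasSum (fun m : ℕ ↦ (qExpansion 1 f).coeff m • 𝕢 1 τ ^ m) (f τ) :=
  hasSum_qExpansion one_pos hf.1 hf.2.1 hf.2.2 τ

lemma mul (hf : IsQAn f) (hg : IsQAn g) : IsQAn (f * g) := by
  refine ⟨?_, hf.2.1.mul hg.2.1, hf.2.2.mul hg.2.2⟩
  intro w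
  have h1 := hf.1 w
  have h2 := hg.1 w
  simp only [comp_apply, Pi.mul_apply] at h1 h2 ⊢
  rw [h1, h2]

lemma add (hf : IsQAn f) (hg : IsQAn g) : IsQAn (f + g) := by
  refine ⟨?_, hf.2.1.add hg.2.1, hf.2.2.add hg.2.2⟩
  intro w
  have h1 := hf.1 w
  have h2 := hg.1 w
  simp only [comp_apply, Pi.add_apply] at h1 h2 ⊢
  rw [h1, h2]

lemma const (c : ℂ) : IsQAn (fun _ : ℍ => c) :=
  ⟨fun _ => rfl, mdifferentiable_const, Filter.const_boundedAtFilter _ c⟩

lemma one : IsQAn (1 : ℍ → ℂ) := const 1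

lemma zero : IsQAn (0 : ℍ → ℂ) := const 0

lemma neg (hf : IsQAn f) : IsQAn (-f) := by
  have := (const (-1)).mul hf
  convert this using 1
  funext z
  simp

lemma sub (hf : IsQAn f) (hg : IsQAn g) : IsQAn (f - g) := by
  rw [sub_eq_add_neg]
  exact hf.add hg.neg

lemma pow (hf : IsQAn f) (n : ℕ) : IsQAn (f ^ n) := by
  induction n with
  | zero => simpa using one
  | succ n ih => rw [pow_succ]; exact ih.mul hf

lemma qExpansion_mul (hf : IsQAn f) (hg : IsQAn g) :
    qExpansion 1 (f * g) = qExpansion 1 f * qExpansion 1 g :=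
  UpperHalfPlane.qExpansion_mul hf.analyticAt hg.analyticAt

lemma qExpansion_add (hf : IsQAn f) (hg : IsQAn g) :
    qExpansion 1 (f + g) = qExpansion 1 f + qExpansion 1 g :=
  UpperHalfPlane.qExpansion_add hf.analyticAt hg.analyticAt

lemma qExpansion_pow (hf : IsQAn f) (n : ℕ) :
    qExpansion 1 (f ^ n) = qExpansion 1 f ^ n := by
  induction n with
  | zero => simpa using UpperHalfPlane.qExpansion_one 1
  | succ n ih => rw [pow_succ, (hf.pow n).qExpansion_mul hf, ih, pow_succ]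

lemma qExpansion_eq_zero_iff (hf : IsQAn f) : qExpansion 1 f = 0 ↔ f = 0 :=
  UpperHalfPlane.qExpansion_eq_zero_iff one_pos hf.1 hf.2.1 hf.2.2

end IsQAn

/-- multiplication by a positive natural number on `ℍ` -/
def qaScale (d : ℕ) [NeZero d] (z : ℍ) : ℍ :=
  ⟨(d : ℂ) * z, by
    have hd : (0 : ℝ) < d := Nat.cast_pos.mpr (NeZero.pos d)
    simpa using mul_pos hd z.im_pos⟩

@[simp] lemma coe_qaScale (d : ℕ) [NeZero d] (z : ℍ) : ((qaScale d z : ℍ) : ℂ) = (d : ℂ) * z := rfl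

lemma im_qaScale (d : ℕ) [NeZero d] (z : ℍ) : (qaScale d z).im = (d : ℝ) * z.im := by
  change ((d : ℂ) * (z : ℂ)).im = _
  simp

lemma qaScale_one (z : ℍ) : qaScale 1 z = z := by
  ext
  simp

lemma qParam_qaScale (d : ℕ) [NeZero d] (z : ℍ) : 𝕢 1 (qaScale d z : ℂ) = 𝕢 1 (z : ℂ) ^ d := by
  simp only [Function.Periodic.qParam, coe_qaScale, ← Complex.exp_nat_mul]
  congr 1
  ring

lemma tendsto_qaScale_atImInfty (d : ℕ) [NeZero d] : Tendsto (qaScale d) atImInfty atImInfty := by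
  rw [atImInfty, tendsto_comap_iff]
  have hd : (0 : ℝ) < d := Nat.cast_pos.mpr (NeZero.pos d)
  have : (UpperHalfPlane.im ∘ qaScale d) = fun z : ℍ => (d : ℝ) * z.im := funext (im_qaScale d)
  rw [this]
  exact (tendsto_id.const_mul_atTop hd).comp tendsto_comap

lemma IsQAn.comp_qaScale {f : ℍ → ℂ} (hf : IsQAn f) (d : ℕ) [NeZero d] : IsQAn (f ∘ qaScale d) := by
  have hd : (0 : ℝ) < d := Nat.cast_pos.mpr (NeZero.pos d)
  refine ⟨?_, ?_, hf.bdd.comp_tendsto (tendsto_qaScale_atImInfty d)⟩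
  · intro w
    by_cases! hw : 0 < w.im
    · have hw1 : 0 < (w + (1 : ℝ)).im := by simpa using hw
      have hdw : 0 < ((d : ℂ) * w).im := by simpa using mul_pos hd hw
      simp only [comp_apply, ofComplex_apply_of_im_pos hw1, ofComplex_apply_of_im_pos hw]
      have hper : Function.Periodic (f ∘ ofComplex) ((d : ℕ) * (1 : ℝ)) := hf.periodic.nat_mul d
      have h := hper ((d : ℂ) * w)
      simp only [comp_apply] at h
      have e1 : qaScale d ⟨w + (1 : ℝ), hw1⟩ = ofComplex ((d : ℂ) * w + (d : ℂ) * ((1 : ℝ) : ℂ)) := by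
        rw [ofComplex_apply_of_im_pos (by simpa using hdw)]
        ext
        simp [mul_add]
      have e2 : qaScale d ⟨w, hw⟩ = ofComplex ((d : ℂ) * w) := by
        rw [ofComplex_apply_of_im_pos hdw]
        rfl
      rw [e1, e2]
      exact h
    · have : (w + ((1 : ℝ) : ℂ)).im ≤ 0 := by simpa using hw
      simp only [comp_apply, ofComplex_apply_of_im_nonpos this, ofComplex_apply_of_im_nonpos hw]
  · rw [UpperHalfPlane.mdifferentiable_iff]
    have h1 := UpperHalfPlane.mdifferentiable_iff.mp hf.mdiff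
    have h2 : DifferentiableOn ℂ (fun w : ℂ => (d : ℂ) * w) {z : ℂ | 0 < z.im} :=
      (differentiable_id.const_mul (d : ℂ)).differentiableOn
    have h3 : Set.MapsTo (fun w : ℂ => (d : ℂ) * w) {z : ℂ | 0 < z.im} {z : ℂ | 0 < z.im} := by
      intro w hw
      simpa using mul_pos hd hw
    refine (h1.comp h2 h3).congr ?_
    intro w hw
    have hdw : 0 < ((d : ℂ) * w).im := h3 hw
    simp only [comp_apply, ofComplex_apply_of_im_pos hw, ofComplex_apply_of_im_pos hdw]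
    rfl

lemma IsQAn.hasSum_comp_qaScale {f : ℍ → ℂ} (hf : IsQAn f) (d : ℕ) [NeZero d] (τ : ℍ) :
    HasSum (fun m : ℕ ↦ (if d ∣ m then (qExpansion 1 f).coeff (m / d) else 0) • 𝕢 1 τ ^ m)
      ((f ∘ qaScale d) τ) := by
  have hd : 0 < d := NeZero.pos d
  have h := hf.hasSum (qaScale d τ)
  rw [qParam_qaScale] at h
  have hinj : Function.Injective (fun k : ℕ => d * k) := fun a b hab =>
    Nat.eq_of_mul_eq_mul_left hd hab
  rw [← hinj.hasSum_iff]
  · convert h using 2 with k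
    simp only [comp_apply, dvd_mul_right, if_true, Nat.mul_div_cancel_left _ hd, pow_mul]
    rfl
  · intro x hx
    have : ¬ d ∣ x := fun ⟨k, hk⟩ => hx ⟨k, hk.symm⟩
    simp [this]

/-- uniqueness of `q`-expansion coefficients, for plain functions -/
lemma qa_coeff_unique {f : ℍ → ℂ} {c : ℕ → ℂ}
    (hfanalytic : AnalyticAt ℂ (cuspFunction 1 f) 0)
    (hf : ∀ τ : ℍ, HasSum (fun m ↦ c m • 𝕢 1 τ ^ m) (f τ)) (m : ℕ) :
    c m = (qExpansion 1 f).coeff m := by
  have h1 := (hasFPowerSeriesOnBall_cuspFunction one_pos hfanalytic hf).hasFPowerSeriesAt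
  have h2 : HasFPowerSeriesAt (cuspFunction 1 f)
      (FormalMultilinearSeries.ofScalars ℂ fun m ↦ (qExpansion 1 f).coeff m) 0 := by
    simpa [qExpansion_coeff, div_eq_mul_inv, mul_comm] using hfanalytic.hasFPowerSeriesAt
  simpa [FormalMultilinearSeries.coeff_ofScalars] using
    congr_arg (FormalMultilinearSeries.coeff · m) (h1.eq_formalMultilinearSeries h2)

lemma IsQAn.qExpansion_comp_qaScale_coeff {f : ℍ → ℂ} (hf : IsQAn f) (d : ℕ) [NeZero d] (n : ℕ) :
    (qExpansion 1 (f ∘ qaScale d)).coeff n =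
      if d ∣ n then (qExpansion 1 f).coeff (n / d) else 0 :=
  (qa_coeff_unique (hf.comp_qaScale d).analyticAt (hf.hasSum_comp_qaScale d) n).symm

/-- the `q`-expansion of a function on `ℍ`, as a Laurent series -/
def qaL (f : ℍ → ℂ) : LaurentSeries ℂ := HahnSeries.ofPowerSeries ℤ ℂ (qExpansion 1 f)

lemma qaL_coeff_natCast (f : ℍ → ℂ) (n : ℕ) :
    (qaL f).coeff (n : ℤ) = (qExpansion 1 f).coeff n :=
  HahnSeries.ofPowerSeries_apply_coeff _ n

lemma qaL_coeff_of_neg (f : ℍ → ℂ) {k : ℤ} (hk : k < 0) : (qaL f).coeff k = 0 :=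
  ModularCurve.ofPowerSeries_coeff_of_neg _ hk

lemma IsQAn.qaL_comp_qaScale {f : ℍ → ℂ} (hf : IsQAn f) (d : ℕ) [NeZero d] :
    qaL (f ∘ qaScale d) = ModularCurve.qExpand ℂ d (qaL f) := by
  have hd : 0 < d := NeZero.pos d
  ext k
  by_cases hk : (d : ℤ) ∣ k
  · obtain ⟨m, rfl⟩ := hk
    rw [ModularCurve.qExpand_coeff_mul]
    rcases lt_or_ge m 0 with hm | hm
    · rw [qaL_coeff_of_neg _ hm, qaL_coeff_of_neg]
      exact mul_neg_of_pos_of_neg (by exact_mod_cast hd) hm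
    · obtain ⟨j, rfl⟩ := Int.eq_ofNat_of_zero_le hm
      rw [qaL_coeff_natCast, show ((d : ℤ) * (j : ℤ)) = ((d * j : ℕ) : ℤ) by push_cast; ring,
        qaL_coeff_natCast, hf.qExpansion_comp_qaScale_coeff, if_pos (dvd_mul_right d j),
        Nat.mul_div_cancel_left _ hd]
  · rw [ModularCurve.qExpand_coeff_of_not_dvd d _ hk]
    rcases lt_or_ge k 0 with hk0 | hk0
    · exact qaL_coeff_of_neg _ hk0
    · obtain ⟨n, rfl⟩ := Int.eq_ofNat_of_zero_le hk0
      rw [qaL_coeff_natCast, hf.qExpansion_comp_qaScale_coeff, if_neg]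
      exact fun h => hk (Int.natCast_dvd_natCast.mpr h)

lemma qa_qExpansion_const (c : ℂ) : qExpansion 1 (fun _ : ℍ => c) = PowerSeries.C c := by
  have h1 : (fun _ : ℍ => c) = c • (1 : ℍ → ℂ) := by
    funext z
    simp
  rw [h1, UpperHalfPlane.qExpansion_smul IsQAn.one.analyticAt, UpperHalfPlane.qExpansion_one]
  ext n
  simp [PowerSeries.coeff_C, PowerSeries.coeff_one]

lemma IsQAn.qaL_mul {f g : ℍ → ℂ} (hf : IsQAn f) (hg : IsQAn g) :
    qaL (f * g) = qaL f * qaL g := by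
  rw [qaL, hf.qExpansion_mul hg, map_mul]
  rfl

lemma IsQAn.qaL_add {f g : ℍ → ℂ} (hf : IsQAn f) (hg : IsQAn g) :
    qaL (f + g) = qaL f + qaL g := by
  rw [qaL, hf.qExpansion_add hg, map_add]
  rfl

lemma IsQAn.qaL_pow {f : ℍ → ℂ} (hf : IsQAn f) (n : ℕ) : qaL (f ^ n) = qaL f ^ n := by
  rw [qaL, hf.qExpansion_pow, map_pow]
  rfl

lemma qaL_const (c : ℂ) : qaL (fun _ : ℍ => c) = HahnSeries.C c := by
  rw [qaL, qa_qExpansion_const, HahnSeries.ofPowerSeries_C]

lemma qaL_one : qaL (1 : ℍ → ℂ) = 1 := by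
  rw [qaL, UpperHalfPlane.qExpansion_one, map_one]

lemma qaL_zero : qaL (0 : ℍ → ℂ) = 0 := by
  rw [qaL, UpperHalfPlane.qExpansion_zero, map_zero]

lemma IsQAn.qaL_eq_zero_iff {f : ℍ → ℂ} (hf : IsQAn f) : qaL f = 0 ↔ f = 0 := by
  rw [qaL, map_eq_zero_iff _ HahnSeries.ofPowerSeries_injective, hf.qExpansion_eq_zero_iff]

end Fermat.Agent.S24x
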