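/-
S24 helper library (helper92): from elementary linear disjointness to injectivity of the tensor lift
`ℂ ⊗[K] S → H` (the hypothesis `hLD` of `cov_abstract`).
-/
import Mathlib

set_option autoImplicit false

namespace Fermat.Agent.S24x

open TensorProduct

variable {K S H : Type*} [Field K] [CommRing S] [Algebra K S] [CommRing H] [Algebra ℂ H]
  [Algebra K ℂ] [Algebra K H] [IsScalarTower K ℂ H]

/-- If `e : S →ₐ[K] H` is "linearly disjoint from `ℂ`" in the elementary sense (a relation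
`∑ zᵢ • e σᵢ = 0` with `zᵢ ∈ ℂ` linearly independent over `K` forces all `σᵢ = 0`), then the induced
map `ℂ ⊗[K] S → H` is injective. -/
theorem tld_lift_injective (e : S →ₐ[K] H)
    (hLI : ∀ {ι : Type} [Fintype ι] (z : ι → ℂ),
      (∀ a : ι → K, ∑ i, algebraMap K ℂ (a i) * z i = 0 → ∀ i, a i = 0) →
      ∀ σ : ι → S, ∑ i, algebraMap ℂ H (z i) * e (σ i) = 0 → ∀ i, σ i = 0) :
    Function.Injective
      (Algebra.TensorProduct.lift (Algebra.ofId ℂ H) e (fun _ _ => Commute.all _ _) :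
        ℂ ⊗[K] S →ₐ[ℂ] H) := by
  classical
  rw [injective_iff_map_eq_zero]
  intro x hx
  set ℬ := Module.Basis.ofVectorSpace K ℂ with hℬ
  obtain ⟨b, rfl⟩ := TensorProduct.eq_repr_basis_left ℬ x
  -- index type: the support of `b`
  let ι := {i // i ∈ b.support}
  have hsum : (b.sum fun i n => ℬ i ⊗ₜ[K] n) = ∑ i : ι, ℬ i.1 ⊗ₜ[K] b i.1 := by
    rw [Finsupp.sum, ← Finset.sum_coe_sort]
  rw [hsum] at hx ⊢
  have hz : ∀ a : ι → K, ∑ i, algebraMap K ℂ (a i) * (ℬ i.1 : ℂ) = 0 → ∀ i, a i = 0 := by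
    intro a ha
    have hli : LinearIndependent K (fun i : ι => (ℬ i.1 : ℂ)) :=
      ℬ.linearIndependent.comp Subtype.val Subtype.val_injective
    refine Fintype.linearIndependent_iff.mp hli a ?_
    rw [← ha]
    exact Finset.sum_congr rfl fun i _ => by rw [Algebra.smul_def]
  have hrel : ∑ i : ι, algebraMap ℂ H (ℬ i.1) * e (b i.1) = 0 := by
    rw [← hx, map_sum]
    refine Finset.sum_congr rfl fun i _ => ?_
    rw [Algebra.TensorProduct.lift_tmul, Algebra.ofId_apply]
  have h0 := hLI (fun i : ι => (ℬ i.1 : ℂ)) hz (fun i => b i.1) hrel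
  refine Finset.sum_eq_zero fun i _ => ?_
  rw [h0 i, tmul_zero]

end Fermat.Agent.S24x
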